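/-
Programme V (S19), chapter B2 (helper8): LITE copy of `RR/Adeles.lean` (C-RR, helper28).

The nine theorems of `RR/Adeles` that take the interface `X0.FF.FF1Data K F` only use two of its
consequences: every place has degree one, and `v ↦ ord_v f` has finite support.  Both follow from
`RR.LSpace.LHyp K F` alone, which (unlike `FF1Data`) does not contain the fundamental identity
`Σ_{zeros} ord y = [F : K(y)]` for every transcendental `y`.  So the theory of repartitions is
available for function fields of arbitrary characteristic (the special fibre, Programme V).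
The proofs are those of `RR/Adeles` verbatim.

* `mem_repartitions_iff` : a family `α` is a repartition iff it has finitely many poles.
* `relrank_repartitionsOf` : for `D ≤ D'`, `dim A(D') / A(D) = deg D' - deg D`.
* `finrank_L_add_finrank_sup` : for `D ≤ D'`,
    `dim L(D') / L(D) + dim (A(D') + F) / (A(D) + F) = deg D' - deg D`.
-/
import Mathlib
import Fermat.Prelude.Def_AlgebraicCurve_Repartitions
import Fermat.Agent.RR.Adeles
import Fermat.Agent.RR.LSpace

set_option autoImplicit false

namespace Fermat.Agent.ES.V19.AdelesL8

open AlgebraicCurve Fermat.Agent.X0.FF Fermat.Agent.RR.RelRank Fermat.Agent.RR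
open Fermat.Agent.RR.Adeles (pole_iff exists_const_sub_le adicValuation_zpow_irreducible singleRep
  singleRep_apply_self singleRep_apply_of_ne coe_sub_smul exists_lt_of_le_of_ne le_sub_single diag
  diag_apply diag_injective map_diag_riemannRochSpace exists_nat_of_add_eq)
open Fermat.Agent.RR.LSpace (LHyp)

variable {K F : Type*} [Field K] [Field F] [Algebra K F]

/-- `v ↦ ord_v f` has finite support (from `LHyp.principal`). -/
theorem finite_support_ord (H : LHyp K F) {f : F} (hf : f ≠ 0) :
    {v : Place K F | v.ord f ≠ 0}.Finite := by
  obtain ⟨D, hD, -⟩ := H.principal f hf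
  refine D.support.finite_toSet.subset ?_
  intro v hv
  simp only [Finset.mem_coe, Finsupp.mem_support_iff]
  rw [hD v]
  exact hv

theorem mem_repartitions_iff (H : LHyp K F) {α : Place K F → F} :
    α ∈ repartitions K F ↔ {v : Place K F | v.ord (α v) < 0}.Finite := by
  constructor
  · intro hα
    have key : ∀ β ∈ repartitions K F, {v : Place K F | ¬ v.adicValuation (β v) ≤ 1}.Finite := by
      intro β hβ
      induction hβ using Algebra.adjoin_induction with
      | mem x hx => exact hx
      | algebraMap f =>
        rcases eq_or_ne f 0 with rfl | hf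
        · convert Set.finite_empty
          ext v
          simp
        · refine (finite_support_ord H hf).subset ?_
          intro v hv
          have : v.ord f < 0 := (pole_iff v f).mp hv
          exact ne_of_lt this
      | add x y _ _ hx hy =>
        refine (hx.union hy).subset ?_
        intro v hv
        by_contra hcon
        simp only [Set.mem_union, Set.mem_ofPred_eq, not_or, not_not] at hcon
        exact hv ((Valuation.map_add _ _ _).trans (max_le hcon.1 hcon.2))
      | mul x y _ _ hx hy =>
        refine (hx.union hy).subset ?_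
        intro v hv
        by_contra hcon
        simp only [Set.mem_union, Set.mem_ofPred_eq, not_or, not_not] at hcon
        apply hv
        show v.adicValuation (x v * y v) ≤ 1
        rw [map_mul]
        exact mul_le_one' hcon.1 hcon.2
    have := key α hα
    convert this using 1
    ext v
    exact (pole_iff v (α v)).symm
  · exact mem_repartitions_of_finite_ord

open WithZero in
theorem relrank_repartitionsOf_single (H : LHyp K F) (D : Divisor K F) (v₀ : Place K F) :
    relrank (repartitionsOf D) (repartitionsOf (D + Finsupp.single v₀ (1 : ℤ))) = 1 := by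
  classical
  obtain ⟨π, hπ⟩ := ffp_exists_irreducible v₀
  have hπF : (π : F) ≠ 0 := by
    simpa [ne_eq, ZeroMemClass.coe_eq_zero] using hπ.ne_zero
  set n : ℤ := D v₀ + 1 with hn
  set t : F := (π : F) ^ (-n) with ht
  have hvt : v₀.adicValuation t = exp n := by
    rw [ht, adicValuation_zpow_irreducible v₀ hπ, neg_neg]
  set e : ↥(repartitions K F) := singleRep v₀ t with he
  have hDplus : ∀ w, (D + Finsupp.single v₀ (1 : ℤ)) w = if w = v₀ then D v₀ + 1 else D w := by
    intro w
    rw [Finsupp.add_apply, Finsupp.single_apply]
    split_ifs with h1 h2 h2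
    · rw [h2]
    · exact absurd h1.symm h2
    · exact absurd h2.symm h1
    · rw [add_zero]
  -- (F1) `e ∈ A(D⁺)`
  have he1 : e ∈ repartitionsOf (D + Finsupp.single v₀ (1 : ℤ)) := by
    intro w
    by_cases hw : w = v₀
    · subst hw
      rw [he, singleRep_apply_self, hvt, hDplus, if_pos rfl]
    · rw [he, singleRep_apply_of_ne v₀ t hw]
      simp
  -- (F2) `e ∉ A(D)`
  have he2 : e ∉ repartitionsOf D := by
    intro hmem
    have := hmem v₀
    rw [he, singleRep_apply_self, hvt, exp_le_exp] at this
    omega
  -- (F3) every element of `A(D⁺)` is congruent to a multiple of `e` modulo `A(D)`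
  have he3 : ∀ α ∈ repartitionsOf (D + Finsupp.single v₀ (1 : ℤ)),
      ∃ c : K, α - c • e ∈ repartitionsOf D := by
    intro α hα
    have hα0 := hα v₀
    rw [hDplus, if_pos rfl] at hα0
    set a₀ : F := (α : Place K F → F) v₀ with ha₀
    have hva : v₀.adicValuation (a₀ * (π : F) ^ n) ≤ 1 := by
      rw [map_mul, adicValuation_zpow_irreducible v₀ hπ]
      calc v₀.adicValuation a₀ * exp (-n) ≤ exp (D v₀ + 1) * exp (-n) :=
            mul_le_mul' hα0 le_rfl
        _ = 1 := by rw [← exp_add, hn, add_neg_cancel, exp_zero]
    obtain ⟨c, hc⟩ := exists_const_sub_le v₀ (H.deg_eq_one v₀) hva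
    refine ⟨c, ?_⟩
    intro w
    rw [coe_sub_smul]
    by_cases hw : w = v₀
    · rw [hw, he, singleRep_apply_self]
      have hfac : a₀ - algebraMap K F c * t = (a₀ * (π : F) ^ n - algebraMap K F c) * t := by
        rw [ht, sub_mul, mul_assoc, ← zpow_add₀ hπF, add_neg_cancel, zpow_zero, mul_one]
      rw [← ha₀, hfac, map_mul, hvt]
      calc v₀.adicValuation (a₀ * (π : F) ^ n - algebraMap K F c) * exp n
          ≤ exp (-1 : ℤ) * exp n := mul_le_mul' hc le_rfl
        _ = exp (D v₀) := by rw [← exp_add, hn]; congr 1; ring
    · rw [he, singleRep_apply_of_ne v₀ t hw, mul_zero, sub_zero]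
      have := hα w
      rwa [hDplus, if_neg hw] at this
  -- conclusion
  have hle : repartitionsOf D ≤ repartitionsOf (D + Finsupp.single v₀ (1 : ℤ)) :=
    repartitionsOf_mono (by
      intro w
      rw [hDplus]
      split_ifs with h
      · rw [h]; omega
      · exact le_rfl)
  have hsup : repartitionsOf (D + Finsupp.single v₀ (1 : ℤ)) = repartitionsOf D ⊔ K ∙ e := by
    apply le_antisymm
    · intro α hα
      obtain ⟨c, hc⟩ := he3 α hα
      have : α = (α - c • e) + c • e := by abel
      rw [this]
      exact Submodule.add_mem_sup hc (Submodule.smul_mem _ _ (Submodule.mem_span_singleton_self e))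
    · refine sup_le hle ?_
      rw [Submodule.span_singleton_le_iff_mem]
      exact he1
  rw [hsup, relrank_self_sup]
  unfold relrank
  rw [Submodule.map_span, Set.image_singleton, Module.rank_eq_one_iff_finrank_eq_one]
  apply finrank_span_singleton
  intro h0
  exact he2 ((Submodule.Quotient.mk_eq_zero _).mp h0)

theorem degree_sub_single (H : LHyp K F) (D : Divisor K F) (v : Place K F) :
    Divisor.degree (D - Finsupp.single v (1 : ℤ)) = Divisor.degree D - 1 := by
  rw [map_sub, Divisor.degree_single, H.deg_eq_one v]
  simp

theorem degree_mono (H : LHyp K F) {D D' : Divisor K F} (h : D ≤ D') :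
    Divisor.degree D ≤ Divisor.degree D' := by
  have h1 : Divisor.degree D' - Divisor.degree D = Divisor.degree (D' - D) := (map_sub _ _ _).symm
  have h2 : 0 ≤ Divisor.degree (D' - D) := by
    rw [LSpace.degree_eq_sum H]
    refine Finset.sum_nonneg fun v _ => ?_
    have := Finsupp.le_def.mp h v
    rw [Finsupp.sub_apply]
    omega
  omega

theorem relrank_repartitionsOf_aux (H : LHyp K F) (D : Divisor K F) (n : ℕ) :
    ∀ D' : Divisor K F, D ≤ D' → Divisor.degree D' - Divisor.degree D = n →
      relrank (repartitionsOf D) (repartitionsOf D') = n := by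
  induction n with
  | zero =>
    intro D' h hd
    by_cases hne : D' = D
    · rw [hne, relrank_eq_zero_of_le le_rfl]; simp
    · exfalso
      obtain ⟨v, hv⟩ := exists_lt_of_le_of_ne h hne
      have h1 := degree_mono H (le_sub_single h hv)
      rw [degree_sub_single H] at h1
      simp only [Nat.cast_zero] at hd
      omega
  | succ n ih =>
    intro D' h hd
    have hne : D' ≠ D := by
      rintro rfl
      simp only [sub_self, Nat.cast_add, Nat.cast_one] at hd
      omega
    obtain ⟨v, hv⟩ := exists_lt_of_le_of_ne h hne
    set D'' : Divisor K F := D' - Finsupp.single v (1 : ℤ) with hD''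
    have hle : D ≤ D'' := le_sub_single h hv
    have hdeg : Divisor.degree D'' - Divisor.degree D = n := by
      rw [hD'', degree_sub_single H]
      push_cast at hd
      omega
    have h1 := ih D'' hle hdeg
    have h2 := relrank_repartitionsOf_single H D'' v
    have hD' : D'' + Finsupp.single v (1 : ℤ) = D' := by rw [hD'']; abel
    rw [hD'] at h2
    have hle' : D'' ≤ D' := by
      rw [← hD']
      intro w
      classical
      rw [Finsupp.add_apply, Finsupp.single_apply]
      split_ifs <;> omega
    rw [← relrank_add (repartitionsOf_mono hle) (repartitionsOf_mono hle'), h1, h2]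
    push_cast
    rfl

/-- **(C2)** For `D ≤ D'`: `dim A(D') / A(D) = deg D' - deg D`. -/
theorem relrank_repartitionsOf (H : LHyp K F) {D D' : Divisor K F} (h : D ≤ D') :
    relrank (repartitionsOf D) (repartitionsOf D') =
      ((Divisor.degree D' - Divisor.degree D).toNat : Cardinal) := by
  apply relrank_repartitionsOf_aux H D _ D' h
  rw [Int.toNat_of_nonneg]
  have := degree_mono H h
  omega

/-- **(C3)** For `D ≤ D'`:
`dim L(D') / L(D) + dim (A(D') + F) / (A(D) + F) = deg D' - deg D`. -/
theorem relrank_L_add_relrank_sup (H : LHyp K F) [Nonempty (Place K F)] {D D' : Divisor K F}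
    (h : D ≤ D') :
    relrank (riemannRochSpace D) (riemannRochSpace D') +
      relrank (repartitionsOf D ⊔ principalRepartitions K F)
        (repartitionsOf D' ⊔ principalRepartitions K F) =
      ((Divisor.degree D' - Divisor.degree D).toNat : Cardinal) := by
  rw [← relrank_repartitionsOf H h,
    relrank_eq_inf_add_sup (repartitionsOf_mono h) (principalRepartitions K F),
    ← map_diag_riemannRochSpace, ← map_diag_riemannRochSpace,
    relrank_map_of_injective _ diag_injective]

/-- `A(D') / A(D)` is finite-dimensional of dimension `deg D' - deg D`. -/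
theorem finrank_repartitionsOf (H : LHyp K F) {D D' : Divisor K F} (h : D ≤ D') :
    Module.Finite K ↥((repartitionsOf D').map (repartitionsOf D).mkQ) ∧
      (Module.finrank K ↥((repartitionsOf D').map (repartitionsOf D).mkQ) : ℤ) =
        Divisor.degree D' - Divisor.degree D := by
  obtain ⟨h1, h2⟩ := finrank_of_relrank_eq (relrank_repartitionsOf H h)
  refine ⟨h1, ?_⟩
  rw [h2, Int.toNat_of_nonneg]
  have := degree_mono H h
  omega

/-- **(C3)**, natural-number form: both `L(D') / L(D)` and `(A(D') + F) / (A(D) + F)` are
finite-dimensional and their dimensions add up to `deg D' - deg D`. -/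
theorem finrank_L_add_finrank_sup (H : LHyp K F) [Nonempty (Place K F)] {D D' : Divisor K F}
    (h : D ≤ D') :
    Module.Finite K ↥((riemannRochSpace D').map (riemannRochSpace D).mkQ) ∧
    Module.Finite K ↥((repartitionsOf D' ⊔ principalRepartitions K F).map
      (repartitionsOf D ⊔ principalRepartitions K F).mkQ) ∧
    (Module.finrank K ↥((riemannRochSpace D').map (riemannRochSpace D).mkQ) : ℤ) +
      Module.finrank K ↥((repartitionsOf D' ⊔ principalRepartitions K F).map
        (repartitionsOf D ⊔ principalRepartitions K F).mkQ) =
      Divisor.degree D' - Divisor.degree D := by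
  obtain ⟨a, b, ha, hb, hab⟩ := exists_nat_of_add_eq (relrank_L_add_relrank_sup H h)
  obtain ⟨ha1, ha2⟩ := finrank_of_relrank_eq ha
  obtain ⟨hb1, hb2⟩ := finrank_of_relrank_eq hb
  refine ⟨ha1, hb1, ?_⟩
  rw [ha2, hb2]
  have h0 := degree_mono H h
  have : ((a + b : ℕ) : ℤ) = ((Divisor.degree D' - Divisor.degree D).toNat : ℤ) := by
    rw [hab]
  rw [Int.toNat_of_nonneg (by omega)] at this
  push_cast at this
  exact this

end Fermat.Agent.ES.V19.AdelesL8
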