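/-
Programme V (S19), chapter A2 (local criterion + descent), brick (A2-unr), part 1 (helper16):
**the open subgroups `Γ_f ≤ D_A` cut out by the finite subfields `𝔽_{ℓ^f}` of the residue field.**

`A` a valuation subring of `ℚ̄` over `ℓ`, `D = A.decompositionSubgroup ℚ`, `I = A.inertiaSubgroupIn ℚ`,
`k = A/𝔪_A`.  `gammaF A ℓ f := {σ ∈ D | σ̄ y = y for all y ∈ k with y^(ℓ^f) = y}`.
-/
import Mathlib
import Fermat.Prelude.Def_FLTPrelim_Ramification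
import Fermat.Prelude.Def_EllipticCurve_FrobeniusTrace
import Fermat.Agent.S05.Inertia
import Fermat.Agent.ES.FROB.FrobFacts12
import Fermat.Agent.ES.P36.RootsUnr20

set_option autoImplicit false

namespace Fermat.Agent.ES.V19.GammaF16

open ValuationSubring
open scoped Pointwise

local notation "Qbar" => AlgebraicClosure ℚ
local notation "GQ" => (AlgebraicClosure ℚ ≃ₐ[ℚ] AlgebraicClosure ℚ)

variable (A : ValuationSubring Qbar) (ℓ : ℕ)

/-! ### The action of `D_A` on the residue field, elementwise -/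

theorem apply_mem {σ : GQ} (h : σ ∈ A.decompositionSubgroup ℚ) {x : Qbar} (hx : x ∈ A) :
    σ x ∈ A :=
  (Fermat.Agent.S05.Inertia.apply_mem_iff_of_mem_decomposition h x).mpr hx

theorem residue_apply {σ : GQ} (h : σ ∈ A.decompositionSubgroup ℚ) {x : Qbar} (hx : x ∈ A) :
    IsLocalRing.residue A ⟨σ x, apply_mem A h hx⟩ =
      (⟨σ, h⟩ : A.decompositionSubgroup ℚ) • IsLocalRing.residue A ⟨x, hx⟩ := by
  rw [← IsLocalRing.ResidueField.residue_smul]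
  rfl

theorem residue_eq_iff {x y : Qbar} (hx : x ∈ A) (hy : y ∈ A) :
    IsLocalRing.residue A ⟨x, hx⟩ = IsLocalRing.residue A ⟨y, hy⟩ ↔ A.valuation (x - y) < 1 := by
  rw [← sub_eq_zero, ← map_sub, IsLocalRing.residue_eq_zero_iff]
  exact ValuationSubring.valuation_lt_one_iff A (⟨x, hx⟩ - ⟨y, hy⟩)

theorem residue_pow {x : Qbar} (hx : x ∈ A) (n : ℕ) :
    IsLocalRing.residue A ⟨x ^ n, pow_mem hx n⟩ = IsLocalRing.residue A ⟨x, hx⟩ ^ n := by
  rw [← map_pow]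
  rfl

/-! ### The subgroups `Γ_f` -/

/-- `Γ_f`: the elements of `D_A` acting trivially on `𝔽_{ℓ^f} = {y ∈ k | y^(ℓ^f) = y}`. -/
noncomputable def gammaF (f : ℕ) : Subgroup GQ :=
  (fixingSubgroup (A.decompositionSubgroup ℚ)
    {y : IsLocalRing.ResidueField A | y ^ (ℓ ^ f) = y}).map (A.decompositionSubgroup ℚ).subtype

variable {A ℓ}

theorem mem_gammaF_iff {f : ℕ} {σ : GQ} :
    σ ∈ gammaF A ℓ f ↔ ∃ h : σ ∈ A.decompositionSubgroup ℚ,
      ∀ y : IsLocalRing.ResidueField A, y ^ (ℓ ^ f) = y →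
        (⟨σ, h⟩ : A.decompositionSubgroup ℚ) • y = y := by
  unfold gammaF
  rw [Subgroup.mem_map]
  constructor
  · rintro ⟨g, hg, rfl⟩
    exact ⟨g.2, fun y hy => (mem_fixingSubgroup_iff _).mp hg y hy⟩
  · rintro ⟨h, hy⟩
    exact ⟨⟨σ, h⟩, (mem_fixingSubgroup_iff _).mpr fun y hy' => hy y hy', rfl⟩

theorem mem_gammaF_iff_val {f : ℕ} {σ : GQ} :
    σ ∈ gammaF A ℓ f ↔ σ ∈ A.decompositionSubgroup ℚ ∧
      ∀ x ∈ A, A.valuation (x ^ (ℓ ^ f) - x) < 1 → A.valuation (σ x - x) < 1 := by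
  rw [mem_gammaF_iff]
  constructor
  · rintro ⟨h, hy⟩
    refine ⟨h, fun x hx hval => ?_⟩
    have h1 : IsLocalRing.residue A ⟨x, hx⟩ ^ (ℓ ^ f) = IsLocalRing.residue A ⟨x, hx⟩ := by
      rw [← residue_pow A hx, residue_eq_iff]
      exact hval
    have h2 := hy _ h1
    rw [← residue_apply A h hx, residue_eq_iff] at h2
    exact h2
  · rintro ⟨h, hx⟩
    refine ⟨h, fun y hy => ?_⟩
    obtain ⟨⟨x, hxA⟩, rfl⟩ := IsLocalRing.residue_surjective y
    rw [← residue_apply A h hxA, residue_eq_iff]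
    refine hx x hxA ?_
    rw [← residue_pow A hxA, residue_eq_iff] at hy
    exact hy

theorem gammaF_le_decomposition (f : ℕ) : gammaF A ℓ f ≤ A.decompositionSubgroup ℚ :=
  fun _ hσ => (mem_gammaF_iff.mp hσ).1

theorem inertia_le_gammaF (f : ℕ) : A.inertiaSubgroupIn ℚ ≤ gammaF A ℓ f := by
  intro σ hσ
  obtain ⟨h, hx⟩ := (Fermat.Agent.ES.FROB.FrobFacts12.mem_inertiaSubgroupIn_iff A).mp hσ
  exact mem_gammaF_iff.mpr ⟨h, fun y _ => hx y⟩

theorem pow_pow_eq_self {M : Type*} [Monoid M] {y : M} {q : ℕ} (hy : y ^ q = y) (c : ℕ) :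
    y ^ (q ^ c) = y := by
  induction c with
  | zero => simp
  | succ c ih => rw [pow_succ, pow_mul, ih, hy]

/-- `Γ_{f'} ≤ Γ_f` when `f ∣ f'`. -/
theorem gammaF_anti {f f' : ℕ} (hff : f ∣ f') : gammaF A ℓ f' ≤ gammaF A ℓ f := by
  intro σ hσ
  obtain ⟨h, hy⟩ := mem_gammaF_iff.mp hσ
  refine mem_gammaF_iff.mpr ⟨h, fun y hy' => hy y ?_⟩
  obtain ⟨c, rfl⟩ := hff
  rw [pow_mul]
  exact pow_pow_eq_self hy' c

/-! ### Powers of a Frobenius element -/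

theorem frob_pow_mem {φ : GQ} (hφ : A.IsFrobeniusAt φ ℓ) (a : ℕ) :
    φ ^ a ∈ A.decompositionSubgroup ℚ :=
  pow_mem hφ.mem_decompositionSubgroup a

theorem frob_pow_smul {φ : GQ} (hφ : A.IsFrobeniusAt φ ℓ) (a : ℕ)
    (y : IsLocalRing.ResidueField A) :
    (⟨φ ^ a, frob_pow_mem hφ a⟩ : A.decompositionSubgroup ℚ) • y = y ^ (ℓ ^ a) := by
  induction a generalizing y with
  | zero =>
    have : (⟨φ ^ 0, frob_pow_mem hφ 0⟩ : A.decompositionSubgroup ℚ) = 1 := Subtype.ext (pow_zero φ)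
    rw [this, one_smul, pow_zero, pow_one]
  | succ a ih =>
    have : (⟨φ ^ (a + 1), frob_pow_mem hφ (a + 1)⟩ : A.decompositionSubgroup ℚ) =
        ⟨φ ^ a, frob_pow_mem hφ a⟩ * ⟨φ, hφ.mem_decompositionSubgroup⟩ := Subtype.ext (pow_succ φ a)
    rw [this, mul_smul, hφ.smul_residue_eq, ih, ← pow_mul, ← pow_succ']

/-- `φ^a x ≡ x^(ℓ^a)` for `x ∈ A`. -/
theorem val_frob_pow_sub {φ : GQ} (hφ : A.IsFrobeniusAt φ ℓ) (a : ℕ) {x : Qbar} (hx : x ∈ A) :
    A.valuation ((φ ^ a) x - x ^ (ℓ ^ a)) < 1 := by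
  have h := frob_pow_smul hφ a (IsLocalRing.residue A ⟨x, hx⟩)
  rw [← residue_apply A (frob_pow_mem hφ a) hx, ← residue_pow A hx, residue_eq_iff] at h
  exact h

theorem frob_pow_mem_gammaF {φ : GQ} (hφ : A.IsFrobeniusAt φ ℓ) {f a : ℕ} (hfa : f ∣ a) :
    φ ^ a ∈ gammaF A ℓ f := by
  refine mem_gammaF_iff.mpr ⟨frob_pow_mem hφ a, fun y hy => ?_⟩
  rw [frob_pow_smul hφ a y]
  obtain ⟨c, rfl⟩ := hfa
  rw [pow_mul]
  exact pow_pow_eq_self hy c

end Fermat.Agent.ES.V19.GammaF16
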