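/-
Programme V (S19), chapter A2 (descent), helper26: **the semilinear action of `G_ℚ` on functions
`X → ℚ̄`** on a `G_ℚ`-set `X`, equivariant functions, and the trace over a system of representatives.

* `star τ f = fun x => τ (f (τ⁻¹ • x))`;
* `IsEquivariant Γ f : ∀ σ ∈ Γ, ∀ x, f (σ • x) = σ (f x)`  (`⇔ ∀ σ ∈ Γ, star σ f = f`);
* `trace γ f = ∑ a, star (γ a) f`, and `trace_isEquivariant`: if `γ` is a system of representatives of
  `D/Γ` (left cosets) and `f` is `Γ`-equivariant, then `trace γ f` is `D`-equivariant.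
-/
import Mathlib

set_option autoImplicit false

namespace Fermat.Agent.ES.V19.StarAct26

local notation "Qbar" => AlgebraicClosure ℚ
local notation "GQ" => (AlgebraicClosure ℚ ≃ₐ[ℚ] AlgebraicClosure ℚ)

noncomputable section

section Star

variable {X : Type*} [MulAction GQ X]

/-- The semilinear action of `G_ℚ` on functions `X → ℚ̄`. -/
def star (τ : GQ) (f : X → Qbar) : X → Qbar := fun x => τ (f (τ⁻¹ • x))

@[simp] theorem star_apply (τ : GQ) (f : X → Qbar) (x : X) : star τ f x = τ (f (τ⁻¹ • x)) := rfl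

theorem star_one (f : X → Qbar) : star (1 : GQ) f = f := by
  funext x
  simp [star]

theorem star_mul (σ τ : GQ) (f : X → Qbar) : star (σ * τ) f = star σ (star τ f) := by
  funext x
  simp [star, mul_smul, mul_inv_rev]

theorem star_zero (τ : GQ) : star τ (0 : X → Qbar) = 0 := by
  funext x
  simp [star]

theorem star_add (τ : GQ) (f g : X → Qbar) : star τ (f + g) = star τ f + star τ g := by
  funext x
  simp [star]

theorem star_neg (τ : GQ) (f : X → Qbar) : star τ (-f) = -star τ f := by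
  funext x
  simp [star]

theorem star_sub (τ : GQ) (f g : X → Qbar) : star τ (f - g) = star τ f - star τ g := by
  funext x
  simp [star]

theorem star_mul_fn (τ : GQ) (f g : X → Qbar) : star τ (f * g) = star τ f * star τ g := by
  funext x
  simp [star]

theorem star_one_fn (τ : GQ) : star τ (1 : X → Qbar) = 1 := by
  funext x
  simp [star]

theorem star_smul (τ : GQ) (c : Qbar) (f : X → Qbar) : star τ (c • f) = τ c • star τ f := by
  funext x
  simp [star]

theorem star_sum {ι : Type*} (s : Finset ι) (τ : GQ) (f : ι → X → Qbar) :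
    star τ (∑ i ∈ s, f i) = ∑ i ∈ s, star τ (f i) := by
  classical
  induction s using Finset.induction_on with
  | empty => simp [star_zero]
  | insert a s ha ih => rw [Finset.sum_insert ha, Finset.sum_insert ha, star_add, ih]

theorem star_const (τ : GQ) (c : Qbar) : star τ (fun _ : X => c) = fun _ => τ c := rfl

/-- `star τ` as an additive equivalence. -/
theorem star_inv_star (τ : GQ) (f : X → Qbar) : star τ⁻¹ (star τ f) = f := by
  rw [← star_mul, inv_mul_cancel, star_one]

theorem star_star_inv (τ : GQ) (f : X → Qbar) : star τ (star τ⁻¹ f) = f := by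
  rw [← star_mul, mul_inv_cancel, star_one]

/-- `Γ`-equivariant functions. -/
def IsEquivariant (Γ : Subgroup GQ) (f : X → Qbar) : Prop :=
  ∀ σ ∈ Γ, ∀ x, f (σ • x) = σ (f x)

theorem isEquivariant_iff_star {Γ : Subgroup GQ} {f : X → Qbar} :
    IsEquivariant Γ f ↔ ∀ σ ∈ Γ, star σ f = f := by
  constructor
  · intro h σ hσ
    funext x
    rw [star_apply, ← h σ hσ, smul_inv_smul]
  · intro h σ hσ x
    have := congrFun (h σ hσ) (σ • x)
    rw [star_apply, inv_smul_smul] at this
    exact this.symm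

theorem IsEquivariant.mono {Γ Γ' : Subgroup GQ} (h : Γ ≤ Γ') {f : X → Qbar}
    (hf : IsEquivariant Γ' f) : IsEquivariant Γ f := fun σ hσ => hf σ (h hσ)

theorem IsEquivariant.zero (Γ : Subgroup GQ) : IsEquivariant Γ (0 : X → Qbar) :=
  fun σ _ x => by simp

theorem IsEquivariant.one (Γ : Subgroup GQ) : IsEquivariant Γ (1 : X → Qbar) :=
  fun σ _ x => by simp

theorem IsEquivariant.add {Γ : Subgroup GQ} {f g : X → Qbar} (hf : IsEquivariant Γ f)
    (hg : IsEquivariant Γ g) : IsEquivariant Γ (f + g) :=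
  fun σ hσ x => by simp [hf σ hσ x, hg σ hσ x]

theorem IsEquivariant.neg {Γ : Subgroup GQ} {f : X → Qbar} (hf : IsEquivariant Γ f) :
    IsEquivariant Γ (-f) :=
  fun σ hσ x => by simp [hf σ hσ x]

theorem IsEquivariant.sub {Γ : Subgroup GQ} {f g : X → Qbar} (hf : IsEquivariant Γ f)
    (hg : IsEquivariant Γ g) : IsEquivariant Γ (f - g) :=
  fun σ hσ x => by simp [hf σ hσ x, hg σ hσ x]

theorem IsEquivariant.mul {Γ : Subgroup GQ} {f g : X → Qbar} (hf : IsEquivariant Γ f)
    (hg : IsEquivariant Γ g) : IsEquivariant Γ (f * g) :=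
  fun σ hσ x => by simp [hf σ hσ x, hg σ hσ x]

/-- Scalars fixed by `Γ` preserve `Γ`-equivariance. -/
theorem IsEquivariant.smul {Γ : Subgroup GQ} {c : Qbar} (hc : ∀ σ ∈ Γ, σ c = c) {f : X → Qbar}
    (hf : IsEquivariant Γ f) : IsEquivariant Γ (c • f) :=
  fun σ hσ x => by simp [hf σ hσ x, hc σ hσ]

theorem IsEquivariant.sum {Γ : Subgroup GQ} {ι : Type*} (s : Finset ι) {f : ι → X → Qbar}
    (hf : ∀ i ∈ s, IsEquivariant Γ (f i)) : IsEquivariant Γ (∑ i ∈ s, f i) := by
  classical
  induction s using Finset.induction_on with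
  | empty => simpa using IsEquivariant.zero Γ
  | insert a s ha ih =>
    rw [Finset.sum_insert ha]
    exact (hf a (Finset.mem_insert_self a s)).add
      (ih fun i hi => hf i (Finset.mem_insert_of_mem hi))

/-- `star τ` of a `Γ`-equivariant function only depends on the coset `τ Γ`. -/
theorem star_mul_of_mem {Γ : Subgroup GQ} {f : X → Qbar} (hf : IsEquivariant Γ f) (τ : GQ)
    {σ : GQ} (hσ : σ ∈ Γ) : star (τ * σ) f = star τ f := by
  rw [star_mul, (isEquivariant_iff_star.1 hf) σ hσ]

/-- If `Γ` is normalised by `τ` then `star τ` preserves `Γ`-equivariance. -/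
theorem IsEquivariant.star {Γ : Subgroup GQ} {f : X → Qbar} (hf : IsEquivariant Γ f) (τ : GQ)
    (hτ : ∀ σ ∈ Γ, τ⁻¹ * σ * τ ∈ Γ) : IsEquivariant Γ (star τ f) := by
  rw [isEquivariant_iff_star] at hf ⊢
  intro σ hσ
  have h1 : σ * τ = τ * (τ⁻¹ * σ * τ) := by group
  rw [← star_mul, h1, star_mul, hf _ (hτ σ hσ)]

end Star

section Trace

variable {X : Type*} [MulAction GQ X]

/-- The trace over a finite family of automorphisms. -/
def trace {d : ℕ} (γ : Fin d → GQ) (f : X → Qbar) : X → Qbar := ∑ a, star (γ a) f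

theorem trace_add {d : ℕ} (γ : Fin d → GQ) (f g : X → Qbar) :
    trace γ (f + g) = trace γ f + trace γ g := by
  simp only [trace, star_add, Finset.sum_add_distrib]

/-- **The trace of a `Γ`-equivariant function over a system of representatives of `D/Γ` is
`D`-equivariant.** -/
theorem trace_isEquivariant {Γ D : Subgroup GQ} {d : ℕ} (γ : Fin d → GQ)
    (hrep : ∀ τ ∈ D, ∃! a, (γ a)⁻¹ * τ ∈ Γ) (hγ : ∀ a, γ a ∈ D)
    {f : X → Qbar} (hf : IsEquivariant Γ f) : IsEquivariant D (trace γ f) := by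
  rw [isEquivariant_iff_star]
  intro τ hτ
  -- the permutation `a ↦ b` with `τ γ_a ∈ γ_b Γ`
  have hex : ∀ a, ∃! b, (γ b)⁻¹ * (τ * γ a) ∈ Γ := fun a => hrep _ (D.mul_mem hτ (hγ a))
  choose π hπ hπu using hex
  have hinj : Function.Injective π := by
    intro a a' h
    -- `γ_a ∈ τ⁻¹ γ_{π a} Γ` and the same for `a'`
    have h1 := hπ a
    have h2 := hπ a'
    rw [← h] at h2
    -- `(γ a)⁻¹ γ a' = ((γ (π a))⁻¹ τ γ a)⁻¹ ((γ (π a))⁻¹ τ γ a')`
    have h3 : (γ a)⁻¹ * γ a' ∈ Γ := by
      have : (γ a)⁻¹ * γ a' = ((γ (π a))⁻¹ * (τ * γ a))⁻¹ * ((γ (π a))⁻¹ * (τ * γ a')) := by group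
      rw [this]
      exact Γ.mul_mem (Γ.inv_mem h1) h2
    have h4 : (γ a')⁻¹ * γ a' ∈ Γ := by rw [inv_mul_cancel]; exact Γ.one_mem
    exact (hrep (γ a') (hγ a')).unique h3 h4
  have hbij : Function.Bijective π := Finite.injective_iff_bijective.1 hinj
  rw [trace, star_sum]
  have h5 : ∀ a, star τ (star (γ a) f) = star (γ (π a)) f := by
    intro a
    rw [← star_mul]
    have : τ * γ a = γ (π a) * ((γ (π a))⁻¹ * (τ * γ a)) := by group
    rw [this, star_mul_of_mem hf _ (hπ a)]
  simp_rw [h5]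
  exact Fintype.sum_bijective π hbij _ _ (fun _ => rfl)

end Trace

end

end Fermat.Agent.ES.V19.StarAct26
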