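/-
Programme V (S19), chapter A2 (descent), helper26: **the étale step** `O_L → O^h` of the descent, by
trace duality.

* `fixRing A Γ`      : the subring of `A` fixed by `Γ` (`O_L = fixRing A Γ_L`, `O^h = fixRing A D`);
* `UnrLevel A Γ_L`   : "`L/ℚ^h` is finite unramified", stated as trace duality: a system of
  representatives `γ_a` of `D/Γ_L` and elements `ω_i, ω'_i ∈ O_L` with
  `∑ i, ω_i · γ_a(ω'_i) = [γ_a ∈ Γ_L]`;
* `eq_sum_smul_trace` : `f = ∑ i, ω_i • Tr(ω'_i • f)` for every `Γ_L`-equivariant `f`;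
* `mem_span_equivariant` : a `D`-stable `O_L`-module `Λ'` of `Γ_L`-equivariant functions is spanned over
  `O_L` by its `D`-equivariant elements.
-/
import Mathlib
import Fermat.Prelude.Def_FLTPrelim_Ramification
import Fermat.Agent.ES.V19.StarAct26

set_option autoImplicit false

namespace Fermat.Agent.ES.V19.TraceDescent26

open Fermat.Agent.ES.V19.StarAct26

local notation "Qbar" => AlgebraicClosure ℚ
local notation "GQ" => (AlgebraicClosure ℚ ≃ₐ[ℚ] AlgebraicClosure ℚ)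

noncomputable section

open scoped Classical

/-- The subring of `A` fixed by `Γ`. -/
def fixRing (A : ValuationSubring Qbar) (Γ : Subgroup GQ) : Subring Qbar where
  carrier := {x | x ∈ A ∧ ∀ σ ∈ Γ, σ x = x}
  mul_mem' := by
    rintro x y ⟨hx, hx'⟩ ⟨hy, hy'⟩
    exact ⟨A.mul_mem _ _ hx hy, fun σ hσ => by rw [map_mul, hx' σ hσ, hy' σ hσ]⟩
  one_mem' := ⟨A.one_mem, fun σ _ => map_one σ⟩
  add_mem' := by
    rintro x y ⟨hx, hx'⟩ ⟨hy, hy'⟩
    exact ⟨A.add_mem _ _ hx hy, fun σ hσ => by rw [map_add, hx' σ hσ, hy' σ hσ]⟩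
  zero_mem' := ⟨A.zero_mem, fun σ _ => map_zero σ⟩
  neg_mem' := by
    rintro x ⟨hx, hx'⟩
    exact ⟨A.neg_mem _ hx, fun σ hσ => by rw [map_neg, hx' σ hσ]⟩

theorem mem_fixRing_iff {A : ValuationSubring Qbar} {Γ : Subgroup GQ} {x : Qbar} :
    x ∈ fixRing A Γ ↔ x ∈ A ∧ ∀ σ ∈ Γ, σ x = x := Iff.rfl

theorem fixRing_anti (A : ValuationSubring Qbar) {Γ Γ' : Subgroup GQ} (h : Γ ≤ Γ') :
    fixRing A Γ' ≤ fixRing A Γ := fun _ hx => ⟨hx.1, fun σ hσ => hx.2 σ (h hσ)⟩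

/-- "`L = ℚ̄^{Γ_L}` is a finite unramified extension of `ℚ^h = ℚ̄^{D}`", as trace duality. -/
structure UnrLevel (A : ValuationSubring Qbar) (ΓL : Subgroup GQ) : Prop where
  inertia_le : A.inertiaSubgroupIn ℚ ≤ ΓL
  le_decomp : ΓL ≤ A.decompositionSubgroup ℚ
  exists_dual : ∃ (d : ℕ) (γ : Fin d → GQ) (ω ω' : Fin d → Qbar),
    (∀ a, γ a ∈ A.decompositionSubgroup ℚ) ∧
    (∀ τ ∈ A.decompositionSubgroup ℚ, ∃! a, (γ a)⁻¹ * τ ∈ ΓL) ∧
    (∀ i, ω i ∈ fixRing A ΓL) ∧ (∀ i, ω' i ∈ fixRing A ΓL) ∧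
    ∀ a, ∑ i, ω i * γ a (ω' i) = if γ a ∈ ΓL then 1 else 0

section Identity

variable {X : Type*} [MulAction GQ X]

/-- **The trace identity** `f = ∑ i, ω_i • Tr(ω'_i • f)`. -/
theorem eq_sum_smul_trace {ΓL : Subgroup GQ} {d : ℕ} (γ : Fin d → GQ) (ω ω' : Fin d → Qbar)
    (hrep1 : ∃! a, γ a ∈ ΓL)
    (hdual : ∀ a, ∑ i, ω i * γ a (ω' i) = if γ a ∈ ΓL then 1 else 0)
    {f : X → Qbar} (hf : IsEquivariant ΓL f) :
    f = ∑ i, ω i • trace γ (ω' i • f) := by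
  obtain ⟨a₀, ha₀, huniq⟩ := hrep1
  have h1 : ∀ i, ω i • trace γ (ω' i • f) = ∑ a, (ω i * γ a (ω' i)) • star (γ a) f := by
    intro i
    rw [trace, Finset.smul_sum]
    refine Finset.sum_congr rfl fun a _ => ?_
    rw [StarAct26.star_smul, smul_smul]
  simp_rw [h1]
  rw [Finset.sum_comm]
  have h2 : ∀ a, ∑ i, (ω i * γ a (ω' i)) • star (γ a) f =
      (if γ a ∈ ΓL then (1 : Qbar) else 0) • star (γ a) f := by
    intro a
    rw [← Finset.sum_smul, hdual a]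
  simp_rw [h2]
  rw [Finset.sum_eq_single a₀]
  · rw [if_pos ha₀, one_smul, (isEquivariant_iff_star.1 hf) _ ha₀]
  · intro b _ hb
    have : γ b ∉ ΓL := fun h => hb (huniq b h)
    rw [if_neg this, zero_smul]
  · intro h
    exact absurd (Finset.mem_univ a₀) h

end Identity

section Span

variable {X : Type*} [MulAction GQ X]

/-- **(D2)** A `D`-stable `O_L`-module of `Γ_L`-equivariant functions is spanned over `O_L` by its
`D`-equivariant elements. -/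
theorem mem_span_equivariant {A : ValuationSubring Qbar} {ΓL : Subgroup GQ} (hΓ : UnrLevel A ΓL)
    (Λ' : Submodule ↥(fixRing A ΓL) (X → Qbar))
    (hequiv : ∀ f ∈ Λ', IsEquivariant ΓL f)
    (hstab : ∀ τ ∈ A.decompositionSubgroup ℚ, ∀ f ∈ Λ', star τ f ∈ Λ')
    {f : X → Qbar} (hf : f ∈ Λ') :
    f ∈ Submodule.span ↥(fixRing A ΓL)
      {g | g ∈ Λ' ∧ IsEquivariant (A.decompositionSubgroup ℚ) g} := by
  obtain ⟨d, γ, ω, ω', hγ, hrep, hω, hω', hdual⟩ := hΓ.exists_dual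
  have hrep1 : ∃! a, γ a ∈ ΓL := by
    obtain ⟨a, ha, hu⟩ := hrep 1 (Subgroup.one_mem _)
    refine ⟨a, ?_, fun b hb => hu b ?_⟩
    · rw [mul_one] at ha
      simpa using ΓL.inv_mem ha
    · show (γ b)⁻¹ * 1 ∈ ΓL
      rw [mul_one]
      exact ΓL.inv_mem hb
  rw [eq_sum_smul_trace γ ω ω' hrep1 hdual (hequiv f hf)]
  refine Submodule.sum_mem _ fun i _ => ?_
  have hsm : ω' i • f ∈ Λ' := Λ'.smul_mem ⟨ω' i, hω' i⟩ hf
  have hsmeq : IsEquivariant ΓL (ω' i • f) := hequiv _ hsm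
  have htr : trace γ (ω' i • f) ∈ Λ' := by
    rw [trace]
    exact Submodule.sum_mem _ fun a _ => hstab _ (hγ a) _ hsm
  have hmem : trace γ (ω' i • f) ∈
      {g | g ∈ Λ' ∧ IsEquivariant (A.decompositionSubgroup ℚ) g} :=
    ⟨htr, trace_isEquivariant γ hrep hγ hsmeq⟩
  have := Submodule.smul_mem (Submodule.span ↥(fixRing A ΓL)
      {g | g ∈ Λ' ∧ IsEquivariant (A.decompositionSubgroup ℚ) g}) (⟨ω i, hω i⟩ : ↥(fixRing A ΓL))
    (Submodule.subset_span hmem)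
  exact this

end Span

end

end Fermat.Agent.ES.V19.TraceDescent26
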