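/-
Programme V (S19), chapter A2, brick (A2-unr), part 3 (helper16):
**the ring `O_Γ = fixRing A Γ` of `Γ`-invariants of `A` is a discrete valuation ring with uniformiser `ℓ`**,
for every subgroup `Γ ≥ I_A` (`A` a valuation subring of `ℚ̄` over `ℓ`); in particular it is noetherian
(the ring hypothesis of chapter A4 for `R = ↥(fixRing A Γ_f)`).

Inputs: main's `P36.UnrFixed1.div_natCast_mem_of_fixed` (an `I_A`-fixed element of `𝔪_A` is divisible by `ℓ`)
and the `ℓ`-adic separatedness of `A` (every `x ≠ 0` has `v(ℓ)^n < v(x)` for some `n`, by algebraicity).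
-/
import Mathlib
import Fermat.Agent.ES.V19.GammaF16
import Fermat.Agent.ES.V19.TraceDescent26
import Fermat.Agent.ES.P36.UnrFixed1

set_option autoImplicit false
set_option linter.unusedSectionVars false
set_option linter.style.haveILetI false

namespace Fermat.Agent.ES.V19.FixRingDVR16

open ValuationSubring Fermat.Agent.ES.V19.GammaF16 Fermat.Agent.ES.V19.TraceDescent26
open scoped Pointwise

local notation "Qbar" => AlgebraicClosure ℚ
local notation "GQ" => (AlgebraicClosure ℚ ≃ₐ[ℚ] AlgebraicClosure ℚ)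

variable {A : ValuationSubring Qbar} {ℓ : ℕ}

/-! ### `ℓ`-adic separatedness of `A` -/

section Sep

variable (hℓ : ℓ.Prime) (hA : A.LiesOverPrime ℓ)

include hℓ hA

theorem val_ell_lt_one : A.valuation (ℓ : Qbar) < 1 :=
  Fermat.Agent.S05.Inertia.valuation_prime_lt_one hA

theorem val_ell_ne_zero : A.valuation (ℓ : Qbar) ≠ 0 := by
  rw [Ne, map_eq_zero]
  exact Nat.cast_ne_zero.mpr hℓ.ne_zero

/-- the valuation of a nonzero integer is a power of `v(ℓ)`. -/
theorem exists_val_natCast_eq {m : ℕ} (hm : m ≠ 0) :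
    ∃ e : ℕ, A.valuation (m : Qbar) = A.valuation (ℓ : Qbar) ^ e := by
  obtain ⟨e, m', hm', rfl⟩ := Nat.exists_eq_pow_mul_and_not_dvd hm ℓ hℓ.ne_one
  refine ⟨e, ?_⟩
  rw [Nat.cast_mul, Nat.cast_pow, map_mul, map_pow,
    Fermat.Agent.S05.Inertia.valuation_natCast_eq_one hℓ hA hm', mul_one]

/-- **Separatedness**: every nonzero `x` has `v(ℓ)^n < v(x)` for some `n`. -/
theorem exists_pow_lt_val {x : Qbar} (hx : x ≠ 0) :
    ∃ n : ℕ, A.valuation (ℓ : Qbar) ^ n < A.valuation x := by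
  have halg : IsAlgebraic ℤ x⁻¹ :=
    (IsFractionRing.isAlgebraic_iff ℤ ℚ Qbar).mpr (Algebra.IsAlgebraic.isAlgebraic x⁻¹)
  obtain ⟨y, hy0, hy⟩ := halg.exists_integral_multiple
  have hmem : y • x⁻¹ ∈ A := Fermat.Agent.Lib.FrobeniusExists.mem_valuationSubring_of_isIntegral A hy
  rw [zsmul_eq_mul] at hmem
  have hle : A.valuation ((y : Qbar) * x⁻¹) ≤ 1 := (A.valuation_le_one_iff _).mpr hmem
  rw [map_mul, map_inv₀] at hle
  have hxv : A.valuation x ≠ 0 := by rwa [Ne, map_eq_zero]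
  have hle' : A.valuation (y : Qbar) ≤ A.valuation x := by
    have := mul_le_mul_left hle (A.valuation x)
    rwa [one_mul, mul_assoc, inv_mul_cancel₀ hxv, mul_one] at this
  have hnat : A.valuation (y : Qbar) = A.valuation ((y.natAbs : ℕ) : Qbar) := by
    rcases Int.natAbs_eq y with h | h
    · conv_lhs => rw [h]
      simp
    · conv_lhs => rw [h]
      simp
  obtain ⟨e, he⟩ := exists_val_natCast_eq hℓ hA (Int.natAbs_ne_zero.mpr hy0)
  refine ⟨e + 1, lt_of_lt_of_le ?_ hle'⟩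
  rw [hnat, he, pow_succ]
  have hpos : 0 < A.valuation (ℓ : Qbar) ^ e :=
    pow_pos (zero_lt_iff.mpr (val_ell_ne_zero hℓ hA)) e
  calc A.valuation (ℓ : Qbar) ^ e * A.valuation (ℓ : Qbar)
      < A.valuation (ℓ : Qbar) ^ e * 1 :=
        mul_lt_mul_of_pos_left (val_ell_lt_one hℓ hA) hpos
    _ = A.valuation (ℓ : Qbar) ^ e := mul_one _

end Sep

/-! ### Units and division by `ℓ` in `fixRing A Γ` -/

section Ring

variable (hℓ : ℓ.Prime) (hA : A.LiesOverPrime ℓ) {Γ : Subgroup GQ}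
  (hIΓ : A.inertiaSubgroupIn ℚ ≤ Γ)

theorem inv_mem_fixRing {x : Qbar} (hx : x ∈ fixRing A Γ) (hv : A.valuation x = 1) :
    x⁻¹ ∈ fixRing A Γ :=
  ⟨(A.valuation_le_one_iff _).mp (by rw [map_inv₀, hv, inv_one]),
    fun σ hσ => by rw [map_inv₀, hx.2 σ hσ]⟩

theorem isUnit_of_val_eq_one {x : ↥(fixRing A Γ)} (hv : A.valuation (x : Qbar) = 1) : IsUnit x := by
  have hne : (x : Qbar) ≠ 0 := by
    intro h0
    rw [h0, map_zero] at hv
    exact zero_ne_one hv
  refine isUnit_iff_exists_inv.mpr ⟨⟨_, inv_mem_fixRing x.2 hv⟩, Subtype.ext ?_⟩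
  show (x : Qbar) * ((x : Qbar))⁻¹ = 1
  exact mul_inv_cancel₀ hne

theorem val_eq_one_of_isUnit {x : ↥(fixRing A Γ)} (hx : IsUnit x) : A.valuation (x : Qbar) = 1 := by
  obtain ⟨y, hy⟩ := isUnit_iff_exists_inv.mp hx
  have h1 : (x : Qbar) * (y : Qbar) = 1 := congrArg Subtype.val hy
  have hxle : A.valuation (x : Qbar) ≤ 1 := (A.valuation_le_one_iff _).mpr x.2.1
  have hyle : A.valuation (y : Qbar) ≤ 1 := (A.valuation_le_one_iff _).mpr y.2.1
  have hmul : A.valuation (x : Qbar) * A.valuation (y : Qbar) = 1 := by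
    rw [← map_mul, h1, map_one]
  refine le_antisymm hxle ?_
  calc (1 : _) = A.valuation (x : Qbar) * A.valuation (y : Qbar) := hmul.symm
    _ ≤ A.valuation (x : Qbar) * 1 := mul_le_mul_right hyle _
    _ = A.valuation (x : Qbar) := mul_one _

include hℓ hA hIΓ

/-- **Division by `ℓ`** inside `fixRing A Γ`: an invariant element of `𝔪_A` is `ℓ ·` an invariant element. -/
theorem div_ell_mem_fixRing {x : Qbar} (hx : x ∈ fixRing A Γ) (hv : A.valuation x < 1) :
    x / (ℓ : Qbar) ∈ fixRing A Γ := by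
  refine ⟨?_, fun σ hσ => by rw [map_div₀, hx.2 σ hσ, map_natCast]⟩
  exact Fermat.Agent.ES.P36.UnrFixed1.div_natCast_mem_of_fixed A hℓ hA x
    (fun τ hτ => hx.2 τ (hIΓ hτ)) ((ValuationSubring.mem_nonunits_iff (A := A)).mpr hv)

/-- Every nonzero invariant is `ℓ^m ·` (a unit of `fixRing A Γ`). -/
theorem exists_eq_pow_mul_unit {x : ↥(fixRing A Γ)} (hx : x ≠ 0) :
    ∃ (m : ℕ) (u : ↥(fixRing A Γ)), IsUnit u ∧ x = (ℓ : ↥(fixRing A Γ)) ^ m * u := by
  have hx' : (x : Qbar) ≠ 0 := fun h => hx (Subtype.ext h)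
  obtain ⟨n, hn⟩ := exists_pow_lt_val hℓ hA hx'
  induction n generalizing x with
  | zero =>
    rw [pow_zero] at hn
    exact absurd ((A.valuation_le_one_iff _).mpr x.2.1) (not_le.mpr hn)
  | succ n ih =>
    by_cases hv : A.valuation (x : Qbar) = 1
    · exact ⟨0, x, isUnit_of_val_eq_one hv, by rw [pow_zero, one_mul]⟩
    · have hlt : A.valuation (x : Qbar) < 1 :=
        lt_of_le_of_ne ((A.valuation_le_one_iff _).mpr x.2.1) hv
      set y : ↥(fixRing A Γ) := ⟨(x : Qbar) / (ℓ : Qbar), div_ell_mem_fixRing hℓ hA hIΓ x.2 hlt⟩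
        with hy
      have hℓ0 : (ℓ : Qbar) ≠ 0 := Nat.cast_ne_zero.mpr hℓ.ne_zero
      have hxy : x = (ℓ : ↥(fixRing A Γ)) * y := by
        apply Subtype.ext
        show (x : Qbar) = ((ℓ : ↥(fixRing A Γ)) : Qbar) * ((x : Qbar) / (ℓ : Qbar))
        have : (((ℓ : ↥(fixRing A Γ)) : Qbar)) = (ℓ : Qbar) := by push_cast; rfl
        rw [this, mul_div_cancel₀ _ hℓ0]
      have hy0 : y ≠ 0 := by
        intro h0
        rw [h0, mul_zero] at hxy
        exact hx hxy
      have hy0' : (y : Qbar) ≠ 0 := fun h => hy0 (Subtype.ext h)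
      have hny : A.valuation (ℓ : Qbar) ^ n < A.valuation (y : Qbar) := by
        show _ < A.valuation ((x : Qbar) / (ℓ : Qbar))
        rw [map_div₀, lt_div_iff₀ (zero_lt_iff.mpr (val_ell_ne_zero hℓ hA)), ← pow_succ]
        exact hn
      obtain ⟨m, u, hu, hyu⟩ := ih hy0 hy0' hny
      refine ⟨m + 1, u, hu, ?_⟩
      rw [hxy, hyu, pow_succ', mul_assoc]

theorem val_natCast_fixRing : A.valuation (((ℓ : ↥(fixRing A Γ)) : Qbar)) = A.valuation (ℓ : Qbar) := by
  have : (((ℓ : ↥(fixRing A Γ)) : Qbar)) = (ℓ : Qbar) := by push_cast; rfl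
  rw [this]

/-- `ℓ` is irreducible in `fixRing A Γ`. -/
theorem irreducible_ell : Irreducible (ℓ : ↥(fixRing A Γ)) := by
  have hvℓ := val_ell_lt_one hℓ hA
  have hvℓ0 := val_ell_ne_zero hℓ hA
  refine ⟨fun hu => ?_, fun a b hab => ?_⟩
  · have := val_eq_one_of_isUnit hu
    rw [val_natCast_fixRing hℓ hA hIΓ] at this
    exact (ne_of_lt hvℓ) this
  · have hℓ0 : (ℓ : ↥(fixRing A Γ)) ≠ 0 := by
      intro h0
      have := congrArg (fun z : ↥(fixRing A Γ) => A.valuation (z : Qbar)) h0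
      simp only [val_natCast_fixRing hℓ hA hIΓ] at this
      rw [ZeroMemClass.coe_zero, map_zero] at this
      exact hvℓ0 this
    have ha0 : a ≠ 0 := fun h => hℓ0 (by rw [hab, h, zero_mul])
    have hb0 : b ≠ 0 := fun h => hℓ0 (by rw [hab, h, mul_zero])
    obtain ⟨m, u, hu, rfl⟩ := exists_eq_pow_mul_unit hℓ hA hIΓ ha0
    obtain ⟨n, v, hv, rfl⟩ := exists_eq_pow_mul_unit hℓ hA hIΓ hb0
    have hval := congrArg (fun z : ↥(fixRing A Γ) => A.valuation (z : Qbar)) hab
    simp only [Subring.coe_mul, Subring.coe_pow, map_mul, map_pow, val_eq_one_of_isUnit hu,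
      val_eq_one_of_isUnit hv, mul_one, val_natCast_fixRing hℓ hA hIΓ] at hval
    rw [← pow_add] at hval
    have hmn : m + n = 1 := by
      by_contra hne
      rcases Nat.lt_or_gt_of_ne hne with h | h
      · have h0 : m + n = 0 := by omega
        rw [h0, pow_zero] at hval
        exact (ne_of_lt hvℓ) hval
      · have h2 : A.valuation (ℓ : Qbar) ^ (m + n) < A.valuation (ℓ : Qbar) ^ 1 :=
          pow_lt_pow_right_of_lt_one₀ (zero_lt_iff.mpr hvℓ0) hvℓ h
        rw [pow_one, ← hval] at h2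
        exact lt_irrefl _ h2
    rcases Nat.eq_zero_or_pos m with hm | hm
    · left
      rw [hm, pow_zero, one_mul]
      exact hu
    · right
      have hn : n = 0 := by omega
      rw [hn, pow_zero, one_mul]
      exact hv

/-- **`fixRing A Γ` is a discrete valuation ring** (for `I_A ≤ Γ`). -/
theorem isDiscreteValuationRing_fixRing : IsDiscreteValuationRing ↥(fixRing A Γ) := by
  apply IsDiscreteValuationRing.ofHasUnitMulPowIrreducibleFactorization
  refine ⟨(ℓ : ↥(fixRing A Γ)), irreducible_ell hℓ hA hIΓ, fun {x} hx => ?_⟩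
  obtain ⟨m, u, hu, rfl⟩ := exists_eq_pow_mul_unit hℓ hA hIΓ hx
  obtain ⟨u', rfl⟩ := hu
  exact ⟨m, u', rfl⟩

theorem isNoetherianRing_fixRing : IsNoetherianRing ↥(fixRing A Γ) := by
  haveI := isDiscreteValuationRing_fixRing hℓ hA hIΓ
  infer_instance

end Ring

/-- The instance needed by chapter A4 at the level `Γ_f`. -/
theorem isNoetherianRing_fixRing_gammaF (hℓ : ℓ.Prime) (hA : A.LiesOverPrime ℓ) (f : ℕ) :
    IsNoetherianRing ↥(fixRing A (gammaF A ℓ f)) :=
  isNoetherianRing_fixRing hℓ hA (inertia_le_gammaF f)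

theorem isDiscreteValuationRing_fixRing_gammaF (hℓ : ℓ.Prime) (hA : A.LiesOverPrime ℓ) (f : ℕ) :
    IsDiscreteValuationRing ↥(fixRing A (gammaF A ℓ f)) :=
  isDiscreteValuationRing_fixRing hℓ hA (inertia_le_gammaF f)

end Fermat.Agent.ES.V19.FixRingDVR16
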