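/-
Programme V (S19), chapter B5 (chart `Ξ`), leaf (S1) for (Ξc) (`XiCInst7`), helper14:
**the valuation of `ℚ̄` attached to a valuation subring `A` over `ℓ` has rank one**, in the
elementary form needed to apply `XiAdd7.add_congr` / `neg_congr` at the ring `↥A`:

* `exists_pow_le_val_ell` : `v(x) < 1 ⇒ ∃ m ≥ 1, v(x)^m ≤ v(ℓ)` (a primitive integer equation of `x`
  has a coefficient prime to `ℓ`; the lowest such term would strictly dominate all the others);
* `exists_dvd_pow`        : `π ∈ 𝔪_A`, `d ≠ 0` in `↥A` ⇒ `d ∣ π ^ N₀` for some `N₀`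
  (with `FixRingDVR16.exists_pow_lt_val`);
* `exists_common_dvd`     : finitely many elements of `𝔪_A` have a common divisor `π ∈ 𝔪_A`
  (`A` is a valuation ring).
-/
import Mathlib
import Fermat.Agent.ES.V19.FixRingDVR16

set_option autoImplicit false

namespace Fermat.Agent.ES.V19.ArchVal14

open Polynomial

local notation "Qbar" => AlgebraicClosure ℚ

variable {A : ValuationSubring Qbar} {ℓ : ℕ}

/-- The valuation of an integer is at most one. -/
theorem val_intCast_le_one (n : ℤ) : A.valuation ((n : ℤ) : Qbar) ≤ 1 :=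
  (A.valuation_le_one_iff _).mpr (intCast_mem A n)

/-- The valuation of an integer divisible by `ℓ` is at most `v(ℓ)`. -/
theorem val_intCast_le_of_dvd {n : ℤ} (hn : (ℓ : ℤ) ∣ n) :
    A.valuation ((n : ℤ) : Qbar) ≤ A.valuation (ℓ : Qbar) := by
  obtain ⟨c, rfl⟩ := hn
  rw [Int.cast_mul, Int.cast_natCast, map_mul]
  calc A.valuation (ℓ : Qbar) * A.valuation ((c : ℤ) : Qbar)
      ≤ A.valuation (ℓ : Qbar) * 1 := mul_le_mul_right (val_intCast_le_one c) _
    _ = A.valuation (ℓ : Qbar) := mul_one _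

section Arch

variable (hℓ : ℓ.Prime) (hA : A.LiesOverPrime ℓ)

include hℓ hA

/-- The valuation of an integer prime to `ℓ` is one. -/
theorem val_intCast_eq_one {n : ℤ} (hn : ¬ (ℓ : ℤ) ∣ n) : A.valuation ((n : ℤ) : Qbar) = 1 :=
  le_antisymm (val_intCast_le_one n)
    (not_lt.mp fun h => hn ((Fermat.Agent.S05.Inertia.valuation_intCast_lt_one_iff hℓ hA n).mp h))

/-- **Rank one, first half**: an element of `𝔪_A` has a power of valuation `≤ v(ℓ)`. -/
theorem exists_pow_le_val_ell {x : Qbar} (hx : A.valuation x < 1) :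
    ∃ m : ℕ, 0 < m ∧ A.valuation x ^ m ≤ A.valuation (ℓ : Qbar) := by
  classical
  by_cases hx0 : x = 0
  · exact ⟨1, one_pos, by rw [hx0, map_zero, pow_one]; exact zero_le⟩
  have hvx0 : A.valuation x ≠ 0 := by rwa [Ne, map_eq_zero]
  have hvxpos : 0 < A.valuation x := zero_lt_iff.mpr hvx0
  by_contra hcon
  push Not at hcon
  -- a primitive integer equation of `x`
  have halg : IsAlgebraic ℤ x :=
    (IsFractionRing.isAlgebraic_iff ℤ ℚ Qbar).mpr (Algebra.IsAlgebraic.isAlgebraic x)
  obtain ⟨p, hp0, hp⟩ := halg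
  have hqx : aeval x p.primPart = 0 := by
    have h1 : p = C p.content * p.primPart := eq_C_content_mul_primPart p
    rw [h1, map_mul, aeval_C] at hp
    rcases mul_eq_zero.mp hp with h | h
    · exfalso
      have h2 : p.content = 0 := by
        have h3 : ((p.content : ℤ) : Qbar) = 0 := by simpa using h
        exact_mod_cast h3
      exact hp0 (content_eq_zero_iff.mp h2)
    · exact h
  have hprim : p.primPart.IsPrimitive := isPrimitive_primPart p
  -- a coefficient prime to `ℓ`
  have hex : ∃ i, ¬ (ℓ : ℤ) ∣ p.primPart.coeff i := by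
    by_contra hall
    push Not at hall
    have hdvd : C (ℓ : ℤ) ∣ p.primPart := (C_dvd_iff_dvd_coeff _ _).mpr hall
    have hu : IsUnit (ℓ : ℤ) := hprim _ hdvd
    have h1 : (ℓ : ℤ) = 1 ∨ (ℓ : ℤ) = -1 := Int.isUnit_iff.mp hu
    rcases h1 with h1 | h1
    · exact hℓ.ne_one (by exact_mod_cast h1)
    · have : (0 : ℤ) ≤ (ℓ : ℤ) := Int.natCast_nonneg ℓ
      omega
  set q := p.primPart with hq
  set j := Nat.find hex with hjdef
  have hj : ¬ (ℓ : ℤ) ∣ q.coeff j := Nat.find_spec hex
  have hjmin : ∀ i, i < j → (ℓ : ℤ) ∣ q.coeff i := fun i hi =>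
    not_not.mp (Nat.find_min hex hi)
  have hcj0 : q.coeff j ≠ 0 := fun h => hj (h ▸ dvd_zero _)
  have hjmem : j ∈ Finset.range (q.natDegree + 1) :=
    Finset.mem_range.mpr (Nat.lt_succ_of_le (le_natDegree_of_ne_zero hcj0))
  rw [aeval_eq_sum_range, ← Finset.add_sum_erase _ _ hjmem] at hqx
  -- the valuation of the `j`-th term
  have hvj : A.valuation (q.coeff j • x ^ j) = A.valuation x ^ j := by
    rw [zsmul_eq_mul, map_mul, map_pow, val_intCast_eq_one hℓ hA hj, one_mul]
  have hvj0 : A.valuation (q.coeff j • x ^ j) ≠ 0 := by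
    rw [hvj]
    exact pow_ne_zero _ hvx0
  -- all the other terms are strictly smaller
  have hlt : A.valuation (∑ i ∈ (Finset.range (q.natDegree + 1)).erase j, q.coeff i • x ^ i)
      < A.valuation (q.coeff j • x ^ j) := by
    refine Valuation.map_sum_lt _ hvj0 (fun i hi => ?_)
    have hij : i ≠ j := (Finset.mem_erase.mp hi).1
    rw [hvj, zsmul_eq_mul, map_mul, map_pow]
    rcases lt_or_gt_of_ne hij with hlt | hgt
    · -- `i < j`: `ℓ ∣ q.coeff i`
      have h1 : A.valuation ((q.coeff i : ℤ) : Qbar) ≤ A.valuation (ℓ : Qbar) :=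
        val_intCast_le_of_dvd (hjmin i hlt)
      have h2 : A.valuation (ℓ : Qbar) < A.valuation x ^ (j - i) := hcon (j - i) (by omega)
      have h3 : 0 < A.valuation x ^ i := pow_pos hvxpos i
      calc A.valuation ((q.coeff i : ℤ) : Qbar) * A.valuation x ^ i
          ≤ A.valuation (ℓ : Qbar) * A.valuation x ^ i := mul_le_mul_left h1 _
        _ < A.valuation x ^ (j - i) * A.valuation x ^ i := mul_lt_mul_of_pos_right h2 h3
        _ = A.valuation x ^ j := by rw [← pow_add]; congr 1; omega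
    · -- `j < i`
      have h1 : A.valuation ((q.coeff i : ℤ) : Qbar) ≤ 1 := val_intCast_le_one _
      calc A.valuation ((q.coeff i : ℤ) : Qbar) * A.valuation x ^ i
          ≤ 1 * A.valuation x ^ i := mul_le_mul_left h1 _
        _ = A.valuation x ^ i := one_mul _
        _ < A.valuation x ^ j := pow_lt_pow_right_of_lt_one₀ hvxpos hx hgt
  have heq := Valuation.map_add_eq_of_lt_left A.valuation hlt
  rw [hqx, map_zero] at heq
  exact hvj0 heq.symm

/-- **Rank one**: in `↥A`, every nonzero `d` divides a power of any given `π ∈ 𝔪_A`. -/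
theorem exists_dvd_pow {π : ↥A} (hπ : π ∈ IsLocalRing.maximalIdeal ↥A) {d : ↥A} (hd : d ≠ 0) :
    ∃ N₀ : ℕ, d ∣ π ^ N₀ := by
  have hvπ : A.valuation (π : Qbar) < 1 := (A.valuation_lt_one_iff π).mp hπ
  obtain ⟨m, _, hm⟩ := exists_pow_le_val_ell hℓ hA hvπ
  have hd0 : (d : Qbar) ≠ 0 := fun h => hd (Subtype.ext h)
  obtain ⟨n, hn⟩ := Fermat.Agent.ES.V19.FixRingDVR16.exists_pow_lt_val hℓ hA hd0
  refine ⟨m * n, ?_⟩
  have hle : A.valuation ((π : Qbar) ^ (m * n)) ≤ A.valuation (d : Qbar) := by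
    rw [map_pow, pow_mul]
    exact (pow_le_pow_left' hm n).trans hn.le
  have hvd0 : A.valuation (d : Qbar) ≠ 0 := by rwa [Ne, map_eq_zero]
  have hc : (π : Qbar) ^ (m * n) * (d : Qbar)⁻¹ ∈ A := by
    rw [← A.valuation_le_one_iff, map_mul, map_inv₀]
    calc A.valuation ((π : Qbar) ^ (m * n)) * (A.valuation (d : Qbar))⁻¹
        ≤ A.valuation (d : Qbar) * (A.valuation (d : Qbar))⁻¹ := mul_le_mul_left hle _
      _ = 1 := mul_inv_cancel₀ hvd0
  refine ⟨⟨_, hc⟩, Subtype.ext ?_⟩
  push_cast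
  field_simp

end Arch

/-- Finitely many elements of `𝔪_A` have a common divisor in `𝔪_A`. -/
theorem exists_common_dvd (S : Finset ↥A) (hS : ∀ x ∈ S, x ∈ IsLocalRing.maximalIdeal ↥A) :
    ∃ π ∈ IsLocalRing.maximalIdeal ↥A, ∀ x ∈ S, π ∣ x := by
  classical
  induction S using Finset.induction_on with
  | empty => exact ⟨0, zero_mem _, fun x hx => absurd hx (Finset.notMem_empty x)⟩
  | insert a S _ ih =>
    obtain ⟨π₀, hπ₀, hdiv⟩ := ih (fun x hx => hS x (Finset.mem_insert_of_mem hx))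
    rcases ValuationRing.dvd_total a π₀ with h | h
    · refine ⟨a, hS a (Finset.mem_insert_self a S), fun x hx => ?_⟩
      rcases Finset.mem_insert.mp hx with rfl | hx
      · exact dvd_rfl
      · exact h.trans (hdiv x hx)
    · refine ⟨π₀, hπ₀, fun x hx => ?_⟩
      rcases Finset.mem_insert.mp hx with rfl | hx
      · exact h
      · exact hdiv x hx

end Fermat.Agent.ES.V19.ArchVal14
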