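/-
Exploration V19 (S19 by hand, route `S19_ROUTE23.md`), brick (A4-a), helper23:
**the denominator lemma** ("closedness of lattices", no finiteness of integral closures).

Setting: a commutative ring `R`, a field `Ω` which is an `R`-algebra, a group `G` acting on `Ω` by
ring automorphisms commuting with `R`, a subring `A ⊂ Ω` (the valuation ring) with
`A ∩ Ω^G ⊂ R` (`FixHyp`), and a finite `G`-set `X`.

If `N ⊂ (X → Ω)` is an `R`-submodule consisting of `G`-equivariant, `A`-valued functions which
spans `X → Ω` over `Ω`, then there is `d : R`, nonzero in `Ω`, such that `d • E ∈ N` for EVERY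
equivariant `A`-valued function `E` (`exists_denominator`).
The proof uses the Gram determinant of the trace form `∑ x, f x * g x`.
-/
import Mathlib

set_option autoImplicit false

noncomputable section

namespace Fermat.Agent.ES.V19.Denominator23

open scoped BigOperators

variable {R Ω : Type*} (G : Type*) [CommRing R] [Field Ω] [Algebra R Ω] [Group G]
  [MulSemiringAction G Ω]

/-- `h : X → Ω` is `G`-equivariant. -/
def IsEqv {X : Type*} [MulAction G X] (h : X → Ω) : Prop :=
  ∀ (σ : G) (x : X), h (σ • x) = σ • h x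

/-- `A ∩ Ω^G ⊂ R`. -/
def FixHyp (R : Type*) [CommRing R] [Algebra R Ω] (A : Subring Ω) : Prop :=
  ∀ x : Ω, x ∈ A → (∀ σ : G, σ • x = x) → x ∈ (algebraMap R Ω).range

section Eqv

variable {G}
variable {X : Type*} [MulAction G X]

theorem IsEqv.add {f g : X → Ω} (hf : IsEqv G f) (hg : IsEqv G g) : IsEqv G (f + g) := by
  intro σ x
  simp only [Pi.add_apply, smul_add, hf σ x, hg σ x]

theorem IsEqv.mul {f g : X → Ω} (hf : IsEqv G f) (hg : IsEqv G g) : IsEqv G (f * g) := by
  intro σ x
  simp only [Pi.mul_apply, smul_mul', hf σ x, hg σ x]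

theorem IsEqv.neg {f : X → Ω} (hf : IsEqv G f) : IsEqv G (-f) := by
  intro σ x
  simp only [Pi.neg_apply, smul_neg, hf σ x]

theorem IsEqv.sub {f g : X → Ω} (hf : IsEqv G f) (hg : IsEqv G g) : IsEqv G (f - g) := by
  intro σ x
  simp only [Pi.sub_apply, smul_sub, hf σ x, hg σ x]

theorem isEqv_zero : IsEqv G (0 : X → Ω) := by
  intro σ x
  simp

theorem isEqv_one : IsEqv G (1 : X → Ω) := by
  intro σ x
  simp

variable [SMulCommClass G R Ω]

theorem smul_algebraMap_eq (σ : G) (r : R) : σ • (algebraMap R Ω r) = algebraMap R Ω r := by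
  have h := smul_comm σ r (1 : Ω)
  rw [smul_one] at h
  rw [Algebra.algebraMap_eq_smul_one]
  exact h

theorem isEqv_algebraMap (r : R) : IsEqv G (algebraMap R (X → Ω) r) := by
  intro σ x
  simp only [Pi.algebraMap_apply]
  exact (smul_algebraMap_eq σ r).symm

theorem IsEqv.smul {f : X → Ω} (hf : IsEqv G f) (r : R) : IsEqv G (r • f) := by
  intro σ x
  simp only [Pi.smul_apply, hf σ x]
  exact (smul_comm σ r (f x)).symm

theorem IsEqv.sum {ι : Type*} (s : Finset ι) {f : ι → X → Ω} (hf : ∀ i ∈ s, IsEqv G (f i)) :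
    IsEqv G (∑ i ∈ s, f i) := by
  classical
  induction s using Finset.induction_on with
  | empty => simpa using isEqv_zero
  | insert a s ha ih =>
    rw [Finset.sum_insert ha]
    exact (hf a (Finset.mem_insert_self a s)).add
      (ih fun i hi => hf i (Finset.mem_insert_of_mem hi))

variable (R G X)

/-- The `R`-subalgebra of equivariant functions. -/
def eqvSub : Subalgebra R (X → Ω) where
  carrier := {f | IsEqv G f}
  mul_mem' := fun hf hg => hf.mul hg
  add_mem' := fun hf hg => hf.add hg
  algebraMap_mem' := fun r => isEqv_algebraMap r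

variable {R G X}

@[simp] theorem mem_eqvSub {f : X → Ω} : f ∈ eqvSub R G (Ω := Ω) X ↔ IsEqv G f := Iff.rfl

end Eqv

section Val

variable (R) (X : Type*) (A : Subring Ω)

/-- The `R`-subalgebra of `A`-valued functions (when `R` maps into `A`). -/
def valSub (hRA : ∀ r : R, algebraMap R Ω r ∈ A) : Subalgebra R (X → Ω) where
  carrier := {f | ∀ x, f x ∈ A}
  mul_mem' := fun hf hg x => A.mul_mem (hf x) (hg x)
  add_mem' := fun hf hg x => A.add_mem (hf x) (hg x)
  algebraMap_mem' := fun r x => by simpa using hRA r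

variable {R X A}

@[simp] theorem mem_valSub {hRA : ∀ r : R, algebraMap R Ω r ∈ A} {f : X → Ω} :
    f ∈ valSub R X A hRA ↔ ∀ x, f x ∈ A := Iff.rfl

end Val

section Trace

variable {G}
variable {X : Type*} [Fintype X]

/-- The trace form on `X → Ω`. -/
def tr (f g : X → Ω) : Ω := ∑ x, f x * g x

theorem tr_comm (f g : X → Ω) : tr f g = tr g f := by
  unfold tr
  exact Finset.sum_congr rfl fun x _ => mul_comm _ _

theorem tr_add_left (f f' g : X → Ω) : tr (f + f') g = tr f g + tr f' g := by
  unfold tr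
  rw [← Finset.sum_add_distrib]
  exact Finset.sum_congr rfl fun x _ => by simp [add_mul]

theorem tr_sub_left (f f' g : X → Ω) : tr (f - f') g = tr f g - tr f' g := by
  unfold tr
  rw [← Finset.sum_sub_distrib]
  exact Finset.sum_congr rfl fun x _ => by simp [sub_mul]

theorem tr_smul_left (c : Ω) (f g : X → Ω) : tr (c • f) g = c * tr f g := by
  unfold tr
  rw [Finset.mul_sum]
  exact Finset.sum_congr rfl fun x _ => by simp [mul_assoc]

theorem tr_smulR_left (r : R) (f g : X → Ω) : tr (r • f) g = algebraMap R Ω r * tr f g := by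
  unfold tr
  rw [Finset.mul_sum]
  exact Finset.sum_congr rfl fun x _ => by simp [Algebra.smul_def, mul_assoc]

theorem tr_sum_left {ι : Type*} (s : Finset ι) (f : ι → X → Ω) (g : X → Ω) :
    tr (∑ i ∈ s, f i) g = ∑ i ∈ s, tr (f i) g := by
  classical
  induction s using Finset.induction_on with
  | empty => simp [tr]
  | insert a s ha ih => rw [Finset.sum_insert ha, Finset.sum_insert ha, tr_add_left, ih]

theorem tr_zero_left (g : X → Ω) : tr (0 : X → Ω) g = 0 := by simp [tr]

theorem tr_single [DecidableEq X] (f : X → Ω) (x : X) : tr f (Pi.single x 1) = f x := by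
  unfold tr
  rw [Finset.sum_eq_single x]
  · simp
  · intro y _ hy
    simp [Pi.single_eq_of_ne hy]
  · intro h
    exact absurd (Finset.mem_univ x) h

/-- Nondegeneracy: a function orthogonal to a spanning set is zero. -/
theorem eq_zero_of_tr_eq_zero {b : Set (X → Ω)} (hb : Submodule.span Ω b = ⊤) (f : X → Ω)
    (hf : ∀ a ∈ b, tr f a = 0) : f = 0 := by
  classical
  have hall : ∀ g : X → Ω, tr f g = 0 := by
    intro g
    have hg : g ∈ Submodule.span Ω b := by rw [hb]; trivial
    induction hg using Submodule.span_induction with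
    | mem a ha => exact hf a ha
    | zero => rw [tr_comm, tr_zero_left]
    | add u v _ _ hu hv => rw [tr_comm, tr_add_left, tr_comm u, tr_comm v, hu, hv, add_zero]
    | smul c u _ hu => rw [tr_comm, tr_smul_left, tr_comm, hu, mul_zero]
  funext x
  have := hall (Pi.single x 1)
  rw [tr_single] at this
  simpa using this

variable [MulAction G X]

theorem smul_tr {f g : X → Ω} (hf : IsEqv G f) (hg : IsEqv G g) (σ : G) : σ • tr f g = tr f g := by
  unfold tr
  rw [Finset.smul_sum]
  have : ∀ x, σ • (f x * g x) = f (σ • x) * g (σ • x) := by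
    intro x
    rw [smul_mul', hf σ x, hg σ x]
  simp only [this]
  exact Equiv.sum_comp (MulAction.toPerm σ) fun x => f x * g x

theorem tr_mem (A : Subring Ω) {f g : X → Ω} (hf : ∀ x, f x ∈ A) (hg : ∀ x, g x ∈ A) :
    tr f g ∈ A :=
  A.sum_mem fun x _ => A.mul_mem (hf x) (hg x)

theorem tr_mem_range (A : Subring Ω) (hfix : FixHyp G R A) {f g : X → Ω} (hf : IsEqv G f)
    (hg : IsEqv G g) (hfA : ∀ x, f x ∈ A) (hgA : ∀ x, g x ∈ A) :
    ∃ r : R, algebraMap R Ω r = tr f g :=
  hfix _ (tr_mem A hfA hgA) (smul_tr hf hg)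

end Trace

variable {G}

/-- **The denominator lemma.** -/
theorem exists_denominator {X : Type*} [Fintype X] [MulAction G X] (A : Subring Ω)
    (hfix : FixHyp G R A) (N : Submodule R (X → Ω)) (hNe : ∀ h ∈ N, IsEqv G h)
    (hNA : ∀ h ∈ N, ∀ x, h x ∈ A) (hNs : Submodule.span Ω (N : Set (X → Ω)) = ⊤) :
    ∃ d : R, algebraMap R Ω d ≠ 0 ∧
      ∀ E : X → Ω, IsEqv G E → (∀ x, E x ∈ A) → d • E ∈ N := by
  classical
  obtain ⟨b, hbN, hbspan, hbli⟩ := exists_linearIndependent Ω (N : Set (X → Ω))
  have hbtop : Submodule.span Ω b = ⊤ := by rw [hbspan, hNs]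
  have hbfin : b.Finite := hbli.setFinite
  have : Fintype b := hbfin.fintype
  have hbe : ∀ a : b, IsEqv G (a : X → Ω) := fun a => hNe _ (hbN a.2)
  have hbA : ∀ a : b, ∀ x, (a : X → Ω) x ∈ A := fun a => hNA _ (hbN a.2)
  -- the Gram matrix has entries in `R`
  have hΓ : ∀ a a' : b, ∃ r : R, algebraMap R Ω r = tr (a : X → Ω) (a' : X → Ω) := fun a a' =>
    tr_mem_range A hfix (hbe a) (hbe a') (hbA a) (hbA a')
  choose γ hγ using hΓ
  let ΓR : Matrix b b R := Matrix.of γ
  -- its determinant is nonzero in `Ω`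
  have hdet : algebraMap R Ω ΓR.det ≠ 0 := by
    rw [RingHom.map_det]
    intro h0
    obtain ⟨v, hv0, hv⟩ := Matrix.exists_mulVec_eq_zero_iff.mpr h0
    apply hv0
    set f : X → Ω := ∑ a : b, v a • (a : X → Ω) with hf
    have hf0 : f = 0 := by
      refine eq_zero_of_tr_eq_zero hbtop f ?_
      intro a' ha'
      have h1 := congrFun hv ⟨a', ha'⟩
      simp only [Matrix.mulVec, dotProduct, RingHom.mapMatrix_apply, Matrix.map_apply,
        Pi.zero_apply] at h1
      rw [hf, tr_sum_left]
      rw [← h1]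
      refine Finset.sum_congr rfl fun a _ => ?_
      rw [tr_smul_left]
      show v a * tr (a : X → Ω) a' = algebraMap R Ω (γ ⟨a', ha'⟩ a) * v a
      rw [hγ, tr_comm, mul_comm]
    have := Fintype.linearIndependent_iff.mp hbli v (by rw [← hf0, hf])
    funext a
    exact this a
  refine ⟨ΓR.det, hdet, ?_⟩
  intro E hEe hEA
  have he : ∀ a' : b, ∃ r : R, algebraMap R Ω r = tr E (a' : X → Ω) := fun a' =>
    tr_mem_range A hfix hEe (hbe a') hEA (hbA a')
  choose eR heR using he
  set c : b → R := Matrix.vecMul eR ΓR.adjugate with hc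
  have hcΓ : Matrix.vecMul c ΓR = ΓR.det • eR := by
    rw [hc, Matrix.vecMul_vecMul, Matrix.adjugate_mul, Matrix.vecMul_smul, Matrix.vecMul_one]
  have hkey : ΓR.det • E = ∑ a : b, c a • (a : X → Ω) := by
    rw [← sub_eq_zero]
    refine eq_zero_of_tr_eq_zero hbtop _ ?_
    intro a' ha'
    rw [tr_sub_left, tr_smulR_left, tr_sum_left, sub_eq_zero]
    have h1 := congrFun hcΓ ⟨a', ha'⟩
    simp only [Matrix.vecMul, dotProduct, Pi.smul_apply, smul_eq_mul] at h1
    have h2 : ∑ a : b, tr (c a • (a : X → Ω)) a' = algebraMap R Ω (∑ a : b, c a * ΓR a ⟨a', ha'⟩) := by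
      rw [map_sum]
      refine Finset.sum_congr rfl fun a _ => ?_
      rw [tr_smulR_left, map_mul]
      show _ = algebraMap R Ω (c a) * algebraMap R Ω (γ a ⟨a', ha'⟩)
      rw [hγ]
    rw [h2, h1, map_mul, heR]
  rw [hkey]
  exact N.sum_mem fun a _ => N.smul_mem _ (hbN a.2)

end Fermat.Agent.ES.V19.Denominator23
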