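/-
Exploration V19 (S19 by hand, route `S19_ROUTE23.md`), brick (A4-b), helper23:
**approximately closed ⇒ closed** for orders of equivariant functions.

* `pull_mem_of_approx` : `φ : Y → X` an equivariant map of finite `G`-sets, `H = adjoin R S` a
  subalgebra of equivariant functions on `X`, `T` a subalgebra of equivariant `A`-valued functions
  on `Y` spanning `Y → Ω`.  If for every generator `h ∈ S` and every `d ≠ 0` the pull-back `h ∘ φ`
  is congruent modulo `d A` to an element of `T`, then `h ∘ φ ∈ T` for every `h ∈ H`.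
* `tens H` : the subalgebra of `M × M → Ω` generated by `h ∘ fst`, `h ∘ snd` (`h ∈ H`), i.e. the
  image of `H ⊗ H`; it consists of equivariant `A`-valued functions and spans if `H` does.
* `span_eq_top_of_separates` : a point-separating subalgebra of `X → Ω` spans over `Ω`.
* `delta_closed`, `neg_closed`, `eval_zero_mem_range` : the three Hopf-order closure properties.
-/
import Fermat.Agent.ES.V19.Denominator23

set_option autoImplicit false

noncomputable section

namespace Fermat.Agent.ES.V19.TensTwo23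

open scoped BigOperators
open Fermat.Agent.ES.V19.Denominator23

variable {R Ω G : Type*} [CommRing R] [Field Ω] [Algebra R Ω] [Group G]
  [MulSemiringAction G Ω] [SMulCommClass G R Ω]

/-- Pull-back of functions along a map, as an `R`-algebra homomorphism. -/
def pullAlg (R Ω : Type*) [CommRing R] [Field Ω] [Algebra R Ω] {X Y : Type*} (φ : Y → X) :
    (X → Ω) →ₐ[R] (Y → Ω) where
  toFun h := h ∘ φ
  map_one' := rfl
  map_mul' _ _ := rfl
  map_zero' := rfl
  map_add' _ _ := rfl
  commutes' _ := rfl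

@[simp] theorem pullAlg_apply {X Y : Type*} (φ : Y → X) (h : X → Ω) (y : Y) :
    pullAlg R Ω φ h y = h (φ y) := rfl

omit [SMulCommClass G R Ω] in
theorem isEqv_pull {X Y : Type*} [MulAction G X] [MulAction G Y] {φ : Y → X}
    (hφ : ∀ (σ : G) (y : Y), φ (σ • y) = σ • φ y) {h : X → Ω} (hh : IsEqv G h) :
    IsEqv G (pullAlg R Ω φ h) := by
  intro σ y
  simp only [pullAlg_apply, hφ σ y, hh σ (φ y)]

/-- **Approximately closed ⇒ closed.** -/
theorem pull_mem_of_approx {X Y : Type*} [Fintype Y] [MulAction G X] [MulAction G Y]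
    (A : Subring Ω) (hfix : FixHyp G R A) (φ : Y → X)
    (hφ : ∀ (σ : G) (y : Y), φ (σ • y) = σ • φ y)
    (H : Subalgebra R (X → Ω)) (T : Subalgebra R (Y → Ω))
    (hHe : ∀ h ∈ H, IsEqv G h) (hTe : ∀ h ∈ T, IsEqv G h) (hTA : ∀ h ∈ T, ∀ y, h y ∈ A)
    (hTs : Submodule.span Ω (T : Set (Y → Ω)) = ⊤)
    (S : Set (X → Ω)) (hS : Algebra.adjoin R S = H)
    (happ : ∀ h ∈ S, ∀ d : R, algebraMap R Ω d ≠ 0 →
      ∃ P ∈ T, ∀ y, ∃ a ∈ A, h (φ y) - P y = algebraMap R Ω d * a) :
    ∀ h ∈ H, pullAlg R Ω φ h ∈ T := by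
  obtain ⟨d, hd, hden⟩ := exists_denominator A hfix (Subalgebra.toSubmodule T) hTe hTA hTs
  have hle : Algebra.adjoin R S ≤ T.comap (pullAlg R Ω φ) := by
    refine Algebra.adjoin_le ?_
    intro h hhS
    have hhH : h ∈ H := hS ▸ Algebra.subset_adjoin hhS
    obtain ⟨P, hPT, hP⟩ := happ h hhS d hd
    show pullAlg R Ω φ h ∈ T
    set E : Y → Ω := fun y => (algebraMap R Ω d)⁻¹ * (h (φ y) - P y) with hE
    have hEe : IsEqv G E := by
      intro σ y
      have h1 := isEqv_pull (R := R) hφ (hHe h hhH) σ y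
      simp only [pullAlg_apply] at h1
      simp only [hE, smul_mul', smul_inv'', smul_algebraMap_eq, smul_sub, h1, hTe P hPT σ y]
    have hEA : ∀ y, E y ∈ A := by
      intro y
      obtain ⟨a, ha, hay⟩ := hP y
      simp only [hE, hay]
      rw [← mul_assoc, inv_mul_cancel₀ hd, one_mul]
      exact ha
    have hdE := hden E hEe hEA
    have : pullAlg R Ω φ h = d • E + P := by
      funext y
      show h (φ y) = d • ((algebraMap R Ω d)⁻¹ * (h (φ y) - P y)) + P y
      rw [Algebra.smul_def, ← mul_assoc, mul_inv_cancel₀ hd, one_mul]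
      ring
    rw [this]
    exact T.add_mem hdE hPT
  intro h hh
  exact hle (hS ▸ hh)

/-- A point-separating subalgebra of `X → Ω` (`X` finite) spans `X → Ω` over `Ω`. -/
theorem span_eq_top_of_separates {X : Type*} [Fintype X] (H : Subalgebra R (X → Ω))
    (hsep : ∀ x y : X, x ≠ y → ∃ h ∈ H, h x ≠ h y) :
    Submodule.span Ω (H : Set (X → Ω)) = ⊤ := by
  classical
  set S : Subalgebra Ω (X → Ω) := Algebra.adjoin Ω (H : Set (X → Ω)) with hSdef
  have hSspan : Subalgebra.toSubmodule S = Submodule.span Ω (H : Set (X → Ω)) := by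
    rw [hSdef, Algebra.adjoin_eq_span]
    congr 1
    have : ((H : Set (X → Ω))) = ((H.toSubmonoid : Submonoid (X → Ω)) : Set (X → Ω)) := rfl
    rw [this, Submonoid.closure_eq]
  have hHS : ∀ h ∈ H, h ∈ S := fun h hh => Algebra.subset_adjoin hh
  -- the indicator functions lie in `S`
  have hδ : ∀ x : X, (Pi.single x 1 : X → Ω) ∈ S := by
    intro x
    have hg : ∀ y : X, ∃ g ∈ S, g x = 1 ∧ (y ≠ x → g y = 0) := by
      intro y
      by_cases hy : y = x
      · exact ⟨1, S.one_mem, rfl, fun h => absurd hy h⟩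
      · obtain ⟨h, hh, hne⟩ := hsep x y (Ne.symm hy)
        have hne' : h x - h y ≠ 0 := sub_ne_zero.mpr hne
        refine ⟨(h x - h y)⁻¹ • (h - algebraMap Ω (X → Ω) (h y)),
          S.smul_mem (S.sub_mem (hHS h hh) (S.algebraMap_mem _)) _, ?_, fun _ => ?_⟩
        · simp only [Pi.smul_apply, Pi.sub_apply, Pi.algebraMap_apply, Algebra.algebraMap_self,
            RingHom.id_apply, smul_eq_mul]
          exact inv_mul_cancel₀ hne'
        · simp
    choose g hgS hgx hgy using hg
    have hprod : (Pi.single x 1 : X → Ω) = ∏ y, g y := by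
      funext z
      rw [Finset.prod_apply]
      by_cases hz : z = x
      · subst hz
        rw [Pi.single_eq_same]
        exact (Finset.prod_eq_one fun y _ => hgx y).symm
      · rw [Pi.single_eq_of_ne hz]
        exact (Finset.prod_eq_zero (f := fun y => g y z) (Finset.mem_univ z) (hgy z hz)).symm
    rw [hprod]
    exact S.prod_mem fun y _ => hgS y
  have htop : S = ⊤ := by
    rw [eq_top_iff]
    intro f _
    have hf : f = ∑ x, f x • (Pi.single x 1 : X → Ω) := by
      conv_lhs => rw [← Finset.univ_sum_single f]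
      refine Finset.sum_congr rfl fun x _ => ?_
      rw [← Pi.single_smul, smul_eq_mul, mul_one]
    rw [hf]
    exact S.sum_mem fun x _ => S.smul_mem (hδ x) _
  rw [← hSspan, htop]
  rfl

section Tens

variable {M : Type*}

/-- The image of `H ⊗ H` in `M × M → Ω`. -/
def tens (H : Subalgebra R (M → Ω)) : Subalgebra R (M × M → Ω) :=
  H.map (pullAlg R Ω Prod.fst) ⊔ H.map (pullAlg R Ω Prod.snd)

theorem fst_mem_tens {H : Subalgebra R (M → Ω)} {h : M → Ω} (hh : h ∈ H) :
    pullAlg R Ω (Prod.fst : M × M → M) h ∈ tens H :=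
  (le_sup_left : H.map (pullAlg R Ω Prod.fst) ≤ tens H) ⟨h, hh, rfl⟩

theorem snd_mem_tens {H : Subalgebra R (M → Ω)} {h : M → Ω} (hh : h ∈ H) :
    pullAlg R Ω (Prod.snd : M × M → M) h ∈ tens H :=
  (le_sup_right : H.map (pullAlg R Ω Prod.snd) ≤ tens H) ⟨h, hh, rfl⟩

theorem tens_le {H : Subalgebra R (M → Ω)} {U : Subalgebra R (M × M → Ω)}
    (h1 : ∀ h ∈ H, pullAlg R Ω (Prod.fst : M × M → M) h ∈ U)
    (h2 : ∀ h ∈ H, pullAlg R Ω (Prod.snd : M × M → M) h ∈ U) : tens H ≤ U := by
  refine sup_le ?_ ?_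
  · rintro _ ⟨h, hh, rfl⟩
    exact h1 h hh
  · rintro _ ⟨h, hh, rfl⟩
    exact h2 h hh

/-- `tens H` is the range of the product map `H ⊗ H → (M × M → Ω)`. -/
theorem tens_eq_range (H : Subalgebra R (M → Ω)) :
    tens H = (Algebra.TensorProduct.productMap ((pullAlg R Ω (Prod.fst : M × M → M)).comp H.val)
      ((pullAlg R Ω (Prod.snd : M × M → M)).comp H.val)).range := by
  rw [Algebra.TensorProduct.productMap_range, AlgHom.range_comp, AlgHom.range_comp,
    Subalgebra.range_val]
  rfl

variable [MulAction G M]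

theorem tens_isEqv {H : Subalgebra R (M → Ω)} (hHe : ∀ h ∈ H, IsEqv G h) :
    ∀ h ∈ tens H, IsEqv G h := by
  have : tens H ≤ eqvSub R G (Ω := Ω) (M × M) := by
    refine tens_le ?_ ?_
    · intro h hh
      exact isEqv_pull (fun σ y => rfl) (hHe h hh)
    · intro h hh
      exact isEqv_pull (fun σ y => rfl) (hHe h hh)
  exact fun h hh => this hh

omit [Group G] [MulSemiringAction G Ω] [SMulCommClass G R Ω] [MulAction G M] in
theorem tens_val (A : Subring Ω) (hRA : ∀ r : R, algebraMap R Ω r ∈ A)
    {H : Subalgebra R (M → Ω)} (hHA : ∀ h ∈ H, ∀ x, h x ∈ A) :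
    ∀ h ∈ tens H, ∀ p, h p ∈ A := by
  have : tens H ≤ valSub R (M × M) A hRA := by
    refine tens_le ?_ ?_
    · intro h hh p
      exact hHA h hh p.1
    · intro h hh p
      exact hHA h hh p.2
  exact fun h hh => this hh

omit [Group G] [MulSemiringAction G Ω] [SMulCommClass G R Ω] [MulAction G M] in
theorem span_tens_eq_top [Fintype M] {H : Subalgebra R (M → Ω)}
    (hHs : Submodule.span Ω (H : Set (M → Ω)) = ⊤) :
    Submodule.span Ω (tens H : Set (M × M → Ω)) = ⊤ := by
  classical
  set S := Submodule.span Ω (tens H : Set (M × M → Ω)) with hS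
  have hmul : ∀ u ∈ Submodule.span Ω (H : Set (M → Ω)), ∀ v ∈ Submodule.span Ω (H : Set (M → Ω)),
      (fun p : M × M => u p.1 * v p.2) ∈ S := by
    intro u hu
    induction hu using Submodule.span_induction with
    | mem u hu =>
      intro v hv
      induction hv using Submodule.span_induction with
      | mem v hv =>
        exact Submodule.subset_span ((tens H).mul_mem (fst_mem_tens hu) (snd_mem_tens hv))
      | zero =>
        have : (fun p : M × M => u p.1 * (0 : M → Ω) p.2) = 0 := by
          funext p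
          simp
        rw [this]
        exact S.zero_mem
      | add v v' _ _ hv hv' =>
        have : (fun p : M × M => u p.1 * (v + v') p.2)
            = (fun p : M × M => u p.1 * v p.2) + (fun p : M × M => u p.1 * v' p.2) := by
          funext p
          simp [mul_add]
        rw [this]
        exact S.add_mem hv hv'
      | smul c v _ hv =>
        have : (fun p : M × M => u p.1 * (c • v) p.2) = c • (fun p : M × M => u p.1 * v p.2) := by
          funext p
          simp only [Pi.smul_apply, smul_eq_mul]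
          ring
        rw [this]
        exact S.smul_mem c hv
    | zero =>
      intro v _
      have : (fun p : M × M => (0 : M → Ω) p.1 * v p.2) = 0 := by
        funext p
        simp
      rw [this]
      exact S.zero_mem
    | add u u' _ _ hu hu' =>
      intro v hv
      have : (fun p : M × M => (u + u') p.1 * v p.2)
          = (fun p : M × M => u p.1 * v p.2) + (fun p : M × M => u' p.1 * v p.2) := by
        funext p
        simp [add_mul]
      rw [this]
      exact S.add_mem (hu v hv) (hu' v hv)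
    | smul c u _ hu =>
      intro v hv
      have : (fun p : M × M => (c • u) p.1 * v p.2) = c • (fun p : M × M => u p.1 * v p.2) := by
        funext p
        simp only [Pi.smul_apply, smul_eq_mul]
        ring
      rw [this]
      exact S.smul_mem c (hu v hv)
  have hδ : ∀ p : M × M, (Pi.single p 1 : M × M → Ω) ∈ S := by
    intro p
    have h1 := hmul (Pi.single p.1 1) (by rw [hHs]; trivial) (Pi.single p.2 1)
      (by rw [hHs]; trivial)
    have : (Pi.single p 1 : M × M → Ω)
        = fun q : M × M => (Pi.single p.1 1 : M → Ω) q.1 * (Pi.single p.2 1 : M → Ω) q.2 := by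
      funext q
      by_cases hq : q = p
      · subst hq
        simp
      · rw [Pi.single_eq_of_ne hq]
        by_cases h1 : q.1 = p.1
        · have h2 : q.2 ≠ p.2 := fun h2 => hq (Prod.ext h1 h2)
          rw [Pi.single_eq_of_ne h2, mul_zero]
        · rw [Pi.single_eq_of_ne h1, zero_mul]
    rw [this]
    exact h1
  rw [eq_top_iff]
  intro f _
  have hf : f = ∑ p, f p • (Pi.single p 1 : M × M → Ω) := by
    conv_lhs => rw [← Finset.univ_sum_single f]
    refine Finset.sum_congr rfl fun p _ => ?_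
    rw [← Pi.single_smul, smul_eq_mul, mul_one]
  rw [hf]
  exact S.sum_mem fun p _ => S.smul_mem _ (hδ p)

end Tens

section Closure

variable {M : Type*} [Fintype M] [AddCommGroup M] [DistribMulAction G M]

/-- **`Δ(H) ⊂ H ⊗ H` from approximate addition formulas on generators.** -/
theorem delta_closed (A : Subring Ω) (hfix : FixHyp G R A) (hRA : ∀ r : R, algebraMap R Ω r ∈ A)
    (H : Subalgebra R (M → Ω)) (hHe : ∀ h ∈ H, IsEqv G h) (hHA : ∀ h ∈ H, ∀ x, h x ∈ A)
    (hHs : Submodule.span Ω (H : Set (M → Ω)) = ⊤)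
    (S : Set (M → Ω)) (hS : Algebra.adjoin R S = H)
    (happ : ∀ h ∈ S, ∀ d : R, algebraMap R Ω d ≠ 0 →
      ∃ P ∈ tens H, ∀ x y, ∃ a ∈ A, h (x + y) - P (x, y) = algebraMap R Ω d * a) :
    ∀ h ∈ H, (fun p : M × M => h (p.1 + p.2)) ∈ tens H := by
  intro h hh
  exact pull_mem_of_approx A hfix (fun p : M × M => p.1 + p.2)
    (fun σ p => by simp [smul_add]) H (tens H) hHe (tens_isEqv hHe) (tens_val A hRA hHA)
    (span_tens_eq_top hHs) S hS
    (fun h hhS d hd => by
      obtain ⟨P, hP, hPa⟩ := happ h hhS d hd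
      exact ⟨P, hP, fun p => hPa p.1 p.2⟩) h hh

/-- **`S(H) ⊂ H` from approximate inversion formulas on generators.** -/
theorem neg_closed (A : Subring Ω) (hfix : FixHyp G R A)
    (H : Subalgebra R (M → Ω)) (hHe : ∀ h ∈ H, IsEqv G h) (hHA : ∀ h ∈ H, ∀ x, h x ∈ A)
    (hHs : Submodule.span Ω (H : Set (M → Ω)) = ⊤)
    (S : Set (M → Ω)) (hS : Algebra.adjoin R S = H)
    (happ : ∀ h ∈ S, ∀ d : R, algebraMap R Ω d ≠ 0 →
      ∃ P ∈ H, ∀ x, ∃ a ∈ A, h (-x) - P x = algebraMap R Ω d * a) :
    ∀ h ∈ H, (fun x : M => h (-x)) ∈ H := by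
  intro h hh
  exact pull_mem_of_approx A hfix (fun x : M => -x)
    (fun σ x => by simp [smul_neg]) H H hHe hHe hHA hHs S hS happ h hh

omit [Fintype M] [SMulCommClass G R Ω] in
/-- **`ε(H) ⊂ R`.** -/
theorem eval_zero_mem_range (A : Subring Ω) (hfix : FixHyp G R A) {h : M → Ω}
    (hhe : IsEqv G h) (hhA : ∀ x, h x ∈ A) : h 0 ∈ (algebraMap R Ω).range := by
  refine hfix _ (hhA 0) fun σ => ?_
  have := hhe σ 0
  rw [smul_zero] at this
  exact this.symm

end Closure

end Fermat.Agent.ES.V19.TensTwo23
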