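/-
Exploration V19 (S19 by hand, route `S19_ROUTE23.md`), brick (A4-c), helper23:
**coordinates ⇒ Hopf order hypotheses.**

`M` a finite abelian group with an action of `G`, `M0 ⊂ M` a subgroup such that `G` acts trivially
on `M ⧸ M0`, and a finite family of "charts" `X χ : M → Fin g → Ω` (equivariant, `A`-valued,
jointly injective on each coset of `M0`) whose addition and inversion are approximated modulo
`d A`, for every `d ≠ 0`, by polynomials with coefficients in `R` (depending on the pair of cosets).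

Then `H := R[e_q, X χ i]` (`e_q` = indicator of the coset `q`) satisfies all the hypotheses of the
Hopf-order core: finitely generated as a module, equivariant, `A`-valued, separating,
`Δ(H) ⊂ H ⊗ H`, `S(H) ⊂ H`, `ε(H) ⊂ R`.
-/
import Fermat.Agent.ES.V19.TensTwo23

set_option autoImplicit false

noncomputable section

namespace Fermat.Agent.ES.V19.CoordOrder23

open scoped BigOperators
open Fermat.Agent.ES.V19.Denominator23 Fermat.Agent.ES.V19.TensTwo23

variable {R Ω G : Type*} [CommRing R] [Field Ω] [Algebra R Ω] [Group G]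
  [MulSemiringAction G Ω] [SMulCommClass G R Ω]

omit [SMulCommClass G R Ω] in
/-- Finite generation of an order of equivariant `A`-valued functions over a noetherian base:
it embeds, via multiplication by a denominator, into the span of a finite `Ω`-basis. -/
theorem fg_of_isEqv_val [IsNoetherianRing R] {X : Type*} [Fintype X] [MulAction G X]
    (A : Subring Ω) (hfix : FixHyp G R A) (H : Submodule R (X → Ω)) (hHe : ∀ h ∈ H, IsEqv G h)
    (hHA : ∀ h ∈ H, ∀ x, h x ∈ A) (hHs : Submodule.span Ω (H : Set (X → Ω)) = ⊤) : H.FG := by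
  classical
  obtain ⟨b, hbH, hbspan, hbli⟩ := exists_linearIndependent Ω (H : Set (X → Ω))
  have hbfin : b.Finite := hbli.setFinite
  set N : Submodule R (X → Ω) := Submodule.span R b with hN
  have hNH : N ≤ H := Submodule.span_le.mpr hbH
  have hNs : Submodule.span Ω (N : Set (X → Ω)) = ⊤ := by
    rw [eq_top_iff, ← hHs, ← hbspan]
    exact Submodule.span_mono (Submodule.subset_span)
  obtain ⟨d, hd, hden⟩ := exists_denominator A hfix N (fun h hh => hHe h (hNH hh))
    (fun h hh => hHA h (hNH hh)) hNs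
  have : IsNoetherian R N := isNoetherian_span_of_finite R hbfin
  let μ : H →ₗ[R] N :=
    { toFun := fun E => ⟨d • (E : X → Ω), hden E (hHe E E.2) (hHA E E.2)⟩
      map_add' := fun E E' => by
        apply Subtype.ext
        simp [smul_add]
      map_smul' := fun r E => by
        apply Subtype.ext
        simp [smul_comm d r] }
  have hμ : Function.Injective μ := by
    intro E E' hEE
    have h1 : d • (E : X → Ω) = d • (E' : X → Ω) := congrArg Subtype.val hEE
    apply Subtype.ext
    funext x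
    have h2 := congrFun h1 x
    simp only [Pi.smul_apply, Algebra.smul_def] at h2
    exact mul_left_cancel₀ hd h2
  have : Module.Finite R H := Module.Finite.of_injective μ hμ
  exact Module.Finite.iff_fg.mp this

variable {M : Type*} [AddCommGroup M] [DistribMulAction G M]

section Gens

variable (M0 : AddSubgroup M) {ι : Type*} {g : ℕ} (X : ι → M → Fin g → Ω)

open Classical in
/-- The indicator function of the coset `q`. -/
def ind (Ω : Type*) [Field Ω] (q : M ⧸ M0) : M → Ω :=
  fun x => if (QuotientAddGroup.mk x : M ⧸ M0) = q then 1 else 0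

/-- The `i`-th coordinate function of the chart `χ`. -/
def coord (χ : ι) (i : Fin g) : M → Ω := fun x => X χ x i

/-- The generators of the order. -/
def gens : Set (M → Ω) :=
  Set.range (ind M0 Ω) ∪ Set.range (fun p : ι × Fin g => coord X p.1 p.2)

/-- The order generated by coset indicators and coordinates. -/
def order (R : Type*) [CommRing R] [Algebra R Ω] : Subalgebra R (M → Ω) :=
  Algebra.adjoin R (gens M0 X)

theorem ind_mem_order (q : M ⧸ M0) : ind M0 Ω q ∈ order M0 X R :=
  Algebra.subset_adjoin (Or.inl ⟨q, rfl⟩)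

theorem coord_mem_order (χ : ι) (i : Fin g) : coord X χ i ∈ order M0 X R :=
  Algebra.subset_adjoin (Or.inr ⟨(χ, i), rfl⟩)

theorem ind_apply_self (x : M) : ind M0 Ω (QuotientAddGroup.mk x) x = 1 := by
  simp [ind]

theorem ind_apply_of_ne {q : M ⧸ M0} {x : M} (h : (QuotientAddGroup.mk x : M ⧸ M0) ≠ q) :
    ind M0 Ω q x = 0 := by
  simp [ind, h]

end Gens

/-- The data of coordinates on a finite `G`-module. -/
structure CoordData (A : Subring Ω) (M0 : AddSubgroup M) {ι : Type*} {g : ℕ}
    (X : ι → M → Fin g → Ω) (R : Type*) (G : Type*) [CommRing R] [Algebra R Ω] [Group G]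
    [MulSemiringAction G Ω] [DistribMulAction G M] : Prop where
  triv : ∀ (σ : G) (x : M), σ • x - x ∈ M0
  eqv : ∀ χ i, IsEqv G (coord X χ i)
  val : ∀ χ x i, X χ x i ∈ A
  inj : ∀ x y : M, x - y ∈ M0 → (∀ χ i, X χ x i = X χ y i) → x = y
  add : ∀ χ, ∀ d : R, algebraMap R Ω d ≠ 0 → ∀ q q' : M ⧸ M0,
    ∃ F : Fin g → MvPolynomial (Fin g ⊕ Fin g) R, ∀ x y : M,
      (QuotientAddGroup.mk x : M ⧸ M0) = q → (QuotientAddGroup.mk y : M ⧸ M0) = q' → ∀ i,
        ∃ a ∈ A, X χ (x + y) i - MvPolynomial.aeval (Sum.elim (X χ x) (X χ y)) (F i)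
          = algebraMap R Ω d * a
  neg : ∀ χ, ∀ d : R, algebraMap R Ω d ≠ 0 → ∀ q : M ⧸ M0,
    ∃ F : Fin g → MvPolynomial (Fin g) R, ∀ x : M,
      (QuotientAddGroup.mk x : M ⧸ M0) = q → ∀ i,
        ∃ a ∈ A, X χ (-x) i - MvPolynomial.aeval (X χ x) (F i) = algebraMap R Ω d * a

variable {A : Subring Ω} {M0 : AddSubgroup M} {ι : Type*} {g : ℕ} {X : ι → M → Fin g → Ω}

section Basic

variable (hD : CoordData A M0 X R G)
include hD

omit [SMulCommClass G R Ω] in
theorem mk_smul (σ : G) (x : M) :
    (QuotientAddGroup.mk (σ • x) : M ⧸ M0) = QuotientAddGroup.mk x := by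
  rw [QuotientAddGroup.eq]
  have := M0.neg_mem (hD.triv σ x)
  have e : -(σ • x - x) = -(σ • x) + x := by abel
  rwa [e] at this

omit [SMulCommClass G R Ω] in
theorem ind_isEqv (q : M ⧸ M0) : IsEqv G (ind M0 Ω q) := by
  intro σ x
  unfold ind
  rw [mk_smul hD σ x]
  split_ifs <;> simp

theorem order_isEqv : ∀ h ∈ order M0 X R, IsEqv G h := by
  have : order M0 X R ≤ eqvSub R G (Ω := Ω) M := by
    refine Algebra.adjoin_le ?_
    rintro _ (⟨q, rfl⟩ | ⟨p, rfl⟩)
    · exact ind_isEqv hD q
    · exact hD.eqv p.1 p.2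
  exact fun h hh => this hh

omit [SMulCommClass G R Ω] in
theorem order_val (hRA : ∀ r : R, algebraMap R Ω r ∈ A) :
    ∀ h ∈ order M0 X R, ∀ x, h x ∈ A := by
  have : order M0 X R ≤ valSub R M A hRA := by
    refine Algebra.adjoin_le ?_
    rintro _ (⟨q, rfl⟩ | ⟨p, rfl⟩)
    · intro x
      unfold ind
      split_ifs
      · exact A.one_mem
      · exact A.zero_mem
    · intro x
      exact hD.val p.1 x p.2
  exact fun h hh => this hh

omit [SMulCommClass G R Ω] in
theorem order_separates : ∀ x y : M, x ≠ y → ∃ h ∈ order M0 X R, h x ≠ h y := by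
  intro x y hxy
  by_cases hq : (QuotientAddGroup.mk x : M ⧸ M0) = QuotientAddGroup.mk y
  · have hmem : x - y ∈ M0 := by
      have := QuotientAddGroup.eq.mp hq.symm
      have e : -y + x = x - y := by abel
      rwa [e] at this
    by_contra hcon
    push Not at hcon
    exact hxy (hD.inj x y hmem fun χ i => hcon _ (coord_mem_order M0 X χ i))
  · refine ⟨ind M0 Ω (QuotientAddGroup.mk x), ind_mem_order M0 X _, ?_⟩
    rw [ind_apply_self, ind_apply_of_ne M0 (Ne.symm hq)]
    exact one_ne_zero

omit [SMulCommClass G R Ω] in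
theorem order_span [Fintype M] : Submodule.span Ω ((order M0 X R : Subalgebra R (M → Ω)) : Set (M → Ω)) = ⊤ :=
  span_eq_top_of_separates _ (order_separates hD)

end Basic

section Aeval

omit [AddCommGroup M] in
theorem aeval_mem {Y : Type*} {κ : Type*} (T : Subalgebra R (Y → Ω)) (v : κ → Y → Ω)
    (hv : ∀ j, v j ∈ T) (p : MvPolynomial κ R) : MvPolynomial.aeval v p ∈ T := by
  have := Subalgebra.mvPolynomial_aeval_coe T (fun j => (⟨v j, hv j⟩ : T)) p
  simp only at this
  rw [this]
  exact Subtype.mem _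

omit [AddCommGroup M] in
theorem aeval_apply {Y : Type*} {κ : Type*} (v : κ → Y → Ω) (p : MvPolynomial κ R) (y : Y) :
    (MvPolynomial.aeval v p : Y → Ω) y = MvPolynomial.aeval (fun j => v j y) p :=
  MvPolynomial.comp_aeval_apply v (Pi.evalAlgHom R (fun _ : Y => Ω) y) p

end Aeval

section Main

variable [Fintype M] (hfix : FixHyp G R A) (hRA : ∀ r : R, algebraMap R Ω r ∈ A)
  (hD : CoordData A M0 X R G)
include hfix hRA hD

/-- `Δ(H) ⊂ H ⊗ H`. -/
theorem order_delta :
    ∀ h ∈ order M0 X R, (fun p : M × M => h (p.1 + p.2)) ∈ tens (order M0 X R) := by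
  classical
  have : Fintype (M ⧸ M0) := Fintype.ofFinite _
  refine delta_closed A hfix hRA (order M0 X R) (order_isEqv hD) (order_val hD hRA)
    (order_span hD) (gens M0 X) rfl ?_
  rintro _ (⟨q, rfl⟩ | ⟨⟨χ, i⟩, rfl⟩) d hd
  · -- the indicator: exact formula
    refine ⟨∑ q' : M ⧸ M0, pullAlg R Ω Prod.fst (ind M0 Ω q') * pullAlg R Ω Prod.snd (ind M0 Ω (q - q')),
      Subalgebra.sum_mem _ fun q' _ => Subalgebra.mul_mem _
        (fst_mem_tens (ind_mem_order M0 X q')) (snd_mem_tens (ind_mem_order M0 X (q - q'))), ?_⟩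
    intro x y
    refine ⟨0, A.zero_mem, ?_⟩
    rw [mul_zero, sub_eq_zero, Finset.sum_apply]
    rw [Finset.sum_eq_single (QuotientAddGroup.mk x : M ⧸ M0)]
    · simp only [Pi.mul_apply, pullAlg_apply, ind_apply_self, one_mul]
      unfold ind
      have : ((QuotientAddGroup.mk (x + y) : M ⧸ M0) = q) ↔
          ((QuotientAddGroup.mk y : M ⧸ M0) = q - QuotientAddGroup.mk x) := by
        rw [QuotientAddGroup.mk_add, eq_sub_iff_add_eq, add_comm]
      simp only [this]
    · intro q' _ hq'
      simp only [Pi.mul_apply, pullAlg_apply]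
      rw [ind_apply_of_ne M0 (Ne.symm hq'), zero_mul]
    · intro h
      exact absurd (Finset.mem_univ _) h
  · -- a coordinate: the polynomial approximation
    have hF := hD.add χ d hd
    choose F hF using hF
    set v : Fin g ⊕ Fin g → (M × M → Ω) :=
      Sum.elim (fun j => pullAlg R Ω Prod.fst (coord X χ j))
        (fun j => pullAlg R Ω Prod.snd (coord X χ j)) with hv
    have hvT : ∀ j, v j ∈ tens (order M0 X R) := by
      rintro (j | j)
      · exact fst_mem_tens (coord_mem_order M0 X χ j)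
      · exact snd_mem_tens (coord_mem_order M0 X χ j)
    refine ⟨∑ q' : M ⧸ M0, ∑ q'' : M ⧸ M0, pullAlg R Ω Prod.fst (ind M0 Ω q') *
        pullAlg R Ω Prod.snd (ind M0 Ω q'') * MvPolynomial.aeval v (F q' q'' i),
      Subalgebra.sum_mem _ fun q' _ => Subalgebra.sum_mem _ fun q'' _ => Subalgebra.mul_mem _
        (Subalgebra.mul_mem _ (fst_mem_tens (ind_mem_order M0 X q'))
          (snd_mem_tens (ind_mem_order M0 X q''))) (aeval_mem _ v hvT _), ?_⟩
    intro x y
    obtain ⟨a, ha, hxy⟩ := hF (QuotientAddGroup.mk x) (QuotientAddGroup.mk y) x y rfl rfl i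
    refine ⟨a, ha, ?_⟩
    rw [← hxy]
    congr 1
    rw [Finset.sum_apply, Finset.sum_eq_single (QuotientAddGroup.mk x : M ⧸ M0)]
    · rw [Finset.sum_apply, Finset.sum_eq_single (QuotientAddGroup.mk y : M ⧸ M0)]
      · simp only [Pi.mul_apply, pullAlg_apply, ind_apply_self, one_mul]
        rw [aeval_apply]
        congr 2
        funext j
        rcases j with j | j <;> rfl
      · intro q'' _ hq''
        simp only [Pi.mul_apply, pullAlg_apply]
        rw [ind_apply_of_ne M0 (Ne.symm hq''), mul_zero, zero_mul]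
      · intro h
        exact absurd (Finset.mem_univ _) h
    · intro q' _ hq'
      rw [Finset.sum_apply]
      refine Finset.sum_eq_zero fun q'' _ => ?_
      simp only [Pi.mul_apply, pullAlg_apply]
      rw [ind_apply_of_ne M0 (Ne.symm hq'), zero_mul, zero_mul]
    · intro h
      exact absurd (Finset.mem_univ _) h

omit hRA in
/-- `S(H) ⊂ H`. -/
theorem order_neg (hRA : ∀ r : R, algebraMap R Ω r ∈ A) :
    ∀ h ∈ order M0 X R, (fun x : M => h (-x)) ∈ order M0 X R := by
  classical
  have : Fintype (M ⧸ M0) := Fintype.ofFinite _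
  refine neg_closed A hfix (order M0 X R) (order_isEqv hD) (order_val hD hRA)
    (order_span hD) (gens M0 X) rfl ?_
  rintro _ (⟨q, rfl⟩ | ⟨⟨χ, i⟩, rfl⟩) d hd
  · refine ⟨ind M0 Ω (-q), ind_mem_order M0 X _, fun x => ⟨0, A.zero_mem, ?_⟩⟩
    rw [mul_zero, sub_eq_zero]
    unfold ind
    have : ((QuotientAddGroup.mk (-x) : M ⧸ M0) = q) ↔
        ((QuotientAddGroup.mk x : M ⧸ M0) = -q) := by
      rw [QuotientAddGroup.mk_neg, neg_eq_iff_eq_neg]
    simp only [this]
  · have hF := hD.neg χ d hd
    choose F hF using hF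
    have hvT : ∀ j, coord X χ j ∈ order M0 X R := fun j => coord_mem_order M0 X χ j
    refine ⟨∑ q : M ⧸ M0, ind M0 Ω q * MvPolynomial.aeval (fun j => coord X χ j) (F q i),
      Subalgebra.sum_mem _ fun q _ => Subalgebra.mul_mem _ (ind_mem_order M0 X q)
        (aeval_mem _ _ hvT _), ?_⟩
    intro x
    obtain ⟨a, ha, hx⟩ := hF (QuotientAddGroup.mk x) x rfl i
    refine ⟨a, ha, ?_⟩
    rw [← hx]
    congr 1
    rw [Finset.sum_apply, Finset.sum_eq_single (QuotientAddGroup.mk x : M ⧸ M0)]
    · simp only [Pi.mul_apply, ind_apply_self, one_mul]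
      rw [aeval_apply]
      rfl
    · intro q _ hq
      simp only [Pi.mul_apply]
      rw [ind_apply_of_ne M0 (Ne.symm hq), zero_mul]
    · intro h
      exact absurd (Finset.mem_univ _) h

/-- **Coordinates ⇒ all hypotheses of the Hopf-order core.** -/
theorem coordOrder [IsNoetherianRing R] :
    (Subalgebra.toSubmodule (order M0 X R)).FG ∧
    (∀ h ∈ order M0 X R, IsEqv G h) ∧
    (∀ h ∈ order M0 X R, ∀ x, h x ∈ A) ∧
    (∀ x y : M, x ≠ y → ∃ h ∈ order M0 X R, h x ≠ h y) ∧
    (∀ h ∈ order M0 X R, (fun p : M × M => h (p.1 + p.2)) ∈ tens (order M0 X R)) ∧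
    (∀ h ∈ order M0 X R, (fun x : M => h (-x)) ∈ order M0 X R) ∧
    (∀ h ∈ order M0 X R, h 0 ∈ (algebraMap R Ω).range) :=
  ⟨fg_of_isEqv_val A hfix _ (order_isEqv hD) (order_val hD hRA) (order_span hD),
    order_isEqv hD, order_val hD hRA, order_separates hD, order_delta hfix hRA hD,
    order_neg hfix hD hRA,
    fun h hh => eval_zero_mem_range A hfix (order_isEqv hD h hh) (order_val hD hRA h hh)⟩

end Main

end Fermat.Agent.ES.V19.CoordOrder23
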