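/-
Programme V (S19 by hand, route `S19_ROUTE23.md`), chapter (B6) "base points, assembling (A4)",
helper11: **from one chart on the kernel of reduction to the coordinate data of (A4)**.

Abstract setting (no geometry): a group `G` (the group `Γ_L`) acting on a field `Ω` and on an
abelian group `J` (the Jacobian); a subgroup `J1 ⊂ J` (the kernel of reduction); a subring
`A ⊂ Ω` (the valuation ring) and a base ring `R` (`= O_L`) with `A ∩ Ω^G ⊂ R` (`FixHyp`).

* `XiData A J1 Ξ R G` : what chapter (B5) proves about a chart `Ξ : J → Fin g → Ω` on `J1`: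
  `A`-valued, injective, `G`-equivariant, addition and inversion approximated modulo `d A`
  (every `d ≠ 0` of `R`), on every FINITE subset of `J1`, by polynomials with coefficients in `R`;
* `BaseData J1 inc P G` : base points `P x` (depending only on the coset of `x` modulo
  `M0 := J1.comap inc`), fixed by `G`, with `inc x - P x ∈ J1`;
* `coordData_of_xi` : then `X χ x := Ξ χ (inc x - P χ x)` satisfies
  `CoordOrder23.CoordData A M0 X R G` (the input of (A4)).
  The constants `δ = P x + P y - P (x + y) ∈ J1` are `G`-fixed, hence `Ξ δ ∈ R` by `FixHyp`, and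
  `F_{q,q'}(S,S') := F(F(S,S'), Ξ δ)`.
-/
import Fermat.Agent.ES.V19.CoordOrder23

set_option autoImplicit false

noncomputable section

namespace Fermat.Agent.ES.V19.Assemble11

open scoped BigOperators
open Fermat.Agent.ES.V19.Denominator23 Fermat.Agent.ES.V19.CoordOrder23

variable {R Ω G : Type*} [CommRing R] [Field Ω] [Algebra R Ω] [Group G]
  [MulSemiringAction G Ω]

/-! ### Polynomial congruences modulo `d A` -/

section Cong

variable (A : Subring Ω)

/-- `x ≡ y` modulo `d A`. -/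
def Cong (d x y : Ω) : Prop := ∃ a ∈ A, x - y = d * a

theorem Cong.refl (d x : Ω) : Cong A d x x := ⟨0, A.zero_mem, by ring⟩

variable {A}

theorem Cong.add {d x y x' y' : Ω} (h : Cong A d x y) (h' : Cong A d x' y') :
    Cong A d (x + x') (y + y') := by
  obtain ⟨a, ha, e⟩ := h
  obtain ⟨a', ha', e'⟩ := h'
  exact ⟨a + a', A.add_mem ha ha', by linear_combination e + e'⟩

theorem Cong.trans {d x y z : Ω} (h : Cong A d x y) (h' : Cong A d y z) : Cong A d x z := by
  obtain ⟨a, ha, e⟩ := h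
  obtain ⟨a', ha', e'⟩ := h'
  exact ⟨a + a', A.add_mem ha ha', by linear_combination e + e'⟩

theorem Cong.mul {d x y x' y' : Ω} (hx : x ∈ A) (hy' : y' ∈ A) (h : Cong A d x y)
    (h' : Cong A d x' y') : Cong A d (x * x') (y * y') := by
  obtain ⟨a, ha, e⟩ := h
  obtain ⟨a', ha', e'⟩ := h'
  exact ⟨a * y' + x * a', A.add_mem (A.mul_mem ha hy') (A.mul_mem hx ha'),
    by linear_combination y' * e + x * e'⟩

/-- Values of a polynomial with coefficients in `R` at `A`-valued arguments lie in `A`. -/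
theorem aeval_mem (hRA : ∀ r : R, algebraMap R Ω r ∈ A) {κ : Type*} (u : κ → Ω)
    (hu : ∀ k, u k ∈ A) (p : MvPolynomial κ R) : MvPolynomial.aeval u p ∈ A := by
  induction p using MvPolynomial.induction_on with
  | C r => rw [MvPolynomial.aeval_C]; exact hRA r
  | add p q hp hq => rw [map_add]; exact A.add_mem hp hq
  | mul_X p k hp => rw [map_mul, MvPolynomial.aeval_X]; exact A.mul_mem hp (hu k)

/-- A polynomial with coefficients in `R` respects congruences modulo `d A` between `A`-valued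
arguments. -/
theorem aeval_cong (hRA : ∀ r : R, algebraMap R Ω r ∈ A) {κ : Type*} (d : Ω) (u v : κ → Ω)
    (hu : ∀ k, u k ∈ A) (hv : ∀ k, v k ∈ A) (huv : ∀ k, Cong A d (u k) (v k))
    (p : MvPolynomial κ R) : Cong A d (MvPolynomial.aeval u p) (MvPolynomial.aeval v p) := by
  induction p using MvPolynomial.induction_on with
  | C r => rw [MvPolynomial.aeval_C, MvPolynomial.aeval_C]; exact Cong.refl A d _
  | add p q hp hq => rw [map_add, map_add]; exact hp.add hq
  | mul_X p k hp =>
    rw [map_mul, map_mul, MvPolynomial.aeval_X, MvPolynomial.aeval_X]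
    exact Cong.mul (aeval_mem hRA u hu p) (hv k) hp (huv k)

end Cong

/-! ### The exit of (B5) and the base points -/

variable {J : Type*} [AddCommGroup J] [DistribMulAction G J]

/-- What (B5) proves about one chart `Ξ` on the kernel of reduction `J1`. -/
structure XiData (A : Subring Ω) (J1 : AddSubgroup J) {g : ℕ} (Ξ : J → Fin g → Ω)
    (R : Type*) (G : Type*) [CommRing R] [Algebra R Ω] [Group G] [MulSemiringAction G Ω]
    [DistribMulAction G J] : Prop where
  val : ∀ y ∈ J1, ∀ i, Ξ y i ∈ A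
  inj : ∀ y ∈ J1, ∀ y' ∈ J1, Ξ y = Ξ y' → y = y'
  eqv : ∀ (σ : G), ∀ y ∈ J1, ∀ i, Ξ (σ • y) i = σ • Ξ y i
  add : ∀ d : R, algebraMap R Ω d ≠ 0 → ∀ S : Finset J,
    ∃ F : Fin g → MvPolynomial (Fin g ⊕ Fin g) R,
      ∀ y ∈ S, ∀ y' ∈ S, y ∈ J1 → y' ∈ J1 → ∀ i, ∃ a ∈ A,
        Ξ (y + y') i - MvPolynomial.aeval (Sum.elim (Ξ y) (Ξ y')) (F i) = algebraMap R Ω d * a
  neg : ∀ d : R, algebraMap R Ω d ≠ 0 → ∀ S : Finset J,
    ∃ F : Fin g → MvPolynomial (Fin g) R,
      ∀ y ∈ S, y ∈ J1 → ∀ i, ∃ a ∈ A,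
        Ξ (-y) i - MvPolynomial.aeval (Ξ y) (F i) = algebraMap R Ω d * a

variable {M : Type*} [AddCommGroup M] [DistribMulAction G M]

/-- Base points: `P x` depends only on the coset of `x` modulo `M0 = J1.comap inc`, is fixed by
`G`, and `inc x - P x` lies in the kernel of reduction. -/
structure BaseData (J1 : AddSubgroup J) (inc : M →+ J) (P : M → J) (G : Type*) [Group G]
    [DistribMulAction G J] : Prop where
  const : ∀ x y : M, x - y ∈ J1.comap inc → P x = P y
  fixed : ∀ (σ : G) (x : M), σ • P x = P x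
  mem : ∀ x : M, inc x - P x ∈ J1

section Main

variable {A : Subring Ω} {J1 : AddSubgroup J} {g : ℕ}

/-- The value of a chart at a `G`-fixed point of `J1` lies in `R`. -/
theorem xi_fixed_mem_range (hfix : FixHyp G R A) {Ξ : J → Fin g → Ω} (hΞ : XiData A J1 Ξ R G)
    {δ : J} (hδ : δ ∈ J1) (hδfix : ∀ σ : G, σ • δ = δ) (i : Fin g) :
    Ξ δ i ∈ (algebraMap R Ω).range := by
  refine hfix _ (hΞ.val δ hδ i) fun σ => ?_
  rw [← hΞ.eqv σ δ hδ i, hδfix σ]

variable (inc : M →+ J)

theorem mk_eq_iff {x y : M} :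
    (QuotientAddGroup.mk x : M ⧸ J1.comap inc) = QuotientAddGroup.mk y ↔
      x - y ∈ J1.comap inc := by
  rw [eq_comm, QuotientAddGroup.eq]
  have e : -y + x = x - y := by abel
  rw [e]

/-- **(B6), abstract form: coordinates from one chart and base points.** -/
theorem coordData_of_xi [Finite M] (hfix : FixHyp G R A) (hRA : ∀ r : R, algebraMap R Ω r ∈ A)
    (hinc : Function.Injective inc) (hincG : ∀ (σ : G) (x : M), inc (σ • x) = σ • inc x)
    (htriv : ∀ (σ : G) (x : M), σ • x - x ∈ J1.comap inc)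
    {ι : Type*} (Ξ : ι → J → Fin g → Ω) (hΞ : ∀ χ, XiData A J1 (Ξ χ) R G)
    (P : ι → M → J) (hP : ∀ χ, BaseData J1 inc (P χ) G) (hne : Nonempty ι) :
    CoordData A (J1.comap inc) (fun χ x => Ξ χ (inc x - P χ x)) R G := by
  classical
  refine ⟨htriv, ?_, ?_, ?_, ?_, ?_⟩
  · -- equivariance
    intro χ i σ x
    show Ξ χ (inc (σ • x) - P χ (σ • x)) i = σ • Ξ χ (inc x - P χ x) i
    have h1 : P χ (σ • x) = P χ x := (hP χ).const _ _ (htriv σ x)
    rw [h1, hincG, ← (hΞ χ).eqv σ _ ((hP χ).mem x) i, smul_sub, (hP χ).fixed σ x]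
  · -- values
    intro χ x i
    exact (hΞ χ).val _ ((hP χ).mem x) i
  · -- injectivity on cosets
    intro x y hxy h
    obtain ⟨χ⟩ := hne
    have hPxy : P χ x = P χ y := (hP χ).const _ _ hxy
    have h1 : Ξ χ (inc x - P χ x) = Ξ χ (inc y - P χ y) := funext fun i => h χ i
    have h2 := (hΞ χ).inj _ ((hP χ).mem x) _ ((hP χ).mem y) h1
    rw [hPxy] at h2
    exact hinc (sub_left_injective h2)
  · -- addition
    intro χ d hd q q'
    obtain ⟨x₀, rfl⟩ := QuotientAddGroup.mk_surjective q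
    obtain ⟨y₀, rfl⟩ := QuotientAddGroup.mk_surjective q'
    set δ : J := P χ x₀ + P χ y₀ - P χ (x₀ + y₀) with hδdef
    have : Fintype M := Fintype.ofFinite M
    set T : Finset J := Finset.univ.image (fun x : M => inc x - P χ x) with hT
    set S : Finset J := insert δ (T ∪ (T ×ˢ T).image (fun p => p.1 + p.2)) with hS
    have hTmem : ∀ x : M, inc x - P χ x ∈ T := fun x =>
      Finset.mem_image.mpr ⟨x, Finset.mem_univ x, rfl⟩
    have hTS : ∀ a ∈ T, a ∈ S := fun a ha =>
      Finset.mem_insert_of_mem (Finset.mem_union_left _ ha)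
    have hTTS : ∀ a ∈ T, ∀ b ∈ T, a + b ∈ S := fun a ha b hb =>
      Finset.mem_insert_of_mem (Finset.mem_union_right _
        (Finset.mem_image.mpr ⟨(a, b), Finset.mem_product.mpr ⟨ha, hb⟩, rfl⟩))
    have hδS : δ ∈ S := Finset.mem_insert_self _ _
    obtain ⟨F, hF⟩ := (hΞ χ).add d hd S
    have hδ : δ ∈ J1 := by
      have e' : δ = (inc (x₀ + y₀) - P χ (x₀ + y₀)) - (inc x₀ - P χ x₀) - (inc y₀ - P χ y₀) := by
        rw [hδdef, map_add]; abel
      rw [e']
      exact J1.sub_mem (J1.sub_mem ((hP χ).mem _) ((hP χ).mem _)) ((hP χ).mem _)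
    have hδfix : ∀ σ : G, σ • δ = δ := fun σ => by
      rw [hδdef, smul_sub, smul_add, (hP χ).fixed, (hP χ).fixed, (hP χ).fixed]
    choose c hc using fun i => xi_fixed_mem_range hfix (hΞ χ) hδ hδfix i
    refine ⟨fun i => MvPolynomial.bind₁
      (Sum.elim (fun k => F k) (fun k => MvPolynomial.C (c k))) (F i), ?_⟩
    intro x y hx hy i
    have hxx : P χ x = P χ x₀ := (hP χ).const _ _ ((mk_eq_iff inc).mp hx)
    have hyy : P χ y = P χ y₀ := (hP χ).const _ _ ((mk_eq_iff inc).mp hy)
    have hxy : P χ (x + y) = P χ (x₀ + y₀) := by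
      refine (hP χ).const _ _ ?_
      have e : x + y - (x₀ + y₀) = (x - x₀) + (y - y₀) := by abel
      rw [e]
      exact (J1.comap inc).add_mem ((mk_eq_iff inc).mp hx) ((mk_eq_iff inc).mp hy)
    set u : J := inc x - P χ x with hu
    set v : J := inc y - P χ y with hv
    have hu1 : u ∈ J1 := (hP χ).mem x
    have hv1 : v ∈ J1 := (hP χ).mem y
    have huv1 : u + v ∈ J1 := J1.add_mem hu1 hv1
    have hsum : inc (x + y) - P χ (x + y) = (u + v) + δ := by
      rw [hxy, hu, hv, hxx, hyy, hδdef, map_add]; abel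
    show ∃ a ∈ A, Ξ χ (inc (x + y) - P χ (x + y)) i - MvPolynomial.aeval
      (Sum.elim (Ξ χ u) (Ξ χ v)) (MvPolynomial.bind₁
        (Sum.elim (fun k => F k) (fun k => MvPolynomial.C (c k))) (F i)) = algebraMap R Ω d * a
    rw [hsum, MvPolynomial.aeval_bind₁]
    -- the inner values
    set w : Fin g ⊕ Fin g → Ω := Sum.elim (Ξ χ u) (Ξ χ v) with hw
    have hwA : ∀ k, w k ∈ A := by
      rintro (k | k)
      · exact (hΞ χ).val u hu1 k
      · exact (hΞ χ).val v hv1 k
    have hinner : (fun s => MvPolynomial.aeval w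
        (Sum.elim (fun k => F k) (fun k => MvPolynomial.C (c k)) s)) =
        Sum.elim (fun k => MvPolynomial.aeval w (F k)) (Ξ χ δ) := by
      funext s
      rcases s with k | k
      · rfl
      · simp only [Sum.elim_inr, MvPolynomial.aeval_C]
        exact hc k
    rw [hinner]
    have h1 : Cong A (algebraMap R Ω d) (Ξ χ (u + v + δ) i)
        (MvPolynomial.aeval (Sum.elim (Ξ χ (u + v)) (Ξ χ δ)) (F i)) :=
      hF (u + v) (hTTS u (hTmem x) v (hTmem y)) δ hδS huv1 hδ i
    have h2 : Cong A (algebraMap R Ω d)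
        (MvPolynomial.aeval (Sum.elim (Ξ χ (u + v)) (Ξ χ δ)) (F i))
        (MvPolynomial.aeval (Sum.elim (fun k => MvPolynomial.aeval w (F k)) (Ξ χ δ)) (F i)) := by
      refine aeval_cong hRA _ _ _ ?_ ?_ ?_ (F i)
      · rintro (k | k)
        · exact (hΞ χ).val _ huv1 k
        · exact (hΞ χ).val _ hδ k
      · rintro (k | k)
        · exact aeval_mem hRA w hwA (F k)
        · exact (hΞ χ).val _ hδ k
      · rintro (k | k)
        · exact hF u (hTS u (hTmem x)) v (hTS v (hTmem y)) hu1 hv1 k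
        · exact Cong.refl A _ _
    exact h1.trans h2
  · -- inversion
    intro χ d hd q
    obtain ⟨x₀, rfl⟩ := QuotientAddGroup.mk_surjective q
    set δ : J := -P χ x₀ - P χ (-x₀) with hδdef
    have : Fintype M := Fintype.ofFinite M
    set T : Finset J := Finset.univ.image (fun x : M => inc x - P χ x) with hT
    set S : Finset J := insert δ (T ∪ T.image (fun a => -a)) with hS
    have hTmem : ∀ x : M, inc x - P χ x ∈ T := fun x =>
      Finset.mem_image.mpr ⟨x, Finset.mem_univ x, rfl⟩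
    have hTS : ∀ a ∈ T, a ∈ S := fun a ha =>
      Finset.mem_insert_of_mem (Finset.mem_union_left _ ha)
    have hnTS : ∀ a ∈ T, -a ∈ S := fun a ha =>
      Finset.mem_insert_of_mem (Finset.mem_union_right _
        (Finset.mem_image.mpr ⟨a, ha, rfl⟩))
    have hδS : δ ∈ S := Finset.mem_insert_self _ _
    obtain ⟨F, hF⟩ := (hΞ χ).add d hd S
    obtain ⟨N, hN⟩ := (hΞ χ).neg d hd S
    have hδ : δ ∈ J1 := by
      have e' : δ = (inc (-x₀) - P χ (-x₀)) + (inc x₀ - P χ x₀) := by
        rw [hδdef, map_neg]; abel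
      rw [e']
      exact J1.add_mem ((hP χ).mem _) ((hP χ).mem _)
    have hδfix : ∀ σ : G, σ • δ = δ := fun σ => by
      rw [hδdef, smul_sub, smul_neg, (hP χ).fixed, (hP χ).fixed]
    choose c hc using fun i => xi_fixed_mem_range hfix (hΞ χ) hδ hδfix i
    refine ⟨fun i => MvPolynomial.bind₁
      (Sum.elim (fun k => N k) (fun k => MvPolynomial.C (c k))) (F i), ?_⟩
    intro x hx i
    have hxx : P χ x = P χ x₀ := (hP χ).const _ _ ((mk_eq_iff inc).mp hx)
    have hnx : P χ (-x) = P χ (-x₀) := by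
      refine (hP χ).const _ _ ?_
      have e : -x - -x₀ = -(x - x₀) := by abel
      rw [e]
      exact (J1.comap inc).neg_mem ((mk_eq_iff inc).mp hx)
    set u : J := inc x - P χ x with hu
    have hu1 : u ∈ J1 := (hP χ).mem x
    have hnu1 : -u ∈ J1 := J1.neg_mem hu1
    have hsum : inc (-x) - P χ (-x) = -u + δ := by
      rw [hnx, hu, hxx, hδdef, map_neg]; abel
    show ∃ a ∈ A, Ξ χ (inc (-x) - P χ (-x)) i - MvPolynomial.aeval (Ξ χ u)
      (MvPolynomial.bind₁ (Sum.elim (fun k => N k) (fun k => MvPolynomial.C (c k))) (F i))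
        = algebraMap R Ω d * a
    rw [hsum, MvPolynomial.aeval_bind₁]
    have hwA : ∀ k, Ξ χ u k ∈ A := fun k => (hΞ χ).val u hu1 k
    have hinner : (fun s => MvPolynomial.aeval (Ξ χ u)
        (Sum.elim (fun k => N k) (fun k => MvPolynomial.C (c k)) s)) =
        Sum.elim (fun k => MvPolynomial.aeval (Ξ χ u) (N k)) (Ξ χ δ) := by
      funext s
      rcases s with k | k
      · rfl
      · simp only [Sum.elim_inr, MvPolynomial.aeval_C]
        exact hc k
    rw [hinner]
    have h1 : Cong A (algebraMap R Ω d) (Ξ χ (-u + δ) i)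
        (MvPolynomial.aeval (Sum.elim (Ξ χ (-u)) (Ξ χ δ)) (F i)) :=
      hF (-u) (hnTS u (hTmem x)) δ hδS hnu1 hδ i
    have h2 : Cong A (algebraMap R Ω d)
        (MvPolynomial.aeval (Sum.elim (Ξ χ (-u)) (Ξ χ δ)) (F i))
        (MvPolynomial.aeval (Sum.elim (fun k => MvPolynomial.aeval (Ξ χ u) (N k)) (Ξ χ δ))
          (F i)) := by
      refine aeval_cong hRA _ _ _ ?_ ?_ ?_ (F i)
      · rintro (k | k)
        · exact (hΞ χ).val _ hnu1 k
        · exact (hΞ χ).val _ hδ k
      · rintro (k | k)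
        · exact aeval_mem hRA _ hwA (N k)
        · exact (hΞ χ).val _ hδ k
      · rintro (k | k)
        · exact hN u (hTS u (hTmem x)) hu1 k
        · exact Cong.refl A _ _
    exact h1.trans h2

end Main

end Fermat.Agent.ES.V19.Assemble11
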