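/-
Programme V (S19 by hand, route `S19_ROUTE23.md`), chapter (B6), helper11:
**"fixed by inertia + finite level ⇒ fixed by some `Γ_f`".**

`A` a valuation subring of `ℚ̄`, `I = A.inertiaSubgroupIn ℚ`, `D = A.decompositionSubgroup ℚ`,
`Γ_f = GammaF16.gammaF A ℓ f`.  `FixesInertFixed A ℓ` is helper16's statement
"every `I`-fixed element of `ℚ̄` is fixed by some `Γ_f`" (kept as a hypothesis here).

* `exists_gammaF_le` : a subgroup `S` of `Gal(ℚ̄/ℚ)` which contains `I` and contains every element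
  of `D` fixing a number field `L` pointwise, contains some `Γ_f`, `0 < f`.
  Proof: replace `L` by its normal closure `N`; the image `H` of `I` in `Gal(N/ℚ)` is the fixing
  subgroup of its fixed field (finite Galois correspondence); a primitive element of
  `{x ∈ N | I fixes x}` is fixed by some `Γ_f`; for `σ ∈ Γ_f` there is `ι ∈ I` with
  `ι|_N = σ|_N`, and `σ = (σ ι⁻¹) ι`.
* `exists_gammaF_le_inf` : the same for finitely many such subgroups at once.
-/
import Fermat.Agent.ES.V19.GammaF16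

set_option autoImplicit false

noncomputable section

namespace Fermat.Agent.ES.V19.GammaLevel11

open Fermat.Agent.ES.V19.GammaF16 IntermediateField

local notation "Qbar" => AlgebraicClosure ℚ
local notation "GQ" => (AlgebraicClosure ℚ ≃ₐ[ℚ] AlgebraicClosure ℚ)

variable (A : ValuationSubring Qbar) (ℓ : ℕ)

/-- helper16's (ii): every element of `ℚ̄` fixed by the inertia group is fixed by some `Γ_f`. -/
def FixesInertFixed : Prop :=
  ∀ x : Qbar, (∀ σ ∈ A.inertiaSubgroupIn ℚ, σ x = x) →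
    ∃ f, 0 < f ∧ ∀ τ ∈ gammaF A ℓ f, τ x = x

/-- `S` has finite level relative to `D`: it contains every element of `D` fixing a number field
pointwise. -/
def HasLevelIn (S : Subgroup GQ) : Prop :=
  ∃ L : IntermediateField ℚ Qbar, FiniteDimensional ℚ L ∧
    ∀ σ ∈ A.decompositionSubgroup ℚ, (∀ a ∈ L, σ a = a) → σ ∈ S

variable {A ℓ}

theorem HasLevelIn.mono {S S' : Subgroup GQ} (h : HasLevelIn A S) (hSS : S ≤ S') :
    HasLevelIn A S' := by
  obtain ⟨L, hL, H⟩ := h
  exact ⟨L, hL, fun σ hσ ha => hSS (H σ hσ ha)⟩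

theorem HasLevelIn.inf {S S' : Subgroup GQ} (h : HasLevelIn A S) (h' : HasLevelIn A S') :
    HasLevelIn A (S ⊓ S') := by
  obtain ⟨L, hL, H⟩ := h
  obtain ⟨L', hL', H'⟩ := h'
  have := hL
  have := hL'
  refine ⟨L ⊔ L', inferInstance, fun σ hσ ha => ⟨H σ hσ fun a haL => ha a ?_,
    H' σ hσ fun a haL => ha a ?_⟩⟩
  · exact (le_sup_left : L ≤ L ⊔ L') haL
  · exact (le_sup_right : L' ≤ L ⊔ L') haL

/-- An automorphism fixing a primitive element of an intermediate field fixes the field. -/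
theorem fixes_of_primitive (E : IntermediateField ℚ Qbar) (θ : E) (hθ : ℚ⟮θ⟯ = ⊤) (τ : GQ)
    (hτ : τ (θ : Qbar) = θ) : ∀ x ∈ E, τ x = x := by
  intro x hx
  have hmem : (⟨x, hx⟩ : E) ∈ ℚ⟮θ⟯ := by rw [hθ]; exact IntermediateField.mem_top
  have key : ∀ y : E, y ∈ ℚ⟮θ⟯ → τ (y : Qbar) = y := by
    intro y hy
    induction hy using IntermediateField.adjoin_induction with
    | mem y hy =>
      rw [Set.mem_singleton_iff] at hy
      rw [hy]
      exact hτ
    | algebraMap r =>
      show τ (algebraMap ℚ Qbar r) = algebraMap ℚ Qbar r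
      exact τ.commutes r
    | add y z _ _ hy hz =>
      show τ ((y : Qbar) + z) = (y : Qbar) + z
      rw [map_add, hy, hz]
    | inv y _ hy =>
      show τ ((y : Qbar)⁻¹) = (y : Qbar)⁻¹
      rw [map_inv₀, hy]
    | mul y z _ _ hy hz =>
      show τ ((y : Qbar) * z) = (y : Qbar) * z
      rw [map_mul, hy, hz]
  exact key ⟨x, hx⟩ hmem

/-- **Inertia-fixed + finite level ⇒ some `Γ_f`.** -/
theorem exists_gammaF_le (hfix : FixesInertFixed A ℓ) (S : Subgroup GQ)
    (hIS : A.inertiaSubgroupIn ℚ ≤ S) (hlev : HasLevelIn A S) :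
    ∃ f, 0 < f ∧ gammaF A ℓ f ≤ S := by
  classical
  obtain ⟨L, hL, hLS⟩ := hlev
  have := hL
  have hnorQ : Normal ℚ Qbar := (Fermat.Agent.Lib.FrobeniusExists.isGalois_Qbar).to_normal
  -- the normal closure
  let N : IntermediateField ℚ Qbar := IntermediateField.normalClosure ℚ L Qbar
  have hLN : L ≤ N := IntermediateField.le_normalClosure L
  have hfinN : FiniteDimensional ℚ N := normalClosure.is_finiteDimensional ℚ L Qbar
  have hnorN : Normal ℚ N := normalClosure.normal ℚ L Qbar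
  -- restriction to `N`
  let res : GQ →* (N ≃ₐ[ℚ] N) := AlgEquiv.restrictNormalHom N
  have hres : ∀ (σ : GQ) (a : N), ((res σ a : N) : Qbar) = σ (a : Qbar) := fun σ a =>
    AlgEquiv.restrictNormal_commutes σ N a
  let H : Subgroup (N ≃ₐ[ℚ] N) := (A.inertiaSubgroupIn ℚ).map res
  -- the inertia-fixed part of `N`
  let E : IntermediateField ℚ Qbar :=
    N ⊓ IntermediateField.fixedField (A.inertiaSubgroupIn ℚ)
  have hEN : E ≤ N := inf_le_left
  have hfinE : FiniteDimensional ℚ E :=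
    Module.Finite.of_injective (IntermediateField.inclusion hEN).toLinearMap
      (IntermediateField.inclusion_injective hEN)
  have hEfix : ∀ x ∈ E, ∀ σ ∈ A.inertiaSubgroupIn ℚ, σ x = x := by
    intro x hx σ hσ
    exact hx.2 ⟨σ, hσ⟩
  obtain ⟨θ, hθ⟩ := Field.exists_primitive_element ℚ E
  obtain ⟨f, hf, hfθ⟩ := hfix (θ : Qbar) (hEfix _ θ.2)
  refine ⟨f, hf, fun σ hσ => ?_⟩
  have hσD : σ ∈ A.decompositionSubgroup ℚ := gammaF_le_decomposition f hσ
  have hσE : ∀ x ∈ E, σ x = x := fixes_of_primitive E θ hθ σ (hfθ σ hσ)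
  -- `res σ` fixes the fixed field of `H`
  have hmemH : res σ ∈ H := by
    rw [← IntermediateField.fixingSubgroup_fixedField H]
    rw [IntermediateField.mem_fixingSubgroup_iff]
    intro y hy
    have hyE : ((y : N) : Qbar) ∈ E := by
      refine ⟨y.2, ?_⟩
      rintro ⟨ι, hι⟩
      show ι ((y : N) : Qbar) = y
      have h1 : res ι y = y := hy ⟨res ι, Subgroup.mem_map_of_mem res hι⟩
      rw [← hres ι y, h1]
    apply Subtype.ext
    rw [hres σ y]
    exact hσE _ hyE
  obtain ⟨ι, hι, hισ⟩ := Subgroup.mem_map.mp hmemH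
  have hιD : ι ∈ A.decompositionSubgroup ℚ :=
    (Fermat.Agent.ES.FROB.FrobFacts12.mem_inertiaSubgroupIn_iff A).mp hι |>.1
  have hfixN : ∀ a ∈ N, (σ * ι⁻¹) a = a := by
    intro a ha
    have h1 : ((res ι (⟨a, ha⟩ : N) : N) : Qbar) = ((res σ (⟨a, ha⟩ : N) : N) : Qbar) := by
      rw [hισ]
    rw [hres, hres] at h1
    show σ (ι⁻¹ a) = a
    have h2 : ι⁻¹ a = σ⁻¹ a := by
      apply ι.injective
      show ι (ι⁻¹ a) = ι (σ⁻¹ a)
      have e1 : ι (ι⁻¹ a) = a := by
        show (ι * ι⁻¹) a = a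
        rw [mul_inv_cancel]; rfl
      rw [e1]
      -- `ι (σ⁻¹ a) = σ (σ⁻¹ a) = a` since `σ⁻¹ a ∈ N`
      have hmem : σ⁻¹ a ∈ N := by
        have := (res σ⁻¹ (⟨a, ha⟩ : N)).2
        rwa [hres] at this
      have h3 : ((res ι (⟨σ⁻¹ a, hmem⟩ : N) : N) : Qbar) =
          ((res σ (⟨σ⁻¹ a, hmem⟩ : N) : N) : Qbar) := by rw [hισ]
      rw [hres, hres] at h3
      rw [h3]
      show a = (σ * σ⁻¹) a
      rw [mul_inv_cancel]; rfl
    rw [h2]
    show (σ * σ⁻¹) a = a
    rw [mul_inv_cancel]; rfl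
  have h1 : σ * ι⁻¹ ∈ S :=
    hLS _ ((A.decompositionSubgroup ℚ).mul_mem hσD ((A.decompositionSubgroup ℚ).inv_mem hιD))
      fun a ha => hfixN a (hLN ha)
  have h2 : σ = (σ * ι⁻¹) * ι := by group
  rw [h2]
  exact S.mul_mem h1 (hIS hι)

/-- Finitely many conditions at once. -/
theorem exists_gammaF_le_finset (hfix : FixesInertFixed A ℓ) {κ : Type*} (T : Finset κ)
    (S : κ → Subgroup GQ) (hIS : ∀ k ∈ T, A.inertiaSubgroupIn ℚ ≤ S k)
    (hlev : ∀ k ∈ T, HasLevelIn A (S k)) :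
    ∃ f, 0 < f ∧ ∀ k ∈ T, gammaF A ℓ f ≤ S k := by
  classical
  induction T using Finset.induction_on with
  | empty => exact ⟨1, Nat.one_pos, fun k hk => absurd hk (Finset.notMem_empty k)⟩
  | insert a T ha ih =>
    obtain ⟨f, hf, hfT⟩ := ih (fun k hk => hIS k (Finset.mem_insert_of_mem hk))
      (fun k hk => hlev k (Finset.mem_insert_of_mem hk))
    obtain ⟨f', hf', hfa⟩ := exists_gammaF_le hfix (S a) (hIS a (Finset.mem_insert_self a T))
      (hlev a (Finset.mem_insert_self a T))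
    refine ⟨f * f', Nat.mul_pos hf hf', fun k hk => ?_⟩
    rcases Finset.mem_insert.mp hk with rfl | hk
    · exact (gammaF_anti (Dvd.intro_left f rfl)).trans hfa
    · exact (gammaF_anti (Dvd.intro f' rfl)).trans (hfT k hk)

end Fermat.Agent.ES.V19.GammaLevel11
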