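/-
Programme V (S19 by hand, route `S19_ROUTE23.md`), chapter (B6) "étale part, base points",
helper11: **one level `f` for the étale quotient and the base points** (formal part of (Ea), (Eb)).

`J` an abelian group with an action of `G_ℚ` with open stabilisers relative to `D_A`
(`HasLevelIn`; for `J = JZero M'` this is main's `OpenStab12.hasLevel_pic0`), `J1 ⊂ J` the kernel
of reduction (`D_A`-stable, `σ y - y ∈ J1` for `σ ∈ I_A`), `inc : M →+ J` equivariant, `M` finite.
If every `x ∈ M` has an `I_A`-fixed base point `P` with `inc x - P ∈ J1` (chapter (Eb):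
`LiftClass11.exists_fixed_base_point`), then there is ONE `f > 0` (a multiple of any given `f₀`)
such that `Γ_f = gammaF A ℓ f` acts trivially on `M ⧸ M0`, `M0 = J1.comap inc`, and there are base
points `P : M → J` with `Assemble11.BaseData J1 inc P ↥Γ_f`.
-/
import Fermat.Agent.ES.V19.Assemble11
import Fermat.Agent.ES.V19.GammaLevel11

set_option autoImplicit false

noncomputable section

namespace Fermat.Agent.ES.V19.BaseAsm11

open Fermat.Agent.ES.V19.GammaF16 Fermat.Agent.ES.V19.GammaLevel11 Fermat.Agent.ES.V19.Assemble11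

local notation "Qbar" => AlgebraicClosure ℚ
local notation "GQ" => (AlgebraicClosure ℚ ≃ₐ[ℚ] AlgebraicClosure ℚ)

variable {A : ValuationSubring Qbar} {ℓ : ℕ}
variable {J : Type*} [AddCommGroup J] [DistribMulAction GQ J]
variable {M : Type*} [AddCommGroup M] [DistribMulAction GQ M]

/-- The elements of `D_A` moving `x` inside its coset modulo `M0 = J1.comap inc`. -/
def trivSub (A : ValuationSubring Qbar) (J1 : AddSubgroup J)
    (hJ1D : ∀ σ ∈ A.decompositionSubgroup ℚ, ∀ y ∈ J1, σ • y ∈ J1)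
    (inc : M →+ J) (hincG : ∀ (σ : GQ) (x : M), inc (σ • x) = σ • inc x) (x : M) :
    Subgroup GQ where
  carrier := {σ | σ ∈ A.decompositionSubgroup ℚ ∧ σ • x - x ∈ J1.comap inc}
  one_mem' := ⟨Subgroup.one_mem _, by rw [one_smul, sub_self]; exact AddSubgroup.zero_mem _⟩
  mul_mem' := by
    rintro σ τ ⟨hσ, hσx⟩ ⟨hτ, hτx⟩
    refine ⟨Subgroup.mul_mem _ hσ hτ, ?_⟩
    have e : (σ * τ) • x - x = σ • (τ • x - x) + (σ • x - x) := by
      rw [mul_smul, smul_sub]; abel
    rw [e]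
    refine AddSubgroup.add_mem _ ?_ hσx
    rw [AddSubgroup.mem_comap, hincG]
    exact hJ1D σ hσ _ hτx
  inv_mem' := by
    rintro σ ⟨hσ, hσx⟩
    refine ⟨Subgroup.inv_mem _ hσ, ?_⟩
    have e : σ⁻¹ • x - x = -(σ⁻¹ • (σ • x - x)) := by
      rw [smul_sub, inv_smul_smul]; abel
    rw [e]
    refine AddSubgroup.neg_mem _ ?_
    rw [AddSubgroup.mem_comap, hincG]
    exact hJ1D σ⁻¹ (Subgroup.inv_mem _ hσ) _ hσx

/-- **One level for the étale quotient and the base points.** -/
theorem exists_level_baseData (hfix : FixesInertFixed A ℓ)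
    (hlevJ : ∀ y : J, HasLevelIn A (MulAction.stabilizer GQ y))
    (J1 : AddSubgroup J) (hJ1D : ∀ σ ∈ A.decompositionSubgroup ℚ, ∀ y ∈ J1, σ • y ∈ J1)
    (hJ1I : ∀ σ ∈ A.inertiaSubgroupIn ℚ, ∀ y : J, σ • y - y ∈ J1)
    [Finite M] (inc : M →+ J) (hincG : ∀ (σ : GQ) (x : M), inc (σ • x) = σ • inc x)
    (hlift : ∀ x : M, ∃ P : J, (∀ σ ∈ A.inertiaSubgroupIn ℚ, σ • P = P) ∧ inc x - P ∈ J1)
    (f₀ : ℕ) (hf₀ : 0 < f₀) :
    ∃ f, 0 < f ∧ f₀ ∣ f ∧
      (∀ σ ∈ gammaF A ℓ f, ∀ x : M, σ • x - x ∈ J1.comap inc) ∧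
      ∃ P : M → J, BaseData J1 inc P ↥(gammaF A ℓ f) := by
  classical
  have : Fintype M := Fintype.ofFinite M
  have hID : A.inertiaSubgroupIn ℚ ≤ A.decompositionSubgroup ℚ := fun σ hσ =>
    ((Fermat.Agent.ES.FROB.FrobFacts12.mem_inertiaSubgroupIn_iff A).mp hσ).1
  choose Pc hPcfix hPcmem using hlift
  -- the family of subgroups
  let S : M ⊕ M → Subgroup GQ := Sum.elim
    (fun x => trivSub A J1 hJ1D inc hincG x) (fun x => MulAction.stabilizer GQ (Pc x))
  obtain ⟨f, hf, hfS⟩ := exists_gammaF_le_finset hfix (Finset.univ : Finset (M ⊕ M)) S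
    (by
      rintro (x | x) -
      · intro σ hσ
        refine ⟨hID hσ, ?_⟩
        rw [AddSubgroup.mem_comap, map_sub, hincG]
        exact hJ1I σ hσ _
      · intro σ hσ
        exact MulAction.mem_stabilizer_iff.mpr (hPcfix x σ hσ))
    (by
      rintro (x | x) -
      · obtain ⟨L, hL, H⟩ := hlevJ (inc x)
        refine ⟨L, hL, fun σ hσ ha => ⟨hσ, ?_⟩⟩
        have h1 : σ • inc x = inc x := MulAction.mem_stabilizer_iff.mp (H σ hσ ha)
        rw [AddSubgroup.mem_comap, map_sub, hincG, h1, sub_self]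
        exact AddSubgroup.zero_mem _
      · exact hlevJ (Pc x))
  refine ⟨f * f₀, Nat.mul_pos hf hf₀, Dvd.intro_left f rfl, ?_, ?_⟩
  · intro σ hσ x
    have h1 : σ ∈ gammaF A ℓ f := gammaF_anti (Dvd.intro f₀ rfl) hσ
    exact (hfS (Sum.inl x) (Finset.mem_univ _) h1).2
  · refine ⟨fun x => Pc (Quotient.out (QuotientAddGroup.mk x : M ⧸ J1.comap inc)), ?_, ?_, ?_⟩
    · intro x y hxy
      have : (QuotientAddGroup.mk x : M ⧸ J1.comap inc) = QuotientAddGroup.mk y :=
        (mk_eq_iff inc).mpr hxy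
      show Pc (Quotient.out (QuotientAddGroup.mk x : M ⧸ J1.comap inc)) =
        Pc (Quotient.out (QuotientAddGroup.mk y : M ⧸ J1.comap inc))
      rw [this]
    · rintro ⟨σ, hσ⟩ x
      have h1 : σ ∈ gammaF A ℓ f := gammaF_anti (Dvd.intro f₀ rfl) hσ
      exact MulAction.mem_stabilizer_iff.mp (hfS (Sum.inr _) (Finset.mem_univ _) h1)
    · intro x
      set x₀ : M := Quotient.out (QuotientAddGroup.mk x : M ⧸ J1.comap inc) with hx₀
      have hmk : (QuotientAddGroup.mk x : M ⧸ J1.comap inc) = QuotientAddGroup.mk x₀ := by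
        rw [hx₀]
        exact (QuotientAddGroup.out_eq' _).symm
      have h1 : x - x₀ ∈ J1.comap inc := (mk_eq_iff inc).mp hmk
      have e : inc x - Pc x₀ = inc (x - x₀) + (inc x₀ - Pc x₀) := by
        rw [map_sub]; abel
      show inc x - Pc x₀ ∈ J1
      rw [e]
      exact J1.add_mem h1 (hPcmem x₀)

end Fermat.Agent.ES.V19.BaseAsm11
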