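/-
Programme V (S19 by hand, route `S19_ROUTE23.md`), chapter (B6) "base points", helper11:
**lifting divisor classes of the special fibre to classes fixed by a set of automorphisms.**

* `exists_lift_divisor` (any two function fields, `r : Place K F → Place k Ft` degree preserving):
  if every place in the support of `Dbar` has a lift under `r` fixed by all `g ∈ S`, then `Dbar` has
  a lift `D` (`mapDomain r D = Dbar`) fixed by all `g ∈ S`, of the same degree;
* `exists_fixed_class` (modular setting of the Prelude's `reductionPic0Along`): if every class of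
  the special fibre is represented by a divisor supported on liftable places (moving lemma), then
  every class `z` is the reduction of a class `y` fixed by all `σ ∈ I`;
* `exists_fixed_base_point` : hence for every `x` there is `P` fixed by `I` with
  `x - P ∈ ker red`.
-/
import Mathlib
import Fermat.Prelude.Def_ModularCurve_ReductionModL

set_option autoImplicit false

noncomputable section

open AlgebraicCurve ModularCurve

namespace Fermat.Agent.ES.V19.LiftClass11

section Divisors

variable {K F k Ft : Type*} [Field K] [Field F] [Algebra K F] [Field k] [Field Ft] [Algebra k Ft]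

/-- Lifting a divisor place by place. -/
theorem exists_lift_divisor (r : Place K F → Place k Ft) (hdeg : ∀ P, (r P).deg = P.deg)
    (S : Set (SemilinearAut K F)) (Dbar : Divisor k Ft)
    (hsupp : ∀ Q, Dbar Q ≠ 0 → ∃ P, r P = Q ∧ ∀ g ∈ S, g • P = P) :
    ∃ D : Divisor K F, Finsupp.mapDomain r D = Dbar ∧ (∀ g ∈ S, g • D = D) ∧
      Divisor.degree D = Divisor.degree Dbar := by
  classical
  induction Dbar using Finsupp.induction with
  | zero =>
    exact ⟨0, Finsupp.mapDomain_zero, fun g _ => smul_zero g, by rw [map_zero, map_zero]⟩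
  | single_add Q n Dbar hQ hn ih =>
    have hQ0 : Dbar Q = 0 := Finsupp.notMem_support_iff.mp hQ
    obtain ⟨P, hPQ, hPfix⟩ := hsupp Q (by
      rw [Finsupp.add_apply, Finsupp.single_eq_same, hQ0, add_zero]
      exact hn)
    obtain ⟨D, hD, hDfix, hDdeg⟩ := ih (fun Q' hQ' => hsupp Q' (by
      have hne : Q' ≠ Q := by
        rintro rfl
        exact hQ' hQ0
      rw [Finsupp.add_apply, Finsupp.single_eq_of_ne hne, zero_add]
      exact hQ'))
    refine ⟨Finsupp.single P n + D, ?_, ?_, ?_⟩
    · rw [Finsupp.mapDomain_add, Finsupp.mapDomain_single, hPQ, hD]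
    · intro g hg
      rw [smul_add, SemilinearAut.smul_single, hPfix g hg, hDfix g hg]
    · rw [map_add, map_add, hDdeg, Divisor.degree_single, Divisor.degree_single, ← hPQ, hdeg]

end Divisors

section Modular

variable {L : Type*} [Field L] [Algebra ℚ L] {A : ValuationSubring L}
variable {k : Type*} [Field k] {π : A →+* k} {N : ℕ}
variable (r : Place L (laurentBaseChange L (modularFunctionFieldFull N)) →
  Place k (modularFunctionFieldFullC k N))

/-- **Every class supported on liftable places lifts to a class fixed by `I`.** -/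
theorem exists_fixed_class (hr : IsPlaceReductionAlong A π N r)
    (hgen : PrincipalGeneratedByIntegral A π N) (I : Set (L ≃ₐ[ℚ] L))
    (Lift : Set (Place k (modularFunctionFieldFullC k N)))
    (hLift : ∀ Q ∈ Lift, ∃ P, r P = Q ∧
      ∀ σ ∈ I, arithmeticGalois (modularFunctionFieldFull N) σ • P = P)
    (Dbar : Divisor.degZero (K := k) (F := modularFunctionFieldFullC k N))
    (hsupp : ∀ Q, (Dbar : Divisor k (modularFunctionFieldFullC k N)) Q ≠ 0 → Q ∈ Lift) :
    ∃ y : Pic0 L (laurentBaseChange L (modularFunctionFieldFull N)),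
      (∀ σ ∈ I, σ • y = y) ∧ reductionPic0Along r hr hgen y = Pic0.mk Dbar := by
  obtain ⟨D, hD, hDfix, hDdeg⟩ := exists_lift_divisor r hr.1
    ((arithmeticGalois (modularFunctionFieldFull N)) '' I)
    (Dbar : Divisor k (modularFunctionFieldFullC k N))
    (fun Q hQ => by
      obtain ⟨P, hP, hPfix⟩ := hLift Q (hsupp Q hQ)
      refine ⟨P, hP, ?_⟩
      rintro g ⟨σ, hσ, rfl⟩
      exact hPfix σ hσ)
  have hD0 : D ∈ Divisor.degZero (K := L) (F := laurentBaseChange L (modularFunctionFieldFull N)) := by
    rw [Divisor.mem_degZero, hDdeg]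
    exact Dbar.2
  refine ⟨Pic0.mk ⟨D, hD0⟩, ?_, ?_⟩
  · intro σ hσ
    rw [galois_smul_pic0_def, SemilinearAut.pic0_smul_mk]
    congr 1
    apply Subtype.ext
    rw [SemilinearAut.coe_degZeroSMulHom]
    exact hDfix _ ⟨σ, hσ, rfl⟩
  · rw [reductionPic0Along_mk]
    congr 1
    apply Subtype.ext
    rw [coe_reductionDegZeroAlong]
    exact hD

/-- **Base points**: if every class of the special fibre has a representative supported on
liftable places, every `x` has an `I`-fixed base point `P` with `x - P` in the kernel of
reduction. -/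
theorem exists_fixed_base_point (hr : IsPlaceReductionAlong A π N r)
    (hgen : PrincipalGeneratedByIntegral A π N) (I : Set (L ≃ₐ[ℚ] L))
    (Lift : Set (Place k (modularFunctionFieldFullC k N)))
    (hLift : ∀ Q ∈ Lift, ∃ P, r P = Q ∧
      ∀ σ ∈ I, arithmeticGalois (modularFunctionFieldFull N) σ • P = P)
    (hmove : ∀ z : JZeroC k N,
      ∃ Dbar : Divisor.degZero (K := k) (F := modularFunctionFieldFullC k N),
        Pic0.mk Dbar = z ∧
          ∀ Q, (Dbar : Divisor k (modularFunctionFieldFullC k N)) Q ≠ 0 → Q ∈ Lift)
    (x : Pic0 L (laurentBaseChange L (modularFunctionFieldFull N))) :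
    ∃ P : Pic0 L (laurentBaseChange L (modularFunctionFieldFull N)),
      (∀ σ ∈ I, σ • P = P) ∧ x - P ∈ (reductionPic0Along r hr hgen).ker := by
  obtain ⟨Dbar, hDbar, hsupp⟩ := hmove (reductionPic0Along r hr hgen x)
  obtain ⟨P, hPfix, hP⟩ := exists_fixed_class r hr hgen I Lift hLift Dbar hsupp
  refine ⟨P, hPfix, ?_⟩
  rw [AddMonoidHom.mem_ker, map_sub, hP, hDbar, sub_self]

end Modular

end Fermat.Agent.ES.V19.LiftClass11
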