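/-
Programme V (S19), chapter B2 (helper8): LITE copy of `RR/H1Finite.lean` (C-RR, helper28):
finiteness of `H¹(D)` and Riemann's theorem with the index of speciality

  `l(D) - i(D) = deg D + 1 - g`,  `g = genusFF K F = dim H¹(0)`,

against `RR.LSpace.LHyp K F` and Riemann's inequality ONLY (no `FF1Data`, hence no fundamental
identity for every transcendental element: valid in every characteristic).  Proofs verbatim from
`RR/H1Finite`, with `AdelesL8` in place of `RR/Adeles`.
-/
import Mathlib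
import Fermat.Prelude.Def_AlgebraicCurve_Repartitions
import Fermat.Agent.RR.H1Finite
import Fermat.Agent.ES.V19.AdelesL8

set_option autoImplicit false

namespace Fermat.Agent.ES.V19.H1FiniteL8

open AlgebraicCurve Fermat.Agent.X0.FF Fermat.Agent.RR.RelRank
open Fermat.Agent.RR
open Fermat.Agent.RR.H1Finite (AP AP_mono r jump finrank_eq_add_of_le exists_r_max)
open Fermat.Agent.ES.V19.AdelesL8

variable {K F : Type*} [Field K] [Field F] [Algebra K F]

section Main

variable (HL : LSpace.LHyp K F)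

include HL

/-- Step 1: for `D ≤ D'`, `r(D') - r(D) = dim (A(D') + F) / (A(D) + F)`. -/
theorem r_sub_r {D D' : Divisor K F} (h : D ≤ D') : r D' - r D = (jump D D' : ℤ) := by
  have := HL.nonempty
  obtain ⟨_, _, h3⟩ := finrank_L_add_finrank_sup HL h
  have : FiniteDimensional K (riemannRochSpace D') := LSpace.finiteDimensional_L HL D'
  have h4 := finrank_eq_add_of_le (K := K) (LSpace.L_mono h)
  unfold r jump
  rw [h4]
  push_cast
  linarith

theorem r_mono {D D' : Divisor K F} (h : D ≤ D') : r D ≤ r D' := by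
  have := r_sub_r HL h
  have h0 : (0 : ℤ) ≤ jump D D' := Int.natCast_nonneg _
  linarith

/-- If `r(D') = r(D)` for `D ≤ D'` then `A(D') + F = A(D) + F`. -/
theorem AP_le_of_r_eq {D D' : Divisor K F} (h : D ≤ D') (hr : r D' = r D) : AP D' ≤ AP D := by
  have := HL.nonempty
  obtain ⟨_, hfin, _⟩ := finrank_L_add_finrank_sup HL h
  have h1 := r_sub_r HL h
  rw [hr, sub_self] at h1
  have h2 : jump D D' = 0 := by exact_mod_cast h1.symm
  have h3 : (AP D').map (AP D).mkQ = ⊥ := by
    have := hfin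
    exact Submodule.finrank_eq_zero.mp h2
  intro x hx
  have : (AP D).mkQ x ∈ (AP D').map (AP D).mkQ := Submodule.mem_map_of_mem hx
  rw [h3, Submodule.mem_bot, Submodule.mkQ_apply, Submodule.Quotient.mk_eq_zero] at this
  exact this

/-- Every repartition lies in `A(D)` for some `D ≥ D₀`. -/
theorem exists_ge_mem_repartitionsOf (α : ↥(repartitions K F)) (D₀ : Divisor K F) :
    ∃ D : Divisor K F, D₀ ≤ D ∧ α ∈ repartitionsOf D := by
  classical
  have hS : {v : Place K F | v.ord ((α : Place K F → F) v) < 0}.Finite :=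
    (mem_repartitions_iff HL).mp α.2
  let E : Place K F → ℤ := fun v => max (D₀ v) (-v.ord ((α : Place K F → F) v))
  have hE : ∀ v, E v ≠ 0 → v ∈ D₀.support ∪ hS.toFinset := by
    intro v hv
    by_contra hcon
    rw [Finset.mem_union, not_or, Finsupp.mem_support_iff, not_not, Set.Finite.mem_toFinset,
      Set.mem_ofPred_eq, not_lt] at hcon
    apply hv
    show max (D₀ v) (-v.ord ((α : Place K F → F) v)) = 0
    rw [hcon.1]
    exact max_eq_left (by omega)
  let D : Divisor K F := Finsupp.onFinset (D₀.support ∪ hS.toFinset) E hE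
  refine ⟨D, ?_, ?_⟩
  · rw [Finsupp.le_def]
    intro v
    show D₀ v ≤ max (D₀ v) _
    exact le_max_left _ _
  · rw [mem_repartitionsOf_iff]
    intro v
    right
    show -(max (D₀ v) (-v.ord ((α : Place K F → F) v))) ≤ _
    have := le_max_right (D₀ v) (-v.ord ((α : Place K F → F) v))
    omega

/-- Step 5: for a maximiser `D₀` of `r`, `A(D₀) + F` is everything. -/
theorem AP_eq_top_of_max {D₀ : Divisor K F} (hmax : ∀ D : Divisor K F, r D ≤ r D₀) :
    AP D₀ = ⊤ := by
  rw [eq_top_iff]
  intro α _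
  obtain ⟨D, hD, hα⟩ := exists_ge_mem_repartitionsOf HL α D₀
  have hr : r D = r D₀ := le_antisymm (hmax D) (r_mono HL hD)
  exact AP_le_of_r_eq HL hD hr (Submodule.mem_sup_left hα)

/-- Step 6: `H¹(D)` is finite-dimensional of dimension `r(D₀) - r(D)`. -/
theorem h1_finite_and_finrank {D₀ : Divisor K F} (hmax : ∀ D : Divisor K F, r D ≤ r D₀)
    (D : Divisor K F) :
    Module.Finite K (H1 D) ∧ (Module.finrank K (H1 D) : ℤ) = r D₀ - r D := by
  have := HL.nonempty
  set D' : Divisor K F := D ⊔ D₀ with hD'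
  have hD : D ≤ D' := le_sup_left
  have hD₀ : D₀ ≤ D' := le_sup_right
  have htop : AP D' = ⊤ := top_le_iff.mp ((AP_eq_top_of_max HL hmax) ▸ AP_mono hD₀)
  have hr : r D' = r D₀ := le_antisymm (hmax D') (r_mono HL hD₀)
  have hmap : (AP D').map (AP D).mkQ = ⊤ := by
    rw [htop, Submodule.map_top, Submodule.range_mkQ]
  obtain ⟨_, hfin, _⟩ := finrank_L_add_finrank_sup HL hD
  have h1 := r_sub_r HL hD
  unfold jump at h1
  have hfin' : Module.Finite K ↥(⊤ : Submodule K (H1 D)) := hmap ▸ hfin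
  have hfinH : Module.Finite K (H1 D) := Module.Finite.equiv (Submodule.topEquiv (R := K))
  refine ⟨hfinH, ?_⟩
  have h2 : Module.finrank K ↥((AP D').map (AP D).mkQ) = Module.finrank K (H1 D) := by
    rw [hmap]
    exact finrank_top K (H1 D)
  rw [h2, hr] at h1
  exact h1.symm

/-- `r(D₀) = g` for a maximiser `D₀`. -/
theorem r_max_eq_genus {D₀ : Divisor K F} (hmax : ∀ D : Divisor K F, r D ≤ r D₀) :
    r D₀ = (genusFF K F : ℤ) := by
  obtain ⟨_, h⟩ := h1_finite_and_finrank HL hmax (0 : Divisor K F)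
  have h0 : r (0 : Divisor K F) = 0 := by
    unfold r
    rw [map_zero, LSpace.finrank_L_zero HL]
    norm_num
  rw [h0, sub_zero] at h
  exact h.symm

/-- **(C5)** `H¹(D)` is finite-dimensional. -/
theorem finite_H1 (hR : ∃ γ : ℤ, ∀ D : Divisor K F,
    Divisor.degree D + 1 - γ ≤ (Module.finrank K (riemannRochSpace D) : ℤ)) (D : Divisor K F) :
    Module.Finite K (H1 D) := by
  obtain ⟨D₀, hmax⟩ := exists_r_max hR
  exact (h1_finite_and_finrank HL hmax D).1

/-- **(C5)** Riemann–Roch with the index of speciality: `l(D) - i(D) = deg D + 1 - g`. -/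
theorem finrank_L_sub_finrank_H1 (hR : ∃ γ : ℤ, ∀ D : Divisor K F,
    Divisor.degree D + 1 - γ ≤ (Module.finrank K (riemannRochSpace D) : ℤ)) (D : Divisor K F) :
    (Module.finrank K (riemannRochSpace D) : ℤ) - (Module.finrank K (H1 D) : ℤ) =
      Divisor.degree D + 1 - (genusFF K F : ℤ) := by
  obtain ⟨D₀, hmax⟩ := exists_r_max hR
  obtain ⟨_, h⟩ := h1_finite_and_finrank HL hmax D
  rw [h, r_max_eq_genus HL hmax]
  unfold r
  ring

/-- **(C5)** There is a divisor `D₀` with `H¹(D) = 0` for all `D ≥ D₀`. -/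
theorem exists_forall_ge_AP_eq_top (hR : ∃ γ : ℤ, ∀ D : Divisor K F,
    Divisor.degree D + 1 - γ ≤ (Module.finrank K (riemannRochSpace D) : ℤ)) :
    ∃ D₀ : Divisor K F, ∀ D : Divisor K F, D₀ ≤ D →
      repartitionsOf D ⊔ principalRepartitions K F = ⊤ := by
  obtain ⟨D₀, hmax⟩ := exists_r_max hR
  exact ⟨D₀, fun D hD => top_le_iff.mp ((AP_eq_top_of_max HL hmax) ▸ AP_mono hD)⟩

end Main

end Fermat.Agent.ES.V19.H1FiniteL8
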