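/-
Programme V (S19 by hand, route `S19_ROUTE23.md`), chapter (B6) "base points", helper11:
**the moving lemma** (characteristic-free, on helper8's lite Riemann chain).

`K F` arbitrary fields with `HL : LSpace.LHyp K F` and Riemann's inequality `hR`, `K` infinite.
For a finite set `S` of places and a place `Q₀ ∉ S`:

* `exists_function_avoiding` : for every divisor `D` there are `m` and `φ ≠ 0` in `L(D + m Q₀)` such
  that `E := D + m Q₀ + div φ` (which is `≥ 0`) has `E v = 0` for all `v ∈ S`
  [`φ` outside the finitely many proper subspaces `L(D + m Q₀ - v)`, `v ∈ S`];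
* `exists_degZero_rep_avoiding` : every class of `Pic⁰` has a representative (of degree `0`) whose
  support is disjoint from `S`.
-/
import Mathlib
import Fermat.Agent.ES.V19.H1LargeL8

set_option autoImplicit false

open AlgebraicCurve

noncomputable section

namespace Fermat.Agent.ES.V19.MovingLemma11

open Fermat.Agent.X0.FF Fermat.Agent.RR Fermat.Agent.RR.LSpace Fermat.Agent.ES.V19.H1LargeL8

variable {K F : Type*} [Field K] [Field F] [Algebra K F]

section Main

variable (HL : LHyp K F)
  (hR : ∃ γ : ℤ, ∀ D : Divisor K F,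
    Divisor.degree D + 1 - γ ≤ (Module.finrank K (riemannRochSpace D) : ℤ))

include HL hR

/-- A function in `L(D')`, `D' = D + m Q₀`, whose divisor cancels `D'` exactly on `S`. -/
theorem exists_function_avoiding [Infinite K] {S : Set (Place K F)} (hS : S.Finite)
    (Q₀ : Place K F) (D : Divisor K F) :
    ∃ (m : ℕ) (φ : F), φ ≠ 0 ∧ φ ∈ riemannRochSpace (D + Finsupp.single Q₀ (m : ℤ)) ∧
      ∀ v ∈ S, (D + Finsupp.single Q₀ (m : ℤ)) v + v.ord φ = 0 := by
  classical
  obtain ⟨c, hc⟩ := exists_forall_degree_ge_finrank_L_eq HL hR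
  set g : ℤ := (genusFF K F : ℤ) with hg
  set m : ℕ := (max (c + 1) g - Divisor.degree D).toNat with hm
  set D' : Divisor K F := D + Finsupp.single Q₀ (m : ℤ) with hD'
  have hdegD' : Divisor.degree D' = Divisor.degree D + m := by
    rw [hD', map_add, degree_single HL]
  have hmge : max (c + 1) g - Divisor.degree D ≤ (m : ℤ) := Int.self_le_toNat _
  have h1 : c + 1 ≤ Divisor.degree D' := by
    rw [hdegD']; have := le_max_left (c + 1) g; omega
  have h2 : g ≤ Divisor.degree D' := by
    rw [hdegD']; have := le_max_right (c + 1) g; omega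
  have hLD' : (Module.finrank K (riemannRochSpace D') : ℤ) = Divisor.degree D' + 1 - g :=
    hc D' (by omega)
  have hfd : FiniteDimensional K (riemannRochSpace D') := finiteDimensional_L HL D'
  -- the family of proper subspaces of `V = L(D')`
  have : Finite ↥S := hS
  let p : Option ↥S → Submodule K ↥(riemannRochSpace D') := fun o =>
    match o with
    | none => ⊥
    | some v => (riemannRochSpace (D' - Finsupp.single (v : Place K F) 1)).comap
        (riemannRochSpace D').subtype
  have hp : ∀ o, p o ≠ ⊤ := by
    intro o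
    cases o with
    | none =>
      show (⊥ : Submodule K ↥(riemannRochSpace D')) ≠ ⊤
      intro h
      have h3 : Module.finrank K ↥(riemannRochSpace D') = 0 := by
        have := finrank_top K ↥(riemannRochSpace D')
        rw [← h, finrank_bot] at this
        exact this.symm
      rw [h3] at hLD'
      push_cast at hLD'
      omega
    | some v =>
      show (riemannRochSpace (D' - Finsupp.single (v : Place K F) 1)).comap
        (riemannRochSpace D').subtype ≠ ⊤
      intro h
      have hle : riemannRochSpace D' ≤ riemannRochSpace (D' - Finsupp.single (v : Place K F) 1) := by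
        intro f hf
        have : (⟨f, hf⟩ : ↥(riemannRochSpace D')) ∈ (⊤ : Submodule K ↥(riemannRochSpace D')) :=
          Submodule.mem_top
        rw [← h] at this
        exact this
      have hge : riemannRochSpace (D' - Finsupp.single (v : Place K F) 1) ≤ riemannRochSpace D' := by
        refine L_mono ?_
        intro w
        rw [Finsupp.sub_apply]
        have : (0 : ℤ) ≤ Finsupp.single (v : Place K F) (1 : ℤ) w := by
          rw [Finsupp.single_apply]; split_ifs <;> omega
        omega
      have heq := le_antisymm hle hge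
      have hdeg : Divisor.degree (D' - Finsupp.single (v : Place K F) 1) =
          Divisor.degree D' - 1 := by
        rw [map_sub, degree_single HL]
      have h4 := hc (D' - Finsupp.single (v : Place K F) 1) (by rw [hdeg]; omega)
      rw [← heq, hLD', hdeg] at h4
      omega
  obtain ⟨x, hx⟩ := Submodule.exists_forall_notMem_of_forall_ne_top p hp
  have hφ0 : (x : F) ≠ 0 := by
    intro h
    apply hx none
    show x ∈ (⊥ : Submodule K ↥(riemannRochSpace D'))
    rw [Submodule.mem_bot]
    exact Subtype.ext h
  refine ⟨m, (x : F), hφ0, x.2, fun v hv => ?_⟩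
  have hmem := (mem_L_iff hφ0).mp x.2
  show D' v + v.ord (x : F) = 0
  by_contra hne
  apply hx (some ⟨v, hv⟩)
  show (x : F) ∈ riemannRochSpace (D' - Finsupp.single v 1)
  rw [mem_L_iff hφ0]
  intro w
  rw [Finsupp.sub_apply, Finsupp.single_apply]
  have hw := hmem w
  split_ifs with hvw
  · subst hvw
    have hv' := hmem v
    omega
  · omega

/-- **Moving lemma**: every class of `Pic⁰` has a representative whose support avoids `S`. -/
theorem exists_degZero_rep_avoiding [Infinite K] {S : Set (Place K F)} (hS : S.Finite)
    {Q₀ : Place K F} (hQ₀ : Q₀ ∉ S) (z : Pic0 K F) :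
    ∃ Dbar : Divisor.degZero (K := K) (F := F), Pic0.mk Dbar = z ∧
      ∀ v, (Dbar : Divisor K F) v ≠ 0 → v ∉ S := by
  classical
  obtain ⟨⟨D, hD⟩, rfl⟩ := Pic0.mk_surjective z
  obtain ⟨m, φ, hφ0, hφL, hφS⟩ := exists_function_avoiding HL hR hS Q₀ D
  set Dbar : Divisor K F := D + divOf HL hφ0 with hDbar
  have hdeg : Dbar ∈ Divisor.degZero (K := K) (F := F) := by
    rw [Divisor.mem_degZero, hDbar, map_add, degree_divOf, add_zero]
    exact hD
  refine ⟨⟨Dbar, hdeg⟩, ?_, ?_⟩
  · symm
    refine (QuotientAddGroup.eq).mpr ?_
    rw [AddSubgroup.mem_addSubgroupOf]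
    have e : ((-(⟨D, hD⟩ : Divisor.degZero (K := K) (F := F)) + ⟨Dbar, hdeg⟩ :
        Divisor.degZero (K := K) (F := F)) : Divisor K F) = divOf HL hφ0 := by
      show -D + Dbar = divOf HL hφ0
      rw [hDbar]; abel
    rw [e]
    exact ⟨φ, hφ0, fun v => divOf_apply HL hφ0 v⟩
  · intro v hv hvS
    apply hv
    show (D + divOf HL hφ0) v = 0
    have h1 := hφS v hvS
    have hne : v ≠ Q₀ := fun h => hQ₀ (h ▸ hvS)
    rw [Finsupp.add_apply, Finsupp.single_apply, if_neg (Ne.symm hne), add_zero] at h1
    rw [Finsupp.add_apply, divOf_apply]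
    exact h1

end Main

end Fermat.Agent.ES.V19.MovingLemma11
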