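/-
Programme V (S19 by hand, route `S19_ROUTE23.md`), chapter (B6), helper21:
**the kernel of reduction `J¹` and the decomposition group.**

Setting: `A` a valuation subring of `ℚ̄`, `M` a level, `T : TwoCharts A hx F̃_M` a two-chart model
whose charts are coefficientwise (`GaloisInst21.CoeffChart`), `hr`, `hgen` the two inputs of the
Prelude's `reductionPic0Along` (instances on main: `ModelInstFinal4.twoCharts_final`,
`coeffChart0_final`, `coeffChart1_final`, `SPFinal21.hr_main`, `SPFinal21.hgen_main`).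

* `red T hr hgen : JZero M →+ JZeroC k̄ M` is `reductionPic0Along T.r hr hgen`;
* `J1 T hr hgen : AddSubgroup (JZero M)` is its kernel;
* `red_smul_decomposition` : `red (g • y) = g̃ • red y` for `g` in the decomposition group `D_A`,
  `g̃ = coeffSemi k̄ M (psiRes A g)` the coefficientwise action of the residual automorphism;
* `smul_mem_J1_iff`, `smul_mem_J1` : `J¹` is stable under `D_A`;
* `red_smul_of_mem_inertia`, `smul_sub_mem_J1_of_mem_inertia` : the inertia group acts trivially
  on `J / J¹`.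
-/
import Mathlib
import Fermat.Agent.ES.RED.GaloisInst21

set_option autoImplicit false
set_option linter.unusedSectionVars false

noncomputable section

open AlgebraicCurve ModularCurve

namespace Fermat.Agent.ES.V19.RedKer21

open Fermat.Agent.X0.FF Fermat.Agent.ES.RED.Contract8 Fermat.Agent.ES.RED.TwoCharts8
  Fermat.Agent.ES.RED.GaloisRed21 Fermat.Agent.ES.RED.GaloisGlobal21
  Fermat.Agent.ES.RED.GaloisInst21 Fermat.Agent.ES.KRON.FrobPlace13

local notation "Qb" => AlgebraicClosure ℚ

variable {A : ValuationSubring Qb} {M : ℕ} [NeZero M]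
  {x : ↥(laurentBaseChange Qb (modularFunctionFieldFull M))} {hx : IsGen Qb x}
  (T : TwoCharts A hx ↥(modularFunctionFieldFullC (kA A) M))
  (hr : IsPlaceReductionAlong A (IsLocalRing.residue ↥A) M T.r)
  (hgen : PrincipalGeneratedByIntegral A (IsLocalRing.residue ↥A) M)

/-- the reduction map on `J₀(M)(ℚ̄)` attached to the two-chart model. -/
def red : JZero M →+ JZeroC (kA A) M := reductionPic0Along T.r hr hgen

/-- **the kernel of reduction `J¹`.** -/
def J1 : AddSubgroup (JZero M) := (red T hr hgen).ker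

theorem mem_J1_iff (y : JZero M) : y ∈ J1 T hr hgen ↔ red T hr hgen y = 0 :=
  AddMonoidHom.mem_ker

theorem red_eq_iff (y y' : JZero M) :
    red T hr hgen y = red T hr hgen y' ↔ y - y' ∈ J1 T hr hgen := by
  rw [mem_J1_iff, map_sub, sub_eq_zero]

variable [IsAlgClosed (kA A)] {xt : ↥(modularFunctionFieldFullC (kA A) M)}
  (hxt : IsGen (kA A) xt)
  (h0 : CoeffChart (F₀ := modularFunctionFieldFull M) T.S0)
  (h1 : CoeffChart (F₀ := modularFunctionFieldFull M) T.S1)

include hxt h0 h1 in
/-- **the reduction map is equivariant for the decomposition group.** -/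
theorem red_smul_decomposition (g : A.decompositionSubgroup ℚ) (y : JZero M) :
    red T hr hgen ((g : Qb ≃ₐ[ℚ] Qb) • y) =
      coeffSemi (kA A) M (psiRes A g) • red T hr hgen y := by
  rw [galois_smul_pic0_def]
  exact reductionPic0Along_smul T.r hr hgen _ _
    (fun P => r_smul_decomposition' T hxt h0 h1 g P) y

include hxt h0 h1 in
/-- `J¹` is stable under the decomposition group (iff form). -/
theorem smul_mem_J1_iff {σ : Qb ≃ₐ[ℚ] Qb} (hσ : σ ∈ A.decompositionSubgroup ℚ) (y : JZero M) :
    σ • y ∈ J1 T hr hgen ↔ y ∈ J1 T hr hgen := by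
  rw [mem_J1_iff, mem_J1_iff]
  have h := red_smul_decomposition T hr hgen hxt h0 h1 ⟨σ, hσ⟩ y
  change red T hr hgen (σ • y) = _ at h
  rw [h]
  exact smul_eq_zero_iff_eq (coeffSemi (kA A) M (psiRes A ⟨σ, hσ⟩)) (x := red T hr hgen y)

include hxt h0 h1 in
/-- `J¹` is stable under the decomposition group. -/
theorem smul_mem_J1 {σ : Qb ≃ₐ[ℚ] Qb} (hσ : σ ∈ A.decompositionSubgroup ℚ) {y : JZero M}
    (hy : y ∈ J1 T hr hgen) : σ • y ∈ J1 T hr hgen :=
  (smul_mem_J1_iff T hr hgen hxt h0 h1 hσ y).2 hy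

include hxt h0 h1 in
/-- the inertia group acts trivially after reduction. -/
theorem red_smul_of_mem_inertia {τ : Qb ≃ₐ[ℚ] Qb} (hτ : τ ∈ A.inertiaSubgroupIn ℚ)
    (y : JZero M) : red T hr hgen (τ • y) = red T hr hgen y :=
  red_smul_of_mem_inertia' T hxt h0 h1 hr hgen hτ y

include hxt h0 h1 in
/-- the inertia group acts trivially on `J / J¹`. -/
theorem smul_sub_mem_J1_of_mem_inertia {τ : Qb ≃ₐ[ℚ] Qb} (hτ : τ ∈ A.inertiaSubgroupIn ℚ)
    (y : JZero M) : τ • y - y ∈ J1 T hr hgen :=
  (red_eq_iff T hr hgen _ _).1 (red_smul_of_mem_inertia T hr hgen hxt h0 h1 hτ y)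

end Fermat.Agent.ES.V19.RedKer21
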