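/-
Programme V (S19), chapter A2 (local criterion + descent), brick (A2-unr), part 2 (helper16):
**`Γ_f ≤ D_A` is an "unramified level" in the trace-duality form `UnrLevel` of the chapter**:

* `I_A ≤ Γ_f ≤ D_A`;
* `φ^a`, `a < f` (`φ` a Frobenius at `A`) is a system of representatives of `D_A / Γ_f`;
* with `ζ` a primitive `(ℓ^f - 1)`-th root of unity (fixed by `Γ_f`), `ω'_i := ζ^i` and `ω := T⁻¹ e₀` for the
  Vandermonde matrix `T_{a,i} = φ^a(ζ^i) = (ζ^{ℓ^a})^i` (invertible over the ring of `Γ_f`-invariants of `A`, because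
  its nodes are pairwise incongruent modulo `𝔪_A`): `∑_i ω_i · φ^a(ω'_i) = δ_{a,0}`.
-/
import Mathlib
import Fermat.Agent.ES.V19.GammaF16
import Fermat.Agent.ES.V19.TraceDescent26

set_option autoImplicit false
set_option linter.unusedSectionVars false
set_option linter.style.haveILetI false

namespace Fermat.Agent.ES.V19.UnrLevel16

open ValuationSubring Polynomial Fermat.Agent.ES.V19.GammaF16 Fermat.Agent.ES.V19.TraceDescent26
open scoped Pointwise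

local notation "Qbar" => AlgebraicClosure ℚ
local notation "GQ" => (AlgebraicClosure ℚ ≃ₐ[ℚ] AlgebraicClosure ℚ)

variable {A : ValuationSubring Qbar} {ℓ : ℕ}

/-! ### Arithmetic of `N = ℓ^f - 1` -/

theorem N_pos (hℓ : ℓ.Prime) {f : ℕ} (hf : 0 < f) : 0 < ℓ ^ f - 1 := by
  have : 2 ≤ ℓ ^ f := le_trans hℓ.two_le (Nat.le_self_pow hf.ne' ℓ)
  omega

theorem N_add_one (hℓ : ℓ.Prime) (f : ℕ) : ℓ ^ f - 1 + 1 = ℓ ^ f :=
  Nat.sub_add_cancel (Nat.one_le_pow _ _ hℓ.pos)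

theorem not_dvd_N (hℓ : ℓ.Prime) {f : ℕ} (hf : 0 < f) : ¬ ℓ ∣ ℓ ^ f - 1 := by
  intro h
  have h1 : ℓ ∣ ℓ ^ f := dvd_pow_self ℓ hf.ne'
  have h2 : ℓ ∣ ℓ ^ f - (ℓ ^ f - 1) := Nat.dvd_sub h1 h
  have h3 : ℓ ^ f - (ℓ ^ f - 1) = 1 := by
    have := N_add_one hℓ f
    omega
  rw [h3] at h2
  exact hℓ.one_lt.ne' (Nat.dvd_one.mp h2)

/-- `ℓ^a ≡ ℓ^b mod ℓ^f - 1` with `a, b < f` forces `a = b`. -/
theorem eq_of_N_dvd (hℓ : ℓ.Prime) {f a b : ℕ} (hab : a ≤ b) (hb : b < f)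
    (h : ℓ ^ f - 1 ∣ ℓ ^ b - ℓ ^ a) : a = b := by
  by_contra hne
  have hlt : a < b := lt_of_le_of_ne hab hne
  have hf : 0 < f := by omega
  -- `ℓ^b - ℓ^a = ℓ^a (ℓ^(b-a) - 1)`
  have e : ℓ ^ b - ℓ ^ a = ℓ ^ a * (ℓ ^ (b - a) - 1) := by
    have : ℓ ^ b = ℓ ^ a * ℓ ^ (b - a) := by rw [← pow_add]; congr 1; omega
    rw [this, Nat.mul_sub, mul_one]
  rw [e] at h
  have hcop : Nat.Coprime (ℓ ^ f - 1) (ℓ ^ a) :=
    Nat.Coprime.pow_right _ ((Nat.Prime.coprime_iff_not_dvd hℓ).mpr (not_dvd_N hℓ hf)).symm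
  have h2 : ℓ ^ f - 1 ∣ ℓ ^ (b - a) - 1 := hcop.dvd_of_dvd_mul_left h
  have h3 : 0 < ℓ ^ (b - a) - 1 := N_pos hℓ (by omega)
  have h4 : ℓ ^ (b - a) < ℓ ^ f := Nat.pow_lt_pow_right hℓ.one_lt (by omega)
  have h5 := Nat.le_of_dvd h3 h2
  omega

/-! ### A primitive `(ℓ^f - 1)`-th root of unity and the valuation -/

section Zeta

variable (hℓ : ℓ.Prime) (hA : A.LiesOverPrime ℓ) {f : ℕ} (hf : 0 < f) {ζ : Qbar}
  (hζ : IsPrimitiveRoot ζ (ℓ ^ f - 1))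

include hℓ hA hf hζ

theorem val_N : A.valuation ((ℓ ^ f - 1 : ℕ) : Qbar) = 1 :=
  Fermat.Agent.S05.Inertia.valuation_natCast_eq_one hℓ hA (not_dvd_N hℓ hf)

theorem val_zeta : A.valuation ζ = 1 :=
  Fermat.Agent.ES.P36.RootsUnr20.val_eq_one_of_pow_eq_one' A (N_pos hℓ hf).ne'
    (by rw [← map_pow, hζ.pow_eq_one, map_one])

theorem zeta_mem : ζ ∈ A :=
  (A.valuation_le_one_iff ζ).mp (val_zeta hℓ hA hf hζ).le

theorem zeta_pow_mem (i : ℕ) : ζ ^ i ∈ A := pow_mem (zeta_mem hℓ hA hf hζ) i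

/-- Reduction modulo `𝔪_A` is injective on the powers of `ζ`. -/
theorem zeta_pow_eq_of_val_lt {i j : ℕ} (h : A.valuation (ζ ^ i - ζ ^ j) < 1) : ζ ^ i = ζ ^ j := by
  have key : ∀ i j : ℕ, j ≤ i → A.valuation (ζ ^ i - ζ ^ j) < 1 → ζ ^ i = ζ ^ j := by
    intro i j hji h
    have e : ζ ^ i - ζ ^ j = ζ ^ j * (ζ ^ (i - j) - 1) := by
      rw [mul_sub, mul_one, ← pow_add]; congr 2; omega
    rw [e, map_mul, map_pow, val_zeta hℓ hA hf hζ, one_pow, one_mul] at h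
    have hd := Fermat.Agent.ES.P36.RootsUnr20.dvd_of_val_pow_sub_one_lt hζ (val_N hℓ hA hf hζ) h
    have h1 : ζ ^ (i - j) = 1 := (hζ.pow_eq_one_iff_dvd _).mpr hd
    have : ζ ^ i = ζ ^ j * ζ ^ (i - j) := by rw [← pow_add]; congr 1; omega
    rw [this, h1, mul_one]
  rcases le_total j i with hji | hij
  · exact key i j hji h
  · refine (key j i hij ?_).symm
    rw [← Valuation.map_neg, neg_sub]
    exact h

theorem zeta_pow_card : ζ ^ (ℓ ^ f) = ζ := by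
  rw [← N_add_one hℓ f, pow_succ, hζ.pow_eq_one, one_mul]

/-- every automorphism maps `ζ` to a power of `ζ`. -/
theorem exists_apply_eq_pow (σ : GQ) : ∃ m : ℕ, σ ζ = ζ ^ m := by
  haveI : NeZero (ℓ ^ f - 1) := ⟨(N_pos hℓ hf).ne'⟩
  have h1 : (σ ζ) ^ (ℓ ^ f - 1) = 1 := by rw [← map_pow, hζ.pow_eq_one, map_one]
  obtain ⟨m, -, hm⟩ := hζ.eq_pow_of_pow_eq_one h1
  exact ⟨m, hm.symm⟩

/-- `σ ζ ≡ ζ^n` implies `σ ζ = ζ^n`. -/
theorem apply_eq_of_val_lt (σ : GQ) {n : ℕ} (h : A.valuation (σ ζ - ζ ^ n) < 1) : σ ζ = ζ ^ n := by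
  obtain ⟨m, hm⟩ := exists_apply_eq_pow hℓ hA hf hζ σ
  rw [hm] at h ⊢
  exact zeta_pow_eq_of_val_lt hℓ hA hf hζ h

/-- `Γ_f` fixes `ζ`. -/
theorem gammaF_fixes_zeta {σ : GQ} (hσ : σ ∈ gammaF A ℓ f) : σ ζ = ζ := by
  obtain ⟨-, h⟩ := mem_gammaF_iff_val.mp hσ
  have h0 : A.valuation (ζ ^ (ℓ ^ f) - ζ) < 1 := by
    rw [zeta_pow_card hℓ hA hf hζ, sub_self, map_zero]
    exact zero_lt_one
  have h1 := h ζ (zeta_mem hℓ hA hf hζ) h0
  have h2 : A.valuation (σ ζ - ζ ^ 1) < 1 := by rwa [pow_one]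
  have := apply_eq_of_val_lt hℓ hA hf hζ σ h2
  rwa [pow_one] at this

/-- A Frobenius power raises `ζ` to the `ℓ^a`-th power. -/
theorem frob_pow_zeta {φ : GQ} (hφ : A.IsFrobeniusAt φ ℓ) (a : ℕ) : (φ ^ a) ζ = ζ ^ (ℓ ^ a) :=
  apply_eq_of_val_lt hℓ hA hf hζ (φ ^ a) (val_frob_pow_sub hφ a (zeta_mem hℓ hA hf hζ))

/-- `ζ^(ℓ^a) = ζ^(ℓ^b)` with `a, b < f` forces `a = b`. -/
theorem eq_of_zeta_pow_eq {a b : ℕ} (ha : a < f) (hb : b < f) (h : ζ ^ (ℓ ^ a) = ζ ^ (ℓ ^ b)) :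
    a = b := by
  have key : ∀ a b : ℕ, a ≤ b → b < f → ζ ^ (ℓ ^ a) = ζ ^ (ℓ ^ b) → a = b := by
    intro a b hab hb h
    refine eq_of_N_dvd hℓ hab hb ?_
    rw [← hζ.pow_eq_one_iff_dvd]
    have hle : ℓ ^ a ≤ ℓ ^ b := Nat.pow_le_pow_right hℓ.pos hab
    have e : ζ ^ (ℓ ^ b) = ζ ^ (ℓ ^ a) * ζ ^ (ℓ ^ b - ℓ ^ a) := by
      rw [← pow_add]; congr 1; omega
    rw [e] at h
    have hne : ζ ^ (ℓ ^ a) ≠ 0 := pow_ne_zero _ (hζ.ne_zero (N_pos hℓ hf).ne')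
    exact (mul_left_cancel₀ hne (by rw [mul_one]; exact h :
      ζ ^ (ℓ ^ a) * 1 = ζ ^ (ℓ ^ a) * ζ ^ (ℓ ^ b - ℓ ^ a))).symm
  rcases le_total a b with hab | hba
  · exact key a b hab hb h
  · exact (key b a hba ha h.symm).symm

end Zeta

/-! ### The decomposition group acts on `ζ` through powers of Frobenius -/

section Residue

variable (hℓ : ℓ.Prime) (hA : A.LiesOverPrime ℓ)

include hℓ hA

theorem charP_residue : CharP (IsLocalRing.ResidueField A) ℓ := by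
  rw [CharP.charP_iff_prime_eq_zero hℓ]
  have h1 : ((ℓ : ℕ) : A) ∈ IsLocalRing.maximalIdeal A := by
    rw [ValuationSubring.valuation_lt_one_iff]
    have : (((ℓ : ℕ) : A) : Qbar) = ((ℓ : ℕ) : Qbar) := by push_cast; rfl
    rw [this]
    exact Fermat.Agent.S05.Inertia.valuation_prime_lt_one hA
  have h2 : IsLocalRing.residue A ((ℓ : ℕ) : A) = 0 := (IsLocalRing.residue_eq_zero_iff _).mpr h1
  rw [map_natCast] at h2
  exact h2

variable {f : ℕ} (hf : 0 < f) {ζ : Qbar} (hζ : IsPrimitiveRoot ζ (ℓ ^ f - 1))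

include hf hζ

/-- **The decomposition group moves `ζ` by a power of Frobenius**: `τ ζ = ζ^(ℓ^a)` for some `a < f`. -/
theorem exists_apply_zeta_eq {τ : GQ} (hτ : τ ∈ A.decompositionSubgroup ℚ) :
    ∃ a, a < f ∧ τ ζ = ζ ^ (ℓ ^ a) := by
  haveI : Fact ℓ.Prime := ⟨hℓ⟩
  haveI := charP_residue hℓ hA
  have hζA := zeta_mem hℓ hA hf hζ
  set z : IsLocalRing.ResidueField A := IsLocalRing.residue A ⟨ζ, hζA⟩ with hz
  have hzf : z ^ (ℓ ^ f) = z := by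
    rw [hz, ← residue_pow A hζA, residue_eq_iff, zeta_pow_card hℓ hA hf hζ, sub_self, map_zero]
    exact zero_lt_one
  let τbar : IsLocalRing.ResidueField A →+* IsLocalRing.ResidueField A :=
    MulSemiringAction.toRingHom (A.decompositionSubgroup ℚ) (IsLocalRing.ResidueField A) ⟨τ, hτ⟩
  have hτbar : ∀ y, τbar y = (⟨τ, hτ⟩ : A.decompositionSubgroup ℚ) • y := fun y => rfl
  let g : ℕ → IsLocalRing.ResidueField A := fun a => z ^ (ℓ ^ a)
  let P : (IsLocalRing.ResidueField A)[X] := ∏ a ∈ Finset.range f, (X - C (g a))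
  -- (1) `P` is fixed by Frobenius
  have hP1 : P.map (frobenius (IsLocalRing.ResidueField A) ℓ) = P := by
    show (∏ a ∈ Finset.range f, (X - C (g a))).map _ = ∏ a ∈ Finset.range f, (X - C (g a))
    rw [Polynomial.map_prod]
    have e : ∀ a, (X - C (g a)).map (frobenius (IsLocalRing.ResidueField A) ℓ) =
        X - C (g (a + 1)) := by
      intro a
      rw [Polynomial.map_sub, map_X, map_C, frobenius_def]
      congr 2
      show (z ^ (ℓ ^ a)) ^ ℓ = z ^ (ℓ ^ (a + 1))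
      rw [← pow_mul, ← pow_succ]
    simp_rw [e]
    have h1 := Finset.prod_range_succ
      (fun a => (X - C (g a) : (IsLocalRing.ResidueField A)[X])) f
    have h2 := Finset.prod_range_succ'
      (fun a => (X - C (g a) : (IsLocalRing.ResidueField A)[X])) f
    have hgf : g f = g 0 := by
      show z ^ (ℓ ^ f) = z ^ (ℓ ^ 0)
      rw [pow_zero, pow_one, hzf]
    rw [h1, hgf] at h2
    exact (mul_right_cancel₀ (X_sub_C_ne_zero _) h2).symm
  -- (2) the coefficients of `P` lie in the prime field, hence are fixed by `τbar`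
  have hP2 : P.map τbar = P := by
    ext n
    rw [coeff_map]
    have hc : (P.coeff n) ^ ℓ = P.coeff n := by
      have := congrArg (fun Q => Q.coeff n) hP1
      simpa [coeff_map, frobenius_def] using this
    have hbot : P.coeff n ∈ (⊥ : Subfield (IsLocalRing.ResidueField A)) :=
      (Subfield.mem_bot_iff_pow_eq_self (IsLocalRing.ResidueField A) ℓ).mpr hc
    obtain ⟨m, hm⟩ := (mem_bot_iff_intCast ℓ (IsLocalRing.ResidueField A)).mp hbot
    rw [← hm, map_intCast]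
  -- (3) `τbar z` is a root of `P`
  have hroot : P.eval (τbar z) = 0 := by
    have h0 : P.eval z = 0 := by
      show (∏ a ∈ Finset.range f, (X - C (g a))).eval z = 0
      rw [eval_prod]
      refine Finset.prod_eq_zero (Finset.mem_range.mpr hf) ?_
      show (X - C (z ^ (ℓ ^ 0))).eval z = 0
      rw [pow_zero, pow_one, eval_sub, eval_X, eval_C, sub_self]
    have h1 : (P.map τbar).eval (τbar z) = τbar (P.eval z) := by
      rw [eval_map, eval₂_at_apply]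
    rw [hP2, h0, map_zero] at h1
    exact h1
  have hroot' : ∏ a ∈ Finset.range f, (τbar z - g a) = 0 := by
    have : P.eval (τbar z) = ∏ a ∈ Finset.range f, (τbar z - g a) := by
      show (∏ a ∈ Finset.range f, (X - C (g a))).eval (τbar z) = _
      rw [eval_prod]
      refine Finset.prod_congr rfl fun a _ => ?_
      rw [eval_sub, eval_X, eval_C]
    rw [← this]
    exact hroot
  obtain ⟨a, ha, hza⟩ := Finset.prod_eq_zero_iff.mp hroot'
  refine ⟨a, Finset.mem_range.mp ha, ?_⟩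
  rw [sub_eq_zero, hτbar, hz, ← residue_apply A hτ hζA] at hza
  have hza' : IsLocalRing.residue A ⟨τ ζ, apply_mem A hτ hζA⟩ =
      IsLocalRing.residue A ⟨ζ ^ (ℓ ^ a), pow_mem hζA _⟩ := by
    rw [hza, residue_pow A hζA]
  rw [residue_eq_iff] at hza'
  exact apply_eq_of_val_lt hℓ hA hf hζ τ hza'

end Residue

/-! ### Representatives of `D_A / Γ_f` -/

section Reps

variable (hℓ : ℓ.Prime) (hA : A.LiesOverPrime ℓ) {f : ℕ} (hf : 0 < f) {ζ : Qbar}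
  (hζ : IsPrimitiveRoot ζ (ℓ ^ f - 1))

include hℓ hA hf hζ

theorem isPrimitiveRoot_residue :
    IsPrimitiveRoot (IsLocalRing.residue A ⟨ζ, zeta_mem hℓ hA hf hζ⟩) (ℓ ^ f - 1) := by
  have hζA := zeta_mem hℓ hA hf hζ
  rw [IsPrimitiveRoot.iff_def]
  constructor
  · rw [← residue_pow A hζA]
    have : (⟨ζ ^ (ℓ ^ f - 1), pow_mem hζA _⟩ : A) = 1 := Subtype.ext hζ.pow_eq_one
    rw [this, map_one]
  · intro l hl
    rw [← residue_pow A hζA] at hl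
    have h1 : IsLocalRing.residue A ⟨ζ ^ l, pow_mem hζA l⟩ =
        IsLocalRing.residue A ⟨1, A.one_mem⟩ := by
      rw [hl]
      exact (map_one _).symm
    rw [residue_eq_iff] at h1
    exact Fermat.Agent.ES.P36.RootsUnr20.dvd_of_val_pow_sub_one_lt hζ (val_N hℓ hA hf hζ) h1

/-- An element of `D_A` fixing `ζ` lies in `Γ_f`. -/
theorem mem_gammaF_of_fixes {σ : GQ} (hσ : σ ∈ A.decompositionSubgroup ℚ) (h : σ ζ = ζ) :
    σ ∈ gammaF A ℓ f := by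
  have hζA := zeta_mem hℓ hA hf hζ
  have hzprim := isPrimitiveRoot_residue hℓ hA hf hζ
  have hσz : (⟨σ, hσ⟩ : A.decompositionSubgroup ℚ) • IsLocalRing.residue A ⟨ζ, hζA⟩ =
      IsLocalRing.residue A ⟨ζ, hζA⟩ := by
    rw [← residue_apply A hσ hζA]
    congr 1
    exact Subtype.ext h
  refine mem_gammaF_iff.mpr ⟨hσ, fun y hy => ?_⟩
  by_cases hy0 : y = 0
  · rw [hy0, smul_zero]
  · have hyN : y ^ (ℓ ^ f - 1) = 1 := by
      have : y ^ (ℓ ^ f - 1) * y = 1 * y := by rw [← pow_succ, N_add_one hℓ f, hy, one_mul]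
      exact mul_right_cancel₀ hy0 this
    haveI : NeZero (ℓ ^ f - 1) := ⟨(N_pos hℓ hf).ne'⟩
    obtain ⟨i, -, hi⟩ := hzprim.eq_pow_of_pow_eq_one hyN
    rw [← hi, smul_pow', hσz]

variable {φ : GQ} (hφ : A.IsFrobeniusAt φ ℓ)

include hφ

/-- `φ^a`, `a < f`, is a system of representatives of `D_A / Γ_f`. -/
theorem existsUnique_rep {τ : GQ} (hτ : τ ∈ A.decompositionSubgroup ℚ) :
    ∃! a : Fin f, (φ ^ (a : ℕ))⁻¹ * τ ∈ gammaF A ℓ f := by
  obtain ⟨a, ha, hτζ⟩ := exists_apply_zeta_eq hℓ hA hf hζ hτ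
  refine ⟨⟨a, ha⟩, ?_, ?_⟩
  · refine mem_gammaF_of_fixes hℓ hA hf hζ
      ((A.decompositionSubgroup ℚ).mul_mem
        ((A.decompositionSubgroup ℚ).inv_mem (frob_pow_mem hφ a)) hτ) ?_
    show (φ ^ a)⁻¹ (τ ζ) = ζ
    rw [hτζ, ← frob_pow_zeta hℓ hA hf hζ hφ a, ← AlgEquiv.mul_apply, inv_mul_cancel,
      AlgEquiv.one_apply]
  · intro b hb
    have h1 : ((φ ^ (b : ℕ))⁻¹ * τ) ζ = ζ := gammaF_fixes_zeta hℓ hA hf hζ hb
    have h2 : τ ζ = (φ ^ (b : ℕ)) ζ := by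
      have := congrArg (φ ^ (b : ℕ)) h1
      rw [AlgEquiv.mul_apply, ← AlgEquiv.mul_apply (φ ^ (b : ℕ)), mul_inv_cancel,
        AlgEquiv.one_apply] at this
      exact this
    rw [hτζ, frob_pow_zeta hℓ hA hf hζ hφ] at h2
    exact Fin.ext (eq_of_zeta_pow_eq hℓ hA hf hζ b.2 ha h2.symm)

/-- `φ^a ∈ Γ_f` with `a < f` iff `a = 0`. -/
theorem frob_pow_mem_gammaF_iff {a : ℕ} (ha : a < f) : φ ^ a ∈ gammaF A ℓ f ↔ a = 0 := by
  constructor
  · intro h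
    have h1 := gammaF_fixes_zeta hℓ hA hf hζ h
    rw [frob_pow_zeta hℓ hA hf hζ hφ] at h1
    refine eq_of_zeta_pow_eq hℓ hA hf hζ ha hf ?_
    rw [h1, pow_zero, pow_one]
  · rintro rfl
    rw [pow_zero]
    exact one_mem _

end Reps

/-! ### The Vandermonde matrix and the dual elements -/

section Dual

variable (hℓ : ℓ.Prime) (hA : A.LiesOverPrime ℓ) {f : ℕ} (hf : 0 < f) {ζ : Qbar}
  (hζ : IsPrimitiveRoot ζ (ℓ ^ f - 1))

include hℓ hA hf hζ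

theorem zeta_pow_mem_fixRing (i : ℕ) : ζ ^ i ∈ fixRing A (gammaF A ℓ f) :=
  ⟨zeta_pow_mem hℓ hA hf hζ i, fun σ hσ => by rw [map_pow, gammaF_fixes_zeta hℓ hA hf hζ hσ]⟩

/-- The nodes `ζ^(ℓ^a)`, `a < f`, in the ring of `Γ_f`-invariants. -/
noncomputable def node (a : Fin f) : ↥(fixRing A (gammaF A ℓ f)) :=
  ⟨ζ ^ (ℓ ^ (a : ℕ)), zeta_pow_mem_fixRing hℓ hA hf hζ _⟩

theorem val_node_sub {a b : Fin f} (hab : a ≠ b) :
    A.valuation (ζ ^ (ℓ ^ (b : ℕ)) - ζ ^ (ℓ ^ (a : ℕ))) = 1 := by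
  refine le_antisymm ?_ (not_lt.mp fun hlt => hab ?_)
  · exact (A.valuation_le_one_iff _).mpr
      (sub_mem (zeta_pow_mem hℓ hA hf hζ _) (zeta_pow_mem hℓ hA hf hζ _))
  · have := zeta_pow_eq_of_val_lt hℓ hA hf hζ hlt
    exact Fin.ext (eq_of_zeta_pow_eq hℓ hA hf hζ a.2 b.2 this.symm)

theorem val_det :
    A.valuation ((Matrix.vandermonde (node hℓ hA hf hζ)).det : Qbar) = 1 := by
  rw [Matrix.det_vandermonde]
  have : (((∏ i : Fin f, ∏ j ∈ Finset.Ioi i, (node hℓ hA hf hζ j - node hℓ hA hf hζ i) :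
      ↥(fixRing A (gammaF A ℓ f))) : Qbar)) =
      ∏ i : Fin f, ∏ j ∈ Finset.Ioi i, (ζ ^ (ℓ ^ (j : ℕ)) - ζ ^ (ℓ ^ (i : ℕ))) := by
    show (fixRing A (gammaF A ℓ f)).subtype _ = _
    rw [map_prod]
    refine Finset.prod_congr rfl fun i _ => ?_
    rw [map_prod]
    rfl
  rw [this, map_prod]
  refine Finset.prod_eq_one fun i _ => ?_
  rw [map_prod]
  refine Finset.prod_eq_one fun j hj => ?_
  exact val_node_sub hℓ hA hf hζ (ne_of_lt (Finset.mem_Ioi.mp hj))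

theorem isUnit_det : IsUnit (Matrix.vandermonde (node hℓ hA hf hζ)).det := by
  set d := (Matrix.vandermonde (node hℓ hA hf hζ)).det with hd
  have hv : A.valuation (d : Qbar) = 1 := val_det hℓ hA hf hζ
  have hne : (d : Qbar) ≠ 0 := by
    intro h0
    rw [h0, map_zero] at hv
    exact zero_ne_one hv
  have hinv : ((d : Qbar))⁻¹ ∈ fixRing A (gammaF A ℓ f) := by
    refine ⟨(A.valuation_le_one_iff _).mp ?_, fun σ hσ => ?_⟩
    · rw [map_inv₀, hv, inv_one]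
    · rw [map_inv₀, d.2.2 σ hσ]
  refine isUnit_iff_exists_inv.mpr ⟨⟨_, hinv⟩, Subtype.ext ?_⟩
  show (d : Qbar) * ((d : Qbar))⁻¹ = 1
  exact mul_inv_cancel₀ hne

variable {φ : GQ} (hφ : A.IsFrobeniusAt φ ℓ)

include hφ

/-- **(A2-unr)** `Γ_f` is an unramified level in the trace-duality form. -/
theorem unrLevel_of_residueDegree : UnrLevel A (gammaF A ℓ f) where
  inertia_le := inertia_le_gammaF f
  le_decomp := gammaF_le_decomposition f
  exists_dual := by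
    set T := Matrix.vandermonde (node hℓ hA hf hζ) with hT
    have hu : IsUnit T.det := isUnit_det hℓ hA hf hζ
    refine ⟨f, fun a => φ ^ (a : ℕ), fun i => ((T⁻¹ i ⟨0, hf⟩ : ↥(fixRing A (gammaF A ℓ f))) : Qbar),
      fun i => ζ ^ (i : ℕ), fun a => frob_pow_mem hφ a, ?_, fun i => (T⁻¹ i ⟨0, hf⟩).2,
      fun i => zeta_pow_mem_fixRing hℓ hA hf hζ i, ?_⟩
    · intro τ hτ
      exact existsUnique_rep hℓ hA hf hζ hφ hτ
    · intro a
      have h1 : ∀ i : Fin f, (φ ^ (a : ℕ)) (ζ ^ (i : ℕ)) = ((T a i : ↥(fixRing A (gammaF A ℓ f))) : Qbar) := by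
        intro i
        rw [map_pow, frob_pow_zeta hℓ hA hf hζ hφ]
        rfl
      have h2 : ∑ i, ((T⁻¹ i ⟨0, hf⟩ : ↥(fixRing A (gammaF A ℓ f))) : Qbar) *
          (φ ^ (a : ℕ)) (ζ ^ (i : ℕ)) =
          (((T * T⁻¹) a ⟨0, hf⟩ : ↥(fixRing A (gammaF A ℓ f))) : Qbar) := by
        show _ = (fixRing A (gammaF A ℓ f)).subtype ((T * T⁻¹) a ⟨0, hf⟩)
        rw [Matrix.mul_apply, map_sum]
        refine Finset.sum_congr rfl fun i _ => ?_
        rw [h1 i, map_mul, mul_comm]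
        rfl
      rw [h2, Matrix.mul_nonsing_inv T hu, Matrix.one_apply]
      by_cases ha : a = ⟨0, hf⟩
      · have : φ ^ (a : ℕ) ∈ gammaF A ℓ f :=
          (frob_pow_mem_gammaF_iff hℓ hA hf hζ hφ a.2).mpr (by rw [ha])
        rw [if_pos ha, if_pos this]
        rfl
      · have : φ ^ (a : ℕ) ∉ gammaF A ℓ f := fun h =>
          ha (Fin.ext ((frob_pow_mem_gammaF_iff hℓ hA hf hζ hφ a.2).mp h))
        rw [if_neg ha, if_neg this]
        rfl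

end Dual

/-- **(A2-unr), existence form**: for every `f > 0`, `Γ_f = gammaF A ℓ f` is an unramified level. -/
theorem unrLevel_gammaF (hℓ : ℓ.Prime) (hA : A.LiesOverPrime ℓ) {f : ℕ} (hf : 0 < f) :
    UnrLevel A (gammaF A ℓ f) := by
  haveI : NeZero ((ℓ ^ f - 1 : ℕ) : Qbar) := ⟨Nat.cast_ne_zero.mpr (N_pos hℓ hf).ne'⟩
  obtain ⟨ζ, hζ⟩ := HasEnoughRootsOfUnity.exists_primitiveRoot Qbar (ℓ ^ f - 1)
  obtain ⟨φ, hφ⟩ := Fermat.Agent.ES.FROB.FrobFacts12.exists_isFrobeniusAt_of ℓ hℓ A hA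
  exact unrLevel_of_residueDegree hℓ hA hf hζ hφ

end Fermat.Agent.ES.V19.UnrLevel16
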