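/-
Programme V (S19), chapter A2 / ruling 2 of the spine (helper16): **Teichmüller lifts**.

`A` a valuation subring of `ℚ̄` over `ℓ`, `k = A/𝔪_A`.  Every `y ∈ k` lies in a finite field
(`∃ f > 0, y^(ℓ^f) = y`), and has a unique lift `teich y ∈ A` with `teich y ^ (ℓ^f) = teich y` for some `f > 0`
(`0` or a root of unity of order prime to `ℓ`).  The lift is multiplicative, `D_A`-equivariant, and lies in the ring
`fixRing A (gammaF A ℓ f)` of `Γ_f`-invariants as soon as `y^(ℓ^f) = y`.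
-/
import Mathlib
import Fermat.Agent.ES.V19.UnrLevel16

set_option autoImplicit false
set_option linter.unusedSectionVars false
set_option linter.style.haveILetI false

namespace Fermat.Agent.ES.V19.Teich16

open ValuationSubring Polynomial Fermat.Agent.ES.V19.GammaF16 Fermat.Agent.ES.V19.UnrLevel16
  Fermat.Agent.ES.V19.TraceDescent26
open scoped Pointwise

local notation "Qbar" => AlgebraicClosure ℚ
local notation "GQ" => (AlgebraicClosure ℚ ≃ₐ[ℚ] AlgebraicClosure ℚ)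

variable {A : ValuationSubring Qbar} {ℓ : ℕ}

/-! ### The residue field is algebraic over `𝔽_ℓ` -/

section Algebraic

variable (hℓ : ℓ.Prime) (hA : A.LiesOverPrime ℓ)

include hℓ hA

/-- Every element of the residue field satisfies `y^(ℓ^f) = y` for some `f > 0`. -/
theorem exists_pow_card_eq (y : IsLocalRing.ResidueField A) : ∃ f : ℕ, 0 < f ∧ y ^ (ℓ ^ f) = y := by
  haveI : Fact ℓ.Prime := ⟨hℓ⟩
  haveI := charP_residue hℓ hA
  letI : Algebra (ZMod ℓ) (IsLocalRing.ResidueField A) := ZMod.algebra _ ℓ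
  obtain ⟨⟨x, hx⟩, rfl⟩ := IsLocalRing.residue_surjective y
  -- a primitive integer polynomial killing `x`
  have halg : IsAlgebraic ℤ x :=
    (IsFractionRing.isAlgebraic_iff ℤ ℚ Qbar).mpr (Algebra.IsAlgebraic.isAlgebraic x)
  obtain ⟨p, hp0, hpx⟩ := halg
  have hprim : p.primPart.IsPrimitive := p.isPrimitive_primPart
  have hpp0 : p.primPart ≠ 0 := p.primPart_ne_zero
  have hppx : aeval x p.primPart = 0 := by
    have h1 := p.eq_C_content_mul_primPart
    rw [h1, map_mul, aeval_C] at hpx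
    have hc : (algebraMap ℤ Qbar) p.content ≠ 0 := by
      rw [Ne, map_eq_zero_iff _ (algebraMap ℤ Qbar).injective_int]
      exact fun h => hp0 (content_eq_zero_iff.mp h)
    exact (mul_eq_zero.mp hpx).resolve_left hc
  set P := p.primPart with hP
  -- its reduction is nonzero
  have hmap0 : P.map (Int.castRingHom (ZMod ℓ)) ≠ 0 := by
    intro h0
    have hdvd : C (ℓ : ℤ) ∣ P := by
      rw [C_dvd_iff_dvd_coeff]
      intro i
      have := congrArg (fun Q => Q.coeff i) h0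
      simp only [coeff_map, coeff_zero, eq_intCast] at this
      exact (ZMod.intCast_zmod_eq_zero_iff_dvd _ ℓ).mp this
    have hu := (isPrimitive_iff_isUnit_of_C_dvd.mp hprim) _ hdvd
    have := Int.isUnit_iff.mp hu
    rcases this with h | h
    · exact hℓ.one_lt.ne' (by exact_mod_cast h)
    · have : (0 : ℤ) ≤ (ℓ : ℤ) := Int.natCast_nonneg ℓ
      omega
  -- and kills the residue class
  have hroot : (P.map (Int.castRingHom (ZMod ℓ))).eval₂
      (algebraMap (ZMod ℓ) (IsLocalRing.ResidueField A)) (IsLocalRing.residue A ⟨x, hx⟩) = 0 := by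
    rw [eval₂_map]
    have h1 : (algebraMap (ZMod ℓ) (IsLocalRing.ResidueField A)).comp (Int.castRingHom (ZMod ℓ)) =
        (IsLocalRing.residue A).comp (Int.castRingHom A) := RingHom.ext_int _ _
    rw [h1, ← hom_eval₂]
    have h2 : P.eval₂ (Int.castRingHom A) ⟨x, hx⟩ = 0 := by
      apply Subtype.ext
      have h3 := hom_eval₂ P (Int.castRingHom A) A.subtype ⟨x, hx⟩
      have h4 : A.subtype.comp (Int.castRingHom A) = algebraMap ℤ Qbar := RingHom.ext_int _ _
      rw [h4] at h3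
      show A.subtype (P.eval₂ (Int.castRingHom A) ⟨x, hx⟩) = 0
      rw [h3]
      exact hppx
    rw [h2, map_zero]
  have hint : IsIntegral (ZMod ℓ) (IsLocalRing.residue A ⟨x, hx⟩) :=
    (isAlgebraic_iff_isIntegral).mp ⟨_, hmap0, hroot⟩
  -- the finite field generated by the residue class
  set y := IsLocalRing.residue A ⟨x, hx⟩ with hy
  haveI hfd : FiniteDimensional (ZMod ℓ) (IntermediateField.adjoin (ZMod ℓ) {y}) :=
    IntermediateField.adjoin.finiteDimensional hint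
  haveI : Finite (IntermediateField.adjoin (ZMod ℓ) {y}) := Module.finite_of_finite (ZMod ℓ)
  haveI : Fintype (IntermediateField.adjoin (ZMod ℓ) {y}) := Fintype.ofFinite _
  set f := Module.finrank (ZMod ℓ) (IntermediateField.adjoin (ZMod ℓ) {y}) with hf
  have hcard : Fintype.card (IntermediateField.adjoin (ZMod ℓ) {y}) = ℓ ^ f := by
    rw [Module.card_eq_pow_finrank (K := ZMod ℓ), ZMod.card]
  refine ⟨f, Module.finrank_pos, ?_⟩
  have h5 := FiniteField.pow_card (⟨y, IntermediateField.mem_adjoin_simple_self (ZMod ℓ) y⟩ :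
    IntermediateField.adjoin (ZMod ℓ) {y})
  rw [hcard] at h5
  exact congrArg Subtype.val h5

end Algebraic

/-! ### Existence and uniqueness of the lift -/

section Lift

variable (hℓ : ℓ.Prime) (hA : A.LiesOverPrime ℓ)

include hℓ hA

/-- an element of `A` with `c^(ℓ^f) = c` is `0` or a power of `ζ`. -/
theorem eq_zero_or_eq_pow {f : ℕ} (hf : 0 < f) {ζ : Qbar} (hζ : IsPrimitiveRoot ζ (ℓ ^ f - 1))
    {c : Qbar} (h : c ^ (ℓ ^ f) = c) : c = 0 ∨ ∃ i : ℕ, c = ζ ^ i := by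
  by_cases hc0 : c = 0
  · exact Or.inl hc0
  · right
    have hN : c ^ (ℓ ^ f - 1) = 1 := by
      have : c ^ (ℓ ^ f - 1) * c = 1 * c := by rw [← pow_succ, N_add_one hℓ f, h, one_mul]
      exact mul_right_cancel₀ hc0 this
    haveI : NeZero (ℓ ^ f - 1) := ⟨(N_pos hℓ hf).ne'⟩
    obtain ⟨i, -, hi⟩ := hζ.eq_pow_of_pow_eq_one hN
    exact ⟨i, hi.symm⟩

/-- **Uniqueness**: two elements with `c^(ℓ^f) = c`, congruent modulo `𝔪_A`, are equal. -/
theorem eq_of_pow_card_eq {f : ℕ} (hf : 0 < f) {c c' : Qbar}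
    (h : c ^ (ℓ ^ f) = c) (h' : c' ^ (ℓ ^ f) = c') (hcc : A.valuation (c - c') < 1) : c = c' := by
  haveI : NeZero ((ℓ ^ f - 1 : ℕ) : Qbar) := ⟨Nat.cast_ne_zero.mpr (N_pos hℓ hf).ne'⟩
  obtain ⟨ζ, hζ⟩ := HasEnoughRootsOfUnity.exists_primitiveRoot Qbar (ℓ ^ f - 1)
  have hvζ : ∀ i : ℕ, A.valuation (ζ ^ i) = 1 := fun i => by
    rw [map_pow, val_zeta hℓ hA hf hζ, one_pow]
  rcases eq_zero_or_eq_pow hℓ hA hf hζ h with rfl | ⟨i, rfl⟩
  · rcases eq_zero_or_eq_pow hℓ hA hf hζ h' with rfl | ⟨j, rfl⟩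
    · rfl
    · rw [zero_sub, Valuation.map_neg, hvζ j] at hcc
      exact absurd hcc (lt_irrefl _)
  · rcases eq_zero_or_eq_pow hℓ hA hf hζ h' with rfl | ⟨j, rfl⟩
    · rw [sub_zero, hvζ i] at hcc
      exact absurd hcc (lt_irrefl _)
    · exact zeta_pow_eq_of_val_lt hℓ hA hf hζ hcc

/-- **Existence** at level `f`. -/
theorem exists_lift {f : ℕ} (hf : 0 < f) (y : IsLocalRing.ResidueField A) (hy : y ^ (ℓ ^ f) = y) :
    ∃ (c : Qbar) (hc : c ∈ A), c ^ (ℓ ^ f) = c ∧ IsLocalRing.residue A ⟨c, hc⟩ = y := by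
  haveI : NeZero ((ℓ ^ f - 1 : ℕ) : Qbar) := ⟨Nat.cast_ne_zero.mpr (N_pos hℓ hf).ne'⟩
  obtain ⟨ζ, hζ⟩ := HasEnoughRootsOfUnity.exists_primitiveRoot Qbar (ℓ ^ f - 1)
  have hζA := zeta_mem hℓ hA hf hζ
  by_cases hy0 : y = 0
  · refine ⟨0, A.zero_mem, zero_pow (pow_pos hℓ.pos f).ne', ?_⟩
    rw [hy0]
    exact map_zero _
  · have hyN : y ^ (ℓ ^ f - 1) = 1 := by
      have : y ^ (ℓ ^ f - 1) * y = 1 * y := by rw [← pow_succ, N_add_one hℓ f, hy, one_mul]
      exact mul_right_cancel₀ hy0 this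
    haveI : NeZero (ℓ ^ f - 1) := ⟨(N_pos hℓ hf).ne'⟩
    obtain ⟨i, -, hi⟩ := (isPrimitiveRoot_residue hℓ hA hf hζ).eq_pow_of_pow_eq_one hyN
    refine ⟨ζ ^ i, pow_mem hζA i, ?_, ?_⟩
    · rw [← pow_mul, mul_comm, pow_mul, zeta_pow_card hℓ hA hf hζ]
    · rw [residue_pow A hζA, hi]

theorem exists_teich (y : IsLocalRing.ResidueField A) :
    ∃ c : Qbar, ∃ hc : c ∈ A, (∃ f : ℕ, 0 < f ∧ c ^ (ℓ ^ f) = c) ∧
      IsLocalRing.residue A ⟨c, hc⟩ = y := by
  obtain ⟨f, hf, hy⟩ := exists_pow_card_eq hℓ hA y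
  obtain ⟨c, hc, hcf, hcy⟩ := exists_lift hℓ hA hf y hy
  exact ⟨c, hc, ⟨f, hf, hcf⟩, hcy⟩

end Lift

/-- **The Teichmüller lift** of a residue class. -/
noncomputable def teich (hℓ : ℓ.Prime) (hA : A.LiesOverPrime ℓ) (y : IsLocalRing.ResidueField A) :
    Qbar :=
  Classical.choose (exists_teich hℓ hA y)

section Props

variable (hℓ : ℓ.Prime) (hA : A.LiesOverPrime ℓ)

theorem teich_mem (y : IsLocalRing.ResidueField A) : teich hℓ hA y ∈ A :=
  (Classical.choose_spec (exists_teich hℓ hA y)).choose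

theorem exists_teich_pow (y : IsLocalRing.ResidueField A) :
    ∃ f : ℕ, 0 < f ∧ teich hℓ hA y ^ (ℓ ^ f) = teich hℓ hA y :=
  (Classical.choose_spec (exists_teich hℓ hA y)).choose_spec.1

theorem residue_teich (y : IsLocalRing.ResidueField A) :
    IsLocalRing.residue A ⟨teich hℓ hA y, teich_mem hℓ hA y⟩ = y :=
  (Classical.choose_spec (exists_teich hℓ hA y)).choose_spec.2

/-- **Uniqueness of the Teichmüller lift.** -/
theorem eq_teich {y : IsLocalRing.ResidueField A} {c : Qbar} (hc : c ∈ A) {f : ℕ} (hf : 0 < f)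
    (hcf : c ^ (ℓ ^ f) = c) (hcy : IsLocalRing.residue A ⟨c, hc⟩ = y) : c = teich hℓ hA y := by
  obtain ⟨f', hf', ht⟩ := exists_teich_pow hℓ hA y
  have h1 : c ^ (ℓ ^ (f * f')) = c := by
    rw [pow_mul]
    exact pow_pow_eq_self hcf f'
  have h2 : teich hℓ hA y ^ (ℓ ^ (f * f')) = teich hℓ hA y := by
    rw [mul_comm, pow_mul]
    exact pow_pow_eq_self ht f
  refine eq_of_pow_card_eq hℓ hA (Nat.mul_pos hf hf') h1 h2 ?_
  rw [← residue_eq_iff A hc (teich_mem hℓ hA y), hcy, residue_teich]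

theorem teich_pow_card {y : IsLocalRing.ResidueField A} {f : ℕ} (hf : 0 < f)
    (hy : y ^ (ℓ ^ f) = y) : teich hℓ hA y ^ (ℓ ^ f) = teich hℓ hA y := by
  obtain ⟨c, hc, hcf, hcy⟩ := exists_lift hℓ hA hf y hy
  rw [← eq_teich hℓ hA hc hf hcf hcy]
  exact hcf

theorem teich_zero : teich hℓ hA (0 : IsLocalRing.ResidueField A) = 0 :=
  (eq_teich hℓ hA A.zero_mem Nat.one_pos (zero_pow (pow_pos hℓ.pos 1).ne') (map_zero _)).symm

theorem teich_one : teich hℓ hA (1 : IsLocalRing.ResidueField A) = 1 :=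
  (eq_teich hℓ hA A.one_mem Nat.one_pos (one_pow _) (map_one _)).symm

theorem teich_mul (y y' : IsLocalRing.ResidueField A) :
    teich hℓ hA (y * y') = teich hℓ hA y * teich hℓ hA y' := by
  obtain ⟨f, hf, ht⟩ := exists_teich_pow hℓ hA y
  obtain ⟨f', hf', ht'⟩ := exists_teich_pow hℓ hA y'
  have h1 : teich hℓ hA y ^ (ℓ ^ (f * f')) = teich hℓ hA y := by
    rw [pow_mul]
    exact pow_pow_eq_self ht f'
  have h2 : teich hℓ hA y' ^ (ℓ ^ (f * f')) = teich hℓ hA y' := by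
    rw [mul_comm, pow_mul]
    exact pow_pow_eq_self ht' f
  refine (eq_teich hℓ hA (A.mul_mem _ _ (teich_mem hℓ hA y) (teich_mem hℓ hA y'))
    (Nat.mul_pos hf hf') (by rw [mul_pow, h1, h2]) ?_).symm
  have : (⟨teich hℓ hA y * teich hℓ hA y', A.mul_mem _ _ (teich_mem hℓ hA y) (teich_mem hℓ hA y')⟩ : A)
      = ⟨teich hℓ hA y, teich_mem hℓ hA y⟩ * ⟨teich hℓ hA y', teich_mem hℓ hA y'⟩ := rfl
  rw [this, map_mul, residue_teich, residue_teich]

theorem teich_pow (y : IsLocalRing.ResidueField A) (n : ℕ) :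
    teich hℓ hA (y ^ n) = teich hℓ hA y ^ n := by
  induction n with
  | zero => rw [pow_zero, pow_zero, teich_one]
  | succ n ih => rw [pow_succ, pow_succ, teich_mul, ih]

/-- The Teichmüller lift of `y ≠ 0` is a unit of `A`. -/
theorem val_teich {y : IsLocalRing.ResidueField A} (hy : y ≠ 0) :
    A.valuation (teich hℓ hA y) = 1 := by
  refine le_antisymm ((A.valuation_le_one_iff _).mpr (teich_mem hℓ hA y)) (not_lt.mp fun hlt => hy ?_)
  rw [← residue_teich hℓ hA y, IsLocalRing.residue_eq_zero_iff]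
  exact (ValuationSubring.valuation_lt_one_iff A ⟨_, teich_mem hℓ hA y⟩).mpr hlt

/-- **Equivariance** under the decomposition group. -/
theorem teich_smul {σ : GQ} (h : σ ∈ A.decompositionSubgroup ℚ) (y : IsLocalRing.ResidueField A) :
    teich hℓ hA ((⟨σ, h⟩ : A.decompositionSubgroup ℚ) • y) = σ (teich hℓ hA y) := by
  obtain ⟨f, hf, ht⟩ := exists_teich_pow hℓ hA y
  refine (eq_teich hℓ hA (apply_mem A h (teich_mem hℓ hA y)) hf ?_ ?_).symm
  · rw [← map_pow, ht]
  · rw [residue_apply A h (teich_mem hℓ hA y), residue_teich]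

/-- **Rationality**: the Teichmüller lift of an element of `𝔽_{ℓ^f}` is `Γ_f`-invariant. -/
theorem teich_mem_fixRing {y : IsLocalRing.ResidueField A} {f : ℕ} (hf : 0 < f)
    (hy : y ^ (ℓ ^ f) = y) : teich hℓ hA y ∈ fixRing A (gammaF A ℓ f) := by
  refine ⟨teich_mem hℓ hA y, fun σ hσ => ?_⟩
  obtain ⟨hσD, hval⟩ := mem_gammaF_iff_val.mp hσ
  have ht := teich_pow_card hℓ hA hf hy
  refine eq_of_pow_card_eq hℓ hA hf (by rw [← map_pow, ht]) ht ?_
  refine hval _ (teich_mem hℓ hA y) ?_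
  rw [ht, sub_self, map_zero]
  exact zero_lt_one

/-- Every element of `A` is congruent to the Teichmüller lift of its residue class. -/
theorem val_sub_teich {x : Qbar} (hx : x ∈ A) :
    A.valuation (x - teich hℓ hA (IsLocalRing.residue A ⟨x, hx⟩)) < 1 := by
  rw [← residue_eq_iff A hx (teich_mem hℓ hA _), residue_teich]

end Props

end Fermat.Agent.ES.V19.Teich16
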