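/-
Programme V (S19 by hand, route `S19_ROUTE23.md`), chapter (B6) "base points" (Eb), helper11:
**every class of `J₀(M)(ℚ̄)` has a base point fixed by inertia with the same reduction**, at the
`ℚ̄`-level with main's objects (setting of helper21's `RedKer21`).

Inputs: the disc lemma `(Da)` of (B3) at every GOOD pair (`DiscIface3.Da`), finiteness of the set of
places of the special fibre which are not GOOD (helper16's (L3)), `LHyp` + Riemann's inequality for
the special fibre (`LHypFt13`), infinitely many places.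

* `good_of_resA_eq` : `Good T Q c` only depends on the residue class of `c`;
* `exists_good_inertia_fixed` : a GOOD place is GOOD for an inertia-fixed constant (Teichmüller);
* `exists_inertia_fixed_lift` : a GOOD place has a lift fixed by the inertia group;
* `exists_fixed_base_point` : for every `x : JZero M` there is `P`, fixed by the inertia group, with
  `x - P ∈ J1` (= the hypothesis `hlift` of `ChartData11.exists_chart_data`).
-/
import Fermat.Agent.ES.V19.RedKer21
import Fermat.Agent.ES.V19.GoodLift11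
import Fermat.Agent.ES.V19.LiftClass11
import Fermat.Agent.ES.V19.MovingLemma11
import Fermat.Agent.ES.V19.Teich16

set_option autoImplicit false
set_option linter.unusedSectionVars false
set_option synthInstance.maxHeartbeats 400000

noncomputable section

open AlgebraicCurve ModularCurve

namespace Fermat.Agent.ES.V19.BasePointInst11

open Fermat.Agent.X0.FF Fermat.Agent.ES.RED.Contract8 Fermat.Agent.ES.RED.TwoCharts8
  Fermat.Agent.ES.RED.GaloisInst21 Fermat.Agent.ES.V19.DiscIface3 Fermat.Agent.ES.V19.RedKer21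
  Fermat.Agent.RR.LSpace

local notation "Qb" => AlgebraicClosure ℚ

attribute [local instance 5000] HahnSeries.powerSeriesAlgebra SubalgebraClass.toAlgebra

variable {A : ValuationSubring Qb} {M : ℕ} [NeZero M]
  {x : ↥(laurentBaseChange Qb (modularFunctionFieldFull M))} {hx : IsGen Qb x}
  (T : TwoCharts A hx ↥(modularFunctionFieldFullC (kA A) M))

/-- the reduction of `τ = t - c`. -/
theorem red_tauB (c : ↥A) :
    T.S0.red (tauB T c) = T.S0.red T.S0.sB - algebraMap (kA A) _ (resA A c) := by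
  unfold tauB
  rw [map_sub, ChartSpec.red_const']

/-- `Good T Q c` only depends on the residue class of `c`. -/
theorem good_of_resA_eq {Q : Place (kA A) ↥(modularFunctionFieldFullC (kA A) M)} {c c' : ↥A}
    (h : resA A c' = resA A c) (hc : Good T Q c) : Good T Q c' := by
  unfold Good at hc ⊢
  rw [red_tauB, h, ← red_tauB]
  exact hc

/-- A GOOD place is GOOD for an inertia-fixed constant. -/
theorem exists_good_inertia_fixed {ℓ : ℕ} (hℓ : ℓ.Prime) (hA : A.LiesOverPrime ℓ)
    {Q : Place (kA A) ↥(modularFunctionFieldFullC (kA A) M)} {c : ↥A} (hc : Good T Q c) :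
    ∃ c' : ↥A, Good T Q c' ∧ ∀ σ ∈ A.inertiaSubgroupIn ℚ, σ (c' : Qb) = c' := by
  refine ⟨⟨Teich16.teich hℓ hA (resA A c), Teich16.teich_mem hℓ hA _⟩,
    good_of_resA_eq T (Teich16.residue_teich hℓ hA _) hc, fun σ hσ => ?_⟩
  obtain ⟨h, hx⟩ := (Fermat.Agent.ES.FROB.FrobFacts12.mem_inertiaSubgroupIn_iff A).mp hσ
  have := Teich16.teich_smul hℓ hA h (resA A c)
  rw [hx] at this
  exact this.symm

variable [IsAlgClosed (kA A)] {xt : ↥(modularFunctionFieldFullC (kA A) M)}
  (hxt : IsGen (kA A) xt)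
  (h0 : CoeffChart (F₀ := modularFunctionFieldFull M) T.S0)
  (h1 : CoeffChart (F₀ := modularFunctionFieldFull M) T.S1)

include hxt h0 h1 in
/-- **A GOOD place has a lift fixed by the inertia group.** -/
theorem exists_inertia_fixed_lift {ℓ : ℕ} (hℓ : ℓ.Prime) (hA : A.LiesOverPrime ℓ)
    (hDa : ∀ (Q : Place (kA A) ↥(modularFunctionFieldFullC (kA A) M)) (c : ↥A),
      Good T Q c → Da T Q c)
    {Q : Place (kA A) ↥(modularFunctionFieldFullC (kA A) M)} {c : ↥A} (hc : Good T Q c) :
    ∃ P, T.r P = Q ∧ ∀ σ ∈ A.inertiaSubgroupIn ℚ,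
      arithmeticGalois (modularFunctionFieldFull M) σ • P = P := by
  obtain ⟨c', hc', hc'fix⟩ := exists_good_inertia_fixed T hℓ hA hc
  obtain ⟨P, hPQ, -, hPfix⟩ := GoodLift11.exists_fixed_lift T Q c' (hDa Q c' hc')
    ((arithmeticGalois (modularFunctionFieldFull M)) '' (A.inertiaSubgroupIn ℚ : Set (Qb ≃ₐ[ℚ] Qb)))
    (by
      rintro g ⟨σ, hσ, rfl⟩ P
      exact r_smul_of_mem_inertia' T hxt h0 h1 hσ P)
    (by
      rintro g ⟨σ, hσ, rfl⟩
      exact h0.smul_s σ)
    (by
      rintro g ⟨σ, hσ, rfl⟩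
      exact hc'fix σ hσ)
  exact ⟨P, hPQ, fun σ hσ => hPfix _ ⟨σ, hσ, rfl⟩⟩

variable (hr : IsPlaceReductionAlong A (IsLocalRing.residue ↥A) M T.r)
  (hgen : PrincipalGeneratedByIntegral A (IsLocalRing.residue ↥A) M)

include hxt h0 h1 in
/-- **(Eb): base points fixed by inertia.** -/
theorem exists_fixed_base_point {ℓ : ℕ} (hℓ : ℓ.Prime) (hA : A.LiesOverPrime ℓ)
    (hDa : ∀ (Q : Place (kA A) ↥(modularFunctionFieldFullC (kA A) M)) (c : ↥A),
      Good T Q c → Da T Q c)
    (hbad : {Q : Place (kA A) ↥(modularFunctionFieldFullC (kA A) M) |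
      ¬ ∃ c : ↥A, Good T Q c}.Finite)
    (HL : LHyp (kA A) ↥(modularFunctionFieldFullC (kA A) M))
    (hR : ∃ γ : ℤ, ∀ D : Divisor (kA A) ↥(modularFunctionFieldFullC (kA A) M),
      Divisor.degree D + 1 - γ ≤ (Module.finrank (kA A) (riemannRochSpace D) : ℤ))
    [Infinite (kA A)] [Infinite (Place (kA A) ↥(modularFunctionFieldFullC (kA A) M))]
    (y : JZero M) :
    ∃ P : JZero M, (∀ σ ∈ A.inertiaSubgroupIn ℚ, σ • P = P) ∧ y - P ∈ J1 T hr hgen := by
  -- a GOOD place
  obtain ⟨Q₀, hQ₀⟩ : ∃ Q₀ : Place (kA A) ↥(modularFunctionFieldFullC (kA A) M),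
      Q₀ ∉ {Q : Place (kA A) ↥(modularFunctionFieldFullC (kA A) M) | ¬ ∃ c : ↥A, Good T Q c} :=
    hbad.exists_notMem
  exact LiftClass11.exists_fixed_base_point T.r hr hgen
    (A.inertiaSubgroupIn ℚ : Set (Qb ≃ₐ[ℚ] Qb))
    {Q | ∃ c : ↥A, Good T Q c}
    (by
      rintro Q ⟨c, hc⟩
      exact exists_inertia_fixed_lift T hxt h0 h1 hℓ hA hDa hc)
    (by
      intro z
      obtain ⟨Dbar, hD, hsupp⟩ :=
        MovingLemma11.exists_degZero_rep_avoiding HL hR hbad hQ₀ z
      refine ⟨Dbar, hD, fun Q hQ => ?_⟩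
      have := hsupp Q hQ
      simpa using this)
    y

end Fermat.Agent.ES.V19.BasePointInst11
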