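/-
Programme V (S19), chapters B2/B3 (helper9): **abstract Taylor expansion along a regular parameter**.

`R`, `A` commutative rings, `A` an `R`-algebra, `t : A` with `IsUnif R t`:
`t` is a non-zero-divisor and `R → A / (t)` is bijective (every `a` is `c + t * b` with `c : R` unique).
Then there is an `R`-algebra homomorphism

  `expand h : A →ₐ[R] R⟦X⟧`,  `expand h t = X`,

whose `n`-th coefficient is `res (step^[n] a)` (`a = res a + t * step a`).  It is characterised by
`a = aeval t p + t ^ n * b  →  ∀ i < n, coeff i (expand h a) = p.coeff i`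
(`coeff_expand_of_eq`), which gives multiplicativity and FUNCTORIALITY (`expand_map`: compatibility with a
morphism `(R, A, t) → (R', A', t')`, e.g. reduction modulo a prime, or a base change) for free.
`X ^ n ∣ expand h a ↔ t ^ n ∣ a` (`X_pow_dvd_expand_iff`), `expand h a = 0 ↔ a ∈ ⋂ t ^ n A`.

Used with `(R, A) = (K, 𝒪_v)` at a place of degree one (special and generic fibre) and with
`(R, A) = (O, functions regular on a residue disc)`.
-/
import Mathlib

set_option autoImplicit false

noncomputable section

namespace Fermat.Agent.ES.V19.TaylorAbs9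

/-- `t` is a non-zero-divisor of `A` and `R → A / (t)` is bijective. -/
structure IsUnif (R : Type*) {A : Type*} [CommRing R] [CommRing A] [Algebra R A] (t : A) : Prop where
  reg : ∀ a b : A, t * a = t * b → a = b
  surj : ∀ a : A, ∃ c : R, ∃ b : A, a = algebraMap R A c + t * b
  inj : ∀ (c : R) (b : A), algebraMap R A c = t * b → c = 0

variable {R A : Type*} [CommRing R] [CommRing A] [Algebra R A] {t : A} (h : IsUnif R t)

/-- the residue of `a` modulo `t`, as an element of `R`. -/
def res (a : A) : R := (h.surj a).choose

/-- `(a - res a) / t`. -/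
def step (a : A) : A := (h.surj a).choose_spec.choose

theorem eq_res_add (a : A) : a = algebraMap R A (res h a) + t * step h a :=
  (h.surj a).choose_spec.choose_spec

theorem res_step_unique {a : A} {c : R} {b : A} (e : a = algebraMap R A c + t * b) :
    res h a = c ∧ step h a = b := by
  have e' := eq_res_add h a
  have e2 : algebraMap R A (res h a) + t * step h a = algebraMap R A c + t * b := e'.symm.trans e
  have h1 : algebraMap R A (res h a - c) = t * (b - step h a) := by
    rw [map_sub, mul_sub]
    linear_combination e2
  have hc : res h a = c := sub_eq_zero.mp (h.inj _ _ h1)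
  refine ⟨hc, ?_⟩
  apply h.reg
  rw [hc] at e2
  exact add_left_cancel e2

/-- the `n`-th Taylor coefficient. -/
def digit (n : ℕ) (a : A) : R := res h ((step h)^[n] a)

theorem digit_zero (a : A) : digit h 0 a = res h a := rfl

theorem digit_succ (n : ℕ) (a : A) : digit h (n + 1) a = digit h n (step h a) := by
  unfold digit
  rw [Function.iterate_succ_apply]

/-- the Taylor series, as a function. -/
def expandFun (a : A) : PowerSeries R := PowerSeries.mk fun n => digit h n a

theorem coeff_expandFun (n : ℕ) (a : A) : PowerSeries.coeff n (expandFun h a) = digit h n a := by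
  unfold expandFun
  rw [PowerSeries.coeff_mk]

/-- **Taylor formula with remainder.** -/
theorem eq_aeval_trunc_add (n : ℕ) (a : A) :
    a = Polynomial.aeval t (PowerSeries.trunc n (expandFun h a)) + t ^ n * (step h)^[n] a := by
  induction n with
  | zero =>
    have h0 : PowerSeries.trunc 0 (expandFun h a) = 0 := by
      ext m
      rw [PowerSeries.coeff_trunc]
      simp
    rw [h0]
    simp
  | succ n ih =>
    have e := eq_res_add h ((step h)^[n] a)
    rw [PowerSeries.trunc_succ, map_add, Polynomial.aeval_monomial, coeff_expandFun,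
      Function.iterate_succ_apply']
    have hd : digit h n a = res h ((step h)^[n] a) := rfl
    rw [hd]
    calc a = Polynomial.aeval t (PowerSeries.trunc n (expandFun h a)) + t ^ n * (step h)^[n] a := ih
      _ = Polynomial.aeval t (PowerSeries.trunc n (expandFun h a))
            + t ^ n * (algebraMap R A (res h ((step h)^[n] a)) + t * step h ((step h)^[n] a)) := by
          rw [← e]
      _ = _ := by ring

/-- **Uniqueness of the Taylor coefficients.** -/
theorem digit_eq_of_eq : ∀ (n : ℕ) (a b : A) (p : Polynomial R),
    a = Polynomial.aeval t p + t ^ n * b → ∀ i, i < n → digit h i a = p.coeff i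
  | 0, _, _, _, _, i, hi => absurd hi (Nat.not_lt_zero i)
  | n + 1, a, b, p, e, i, hi => by
    have hp : Polynomial.aeval t p = algebraMap R A (p.coeff 0) + t * Polynomial.aeval t p.divX := by
      conv_lhs => rw [← Polynomial.divX_mul_X_add p]
      rw [map_add, map_mul, Polynomial.aeval_X, Polynomial.aeval_C]
      ring
    have e2 : a = algebraMap R A (p.coeff 0) + t * (Polynomial.aeval t p.divX + t ^ n * b) := by
      rw [e, hp]
      ring
    obtain ⟨h1, h2⟩ := res_step_unique h e2
    cases i with
    | zero => exact h1
    | succ i =>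
      rw [digit_succ, digit_eq_of_eq n _ b p.divX h2 i (Nat.lt_of_succ_lt_succ hi),
        Polynomial.coeff_divX]

theorem coeff_expandFun_of_eq {n : ℕ} {a b : A} {p : Polynomial R}
    (e : a = Polynomial.aeval t p + t ^ n * b) {i : ℕ} (hi : i < n) :
    PowerSeries.coeff i (expandFun h a) = p.coeff i := by
  rw [coeff_expandFun]
  exact digit_eq_of_eq h n a b p e i hi

theorem expandFun_algebraMap (c : R) : expandFun h (algebraMap R A c) = PowerSeries.C c := by
  ext i
  have e : algebraMap R A c = Polynomial.aeval t (Polynomial.C c) + t ^ (i + 1) * 0 := by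
    rw [Polynomial.aeval_C, mul_zero, add_zero]
  rw [coeff_expandFun_of_eq h e (Nat.lt_succ_self i), Polynomial.coeff_C, PowerSeries.coeff_C]

theorem expandFun_add (a b : A) : expandFun h (a + b) = expandFun h a + expandFun h b := by
  ext i
  have ea := eq_aeval_trunc_add h (i + 1) a
  have eb := eq_aeval_trunc_add h (i + 1) b
  have e : a + b = Polynomial.aeval t (PowerSeries.trunc (i + 1) (expandFun h a)
      + PowerSeries.trunc (i + 1) (expandFun h b))
      + t ^ (i + 1) * ((step h)^[i + 1] a + (step h)^[i + 1] b) := by
    rw [map_add]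
    linear_combination ea + eb
  rw [coeff_expandFun_of_eq h e (Nat.lt_succ_self i), Polynomial.coeff_add, PowerSeries.coeff_trunc,
    PowerSeries.coeff_trunc, map_add]
  simp only [if_pos (Nat.lt_succ_self i)]

theorem expandFun_mul (a b : A) : expandFun h (a * b) = expandFun h a * expandFun h b := by
  ext i
  have ea := eq_aeval_trunc_add h (i + 1) a
  have eb := eq_aeval_trunc_add h (i + 1) b
  set pa := PowerSeries.trunc (i + 1) (expandFun h a) with hpa
  set pb := PowerSeries.trunc (i + 1) (expandFun h b) with hpb
  have e : a * b = Polynomial.aeval t (pa * pb)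
      + t ^ (i + 1) * ((step h)^[i + 1] a * b + Polynomial.aeval t pa * (step h)^[i + 1] b) := by
    rw [map_mul]
    linear_combination b * ea + Polynomial.aeval t pa * eb
  rw [coeff_expandFun_of_eq h e (Nat.lt_succ_self i)]
  have h1 : PowerSeries.coeff i (expandFun h a * expandFun h b)
      = (PowerSeries.trunc (i + 1) (expandFun h a * expandFun h b)).coeff i := by
    rw [PowerSeries.coeff_trunc, if_pos (Nat.lt_succ_self i)]
  rw [h1, ← PowerSeries.trunc_trunc_mul_trunc, PowerSeries.coeff_trunc, if_pos (Nat.lt_succ_self i),
    ← Polynomial.coe_mul, Polynomial.coeff_coe]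

/-- **The Taylor expansion** `A →ₐ[R] R⟦X⟧`. -/
def expand : A →ₐ[R] PowerSeries R where
  toFun := expandFun h
  map_one' := by
    have := expandFun_algebraMap h (1 : R)
    rwa [map_one, map_one] at this
  map_mul' := expandFun_mul h
  map_zero' := by
    have := expandFun_algebraMap h (0 : R)
    rwa [map_zero, map_zero] at this
  map_add' := expandFun_add h
  commutes' := fun c => expandFun_algebraMap h c

theorem expand_apply (a : A) : expand h a = expandFun h a := rfl

theorem coeff_expand (n : ℕ) (a : A) : PowerSeries.coeff n (expand h a) = res h ((step h)^[n] a) :=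
  coeff_expandFun h n a

theorem coeff_expand_of_eq {n : ℕ} {a b : A} {p : Polynomial R}
    (e : a = Polynomial.aeval t p + t ^ n * b) {i : ℕ} (hi : i < n) :
    PowerSeries.coeff i (expand h a) = p.coeff i :=
  coeff_expandFun_of_eq h e hi

theorem constantCoeff_expand (a : A) : PowerSeries.constantCoeff (expand h a) = res h a := by
  rw [← PowerSeries.coeff_zero_eq_constantCoeff_apply, coeff_expand]
  rfl

theorem expand_algebraMap (c : R) : expand h (algebraMap R A c) = PowerSeries.C c :=
  expandFun_algebraMap h c

/-- the parameter goes to `X`. -/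
theorem expand_unif : expand h t = PowerSeries.X := by
  ext i
  have e : t = Polynomial.aeval t (Polynomial.X : Polynomial R) + t ^ (i + 1) * 0 := by
    rw [Polynomial.aeval_X, mul_zero, add_zero]
  rw [coeff_expand_of_eq h e (Nat.lt_succ_self i), Polynomial.coeff_X, PowerSeries.coeff_X]
  by_cases hi : i = 1
  · rw [if_pos hi, if_pos hi.symm]
  · rw [if_neg hi, if_neg (Ne.symm hi)]

theorem eq_aeval_trunc_expand_add (n : ℕ) (a : A) :
    a = Polynomial.aeval t (PowerSeries.trunc n (expand h a)) + t ^ n * (step h)^[n] a :=
  eq_aeval_trunc_add h n a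

/-- `X ^ n ∣ expand a ↔ t ^ n ∣ a`. -/
theorem X_pow_dvd_expand_iff (n : ℕ) (a : A) :
    (PowerSeries.X : PowerSeries R) ^ n ∣ expand h a ↔ ∃ b : A, a = t ^ n * b := by
  constructor
  · intro hd
    have h0 : PowerSeries.trunc n (expand h a) = 0 := by
      ext m
      rw [PowerSeries.coeff_trunc, Polynomial.coeff_zero]
      split_ifs with hm
      · exact PowerSeries.X_pow_dvd_iff.mp hd m hm
      · rfl
    have e := eq_aeval_trunc_expand_add h n a
    rw [h0, map_zero, zero_add] at e
    exact ⟨_, e⟩
  · rintro ⟨b, rfl⟩
    rw [map_mul, map_pow, expand_unif]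
    exact Dvd.intro _ rfl

theorem expand_eq_zero_iff (a : A) : expand h a = 0 ↔ ∀ n : ℕ, ∃ b : A, a = t ^ n * b := by
  constructor
  · intro h0 n
    rw [← X_pow_dvd_expand_iff h, h0]
    exact dvd_zero _
  · intro hall
    ext m
    rw [map_zero]
    exact PowerSeries.X_pow_dvd_iff.mp ((X_pow_dvd_expand_iff h (m + 1) a).mpr (hall (m + 1))) m
      (Nat.lt_succ_self m)

/-- `expand` is injective when `A` is `t`-adically separated. -/
theorem expand_injective (hsep : ∀ a : A, (∀ n : ℕ, ∃ b : A, a = t ^ n * b) → a = 0) :
    Function.Injective (expand h) := by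
  rw [injective_iff_map_eq_zero]
  intro a ha
  exact hsep a ((expand_eq_zero_iff h a).mp ha)

/-- **Functoriality**: compatibility of the Taylor expansion with a morphism `(R, A, t) → (R', A', t')`. -/
theorem expand_map {R' A' : Type*} [CommRing R'] [CommRing A'] [Algebra R' A'] {t' : A'}
    (h' : IsUnif R' t') (ρ : R →+* R') (α : A →+* A')
    (hα : ∀ c : R, α (algebraMap R A c) = algebraMap R' A' (ρ c)) (ht : α t = t') (a : A) :
    expand h' (α a) = PowerSeries.map ρ (expand h a) := by
  ext i
  have ea := eq_aeval_trunc_expand_add h (i + 1) a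
  set p := PowerSeries.trunc (i + 1) (expand h a) with hp
  have hcomp : α (Polynomial.aeval t p) = Polynomial.aeval t' (p.map ρ) := by
    rw [Polynomial.aeval_def, Polynomial.hom_eval₂, Polynomial.aeval_def, Polynomial.eval₂_map, ht]
    congr 1
    ext c
    exact hα c
  have e : α a = Polynomial.aeval t' (p.map ρ) + t' ^ (i + 1) * α ((step h)^[i + 1] a) := by
    conv_lhs => rw [ea]
    rw [map_add, map_mul, map_pow, ht, hcomp]
  rw [coeff_expand_of_eq h' e (Nat.lt_succ_self i), Polynomial.coeff_map, PowerSeries.coeff_map, hp,
    PowerSeries.coeff_trunc, if_pos (Nat.lt_succ_self i)]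

end Fermat.Agent.ES.V19.TaylorAbs9

end
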