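/-
Programme V (S19), chapter B2 (helper9): **Laurent expansion at a place of degree one**.

`K F` arbitrary fields, `v : Place K F` a place whose residue field is `K` (`ResK v`, the shape of
`RR.LSpace.LHyp.residue`), `t` a uniformiser (`v.ord t = 1`).  Then (abstract Taylor expansion `TaylorAbs9` on the
valuation ring, extended to the fraction field):

* `expandO hres ht : ↥v.toValuationSubring →ₐ[K] K⟦X⟧`, injective;
* `expandF hres ht : F →+* LaurentSeries K` with
  `expandF_coe` (on the valuation ring it is the power series `expandO`), `expandF_algebraMap` (`= C c`),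
  `expandF_unif` (`t ↦ single 1 1`), `expandF_unif_inv` (`t⁻¹ ↦ single (-1) 1`),
  `coeff_expandF_of_lt` (coefficients below `v.ord f` vanish), `coeff_expandF_ord_ne_zero` (the coefficient at
  `v.ord f` does not), `order_expandF`, and the converse `le_ord_of_coeff_expandF`.
-/
import Mathlib
import Fermat.Prelude.Def_AlgebraicCurve_Repartitions
import Fermat.Agent.X0.FFResidue
import Fermat.Agent.ES.V19.TaylorAbs9

set_option autoImplicit false

open AlgebraicCurve

noncomputable section

namespace Fermat.Agent.ES.V19.ExpandPlace9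

open Fermat.Agent.X0.FF Fermat.Agent.ES.V19.TaylorAbs9

variable {K F : Type*} [Field K] [Field F] [Algebra K F]

/-- the residue field of the place `v` is `K` (the shape of `RR.LSpace.LHyp.residue`). -/
abbrev ResK (v : Place K F) : Prop :=
  ∀ f : F, f ∈ v.toValuationSubring →
    ∃ c : K, f = algebraMap K F c ∨ 0 < v.ord (f - algebraMap K F c)

variable {v : Place K F} {t : F}

theorem unif_ne_zero (ht : v.ord t = 1) : t ≠ 0 := by
  rintro rfl
  rw [Place.ord_zero] at ht
  omega

theorem unif_mem (ht : v.ord t = 1) : t ∈ v.toValuationSubring :=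
  ffp_mem_of_ord_nonneg v (by omega)

theorem ord_unif_pow (ht : v.ord t = 1) (n : ℕ) : v.ord (t ^ n) = n := by
  rw [← zpow_natCast, v.ord_zpow, ht, mul_one]

/-- the uniformiser as an element of the valuation ring. -/
def tO (ht : v.ord t = 1) : ↥v.toValuationSubring := ⟨t, unif_mem ht⟩

theorem coe_tO (ht : v.ord t = 1) : ((tO ht : ↥v.toValuationSubring) : F) = t := rfl

theorem tO_ne_zero (ht : v.ord t = 1) : tO ht ≠ 0 := by
  intro h
  exact unif_ne_zero ht (congrArg Subtype.val h)

/-- the valuation ring of a place of degree one, with a uniformiser, is a Taylor datum. -/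
theorem isUnif (hres : ResK v) (ht : v.ord t = 1) : IsUnif K (tO ht) where
  reg := fun a b hab => mul_left_cancel₀ (tO_ne_zero ht) hab
  surj := by
    intro a
    have ht0 := unif_ne_zero ht
    obtain ⟨c, hc⟩ := hres a a.2
    have hmem : ((a : F) - algebraMap K F c) / t ∈ v.toValuationSubring := by
      rcases hc with hc | hc
      · rw [hc, sub_self, zero_div]
        exact zero_mem _
      · apply ffp_mem_of_ord_nonneg
        have hne : (a : F) - algebraMap K F c ≠ 0 := by
          intro h0
          rw [h0, Place.ord_zero] at hc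
          exact lt_irrefl _ hc
        rw [div_eq_mul_inv, v.ord_mul hne (inv_ne_zero ht0), v.ord_inv, ht]
        omega
    refine ⟨c, ⟨_, hmem⟩, ?_⟩
    apply Subtype.ext
    show (a : F) = ((algebraMap K ↥v.toValuationSubring c : ↥v.toValuationSubring) : F)
      + t * (((a : F) - algebraMap K F c) / t)
    rw [v.coe_algebraMap]
    field_simp
    ring
  inj := by
    intro c b hcb
    by_contra hc
    have ht0 := unif_ne_zero ht
    have h1 : algebraMap K F c = t * (b : F) := by
      have := congrArg Subtype.val hcb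
      rwa [v.coe_algebraMap] at this
    have hc0 : algebraMap K F c ≠ 0 := by
      rwa [Ne, map_eq_zero]
    have hb : (b : F) ≠ 0 := by
      intro hb
      rw [hb, mul_zero] at h1
      exact hc0 h1
    have h2 := ffp_ord_algebraMap v c
    rw [h1, v.ord_mul ht0 hb, ht] at h2
    have := ffp_ord_nonneg_of_mem v b.2
    omega

/-- the valuation ring is `t`-adically separated. -/
theorem sep (ht : v.ord t = 1) (a : ↥v.toValuationSubring)
    (h : ∀ n : ℕ, ∃ b : ↥v.toValuationSubring, a = tO ht ^ n * b) : a = 0 := by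
  by_contra ha
  have haF : (a : F) ≠ 0 := fun h0 => ha (Subtype.ext h0)
  obtain ⟨b, hb⟩ := h ((v.ord (a : F)).toNat + 1)
  have hbF : (a : F) = t ^ ((v.ord (a : F)).toNat + 1) * (b : F) := by
    have := congrArg Subtype.val hb
    simpa [tO] using this
  have hb0 : (b : F) ≠ 0 := by
    intro h0
    rw [h0, mul_zero] at hbF
    exact haF hbF
  have h1 : v.ord (a : F) = ((v.ord (a : F)).toNat + 1 : ℕ) + v.ord (b : F) := by
    conv_lhs => rw [hbF]
    rw [v.ord_mul (pow_ne_zero _ (unif_ne_zero ht)) hb0, ord_unif_pow ht]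
  have h2 := ffp_ord_nonneg_of_mem v b.2
  have h3 := Int.self_le_toNat (v.ord (a : F))
  push_cast at h1
  omega

/-- **Taylor expansion on the valuation ring.** -/
def expandO (hres : ResK v) (ht : v.ord t = 1) : ↥v.toValuationSubring →ₐ[K] PowerSeries K :=
  expand (isUnif hres ht)

theorem expandO_injective (hres : ResK v) (ht : v.ord t = 1) :
    Function.Injective (expandO hres ht) :=
  expand_injective (isUnif hres ht) (sep ht)

theorem expandO_unif (hres : ResK v) (ht : v.ord t = 1) :
    expandO hres ht (tO ht) = PowerSeries.X :=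
  expand_unif (isUnif hres ht)

/-- a unit of the valuation ring has a Taylor expansion with non-zero constant term. -/
theorem constantCoeff_expandO_ne_zero (hres : ResK v) (ht : v.ord t = 1) {u : ↥v.toValuationSubring}
    (hu : v.ord (u : F) = 0) (hu0 : u ≠ 0) :
    PowerSeries.constantCoeff (expandO hres ht u) ≠ 0 := by
  intro h0
  have hd : (PowerSeries.X : PowerSeries K) ^ 1 ∣ expandO hres ht u := by
    rw [pow_one, PowerSeries.X_dvd_iff]
    exact h0
  obtain ⟨b, hb⟩ := (X_pow_dvd_expand_iff (isUnif hres ht) 1 u).mp hd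
  have hbF : (u : F) = t * (b : F) := by
    have := congrArg Subtype.val hb
    simpa [tO] using this
  have huF : (u : F) ≠ 0 := fun h => hu0 (Subtype.ext h)
  have hb0 : (b : F) ≠ 0 := by
    intro h
    rw [h, mul_zero] at hbF
    exact huF hbF
  rw [hbF, v.ord_mul (unif_ne_zero ht) hb0, ht] at hu
  have := ffp_ord_nonneg_of_mem v b.2
  omega

/-- the injective ring homomorphism `𝒪_v → K⸨X⸩`. -/
def expandOL (hres : ResK v) (ht : v.ord t = 1) : ↥v.toValuationSubring →+* LaurentSeries K :=
  (HahnSeries.ofPowerSeries ℤ K).comp (expandO hres ht).toRingHom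

theorem expandOL_injective (hres : ResK v) (ht : v.ord t = 1) :
    Function.Injective (expandOL hres ht) :=
  HahnSeries.ofPowerSeries_injective.comp (expandO_injective hres ht)

/-- **Laurent expansion at a place of degree one.** -/
def expandF (hres : ResK v) (ht : v.ord t = 1) : F →+* LaurentSeries K :=
  IsFractionRing.lift (A := ↥v.toValuationSubring) (K := F) (expandOL_injective hres ht)

theorem expandF_coe (hres : ResK v) (ht : v.ord t = 1) (a : ↥v.toValuationSubring) :
    expandF hres ht (a : F) = HahnSeries.ofPowerSeries ℤ K (expandO hres ht a) :=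
  IsFractionRing.lift_algebraMap (expandOL_injective hres ht) a

theorem expandF_of_mem (hres : ResK v) (ht : v.ord t = 1) {f : F} (hf : f ∈ v.toValuationSubring) :
    expandF hres ht f = HahnSeries.ofPowerSeries ℤ K (expandO hres ht ⟨f, hf⟩) :=
  expandF_coe hres ht ⟨f, hf⟩

theorem expandF_algebraMap (hres : ResK v) (ht : v.ord t = 1) (c : K) :
    expandF hres ht (algebraMap K F c) = HahnSeries.C c := by
  have h1 := expandF_coe hres ht (algebraMap K ↥v.toValuationSubring c)
  rw [v.coe_algebraMap] at h1
  rw [h1, AlgHom.commutes]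
  exact HahnSeries.ofPowerSeries_C c

theorem expandF_unif (hres : ResK v) (ht : v.ord t = 1) :
    expandF hres ht t = HahnSeries.single 1 1 := by
  have h1 := expandF_coe hres ht (tO ht)
  rw [coe_tO, expandO_unif] at h1
  rw [h1]
  exact HahnSeries.ofPowerSeries_X

theorem expandF_unif_zpow (hres : ResK v) (ht : v.ord t = 1) (m : ℤ) :
    expandF hres ht (t ^ m) = HahnSeries.single m 1 := by
  rw [map_zpow₀, expandF_unif]
  exact (RatFunc.single_zpow m).symm

theorem expandF_unif_inv (hres : ResK v) (ht : v.ord t = 1) :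
    expandF hres ht t⁻¹ = HahnSeries.single (-1) 1 := by
  have := expandF_unif_zpow hres ht (-1)
  rwa [zpow_neg_one] at this

/-- `f = t ^ (ord f) * u` with `u` a unit of the valuation ring. -/
theorem exists_eq_zpow_mul (ht : v.ord t = 1) {f : F} (hf : f ≠ 0) :
    ∃ u : ↥v.toValuationSubring, u ≠ 0 ∧ v.ord (u : F) = 0 ∧ f = t ^ (v.ord f) * (u : F) := by
  have ht0 := unif_ne_zero ht
  have hne : f * t ^ (-(v.ord f)) ≠ 0 := mul_ne_zero hf (zpow_ne_zero _ ht0)
  have hord : v.ord (f * t ^ (-(v.ord f))) = 0 := by
    rw [v.ord_mul hf (zpow_ne_zero _ ht0), v.ord_zpow, ht]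
    ring
  refine ⟨⟨f * t ^ (-(v.ord f)), ffp_mem_of_ord_nonneg v (le_of_eq hord.symm)⟩, ?_, hord, ?_⟩
  · intro h
    exact hne (congrArg Subtype.val h)
  · show f = t ^ (v.ord f) * (f * t ^ (-(v.ord f)))
    rw [zpow_neg]
    field_simp

/-- the coefficients of the Laurent expansion, in terms of the unit part. -/
theorem coeff_expandF_add (hres : ResK v) (ht : v.ord t = 1) {f : F} {u : ↥v.toValuationSubring}
    (hfu : f = t ^ (v.ord f) * (u : F)) (k : ℤ) :
    (expandF hres ht f).coeff (k + v.ord f)
      = (HahnSeries.ofPowerSeries ℤ K (expandO hres ht u)).coeff k := by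
  rw [congrArg (expandF hres ht) hfu, map_mul, expandF_unif_zpow, expandF_coe,
    HahnSeries.coeff_single_mul_add, one_mul]

/-- the coefficients of the Laurent expansion of `f` below `n ≤ ord f` vanish. -/
theorem coeff_expandF_of_lt (hres : ResK v) (ht : v.ord t = 1) {f : F} {n : ℤ}
    (hf : f = 0 ∨ n ≤ v.ord f) {k : ℤ} (hk : k < n) : (expandF hres ht f).coeff k = 0 := by
  by_cases hf0 : f = 0
  · rw [hf0, map_zero]
    rfl
  have hn : n ≤ v.ord f := hf.resolve_left hf0
  obtain ⟨u, _, _, hfu⟩ := exists_eq_zpow_mul ht hf0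
  have h1 := coeff_expandF_add hres ht hfu (k - v.ord f)
  rw [sub_add_cancel] at h1
  rw [h1]
  have h2 := PowerSeries.coeff_coe (expandO hres ht u) (k - v.ord f)
  rw [if_pos (by omega)] at h2
  exact h2

/-- the coefficient of the Laurent expansion of `f ≠ 0` at `ord f` is non-zero. -/
theorem coeff_expandF_ord_ne_zero (hres : ResK v) (ht : v.ord t = 1) {f : F} (hf : f ≠ 0) :
    (expandF hres ht f).coeff (v.ord f) ≠ 0 := by
  obtain ⟨u, hu0, hu, hfu⟩ := exists_eq_zpow_mul ht hf
  have h1 := coeff_expandF_add hres ht hfu 0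
  rw [zero_add] at h1
  rw [h1]
  have h2 := PowerSeries.coeff_coe (expandO hres ht u) 0
  rw [if_neg (lt_irrefl 0)] at h2
  rw [h2]
  have h3 := constantCoeff_expandO_ne_zero hres ht hu hu0
  rwa [← PowerSeries.coeff_zero_eq_constantCoeff_apply] at h3

/-- converse: if all coefficients below `n` vanish then `f = 0` or `n ≤ ord f`. -/
theorem le_ord_of_coeff_expandF (hres : ResK v) (ht : v.ord t = 1) {f : F} {n : ℤ}
    (h : ∀ k : ℤ, k < n → (expandF hres ht f).coeff k = 0) : f = 0 ∨ n ≤ v.ord f := by
  by_cases hf : f = 0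
  · exact Or.inl hf
  right
  by_contra hlt
  exact coeff_expandF_ord_ne_zero hres ht hf (h _ (not_le.mp hlt))

theorem expandF_ne_zero (hres : ResK v) (ht : v.ord t = 1) {f : F} (hf : f ≠ 0) :
    expandF hres ht f ≠ 0 := by
  intro h
  apply coeff_expandF_ord_ne_zero hres ht hf
  rw [h]
  rfl

/-- the order of the Laurent expansion is the order at the place. -/
theorem order_expandF (hres : ResK v) (ht : v.ord t = 1) {f : F} (hf : f ≠ 0) :
    (expandF hres ht f).order = v.ord f := by
  apply le_antisymm
  · exact HahnSeries.order_le_of_coeff_ne_zero (coeff_expandF_ord_ne_zero hres ht hf)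
  · by_contra hlt
    rw [not_le] at hlt
    have h1 := coeff_expandF_of_lt hres ht (Or.inr (le_refl (v.ord f))) hlt
    exact expandF_ne_zero hres ht hf (HahnSeries.coeff_order_eq_zero.mp h1)

end Fermat.Agent.ES.V19.ExpandPlace9

end
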