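/-
Programme V (S19), chapter B2 (curve theory on the special fibre, characteristic-free), helper9:
**one-place repartitions and simple principal parts**.

`K F` arbitrary fields (no `CharZero`, no `IsAlgClosed`), `HL : LSpace.LHyp K F`.

* `sgl v f` : the repartition with the single non-zero component `f` at the place `v`;
* `redDiv P = ∑ i, P i` for a family of places `P : Fin n → Place K F`;
* `exists_sub_mem_repartitionsOf_zero` : if `P` is injective and `t i` is a uniformiser at `P i`, every
  `α ∈ A(P_1 + … + P_n)` is `∑ c_i · (t_i⁻¹ @ P_i)` modulo `A(0)` (the residue field of every place is `K`);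
* `span_sgl_eq_top` : if moreover `A(P_1 + … + P_n) + F` is everything (i.e. `H¹(∑ P_i) = 0`), the classes of the
  simple principal parts `t_i⁻¹ @ P_i` span `H¹(0)`.
-/
import Mathlib
import Fermat.Prelude.Def_AlgebraicCurve_Repartitions
import Fermat.Agent.X0.FFResidue
import Fermat.Agent.RR.LSpace
import Fermat.Agent.RR.Repart

set_option autoImplicit false

open AlgebraicCurve

noncomputable section

namespace Fermat.Agent.ES.V19.OnePlaceRep9

open Fermat.Agent.X0.FF Fermat.Agent.RR.LSpace

variable {K F : Type*} [Field K] [Field F] [Algebra K F]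

open Classical in
/-- The repartition with the single non-zero component `f` at `v`. -/
def sgl (v : Place K F) (f : F) : ↥(repartitions K F) :=
  ⟨Pi.single v f, mem_repartitions_of_finite_ord (by
    refine (Set.finite_singleton v).subset ?_
    intro w hw
    by_contra hne
    have hne' : w ≠ v := hne
    simp only [Set.mem_ofPred_eq, Pi.single_apply, hne', if_false, Place.ord_zero,
      lt_self_iff_false] at hw)⟩

theorem sgl_apply_self (v : Place K F) (f : F) : ((sgl v f : ↥(repartitions K F)) : Place K F → F) v = f := by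
  classical
  simp [sgl]

theorem sgl_apply_of_ne {v w : Place K F} (h : w ≠ v) (f : F) :
    ((sgl v f : ↥(repartitions K F)) : Place K F → F) w = 0 := by
  classical
  simp [sgl, h]

/-- The reduced divisor `P_1 + … + P_n`. -/
def redDiv {n : ℕ} (P : Fin n → Place K F) : Divisor K F := ∑ i, Finsupp.single (P i) 1

theorem redDiv_apply_self {n : ℕ} {P : Fin n → Place K F} (hP : Function.Injective P) (i : Fin n) :
    redDiv P (P i) = 1 := by
  classical
  rw [redDiv, Finsupp.finsetSum_apply]
  simp only [Finsupp.single_apply]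
  rw [Finset.sum_eq_single i]
  · simp
  · intro j _ hji
    rw [if_neg]
    exact fun h => hji (hP h)
  · intro h
    exact absurd (Finset.mem_univ i) h

theorem redDiv_apply_of_not_mem {n : ℕ} {P : Fin n → Place K F} {v : Place K F}
    (hv : ∀ i, P i ≠ v) : redDiv P v = 0 := by
  classical
  rw [redDiv, Finsupp.finsetSum_apply]
  apply Finset.sum_eq_zero
  intro j _
  rw [Finsupp.single_apply, if_neg (hv j)]

theorem redDiv_nonneg {n : ℕ} (P : Fin n → Place K F) : 0 ≤ redDiv P := by
  classical
  intro v
  rw [redDiv, Finsupp.finsetSum_apply]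
  apply Finset.sum_nonneg
  intro j _
  rw [Finsupp.single_apply]
  split_ifs <;> simp

theorem degree_redDiv (HL : LHyp K F) {n : ℕ} (P : Fin n → Place K F) :
    Divisor.degree (redDiv P) = n := by
  rw [redDiv, map_sum]
  simp only [degree_single HL]
  simp

/-- the simple principal part `t⁻¹ @ v` lies in `A(D)` as soon as `1 ≤ D v`. -/
theorem sgl_inv_mem {D : Divisor K F} {v : Place K F} (hv : 1 ≤ D v) {t : F}
    (ht : v.ord t = 1) : sgl v t⁻¹ ∈ repartitionsOf D := by
  rw [mem_repartitionsOf_iff]
  intro w
  by_cases hw : w = v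
  · subst hw
    right
    rw [sgl_apply_self, Place.ord_inv, ht]
    omega
  · left
    exact sgl_apply_of_ne hw _

/-- **Simple principal parts**: modulo `A(0)`, an element of `A(P_1 + … + P_n)` is a `K`-combination of the
`t_i⁻¹ @ P_i`. -/
theorem exists_sub_mem_repartitionsOf_zero (HL : LHyp K F) {n : ℕ} {P : Fin n → Place K F}
    (hP : Function.Injective P) {t : Fin n → F} (ht : ∀ i, (P i).ord (t i) = 1)
    {α : ↥(repartitions K F)} (hα : α ∈ repartitionsOf (redDiv P)) :
    ∃ c : Fin n → K, α - ∑ i, c i • sgl (P i) (t i)⁻¹ ∈ repartitionsOf (0 : Divisor K F) := by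
  classical
  have hα' := mem_repartitionsOf_iff.mp hα
  have ht0 : ∀ i, t i ≠ 0 := fun i h => by
    have := ht i
    rw [h, Place.ord_zero] at this
    omega
  -- the constants
  have hc : ∀ i, ∃ c : K, t i * (α : Place K F → F) (P i) = algebraMap K F c ∨
      0 < (P i).ord (t i * (α : Place K F → F) (P i) - algebraMap K F c) := by
    intro i
    apply HL.residue (P i)
    rcases hα' (P i) with h0 | h
    · rw [h0, mul_zero]
      exact zero_mem _
    · by_cases h0 : (α : Place K F → F) (P i) = 0
      · rw [h0, mul_zero]
        exact zero_mem _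
      · apply ffp_mem_of_ord_nonneg
        rw [(P i).ord_mul (ht0 i) h0, ht i]
        rw [redDiv_apply_self hP i] at h
        omega
  choose c hc using hc
  refine ⟨c, ?_⟩
  rw [mem_repartitionsOf_iff]
  intro v
  -- the components of the correction
  have hcomp : ((α - ∑ i, c i • sgl (P i) (t i)⁻¹ : ↥(repartitions K F)) : Place K F → F) v
      = (α : Place K F → F) v
        - ∑ i, algebraMap K F (c i) * ((sgl (P i) (t i)⁻¹ : ↥(repartitions K F)) : Place K F → F) v := by
    have h1 : ((α - ∑ i, c i • sgl (P i) (t i)⁻¹ : ↥(repartitions K F)) : Place K F → F)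
        = (α : Place K F → F) - ∑ i, c i • ((sgl (P i) (t i)⁻¹ : ↥(repartitions K F)) : Place K F → F) := by
      push_cast
      rfl
    rw [h1, Pi.sub_apply, Finset.sum_apply]
    congr 1
    apply Finset.sum_congr rfl
    intro i _
    rw [Pi.smul_apply, Algebra.smul_def]
  rw [hcomp]
  by_cases hv : ∃ i, P i = v
  · obtain ⟨i, rfl⟩ := hv
    rw [Finset.sum_eq_single i]
    · rw [sgl_apply_self]
      have e : (α : Place K F → F) (P i) - algebraMap K F (c i) * (t i)⁻¹
          = (t i)⁻¹ * (t i * (α : Place K F → F) (P i) - algebraMap K F (c i)) := by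
        field_simp [ht0 i]
      rw [e]
      rcases hc i with h | h
      · left
        rw [h, sub_self, mul_zero]
      · right
        have hne : t i * (α : Place K F → F) (P i) - algebraMap K F (c i) ≠ 0 := by
          intro h0
          rw [h0, Place.ord_zero] at h
          exact lt_irrefl _ h
        rw [(P i).ord_mul (inv_ne_zero (ht0 i)) hne, Place.ord_inv, ht i]
        simp only [Finsupp.coe_zero, Pi.zero_apply]
        omega
    · intro j _ hji
      rw [sgl_apply_of_ne (fun h => hji (hP h).symm), mul_zero]
    · intro h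
      exact absurd (Finset.mem_univ i) h
  · push Not at hv
    rw [Finset.sum_eq_zero, sub_zero]
    · rcases hα' v with h0 | h
      · exact Or.inl h0
      · right
        rw [redDiv_apply_of_not_mem hv] at h
        simpa using h
    · intro j _
      rw [sgl_apply_of_ne (fun h => hv j h.symm), mul_zero]

/-- **Spanning**: if `A(P_1 + … + P_n) + F` is everything, the classes of the simple principal parts
`t_i⁻¹ @ P_i` span `H¹(0)`. -/
theorem span_sgl_eq_top (HL : LHyp K F) {n : ℕ} {P : Fin n → Place K F}
    (hP : Function.Injective P) {t : Fin n → F} (ht : ∀ i, (P i).ord (t i) = 1)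
    (htop : repartitionsOf (redDiv P) ⊔ principalRepartitions K F = ⊤) :
    Submodule.span K (Set.range fun i : Fin n =>
      (Submodule.Quotient.mk (sgl (P i) (t i)⁻¹) : H1 (0 : Divisor K F))) = ⊤ := by
  rw [eq_top_iff]
  intro z _
  obtain ⟨α, rfl⟩ := Submodule.Quotient.mk_surjective _ z
  have hmem : α ∈ repartitionsOf (redDiv P) ⊔ principalRepartitions K F := by
    rw [htop]; trivial
  obtain ⟨a, ha, f, hf, rfl⟩ := Submodule.mem_sup.mp hmem
  obtain ⟨c, hc⟩ := exists_sub_mem_repartitionsOf_zero HL hP ht ha
  have e : (Submodule.Quotient.mk (a + f) : H1 (0 : Divisor K F))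
      = ∑ i, c i • (Submodule.Quotient.mk (sgl (P i) (t i)⁻¹) : H1 (0 : Divisor K F)) := by
    have h1 : a + f = (∑ i, c i • sgl (P i) (t i)⁻¹) + ((a - ∑ i, c i • sgl (P i) (t i)⁻¹) + f) := by
      abel
    rw [h1, Submodule.Quotient.mk_add]
    have h2 : (Submodule.Quotient.mk ((a - ∑ i, c i • sgl (P i) (t i)⁻¹) + f) :
        H1 (0 : Divisor K F)) = 0 := by
      rw [Submodule.Quotient.mk_eq_zero]
      exact Submodule.add_mem_sup hc hf
    rw [h2, add_zero]
    show (repartitionsOf (0 : Divisor K F) ⊔ principalRepartitions K F).mkQ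
        (∑ i, c i • sgl (P i) (t i)⁻¹) = _
    rw [map_sum]
    apply Finset.sum_congr rfl
    intro i _
    rw [map_smul]
    rfl
  rw [e]
  apply Submodule.sum_mem
  intro i _
  apply Submodule.smul_mem
  exact Submodule.subset_span ⟨i, rfl⟩

end Fermat.Agent.ES.V19.OnePlaceRep9

end
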