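/-
Programme V (S19), chapter B2 (curve theory on the special fibre, characteristic-free), helper9:
**a non-special reduced divisor `E₀ = Q_1 + … + Q_g` of distinct points**.

`K F` arbitrary fields (no `CharZero`, no `IsAlgClosed`), with the two hypotheses of helper8's lite chapter
(`ES/V19/{AdelesL8, H1FiniteL8, H1LargeL8}`): `HL : LSpace.LHyp K F` and Riemann's inequality `hR`
(NO `FF1Data`); and infinitely many places.

* `exists_nonspecial` : there are `g = genusFF K F` DISTINCT places `Q_i` with `H¹(Q_1 + … + Q_g) = 0`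
  (no duality, no differentials: `H¹(0)` is spanned by the simple principal parts at the points of a reduced
  divisor of large degree; pick a basis among them); `exists_nonspecial_mem` / `exists_nonspecial_not_mem` : the
  `Q_i` may be chosen inside any infinite set of places / outside any finite set of places;
for such `Q` (`E₀ = redDiv Q`):
* `finrank_L_redDiv` : `l(E₀) = 1`;
* `finrank_H1_nsmul`, `finrank_L_nsmul` : `h¹(m E₀) = 0` and `l(m E₀) = m g + 1 - g` for `m ≥ 1`;
* `linearIndependent_sgl`, `span_sgl` : for ANY uniformisers `t_i` at the `Q_i`, the classes of the simple principal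
  parts `t_i⁻¹ @ Q_i` are a basis of `H¹(0)` (`= H¹(X̄, 𝒪)`).
* `infinite_place` : `F / K` has infinitely many places if `K` is infinite and `F` has a transcendental element
  (from `LHyp` alone: a function without zeros is constant).
-/
import Mathlib
import Fermat.Prelude.Def_AlgebraicCurve_Repartitions
import Fermat.Agent.RR.H1Large
import Fermat.Agent.ES.V19.H1LargeL8
import Fermat.Agent.ES.V19.OnePlaceRep9

set_option autoImplicit false

open AlgebraicCurve

noncomputable section

namespace Fermat.Agent.ES.V19.NonSpecial9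

open Fermat.Agent.X0.FF Fermat.Agent.RR Fermat.Agent.RR.LSpace Fermat.Agent.RR.Repart
  Fermat.Agent.ES.V19.H1FiniteL8 Fermat.Agent.ES.V19.H1LargeL8 Fermat.Agent.ES.V19.OnePlaceRep9

variable {K F : Type*} [Field K] [Field F] [Algebra K F]

/-- a uniformiser at every place. -/
theorem exists_unif (v : Place K F) : ∃ t : F, v.ord t = 1 := by
  obtain ⟨π, hπ⟩ := ffp_exists_irreducible v
  exact ⟨(π : F), v.ord_coe_irreducible hπ⟩

section Main

variable (HL : LHyp K F)
  (hR : ∃ γ : ℤ, ∀ D : Divisor K F,
    Divisor.degree D + 1 - γ ≤ (Module.finrank K (riemannRochSpace D) : ℤ))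

include HL hR

/-- `H¹(D) = 0` means `A(D) + F` is everything. -/
theorem sup_eq_top_of_finrank_H1_eq_zero {D : Divisor K F}
    (h : Module.finrank K (H1 D) = 0) :
    repartitionsOf D ⊔ principalRepartitions K F = ⊤ := by
  have hfin : Module.Finite K (H1 D) := finite_H1 HL hR D
  have hsub : Subsingleton (H1 D) := Module.finrank_zero_iff.mp h
  exact Submodule.Quotient.subsingleton_iff.mp hsub

omit HL hR in
/-- if the classes of the elements of `A(D)` span `H¹(0)` then `H¹(D) = 0` (`0 ≤ D`). -/
theorem finrank_H1_eq_zero_of_span {D : Divisor K F} (hD : 0 ≤ D) {ι : Type*}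
    (a : ι → ↥(repartitions K F)) (ha : ∀ i, a i ∈ repartitionsOf D)
    (hspan : Submodule.span K (Set.range fun i =>
      (Submodule.Quotient.mk (a i) : H1 (0 : Divisor K F))) = ⊤) :
    Module.finrank K (H1 D) = 0 := by
  have hker : LinearMap.ker (h1Map hD) = ⊤ := by
    rw [eq_top_iff, ← hspan, Submodule.span_le]
    rintro _ ⟨i, rfl⟩
    rw [SetLike.mem_coe, LinearMap.mem_ker, h1Map_mk, Submodule.Quotient.mk_eq_zero]
    exact Submodule.mem_sup_left (ha i)
  have hsub : Subsingleton (H1 D) := by
    refine ⟨fun x y => ?_⟩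
    obtain ⟨x', rfl⟩ := h1Map_surjective hD x
    obtain ⟨y', rfl⟩ := h1Map_surjective hD y
    have hx : x' ∈ LinearMap.ker (h1Map hD) := by rw [hker]; trivial
    have hy : y' ∈ LinearMap.ker (h1Map hD) := by rw [hker]; trivial
    rw [LinearMap.mem_ker.mp hx, LinearMap.mem_ker.mp hy]
  exact Module.finrank_zero_of_subsingleton

/-- **A non-special reduced divisor of `g` distinct points, chosen inside any infinite set `T` of places.** -/
theorem exists_nonspecial_mem {T : Set (Place K F)} (hT : T.Infinite) :
    ∃ Q : Fin (genusFF K F) → Place K F, Function.Injective Q ∧ (∀ i, Q i ∈ T) ∧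
      Module.finrank K (H1 (redDiv Q)) = 0 := by
  classical
  obtain ⟨c, hc⟩ := exists_forall_degree_ge_finrank_H1_eq_zero HL hR
  -- `N` distinct places of `T`, `N ≥ c`
  set N : ℕ := c.toNat with hN
  let P : Fin N → Place K F := fun i => ((hT.natEmbedding T (i : ℕ) : ↥T) : Place K F)
  have hPT : ∀ i, P i ∈ T := fun i => (hT.natEmbedding T (i : ℕ)).2
  have hP : Function.Injective P := fun i j h =>
    Fin.val_injective ((hT.natEmbedding T).injective (Subtype.ext h))
  have hdeg : c ≤ Divisor.degree (redDiv P) := by
    rw [degree_redDiv HL]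
    exact Int.self_le_toNat c
  have htop := sup_eq_top_of_finrank_H1_eq_zero HL hR (hc _ hdeg)
  choose t ht using fun i => exists_unif (P i)
  -- the simple principal parts span `H¹(0)`
  set e : Fin N → H1 (0 : Divisor K F) := fun i => Submodule.Quotient.mk (sgl (P i) (t i)⁻¹) with he
  have hspan : Submodule.span K (Set.range e) = ⊤ := span_sgl_eq_top HL hP ht htop
  -- a basis among them
  obtain ⟨b, hb, hbspan, hbli⟩ := exists_linearIndependent K (Set.range e)
  have hbtop : Submodule.span K b = ⊤ := by rw [hbspan, hspan]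
  have hfinH : Module.Finite K (H1 (0 : Divisor K F)) := finite_H1 HL hR 0
  have hbfin : b.Finite := (Set.finite_range e).subset hb
  have : Fintype ↥b := hbfin.fintype
  have hspan' : ⊤ ≤ Submodule.span K (Set.range ((↑) : ↥b → H1 (0 : Divisor K F))) := by
    rw [Subtype.range_coe_subtype, Set.ofPred_mem_eq, hbtop]
  let B : Module.Basis ↥b K (H1 (0 : Divisor K F)) := Module.Basis.mk hbli hspan'
  have hcard : Fintype.card ↥b = genusFF K F := (Module.finrank_eq_card_basis B).symm
  -- indices
  have hidx : ∀ x : ↥b, ∃ i : Fin N, e i = x := fun x => hb x.2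
  choose f hf using hidx
  have hfinj : Function.Injective f := fun x y h => by
    apply Subtype.ext
    rw [← hf x, ← hf y, h]
  let eqv : Fin (genusFF K F) ≃ ↥b := (Fintype.equivFinOfCardEq hcard).symm
  have hQinj : Function.Injective fun i => P (f (eqv i)) := hP.comp (hfinj.comp eqv.injective)
  refine ⟨fun i => P (f (eqv i)), hQinj, fun i => hPT _, ?_⟩
  apply finrank_H1_eq_zero_of_span (redDiv_nonneg _)
    (fun i => sgl (P (f (eqv i))) (t (f (eqv i)))⁻¹)
  · intro i
    exact sgl_inv_mem (le_of_eq (redDiv_apply_self hQinj i).symm) (ht _)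
  · rw [eq_top_iff, ← hbtop, Submodule.span_le]
    intro x hx
    apply Submodule.subset_span
    refine ⟨eqv.symm ⟨x, hx⟩, ?_⟩
    show e (f (eqv (eqv.symm ⟨x, hx⟩))) = x
    rw [Equiv.apply_symm_apply, hf]

/-- **A non-special reduced divisor of `g` distinct points avoiding a given finite set of places.** -/
theorem exists_nonspecial_not_mem [Infinite (Place K F)] {S : Set (Place K F)} (hS : S.Finite) :
    ∃ Q : Fin (genusFF K F) → Place K F, Function.Injective Q ∧ (∀ i, Q i ∉ S) ∧
      Module.finrank K (H1 (redDiv Q)) = 0 :=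
  exists_nonspecial_mem HL hR hS.infinite_compl

/-- **A non-special reduced divisor of `g` distinct points.** -/
theorem exists_nonspecial [Infinite (Place K F)] :
    ∃ Q : Fin (genusFF K F) → Place K F, Function.Injective Q ∧
      Module.finrank K (H1 (redDiv Q)) = 0 := by
  obtain ⟨Q, h1, _, h3⟩ := exists_nonspecial_mem HL hR (Set.infinite_univ (α := Place K F))
  exact ⟨Q, h1, h3⟩

variable {Q : Fin (genusFF K F) → Place K F} (hQ : Function.Injective Q)
  (h0 : Module.finrank K (H1 (redDiv Q)) = 0)

include hQ h0

omit hQ in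
/-- `l(E₀) = 1`. -/
theorem finrank_L_redDiv : Module.finrank K (riemannRochSpace (redDiv Q)) = 1 := by
  have h := finrank_L_sub_finrank_H1 HL hR (redDiv Q)
  rw [h0, degree_redDiv HL] at h
  have : (Module.finrank K (riemannRochSpace (redDiv Q)) : ℤ) = 1 := by
    push_cast at h
    linarith
  exact_mod_cast this

omit hQ in
/-- `h¹(m E₀) = 0` for `m ≥ 1`. -/
theorem finrank_H1_nsmul {m : ℕ} (hm : 1 ≤ m) : Module.finrank K (H1 (m • redDiv Q)) = 0 := by
  have hle : redDiv Q ≤ m • redDiv Q := by
    intro v
    have h1 := redDiv_nonneg Q v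
    simp only [Finsupp.coe_zero, Pi.zero_apply] at h1
    rw [Finsupp.smul_apply, nsmul_eq_mul]
    have : (1 : ℤ) ≤ (m : ℤ) := by exact_mod_cast hm
    nlinarith
  have hsub0 : Subsingleton (H1 (redDiv Q)) := by
    have hfin : Module.Finite K (H1 (redDiv Q)) := finite_H1 HL hR _
    exact Module.finrank_zero_iff.mp h0
  have hsub : Subsingleton (H1 (m • redDiv Q)) := by
    refine ⟨fun x y => ?_⟩
    obtain ⟨x', rfl⟩ := h1Map_surjective hle x
    obtain ⟨y', rfl⟩ := h1Map_surjective hle y
    rw [Subsingleton.elim x' y']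
  exact Module.finrank_zero_of_subsingleton

omit hQ in
/-- `l(m E₀) = m g + 1 - g` for `m ≥ 1`. -/
theorem finrank_L_nsmul {m : ℕ} (hm : 1 ≤ m) :
    (Module.finrank K (riemannRochSpace (m • redDiv Q)) : ℤ)
      = m * (genusFF K F : ℤ) + 1 - (genusFF K F : ℤ) := by
  have h := finrank_L_sub_finrank_H1 HL hR (m • redDiv Q)
  rw [finrank_H1_nsmul HL hR h0 hm, map_nsmul, degree_redDiv HL] at h
  rw [nsmul_eq_mul] at h
  push_cast at h
  linarith

/-- for ANY uniformisers, the simple principal parts at the `Q_i` span `H¹(0)`. -/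
theorem span_sgl {t : Fin (genusFF K F) → F} (ht : ∀ i, (Q i).ord (t i) = 1) :
    Submodule.span K (Set.range fun i : Fin (genusFF K F) =>
      (Submodule.Quotient.mk (sgl (Q i) (t i)⁻¹) : H1 (0 : Divisor K F))) = ⊤ :=
  span_sgl_eq_top HL hQ ht (sup_eq_top_of_finrank_H1_eq_zero HL hR h0)

/-- for ANY uniformisers, the simple principal parts at the `Q_i` are linearly independent in `H¹(0)`:
with `span_sgl`, a BASIS of `H¹(0)`. -/
theorem linearIndependent_sgl {t : Fin (genusFF K F) → F} (ht : ∀ i, (Q i).ord (t i) = 1) :
    LinearIndependent K fun i : Fin (genusFF K F) =>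
      (Submodule.Quotient.mk (sgl (Q i) (t i)⁻¹) : H1 (0 : Divisor K F)) := by
  have hfinH : Module.Finite K (H1 (0 : Divisor K F)) := finite_H1 HL hR 0
  apply linearIndependent_of_top_le_span_of_card_eq_finrank
  · rw [span_sgl HL hR hQ h0 ht]
  · rw [Fintype.card_fin]
    rfl

end Main

/-- a non-constant function has a zero (from `LHyp` alone). -/
theorem exists_zero_of_transcendental (HL : LHyp K F) {g : F} (hg : Transcendental K g) :
    ∃ v : Place K F, 0 < v.ord g := by
  by_contra hcon
  push Not at hcon
  have hnn : ∀ v : Place K F, 0 ≤ v.ord g⁻¹ := fun v => by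
    rw [Place.ord_inv]
    have := hcon v
    omega
  obtain ⟨c, hc⟩ := eq_algebraMap_of_forall_ord_nonneg HL hnn
  apply hg
  have h2 : IsAlgebraic K (algebraMap K F c) := isAlgebraic_algebraMap c
  rw [← hc] at h2
  have h3 := h2.inv
  rwa [inv_inv] at h3

/-- `F / K` has infinitely many places as soon as `K` is infinite and `F ≠ K`-algebraic. -/
theorem infinite_place (HL : LHyp K F) [Infinite K] {x : F} (hx : Transcendental K x) :
    Infinite (Place K F) := by
  -- a zero of `x - c` for every `c`
  have hex : ∀ c : K, ∃ v : Place K F, 0 < v.ord (x - algebraMap K F c) := by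
    intro c
    apply exists_zero_of_transcendental HL
    intro halg
    apply hx
    have h2 : IsAlgebraic K (algebraMap K F c) := isAlgebraic_algebraMap c
    have := halg.add h2
    rwa [sub_add_cancel] at this
  choose z hz using hex
  have hinj : Function.Injective z := by
    intro c c' h
    by_contra hne
    have h1 := hz c
    have h2 := hz c'
    rw [h] at h1
    -- `c' - c` is a non-zero constant with positive order
    have e : algebraMap K F (c' - c) = (x - algebraMap K F c) + -(x - algebraMap K F c') := by
      rw [map_sub]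
      ring
    have hne0 : algebraMap K F (c' - c) ≠ 0 := by
      rw [Ne, map_eq_zero, sub_eq_zero]
      exact fun h => hne h.symm
    have hord : 1 ≤ (z c').ord (algebraMap K F (c' - c)) := by
      rw [e]
      apply ffp_le_ord_add
      · omega
      · rw [ffp_ord_neg]
        omega
      · rw [← e]
        exact hne0
    rw [ffp_ord_algebraMap] at hord
    omega
  exact Infinite.of_injective z hinj

end Fermat.Agent.ES.V19.NonSpecial9

end
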