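/-
Programme V (S19), chapters B2 / B4' (helper9): **prescribed polar parts at a non-special reduced divisor**.

`K F` arbitrary fields (generic fibre over `Q̄` or special fibre over `k̄`), `HL : LSpace.LHyp K F`, Riemann's
inequality `hR`, `Q : Fin g → Place K F` injective (`g = genusFF K F`) with `H¹(E₀) = 0`, `E₀ = redDiv Q`
(equivalently `l(E₀) = 1`: `finrank_H1_redDiv_of_finrank_L`), `t i` a uniformiser at `Q i`,
`ex i = ExpandPlace9.expandF _ (ht i) : F →+* LaurentSeries K` the Laurent expansion at `Q i`.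

* `finrank_H1_eq_zero_of_le`, `finrank_L_of_le` : `h¹(D) = 0` and `l(D) = deg D + 1 - g` for every `D ≥ E₀`;
* `eq_algebraMap_of_mem_L_redDiv` : `L(E₀) = K`;
* `exists_decomp` : every repartition `α` is `f + (integral repartition) + ∑ c_i • (t_i⁻¹ @ Q_i)`;
* `exists_polar` : for ANY family of Laurent tails `x i` there is `f` with poles only at the `Q i` whose Laurent
  expansion at `Q i` has the polar part of `x i`, up to the coefficient of `X⁻¹`
  (the polar-part map `L(∞E₀) → ⊕_i K⸨X⸩ / X⁻¹ K⟦X⟧` is ONTO);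
* `eq_algebraMap_of_coeff` : its kernel is `K` (a function with poles only at the `Q i`, of order `≤ 1`, is constant);
* `exists_polar_single` : the functions `bb_{i,n}` (`n ≥ 2`) with polar parts `δ_{li} X⁻ⁿ + cc_l X⁻¹`, in `L(n • E₀)`;
* `mem_L_nsmul_of_coeff` : pole orders are read off the Laurent expansions.
-/
import Mathlib
import Fermat.Prelude.Def_AlgebraicCurve_Repartitions
import Fermat.Agent.ES.V19.NonSpecial9
import Fermat.Agent.ES.V19.ExpandPlace9

set_option autoImplicit false

open AlgebraicCurve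

noncomputable section

namespace Fermat.Agent.ES.V19.PolarParts9

open Fermat.Agent.X0.FF Fermat.Agent.RR Fermat.Agent.RR.LSpace Fermat.Agent.RR.Repart
  Fermat.Agent.ES.V19.H1FiniteL8 Fermat.Agent.ES.V19.H1LargeL8 Fermat.Agent.ES.V19.OnePlaceRep9
  Fermat.Agent.ES.V19.NonSpecial9 Fermat.Agent.ES.V19.ExpandPlace9

variable {K F : Type*} [Field K] [Field F] [Algebra K F]

/-- components of `α - ∑ c_i • (u_i @ P_i)`. -/
theorem coe_sub_sum_smul_sgl {n : ℕ} (α : ↥(repartitions K F)) (c : Fin n → K) (P : Fin n → Place K F)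
    (u : Fin n → F) (v : Place K F) :
    ((α - ∑ i, c i • sgl (P i) (u i) : ↥(repartitions K F)) : Place K F → F) v
      = (α : Place K F → F) v
        - ∑ i, algebraMap K F (c i) * ((sgl (P i) (u i) : ↥(repartitions K F)) : Place K F → F) v := by
  have h1 : ((α - ∑ i, c i • sgl (P i) (u i) : ↥(repartitions K F)) : Place K F → F)
      = (α : Place K F → F) - ∑ i, c i • ((sgl (P i) (u i) : ↥(repartitions K F)) : Place K F → F) := by
    push_cast
    rfl
  rw [h1, Pi.sub_apply, Finset.sum_apply]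
  congr 1
  apply Finset.sum_congr rfl
  intro i _
  rw [Pi.smul_apply, Algebra.smul_def]

/-- components of `∑ (u_i @ P_i)` at `P_j`. -/
theorem coe_sum_sgl_apply_self {n : ℕ} {P : Fin n → Place K F} (hP : Function.Injective P)
    (u : Fin n → F) (j : Fin n) :
    ((∑ i, sgl (P i) (u i) : ↥(repartitions K F)) : Place K F → F) (P j) = u j := by
  have h1 : ((∑ i, sgl (P i) (u i) : ↥(repartitions K F)) : Place K F → F)
      = ∑ i, ((sgl (P i) (u i) : ↥(repartitions K F)) : Place K F → F) := by
    push_cast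
    rfl
  rw [h1, Finset.sum_apply, Finset.sum_eq_single j]
  · exact sgl_apply_self _ _
  · intro i _ hij
    exact sgl_apply_of_ne (fun h => hij (hP h).symm) _
  · intro h
    exact absurd (Finset.mem_univ j) h

/-- components of `∑ (u_i @ P_i)` away from the `P_i`. -/
theorem coe_sum_sgl_apply_of_ne {n : ℕ} {P : Fin n → Place K F} (u : Fin n → F) {v : Place K F}
    (hv : ∀ i, P i ≠ v) :
    ((∑ i, sgl (P i) (u i) : ↥(repartitions K F)) : Place K F → F) v = 0 := by
  have h1 : ((∑ i, sgl (P i) (u i) : ↥(repartitions K F)) : Place K F → F)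
      = ∑ i, ((sgl (P i) (u i) : ↥(repartitions K F)) : Place K F → F) := by
    push_cast
    rfl
  rw [h1, Finset.sum_apply]
  apply Finset.sum_eq_zero
  intro i _
  exact sgl_apply_of_ne (fun h => hv i h.symm) _

section Main

variable (HL : LHyp K F)
  (hR : ∃ γ : ℤ, ∀ D : Divisor K F,
    Divisor.degree D + 1 - γ ≤ (Module.finrank K (riemannRochSpace D) : ℤ))

include HL hR

/-- `l(E₀) = 1` (with `deg E₀ = g`) forces `h¹(E₀) = 0`. -/
theorem finrank_H1_redDiv_of_finrank_L {Q : Fin (genusFF K F) → Place K F}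
    (hl : Module.finrank K (riemannRochSpace (redDiv Q)) = 1) :
    Module.finrank K (H1 (redDiv Q)) = 0 := by
  have h := finrank_L_sub_finrank_H1 HL hR (redDiv Q)
  rw [hl, degree_redDiv HL] at h
  have : (Module.finrank K (H1 (redDiv Q)) : ℤ) = 0 := by
    push_cast at h
    linarith
  exact_mod_cast this

variable {Q : Fin (genusFF K F) → Place K F}
  (h0 : Module.finrank K (H1 (redDiv Q)) = 0)

include h0

/-- `h¹(D) = 0` for every `D ≥ E₀`. -/
theorem finrank_H1_eq_zero_of_le {D : Divisor K F} (hle : redDiv Q ≤ D) :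
    Module.finrank K (H1 D) = 0 := by
  have hsub0 : Subsingleton (H1 (redDiv Q)) := by
    have hfin : Module.Finite K (H1 (redDiv Q)) := finite_H1 HL hR _
    exact Module.finrank_zero_iff.mp h0
  have hsub : Subsingleton (H1 D) := by
    refine ⟨fun x y => ?_⟩
    obtain ⟨x', rfl⟩ := h1Map_surjective hle x
    obtain ⟨y', rfl⟩ := h1Map_surjective hle y
    rw [Subsingleton.elim x' y']
  exact Module.finrank_zero_of_subsingleton

/-- `l(D) = deg D + 1 - g` for every `D ≥ E₀`. -/
theorem finrank_L_of_le {D : Divisor K F} (hle : redDiv Q ≤ D) :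
    (Module.finrank K (riemannRochSpace D) : ℤ) = Divisor.degree D + 1 - (genusFF K F : ℤ) := by
  have h := finrank_L_sub_finrank_H1 HL hR D
  rw [finrank_H1_eq_zero_of_le HL hR h0 hle] at h
  push_cast at h
  linarith

/-- `L(E₀) = K`. -/
theorem eq_algebraMap_of_mem_L_redDiv {f : F} (hf : f ∈ riemannRochSpace (redDiv Q)) :
    ∃ ξ : K, f = algebraMap K F ξ := by
  have h1 : Module.finrank K (riemannRochSpace (redDiv Q)) = 1 :=
    finrank_L_redDiv HL hR h0
  have hone : (1 : F) ∈ riemannRochSpace (redDiv Q) := by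
    rw [mem_riemannRochSpace_iff]
    intro v
    right
    rw [Place.ord_one]
    have := redDiv_nonneg Q v
    simp only [Finsupp.coe_zero, Pi.zero_apply] at this
    omega
  have hne : (⟨1, hone⟩ : ↥(riemannRochSpace (redDiv Q))) ≠ 0 := by
    intro h
    exact one_ne_zero (congrArg Subtype.val h)
  obtain ⟨ξ, hξ⟩ := (finrank_eq_one_iff_of_nonzero' _ hne).mp h1 ⟨f, hf⟩
  refine ⟨ξ, ?_⟩
  have := congrArg Subtype.val hξ
  simp only [Submodule.coe_smul] at this
  rw [← this, Algebra.smul_def, mul_one]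

variable (hQ : Function.Injective Q) {t : Fin (genusFF K F) → F} (ht : ∀ i, (Q i).ord (t i) = 1)

include hQ ht

/-- **Decomposition of a repartition**: `α = f + (integral) + ∑ c_i • (t_i⁻¹ @ Q_i)`. -/
theorem exists_decomp (α : ↥(repartitions K F)) :
    ∃ (f : F) (c : Fin (genusFF K F) → K),
      (∀ i, (α : Place K F → F) (Q i) - f - algebraMap K F (c i) * (t i)⁻¹
        ∈ (Q i).toValuationSubring) ∧
      (∀ v : Place K F, (∀ i, Q i ≠ v) → (α : Place K F → F) v - f ∈ v.toValuationSubring) := by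
  have hspan := span_sgl HL hR hQ h0 ht
  have hmem : (Submodule.Quotient.mk α : H1 (0 : Divisor K F)) ∈
      Submodule.span K (Set.range fun i : Fin (genusFF K F) =>
        (Submodule.Quotient.mk (sgl (Q i) (t i)⁻¹) : H1 (0 : Divisor K F))) := by
    rw [hspan]
    trivial
  obtain ⟨c, hc⟩ := (Submodule.mem_span_range_iff_exists_fun K).mp hmem
  -- `α - ∑ c_i • sgl_i ∈ A(0) + F`
  have hzero : (Submodule.Quotient.mk (α - ∑ i, c i • sgl (Q i) (t i)⁻¹) : H1 (0 : Divisor K F)) = 0 := by
    rw [Submodule.Quotient.mk_sub, ← hc, sub_eq_zero]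
    show _ = (repartitionsOf (0 : Divisor K F) ⊔ principalRepartitions K F).mkQ
        (∑ i, c i • sgl (Q i) (t i)⁻¹)
    rw [map_sum]
    apply Finset.sum_congr rfl
    intro i _
    rw [map_smul]
    rfl
  rw [Submodule.Quotient.mk_eq_zero] at hzero
  obtain ⟨a₀, ha₀, φ, hφ, hsum⟩ := Submodule.mem_sup.mp hzero
  obtain ⟨f, hf⟩ := mem_principalRepartitions_iff.mp hφ
  have ha₀' := mem_repartitionsOf_iff.mp ha₀
  have ha₀mem : ∀ v : Place K F, (a₀ : Place K F → F) v ∈ v.toValuationSubring := by
    intro v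
    rcases ha₀' v with h | h
    · rw [h]
      exact zero_mem _
    · apply ffp_mem_of_ord_nonneg
      simpa using h
  -- componentwise
  have hcomp : ∀ v : Place K F, (a₀ : Place K F → F) v + f
      = (α : Place K F → F) v
        - ∑ i, algebraMap K F (c i) * ((sgl (Q i) (t i)⁻¹ : ↥(repartitions K F)) : Place K F → F) v := by
    intro v
    rw [← coe_sub_sum_smul_sgl, ← hsum]
    have : ((a₀ + φ : ↥(repartitions K F)) : Place K F → F) = (a₀ : Place K F → F) + (φ : Place K F → F) := by
      push_cast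
      rfl
    rw [this, Pi.add_apply, hf]
  refine ⟨f, c, ?_, ?_⟩
  · intro j
    have h1 := hcomp (Q j)
    rw [Finset.sum_eq_single j] at h1
    · rw [sgl_apply_self] at h1
      have : (α : Place K F → F) (Q j) - f - algebraMap K F (c j) * (t j)⁻¹
          = (a₀ : Place K F → F) (Q j) := by
        linear_combination -h1
      rw [this]
      exact ha₀mem _
    · intro i _ hij
      rw [sgl_apply_of_ne (fun h => hij (hQ h).symm), mul_zero]
    · intro h
      exact absurd (Finset.mem_univ j) h
  · intro v hv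
    have h1 := hcomp v
    rw [Finset.sum_eq_zero, sub_zero] at h1
    · have : (α : Place K F → F) v - f = (a₀ : Place K F → F) v := by
        linear_combination -h1
      rw [this]
      exact ha₀mem _
    · intro i _
      rw [sgl_apply_of_ne (fun h => hv i h.symm), mul_zero]

end Main

/-! ### Laurent tails realised by functions -/

/-- the Laurent polynomial `∑_{k < 0} y_k t^k ∈ F` attached to a Laurent series `y`. -/
def polarF (t : F) (y : LaurentSeries K) : F :=
  ∑ k ∈ Finset.Ico y.order 0, algebraMap K F (y.coeff k) * t ^ k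

theorem coeff_expandF_polarF {v : Place K F} (hres : ResK v) {t : F} (ht : v.ord t = 1)
    (y : LaurentSeries K) {j : ℤ} (hj : j < 0) :
    (expandF hres ht (polarF t y)).coeff j = y.coeff j := by
  unfold polarF
  rw [map_sum, HahnSeries.coeff_sum]
  have hterm : ∀ k : ℤ, (expandF hres ht (algebraMap K F (y.coeff k) * t ^ k)).coeff j
      = if j = k then y.coeff k else 0 := by
    intro k
    rw [map_mul, expandF_algebraMap, expandF_unif_zpow, HahnSeries.C_mul_eq_smul, HahnSeries.coeff_smul,
      HahnSeries.coeff_single, smul_eq_mul]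
    split_ifs <;> simp
  simp only [hterm]
  by_cases hmem : j ∈ Finset.Ico y.order 0
  · rw [Finset.sum_eq_single j]
    · rw [if_pos rfl]
    · intro k _ hkj
      rw [if_neg (Ne.symm hkj)]
    · intro h
      exact absurd hmem h
  · rw [Finset.sum_eq_zero]
    · have hlt : j < y.order := by
        rw [Finset.mem_Ico] at hmem
        by_contra hge
        exact hmem ⟨not_lt.mp hge, hj⟩
      exact (HahnSeries.coeff_eq_zero_of_lt_order hlt).symm
    · intro k hk
      rw [if_neg]
      rintro rfl
      exact hmem hk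

section Laurent

variable (HL : LHyp K F)
  (hR : ∃ γ : ℤ, ∀ D : Divisor K F,
    Divisor.degree D + 1 - γ ≤ (Module.finrank K (riemannRochSpace D) : ℤ))
  {Q : Fin (genusFF K F) → Place K F}
  (h0 : Module.finrank K (H1 (redDiv Q)) = 0)
  (hQ : Function.Injective Q) {t : Fin (genusFF K F) → F} (ht : ∀ i, (Q i).ord (t i) = 1)

include HL hR h0 hQ ht

/-- **Prescribed polar parts** (the polar-part map is onto, modulo the `X⁻¹`-coefficients). -/
theorem exists_polar (x : Fin (genusFF K F) → LaurentSeries K) :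
    ∃ f : F, (∀ v : Place K F, (∀ i, Q i ≠ v) → f ∈ v.toValuationSubring) ∧
      ∃ s : Fin (genusFF K F) → K, ∀ i, ∀ k : ℤ, k < 0 →
        (expandF (HL.residue (Q i)) (ht i) f).coeff k
          = (x i).coeff k - (if k = -1 then s i else 0) := by
  set α : ↥(repartitions K F) := ∑ i, sgl (Q i) (polarF (t i) (x i)) with hα
  obtain ⟨f, c, h1, h2⟩ := exists_decomp HL hR h0 hQ ht α
  refine ⟨f, ?_, c, ?_⟩
  · intro v hv
    have := h2 v hv
    rw [hα, coe_sum_sgl_apply_of_ne _ hv, zero_sub] at this
    have h3 := neg_mem this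
    rwa [neg_neg] at h3
  · intro i k hk
    have h3 := h1 i
    rw [hα, coe_sum_sgl_apply_self hQ] at h3
    set a : F := polarF (t i) (x i) - f - algebraMap K F (c i) * (t i)⁻¹ with ha
    have hf : f = polarF (t i) (x i) - algebraMap K F (c i) * (t i)⁻¹ - a := by
      rw [ha]
      ring
    rw [hf, map_sub, map_sub, map_mul, expandF_algebraMap, expandF_unif_inv, HahnSeries.coeff_sub,
      HahnSeries.coeff_sub, coeff_expandF_polarF _ _ _ hk, HahnSeries.C_mul_eq_smul, HahnSeries.coeff_smul,
      HahnSeries.coeff_single, smul_eq_mul,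
      coeff_expandF_of_lt (HL.residue (Q i)) (ht i)
        (Or.inr (ffp_ord_nonneg_of_mem (Q i) h3) : a = 0 ∨ (0 : ℤ) ≤ (Q i).ord a) hk, sub_zero]
    split_ifs <;> simp

omit hR h0 in
/-- pole orders are read off the Laurent expansions: `f ∈ L(n • E₀)`. -/
theorem mem_L_nsmul_of_coeff {f : F} (hf : ∀ v : Place K F, (∀ i, Q i ≠ v) → f ∈ v.toValuationSubring)
    {n : ℕ} (hc : ∀ i, ∀ k : ℤ, k < -(n : ℤ) → (expandF (HL.residue (Q i)) (ht i) f).coeff k = 0) :
    f ∈ riemannRochSpace (n • redDiv Q) := by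
  rw [mem_riemannRochSpace_iff]
  intro v
  by_cases hv : ∃ i, Q i = v
  · obtain ⟨i, rfl⟩ := hv
    rw [Finsupp.smul_apply, redDiv_apply_self hQ i, nsmul_eq_mul, mul_one]
    exact le_ord_of_coeff_expandF (HL.residue (Q i)) (ht i) (hc i)
  · push Not at hv
    rw [Finsupp.smul_apply, redDiv_apply_of_not_mem hv, smul_zero, neg_zero]
    by_cases hf0 : f = 0
    · exact Or.inl hf0
    · exact Or.inr (ffp_ord_nonneg_of_mem v (hf v hv))

/-- **The kernel of the polar-part map is `K`**: a function with poles only at the `Q i`, of order `≤ 1`, is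
constant. -/
theorem eq_algebraMap_of_coeff {f : F}
    (hf : ∀ v : Place K F, (∀ i, Q i ≠ v) → f ∈ v.toValuationSubring)
    (hc : ∀ i, ∀ k : ℤ, k < -1 → (expandF (HL.residue (Q i)) (ht i) f).coeff k = 0) :
    ∃ ξ : K, f = algebraMap K F ξ := by
  apply eq_algebraMap_of_mem_L_redDiv HL hR h0
  have := mem_L_nsmul_of_coeff HL hQ ht hf (n := 1) (by simpa using hc)
  rwa [one_smul] at this

/-- **The functions `bb_{i,n}`**: polar parts `δ_{li} X⁻ⁿ + cc_l X⁻¹`. -/
theorem exists_polar_single (i₀ : Fin (genusFF K F)) {n : ℕ} (hn : 2 ≤ n) :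
    ∃ f : F, f ∈ riemannRochSpace (n • redDiv Q) ∧
      (∀ v : Place K F, (∀ i, Q i ≠ v) → f ∈ v.toValuationSubring) ∧
      ∃ cc : Fin (genusFF K F) → K, ∀ l, ∀ k : ℤ, k < 0 →
        (expandF (HL.residue (Q l)) (ht l) f).coeff k
          = (if l = i₀ ∧ k = -(n : ℤ) then 1 else 0) + (if k = -1 then cc l else 0) := by
  classical
  obtain ⟨f, hf, s, hs⟩ := exists_polar HL hR h0 hQ ht
    (fun l => if l = i₀ then HahnSeries.single (-(n : ℤ)) (1 : K) else 0)
  have hcoef : ∀ l, ∀ k : ℤ, k < 0 →
      (expandF (HL.residue (Q l)) (ht l) f).coeff k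
        = (if l = i₀ ∧ k = -(n : ℤ) then 1 else 0) + (if k = -1 then (-s l) else 0) := by
    intro l k hk
    rw [hs l k hk]
    have hn2 : (2 : ℤ) ≤ n := by exact_mod_cast hn
    by_cases hl : l = i₀
    · rw [if_pos hl, HahnSeries.coeff_single]
      by_cases hkn : k = -(n : ℤ)
      · have hk1 : k ≠ -1 := by omega
        rw [if_pos hkn, if_pos (And.intro hl hkn), if_neg hk1, if_neg hk1]
        ring
      · rw [if_neg hkn, if_neg (fun h : l = i₀ ∧ k = -(n : ℤ) => hkn h.2)]
        by_cases hk1 : k = -1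
        · rw [if_pos hk1, if_pos hk1]
          ring
        · rw [if_neg hk1, if_neg hk1]
          ring
    · rw [if_neg hl, if_neg (fun h : l = i₀ ∧ k = -(n : ℤ) => hl h.1)]
      have : (0 : LaurentSeries K).coeff k = 0 := rfl
      rw [this]
      by_cases hk1 : k = -1
      · rw [if_pos hk1, if_pos hk1]
        ring
      · rw [if_neg hk1, if_neg hk1]
        ring
  refine ⟨f, ?_, hf, fun l => -s l, hcoef⟩
  apply mem_L_nsmul_of_coeff HL hQ ht hf
  intro l k hk
  have hk0 : k < 0 := by
    have : (0 : ℤ) ≤ n := Int.natCast_nonneg n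
    omega
  rw [hcoef l k hk0, if_neg, if_neg, add_zero]
  · have : (2 : ℤ) ≤ n := by exact_mod_cast hn
    omega
  · intro h
    omega

end Laurent

end Fermat.Agent.ES.V19.PolarParts9

end
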