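/-
Programme V (S19), chapter B4' (Ld), field level (helper9): **the normalised functions `bb_{i,n}`**.

`K F` arbitrary fields (used with `K = Q̄`, `F = Fbar M'`), `HL : LSpace.LHyp K F`, Riemann's inequality `hR`,
`Q : Fin g → Place K F` injective (`g = genusFF K F`) with `H¹(E₀) = 0` (`E₀ = redDiv Q`; equivalently `l(E₀) = 1`),
`t i` a uniformiser at `Q i`, `ex HL ht i = expandF … : F →+* LaurentSeries K` the Laurent expansion at `Q i`,
and an auxiliary place `Ps ∉ {Q i}`.

* `BaK Q : Subalgebra K F` : the functions with poles only at the `Q i`;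
* `Van P f` : `f` vanishes at `P`;
* `BBData HL ht Ps` : a family `bb i n ∈ BaK Q` vanishing at `Ps` whose Laurent expansion at `Q l` has polar part
  EXACTLY `δ_{li} X^{-(n+2)} + cc i n l X⁻¹` (the shape of helper14's `NormalFormBasis14.BasisData`);
* `exists_bbData` : such a family exists;
* `BBData.eq_of_polar` / `bb_unique` : a function of `BaK Q` vanishing at `Ps` is determined by its polar
  coefficients of order `≥ 2`;
* `BBData.eq_sum` : every `f ∈ BaK Q` is `c + ∑_{l, n < N} (coefficient of X^{-(n+2)} of f at Q l) • bb l n`, and `c = 0`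
  when `f` vanishes at `Ps` (`eq_sum_of_van`): `BaK Q = K·1 ⊕ ⨁ K·bb l n`;
* `exists_bound` : a common bound for the pole orders.
-/
import Mathlib
import Fermat.Prelude.Def_AlgebraicCurve_Repartitions
import Fermat.Agent.ES.V19.PolarParts9

set_option autoImplicit false

open AlgebraicCurve

noncomputable section

namespace Fermat.Agent.ES.V19.BasisQbar9

open Fermat.Agent.X0.FF Fermat.Agent.RR Fermat.Agent.RR.LSpace
  Fermat.Agent.ES.V19.OnePlaceRep9 Fermat.Agent.ES.V19.ExpandPlace9 Fermat.Agent.ES.V19.PolarParts9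

variable {K F : Type*} [Field K] [Field F] [Algebra K F]

/-- the functions with poles only at the `Q i`. -/
def BaK {n : ℕ} (Q : Fin n → Place K F) : Subalgebra K F where
  carrier := {f | ∀ v : Place K F, (∀ i, Q i ≠ v) → f ∈ v.toValuationSubring}
  mul_mem' := fun hf hg v hv => mul_mem (hf v hv) (hg v hv)
  add_mem' := fun hf hg v hv => add_mem (hf v hv) (hg v hv)
  algebraMap_mem' := fun c v _ => v.algebraMap_mem' c

theorem mem_BaK {n : ℕ} {Q : Fin n → Place K F} {f : F} :
    f ∈ BaK Q ↔ ∀ v : Place K F, (∀ i, Q i ≠ v) → f ∈ v.toValuationSubring := Iff.rfl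

/-- `f` vanishes at `P`. -/
def Van (P : Place K F) (f : F) : Prop := f = 0 ∨ 0 < P.ord f

theorem van_zero (P : Place K F) : Van P (0 : F) := Or.inl rfl

theorem van_neg {P : Place K F} {f : F} (h : Van P f) : Van P (-f) := by
  rcases h with h | h
  · exact Or.inl (by rw [h, neg_zero])
  · exact Or.inr (by rwa [ffp_ord_neg])

theorem van_add {P : Place K F} {f g : F} (hf : Van P f) (hg : Van P g) : Van P (f + g) := by
  rcases hf with hf | hf
  · rw [hf, zero_add]
    exact hg
  rcases hg with hg | hg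
  · rw [hg, add_zero]
    exact Or.inr hf
  by_cases h0 : f + g = 0
  · exact Or.inl h0
  · right
    have := ffp_le_ord_add P (n := 1) (by omega) (by omega) h0
    omega

theorem van_sub {P : Place K F} {f g : F} (hf : Van P f) (hg : Van P g) : Van P (f - g) := by
  rw [sub_eq_add_neg]
  exact van_add hf (van_neg hg)

theorem van_mul {P : Place K F} {f g : F} (hf : Van P f) (hg : g ∈ P.toValuationSubring) :
    Van P (f * g) := by
  rcases hf with hf | hf
  · exact Or.inl (by rw [hf, zero_mul])
  by_cases hg0 : g = 0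
  · exact Or.inl (by rw [hg0, mul_zero])
  right
  have hf0 : f ≠ 0 := by
    rintro rfl
    rw [Place.ord_zero] at hf
    exact lt_irrefl _ hf
  rw [P.ord_mul hf0 hg0]
  have := ffp_ord_nonneg_of_mem P hg
  omega

theorem van_sum {P : Place K F} {ι : Type*} (s : Finset ι) (f : ι → F) (h : ∀ i ∈ s, Van P (f i)) :
    Van P (∑ i ∈ s, f i) := by
  classical
  induction s using Finset.induction_on with
  | empty =>
    rw [Finset.sum_empty]
    exact van_zero P
  | insert a s ha ih =>
    rw [Finset.sum_insert ha]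
    exact van_add (h a (Finset.mem_insert_self a s))
      (ih fun i hi => h i (Finset.mem_insert_of_mem hi))

/-- a constant vanishing at a place is zero. -/
theorem eq_zero_of_van_algebraMap {P : Place K F} {c : K} (h : Van P (algebraMap K F c)) : c = 0 := by
  rcases h with h | h
  · exact (map_eq_zero (algebraMap K F)).mp h
  · rw [ffp_ord_algebraMap] at h
    exact absurd h (lt_irrefl 0)

/-- a vanishing function is regular. -/
theorem mem_of_van {P : Place K F} {f : F} (h : Van P f) : f ∈ P.toValuationSubring := by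
  rcases h with h | h
  · rw [h]
    exact zero_mem _
  · exact ffp_mem_of_ord_nonneg P (le_of_lt h)

section Main

variable (HL : LHyp K F) {Q : Fin (genusFF K F) → Place K F}
  {t : Fin (genusFF K F) → F} (ht : ∀ i, (Q i).ord (t i) = 1)

/-- the Laurent expansion at `Q i`. -/
def ex (i : Fin (genusFF K F)) : F →+* LaurentSeries K := expandF (HL.residue (Q i)) (ht i)

theorem ex_algebraMap (i : Fin (genusFF K F)) (c : K) : ex HL ht i (algebraMap K F c) = HahnSeries.C c :=
  expandF_algebraMap _ _ c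

theorem coeff_ex_algebraMap (i : Fin (genusFF K F)) (c : K) {k : ℤ} (hk : k ≠ 0) :
    (ex HL ht i (algebraMap K F c)).coeff k = 0 := by
  rw [ex_algebraMap, HahnSeries.C_apply, HahnSeries.coeff_single_of_ne hk]

/-- **The normalised family**: `bb i n` has poles only at the `Q l`, vanishes at `Ps`, and its Laurent expansion at
`Q l` has polar part exactly `δ_{li} X^{-(n+2)} + cc i n l X⁻¹`. -/
structure BBData (Ps : Place K F) where
  /-- the function with leading polar part `t_i^{-(n+2)}` -/
  bb : Fin (genusFF K F) → ℕ → F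
  /-- its residues -/
  cc : Fin (genusFF K F) → ℕ → Fin (genusFF K F) → K
  mem : ∀ i n, bb i n ∈ BaK Q
  van : ∀ i n, Van Ps (bb i n)
  polar : ∀ (i : Fin (genusFF K F)) (n : ℕ) (l : Fin (genusFF K F)) (k : ℤ), k < 0 →
    (ex HL ht l (bb i n)).coeff k
      = (if l = i ∧ k = -((n : ℤ) + 2) then 1 else 0) + (if k = -1 then cc i n l else 0)

variable (hR : ∃ γ : ℤ, ∀ D : Divisor K F,
    Divisor.degree D + 1 - γ ≤ (Module.finrank K (riemannRochSpace D) : ℤ))
  (h0 : Module.finrank K (H1 (redDiv Q)) = 0) (hQ : Function.Injective Q)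
  {Ps : Place K F} (hPs : ∀ i, Q i ≠ Ps)

include hR h0 hQ hPs in
/-- existence of one normalised function. -/
theorem exists_bb (i : Fin (genusFF K F)) (n : ℕ) :
    ∃ f : F, f ∈ BaK Q ∧ Van Ps f ∧ ∃ cc : Fin (genusFF K F) → K, ∀ l, ∀ k : ℤ, k < 0 →
      (ex HL ht l f).coeff k
        = (if l = i ∧ k = -((n : ℤ) + 2) then 1 else 0) + (if k = -1 then cc l else 0) := by
  obtain ⟨f, _, hf, cc, hcc⟩ := exists_polar_single HL hR h0 hQ ht i (n := n + 2) (by omega)
  -- subtract the value at `Ps`
  obtain ⟨c, hc⟩ := HL.residue Ps f (hf Ps hPs)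
  refine ⟨f - algebraMap K F c, ?_, ?_, cc, ?_⟩
  · exact sub_mem (mem_BaK.mpr hf) ((BaK Q).algebraMap_mem c)
  · rcases hc with hc | hc
    · exact Or.inl (by rw [hc, sub_self])
    · exact Or.inr hc
  · intro l k hk
    have h1 := hcc l k hk
    show (expandF (HL.residue (Q l)) (ht l) (f - algebraMap K F c)).coeff k = _
    rw [map_sub, HahnSeries.coeff_sub, h1, expandF_algebraMap, HahnSeries.C_apply,
      HahnSeries.coeff_single_of_ne (ne_of_lt hk), sub_zero]
    push_cast
    rfl

include hR h0 hQ hPs in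
/-- **Existence of the normalised family.** -/
theorem exists_bbData : Nonempty (BBData HL ht (Q := Q) Ps) := by
  choose f h1 h2 cc h3 using fun (p : Fin (genusFF K F) × ℕ) => exists_bb HL ht hR h0 hQ hPs p.1 p.2
  exact ⟨⟨fun i n => f (i, n), fun i n => cc (i, n), fun i n => h1 (i, n), fun i n => h2 (i, n),
    fun i n => h3 (i, n)⟩⟩

include hR h0 hQ in
/-- **Uniqueness**: a function with poles only at the `Q i`, vanishing at `Ps`, whose polar coefficients of order
`≥ 2` all vanish, is zero. -/
theorem eq_zero_of_polar {f : F} (hf : f ∈ BaK Q) (hv : Van Ps f)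
    (hc : ∀ l, ∀ k : ℤ, k < -1 → (ex HL ht l f).coeff k = 0) : f = 0 := by
  obtain ⟨ξ, hξ⟩ := eq_algebraMap_of_coeff HL hR h0 hQ ht (mem_BaK.mp hf) hc
  rw [hξ] at hv
  rw [hξ, eq_zero_of_van_algebraMap hv, map_zero]

include hR h0 hQ in
/-- a function of `BaK Q` vanishing at `Ps` is determined by its polar coefficients of order `≥ 2`. -/
theorem eq_of_polar {f f' : F} (hf : f ∈ BaK Q) (hv : Van Ps f) (hf' : f' ∈ BaK Q) (hv' : Van Ps f')
    (hc : ∀ l, ∀ k : ℤ, k < -1 → (ex HL ht l f).coeff k = (ex HL ht l f').coeff k) : f = f' := by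
  have := eq_zero_of_polar HL ht hR h0 hQ (sub_mem hf hf') (van_sub hv hv') (fun l k hk => by
    rw [map_sub, HahnSeries.coeff_sub, hc l k hk, sub_self])
  exact sub_eq_zero.mp this

omit HL in
/-- a common bound for the pole orders of finitely many Laurent series. -/
theorem exists_bound {n : ℕ} (x : Fin n → LaurentSeries K) :
    ∃ N : ℕ, ∀ l, ∀ k : ℤ, k < -((N : ℤ) + 1) → (x l).coeff k = 0 := by
  classical
  refine ⟨Finset.univ.sup fun l => (-(x l).order).toNat, ?_⟩
  intro l k hk
  apply HahnSeries.coeff_eq_zero_of_lt_order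
  have h1 : (-(x l).order).toNat ≤ Finset.univ.sup fun l => (-(x l).order).toNat :=
    Finset.le_sup (f := fun l => (-(x l).order).toNat) (Finset.mem_univ l)
  have h2 := Int.self_le_toNat (-(x l).order)
  have h3 : ((-(x l).order).toNat : ℤ) ≤ ((Finset.univ.sup fun l => (-(x l).order).toNat : ℕ) : ℤ) := by
    exact_mod_cast h1
  omega

variable (B : BBData HL ht (Q := Q) Ps)

/-- polar coefficients of order `≥ 2` of the combination `∑_{l, n < N} e l n • bb l n`. -/
theorem coeff_sum_bb (N : ℕ) (e : Fin (genusFF K F) → ℕ → K) (l : Fin (genusFF K F)) {k : ℤ}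
    (hk : k < -1) :
    (ex HL ht l (∑ i, ∑ n ∈ Finset.range N, algebraMap K F (e i n) * B.bb i n)).coeff k
      = ∑ n ∈ Finset.range N, if k = -((n : ℤ) + 2) then e l n else 0 := by
  classical
  rw [map_sum, HahnSeries.coeff_sum]
  have hterm : ∀ i, (ex HL ht l (∑ n ∈ Finset.range N, algebraMap K F (e i n) * B.bb i n)).coeff k
      = if l = i then ∑ n ∈ Finset.range N, (if k = -((n : ℤ) + 2) then e i n else 0) else 0 := by
    intro i
    rw [map_sum, HahnSeries.coeff_sum]
    have h2 : ∀ n, (ex HL ht l (algebraMap K F (e i n) * B.bb i n)).coeff k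
        = if l = i then (if k = -((n : ℤ) + 2) then e i n else 0) else 0 := by
      intro n
      rw [map_mul, ex_algebraMap, HahnSeries.C_mul_eq_smul, HahnSeries.coeff_smul, smul_eq_mul,
        B.polar i n l k (by omega), if_neg (by omega : ¬ k = -1), add_zero]
      by_cases hl : l = i
      · rw [if_pos hl]
        by_cases hkn : k = -((n : ℤ) + 2)
        · rw [if_pos hkn, if_pos ⟨hl, hkn⟩, mul_one]
        · rw [if_neg hkn, if_neg (fun h : l = i ∧ k = -((n : ℤ) + 2) => hkn h.2), mul_zero]
      · rw [if_neg hl, if_neg (fun h : l = i ∧ k = -((n : ℤ) + 2) => hl h.1), mul_zero]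
    simp only [h2]
    by_cases hl : l = i
    · simp only [if_pos hl]
    · simp only [if_neg hl, Finset.sum_const_zero]
  simp only [hterm]
  rw [Finset.sum_ite_eq Finset.univ l, if_pos (Finset.mem_univ l)]

/-- the same, evaluated: the coefficient of `X^{-(m+2)}` is `e l m` (for `m < N`). -/
theorem coeff_sum_bb_of_lt (N : ℕ) (e : Fin (genusFF K F) → ℕ → K) (l : Fin (genusFF K F)) {m : ℕ}
    (hm : m < N) :
    (ex HL ht l (∑ i, ∑ n ∈ Finset.range N, algebraMap K F (e i n) * B.bb i n)).coeff (-((m : ℤ) + 2))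
      = e l m := by
  classical
  rw [coeff_sum_bb HL ht B N e l (by omega), Finset.sum_eq_single m]
  · rw [if_pos rfl]
  · intro n _ hnm
    rw [if_neg]
    intro h
    apply hnm
    omega
  · intro h
    exact absurd (Finset.mem_range.mpr hm) h

/-- beyond the range, the polar coefficients of the combination vanish. -/
theorem coeff_sum_bb_of_le (N : ℕ) (e : Fin (genusFF K F) → ℕ → K) (l : Fin (genusFF K F)) {k : ℤ}
    (hk : k < -((N : ℤ) + 1)) :
    (ex HL ht l (∑ i, ∑ n ∈ Finset.range N, algebraMap K F (e i n) * B.bb i n)).coeff k = 0 := by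
  classical
  have hN : (0 : ℤ) ≤ N := Int.natCast_nonneg N
  rw [coeff_sum_bb HL ht B N e l (by omega)]
  apply Finset.sum_eq_zero
  intro n hn
  rw [if_neg]
  have := Finset.mem_range.mp hn
  omega

omit hPs in
theorem sum_bb_mem (N : ℕ) (e : Fin (genusFF K F) → ℕ → K) :
    (∑ i, ∑ n ∈ Finset.range N, algebraMap K F (e i n) * B.bb i n) ∈ BaK Q := by
  apply Subalgebra.sum_mem
  intro i _
  apply Subalgebra.sum_mem
  intro n _
  exact Subalgebra.mul_mem _ ((BaK Q).algebraMap_mem _) (B.mem i n)

theorem sum_bb_van (N : ℕ) (e : Fin (genusFF K F) → ℕ → K) :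
    Van Ps (∑ i, ∑ n ∈ Finset.range N, algebraMap K F (e i n) * B.bb i n) := by
  apply van_sum
  intro i _
  apply van_sum
  intro n _
  rw [mul_comm]
  exact van_mul (B.van i n) (Ps.algebraMap_mem' _)

include hR h0 hQ in
/-- **Spanning**: `BaK Q = K·1 + ∑ K·bb l n`, with explicit coefficients. -/
theorem eq_sum {f : F} (hf : f ∈ BaK Q) {N : ℕ}
    (hN : ∀ l, ∀ k : ℤ, k < -((N : ℤ) + 1) → (ex HL ht l f).coeff k = 0) :
    ∃ c : K, f = algebraMap K F c
      + ∑ i, ∑ n ∈ Finset.range N,
          algebraMap K F ((ex HL ht i f).coeff (-((n : ℤ) + 2))) * B.bb i n := by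
  set e : Fin (genusFF K F) → ℕ → K := fun i n => (ex HL ht i f).coeff (-((n : ℤ) + 2)) with he
  set S : F := ∑ i, ∑ n ∈ Finset.range N, algebraMap K F (e i n) * B.bb i n with hS
  have hmem : f - S ∈ BaK Q := sub_mem hf (sum_bb_mem HL ht B N e)
  obtain ⟨ξ, hξ⟩ := eq_algebraMap_of_coeff HL hR h0 hQ ht (mem_BaK.mp hmem) (by
    intro l k hk
    show (ex HL ht l (f - S)).coeff k = 0
    rw [map_sub, HahnSeries.coeff_sub]
    by_cases hkN : k < -((N : ℤ) + 1)
    · rw [hN l k hkN, coeff_sum_bb_of_le HL ht B N e l hkN, sub_zero]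
    · -- `k = -(m + 2)` with `m < N`
      obtain ⟨m, hm⟩ : ∃ m : ℕ, k = -((m : ℤ) + 2) := ⟨(-k - 2).toNat, by omega⟩
      have hmN : m < N := by omega
      rw [hm, coeff_sum_bb_of_lt HL ht B N e l hmN, sub_self])
  exact ⟨ξ, by rw [← hξ]; ring⟩

include hR h0 hQ in
/-- **Spanning, normalised**: a function of `BaK Q` vanishing at `Ps` is the combination of the `bb l n` given by its
polar coefficients of order `≥ 2`. -/
theorem eq_sum_of_van {f : F} (hf : f ∈ BaK Q) (hv : Van Ps f) {N : ℕ}
    (hN : ∀ l, ∀ k : ℤ, k < -((N : ℤ) + 1) → (ex HL ht l f).coeff k = 0) :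
    f = ∑ i, ∑ n ∈ Finset.range N,
          algebraMap K F ((ex HL ht i f).coeff (-((n : ℤ) + 2))) * B.bb i n := by
  obtain ⟨c, hc⟩ := eq_sum HL ht hR h0 hQ B hf hN
  have hv2 := sum_bb_van HL ht B N fun i n => (ex HL ht i f).coeff (-((n : ℤ) + 2))
  have h1 : Van Ps (algebraMap K F c) := by
    have e := eq_sub_of_add_eq hc.symm
    rw [e]
    exact van_sub hv hv2
  rw [eq_zero_of_van_algebraMap h1, map_zero, zero_add] at hc
  exact hc

end Main

end Fermat.Agent.ES.V19.BasisQbar9

end
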