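/-
Exploration V19 (S19 by hand, route `S19_ROUTE23.md`), brick (A5), helper23:
**the normal-form lemma** for units `≡ 1` modulo a nilpotent ideal.

Setting: `R → Λ` commutative rings, `I` a nilpotent ideal of `R`, subalgebras `A B ⊂ Λ`
("functions regular off `E₀`", "functions regular near `E₀`") and elements `w i ∈ Λ`
(`t_i⁻¹`).  Write `IΛ r` for the ideal of `Λ` generated by `I ^ r`.

Hypotheses (`Hyp`), to be discharged from a direct sum decomposition `Λ = A⁰ ⊕ R·1 ⊕ B⁰ ⊕ W`: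

* `split r` : every `E ∈ IΛ r` is `a + b + ∑ c i • w i` modulo `IΛ (r+1)` with
  `a ∈ I^r • A`, `b ∈ I^r • B`, `c i ∈ I^r`;
* `uniq r`  : if `a + b - ∑ c i • w i ∈ IΛ (r+1)` with `a ∈ I^r • A`, `b ∈ I^r • B`, `c i ∈ I^r`
  then `c i ∈ I^(r+1)` and `a ≡ ξ`, `b ≡ -ξ` modulo `I^(r+1)` for a constant `ξ ∈ I^r`.

Conclusions:

* `exists_nf` : every `v` with `v - 1 ∈ IΛ 1` is `sig w s * (1 + a) * (1 + b)` with `s i ∈ I`,
  `a ∈ I • A`, `b ∈ I • B`, where `sig w s = 1 - ∑ s i • w i`;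
* `nf_unique` : the coordinates `s` are unique.
-/
import Mathlib

set_option autoImplicit false

noncomputable section

namespace Fermat.Agent.ES.V19.NormalForm23

open scoped BigOperators

variable {R Λ : Type*} [CommRing R] [CommRing Λ] [Algebra R Λ]

/-- The ideal of `Λ` generated by `I ^ r`. -/
def IL (I : Ideal R) (r : ℕ) : Ideal Λ := (I ^ r).map (algebraMap R Λ)

/-- The section `s ↦ 1 - ∑ s i • w i`. -/
def sig {g : ℕ} (w : Fin g → Λ) (s : Fin g → R) : Λ := 1 - ∑ i, s i • w i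

section Basic

variable (I : Ideal R)

theorem smul_mem_IL {r : ℕ} {ι : R} (hι : ι ∈ I ^ r) (z : Λ) : ι • z ∈ IL (Λ := Λ) I r := by
  rw [Algebra.smul_def]
  exact Ideal.mul_mem_right _ _ (Ideal.mem_map_of_mem _ hι)

theorem IL_anti {r r' : ℕ} (h : r ≤ r') : IL (Λ := Λ) I r' ≤ IL I r :=
  Ideal.map_mono (Ideal.pow_le_pow_right h)

theorem mul_mem_IL {r r' : ℕ} {x y : Λ} (hx : x ∈ IL I r) (hy : y ∈ IL I r') :
    x * y ∈ IL I (r + r') := by
  have h : IL (Λ := Λ) I r * IL I r' = IL I (r + r') := by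
    unfold IL
    rw [← Ideal.map_mul, pow_add]
  rw [← h]
  exact Ideal.mul_mem_mul hx hy

theorem mem_IL_of_mem_smul {r : ℕ} (N : Submodule R Λ) {x : Λ} (hx : x ∈ (I ^ r) • N) :
    x ∈ IL I r := by
  refine Submodule.smul_induction_on hx (fun ι hι n _ => smul_mem_IL I hι n)
    (fun x y hx hy => Ideal.add_mem _ hx hy)

theorem smul_anti {r r' : ℕ} (h : r ≤ r') (N : Submodule R Λ) : (I ^ r') • N ≤ (I ^ r) • N :=
  Submodule.smul_mono_left (Ideal.pow_le_pow_right h)

/-- `(I^r • A) * (I^r' • A) ⊂ I^(r+r') • A` for a subalgebra `A`. -/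
theorem mul_mem_smul (A : Subalgebra R Λ) {r r' : ℕ} {x y : Λ}
    (hx : x ∈ (I ^ r) • A.toSubmodule) (hy : y ∈ (I ^ r') • A.toSubmodule) :
    x * y ∈ (I ^ (r + r')) • A.toSubmodule := by
  refine Submodule.smul_induction_on hx (fun ι hι a ha => ?_) (fun x z hx hz => ?_)
  · refine Submodule.smul_induction_on hy (fun κ hκ b hb => ?_) (fun y z hy hz => ?_)
    · have : ι • a * κ • b = (ι * κ) • (a * b) := by
        rw [smul_mul_smul_comm]
      rw [this]
      exact Submodule.smul_mem_smul (by rw [pow_add]; exact Ideal.mul_mem_mul hι hκ)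
        (A.mul_mem ha hb)
    · rw [mul_add]
      exact Submodule.add_mem _ hy hz
  · rw [add_mul]
    exact Submodule.add_mem _ hx hz

/-- `ξ • x ∈ I^(r+r') • A` for `ξ ∈ I^r`, `x ∈ I^r' • A`. -/
theorem smul_mem_smul_add (N : Submodule R Λ) {r r' : ℕ} {ξ : R} (hξ : ξ ∈ I ^ r) {x : Λ}
    (hx : x ∈ (I ^ r') • N) : ξ • x ∈ (I ^ (r + r')) • N := by
  refine Submodule.smul_induction_on hx (fun κ hκ n hn => ?_) (fun y z hy hz => ?_)
  · rw [smul_smul]
    exact Submodule.smul_mem_smul (by rw [pow_add]; exact Ideal.mul_mem_mul hξ hκ) hn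
  · rw [smul_add]
    exact Submodule.add_mem _ hy hz

theorem smul_one_mem (A : Subalgebra R Λ) {r : ℕ} {ξ : R} (hξ : ξ ∈ I ^ r) :
    ξ • (1 : Λ) ∈ (I ^ r) • A.toSubmodule :=
  Submodule.smul_mem_smul hξ A.one_mem

/-- `x ≡ 1`, `y ≡ 1` modulo `IΛ 1` implies `x * y ≡ 1`. -/
theorem mul_sub_one_mem {x y : Λ} (hx : x - 1 ∈ IL I 1) (hy : y - 1 ∈ IL I 1) :
    x * y - 1 ∈ IL I 1 := by
  have : x * y - 1 = (x - 1) * y + (y - 1) := by ring
  rw [this]
  exact Ideal.add_mem _ (Ideal.mul_mem_right _ _ hx) hy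

theorem sum_smul_mem_IL {g : ℕ} (w : Fin g → Λ) {r : ℕ} {c : Fin g → R} (hc : ∀ i, c i ∈ I ^ r) :
    ∑ i, c i • w i ∈ IL I r :=
  Ideal.sum_mem _ fun i _ => smul_mem_IL I (hc i) (w i)

theorem sig_sub_one_mem {g : ℕ} (w : Fin g → Λ) {s : Fin g → R} (hs : ∀ i, s i ∈ I) :
    sig w s - 1 ∈ IL I 1 := by
  have : sig w s - 1 = -∑ i, s i • w i := by unfold sig; ring
  rw [this]
  exact Ideal.neg_mem_iff _ |>.mpr (sum_smul_mem_IL I w fun i => by simpa using hs i)

theorem one_add_sub_one_mem (N : Submodule R Λ) {a : Λ} (ha : a ∈ I • N) :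
    (1 + a) - 1 ∈ IL I 1 := by
  have : (1 + a) - 1 = a := by ring
  rw [this]
  exact mem_IL_of_mem_smul I N (by simpa using ha)

end Basic

/-- The hypotheses of the normal-form lemma. -/
structure Hyp (I : Ideal R) (A B : Subalgebra R Λ) {g : ℕ} (w : Fin g → Λ) : Prop where
  nilp : ∃ j : ℕ, I ^ j = ⊥
  split : ∀ r : ℕ, ∀ E ∈ IL (Λ := Λ) I r, ∃ a ∈ (I ^ r) • A.toSubmodule,
    ∃ b ∈ (I ^ r) • B.toSubmodule, ∃ c : Fin g → R, (∀ i, c i ∈ I ^ r) ∧
      E - (a + b + ∑ i, c i • w i) ∈ IL I (r + 1)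
  uniq : ∀ r : ℕ, ∀ a ∈ (I ^ r) • A.toSubmodule, ∀ b ∈ (I ^ r) • B.toSubmodule,
    ∀ c : Fin g → R, (∀ i, c i ∈ I ^ r) → a + b - ∑ i, c i • w i ∈ IL I (r + 1) →
      (∀ i, c i ∈ I ^ (r + 1)) ∧ ∃ ξ ∈ I ^ r, a - ξ • (1 : Λ) ∈ (I ^ (r + 1)) • A.toSubmodule ∧
        b + ξ • (1 : Λ) ∈ (I ^ (r + 1)) • B.toSubmodule

variable {I : Ideal R} {A B : Subalgebra R Λ} {g : ℕ} {w : Fin g → Λ}

theorem IL_eq_bot_of_pow_eq_bot {j : ℕ} (hj : I ^ j = ⊥) : IL (Λ := Λ) I j = ⊥ := by
  unfold IL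
  rw [hj, Ideal.map_bot]

/-- approximation step of the existence proof -/
theorem exists_nf_aux (h : Hyp I A B w) (v : Λ) (hv : v - 1 ∈ IL I 1) (r : ℕ) (hr : 1 ≤ r) :
    ∃ s : Fin g → R, (∀ i, s i ∈ I) ∧ ∃ a ∈ I • A.toSubmodule, ∃ b ∈ I • B.toSubmodule,
      v - sig w s * (1 + a) * (1 + b) ∈ IL I r := by
  induction r, hr using Nat.le_induction with
  | base =>
    refine ⟨fun _ => 0, fun _ => I.zero_mem, 0, Submodule.zero_mem _, 0, Submodule.zero_mem _, ?_⟩
    have : sig w (fun _ => (0 : R)) = 1 := by simp [sig]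
    rw [this]
    simpa using hv
  | succ r hr ih =>
    obtain ⟨s, hs, a, ha, b, hb, hE⟩ := ih
    set u : Λ := sig w s * (1 + a) * (1 + b) with hu
    obtain ⟨a₁, ha₁, b₁, hb₁, c, hc, hE'⟩ := h.split r (v - u) hE
    have hIr : I ^ r ≤ I := by
      calc I ^ r ≤ I ^ 1 := Ideal.pow_le_pow_right hr
        _ = I := pow_one I
    have ha1 : a ∈ (I ^ 1) • A.toSubmodule := by simpa using ha
    have hb1 : b ∈ (I ^ 1) • B.toSubmodule := by simpa using hb
    have ha₁' : a₁ ∈ I • A.toSubmodule := by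
      have := smul_anti I hr A.toSubmodule ha₁
      simpa using this
    have hb₁' : b₁ ∈ I • B.toSubmodule := by
      have := smul_anti I hr B.toSubmodule hb₁
      simpa using this
    refine ⟨fun i => s i - c i, fun i => I.sub_mem (hs i) (hIr (hc i)),
      a + a₁ + a * a₁, ?_, b + b₁ + b * b₁, ?_, ?_⟩
    · refine Submodule.add_mem _ (Submodule.add_mem _ ha ha₁') ?_
      have := mul_mem_smul I A ha1 ha₁
      exact smul_anti I (by omega : 1 ≤ 1 + r) A.toSubmodule this |> fun h => by simpa using h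
    · refine Submodule.add_mem _ (Submodule.add_mem _ hb hb₁') ?_
      have := mul_mem_smul I B hb1 hb₁
      exact smul_anti I (by omega : 1 ≤ 1 + r) B.toSubmodule this |> fun h => by simpa using h
    · set C : Λ := ∑ i, c i • w i with hC
      set m : Λ := (1 + a) * (1 + a₁) * (1 + b) * (1 + b₁) with hm
      have hsig : sig w (fun i => s i - c i) = sig w s + C := by
        unfold sig
        rw [hC]
        simp only [sub_smul, Finset.sum_sub_distrib]
        ring
      have hkey : v - sig w (fun i => s i - c i) * (1 + (a + a₁ + a * a₁)) * (1 + (b + b₁ + b * b₁))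
          = (v - u - (a₁ + b₁ + C)) - (u - 1) * (a₁ + b₁) - u * (a₁ * b₁) - C * (m - 1) := by
        rw [hsig, hu, hm]
        ring
      rw [hkey]
      have hCr : C ∈ IL I r := sum_smul_mem_IL I w hc
      have ha₁r : a₁ ∈ IL I r := mem_IL_of_mem_smul I _ ha₁
      have hb₁r : b₁ ∈ IL I r := mem_IL_of_mem_smul I _ hb₁
      have hu1 : u - 1 ∈ IL I 1 := by
        rw [hu]
        exact mul_sub_one_mem I (mul_sub_one_mem I (sig_sub_one_mem I w hs)
          (one_add_sub_one_mem I _ ha)) (one_add_sub_one_mem I _ hb)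
      have hm1 : m - 1 ∈ IL I 1 := by
        rw [hm]
        exact mul_sub_one_mem I (mul_sub_one_mem I (mul_sub_one_mem I
          (one_add_sub_one_mem I _ ha) (one_add_sub_one_mem I _ ha₁'))
          (one_add_sub_one_mem I _ hb)) (one_add_sub_one_mem I _ hb₁')
      refine Ideal.sub_mem _ (Ideal.sub_mem _ (Ideal.sub_mem _ hE' ?_) ?_) ?_
      · have := mul_mem_IL I hu1 (Ideal.add_mem _ ha₁r hb₁r)
        rwa [add_comm 1 r] at this
      · have h2 : a₁ * b₁ ∈ IL I (r + r) := mul_mem_IL I ha₁r hb₁r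
        exact Ideal.mul_mem_left _ _ (IL_anti I (by omega : r + 1 ≤ r + r) h2)
      · exact mul_mem_IL I hCr hm1

/-- **Existence of the normal form.** -/
theorem exists_nf (h : Hyp I A B w) (v : Λ) (hv : v - 1 ∈ IL I 1) :
    ∃ s : Fin g → R, (∀ i, s i ∈ I) ∧ ∃ a ∈ I • A.toSubmodule, ∃ b ∈ I • B.toSubmodule,
      v = sig w s * (1 + a) * (1 + b) := by
  obtain ⟨j, hj⟩ := h.nilp
  obtain ⟨s, hs, a, ha, b, hb, hE⟩ := exists_nf_aux h v hv (j + 1) (by omega)
  refine ⟨s, hs, a, ha, b, hb, ?_⟩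
  have h0 : IL (Λ := Λ) I (j + 1) = ⊥ := by
    have : I ^ (j + 1) = ⊥ := by rw [pow_succ, hj, Ideal.bot_mul]
    exact IL_eq_bot_of_pow_eq_bot this
  rw [h0, Ideal.mem_bot, sub_eq_zero] at hE
  exact hE

/-- inductive step of the uniqueness proof -/
theorem nf_unique_aux (h : Hyp I A B w) {s s' : Fin g → R} (hs : ∀ i, s i ∈ I)
    (hs' : ∀ i, s' i ∈ I) {a a' b b' : Λ} (ha : a ∈ I • A.toSubmodule)
    (ha' : a' ∈ I • A.toSubmodule) (hb : b ∈ I • B.toSubmodule) (hb' : b' ∈ I • B.toSubmodule)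
    (heq : sig w s * (1 + a) * (1 + b) = sig w s' * (1 + a') * (1 + b')) (r : ℕ) (hr : 1 ≤ r) :
    ∃ κ : R, κ - 1 ∈ I ∧ (∀ i, s i - s' i ∈ I ^ r) ∧
      (1 + a) - κ • (1 + a') ∈ (I ^ r) • A.toSubmodule ∧
      κ • (1 + b) - (1 + b') ∈ (I ^ r) • B.toSubmodule := by
  induction r, hr using Nat.le_induction with
  | base =>
    refine ⟨1, by simp, fun i => by simpa using I.sub_mem (hs i) (hs' i), ?_, ?_⟩
    · have : (1 + a) - (1 : R) • (1 + a') = a - a' := by rw [one_smul]; ring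
      rw [this]
      simpa using Submodule.sub_mem _ ha ha'
    · have : (1 : R) • (1 + b) - (1 + b') = b - b' := by rw [one_smul]; ring
      rw [this]
      simpa using Submodule.sub_mem _ hb hb'
  | succ r hr ih =>
    obtain ⟨κ, hκ, hδ, hx, hy⟩ := ih
    set α : Λ := 1 + a
    set α' : Λ := 1 + a'
    set β : Λ := 1 + b
    set β' : Λ := 1 + b'
    set x : Λ := α - κ • α' with hxdef
    set y : Λ := κ • β - β' with hydef
    set δ : Fin g → R := fun i => s i - s' i with hδdef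
    set D : Λ := ∑ i, δ i • w i with hD
    have hsig : sig w s = sig w s' - D := by
      unfold sig
      rw [hD, hδdef]
      simp only [sub_smul, Finset.sum_sub_distrib]
      ring
    have hIr : I ^ r ≤ I := by
      calc I ^ r ≤ I ^ 1 := Ideal.pow_le_pow_right hr
        _ = I := pow_one I
    -- the key identity
    have hkey : x + y - D = y * (1 - sig w s' * (κ • α')) + x * (1 - sig w s' * β')
        - sig w s' * (x * y) + D * (α * (κ • β) - 1) := by
      have e1 : α = κ • α' + x := by rw [hxdef]; ring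
      have e2 : κ • β = β' + y := by rw [hydef]; ring
      have e3 : sig w s * α * (κ • β) = κ • (sig w s' * α' * β') := by
        rw [← heq]
        simp only [Algebra.smul_def]
        ring
      have e4 : (sig w s' - D) * (κ • α' + x) * (β' + y) = κ • (sig w s' * α' * β') := by
        rw [← hsig, ← e1, ← e2]
        exact e3
      have e5 : α * (κ • β) = (κ • α' + x) * (β' + y) := by rw [← e1, ← e2]
      rw [e5]
      simp only [Algebra.smul_def] at e4 ⊢
      linear_combination e4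
    have hκ1 : algebraMap R Λ κ - 1 ∈ IL (Λ := Λ) I 1 := by
      have : algebraMap R Λ κ - 1 = (κ - 1) • (1 : Λ) := by
        rw [Algebra.smul_def, mul_one, map_sub, map_one]
      rw [this]
      exact smul_mem_IL I (by simpa using hκ) 1
    have hα'1 : α' - 1 ∈ IL I 1 := one_add_sub_one_mem I _ ha'
    have hα1 : α - 1 ∈ IL I 1 := one_add_sub_one_mem I _ ha
    have hβ'1 : β' - 1 ∈ IL I 1 := one_add_sub_one_mem I _ hb'
    have hβ1 : β - 1 ∈ IL I 1 := one_add_sub_one_mem I _ hb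
    have hS'1 : sig w s' - 1 ∈ IL I 1 := sig_sub_one_mem I w hs'
    have hκα' : κ • α' - 1 ∈ IL I 1 := by
      rw [Algebra.smul_def]
      exact mul_sub_one_mem I hκ1 hα'1
    have hκβ : κ • β - 1 ∈ IL I 1 := by
      rw [Algebra.smul_def]
      exact mul_sub_one_mem I hκ1 hβ1
    have hxr : x ∈ IL I r := mem_IL_of_mem_smul I _ hx
    have hyr : y ∈ IL I r := mem_IL_of_mem_smul I _ hy
    have hDr : D ∈ IL I r := sum_smul_mem_IL I w hδ
    have hmem : x + y - D ∈ IL I (r + 1) := by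
      rw [hkey]
      refine Ideal.add_mem _ (Ideal.sub_mem _ (Ideal.add_mem _ ?_ ?_) ?_) ?_
      · have h1 : 1 - sig w s' * (κ • α') ∈ IL I 1 := by
          have := mul_sub_one_mem I hS'1 hκα'
          have e : 1 - sig w s' * (κ • α') = -(sig w s' * (κ • α') - 1) := by ring
          rw [e]
          exact (Ideal.neg_mem_iff _).mpr this
        exact mul_mem_IL I hyr h1
      · have h1 : 1 - sig w s' * β' ∈ IL I 1 := by
          have := mul_sub_one_mem I hS'1 hβ'1
          have e : 1 - sig w s' * β' = -(sig w s' * β' - 1) := by ring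
          rw [e]
          exact (Ideal.neg_mem_iff _).mpr this
        exact mul_mem_IL I hxr h1
      · have h2 : x * y ∈ IL I (r + r) := mul_mem_IL I hxr hyr
        exact Ideal.mul_mem_left _ _ (IL_anti I (by omega : r + 1 ≤ r + r) h2)
      · exact mul_mem_IL I hDr (mul_sub_one_mem I hα1 hκβ)
    obtain ⟨hδ', ξ, hξ, hxξ, hyξ⟩ := h.uniq r x hx y hy δ hδ hmem
    refine ⟨κ + ξ, ?_, hδ', ?_, ?_⟩
    · have : κ + ξ - 1 = (κ - 1) + ξ := by ring
      rw [this]
      exact I.add_mem hκ (hIr hξ)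
    · have e : α - (κ + ξ) • α' = (x - ξ • (1 : Λ)) - ξ • a' := by
        rw [hxdef]
        simp only [α', add_smul, smul_add]
        ring
      rw [e]
      refine Submodule.sub_mem _ hxξ ?_
      have ha'1 : a' ∈ (I ^ 1) • A.toSubmodule := by simpa using ha'
      exact smul_mem_smul_add I _ hξ ha'1
    · have e : (κ + ξ) • β - β' = (y + ξ • (1 : Λ)) + ξ • b := by
        rw [hydef]
        simp only [β, add_smul, smul_add]
        ring
      rw [e]
      refine Submodule.add_mem _ hyξ ?_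
      have hb1 : b ∈ (I ^ 1) • B.toSubmodule := by simpa using hb
      exact smul_mem_smul_add I _ hξ hb1

/-- **Uniqueness of the coordinates of the normal form.** -/
theorem nf_unique (h : Hyp I A B w) {s s' : Fin g → R} (hs : ∀ i, s i ∈ I)
    (hs' : ∀ i, s' i ∈ I) {a a' b b' : Λ} (ha : a ∈ I • A.toSubmodule)
    (ha' : a' ∈ I • A.toSubmodule) (hb : b ∈ I • B.toSubmodule) (hb' : b' ∈ I • B.toSubmodule)
    (heq : sig w s * (1 + a) * (1 + b) = sig w s' * (1 + a') * (1 + b')) : s = s' := by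
  obtain ⟨j, hj⟩ := h.nilp
  obtain ⟨κ, -, hδ, -, -⟩ := nf_unique_aux h hs hs' ha ha' hb hb' heq (j + 1) (by omega)
  funext i
  have h0 : I ^ (j + 1) = ⊥ := by rw [pow_succ, hj, Ideal.bot_mul]
  have := hδ i
  rw [h0, Ideal.mem_bot, sub_eq_zero] at this
  exact this

end Fermat.Agent.ES.V19.NormalForm23
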