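/-
helper19 — Programme V (S19, route `S19_ROUTE23.md`), leaf (A5c), file 1:
tuples of Laurent series `Lam g R` (a TYPE SYNONYM of `Fin g → LaurentSeries R`), the elements
`wLam i = t_i⁻¹`, and the coefficient map `mapLam φ : Lam g R →+* Lam g R'` of a ring homomorphism
`φ : R →+* R'` (componentwise `ModularCurve.coeffMap φ` from the Prelude), with its semilinearity.

WHY A TYPE SYNONYM (instance diamonds in Mathlib):
* on `Fin g → LaurentSeries R` the instance `Module R _` found by search is `Pi.Function.module`,
  which is NOT defeq to `Algebra.toModule` of the `Algebra R _` instance found by search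
  (`Pi.algebra` over `HahnSeries.powerSeriesAlgebra`): statements such as `I • A.toSubmodule` with
  `A : Subalgebra R (Fin g → LaurentSeries R)` do not even elaborate;
* the scalar action of `HahnSeries.powerSeriesAlgebra` is not reducibly defeq to
  `HahnSeries.instSMul`, so `HahnSeries.coeff_smul` does not fire.
On `Lam g R` the ONLY instances are `CommRing` (pointwise) and `Algebra R` built from
`HahnSeries.instAlgebra`; hence `Module R (Lam g R)` is `Algebra.toModule`, and
`((r • x) i).coeff d = r * (x i).coeff d` holds by `rfl` (`smul_apply_coeff`).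
-/
import Mathlib
import Fermat.Prelude.Def_ModularCurve_LaurentCoeff
import Fermat.Agent.ES.V19.NormalForm23

set_option autoImplicit false

noncomputable section

namespace Fermat.Agent.ES.V19.LaurentMap19

open scoped BigOperators
open Fermat.Agent.ES.V19.NormalForm23

/-- `g`-tuples of (finite-tailed) Laurent series over `R` (type synonym, see the header). -/
def Lam (g : ℕ) (R : Type*) [CommRing R] : Type _ := Fin g → LaurentSeries R

variable {g : ℕ} {R R' R'' : Type*} [CommRing R] [CommRing R'] [CommRing R'']

instance instCommRingLam19 : CommRing (Lam g R) := inferInstanceAs (CommRing (Fin g → LaurentSeries R))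

instance instAlgebraLam19 : Algebra R (Lam g R) :=
  @Pi.algebra (Fin g) R (fun _ => LaurentSeries R) _ _ (fun _ => HahnSeries.instAlgebra)

@[ext]
theorem Lam.ext {x y : Lam g R} (h : ∀ i d, (x i).coeff d = (y i).coeff d) : x = y := by
  funext i
  exact HahnSeries.ext (funext (h i))

@[simp] theorem zero_apply (i : Fin g) : (0 : Lam g R) i = 0 := rfl
@[simp] theorem one_apply (i : Fin g) : (1 : Lam g R) i = 1 := rfl
@[simp] theorem add_apply (x y : Lam g R) (i : Fin g) : (x + y) i = x i + y i := rfl
@[simp] theorem sub_apply (x y : Lam g R) (i : Fin g) : (x - y) i = x i - y i := rfl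
@[simp] theorem neg_apply (x : Lam g R) (i : Fin g) : (-x) i = -x i := rfl
@[simp] theorem mul_apply (x y : Lam g R) (i : Fin g) : (x * y) i = x i * y i := rfl

@[simp]
theorem smul_apply (r : R) (x : Lam g R) (i : Fin g) : (r • x) i = r • x i := rfl

/-- Coefficients of the scalar action. -/
@[simp]
theorem smul_apply_coeff (r : R) (x : Lam g R) (i : Fin g) (d : ℤ) :
    ((r • x) i).coeff d = r * (x i).coeff d := rfl

theorem sum_apply {ι : Type*} (s : Finset ι) (f : ι → Lam g R) (i : Fin g) :
    (∑ n ∈ s, f n) i = ∑ n ∈ s, f n i :=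
  Finset.sum_apply i s f

theorem algebraMap_apply (r : R) (i : Fin g) :
    (algebraMap R (Lam g R) r) i = HahnSeries.C r := rfl

/-- `t_i⁻¹`: the tuple with `t⁻¹` in slot `i` and `0` elsewhere. -/
def wLam (g : ℕ) (R : Type*) [CommRing R] (i : Fin g) : Lam g R :=
  Pi.single (M := fun _ => LaurentSeries R) i (HahnSeries.single (-1 : ℤ) (1 : R))

theorem wLam_apply_self (i : Fin g) : wLam g R i i = HahnSeries.single (-1 : ℤ) (1 : R) := by
  unfold wLam
  exact Pi.single_eq_same i _

theorem wLam_apply_of_ne {i k : Fin g} (h : k ≠ i) : wLam g R i k = 0 := by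
  unfold wLam
  exact Pi.single_eq_of_ne h _

/-- The coefficient map of tuples of Laurent series. -/
def mapLam (φ : R →+* R') : Lam g R →+* Lam g R' :=
  RingHom.pi (f := fun _ : Fin g => LaurentSeries R') fun i =>
    (ModularCurve.coeffMap φ).comp (Pi.evalRingHom (fun _ : Fin g => LaurentSeries R) i)

@[simp]
theorem mapLam_apply (φ : R →+* R') (x : Lam g R) (i : Fin g) :
    mapLam φ x i = ModularCurve.coeffMap φ (x i) := rfl

@[simp]
theorem mapLam_coeff (φ : R →+* R') (x : Lam g R) (i : Fin g) (d : ℤ) :
    (mapLam φ x i).coeff d = φ ((x i).coeff d) := rfl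

/-- Semilinearity of `mapLam`. -/
theorem mapLam_smul (φ : R →+* R') (r : R) (x : Lam g R) :
    mapLam φ (r • x) = φ r • mapLam φ x := by
  ext i d
  simp

theorem mapLam_algebraMap (φ : R →+* R') (r : R) :
    mapLam φ (algebraMap R (Lam g R) r) = algebraMap R' (Lam g R') (φ r) := by
  rw [Algebra.algebraMap_eq_smul_one, Algebra.algebraMap_eq_smul_one, mapLam_smul, map_one]

theorem mapLam_wLam (φ : R →+* R') (i : Fin g) : mapLam φ (wLam g R i) = wLam g R' i := by
  funext k
  by_cases h : k = i
  · subst h
    rw [mapLam_apply, wLam_apply_self, wLam_apply_self, ModularCurve.coeffMap_single, map_one]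
  · rw [mapLam_apply, wLam_apply_of_ne h, wLam_apply_of_ne h, map_zero]

theorem mapLam_sig (φ : R →+* R') (s : Fin g → R) :
    mapLam φ (sig (wLam g R) s) = sig (wLam g R') (fun i => φ (s i)) := by
  unfold sig
  rw [map_sub, map_one, map_sum]
  congr 1
  refine Finset.sum_congr rfl fun i _ => ?_
  rw [mapLam_smul, mapLam_wLam]

theorem mapLam_comp (ψ : R' →+* R'') (φ : R →+* R') (x : Lam g R) :
    mapLam ψ (mapLam φ x) = mapLam (ψ.comp φ) x := by
  ext i d
  simp

theorem mapLam_id (x : Lam g R) : mapLam (RingHom.id R) x = x := by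
  ext i d
  simp

/-- `mapLam φ` maps `J • A` into `J' • A'` when `φ` maps `J` into `J'` and `mapLam φ` maps the
subalgebra `A` into `A'`. -/
theorem mapLam_mem_smul (φ : R →+* R') {J : Ideal R} {J' : Ideal R'}
    (hJ : ∀ r ∈ J, φ r ∈ J') {A : Subalgebra R (Lam g R)} {A' : Subalgebra R' (Lam g R')}
    (hA : ∀ x ∈ A, mapLam φ x ∈ A') {x : Lam g R} (hx : x ∈ J • A.toSubmodule) :
    mapLam φ x ∈ J' • A'.toSubmodule := by
  refine Submodule.smul_induction_on hx (fun r hr n hn => ?_) (fun x y hx hy => ?_)
  · rw [mapLam_smul]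
    exact Submodule.smul_mem_smul (hJ r hr) (hA n hn)
  · rw [map_add]
    exact add_mem hx hy

end Fermat.Agent.ES.V19.LaurentMap19
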