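/-
Programme V (S19 by hand, route `S19_ROUTE23.md`), brick (A5b), helper14, file 1:
**coefficients, power-series tuples and the regular part** on the ring of tuples of Laurent series
`Lam g R = ∏_{i<g} R((t_i))` of `LaurentMap19` (helper19).

* `co i m` : the `R`-linear coefficient functional "coefficient of `t_i^m`";
* `coeffIdeal J` : the tuples all of whose coefficients lie in the ideal `J`; it contains the ideal
  generated by `J` (`map_le_coeffIdeal`);
* `Bb` : the subalgebra of tuples of power series (no coefficient of negative degree);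
* `reg` : the `R`-linear projection onto `Bb` (forget the polar part);
* `mem_smul_Bb_of_mem_map` : `Bb ∩ (J Λ) ⊆ J • Bb`;
* `co_wLam` : coefficients of `wLam g R i = t_i⁻¹`;
* `mapLam_mem_Bb` : base change preserves `Bb`.
-/
import Mathlib
import Fermat.Agent.ES.V19.LaurentMap19

set_option autoImplicit false

noncomputable section

namespace Fermat.Agent.ES.V19.LaurentTuple14

open HahnSeries
open Fermat.Agent.ES.V19.LaurentMap19 (Lam wLam mapLam wLam_apply_self wLam_apply_of_ne
  smul_apply_coeff)

variable {g : ℕ} {R : Type*} [CommRing R]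

/-! ### Coefficients -/

/-- the coefficient of `t_i^m`. -/
def co (i : Fin g) (m : ℤ) : Lam g R →ₗ[R] R where
  toFun x := (x i).coeff m
  map_add' x y := by rw [LaurentMap19.add_apply, coeff_add]
  map_smul' r x := by rw [smul_apply_coeff, RingHom.id_apply, smul_eq_mul]

@[simp] theorem co_apply (i : Fin g) (m : ℤ) (x : Lam g R) : co i m x = (x i).coeff m := rfl

theorem ext_co {x y : Lam g R} (h : ∀ i m, co i m x = co i m y) : x = y :=
  Lam.ext h

theorem co_algebraMap (i : Fin g) (m : ℤ) (r : R) :
    co i m (algebraMap R (Lam g R) r) = if m = 0 then r else 0 := by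
  rw [co_apply, LaurentMap19.algebraMap_apply, C_apply, coeff_single]
  split_ifs <;> rfl

theorem co_one (i : Fin g) (m : ℤ) : co i m (1 : Lam g R) = if m = 0 then 1 else 0 := by
  rw [co_apply, LaurentMap19.one_apply, coeff_one]
  split_ifs <;> rfl

theorem co_wLam (i l : Fin g) (m : ℤ) :
    co l m (wLam g R i) = if l = i ∧ m = -1 then 1 else 0 := by
  rw [co_apply]
  by_cases hl : l = i
  · subst hl
    rw [wLam_apply_self, coeff_single]
    simp
  · rw [wLam_apply_of_ne hl, coeff_zero, if_neg (fun h => hl h.1)]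

/-! ### The coefficient ideal -/

/-- the tuples all of whose coefficients lie in `J`. -/
def coeffIdeal (J : Ideal R) : Ideal (Lam g R) where
  carrier := {x | ∀ i m, (x i).coeff m ∈ J}
  add_mem' := fun {x y} hx hy i m => by
    rw [LaurentMap19.add_apply, coeff_add]
    exact J.add_mem (hx i m) (hy i m)
  zero_mem' := fun i m => by
    rw [LaurentMap19.zero_apply, coeff_zero]
    exact J.zero_mem
  smul_mem' := fun z x hx i m => by
    rw [smul_eq_mul, LaurentMap19.mul_apply, coeff_mul]
    exact J.sum_mem fun p _ => J.mul_mem_left _ (hx i p.2)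

theorem mem_coeffIdeal {J : Ideal R} {x : Lam g R} :
    x ∈ coeffIdeal J ↔ ∀ i m, co i m x ∈ J := Iff.rfl

theorem map_le_coeffIdeal (J : Ideal R) :
    J.map (algebraMap R (Lam g R)) ≤ coeffIdeal J := by
  rw [Ideal.map_le_iff_le_comap]
  intro r hr
  rw [Ideal.mem_comap, mem_coeffIdeal]
  intro i m
  rw [co_algebraMap]
  split_ifs
  · exact hr
  · exact J.zero_mem

theorem coeffIdeal_bot : coeffIdeal (g := g) (⊥ : Ideal R) = ⊥ := by
  rw [eq_bot_iff]
  intro x hx
  rw [Ideal.mem_bot]
  apply ext_co
  intro i m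
  have := hx i m
  rw [Ideal.mem_bot] at this
  rw [co_apply, this, co_apply, LaurentMap19.zero_apply, coeff_zero]

/-! ### Power series tuples -/

/-- the subalgebra of tuples of power series. -/
def Bb : Subalgebra R (Lam g R) where
  carrier := {x | ∀ i, ∀ m : ℤ, m < 0 → (x i).coeff m = 0}
  mul_mem' := fun {x y} hx hy i m hm => by
    rw [LaurentMap19.mul_apply, coeff_mul]
    refine Finset.sum_eq_zero fun p hp => ?_
    rw [Finset.mem_antidiagonal] at hp
    by_cases h1 : p.1 < 0
    · rw [hx i p.1 h1, zero_mul]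
    · have h2 : p.2 < 0 := by omega
      rw [hy i p.2 h2, mul_zero]
  add_mem' := fun {x y} hx hy i m hm => by
    rw [LaurentMap19.add_apply, coeff_add, hx i m hm, hy i m hm, add_zero]
  algebraMap_mem' := fun r i m hm => by
    have := co_algebraMap (g := g) i m r
    rw [co_apply] at this
    rw [this, if_neg (by omega)]

theorem mem_Bb {x : Lam g R} : x ∈ Bb ↔ ∀ i, ∀ m : ℤ, m < 0 → co i m x = 0 := Iff.rfl

/-- the power series part of a Laurent series. -/
def regOne (x : HahnSeries ℤ R) : HahnSeries ℤ R where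
  coeff m := if 0 ≤ m then x.coeff m else 0
  isPWO_support' := x.isPWO_support.mono (by
    intro m hm
    rw [Function.mem_support] at hm
    rw [HahnSeries.mem_support]
    intro h
    apply hm
    split_ifs
    · exact h
    · rfl)

@[simp] theorem regOne_coeff (x : HahnSeries ℤ R) (m : ℤ) :
    (regOne x).coeff m = if 0 ≤ m then x.coeff m else 0 := rfl

/-- forget the polar parts. -/
def reg : Lam g R →ₗ[R] Lam g R where
  toFun x i := regOne (x i)
  map_add' x y := by
    apply ext_co
    intro i m
    show (if 0 ≤ m then (x i + y i).coeff m else 0) = (regOne (x i) + regOne (y i)).coeff m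
    rw [coeff_add, coeff_add, regOne_coeff, regOne_coeff]
    split_ifs
    · rfl
    · rw [add_zero]
  map_smul' r x := by
    apply ext_co
    intro i m
    show (if 0 ≤ m then r * (x i).coeff m else 0) = r * (regOne (x i)).coeff m
    rw [regOne_coeff]
    split_ifs
    · rfl
    · rw [mul_zero]

theorem co_reg (i : Fin g) (m : ℤ) (x : Lam g R) :
    co i m (reg x) = if 0 ≤ m then co i m x else 0 := rfl

theorem reg_mem_Bb (x : Lam g R) : reg x ∈ Bb := by
  intro i m hm
  have := co_reg i m x
  rw [co_apply] at this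
  rw [this, if_neg (by omega)]

theorem reg_eq_self {x : Lam g R} (hx : x ∈ Bb) : reg x = x := by
  apply ext_co
  intro i m
  rw [co_reg]
  split_ifs with h
  · rfl
  · exact (hx i m (by omega)).symm

/-- auxiliary ideal: the `y` with `reg (z * y) ∈ J • Bb` for all `z`. -/
def regIdeal (J : Ideal R) : Ideal (Lam g R) where
  carrier := {y | ∀ z : Lam g R, reg (z * y) ∈ J • (Bb (g := g) (R := R)).toSubmodule}
  add_mem' := fun {y₁ y₂} h₁ h₂ z => by
    rw [mul_add, map_add]
    exact Submodule.add_mem _ (h₁ z) (h₂ z)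
  zero_mem' := fun z => by
    rw [mul_zero, map_zero]
    exact Submodule.zero_mem _
  smul_mem' := fun a y h z => by
    rw [smul_eq_mul, ← mul_assoc]
    exact h (z * a)

theorem mul_algebraMap_eq_smul (z : Lam g R) (r : R) :
    z * algebraMap R (Lam g R) r = r • z := by
  rw [Algebra.smul_def, mul_comm]

theorem map_le_regIdeal (J : Ideal R) :
    J.map (algebraMap R (Lam g R)) ≤ regIdeal J := by
  rw [Ideal.map_le_iff_le_comap]
  intro r hr
  rw [Ideal.mem_comap]
  intro z
  rw [mul_algebraMap_eq_smul, map_smul]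
  exact Submodule.smul_mem_smul hr (reg_mem_Bb z)

/-- `reg (JΛ) ⊆ J • Bb`. -/
theorem reg_mem_smul_of_mem_map (J : Ideal R) {x : Lam g R}
    (hx : x ∈ J.map (algebraMap R (Lam g R))) : reg x ∈ J • (Bb (g := g) (R := R)).toSubmodule := by
  have := map_le_regIdeal J hx 1
  rwa [one_mul] at this

/-- `Bb ∩ JΛ ⊆ J • Bb`. -/
theorem mem_smul_Bb_of_mem_map (J : Ideal R) {x : Lam g R} (hx : x ∈ Bb)
    (hx' : x ∈ J.map (algebraMap R (Lam g R))) : x ∈ J • (Bb (g := g) (R := R)).toSubmodule := by
  have := reg_mem_smul_of_mem_map J hx'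
  rwa [reg_eq_self hx] at this

/-! ### Base change -/

variable {R' : Type*} [CommRing R']

@[simp] theorem co_mapLam (f : R →+* R') (i : Fin g) (m : ℤ) (x : Lam g R) :
    co i m (mapLam f x) = f (co i m x) := rfl

theorem mapLam_mem_Bb (f : R →+* R') {x : Lam g R} (hx : x ∈ Bb) : mapLam f x ∈ Bb := by
  intro i m hm
  have := co_mapLam f i m x
  rw [co_apply] at this
  rw [this, co_apply, hx i m hm, map_zero]

end Fermat.Agent.ES.V19.LaurentTuple14
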