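/-
Programme V (S19 by hand, route `S19_ROUTE23.md`), brick (A5b), helper14, file 2:
**the hypotheses `NormalForm23.Hyp` of the normal-form lemma, from a basis with exact polar parts.**

Input (`BasisData O g`): a family `bb i n ∈ Lam g O = ∏_{i<g} O((t_i))` (`i < g`, `n : ℕ`) with
polar part EXACTLY `t_i^{-(n+2)} + ∑_l cc i n l · t_l^{-1}`, such that the `O`-span of `1` and the
`bb i n` is closed under multiplication ("functions regular off `E₀`").

Output, for EVERY `O`-algebra `R` (any universe):
* `AR D R`  : the subalgebra of `Lam g R` spanned over `R` by `1` and the base-changed `bb i n`;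
* `BR g R`  : the tuples of power series;
* `map_AR`, `map_BR` : functoriality in `R`;
* `exists_decomp` : `Lam g R = AR + BR + ∑ R · t_i⁻¹`;
* `hyp` : `NormalForm23.Hyp I (AR D R) (BR g R) (wLam g R)` for every nilpotent ideal `I` of `R`.
No hypothesis on `O` (no local ring, no noetherianity) is needed in this form.
-/
import Mathlib
import Fermat.Agent.ES.V19.LaurentTuple14

set_option autoImplicit false

noncomputable section

namespace Fermat.Agent.ES.V19.NormalFormBasis14

open scoped BigOperators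
open Fermat.Agent.ES.V19.NormalForm23
open Fermat.Agent.ES.V19.LaurentMap19 (Lam wLam mapLam)
open Fermat.Agent.ES.V19.LaurentTuple14

/-- index set of the spanning family: `none ↔ 1`, `some (i, n) ↔ bb i n`. -/
abbrev Idx (g : ℕ) : Type := Option (Fin g × ℕ)

/-- the family `1, bb i n`. -/
def gen {g : ℕ} {O : Type*} [CommRing O] (bb : Fin g → ℕ → Lam g O) : Idx g → Lam g O
  | none => 1
  | some p => bb p.1 p.2

/-- A family of tuples of Laurent series with exact polar parts
`bb i n = t_i^{-(n+2)} + ∑_l cc i n l t_l^{-1} + (power series)` whose span (together with `1`) is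
closed under multiplication. -/
structure BasisData (O : Type*) [CommRing O] (g : ℕ) where
  /-- the function with leading polar part `t_i^{-(n+2)}` -/
  bb : Fin g → ℕ → Lam g O
  /-- its residues -/
  cc : Fin g → ℕ → Fin g → O
  polar : ∀ (i : Fin g) (n : ℕ) (l : Fin g) (m : ℤ), m < 0 →
    co l m (bb i n) =
      (if l = i ∧ m = -((n : ℤ) + 2) then 1 else 0) + (if m = -1 then cc i n l else 0)
  mul_mem : ∀ (i : Fin g) (n : ℕ) (i' : Fin g) (n' : ℕ),
    bb i n * bb i' n' ∈ Submodule.span O (Set.range (gen bb))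

variable {O : Type*} [CommRing O] {g : ℕ} (D : BasisData O g)
variable (R : Type*) [CommRing R] [Algebra O R]

/-- the base-changed family. -/
def genR : Idx g → Lam g R := fun j => mapLam (algebraMap O R) (gen D.bb j)

theorem genR_none : genR D R none = 1 := map_one _

theorem co_genR_none (l : Fin g) (m : ℤ) (hm : m ≠ 0) : co l m (genR D R none) = 0 := by
  rw [genR_none, co_one, if_neg hm]

theorem co_genR_some (i : Fin g) (n : ℕ) (l : Fin g) (m : ℤ) (hm : m < 0) :
    co l m (genR D R (some (i, n))) =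
      (if l = i ∧ m = -((n : ℤ) + 2) then 1 else 0) +
        (if m = -1 then algebraMap O R (D.cc i n l) else 0) := by
  have h := D.polar i n l m hm
  show co l m (mapLam (algebraMap O R) (D.bb i n)) = _
  rw [co_mapLam, h, map_add]
  congr 1
  · split_ifs
    · exact map_one _
    · exact map_zero _
  · split_ifs
    · rfl
    · exact map_zero _

/-- the `R`-span of `1` and the base-changed `bb i n`. -/
def Asub : Submodule R (Lam g R) := Submodule.span R (Set.range (genR D R))

theorem genR_mem_Asub (j : Idx g) : genR D R j ∈ Asub D R :=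
  Submodule.subset_span ⟨j, rfl⟩

theorem one_mem_Asub : (1 : Lam g R) ∈ Asub D R := by
  rw [← genR_none D R]
  exact genR_mem_Asub D R none

theorem mapLam_mem_Asub {x : Lam g O} (hx : x ∈ Submodule.span O (Set.range (gen D.bb))) :
    mapLam (algebraMap O R) x ∈ Asub D R := by
  induction hx using Submodule.span_induction with
  | mem x hx =>
    obtain ⟨j, rfl⟩ := hx
    exact genR_mem_Asub D R j
  | zero =>
    rw [map_zero]
    exact Submodule.zero_mem _
  | add x y _ _ hx hy =>
    rw [map_add]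
    exact Submodule.add_mem _ hx hy
  | smul o x _ hx =>
    rw [LaurentMap19.mapLam_smul]
    exact Submodule.smul_mem _ _ hx

theorem gen_mul_mem (j j' : Idx g) :
    gen D.bb j * gen D.bb j' ∈ Submodule.span O (Set.range (gen D.bb)) := by
  rcases j with _ | ⟨i, n⟩
  · show 1 * gen D.bb j' ∈ _
    rw [one_mul]
    exact Submodule.subset_span ⟨j', rfl⟩
  · rcases j' with _ | ⟨i', n'⟩
    · show gen D.bb (some (i, n)) * 1 ∈ _
      rw [mul_one]
      exact Submodule.subset_span ⟨some (i, n), rfl⟩
    · exact D.mul_mem i n i' n'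

theorem genR_mul_mem (j j' : Idx g) : genR D R j * genR D R j' ∈ Asub D R := by
  have h := mapLam_mem_Asub D R (gen_mul_mem D j j')
  rwa [map_mul] at h

theorem Asub_mul_mem (x y : Lam g R) (hx : x ∈ Asub D R) (hy : y ∈ Asub D R) :
    x * y ∈ Asub D R := by
  have h : Asub D R * Asub D R ≤ Asub D R := by
    unfold Asub
    rw [Submodule.span_mul_span, Submodule.span_le]
    rintro _ ⟨_, ⟨j, rfl⟩, _, ⟨j', rfl⟩, rfl⟩
    exact genR_mul_mem D R j j'
  exact h (Submodule.mul_mem_mul hx hy)

/-- "functions regular off `E₀`", base-changed to `R`. -/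
def AR : Subalgebra R (Lam g R) :=
  (Asub D R).toSubalgebra (one_mem_Asub D R) (Asub_mul_mem D R)

theorem AR_toSubmodule : Subalgebra.toSubmodule (AR D R) = Asub D R :=
  Submodule.toSubalgebra_toSubmodule _ _ _

theorem mem_AR {x : Lam g R} : x ∈ AR D R ↔ x ∈ Asub D R := Iff.rfl

variable (g) in
/-- "functions regular near `E₀`": tuples of power series. -/
def BR : Subalgebra R (Lam g R) := Bb

theorem mem_BR {x : Lam g R} : x ∈ BR g R ↔ ∀ i, ∀ m : ℤ, m < 0 → co i m x = 0 := Iff.rfl

/-! ### Functoriality -/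

section Functoriality

variable {R} {R' : Type*} [CommRing R'] [Algebra O R']

theorem mapLam_genR (φ : R →ₐ[O] R') (j : Idx g) :
    mapLam (φ : R →+* R') (genR D R j) = genR D R' j := by
  unfold genR
  rw [LaurentMap19.mapLam_comp, AlgHom.comp_algebraMap]

theorem map_AR (φ : R →ₐ[O] R') {x : Lam g R} (hx : x ∈ AR D R) :
    mapLam (φ : R →+* R') x ∈ AR D R' := by
  rw [mem_AR] at hx ⊢
  induction hx using Submodule.span_induction with
  | mem x hx =>
    obtain ⟨j, rfl⟩ := hx
    rw [mapLam_genR]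
    exact genR_mem_Asub D R' j
  | zero =>
    rw [map_zero]
    exact Submodule.zero_mem _
  | add x y _ _ hx hy =>
    rw [map_add]
    exact Submodule.add_mem _ hx hy
  | smul o x _ hx =>
    rw [LaurentMap19.mapLam_smul]
    exact Submodule.smul_mem _ _ hx

theorem map_BR (φ : R →+* R') {x : Lam g R} (hx : x ∈ BR g R) : mapLam φ x ∈ BR g R' :=
  mapLam_mem_Bb φ hx

end Functoriality

/-! ### The decomposition `Lam g R = AR + BR + ∑ R • t_i⁻¹` -/

theorem exists_pole_bound (z : Lam g R) :
    ∃ N : ℕ, ∀ (i : Fin g) (m : ℤ), m < -(N : ℤ) → co i m z = 0 := by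
  have h : ∀ i : Fin g, ∃ N : ℕ, ∀ m : ℤ, m < -(N : ℤ) → (z i).coeff m = 0 := by
    intro i
    refine ⟨(-(z i).order).toNat, fun m hm => HahnSeries.coeff_eq_zero_of_lt_order ?_⟩
    have := Int.self_le_toNat (-(z i).order)
    omega
  choose N hN using h
  refine ⟨Finset.univ.sup N, fun i m hm => hN i m ?_⟩
  have : N i ≤ Finset.univ.sup N := Finset.le_sup (Finset.mem_univ i)
  omega

theorem co_sum_smul (x : Fin g → Lam g R) (c : Fin g → R) (l : Fin g) (m : ℤ) :
    co l m (∑ i, c i • x i) = ∑ i, c i * co l m (x i) := by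
  rw [map_sum]
  refine Finset.sum_congr rfl fun i _ => ?_
  rw [map_smul, smul_eq_mul]

theorem co_sum_smul_wLam (c : Fin g → R) (l : Fin g) (m : ℤ) :
    co l m (∑ i, c i • wLam g R i) = if m = -1 then c l else 0 := by
  rw [co_sum_smul]
  simp_rw [co_wLam]
  by_cases hm : m = -1
  · simp [hm]
  · simp [hm]

theorem co_sum_smul_genR (N : ℕ) (c : Fin g → R) (l : Fin g) (m : ℤ) (hm : m < -1) :
    co l m (∑ i, c i • genR D R (some (i, N))) = if m = -((N : ℤ) + 2) then c l else 0 := by
  rw [co_sum_smul]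
  have h1 : ¬ m = -1 := by omega
  have h0 : m < 0 := by omega
  by_cases h : m = -((N : ℤ) + 2)
  · rw [if_pos h, Finset.sum_eq_single l]
    · rw [co_genR_some D R l N l m h0, if_pos ⟨rfl, h⟩, if_neg h1, add_zero, mul_one]
    · intro i _ hi
      rw [co_genR_some D R i N l m h0, if_neg (fun hh => hi hh.1.symm), if_neg h1, add_zero,
        mul_zero]
    · intro hl
      exact absurd (Finset.mem_univ l) hl
  · rw [if_neg h]
    refine Finset.sum_eq_zero fun i _ => ?_
    rw [co_genR_some D R i N l m h0, if_neg (fun hh => h hh.2), if_neg h1, add_zero, mul_zero]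

/-- the sum `AR + BR + ∑ R • t_i⁻¹` as a submodule. -/
def Ssum : Submodule R (Lam g R) :=
  Asub D R ⊔ Subalgebra.toSubmodule (BR g R) ⊔ Submodule.span R (Set.range (wLam g R))

theorem Asub_le_Ssum : Asub D R ≤ Ssum D R := le_sup_of_le_left le_sup_left

theorem BR_le_Ssum : Subalgebra.toSubmodule (BR g R) ≤ Ssum D R := le_sup_of_le_left le_sup_right

theorem span_wLam_le_Ssum : Submodule.span R (Set.range (wLam g R)) ≤ Ssum D R := le_sup_right

theorem sum_smul_wLam_mem (c : Fin g → R) :
    ∑ i, c i • wLam g R i ∈ Submodule.span R (Set.range (wLam g R)) :=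
  Submodule.sum_mem _ fun i _ => Submodule.smul_mem _ _ (Submodule.subset_span ⟨i, rfl⟩)

theorem sum_smul_genR_mem (N : ℕ) (c : Fin g → R) :
    ∑ i, c i • genR D R (some (i, N)) ∈ Asub D R :=
  Submodule.sum_mem _ fun _ _ => Submodule.smul_mem _ _ (genR_mem_Asub D R _)

theorem mem_Ssum_of_bound (N : ℕ) :
    ∀ z : Lam g R, (∀ (i : Fin g) (m : ℤ), m < -((N : ℤ) + 1) → co i m z = 0) → z ∈ Ssum D R := by
  induction N with
  | zero =>
    intro z hz
    have hb : z - ∑ i, co i (-1) z • wLam g R i ∈ BR g R := by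
      rw [mem_BR]
      intro l m hm
      rw [map_sub, co_sum_smul_wLam]
      by_cases h : m = -1
      · rw [if_pos h, h, sub_self]
      · rw [if_neg h, sub_zero]
        exact hz l m (by push_cast; omega)
    have : z = (z - ∑ i, co i (-1) z • wLam g R i) + ∑ i, co i (-1) z • wLam g R i := by ring
    rw [this]
    exact Submodule.add_mem _ (BR_le_Ssum D R hb)
      (span_wLam_le_Ssum D R (sum_smul_wLam_mem R _))
  | succ N ih =>
    intro z hz
    have hz' : z - ∑ i, co i (-((N : ℤ) + 2)) z • genR D R (some (i, N)) ∈ Ssum D R := by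
      apply ih
      intro l m hm
      rw [map_sub, co_sum_smul_genR D R N _ l m (by omega)]
      by_cases h : m = -((N : ℤ) + 2)
      · rw [if_pos h, h, sub_self]
      · rw [if_neg h, sub_zero]
        exact hz l m (by push_cast; omega)
    have : z = (z - ∑ i, co i (-((N : ℤ) + 2)) z • genR D R (some (i, N))) +
        ∑ i, co i (-((N : ℤ) + 2)) z • genR D R (some (i, N)) := by ring
    rw [this]
    exact Submodule.add_mem _ hz' (Asub_le_Ssum D R (sum_smul_genR_mem D R N _))

theorem Ssum_eq_top : Ssum D R = ⊤ := by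
  rw [eq_top_iff]
  intro z _
  obtain ⟨N, hN⟩ := exists_pole_bound R z
  exact mem_Ssum_of_bound D R N z fun i m hm => hN i m (by omega)

/-- `Lam g R = AR + BR + ∑ R • t_i⁻¹`. -/
theorem exists_decomp (z : Lam g R) :
    ∃ a ∈ AR D R, ∃ b ∈ BR g R, ∃ c : Fin g → R, z = a + b + ∑ i, c i • wLam g R i := by
  have hz : z ∈ Ssum D R := by
    rw [Ssum_eq_top]
    exact Submodule.mem_top
  obtain ⟨ab, hab, w', hw', rfl⟩ := Submodule.mem_sup.1 hz
  obtain ⟨a, ha, b, hb, rfl⟩ := Submodule.mem_sup.1 hab
  obtain ⟨c, rfl⟩ := (Submodule.mem_span_range_iff_exists_fun R).1 hw'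
  exact ⟨a, ha, b, hb, c, rfl⟩

/-! ### The hypotheses of the normal-form lemma -/

variable {R}

theorem IL_le_coeffIdeal (I : Ideal R) (r : ℕ) :
    IL (Λ := Lam g R) I r ≤ coeffIdeal (I ^ r) :=
  map_le_coeffIdeal (I ^ r)

/-- `split`: exact decomposition of every element of `I^r Λ`. -/
theorem hyp_split (I : Ideal R) (r : ℕ) (E : Lam g R) (hE : E ∈ IL I r) :
    ∃ a ∈ (I ^ r) • Subalgebra.toSubmodule (AR D R),
      ∃ b ∈ (I ^ r) • Subalgebra.toSubmodule (BR g R), ∃ c : Fin g → R, (∀ i, c i ∈ I ^ r) ∧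
        E - (a + b + ∑ i, c i • wLam g R i) ∈ IL I (r + 1) := by
  have h : E ∈ (I ^ r) • (⊤ : Submodule R (Lam g R)) := by
    rw [Ideal.smul_top_eq_map]
    exact hE
  rw [← Ssum_eq_top D R, Ssum, Submodule.smul_sup, Submodule.smul_sup] at h
  obtain ⟨ab, hab, w', hw', rfl⟩ := Submodule.mem_sup.1 h
  obtain ⟨a, ha, b, hb, rfl⟩ := Submodule.mem_sup.1 hab
  obtain ⟨c, hc, rfl⟩ := (Submodule.mem_ideal_smul_span_iff_exists_sum _ _ _).1 hw'
  refine ⟨a, ?_, b, hb, fun i => c i, hc, ?_⟩
  · rw [AR_toSubmodule]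
    exact ha
  · have hs : (c.sum fun i x => x • wLam g R i) = ∑ i, c i • wLam g R i :=
      Finsupp.sum_fintype c _ (fun i => zero_smul R _)
    rw [hs, sub_self]
    exact Ideal.zero_mem _

/-- the coefficient of `t_l^{-(n+2)}` of a linear combination of the `genR` is the coefficient
of `bb l n`. -/
theorem co_comp_linearCombination (l : Fin g) (n : ℕ) :
    (co l (-((n : ℤ) + 2))).comp (Finsupp.linearCombination R (genR D R)) =
      Finsupp.lapply (some (l, n)) := by
  apply Finsupp.lhom_ext
  intro j x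
  rw [LinearMap.comp_apply, Finsupp.linearCombination_single, map_smul, smul_eq_mul,
    Finsupp.lapply_apply, Finsupp.single_apply]
  rcases j with _ | ⟨i, n'⟩
  · rw [co_genR_none D R l _ (by omega), mul_zero, if_neg (by simp)]
  · have h1 : ¬ (-((n : ℤ) + 2) = -1) := by omega
    rw [co_genR_some D R i n' l _ (by omega), if_neg h1, add_zero]
    by_cases h : l = i ∧ -((n : ℤ) + 2) = -((n' : ℤ) + 2)
    · obtain ⟨rfl, h2⟩ := h
      have : n' = n := by omega
      subst this
      rw [if_pos ⟨rfl, rfl⟩, mul_one, if_pos rfl]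
    · rw [if_neg h, mul_zero, if_neg]
      intro h'
      apply h
      have h'' := Option.some.inj h'
      rw [Prod.mk.injEq] at h''
      exact ⟨h''.1.symm, by rw [h''.2]⟩

/-- `uniq`: uniqueness of the decomposition modulo `I^(r+1)`. -/
theorem hyp_uniq (I : Ideal R) (r : ℕ) (a : Lam g R)
    (ha : a ∈ (I ^ r) • Subalgebra.toSubmodule (AR D R)) (b : Lam g R)
    (hb : b ∈ (I ^ r) • Subalgebra.toSubmodule (BR g R)) (c : Fin g → R)
    (_hc : ∀ i, c i ∈ I ^ r) (h : a + b - ∑ i, c i • wLam g R i ∈ IL I (r + 1)) :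
    (∀ i, c i ∈ I ^ (r + 1)) ∧ ∃ ξ ∈ I ^ r,
      a - ξ • (1 : Lam g R) ∈ (I ^ (r + 1)) • Subalgebra.toSubmodule (AR D R) ∧
        b + ξ • (1 : Lam g R) ∈ (I ^ (r + 1)) • Subalgebra.toSubmodule (BR g R) := by
  have hbB : b ∈ BR g R := Submodule.smul_le_right hb
  rw [AR_toSubmodule, Asub] at ha
  obtain ⟨a₀, ha₀, rfl⟩ := (Submodule.mem_ideal_smul_span_iff_exists_sum _ _ _).1 ha
  rw [← Finsupp.linearCombination_apply] at h ⊢
  -- the coefficients of the `bb l n` lie in `I^(r+1)`
  have key : ∀ (l : Fin g) (n : ℕ), a₀ (some (l, n)) ∈ I ^ (r + 1) := by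
    intro l n
    have h1 := IL_le_coeffIdeal I (r + 1) h l (-((n : ℤ) + 2))
    rw [← co_apply, map_sub, map_add, co_sum_smul_wLam, if_neg (by omega),
      (mem_BR R).1 hbB l _ (by omega), add_zero, sub_zero, ← LinearMap.comp_apply,
      co_comp_linearCombination] at h1
    exact h1
  -- the constant
  have herase : Finsupp.linearCombination R (genR D R) a₀ - a₀ none • (1 : Lam g R) =
      Finsupp.linearCombination R (genR D R) (a₀.erase none) := by
    rw [sub_eq_iff_eq_add', Finsupp.linearCombination_apply, Finsupp.linearCombination_apply,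
      ← genR_none D R]
    exact (Finsupp.add_sum_erase' a₀ none (fun j x => x • genR D R j)
      (fun j => zero_smul R _)).symm
  have ha' : Finsupp.linearCombination R (genR D R) a₀ - a₀ none • (1 : Lam g R) ∈
      (I ^ (r + 1)) • Subalgebra.toSubmodule (AR D R) := by
    rw [herase, AR_toSubmodule, Asub, Submodule.mem_ideal_smul_span_iff_exists_sum]
    refine ⟨a₀.erase none, ?_, (Finsupp.linearCombination_apply R _).symm⟩
    intro j
    rcases j with _ | ⟨i, n⟩
    · rw [Finsupp.erase_same]
      exact Ideal.zero_mem _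
    · rw [Finsupp.erase_ne (by simp)]
      exact key i n
  -- subtract
  have h2 : a₀ none • (1 : Lam g R) + b - ∑ i, c i • wLam g R i ∈ IL I (r + 1) := by
    have h3 := Ideal.sub_mem _ h (mem_IL_of_mem_smul I _ ha')
    have : Finsupp.linearCombination R (genR D R) a₀ + b - ∑ i, c i • wLam g R i -
        (Finsupp.linearCombination R (genR D R) a₀ - a₀ none • (1 : Lam g R)) =
        a₀ none • (1 : Lam g R) + b - ∑ i, c i • wLam g R i := by ring
    rwa [this] at h3
  have hcc : ∀ i, c i ∈ I ^ (r + 1) := by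
    intro l
    have h1 := IL_le_coeffIdeal I (r + 1) h2 l (-1)
    rw [← co_apply, map_sub, map_add, co_sum_smul_wLam, if_pos rfl,
      (mem_BR R).1 hbB l _ (by omega), add_zero, map_smul, co_one, if_neg (by omega),
      smul_zero, zero_sub] at h1
    exact (Ideal.neg_mem_iff _).1 h1
  refine ⟨hcc, a₀ none, ha₀ none, ha', ?_⟩
  have h4 : b + a₀ none • (1 : Lam g R) ∈ IL I (r + 1) := by
    have h5 := Ideal.add_mem _ h2 (sum_smul_mem_IL I (wLam g R) hcc)
    have : a₀ none • (1 : Lam g R) + b - ∑ i, c i • wLam g R i + ∑ i, c i • wLam g R i =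
        b + a₀ none • (1 : Lam g R) := by ring
    rwa [this] at h5
  have h6 : b + a₀ none • (1 : Lam g R) ∈ BR g R :=
    Subalgebra.add_mem _ hbB (Subalgebra.smul_mem _ (Subalgebra.one_mem _) _)
  exact mem_smul_Bb_of_mem_map (I ^ (r + 1)) h6 h4

/-- **The hypotheses of the normal-form lemma `NormalForm23`** hold for `AR`, `BR`, `wLam`
over every `O`-algebra `R` and every nilpotent ideal `I` of `R`. -/
theorem hyp (I : Ideal R) (hI : ∃ j : ℕ, I ^ j = ⊥) :
    Hyp I (AR D R) (BR g R) (wLam g R) where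
  nilp := hI
  split := hyp_split D I
  uniq := hyp_uniq D I

end Fermat.Agent.ES.V19.NormalFormBasis14
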