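/-
Programme V (S19), chapter B4' (Ld), helper9: **from the normalised functions `bb_{i,n}` to helper14's `BasisData`**.

Setting of `BasisQbar9` (`K F` arbitrary fields, `HL`, `hR`, `Q`, `h0`, `hQ`, `t`, `ht`, `Ps`), `B : BBData HL ht Ps` the
normalised family.  `ExpK HL ht : F →+* Lam g K` is the tuple of the Laurent expansions at the `Q i`.

**`exists_basisData`**: if `O ≤ K` is a subring containing ALL the Laurent coefficients of ALL the `bb i n` at all the
`Q l`, then there is `D : NormalFormBasis14.BasisData ↥O g` with
`mapLam O.subtype (D.bb i n) = ExpK HL ht (B.bb i n)` and `(D.cc i n l : K) = B.cc i n l`: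
the exact polar parts are those of `B`, and the products `bb i n * bb i' n'` lie in the `O`-span of the `bb l m`
(their coordinates are polar coefficients of a product of two series with coefficients in `O`, and the constant
term vanishes because everything vanishes at `Ps`).
-/
import Mathlib
import Fermat.Agent.ES.V19.BasisQbar9
import Fermat.Agent.ES.V19.NormalFormBasis14

set_option autoImplicit false

open AlgebraicCurve

noncomputable section

namespace Fermat.Agent.ES.V19.BasisData9

open Fermat.Agent.RR Fermat.Agent.RR.LSpace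
  Fermat.Agent.ES.V19.OnePlaceRep9 Fermat.Agent.ES.V19.BasisQbar9
  Fermat.Agent.ES.V19.LaurentTuple14 Fermat.Agent.ES.V19.NormalFormBasis14
open Fermat.Agent.ES.V19.LaurentMap19 (Lam mapLam)

/-! ### Restriction of the coefficients to a subring -/

section Restrict

variable {K : Type*} [Field K] (O : Subring K)

/-- a Laurent series with coefficients in `O`, as a series over `O`. -/
def restrOne (x : HahnSeries ℤ K) (hx : ∀ m, x.coeff m ∈ O) : HahnSeries ℤ ↥O where
  coeff m := ⟨x.coeff m, hx m⟩
  isPWO_support' := x.isPWO_support.mono (by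
    intro m hm
    rw [Function.mem_support] at hm
    rw [HahnSeries.mem_support]
    intro h
    apply hm
    exact Subtype.ext h)

@[simp] theorem restrOne_coeff (x : HahnSeries ℤ K) (hx : ∀ m, x.coeff m ∈ O) (m : ℤ) :
    ((restrOne O x hx).coeff m : K) = x.coeff m := rfl

/-- a tuple of Laurent series with coefficients in `O`, as a tuple over `O`. -/
def restrLam {g : ℕ} (x : Lam g K) (hx : ∀ i m, (x i).coeff m ∈ O) : Lam g ↥O :=
  fun i => restrOne O (x i) (hx i)

theorem mapLam_restrLam {g : ℕ} (x : Lam g K) (hx : ∀ i m, (x i).coeff m ∈ O) :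
    mapLam O.subtype (restrLam O x hx) = x := by
  ext i d
  rw [LaurentMap19.mapLam_coeff]
  rfl

theorem mapLam_subtype_injective {g : ℕ} :
    Function.Injective (mapLam (g := g) O.subtype) := by
  intro x y h
  ext i d
  have := congrArg (fun z : Lam g K => (z i).coeff d) h
  simp only [LaurentMap19.mapLam_coeff] at this
  exact this

end Restrict

variable {K F : Type*} [Field K] [Field F] [Algebra K F]

section Main

variable (HL : LHyp K F) {Q : Fin (genusFF K F) → Place K F}
  {t : Fin (genusFF K F) → F} (ht : ∀ i, (Q i).ord (t i) = 1)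

/-- the tuple of the Laurent expansions at the `Q i`. -/
def ExpK : F →+* Lam (genusFF K F) K :=
  RingHom.pi (f := fun _ : Fin (genusFF K F) => LaurentSeries K) fun i => ex HL ht i

@[simp] theorem ExpK_apply (f : F) (i : Fin (genusFF K F)) : ExpK HL ht f i = ex HL ht i f := rfl

theorem ExpK_algebraMap_mul (c : K) (f : F) :
    ExpK HL ht (algebraMap K F c * f) = c • ExpK HL ht f := by
  ext i d
  rw [LaurentMap19.smul_apply_coeff, ExpK_apply, ExpK_apply, map_mul, ex_algebraMap,
    HahnSeries.C_mul_eq_smul, HahnSeries.coeff_smul, smul_eq_mul]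

variable (hR : ∃ γ : ℤ, ∀ D : Divisor K F,
    Divisor.degree D + 1 - γ ≤ (Module.finrank K (riemannRochSpace D) : ℤ))
  (h0 : Module.finrank K (H1 (redDiv Q)) = 0) (hQ : Function.Injective Q)
  {Ps : Place K F} (B : BBData HL ht (Q := Q) Ps)

omit [Algebra K F] in
/-- coefficients of a product of two series with coefficients in a subring. -/
theorem coeff_mul_mem (O : Subring K) {x y : HahnSeries ℤ K} (hx : ∀ m, x.coeff m ∈ O)
    (hy : ∀ m, y.coeff m ∈ O) (m : ℤ) : (x * y).coeff m ∈ O := by
  rw [HahnSeries.coeff_mul]
  exact Subring.sum_mem _ fun p _ => Subring.mul_mem _ (hx _) (hy _)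

include hR h0 hQ in
/-- **helper14's `BasisData` from the normalised family**, over any subring containing its Laurent coefficients. -/
theorem exists_basisData (O : Subring K)
    (hO : ∀ i n l m, (ex HL ht l (B.bb i n)).coeff m ∈ O) :
    ∃ D : BasisData ↥O (genusFF K F),
      (∀ i n, mapLam O.subtype (D.bb i n) = ExpK HL ht (B.bb i n)) ∧
      (∀ i n l, ((D.cc i n l : ↥O) : K) = B.cc i n l) := by
  classical
  -- the residues lie in `O`
  have hcc : ∀ i n l, B.cc i n l = (ex HL ht l (B.bb i n)).coeff (-1) := by
    intro i n l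
    have h := B.polar i n l (-1) (by omega)
    rw [if_neg, if_pos rfl, zero_add] at h
    · exact h.symm
    · intro h2
      have := h2.2
      omega
  have hccO : ∀ i n l, B.cc i n l ∈ O := fun i n l => by
    rw [hcc]
    exact hO i n l (-1)
  let bbO : Fin (genusFF K F) → ℕ → Lam (genusFF K F) ↥O := fun i n =>
    restrLam O (ExpK HL ht (B.bb i n)) (fun l m => hO i n l m)
  have hmap : ∀ i n, mapLam O.subtype (bbO i n) = ExpK HL ht (B.bb i n) := fun i n =>
    mapLam_restrLam O _ _
  refine ⟨⟨bbO, fun i n l => ⟨B.cc i n l, hccO i n l⟩, ?_, ?_⟩, hmap, fun i n l => rfl⟩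
  · -- exact polar parts
    intro i n l m hm
    apply Subtype.ext
    have h := B.polar i n l m hm
    show (ex HL ht l (B.bb i n)).coeff m = _
    rw [h]
    by_cases h1 : l = i ∧ m = -((n : ℤ) + 2)
    · have h2 : m ≠ -1 := by
        have := h1.2
        omega
      rw [if_pos h1, if_neg h2, if_pos h1, if_neg h2]
      simp
    · by_cases h2 : m = -1
      · rw [if_neg h1, if_pos h2, if_neg h1, if_pos h2]
        simp
      · rw [if_neg h1, if_neg h2, if_neg h1, if_neg h2]
        simp
  · -- products
    intro i n i' n'
    set p : F := B.bb i n * B.bb i' n' with hp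
    have hpmem : p ∈ BaK Q := Subalgebra.mul_mem _ (B.mem i n) (B.mem i' n')
    have hpvan : Van Ps p := van_mul (B.van i n) (mem_of_van (B.van i' n'))
    obtain ⟨N, hN⟩ := exists_bound (fun l => ex HL ht l p)
    have hsum := eq_sum_of_van HL ht hR h0 hQ B hpmem hpvan hN
    -- the coordinates lie in `O`
    have he : ∀ l m, (ex HL ht l p).coeff m ∈ O := by
      intro l m
      rw [hp, map_mul]
      exact coeff_mul_mem O (fun m => hO i n l m) (fun m => hO i' n' l m) m
    -- the identity over `O`
    have hid : bbO i n * bbO i' n'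
        = ∑ l, ∑ m ∈ Finset.range N,
            (⟨(ex HL ht l p).coeff (-((m : ℤ) + 2)), he l _⟩ : ↥O) • bbO l m := by
      apply mapLam_subtype_injective O
      rw [map_mul, hmap, hmap, ← map_mul, ← hp, map_sum]
      conv_lhs => rw [hsum]
      rw [map_sum]
      apply Finset.sum_congr rfl
      intro l _
      rw [map_sum, map_sum]
      apply Finset.sum_congr rfl
      intro m _
      rw [LaurentMap19.mapLam_smul, hmap, ExpK_algebraMap_mul]
      rfl
    rw [hid]
    apply Submodule.sum_mem
    intro l _
    apply Submodule.sum_mem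
    intro m _
    apply Submodule.smul_mem
    exact Submodule.subset_span ⟨some (l, m), rfl⟩

end Main

end Fermat.Agent.ES.V19.BasisData9

end
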