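/-
Programme V (S19), chapter B4' (Ld), helper9: **semilinear automorphisms and the Laurent expansions; the normalised
functions `bb_{i,n}` are fixed by every automorphism fixing their characterisation**.

* `expandF_comp` : `K F` fields, `σK : K →+* K`, `σF : F →+* F` semilinear (`σF (algebraMap c) = algebraMap (σK c)`),
  `v v'` places of degree one with uniformisers `t t'`, `σF (𝒪_v) ⊆ 𝒪_{v'}` and `σF t = t'`.  Then
  `expandF_{v',t'} (σF f) = coeffMap σK (expandF_{v,t} f)` (functoriality of the Taylor expansion `TaylorAbs9.expand_map`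
  on the valuation rings, extended to the fraction field).
* `bb_fixed` : in the setting of `BasisQbar9`, if `σF` preserves every `𝒪_{Q l}`, fixes every `t l`, preserves
  `BaK Q` (it permutes the places outside the `Q l`) and preserves the functions vanishing at `Ps`, then
  `σF (B.bb i n) = B.bb i n`; hence (`coeff_bb_fixed`) ALL the Laurent coefficients of the `bb i n` are fixed by `σK`.
-/
import Mathlib
import Fermat.Prelude.Def_ModularCurve_LaurentCoeff
import Fermat.Agent.ES.V19.BasisQbar9

set_option autoImplicit false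

open AlgebraicCurve

noncomputable section

namespace Fermat.Agent.ES.V19.BasisGal9

open Fermat.Agent.X0.FF Fermat.Agent.RR Fermat.Agent.RR.LSpace
  Fermat.Agent.ES.V19.OnePlaceRep9 Fermat.Agent.ES.V19.TaylorAbs9 Fermat.Agent.ES.V19.ExpandPlace9
  Fermat.Agent.ES.V19.BasisQbar9

variable {K F : Type*} [Field K] [Field F] [Algebra K F]

/-- coefficientwise map of a power series, viewed as a Laurent series. -/
theorem coeffMap_ofPowerSeries (σK : K →+* K) (p : PowerSeries K) :
    ModularCurve.coeffMap σK (HahnSeries.ofPowerSeries ℤ K p)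
      = HahnSeries.ofPowerSeries ℤ K (PowerSeries.map σK p) := by
  ext i
  rw [ModularCurve.coeffMap_coeff, PowerSeries.coeff_coe, PowerSeries.coeff_coe]
  split_ifs
  · exact map_zero σK
  · rw [PowerSeries.coeff_map]

section Equivariance

variable {v v' : Place K F} (hres : ResK v) (hres' : ResK v') {t t' : F}
  (ht : v.ord t = 1) (ht' : v'.ord t' = 1)
  (σK : K →+* K) (σF : F →+* F)
  (hsemi : ∀ c : K, σF (algebraMap K F c) = algebraMap K F (σK c))
  (hO : ∀ f : F, f ∈ v.toValuationSubring → σF f ∈ v'.toValuationSubring)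
  (hσt : σF t = t')

/-- `σF` restricted to the valuation rings. -/
def restrO (hO : ∀ f : F, f ∈ v.toValuationSubring → σF f ∈ v'.toValuationSubring) :
    ↥v.toValuationSubring →+* ↥v'.toValuationSubring :=
  (σF.comp v.toValuationSubring.subtype).codRestrict v'.toValuationSubring.toSubring
    (fun a => hO a a.2)

theorem coe_restrO (a : ↥v.toValuationSubring) : ((restrO σF hO a : ↥v'.toValuationSubring) : F) = σF a :=
  rfl

include hsemi hσt in
/-- equivariance of the Taylor expansion on the valuation ring. -/
theorem expandO_restrO (a : ↥v.toValuationSubring) :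
    expandO hres' ht' (restrO σF hO a) = PowerSeries.map σK (expandO hres ht a) := by
  apply expand_map (isUnif hres ht) (isUnif hres' ht') σK (restrO σF hO)
  · intro c
    apply Subtype.ext
    rw [coe_restrO, v.coe_algebraMap, v'.coe_algebraMap, hsemi]
  · apply Subtype.ext
    rw [coe_restrO, coe_tO, coe_tO, hσt]

include hsemi hσt hO in
/-- **Equivariance of the Laurent expansion.** -/
theorem expandF_comp :
    (expandF hres' ht').comp σF = (ModularCurve.coeffMap σK).comp (expandF hres ht) := by
  apply IsFractionRing.ringHom_ext (A := ↥v.toValuationSubring)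
  intro a
  show expandF hres' ht' (σF (a : F)) = ModularCurve.coeffMap σK (expandF hres ht (a : F))
  rw [expandF_coe, ← coe_restrO σF hO a, expandF_coe, expandO_restrO hres hres' ht ht' σK σF hsemi hO hσt,
    coeffMap_ofPowerSeries]

include hsemi hσt hO in
theorem expandF_apply_map (f : F) :
    expandF hres' ht' (σF f) = ModularCurve.coeffMap σK (expandF hres ht f) :=
  RingHom.congr_fun (expandF_comp hres hres' ht ht' σK σF hsemi hO hσt) f

include hsemi hσt hO in
theorem coeff_expandF_map (f : F) (k : ℤ) :
    (expandF hres' ht' (σF f)).coeff k = σK ((expandF hres ht f).coeff k) := by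
  rw [expandF_apply_map hres hres' ht ht' σK σF hsemi hO hσt]
  rfl

end Equivariance

section Fixed

variable (HL : LHyp K F) {Q : Fin (genusFF K F) → Place K F}
  {t : Fin (genusFF K F) → F} (ht : ∀ i, (Q i).ord (t i) = 1)
  (hR : ∃ γ : ℤ, ∀ D : Divisor K F,
    Divisor.degree D + 1 - γ ≤ (Module.finrank K (riemannRochSpace D) : ℤ))
  (h0 : Module.finrank K (H1 (redDiv Q)) = 0) (hQ : Function.Injective Q)
  {Ps : Place K F} (B : BBData HL ht (Q := Q) Ps)
  (σK : K →+* K) (σF : F →+* F)
  (hsemi : ∀ c : K, σF (algebraMap K F c) = algebraMap K F (σK c))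
  (hO : ∀ l, ∀ f : F, f ∈ (Q l).toValuationSubring → σF f ∈ (Q l).toValuationSubring)
  (hσt : ∀ l, σF (t l) = t l)
  (hBa : ∀ f : F, f ∈ BaK Q → σF f ∈ BaK Q)
  (hvan : ∀ f : F, Van Ps f → Van Ps (σF f))

include hsemi hO hσt in
/-- the Laurent expansion at `Q l` of `σF f`. -/
theorem coeff_ex_map (l : Fin (genusFF K F)) (f : F) (k : ℤ) :
    (ex HL ht l (σF f)).coeff k = σK ((ex HL ht l f).coeff k) :=
  coeff_expandF_map (HL.residue (Q l)) (HL.residue (Q l)) (ht l) (ht l) σK σF hsemi (hO l) (hσt l) f k

include hR h0 hQ hsemi hO hσt hBa hvan in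
/-- **The normalised functions are fixed.** -/
theorem bb_fixed (i : Fin (genusFF K F)) (n : ℕ) : σF (B.bb i n) = B.bb i n := by
  apply eq_of_polar HL ht hR h0 hQ (hBa _ (B.mem i n)) (hvan _ (B.van i n)) (B.mem i n) (B.van i n)
  intro l k hk
  rw [coeff_ex_map HL ht σK σF hsemi hO hσt, B.polar i n l k (by omega), if_neg (by omega : ¬ k = -1),
    add_zero]
  split_ifs
  · exact map_one σK
  · exact map_zero σK

include hR h0 hQ hsemi hO hσt hBa hvan in
/-- **All the Laurent coefficients of the normalised functions are fixed.** -/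
theorem coeff_bb_fixed (i : Fin (genusFF K F)) (n : ℕ) (l : Fin (genusFF K F)) (k : ℤ) :
    σK ((ex HL ht l (B.bb i n)).coeff k) = (ex HL ht l (B.bb i n)).coeff k := by
  rw [← coeff_ex_map HL ht σK σF hsemi hO hσt, bb_fixed HL ht hR h0 hQ B σK σF hsemi hO hσt hBa hvan]

end Fixed

end Fermat.Agent.ES.V19.BasisGal9

end
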