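/-
Programme V (S19), chapter B4′ (helper15): THE SUP TRICK (La) AND `l(E₀) = 1` (Lb), ABSTRACT FORM.

Context `RedCtx A π G red r` (fields `F / L`, `Ft / k` ARBITRARY):
`A : ValuationSubring L`, `π : A →+* k` killing the non-units, `G ⊂ F` a ring of `A`-integral
functions (`q`-expansion ring / chart ring) with reduction `red : G →+* Ft`,
`r : Place L F → Place k Ft` the reduction of places;  "Gauss-integral", "Gauss unit", "reduction"
are the FRACTION notions `IsGI`, `IsGU`, `IsRedOf` of `GaussFrac15`;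
* `scale` : every `f ≠ 0` is `c · u` with `c ∈ Lˣ`, `u` a Gauss unit;
* `r1`    : `div (red g) = r_* div g` for `g ∈ G`, `red g ≠ 0` (shape of the Prelude's
            `ModularCurve.IsPlaceReductionAlong`).

With `HL : RR.LSpace.LHyp L F` (places of degree one, principal divisors) and a place `P⋆`:
* `r1_isRedOf` : `div φ = r_* div u` for a Gauss unit `u` with reduction `φ`;
* `exists_scale_of_zero` (La1): `f` regular on the disc of `r P⋆`, `f(P⋆) = 0` ⇒
  `f = c · u`, `u` a Gauss unit whose reduction vanishes at `r P⋆`;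
* `isGI_of_sub_const` (La2, the sup trick): then `f - d` Gauss-integral (`d` constant) ⇒
  `f` Gauss-integral and `d ∈ A`;
* `red_mem_L`: `u ∈ L(D)` a Gauss unit with reduction `φ` ⇒ `φ ∈ L(r_* D)`;
* `const_of_mem_L` (Lb1): `L(r_* E₀) = k`, the disc of `r P⋆` disjoint from `E₀ ≥ 0` ⇒ `L(E₀) = L`.
No Gauss norm, no disc lemma (Db), no completeness.
-/
import Mathlib
import Fermat.Prelude.Def_AlgebraicCurve_Repartitions
import Fermat.Agent.X0.FFDict
import Fermat.Agent.RR.LSpace
import Fermat.Agent.ES.V19.GaussFrac15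

set_option autoImplicit false

open AlgebraicCurve

namespace Fermat.Agent.ES.V19.SupTrick15

open Fermat.Agent.X0.FF Fermat.Agent.RR.LSpace Fermat.Agent.ES.V19.GaussFrac15

variable {L F k Ft : Type*} [Field L] [Field F] [Algebra L F] [Field k] [Field Ft] [Algebra k Ft]

/-- The reduction context (see the file header). -/
structure RedCtx (A : ValuationSubring L) (π : ↥A →+* k) (G : Subring F) (red : ↥G →+* Ft)
    (r : Place L F → Place k Ft) : Prop where
  const_mem : ∀ a : ↥A, algebraMap L F (a : L) ∈ G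
  red_const : ∀ a : ↥A, red ⟨algebraMap L F (a : L), const_mem a⟩ = algebraMap k Ft (π a)
  pi_nonunit : ∀ a : ↥A, ¬ IsUnit a → π a = 0
  scale : ∀ f : F, f ≠ 0 → ∃ c : L, c ≠ 0 ∧ IsGU G red ((algebraMap L F c)⁻¹ * f)
  r1 : ∀ g : ↥G, red g ≠ 0 → ∀ D : Divisor L F, (∀ P, D P = P.ord (g : F)) →
    ∀ Q : Place k Ft, Finsupp.mapDomain r D Q = Q.ord (red g)

/-- `r_* D` evaluated at `Q` is the sum of `D` over the disc of `Q`. -/
theorem mapDomain_apply_eq_sum {α β : Type*} [DecidableEq β] (r : α → β) (D : α →₀ ℤ) (Q : β) :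
    Finsupp.mapDomain r D Q = ∑ P ∈ D.support, if r P = Q then D P else 0 := by
  rw [Finsupp.mapDomain, Finsupp.sum, Finsupp.finsetSum_apply]
  refine Finset.sum_congr rfl fun P _ => ?_
  rw [Finsupp.single_apply]

/-- `r_* D ≥ 0` at `Q` when `D ≥ 0` on the disc of `Q`. -/
theorem mapDomain_apply_nonneg {α β : Type*} (r : α → β) (D : α →₀ ℤ) (Q : β)
    (h : ∀ P, r P = Q → 0 ≤ D P) : 0 ≤ Finsupp.mapDomain r D Q := by
  classical
  rw [mapDomain_apply_eq_sum]
  refine Finset.sum_nonneg fun P _ => ?_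
  split_ifs with hP
  · exact h P hP
  · exact le_refl _

/-- `r_* D > 0` at `r P₀` when `D ≥ 0` on the disc and `D P₀ > 0`. -/
theorem mapDomain_apply_pos {α β : Type*} (r : α → β) (D : α →₀ ℤ) (P₀ : α)
    (h : ∀ P, r P = r P₀ → 0 ≤ D P) (h₀ : 0 < D P₀) : 0 < Finsupp.mapDomain r D (r P₀) := by
  classical
  rw [mapDomain_apply_eq_sum]
  have hmem : P₀ ∈ D.support := Finsupp.mem_support_iff.mpr (ne_of_gt h₀)
  refine lt_of_lt_of_le ?_ (Finset.single_le_sum (f := fun P => if r P = r P₀ then D P else 0)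
    (fun P _ => ?_) hmem)
  · simpa using h₀
  · show 0 ≤ if r P = r P₀ then D P else 0
    split_ifs with hP
    · exact h P hP
    · exact le_refl _

/-- a non-element of a valuation ring has a non-unit inverse in it. -/
theorem inv_nonunit_of_notMem {A : ValuationSubring L} {c : L} (hc : c ∉ A) :
    ∃ hinv : c⁻¹ ∈ A, ¬ IsUnit (⟨c⁻¹, hinv⟩ : ↥A) := by
  have hinv : c⁻¹ ∈ A := (A.mem_or_inv_mem c).resolve_left hc
  have hc0 : c ≠ 0 := fun h => hc (by rw [h]; exact A.zero_mem)
  refine ⟨hinv, fun hu => ?_⟩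
  obtain ⟨w, hw⟩ := hu.exists_right_inv
  apply hc
  have h1 : c⁻¹ * (w : L) = 1 := by
    have := congrArg Subtype.val hw
    simpa using this
  have h2 : (w : L) = c := by
    have h3 : c * (c⁻¹ * (w : L)) = c * 1 := by rw [h1]
    rwa [← mul_assoc, mul_inv_cancel₀ hc0, one_mul, mul_one] at h3
  rw [← h2]; exact w.2

section ctx

variable {A : ValuationSubring L} {π : ↥A →+* k} {G : Subring F} {red : ↥G →+* Ft}
  {r : Place L F → Place k Ft}

/-- the constant `a ∈ A` as an element of `G`. -/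
def RedCtx.const (C : RedCtx A π G red r) (a : ↥A) : ↥G := ⟨algebraMap L F (a : L), C.const_mem a⟩

theorem RedCtx.red_const' (C : RedCtx A π G red r) (a : ↥A) :
    red (C.const a) = algebraMap k Ft (π a) := C.red_const a

/-- the reduction of a constant of `A`. -/
theorem RedCtx.isRedOf_const (C : RedCtx A π G red r) (a : ↥A) :
    IsRedOf G red (algebraMap L F (a : L)) (algebraMap k Ft (π a)) := by
  have := isRedOf_of_mem (G := G) (red := red) (C.const a)
  rwa [C.red_const'] at this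

/-- A Gauss-integral constant of `L` lies in `A`. -/
theorem RedCtx.mem_of_const_isGI (C : RedCtx A π G red r) (c : L)
    (hc : IsGI G red (algebraMap L F c)) : c ∈ A := by
  by_contra hcA
  obtain ⟨hinv, hnu⟩ := inv_nonunit_of_notMem hcA
  have hc0 : c ≠ 0 := fun h => hcA (by rw [h]; exact A.zero_mem)
  obtain ⟨a, b, hb, hab⟩ := hc
  apply hb
  have hbeq : b = C.const ⟨c⁻¹, hinv⟩ * a := by
    apply Subtype.ext
    show (b : F) = algebraMap L F c⁻¹ * (a : F)
    rw [← hab, ← mul_assoc, ← map_mul, inv_mul_cancel₀ hc0, map_one, one_mul]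
  rw [hbeq, map_mul, C.red_const', C.pi_nonunit _ hnu, map_zero, zero_mul]

variable (C : RedCtx A π G red r) (HL : LHyp L F)

include C HL

/-- **(r1) for Gauss units**: `div φ = r_* div u` when `φ ≠ 0` is the reduction of `u`. -/
theorem r1_isRedOf (u : F) (φ : Ft) (hu : IsRedOf G red u φ) (hφ : φ ≠ 0)
    (D : Divisor L F) (hD : ∀ P, D P = P.ord u) (Q : Place k Ft) :
    Finsupp.mapDomain r D Q = Q.ord φ := by
  obtain ⟨a, b, hb, hab, hφab⟩ := hu
  have ha : red a ≠ 0 := by rw [← hφab]; exact mul_ne_zero hφ hb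
  have ha0 : (a : F) ≠ 0 := coe_ne_zero_of_red_ne_zero ha
  have hb0 : (b : F) ≠ 0 := coe_ne_zero_of_red_ne_zero hb
  have hu0 : u ≠ 0 := by
    intro h0
    rw [h0, zero_mul] at hab
    exact ha0 hab.symm
  have hDeq : D = divOf HL ha0 - divOf HL hb0 := by
    ext P
    rw [Finsupp.sub_apply, divOf_apply, divOf_apply, hD P, ← hab, P.ord_mul hu0 hb0]
    ring
  have h1 := C.r1 a ha (divOf HL ha0) (fun P => divOf_apply HL ha0 P) Q
  have h2 := C.r1 b hb (divOf HL hb0) (fun P => divOf_apply HL hb0 P) Q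
  rw [hDeq, Finsupp.mapDomain_sub, Finsupp.sub_apply, h1, h2]
  have h3 : Q.ord (red a) = Q.ord φ + Q.ord (red b) := by
    rw [← hφab, Q.ord_mul hφ hb]
  omega

/-- **(La1)**: a function regular on the disc of `r P⋆` and vanishing at `P⋆` is a constant times
a Gauss unit whose reduction vanishes at `r P⋆`. -/
theorem exists_scale_of_zero (f : F) (Ps : Place L F)
    (hreg : ∀ P : Place L F, r P = r Ps → 0 ≤ P.ord f) (hzero : 0 < Ps.ord f) :
    ∃ (c : L) (u : F) (φ : Ft), c ≠ 0 ∧ f = algebraMap L F c * u ∧ IsRedOf G red u φ ∧ φ ≠ 0 ∧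
      0 < (r Ps).ord φ := by
  have hf : f ≠ 0 := by
    rintro rfl
    rw [Place.ord_zero] at hzero
    exact lt_irrefl _ hzero
  obtain ⟨c, hc, hgu⟩ := C.scale f hf
  obtain ⟨φ, hφ0, hφ⟩ := hgu.exists_isRedOf
  have hcF : algebraMap L F c ≠ 0 := fun h => hc ((algebraMap L F).injective (by rw [h, map_zero]))
  set u : F := (algebraMap L F c)⁻¹ * f with hu
  have hfu : f = algebraMap L F c * u := by
    rw [hu, ← mul_assoc, mul_inv_cancel₀ hcF, one_mul]
  refine ⟨c, u, φ, hc, hfu, hφ, hφ0, ?_⟩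
  have hu0 : u ≠ 0 := hgu.ne_zero
  have hord : ∀ P : Place L F, P.ord u = P.ord f := by
    intro P
    rw [hfu, P.ord_mul hcF hu0, ord_algebraMap, zero_add]
  rw [← r1_isRedOf C HL u φ hφ hφ0 (divOf HL hu0) (fun P => divOf_apply HL hu0 P) (r Ps)]
  apply mapDomain_apply_pos
  · intro P hP
    rw [divOf_apply, hord]
    exact hreg P hP
  · rw [divOf_apply, hord]
    exact hzero

/-- **(La2), the sup trick**: for `f` regular on the disc of `r P⋆` with `f(P⋆) = 0`: if a
translate `f - d` by a constant is Gauss-integral, then `f` is Gauss-integral and `d ∈ A`. -/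
theorem isGI_of_sub_const (f : F) (Ps : Place L F)
    (hreg : ∀ P : Place L F, r P = r Ps → 0 ≤ P.ord f) (hzero : 0 < Ps.ord f)
    (d : L) (hfd : IsGI G red (f - algebraMap L F d)) : IsGI G red f ∧ d ∈ A := by
  obtain ⟨c, u, φ, hc, hfu, hφ, hφ0, hpos⟩ := exists_scale_of_zero C HL f Ps hreg hzero
  have hcF : algebraMap L F c ≠ 0 := fun h => hc ((algebraMap L F).injective (by rw [h, map_zero]))
  have key : c ∈ A := by
    by_contra hcA
    obtain ⟨hinv, hnu⟩ := inv_nonunit_of_notMem hcA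
    obtain ⟨ψ, hψ⟩ := hfd.exists_isRedOf
    -- `c⁻¹ (f - d)` reduces to `0`
    have h1 : IsRedOf G red (algebraMap L F c⁻¹ * (f - algebraMap L F d)) 0 := by
      have := (C.isRedOf_const ⟨c⁻¹, hinv⟩).mul hψ
      rwa [C.pi_nonunit _ hnu, map_zero, zero_mul] at this
    -- `c⁻¹ d = u - c⁻¹ (f - d)` is a Gauss-integral constant
    have hrel : algebraMap L F (c⁻¹ * d) = u - algebraMap L F c⁻¹ * (f - algebraMap L F d) := by
      rw [hfu, map_mul, map_inv₀]
      field_simp
      ring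
    have h2 : IsRedOf G red (algebraMap L F (c⁻¹ * d)) (φ - 0) := by
      rw [hrel]; exact hφ.sub h1
    have hedA : c⁻¹ * d ∈ A := C.mem_of_const_isGI _ h2.isGI
    have h3 := h2.unique (C.isRedOf_const ⟨c⁻¹ * d, hedA⟩)
    rw [sub_zero] at h3
    rw [h3, ord_algebraMap] at hpos
    exact lt_irrefl _ hpos
  have hfG : IsGI G red f := by
    rw [hfu]
    exact ((C.isRedOf_const ⟨c, key⟩).mul hφ).isGI
  refine ⟨hfG, C.mem_of_const_isGI d ?_⟩
  have : algebraMap L F d = f - (f - algebraMap L F d) := by ring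
  rw [this]
  obtain ⟨ψ, hψ⟩ := hfd.exists_isRedOf
  obtain ⟨χ, hχ⟩ := hfG.exists_isRedOf
  exact (hχ.sub hψ).isGI

/-- **`L_O(D)/π ↪ L(r_* D)`**: the reduction of a Gauss unit of `L(D)` lies in `L(r_* D)`. -/
theorem red_mem_L (D : Divisor L F) (u : F) (φ : Ft) (hu : IsRedOf G red u φ) (hφ : φ ≠ 0)
    (huD : u ∈ riemannRochSpace D) :
    φ ∈ riemannRochSpace (Finsupp.mapDomain r D) := by
  have hu0 : u ≠ 0 := (hu.isGU hφ).ne_zero
  rw [mem_L_iff hφ]
  intro Q
  have h1 := r1_isRedOf C HL u φ hu hφ (divOf HL hu0) (fun P => divOf_apply HL hu0 P) Q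
  have h2 : 0 ≤ Finsupp.mapDomain r (divOf HL hu0 + D) Q := by
    apply mapDomain_apply_nonneg
    intro P _
    rw [Finsupp.add_apply, divOf_apply]
    have := (mem_L_iff hu0).mp huD P
    omega
  rw [Finsupp.mapDomain_add, Finsupp.add_apply, h1] at h2
  omega

/-- **(Lb1)**: if `L(r_* E₀)` consists of constants and the disc of `r P⋆` does not meet the
effective divisor `E₀`, then `L(E₀)` consists of constants. -/
theorem const_of_mem_L (E₀ : Divisor L F) (hE₀ : 0 ≤ E₀) (Ps : Place L F)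
    (hdisj : ∀ P : Place L F, r P = r Ps → E₀ P = 0)
    (hbar : ∀ h ∈ riemannRochSpace (Finsupp.mapDomain r E₀), ∃ x : k, h = algebraMap k Ft x)
    (f : F) (hf : f ∈ riemannRochSpace E₀) : ∃ c : L, f = algebraMap L F c := by
  -- `f` is regular at `P⋆`
  have hfPs : f ∈ Ps.toValuationSubring := by
    rw [mem_iff_ord_nonneg]
    rcases mem_riemannRochSpace_iff.mp hf Ps with h | h
    · exact Or.inl h
    · right
      rw [hdisj Ps rfl] at h
      simpa using h
  obtain ⟨c, hc | hc⟩ := HL.residue Ps f hfPs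
  · exact ⟨c, hc⟩
  exfalso
  set h : F := f - algebraMap L F c with hh
  have hconst : algebraMap L F c ∈ riemannRochSpace E₀ := by
    rw [mem_riemannRochSpace_iff]
    intro v
    right
    rw [ord_algebraMap]
    have := hE₀ v
    simp only [Finsupp.coe_zero, Pi.zero_apply] at this
    omega
  have hhE : h ∈ riemannRochSpace E₀ := Submodule.sub_mem _ hf hconst
  have hh0 : h ≠ 0 := by
    intro h0
    rw [h0, Place.ord_zero] at hc
    exact lt_irrefl _ hc
  have hreg : ∀ P : Place L F, r P = r Ps → 0 ≤ P.ord h := by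
    intro P hP
    have := (mem_L_iff hh0).mp hhE P
    rw [hdisj P hP] at this
    simpa using this
  obtain ⟨c', u, φ, hc', hhu, hφ, hφ0, hpos⟩ := exists_scale_of_zero C HL h Ps hreg hc
  have huE : u ∈ riemannRochSpace E₀ := by
    have : u = c'⁻¹ • h := by
      rw [Algebra.smul_def, hhu, ← mul_assoc, ← map_mul, inv_mul_cancel₀ hc', map_one, one_mul]
    rw [this]
    exact Submodule.smul_mem _ _ hhE
  obtain ⟨x, hx⟩ := hbar _ (red_mem_L C HL E₀ u φ hφ hφ0 huE)
  rw [hx, ord_algebraMap] at hpos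
  exact lt_irrefl _ hpos

end ctx

end Fermat.Agent.ES.V19.SupTrick15
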