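/-
Programme V (S19), chapter B4' (Lc)+(Ld), helper9: **integrality of the normalised functions `bb_{i,n}`**.

Context = helper15's `SupTrick15.RedCtx A π G red r` (Gauss-integral functions `IsGI`, reductions `IsRedOf`, scaling,
(r1)) on fields `F / L`, `Ft / k`, with `HL : LHyp L F`, `HLt : LHyp k Ft`, and the setting of `BasisQbar9` on the
generic fibre (`Q`, `t`, `h0`, `Ps`, `B : BBData HL ht Ps`).  Local input at each `Q i` (to be discharged from the disc
lemmas (Db), (Dd) of B3): `LocalRed` = the Laurent (Taylor) expansion at `Q i` of a Gauss-integral function REGULAR ON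
THE RESIDUE DISC of `Q i` has coefficients in `A` and reduces coefficientwise to the expansion of its reduction at
`r (Q i)`, in the parameters `t i ↦ tbar i`.

* `laurent_red` : the same for every Gauss-integral function with poles only at the `Q i` ((Lc): the Laurent
  coefficients of the elements of `B_a` lie in `A`, and `Exp` commutes with reduction);
* `isGI_bb` : **every `bb i n` is Gauss-integral** (if not, `ϖ • bb` would reduce to a non-zero function of
  `L(Ē₀) = k` vanishing at `r Ps`);
* `coeff_bb_mem` : all the Laurent coefficients of the `bb i n` lie in `A`.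
-/
import Mathlib
import Fermat.Agent.ES.V19.SupTrick15
import Fermat.Agent.ES.V19.BasisQbar9

set_option autoImplicit false

open AlgebraicCurve

noncomputable section

namespace Fermat.Agent.ES.V19.BasisInt9

open Fermat.Agent.X0.FF Fermat.Agent.RR Fermat.Agent.RR.LSpace
  Fermat.Agent.ES.V19.OnePlaceRep9 Fermat.Agent.ES.V19.ExpandPlace9 Fermat.Agent.ES.V19.BasisQbar9
  Fermat.Agent.ES.V19.GaussFrac15 Fermat.Agent.ES.V19.SupTrick15

variable {L F k Ft : Type*} [Field L] [Field F] [Algebra L F] [Field k] [Field Ft] [Algebra k Ft]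
  {A : ValuationSubring L}

/-- **Local reduction datum at `P`**: Laurent coefficients of Gauss-integral functions regular on the residue disc of
`P` lie in `A` and reduce to the Laurent coefficients of the reduction at `r P`. -/
def LocalRed (π : ↥A →+* k) (G : Subring F) (red : ↥G →+* Ft) (r : Place L F → Place k Ft)
    (HL : LHyp L F) (HLt : LHyp k Ft) (P : Place L F) {tP : F} (htP : P.ord tP = 1) {tbar : Ft}
    (htbar : (r P).ord tbar = 1) : Prop :=
  ∀ (f : F) (φ : Ft), IsRedOf G red f φ → (∀ P' : Place L F, r P' = r P → 0 ≤ P'.ord f) → ∀ m : ℤ,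
    ∃ a : ↥A, (a : L) = (expandF (HL.residue P) htP f).coeff m ∧
      (expandF (HLt.residue (r P)) htbar φ).coeff m = π a

section Gen

variable {G : Subring F} {red : ↥G →+* Ft}

theorem isRedOf_pow {f : F} {φ : Ft} (h : IsRedOf G red f φ) (n : ℕ) : IsRedOf G red (f ^ n) (φ ^ n) := by
  induction n with
  | zero =>
    rw [pow_zero, pow_zero]
    exact isRedOf_one
  | succ n ih =>
    rw [pow_succ, pow_succ]
    exact ih.mul h

end Gen

/-- coefficients of `t ^ N * f`. -/
theorem coeff_expandF_pow_mul {K E : Type*} [Field K] [Field E] [Algebra K E] {v : Place K E}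
    (hres : ResK v) {t : E} (ht : v.ord t = 1) (N : ℕ) (f : E) (m : ℤ) :
    (expandF hres ht (t ^ N * f)).coeff (m + N) = (expandF hres ht f).coeff m := by
  have h1 : expandF hres ht (t ^ N) = HahnSeries.single (N : ℤ) 1 := by
    have := expandF_unif_zpow hres ht (N : ℤ)
    rwa [zpow_natCast] at this
  rw [map_mul, h1, HahnSeries.coeff_single_mul_add, one_mul]

section Main

variable {π : ↥A →+* k} {G : Subring F} {red : ↥G →+* Ft} {r : Place L F → Place k Ft}
  (C : RedCtx A π G red r) (HL : LHyp L F) (HLt : LHyp k Ft)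
  {Q : Fin (genusFF L F) → Place L F} {t : Fin (genusFF L F) → F} (ht : ∀ i, (Q i).ord (t i) = 1)
  (hrQ : Function.Injective fun i => r (Q i))
  {tbar : Fin (genusFF L F) → Ft} (htbar : ∀ i, (r (Q i)).ord (tbar i) = 1)
  (htred : ∀ i, IsRedOf G red (t i) (tbar i))
  (htreg : ∀ i, ∀ P : Place L F, r P = r (Q i) → 0 ≤ P.ord (t i))
  (hloc : ∀ i, LocalRed π G red r HL HLt (Q i) (ht i) (htbar i))

include hrQ htreg in
/-- `t_l ^ N * f` is regular on the residue disc of `Q l`, for `f` with poles only at the `Q i`, of order `≤ N` at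
`Q l`. -/
theorem regular_on_disc {f : F} (hf : f ∈ BaK Q) (l : Fin (genusFF L F)) {N : ℕ}
    (hN : ∀ k : ℤ, k < -(N : ℤ) → (ex HL ht l f).coeff k = 0) (P : Place L F) (hP : r P = r (Q l)) :
    0 ≤ P.ord (t l ^ N * f) := by
  by_cases hf0 : f = 0
  · rw [hf0, mul_zero, Place.ord_zero]
  have ht0 : t l ≠ 0 := unif_ne_zero (ht l)
  rw [P.ord_mul (pow_ne_zero _ ht0) hf0, ← zpow_natCast, P.ord_zpow]
  by_cases hPQ : P = Q l
  · subst hPQ
    rw [ht l, mul_one]
    have := le_ord_of_coeff_expandF (HL.residue (Q l)) (ht l) hN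
    rcases this with h | h
    · exact absurd h hf0
    · omega
  · have hne : ∀ i, Q i ≠ P := by
      intro i hi
      have h1 : r (Q i) = r (Q l) := by rw [hi, hP]
      have h2 : i = l := hrQ h1
      apply hPQ
      rw [← hi, h2]
    have h1 := ffp_ord_nonneg_of_mem P (mem_BaK.mp hf P hne)
    have h2 := htreg l P hP
    have h3 : (0 : ℤ) ≤ (N : ℤ) * P.ord (t l) := mul_nonneg (Int.natCast_nonneg N) h2
    omega

include hrQ htreg htred hloc in
/-- **(Lc)**: the Laurent coefficients at the `Q l` of a Gauss-integral function with poles only at the `Q i` lie in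
`A`, and reduce to the Laurent coefficients of its reduction at `r (Q l)`. -/
theorem laurent_red {f : F} {φ : Ft} (hfφ : IsRedOf G red f φ) (hf : f ∈ BaK Q) (l : Fin (genusFF L F))
    (m : ℤ) :
    ∃ a : ↥A, (a : L) = (ex HL ht l f).coeff m ∧
      (expandF (HLt.residue (r (Q l))) (htbar l) φ).coeff m = π a := by
  -- a bound for the pole order at `Q l`
  obtain ⟨N, hN⟩ : ∃ N : ℕ, ∀ k : ℤ, k < -(N : ℤ) → (ex HL ht l f).coeff k = 0 := by
    refine ⟨(-(ex HL ht l f).order).toNat, fun k hk => ?_⟩
    apply HahnSeries.coeff_eq_zero_of_lt_order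
    have := Int.self_le_toNat (-(ex HL ht l f).order)
    omega
  have hreg := regular_on_disc HL ht hrQ htreg hf l hN
  have hred : IsRedOf G red (t l ^ N * f) (tbar l ^ N * φ) := (isRedOf_pow (htred l) N).mul hfφ
  obtain ⟨a, ha1, ha2⟩ := hloc l (t l ^ N * f) (tbar l ^ N * φ) hred hreg (m + N)
  refine ⟨a, ?_, ?_⟩
  · rw [ha1]
    exact coeff_expandF_pow_mul (HL.residue (Q l)) (ht l) N f m
  · rw [← ha2]
    exact (coeff_expandF_pow_mul (HLt.residue (r (Q l))) (htbar l) N φ m).symm

include hrQ htreg htred hloc in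
/-- the Laurent coefficients of a Gauss-integral function with poles only at the `Q i` lie in `A`. -/
theorem coeff_mem_of_isGI {f : F} (hfG : IsGI G red f) (hf : f ∈ BaK Q) (l : Fin (genusFF L F)) (m : ℤ) :
    (ex HL ht l f).coeff m ∈ A := by
  obtain ⟨φ, hφ⟩ := hfG.exists_isRedOf
  obtain ⟨a, ha, -⟩ := laurent_red HL HLt ht hrQ htbar htred htreg hloc hφ hf l m
  rw [← ha]
  exact a.2

variable {Ps : Place L F} (hstar : ∀ i, r (Q i) ≠ r Ps)

include C HL hstar in
/-- the reduction of a function with poles only at the `Q i` is regular outside the `r (Q i)`, and vanishes at `r Ps`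
if the function vanishes at `Ps`. -/
theorem reduction_regular {f : F} {φ : Ft} (hfφ : IsRedOf G red f φ) (hφ0 : φ ≠ 0) (hf : f ∈ BaK Q) :
    (∀ v : Place k Ft, (∀ i, r (Q i) ≠ v) → 0 ≤ v.ord φ) ∧ (Van Ps f → 0 < (r Ps).ord φ) := by
  have hf0 : f ≠ 0 := (hfφ.isGU hφ0).ne_zero
  have hr1 := r1_isRedOf C HL f φ hfφ hφ0 (divOf HL hf0) (fun P => divOf_apply HL hf0 P)
  constructor
  · intro v hv
    rw [← hr1 v]
    apply mapDomain_apply_nonneg
    intro P hP
    rw [divOf_apply]
    apply ffp_ord_nonneg_of_mem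
    apply mem_BaK.mp hf
    intro i hi
    apply hv i
    rw [hi, hP]
  · intro hvan
    rw [← hr1 (r Ps)]
    apply mapDomain_apply_pos
    · intro P hP
      rw [divOf_apply]
      apply ffp_ord_nonneg_of_mem
      apply mem_BaK.mp hf
      intro i hi
      apply hstar i
      rw [hi, hP]
    · rw [divOf_apply]
      rcases hvan with h | h
      · exact absurd h hf0
      · exact h

variable (hR : ∃ γ : ℤ, ∀ D : Divisor L F,
    Divisor.degree D + 1 - γ ≤ (Module.finrank L (riemannRochSpace D) : ℤ))
  (B : BBData HL ht (Q := Q) Ps)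
  (hbar : ∀ h : Ft, (∀ v : Place k Ft, (∀ i, r (Q i) ≠ v) → 0 ≤ v.ord h) →
    (∀ i, -1 ≤ (r (Q i)).ord h) → ∃ x : k, h = algebraMap k Ft x)

omit [Algebra k Ft] in
/-- the normalised functions are non-zero. -/
theorem bb_ne_zero (i : Fin (genusFF L F)) (n : ℕ) : B.bb i n ≠ 0 := by
  intro h
  have h1 := B.polar i n i (-((n : ℤ) + 2)) (by omega)
  rw [h, map_zero, if_pos ⟨rfl, rfl⟩, if_neg (by omega), add_zero] at h1
  exact zero_ne_one h1

include C HLt hrQ htreg htred hloc hstar hbar in
/-- **(Ld), integrality: every `bb i n` is Gauss-integral.** -/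
theorem isGI_bb (i : Fin (genusFF L F)) (n : ℕ) : IsGI G red (B.bb i n) := by
  set b := B.bb i n with hb
  have hb0 : b ≠ 0 := bb_ne_zero HL ht B i n
  obtain ⟨c, hc0, hgu⟩ := C.scale b hb0
  set u : F := (algebraMap L F c)⁻¹ * b with hu
  obtain ⟨φ, hφ0, hφ⟩ := hgu.exists_isRedOf
  have hcF : algebraMap L F c ≠ 0 := by
    rwa [Ne, map_eq_zero]
  have hbu : b = algebraMap L F c * u := by
    rw [hu, ← mul_assoc, mul_inv_cancel₀ hcF, one_mul]
  by_cases hcA : c ∈ A
  · rw [hbu]
    exact ((C.isRedOf_const ⟨c, hcA⟩).mul hφ).isGI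
  · exfalso
    obtain ⟨hinv, hnu⟩ := inv_nonunit_of_notMem hcA
    have hu' : u = algebraMap L F c⁻¹ * b := by
      rw [hu, map_inv₀]
    have humem : u ∈ BaK Q := by
      rw [hu']
      exact Subalgebra.mul_mem _ ((BaK Q).algebraMap_mem _) (B.mem i n)
    have huvan : Van Ps u := by
      rw [hu', mul_comm]
      exact van_mul (B.van i n) (Ps.algebraMap_mem' _)
    obtain ⟨hreg, hvan⟩ := reduction_regular C HL hstar hφ hφ0 humem
    -- simple poles at the `r (Q l)`
    have hsimple : ∀ l, -1 ≤ (r (Q l)).ord φ := by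
      intro l
      have hcoef : ∀ k : ℤ, k < -1 →
          (expandF (HLt.residue (r (Q l))) (htbar l) φ).coeff k = 0 := by
        intro k hk
        obtain ⟨a, ha1, ha2⟩ := laurent_red HL HLt ht hrQ htbar htred htreg hloc hφ humem l k
        rw [ha2]
        have hval : (ex HL ht l u).coeff k
            = c⁻¹ * (if l = i ∧ k = -((n : ℤ) + 2) then 1 else 0) := by
          rw [hu', map_mul, ex_algebraMap, HahnSeries.C_mul_eq_smul, HahnSeries.coeff_smul, smul_eq_mul,
            B.polar i n l k (by omega), if_neg (by omega : ¬ k = -1), add_zero]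
        rw [hval] at ha1
        by_cases hcase : l = i ∧ k = -((n : ℤ) + 2)
        · rw [if_pos hcase, mul_one] at ha1
          have : a = ⟨c⁻¹, hinv⟩ := Subtype.ext ha1
          rw [this]
          exact C.pi_nonunit _ hnu
        · rw [if_neg hcase, mul_zero] at ha1
          have : a = 0 := Subtype.ext ha1
          rw [this, map_zero]
      rcases le_ord_of_coeff_expandF (HLt.residue (r (Q l))) (htbar l) hcoef with h | h
      · exact absurd h hφ0
      · exact h
    obtain ⟨x, hx⟩ := hbar φ hreg hsimple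
    have hpos := hvan huvan
    rw [hx, ffp_ord_algebraMap] at hpos
    exact lt_irrefl _ hpos

include C HLt hrQ htreg htred hloc hstar hbar in
/-- **(Ld), integrality of the coefficients**: all the Laurent coefficients of the `bb i n` lie in `A`. -/
theorem coeff_bb_mem (i : Fin (genusFF L F)) (n : ℕ) (l : Fin (genusFF L F)) (m : ℤ) :
    (ex HL ht l (B.bb i n)).coeff m ∈ A :=
  coeff_mem_of_isGI HL HLt ht hrQ htbar htred htreg hloc
    (isGI_bb C HL HLt ht hrQ htbar htred htreg hloc hstar B hbar i n) (B.mem i n) l m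

end Main

end Fermat.Agent.ES.V19.BasisInt9

end
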