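/-
Programme V (S19), chapter B4' (Ld), helper9: **assembly — helper14's `BasisData` over the ring `O` of the
`A`-integral constants fixed by a family of semilinear automorphisms.**

Combines `BasisInt9` (the Laurent coefficients of the normalised functions `bb i n` lie in `A`), `BasisGal9` (they are
fixed by every semilinear automorphism fixing the chart data) and `BasisData9` (`BasisData` over any subring containing
them).  `S` is any set of pairs `(σK, σF)`; `O` any subring of `L` containing the elements of `A` fixed by all `σK`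
(`O := fixRing A Γ_f` in the application).
-/
import Mathlib
import Fermat.Agent.ES.V19.BasisInt9
import Fermat.Agent.ES.V19.BasisGal9
import Fermat.Agent.ES.V19.BasisData9

set_option autoImplicit false

open AlgebraicCurve

noncomputable section

namespace Fermat.Agent.ES.V19.BasisFinal9

open Fermat.Agent.X0.FF Fermat.Agent.RR Fermat.Agent.RR.LSpace
  Fermat.Agent.ES.V19.OnePlaceRep9 Fermat.Agent.ES.V19.ExpandPlace9 Fermat.Agent.ES.V19.BasisQbar9
  Fermat.Agent.ES.V19.GaussFrac15 Fermat.Agent.ES.V19.SupTrick15 Fermat.Agent.ES.V19.BasisInt9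
  Fermat.Agent.ES.V19.BasisGal9 Fermat.Agent.ES.V19.BasisData9 Fermat.Agent.ES.V19.NormalFormBasis14
open Fermat.Agent.ES.V19.LaurentMap19 (Lam mapLam)

variable {L F k Ft : Type*} [Field L] [Field F] [Algebra L F] [Field k] [Field Ft] [Algebra k Ft]
  {A : ValuationSubring L}

/-- the pair `(σK, σF)` is a semilinear automorphism fixing the chart data `(Q, t, Ps)`. -/
structure FixesChart {g : ℕ} (Q : Fin g → Place L F) (t : Fin g → F) (Ps : Place L F)
    (σK : L →+* L) (σF : F →+* F) : Prop where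
  semi : ∀ c : L, σF (algebraMap L F c) = algebraMap L F (σK c)
  place : ∀ l, ∀ f : F, f ∈ (Q l).toValuationSubring → σF f ∈ (Q l).toValuationSubring
  unif : ∀ l, σF (t l) = t l
  ba : ∀ f : F, f ∈ BaK Q → σF f ∈ BaK Q
  van : ∀ f : F, Van Ps f → Van Ps (σF f)

variable {π : ↥A →+* k} {G : Subring F} {red : ↥G →+* Ft} {r : Place L F → Place k Ft}
  (C : RedCtx A π G red r) (HL : LHyp L F) (HLt : LHyp k Ft)
  {Q : Fin (genusFF L F) → Place L F} {t : Fin (genusFF L F) → F} (ht : ∀ i, (Q i).ord (t i) = 1)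
  (hrQ : Function.Injective fun i => r (Q i))
  {tbar : Fin (genusFF L F) → Ft} (htbar : ∀ i, (r (Q i)).ord (tbar i) = 1)
  (htred : ∀ i, IsRedOf G red (t i) (tbar i))
  (htreg : ∀ i, ∀ P : Place L F, r P = r (Q i) → 0 ≤ P.ord (t i))
  (hloc : ∀ i, LocalRed π G red r HL HLt (Q i) (ht i) (htbar i))
  {Ps : Place L F} (hstar : ∀ i, r (Q i) ≠ r Ps)
  (hR : ∃ γ : ℤ, ∀ D : Divisor L F,
    Divisor.degree D + 1 - γ ≤ (Module.finrank L (riemannRochSpace D) : ℤ))
  (h0 : Module.finrank L (H1 (redDiv Q)) = 0)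
  (B : BBData HL ht (Q := Q) Ps)
  (hbar : ∀ h : Ft, (∀ v : Place k Ft, (∀ i, r (Q i) ≠ v) → 0 ≤ v.ord h) →
    (∀ i, -1 ≤ (r (Q i)).ord h) → ∃ x : k, h = algebraMap k Ft x)
  (S : Set ((L →+* L) × (F →+* F)))
  (hS : ∀ s ∈ S, FixesChart Q t Ps s.1 s.2)
  (O : Subring L) (hO : ∀ x : L, x ∈ A → (∀ s ∈ S, s.1 x = x) → x ∈ O)

include C HLt hrQ htbar htred htreg hloc hstar hR h0 hbar hS hO in
/-- **(Ld): helper14's `BasisData` over `O`.** -/
theorem exists_basisData_fixed :
    ∃ D : BasisData ↥O (genusFF L F),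
      (∀ i n, mapLam O.subtype (D.bb i n) = ExpK HL ht (B.bb i n)) ∧
      (∀ i n l, ((D.cc i n l : ↥O) : L) = B.cc i n l) ∧
      (∀ i n, IsGI G red (B.bb i n)) := by
  have hQ : Function.Injective Q := fun i j hij => hrQ (by simp only [hij])
  have hint := isGI_bb C HL HLt ht hrQ htbar htred htreg hloc hstar B hbar
  obtain ⟨D, h1, h2⟩ := exists_basisData HL ht hR h0 hQ B O (by
    intro i n l m
    apply hO
    · exact coeff_bb_mem C HL HLt ht hrQ htbar htred htreg hloc hstar B hbar i n l m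
    · intro s hs
      have hs' := hS s hs
      exact coeff_bb_fixed HL ht hR h0 hQ B s.1 s.2 hs'.semi hs'.place hs'.unif hs'.ba hs'.van i n l m)
  exact ⟨D, h1, h2, hint⟩

end Fermat.Agent.ES.V19.BasisFinal9

end
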