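/-
Programme V (S19), chapter B4' (Ld) → joins J5/J7, helper9: **the Prelude's semilinear automorphisms fixing the chart
data are `BasisFinal9.FixesChart`.**

`g : SemilinearAut K F` (Prelude: a ring automorphism of `F` over a ring automorphism `baseAut g` of `K`; it acts on
`Place K F`).  If `g` fixes the places `Q i` and `Ps` and the parameters `t i`, then
`FixesChart Q t Ps (baseAut g) (toRingAut g)` (`fixesChart_of_smul`).  The places `Q i` are fixed as soon as they are
characterised by a uniqueness property preserved by `g` (`smul_eq_of_unique`: `Q i` = the unique zero of `t i` in its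
residue disc, `g` preserves the disc and fixes `t i` — the shape of `XiIface29.ChartHyp.val_unique` + `EqvHyp`).
-/
import Mathlib
import Fermat.Prelude.Def_AlgebraicCurve_BaseChangeGalois
import Fermat.Agent.ES.V19.BasisFinal9

set_option autoImplicit false

open AlgebraicCurve

noncomputable section

namespace Fermat.Agent.ES.V19.BasisEqv9

open Fermat.Agent.X0.FF Fermat.Agent.ES.V19.BasisQbar9 Fermat.Agent.ES.V19.BasisFinal9
open scoped Pointwise

variable {K F : Type*} [Field K] [Field F] [Algebra K F]

/-- membership in the valuation ring of a translated place. -/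
theorem smul_mem_smul_place (g : SemilinearAut K F) (v : Place K F) {f : F}
    (hf : f ∈ v.toValuationSubring) : g • f ∈ (g • v).toValuationSubring := by
  rw [SemilinearAut.smul_toValuationSubring]
  exact ValuationSubring.smul_mem_pointwise_smul g f v.toValuationSubring hf

/-- a place characterised by a `g`-stable uniqueness property is fixed by `g`. -/
theorem smul_eq_of_unique {k Ft : Type*} [Field k] [Field Ft] [Algebra k Ft]
    (r : Place K F → Place k Ft) (g : SemilinearAut K F) {Q : Place K F} {t : F}
    (hQ : 0 < Q.ord t) (ht : g • t = t)
    (hdisc : ∀ P : Place K F, r P = r Q → r (g • P) = r Q)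
    (huniq : ∀ P : Place K F, r P = r Q → 0 < P.ord t → P = Q) : g • Q = Q := by
  apply huniq (g • Q) (hdisc Q rfl)
  have := SemilinearAut.ord_smul g Q t
  rw [ht] at this
  rw [this]
  exact hQ

/-- **a semilinear automorphism fixing the chart data.** -/
theorem fixesChart_of_smul {n : ℕ} {Q : Fin n → Place K F} {t : Fin n → F} {Ps : Place K F}
    (g : SemilinearAut K F) (hQ : ∀ i, g • Q i = Q i) (ht : ∀ i, g • t i = t i) (hPs : g • Ps = Ps) :
    FixesChart Q t Ps ((SemilinearAut.baseAut g : K ≃+* K) : K →+* K)
      ((SemilinearAut.toRingAut g : F ≃+* F) : F →+* F) where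
  semi := fun c => SemilinearAut.commutes g c
  place := by
    intro l f hf
    have := smul_mem_smul_place g (Q l) hf
    rwa [hQ l] at this
  unif := ht
  ba := by
    intro f hf v hv
    -- the place `g⁻¹ • v` is not one of the `Q i`
    have hw : ∀ i, Q i ≠ g⁻¹ • v := by
      intro i hi
      apply hv i
      have h1 : g • Q i = g • (g⁻¹ • v) := by rw [hi]
      rwa [hQ i, smul_inv_smul] at h1
    have h2 := smul_mem_smul_place g (g⁻¹ • v) (mem_BaK.mp hf _ hw)
    rwa [smul_inv_smul] at h2
  van := by
    intro f hf
    rcases hf with hf | hf
    · left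
      rw [hf]
      exact map_zero _
    · right
      have := SemilinearAut.ord_smul g Ps f
      rw [hPs] at this
      show 0 < Ps.ord (g • f)
      rw [this]
      exact hf

end Fermat.Agent.ES.V19.BasisEqv9

end
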