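/-
Programme V (S19), chapter B4′ (helper15): THE FRACTION CONSTRUCTION IS IDEMPOTENT, AND `RedCtx`
PASSES TO THE GAUSS VALUATION RING.

The B3 exit literal (`DiscIface3`) is instantiated at `G := gaussInt G_q red`, `gred := rho G_q red`.
This file shows that nothing changes when `(G_q, red)` is replaced by `(gaussInt, rho)`:
* `isRedOf_gaussInt_iff`, `isGI_gaussInt_iff`, `isGU_gaussInt_iff`;
* `RedCtx.gaussInt` : `RedCtx A π G red r → RedCtx A π (gaussInt G red) (rho G red) r`
  (so `SupTrick15` applies verbatim with `G := gaussInt`), with (r1) now for ALL Gauss units.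
-/
import Mathlib
import Fermat.Agent.ES.V19.SupTrick15

set_option autoImplicit false

open AlgebraicCurve

namespace Fermat.Agent.ES.V19.GaussFracIdem15

open Fermat.Agent.RR.LSpace Fermat.Agent.ES.V19.GaussFrac15 Fermat.Agent.ES.V19.SupTrick15

section Idem

variable {F Ft : Type*} [Field F] [Field Ft] {G : Subring F} {red : ↥G →+* Ft}

/-- reductions relative to `(gaussInt, rho)` are reductions relative to `(G, red)`. -/
theorem isRedOf_gaussInt_iff (f : F) (φ : Ft) :
    IsRedOf (gaussInt G red) (rho G red) f φ ↔ IsRedOf G red f φ := by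
  constructor
  · rintro ⟨a, b, hb, hab, hφ⟩
    have ha' := isRedOf_rho G red a
    have hb' := isRedOf_rho G red b
    have hb0 : (b : F) ≠ 0 := coe_ne_zero_of_red_ne_zero hb
    have hfeq : f = (a : F) * (b : F)⁻¹ := by
      rw [← hab, mul_assoc, mul_inv_cancel₀ hb0, mul_one]
    have hφeq : φ = rho G red a * (rho G red b)⁻¹ := by
      rw [← hφ, mul_assoc, mul_inv_cancel₀ hb, mul_one]
    rw [hfeq, hφeq]
    exact ha'.mul (hb'.inv hb)
  · intro h
    have := isRedOf_of_mem (G := gaussInt G red) (red := rho G red) ⟨f, h.isGI⟩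
    rwa [rho_eq_of_isRedOf h] at this

theorem isGI_gaussInt_iff (f : F) : IsGI (gaussInt G red) (rho G red) f ↔ IsGI G red f := by
  constructor
  · intro h
    obtain ⟨φ, hφ⟩ := h.exists_isRedOf
    exact ((isRedOf_gaussInt_iff f φ).mp hφ).isGI
  · intro h
    obtain ⟨φ, hφ⟩ := h.exists_isRedOf
    exact ((isRedOf_gaussInt_iff f φ).mpr hφ).isGI

theorem isGU_gaussInt_iff (f : F) : IsGU (gaussInt G red) (rho G red) f ↔ IsGU G red f := by
  constructor
  · intro h
    obtain ⟨φ, hφ0, hφ⟩ := h.exists_isRedOf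
    exact ((isRedOf_gaussInt_iff f φ).mp hφ).isGU hφ0
  · intro h
    obtain ⟨φ, hφ0, hφ⟩ := h.exists_isRedOf
    exact ((isRedOf_gaussInt_iff f φ).mpr hφ).isGU hφ0

end Idem

section Ctx

variable {L F k Ft : Type*} [Field L] [Field F] [Algebra L F] [Field k] [Field Ft] [Algebra k Ft]
  {A : ValuationSubring L} {π : ↥A →+* k} {G : Subring F} {red : ↥G →+* Ft}
  {r : Place L F → Place k Ft}

/-- **`RedCtx` for the Gauss valuation ring** `(gaussInt, rho)`. -/
theorem RedCtx.gaussInt (C : RedCtx A π G red r) (HL : LHyp L F) :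
    RedCtx A π (gaussInt G red) (rho G red) r where
  const_mem a := le_gaussInt G red (C.const_mem a)
  red_const a := rho_eq_of_isRedOf (C.isRedOf_const a)
  pi_nonunit := C.pi_nonunit
  scale f hf := by
    obtain ⟨c, hc, hgu⟩ := C.scale f hf
    exact ⟨c, hc, (isGU_gaussInt_iff _).mpr hgu⟩
  r1 g hg D hD Q := r1_isRedOf C HL (g : F) (rho G red g) (isRedOf_rho G red g) hg D hD Q

end Ctx

end Fermat.Agent.ES.V19.GaussFracIdem15
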