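/-
Programme V (S19), chapter B4′ (helper8), brick (L0): **the reduction of a principal divisor is
principal**, with explicit fibre sums.

Setting (Prelude vocabulary): `L` a field, `A : ValuationSubring L`, `π : A →+* k`, level `N`,
`F = laurentBaseChange L (modularFunctionFieldFull N)`, `F̃ = modularFunctionFieldFullC k N`, and a
place reduction `r : Place L F → Place k F̃` (`IsPlaceReductionAlong A π N r`) such that principal
divisors are generated by integral ones (`PrincipalGeneratedByIntegral A π N`).

* `mapDomain_apply_eq_sum` : `(r_* D) w = ∑_{P ∈ supp D, r P = w} D P`;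
* `mapDomain_nonneg`, `mapDomain_mono` : `r_*` preserves effectivity;
* `mapDomain_redDiv` : `r_* (P_1 + … + P_n) = r P_1 + … + r P_n`;
* `exists_reduction` : for EVERY `f ≠ 0` in `F` (no integrality) there is `φ ≠ 0` in `F̃` with
  `div φ = r_* div f`;
* `exists_reduction_mem_L` : if moreover `f ∈ L(D)` then `φ ∈ L(r_* D)`;
* `pos_ord_of_fibre` : if `f` is regular at all places of the fibre of `r` over `w` and vanishes at
  one of them, then `ord_w φ > 0`.
-/
import Mathlib
import Fermat.Prelude.Def_ModularCurve_ReductionModL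
import Fermat.Agent.RR.LSpace
import Fermat.Agent.ES.V19.OnePlaceRep9

set_option autoImplicit false

open AlgebraicCurve ModularCurve HahnSeries

noncomputable section

namespace Fermat.Agent.ES.V19.RedDivisor8

open Fermat.Agent.RR.LSpace Fermat.Agent.ES.V19.OnePlaceRep9

/-! ### Push-forward of divisors along a map of places (pure `Finsupp`) -/

section Push

variable {α β : Type*} (r : α → β)

/-- The value of a push-forward at `w` is the sum over the fibre of `w`. -/
theorem mapDomain_apply_eq_sum [DecidableEq β] (D : α →₀ ℤ) (w : β) :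
    Finsupp.mapDomain r D w = ∑ P ∈ D.support.filter (fun P => r P = w), D P := by
  rw [Finsupp.mapDomain, Finsupp.sum_apply, Finsupp.sum, Finset.sum_filter]
  refine Finset.sum_congr rfl fun P _ => ?_
  rw [Finsupp.single_apply]

/-- `r_*` preserves effectivity. -/
theorem mapDomain_nonneg {D : α →₀ ℤ} (hD : 0 ≤ D) : 0 ≤ Finsupp.mapDomain r D := by
  classical
  intro w
  rw [mapDomain_apply_eq_sum]
  exact Finset.sum_nonneg fun P _ => hD P

/-- `r_*` is monotone. -/
theorem mapDomain_mono {D D' : α →₀ ℤ} (h : D ≤ D') :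
    Finsupp.mapDomain r D ≤ Finsupp.mapDomain r D' := by
  have h0 : 0 ≤ D' - D := by
    intro P
    have := h P
    simp only [Finsupp.coe_zero, Pi.zero_apply, Finsupp.coe_sub, Pi.sub_apply]
    omega
  have h1 := mapDomain_nonneg r h0
  rw [← Finsupp.mapDomain.addMonoidHom_apply, map_sub, Finsupp.mapDomain.addMonoidHom_apply,
    Finsupp.mapDomain.addMonoidHom_apply] at h1
  intro w
  have := h1 w
  simp only [Finsupp.coe_zero, Pi.zero_apply, Finsupp.coe_sub, Pi.sub_apply] at this
  omega

/-- If all coefficients on the fibre of `w` are nonnegative and one of them is positive then the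
push-forward is positive at `w`. -/
theorem mapDomain_pos {D : α →₀ ℤ} {w : β} (hD : ∀ P, r P = w → 0 ≤ D P) {P₀ : α}
    (hP₀ : r P₀ = w) (hpos : 0 < D P₀) : 0 < Finsupp.mapDomain r D w := by
  classical
  rw [mapDomain_apply_eq_sum]
  have hmem : P₀ ∈ D.support.filter (fun P => r P = w) := by
    rw [Finset.mem_filter, Finsupp.mem_support_iff]
    exact ⟨hpos.ne', hP₀⟩
  calc 0 < D P₀ := hpos
    _ ≤ ∑ P ∈ D.support.filter (fun P => r P = w), D P :=
      Finset.single_le_sum (f := fun P => D P)
        (fun P hP => hD P (Finset.mem_filter.mp hP).2) hmem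

end Push

/-! ### The reduction of principal divisors -/

section Red

variable {L : Type*} [Field L] [Algebra ℚ L] {A : ValuationSubring L}
variable {k : Type*} [Field k] {π : A →+* k} {N : ℕ}
variable {r : Place L (laurentBaseChange L (modularFunctionFieldFull N)) →
  Place k (modularFunctionFieldFullC k N)}

/-- `r_* (P_1 + … + P_n) = r P_1 + … + r P_n`. -/
theorem mapDomain_redDiv {n : ℕ}
    (Q : Fin n → Place L (laurentBaseChange L (modularFunctionFieldFull N))) :
    Finsupp.mapDomain r (redDiv Q) = redDiv (fun i => r (Q i)) := by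
  unfold redDiv
  rw [← Finsupp.mapDomain.addMonoidHom_apply, map_sum]
  refine Finset.sum_congr rfl fun i _ => ?_
  rw [Finsupp.mapDomain.addMonoidHom_apply, Finsupp.mapDomain_single]

variable (hr : IsPlaceReductionAlong A π N r) (hgen : PrincipalGeneratedByIntegral A π N)
  (HL : LHyp L (laurentBaseChange L (modularFunctionFieldFull N)))

include hr hgen

/-- **(L0)** For every `f ≠ 0` of the generic fibre there is `φ ≠ 0` on the special fibre with
`div φ = r_* div f`. -/
theorem exists_reduction {f : laurentBaseChange L (modularFunctionFieldFull N)} (hf : f ≠ 0) :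
    ∃ φ : modularFunctionFieldFullC k N, φ ≠ 0 ∧
      ∀ w : Place k (modularFunctionFieldFullC k N),
        w.ord φ = Finsupp.mapDomain r (divOf HL hf) w := by
  have hprin : divOf HL hf ∈
      Divisor.principal (K := L) (F := laurentBaseChange L (modularFunctionFieldFull N)) :=
    ⟨f, hf, fun v => divOf_apply HL hf v⟩
  obtain ⟨φ, hφ0, hφ⟩ := hr.mapDomain_mem_principal hgen hprin
  exact ⟨φ, hφ0, fun w => (hφ w).symm⟩

/-- If `f ∈ L(D)` then its reduction `φ` lies in `L(r_* D)`. -/
theorem exists_reduction_mem_L {f : laurentBaseChange L (modularFunctionFieldFull N)}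
    (hf : f ≠ 0) {D : Divisor L (laurentBaseChange L (modularFunctionFieldFull N))}
    (hfD : f ∈ riemannRochSpace D) :
    ∃ φ : modularFunctionFieldFullC k N, φ ≠ 0 ∧
      (∀ w : Place k (modularFunctionFieldFullC k N),
        w.ord φ = Finsupp.mapDomain r (divOf HL hf) w) ∧
      φ ∈ riemannRochSpace (Finsupp.mapDomain r D) := by
  obtain ⟨φ, hφ0, hφ⟩ := exists_reduction hr hgen HL hf
  refine ⟨φ, hφ0, hφ, ?_⟩
  rw [mem_L_iff hφ0]
  intro w
  rw [hφ w]
  have h0 : 0 ≤ D + divOf HL hf := by
    intro v
    have := (mem_L_iff hf).mp hfD v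
    simp only [Finsupp.coe_zero, Pi.zero_apply, Finsupp.coe_add, Pi.add_apply, divOf_apply]
    omega
  have h1 := mapDomain_nonneg r h0 w
  rw [Finsupp.mapDomain_add] at h1
  simp only [Finsupp.coe_zero, Pi.zero_apply, Finsupp.coe_add, Pi.add_apply] at h1
  omega

omit hr hgen in
/-- If `f` is regular at every place of the fibre of `r` over `w` and vanishes at one of them,
its reduction vanishes at `w`. -/
theorem pos_ord_of_fibre {f : laurentBaseChange L (modularFunctionFieldFull N)} (hf : f ≠ 0)
    {φ : modularFunctionFieldFullC k N}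
    (hφ : ∀ w : Place k (modularFunctionFieldFullC k N),
      w.ord φ = Finsupp.mapDomain r (divOf HL hf) w)
    {w : Place k (modularFunctionFieldFullC k N)}
    (hreg : ∀ P, r P = w → 0 ≤ P.ord f)
    {P₀ : Place L (laurentBaseChange L (modularFunctionFieldFull N))} (hP₀ : r P₀ = w)
    (hpos : 0 < P₀.ord f) : 0 < w.ord φ := by
  rw [hφ w]
  refine mapDomain_pos r (fun P hP => ?_) hP₀ ?_
  · rw [divOf_apply]; exact hreg P hP
  · rw [divOf_apply]; exact hpos

end Red

end Fermat.Agent.ES.V19.RedDivisor8
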