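/-
Programme V (S19), chapter B4′ (helper8), brick (Lb): **a lift `E₀ = Q_1 + … + Q_n` of a reduced
divisor `Ē₀` of the special fibre with `l(Ē₀) = 1` has `l(E₀) = 1`** — and, when `n` is the genus
of the generic fibre, `E₀` is non-special there, so that the whole package of `NonSpecial9` holds
on the generic fibre.

Setting (Prelude vocabulary, as in `RedDivisor8`): a place reduction `r` (`hr`, `hgen`),
`HL : LHyp L F`, `HLt : LHyp k F̃`; places `Q i` of `F` and an auxiliary place `P⋆` of `F` whose
reduction is different from all `r (Q i)`.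

* `eq_algebraMap_of_mem_L_redDiv` : every `f ∈ L(E₀)` is constant;
* `finrank_L_redDiv_eq_one` : `l(E₀) = 1`;
* `finrank_H1_redDiv_eq_zero` : if `n = genusFF L F` (and Riemann's inequality `hR` holds on the
  generic fibre) then `h¹(E₀) = 0`;
* `exists_sub_mem_repartitionsOf` : **the polar-part map is onto**: if `h¹(E₀) = 0`, for `E₀ ≤ D`
  every `α ∈ A(D)` is `diag f` modulo `A(E₀)` for some `f ∈ L(D)`.

No integrality, no Gauss norm: the argument only uses that `r_*` of a principal divisor is principal
(`RedDivisor8.exists_reduction`) and the fibre-sum formula.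
-/
import Mathlib
import Fermat.Prelude.Def_ModularCurve_ReductionModL
import Fermat.Agent.RR.LSpace
import Fermat.Agent.RR.Adeles
import Fermat.Agent.ES.V19.H1FiniteL8
import Fermat.Agent.ES.V19.OnePlaceRep9
import Fermat.Agent.ES.V19.NonSpecial9
import Fermat.Agent.ES.V19.RedDivisor8

set_option autoImplicit false

open AlgebraicCurve ModularCurve HahnSeries

noncomputable section

namespace Fermat.Agent.ES.V19.GenericNonSpecial8

open Fermat.Agent.X0.FF Fermat.Agent.RR.LSpace Fermat.Agent.ES.V19.OnePlaceRep9
  Fermat.Agent.ES.V19.RedDivisor8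

/-! ### Generalities on `L(D)` for an effective divisor -/

section Gen

variable {K F : Type*} [Field K] [Field F] [Algebra K F]

/-- Constants lie in `L(D)` for `D ≥ 0`. -/
theorem algebraMap_mem_L {D : Divisor K F} (hD : 0 ≤ D) (c : K) :
    algebraMap K F c ∈ riemannRochSpace D := by
  rw [mem_riemannRochSpace_iff]
  intro v
  by_cases hc : c = 0
  · left; rw [hc, map_zero]
  · right
    rw [ffq_ord_algebraMap v hc]
    have := hD v
    simp only [Finsupp.coe_zero, Pi.zero_apply] at this
    omega

/-- If every element of `L(D)` is constant (`D ≥ 0`) then `l(D) = 1`. -/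
theorem finrank_L_eq_one_of_forall_const (HL : LHyp K F) {D : Divisor K F} (hD : 0 ≤ D)
    (h : ∀ f ∈ riemannRochSpace D, ∃ c : K, f = algebraMap K F c) :
    Module.finrank K (riemannRochSpace D) = 1 := by
  have h0 : riemannRochSpace D = riemannRochSpace (0 : Divisor K F) := by
    apply le_antisymm
    · intro f hf
      obtain ⟨c, rfl⟩ := h f hf
      exact algebraMap_mem_L le_rfl c
    · exact L_mono hD
  rw [h0]
  exact finrank_L_zero HL

/-- Conversely, if `l(D) = 1` (`D ≥ 0`) every element of `L(D)` is constant. -/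
theorem eq_algebraMap_of_finrank_L_eq_one (HL : LHyp K F) {D : Divisor K F} (hD : 0 ≤ D)
    (h1 : Module.finrank K (riemannRochSpace D) = 1) {f : F} (hf : f ∈ riemannRochSpace D) :
    ∃ c : K, f = algebraMap K F c := by
  have hfin : FiniteDimensional K (riemannRochSpace D) := finiteDimensional_L HL D
  have h0 : riemannRochSpace (0 : Divisor K F) = riemannRochSpace D := by
    apply Submodule.eq_of_le_of_finrank_eq (L_mono hD)
    rw [finrank_L_zero HL, h1]
  rw [← h0, L_zero HL, Submodule.mem_span_singleton] at hf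
  obtain ⟨c, hc⟩ := hf
  refine ⟨c, ?_⟩
  rw [← hc, Algebra.smul_def, mul_one]

end Gen

/-! ### (Lb) -/

section Lb

variable {L : Type*} [Field L] [Algebra ℚ L] {A : ValuationSubring L}
variable {k : Type*} [Field k] {π : A →+* k} {N : ℕ}
variable {r : Place L (laurentBaseChange L (modularFunctionFieldFull N)) →
  Place k (modularFunctionFieldFullC k N)}
variable (hr : IsPlaceReductionAlong A π N r) (hgen : PrincipalGeneratedByIntegral A π N)
  (HL : LHyp L (laurentBaseChange L (modularFunctionFieldFull N)))
  (HLt : LHyp k (modularFunctionFieldFullC k N))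

include hr hgen HL HLt

/-- **(Lb), pointwise.**  Every element of `L(Q_1 + … + Q_n)` is constant, as soon as
`l(r Q_1 + … + r Q_n) = 1` on the special fibre and some place `P⋆` reduces outside the `r Q_i`. -/
theorem eq_algebraMap_of_mem_L_redDiv {n : ℕ}
    (Q : Fin n → Place L (laurentBaseChange L (modularFunctionFieldFull N)))
    (Pstar : Place L (laurentBaseChange L (modularFunctionFieldFull N)))
    (hstar : ∀ i, r (Q i) ≠ r Pstar)
    (h1 : Module.finrank k (riemannRochSpace (redDiv fun i => r (Q i))) = 1)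
    {f : laurentBaseChange L (modularFunctionFieldFull N)} (hf : f ∈ riemannRochSpace (redDiv Q)) :
    ∃ c : L, f = algebraMap L _ c := by
  -- places of the fibre of `r Pstar` are not in the support of `E₀`
  have hsupp : ∀ P, r P = r Pstar → redDiv Q P = 0 := fun P hP =>
    redDiv_apply_of_not_mem fun i hi => hstar i (by rw [hi, hP])
  -- `f` is regular at `Pstar`
  have hreg : ∀ g ∈ riemannRochSpace (redDiv Q), g ≠ 0 → ∀ P, r P = r Pstar → 0 ≤ P.ord g := by
    intro g hg hg0 P hP
    have := (mem_L_iff hg0).mp hg P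
    rw [hsupp P hP] at this
    omega
  by_cases hf0 : f = 0
  · exact ⟨0, by rw [hf0, map_zero]⟩
  have hfO : f ∈ Pstar.toValuationSubring := ffp_mem_of_ord_nonneg Pstar (hreg f hf hf0 Pstar rfl)
  obtain ⟨c, hc | hc⟩ := HL.residue Pstar f hfO
  · exact ⟨c, hc⟩
  -- `h = f - c` vanishes at `Pstar`
  exfalso
  set h := f - algebraMap L _ c with hh
  have hh0 : h ≠ 0 := by
    intro h0
    rw [h0, Place.ord_zero] at hc
    exact lt_irrefl _ hc
  have hhL : h ∈ riemannRochSpace (redDiv Q) :=
    Submodule.sub_mem _ hf (algebraMap_mem_L (redDiv_nonneg Q) c)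
  obtain ⟨φ, hφ0, hφ, hφL⟩ := exists_reduction_mem_L hr hgen HL hh0 hhL
  rw [mapDomain_redDiv] at hφL
  -- `φ` is constant
  obtain ⟨d, hd⟩ := eq_algebraMap_of_finrank_L_eq_one HLt (redDiv_nonneg _) h1 hφL
  have hd0 : d ≠ 0 := by
    rintro rfl
    rw [map_zero] at hd
    exact hφ0 hd
  have hord : (r Pstar).ord φ = 0 := by rw [hd]; exact ffq_ord_algebraMap _ hd0
  have hpos := pos_ord_of_fibre HL hh0 hφ (hreg h hhL hh0) rfl hc
  omega

/-- **(Lb)** `l(E₀) = 1`. -/
theorem finrank_L_redDiv_eq_one {n : ℕ}
    (Q : Fin n → Place L (laurentBaseChange L (modularFunctionFieldFull N)))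
    (Pstar : Place L (laurentBaseChange L (modularFunctionFieldFull N)))
    (hstar : ∀ i, r (Q i) ≠ r Pstar)
    (h1 : Module.finrank k (riemannRochSpace (redDiv fun i => r (Q i))) = 1) :
    Module.finrank L (riemannRochSpace (redDiv Q)) = 1 :=
  finrank_L_eq_one_of_forall_const HL (redDiv_nonneg Q) fun _ hf =>
    eq_algebraMap_of_mem_L_redDiv hr hgen HL HLt Q Pstar hstar h1 hf

/-- **(Lb), non-speciality.**  If the number of points is the genus of the generic fibre then
`h¹(E₀) = 0`. -/
theorem finrank_H1_redDiv_eq_zero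
    (hR : ∃ γ : ℤ, ∀ D : Divisor L (laurentBaseChange L (modularFunctionFieldFull N)),
      Divisor.degree D + 1 - γ ≤ (Module.finrank L (riemannRochSpace D) : ℤ))
    (Q : Fin (genusFF L (laurentBaseChange L (modularFunctionFieldFull N))) →
      Place L (laurentBaseChange L (modularFunctionFieldFull N)))
    (Pstar : Place L (laurentBaseChange L (modularFunctionFieldFull N)))
    (hstar : ∀ i, r (Q i) ≠ r Pstar)
    (h1 : Module.finrank k (riemannRochSpace (redDiv fun i => r (Q i))) = 1) :
    Module.finrank L (H1 (redDiv Q)) = 0 := by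
  have hl := finrank_L_redDiv_eq_one hr hgen HL HLt Q Pstar hstar h1
  have h := Fermat.Agent.ES.V19.H1FiniteL8.finrank_L_sub_finrank_H1 HL hR (redDiv Q)
  rw [hl, degree_redDiv HL] at h
  have : (Module.finrank L (H1 (redDiv Q)) : ℤ) = 0 := by
    push_cast at h
    linarith
  exact_mod_cast this

end Lb

/-! ### The polar-part map is onto -/

section Polar

variable {K F : Type*} [Field K] [Field F] [Algebra K F]

/-- **Polar parts.**  If `A(E) + F` is everything (i.e. `H¹(E) = 0`), then for `E ≤ D` every
repartition `α ∈ A(D)` is, modulo `A(E)`, the diagonal image of some `f ∈ L(D)`. -/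
theorem exists_sub_mem_repartitionsOf {E D : Divisor K F} (hED : E ≤ D)
    (htop : repartitionsOf E ⊔ principalRepartitions K F = ⊤)
    {α : ↥(repartitions K F)} (hα : α ∈ repartitionsOf D) :
    ∃ f ∈ riemannRochSpace D,
      α - Fermat.Agent.RR.Adeles.diag (K := K) f ∈ repartitionsOf E := by
  have hmem : α ∈ repartitionsOf E ⊔ principalRepartitions K F := by rw [htop]; trivial
  obtain ⟨a, ha, p, hp, rfl⟩ := Submodule.mem_sup.mp hmem
  obtain ⟨f, hf⟩ := mem_principalRepartitions_iff.mp hp
  have hpdiag : p = Fermat.Agent.RR.Adeles.diag (K := K) f := Subtype.ext hf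
  refine ⟨f, ?_, ?_⟩
  · -- `diag f = (a + p) - a ∈ A(D)`
    have h1 : Fermat.Agent.RR.Adeles.diag (K := K) f ∈ repartitionsOf D := by
      rw [← hpdiag]
      have : p = (a + p) - a := by abel
      rw [this]
      exact Submodule.sub_mem _ hα (repartitionsOf_mono hED ha)
    intro w
    exact h1 w
  · rw [hpdiag] at *
    have : a + Fermat.Agent.RR.Adeles.diag (K := K) f - Fermat.Agent.RR.Adeles.diag (K := K) f
        = a := by abel
    rw [this]
    exact ha

end Polar

end Fermat.Agent.ES.V19.GenericNonSpecial8
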