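/-
Programme V (S19), chapters B3 → B4' glue (helper9): **the local reduction datum `BasisInt9.LocalRed` from the disc
lemmas (Db) and (Dd)** — no Taylor homomorphism is needed, only division by the parameter.

Context `C : SupTrick15.RedCtx A π G red r`, `HL : LHyp L F`, `HLt : LHyp k Ft`, a place `P` of the generic fibre with
uniformiser `tP`, whose reduction `tbar` is a uniformiser at `r P`; `CQ : Subring F` the local ring of the model on the
residue disc of `P`, with
* `hdd` (Dd) : every `f ∈ CQ` is `a + tP * g`, `a ∈ A`, `g ∈ CQ`;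
* `hdb` (Db) : a Gauss-integral function regular on the residue disc of `P` lies in `CQ`;
* `hgi`      : `CQ` consists of Gauss-integral functions;
* `hreg`     : the elements of `CQ` are regular at `P`;
* `hredreg`  : the reductions of the elements of `CQ` are regular at `r P`.
Then (`localRed_of_disc`) the Laurent coefficients at `P` of a Gauss-integral function regular on the disc lie in `A`
and reduce to the Laurent coefficients of its reduction at `r P`.
-/
import Mathlib
import Fermat.Agent.ES.V19.BasisInt9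

set_option autoImplicit false

open AlgebraicCurve

noncomputable section

namespace Fermat.Agent.ES.V19.LocalRedDisc9

open Fermat.Agent.X0.FF Fermat.Agent.RR Fermat.Agent.RR.LSpace
  Fermat.Agent.ES.V19.TaylorAbs9 Fermat.Agent.ES.V19.ExpandPlace9
  Fermat.Agent.ES.V19.GaussFrac15 Fermat.Agent.ES.V19.SupTrick15 Fermat.Agent.ES.V19.BasisInt9

/-- uniqueness of Taylor coefficients at a place of degree one, in terms of `F`:
if `f = ∑_{i < n} c_i t^i + t^n g` with `g` regular at `v`, then the coefficient of `X^m` (`m < n`) of the Laurent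
expansion of `f` is `c_m`. -/
theorem coeff_expandF_of_eq_sum {K E : Type*} [Field K] [Field E] [Algebra K E] {v : Place K E}
    (hres : ResK v) {t : E} (ht : v.ord t = 1) {n : ℕ} (c : ℕ → K) {f g : E}
    (hg : g ∈ v.toValuationSubring)
    (e : f = ∑ i ∈ Finset.range n, algebraMap K E (c i) * t ^ i + t ^ n * g) {m : ℕ} (hm : m < n) :
    (expandF hres ht f).coeff (m : ℤ) = c m := by
  -- `f` is regular
  have hsum : (∑ i ∈ Finset.range n, algebraMap K E (c i) * t ^ i) ∈ v.toValuationSubring :=
    sum_mem fun i _ => mul_mem (v.algebraMap_mem' _) (pow_mem (unif_mem ht) i)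
  have hf : f ∈ v.toValuationSubring := by
    rw [e]
    exact add_mem hsum (mul_mem (pow_mem (unif_mem ht) n) hg)
  set p : Polynomial K := ∑ j ∈ Finset.range n, Polynomial.monomial j (c j) with hp
  have e' : (⟨f, hf⟩ : ↥v.toValuationSubring)
      = Polynomial.aeval (tO ht) p + (tO ht) ^ n * ⟨g, hg⟩ := by
    apply Subtype.ext
    have h2 : v.toValuationSubring.subtype (Polynomial.aeval (tO ht) p)
        = ∑ j ∈ Finset.range n, algebraMap K E (c j) * t ^ j := by
      rw [hp, map_sum, map_sum]
      apply Finset.sum_congr rfl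
      intro j _
      rw [Polynomial.aeval_monomial, map_mul, map_pow]
      show ((algebraMap K ↥v.toValuationSubring (c j) : ↥v.toValuationSubring) : E)
        * ((tO ht : ↥v.toValuationSubring) : E) ^ j = _
      rw [v.coe_algebraMap, coe_tO]
    show f = v.toValuationSubring.subtype (Polynomial.aeval (tO ht) p)
      + ((tO ht : ↥v.toValuationSubring) : E) ^ n * g
    rw [h2, coe_tO]
    exact e
  have h3 := coeff_expand_of_eq (isUnif hres ht) e' hm
  have h4 : p.coeff m = c m := by
    rw [hp, Polynomial.finsetSum_coeff]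
    simp only [Polynomial.coeff_monomial]
    rw [Finset.sum_eq_single m]
    · rw [if_pos rfl]
    · intro j _ hjm
      rw [if_neg hjm]
    · intro h
      exact absurd (Finset.mem_range.mpr hm) h
  rw [expandF_of_mem hres ht hf, HahnSeries.ofPowerSeries_apply_coeff]
  rw [← h4]
  exact h3

variable {L F k Ft : Type*} [Field L] [Field F] [Algebra L F] [Field k] [Field Ft] [Algebra k Ft]
  {A : ValuationSubring L} {π : ↥A →+* k} {G : Subring F} {red : ↥G →+* Ft} {r : Place L F → Place k Ft}

section Iter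

variable {tP : F} (CQ : Subring F)
  (hdd : ∀ f ∈ CQ, ∃ a : ↥A, ∃ g ∈ CQ, f = algebraMap L F (a : L) + tP * g)

include hdd in
/-- iterated division by the parameter (Taylor's formula with remainder in `CQ`). -/
theorem exists_taylor (n : ℕ) : ∀ f ∈ CQ, ∃ a : ℕ → ↥A, ∃ g ∈ CQ,
    f = ∑ i ∈ Finset.range n, algebraMap L F ((a i : ↥A) : L) * tP ^ i + tP ^ n * g := by
  induction n with
  | zero =>
    intro f hf
    exact ⟨fun _ => 0, f, hf, by simp⟩
  | succ n ih =>
    intro f hf
    obtain ⟨a, g, hg, e⟩ := ih f hf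
    obtain ⟨a₀, g', hg', e'⟩ := hdd g hg
    refine ⟨fun i => if i = n then a₀ else a i, g', hg', ?_⟩
    rw [Finset.sum_range_succ]
    have hn : ((if n = n then a₀ else a n : ↥A) : L) = (a₀ : L) := by
      rw [if_pos rfl]
    have hs : ∑ i ∈ Finset.range n,
        algebraMap L F (((if i = n then a₀ else a i : ↥A)) : L) * tP ^ i
        = ∑ i ∈ Finset.range n, algebraMap L F ((a i : ↥A) : L) * tP ^ i := by
      apply Finset.sum_congr rfl
      intro i hi
      rw [if_neg (ne_of_lt (Finset.mem_range.mp hi))]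
    show f = ∑ i ∈ Finset.range n, algebraMap L F (((if i = n then a₀ else a i : ↥A)) : L) * tP ^ i
      + algebraMap L F (((if n = n then a₀ else a n : ↥A)) : L) * tP ^ n + tP ^ (n + 1) * g'
    rw [hs, hn]
    conv_lhs => rw [e, e']
    ring

end Iter

variable (C : RedCtx A π G red r) (HL : LHyp L F) (HLt : LHyp k Ft)
  (P : Place L F) {tP : F} (htP : P.ord tP = 1) {tbar : Ft} (htbar : (r P).ord tbar = 1)
  (CQ : Subring F)
  (hdd : ∀ f ∈ CQ, ∃ a : ↥A, ∃ g ∈ CQ, f = algebraMap L F (a : L) + tP * g)
  (hdb : ∀ f : F, IsGI G red f → (∀ P' : Place L F, r P' = r P → 0 ≤ P'.ord f) → f ∈ CQ)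
  (hgi : ∀ f ∈ CQ, IsGI G red f)
  (hreg : ∀ f ∈ CQ, f ∈ P.toValuationSubring)
  (hredreg : ∀ f ∈ CQ, ∀ φ : Ft, IsRedOf G red f φ → φ ∈ (r P).toValuationSubring)
  (htred : IsRedOf G red tP tbar)

include C htred in
/-- the reduction of a polynomial in `tP` with coefficients in `A`. -/
theorem isRedOf_sum (a : ℕ → ↥A) (n : ℕ) :
    IsRedOf G red (∑ i ∈ Finset.range n, algebraMap L F ((a i : ↥A) : L) * tP ^ i)
      (∑ i ∈ Finset.range n, algebraMap k Ft (π (a i)) * tbar ^ i) := by
  induction n with
  | zero =>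
    rw [Finset.sum_range_zero, Finset.sum_range_zero]
    exact isRedOf_zero
  | succ n ih =>
    rw [Finset.sum_range_succ, Finset.sum_range_succ]
    exact ih.add ((C.isRedOf_const (a n)).mul (isRedOf_pow htred n))

include C hdd hdb hgi hreg hredreg htred in
/-- **`LocalRed` from the disc lemmas (Db), (Dd).** -/
theorem localRed_of_disc : LocalRed π G red r HL HLt P htP htbar := by
  intro f φ hfφ hfreg m
  have hfCQ : f ∈ CQ := hdb f hfφ.isGI hfreg
  by_cases hm : m < 0
  · -- negative coefficients vanish on both sides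
    refine ⟨0, ?_, ?_⟩
    · have h1 := ffp_ord_nonneg_of_mem P (hreg f hfCQ)
      rw [coeff_expandF_of_lt (HL.residue P) htP (Or.inr h1 : f = 0 ∨ (0 : ℤ) ≤ P.ord f) hm]
      rfl
    · have h1 := ffp_ord_nonneg_of_mem (r P) (hredreg f hfCQ φ hfφ)
      rw [coeff_expandF_of_lt (HLt.residue (r P)) htbar (Or.inr h1 : φ = 0 ∨ (0 : ℤ) ≤ (r P).ord φ) hm,
        map_zero]
  · obtain ⟨n, rfl⟩ : ∃ n : ℕ, m = (n : ℤ) := ⟨m.toNat, by omega⟩
    obtain ⟨a, g, hg, e⟩ := exists_taylor CQ hdd (n + 1) f hfCQ
    obtain ⟨ψ, hψ⟩ := (hgi g hg).exists_isRedOf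
    refine ⟨a n, ?_, ?_⟩
    · exact (coeff_expandF_of_eq_sum (HL.residue P) htP (fun i => ((a i : ↥A) : L)) (hreg g hg) e
        (Nat.lt_succ_self n)).symm
    · -- the reduction of the Taylor formula
      have hred : IsRedOf G red f
          (∑ i ∈ Finset.range (n + 1), algebraMap k Ft (π (a i)) * tbar ^ i + tbar ^ (n + 1) * ψ) := by
        rw [e]
        exact (isRedOf_sum C htred a (n + 1)).add ((isRedOf_pow htred (n + 1)).mul hψ)
      have hφ := hfφ.unique hred
      exact coeff_expandF_of_eq_sum (HLt.residue (r P)) htbar (fun i => π (a i))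
        (hredreg g hg ψ hψ) hφ (Nat.lt_succ_self n)

end Fermat.Agent.ES.V19.LocalRedDisc9

end
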