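/-
Programme V (S19 by hand, route `S19_ROUTE23.md`, SPINE v1), chapter (B5) "the chart `Ξ` on the
kernel of reduction", helper29: **STATEMENT-ONLY interface file** (definitions and `Prop`-valued
literals only; the proofs live in `XiExist5*`, `XiUniq5*`, `XiEqv29`, `XiAdd7*`, `XiMain29`).

ABSTRACT IN THE REDUCTION MAP, as helper10's `DiscZero10` and helper5's `XiExist5`
(`redDiv P = P_1 + … + P_n` is helper9's `OnePlaceRep9.redDiv`): two function fields `F / K` (generic
fibre) and `Ft / k` (special fibre) with the Prelude's places, a valuation ring `A` of `K`, and a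
map on places `r : Place K F → Place k Ft`.  Instantiation (RULING 1): `K = Q̄`,
`F = modularFunctionFieldBar M'`, `k = kA A`, `Ft = Ft M' A`, `r = T.r`; then
`Pic0 K F = JZero M'` literally, and `J1 = (reductionModL A M').ker` satisfies `J1Spec`
(Prelude: `reductionModL_mk`).

INPUTS
* `RedHyp r g`     : `LHyp K F`; Riemann's inequality in the form `deg D ≥ g ⇒ L(D) ≠ 0`
                     (char-0 RR on main + (B1) `g = genus`); `r_*` maps principal divisors to
                     principal divisors (Prelude `IsPlaceReductionAlong.mapDomain_mem_principal`,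
                     i.e. (r1) + `GaussUnit25.principalGeneratedByIntegral`).
* `Chart`, `ChartHyp A r χ` : `g` distinct places `Q̄_i` of the special fibre with `l(Ē₀) = 1`
                     (B2, helper9 `finrank_L_redDiv`), coordinates `t_i ∈ F` (`= t - c_i`, RULING 2)
                     with (Da) `val : disc(Q̄_i) ≃ 𝔪_A` (B3, helper10), the centres `Q_i` (the zero of
                     `t_i` in the disc), and one place outside the discs.
* `EqvHyp`         : a group `G` (`= ↥Γ_f`) acting through semilinear automorphisms, fixing the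
                     `t_i` and preserving the discs `disc(Q̄_i)`.
DEFINITIONS
* `IsXi r χ y s`   : `y = [P_1 + … + P_g - E₀]` with `P_i ∈ disc(Q̄_i)` and `t_i(P_i) = s_i`;
* `xi r χ y`       : the `s` with `IsXi r χ y s` (junk `0` if there is none).
EXIT LITERALS
* `XiA`, `XiAUnique`, `XiB` : (Ξa), (Ξb) of SPINE v1 in relational form;
* `XiData A J1 Ξ R G` : THE EXIT consumed by (B6) — helper11's `Assemble11.XiData` with helper23's
  fix (#23318): `add` / `neg` are uniform only over FINITE sets of points.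
  The chapter's final theorem is `XiData A.toSubring J1 (xi r χ) R G`.
-/
import Mathlib
import Fermat.Prelude.Def_AlgebraicCurve_BaseChangeGalois
import Fermat.Prelude.Def_AlgebraicCurve_Repartitions
import Fermat.Agent.RR.LSpace
import Fermat.Agent.ES.V19.OnePlaceRep9

set_option autoImplicit false

noncomputable section

namespace Fermat.Agent.ES.V19.XiIface29

open scoped BigOperators
open AlgebraicCurve Fermat.Agent.RR.LSpace Fermat.Agent.ES.V19.OnePlaceRep9

variable {K F k Ft : Type*} [Field K] [Field F] [Algebra K F] [Field k] [Field Ft] [Algebra k Ft]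

/-! ### Inputs -/

/-- INPUT (main, B1): hypotheses on the generic fibre and on the reduction map of places. -/
structure RedHyp (r : Place K F → Place k Ft) (g : ℕ) : Prop where
  /-- places of `F / K` have degree one, residues, principal divisors (main, `LHypMain`). -/
  lhyp : LHyp K F
  /-- Riemann's inequality: `deg D ≥ g ⇒ L(D) ≠ 0`. -/
  riemann : ∀ D : Divisor K F, (g : ℤ) ≤ Divisor.degree D →
    ∃ f : F, f ≠ 0 ∧ f ∈ riemannRochSpace D
  /-- `r_*` maps principal divisors to principal divisors. -/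
  principal : ∀ D : Divisor K F, D ∈ Divisor.principal (K := K) (F := F) →
    Finsupp.mapDomain r D ∈ Divisor.principal (K := k) (F := Ft)

/-- The data of a chart: places `Q̄_i` of the special fibre, coordinates `t_i`, centres `Q_i`. -/
structure Chart (K F k Ft : Type*) [Field K] [Field F] [Algebra K F] [Field k] [Field Ft]
    [Algebra k Ft] (g : ℕ) where
  /-- the points `Q̄_i` of the special fibre -/
  Qbar : Fin g → Place k Ft
  /-- the coordinates `t_i = t - c_i` -/
  t : Fin g → F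
  /-- the centres `Q_i` (the zero of `t_i` in the disc of `Q̄_i`) -/
  Q : Fin g → Place K F

/-- `E₀ = Q_1 + … + Q_g`. -/
def Chart.E0 {g : ℕ} (χ : Chart K F k Ft g) : Divisor K F := redDiv χ.Q

/-- `Ē₀ = Q̄_1 + … + Q̄_g`. -/
def Chart.E0bar {g : ℕ} (χ : Chart K F k Ft g) : Divisor k Ft := redDiv χ.Qbar

/-- INPUT (B2, B3): hypotheses on a chart. `A.nonunits` is the maximal ideal `𝔪_A`. -/
structure ChartHyp (A : ValuationSubring K) (r : Place K F → Place k Ft) {g : ℕ}
    (χ : Chart K F k Ft g) : Prop where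
  /-- the `Q̄_i` are distinct -/
  inj : Function.Injective χ.Qbar
  /-- `l(Ē₀) = 1` -/
  l_E0bar : Module.finrank k (riemannRochSpace χ.E0bar) = 1
  /-- the centre `Q_i` lies in the disc of `Q̄_i` … -/
  centre_red : ∀ i, r (χ.Q i) = χ.Qbar i
  /-- … and is a zero of `t_i` -/
  centre_zero : ∀ i, 0 < (χ.Q i).ord (χ.t i)
  /-- (Da) every point of the disc of `Q̄_i` has a `t_i`-value in `𝔪_A` -/
  val_mem : ∀ (i : Fin g) (P : Place K F), r P = χ.Qbar i →
    ∃ s ∈ A.nonunits, 0 < P.ord (χ.t i - algebraMap K F s)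
  /-- (Da) every `s ∈ 𝔪_A` is the `t_i`-value of exactly one point of the disc of `Q̄_i` -/
  val_unique : ∀ (i : Fin g), ∀ s ∈ A.nonunits,
    ∃! P : Place K F, r P = χ.Qbar i ∧ 0 < P.ord (χ.t i - algebraMap K F s)
  /-- there is a place outside the discs of the `Q̄_i` -/
  aux : ∃ P : Place K F, ∀ i, r P ≠ χ.Qbar i

/-- INPUT (B6 (Ea), RULING 2): the group `G = ↥Γ_f` acts on `K` and on `Pic0 K F` through
semilinear automorphisms `ρ σ` of `F / K` which fix the coordinates and preserve the discs. -/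
structure EqvHyp (r : Place K F → Place k Ft) {g : ℕ} (χ : Chart K F k Ft g)
    (G : Type*) [Group G] [MulSemiringAction G K] [DistribMulAction G (Pic0 K F)]
    (ρ : G →* SemilinearAut K F) : Prop where
  smul_pic : ∀ (σ : G) (y : Pic0 K F), σ • y = ρ σ • y
  smul_base : ∀ (σ : G) (a : K), σ • a = SemilinearAut.baseAut (ρ σ) a
  smul_t : ∀ (σ : G) (i : Fin g), ρ σ • χ.t i = χ.t i
  smul_disc : ∀ (σ : G) (i : Fin g) (P : Place K F), r P = χ.Qbar i → r (ρ σ • P) = χ.Qbar i

/-! ### The kernel of reduction and the chart -/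

/-- `y` is the class of a divisor of degree zero whose reduction is principal. -/
def InJ1 (r : Place K F → Place k Ft) (y : Pic0 K F) : Prop :=
  ∃ D : Divisor.degZero (K := K) (F := F), Pic0.mk D = y ∧
    Finsupp.mapDomain r (D : Divisor K F) ∈ Divisor.principal (K := k) (F := Ft)

/-- `J1` is the kernel of reduction. -/
def J1Spec (r : Place K F → Place k Ft) (J1 : AddSubgroup (Pic0 K F)) : Prop :=
  ∀ y : Pic0 K F, y ∈ J1 ↔ InJ1 r y

/-- `D` is a divisor of degree zero representing the class `y`. -/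
def IsRep (y : Pic0 K F) (D : Divisor K F) : Prop :=
  ∃ h : D ∈ Divisor.degZero (K := K) (F := F), Pic0.mk ⟨D, h⟩ = y

/-- `y = [P_1 + … + P_g - E₀]` with `P_i` in the disc of `Q̄_i` and `t_i(P_i) = s_i`. -/
def IsXi (r : Place K F → Place k Ft) {g : ℕ} (χ : Chart K F k Ft g) (y : Pic0 K F)
    (s : Fin g → K) : Prop :=
  ∃ P : Fin g → Place K F, (∀ i, r (P i) = χ.Qbar i) ∧
    (∀ i, 0 < (P i).ord (χ.t i - algebraMap K F (s i))) ∧ IsRep y (redDiv P - χ.E0)

open Classical in
/-- **The chart** `Ξ` (junk value `0` where `IsXi` has no solution). -/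
def xi (r : Place K F → Place k Ft) {g : ℕ} (χ : Chart K F k Ft g) (y : Pic0 K F) : Fin g → K :=
  if h : ∃ s, IsXi r χ y s then h.choose else 0

/-! ### Exit literals, relational form -/

/-- **(Ξa), existence**: every `y ∈ J¹` is `[P_1 + … + P_g - E₀]` with `P_i` in the disc of `Q̄_i`,
with coordinates in `𝔪_A`. -/
def XiA (A : ValuationSubring K) (r : Place K F → Place k Ft) {g : ℕ}
    (χ : Chart K F k Ft g) : Prop :=
  ∀ y : Pic0 K F, InJ1 r y → ∃ s : Fin g → K, IsXi r χ y s ∧ ∀ i, s i ∈ A.nonunits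

/-- **(Ξa), uniqueness**: an effective divisor `D` of degree `g` with `[D - E₀] = y ∈ J¹` is THE
divisor `P_1 + … + P_g` of `IsXi`; in particular the coordinates are unique. -/
def XiAUnique (r : Place K F → Place k Ft) {g : ℕ} (χ : Chart K F k Ft g) : Prop :=
  ∀ (y : Pic0 K F) (s : Fin g → K) (P : Fin g → Place K F), (∀ i, r (P i) = χ.Qbar i) →
    (∀ i, 0 < (P i).ord (χ.t i - algebraMap K F (s i))) → IsRep y (redDiv P - χ.E0) →
    (∀ D : Divisor K F, 0 ≤ D → IsRep y (D - χ.E0) → D = redDiv P) ∧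
      ∀ s' : Fin g → K, IsXi r χ y s' → s' = s

/-- **(Ξb)**: `Ξ 0 = 0`, `Ξ` is injective, classes with coordinates lie in `J¹`, and `Ξ` is
`G`-equivariant. -/
def XiB (r : Place K F → Place k Ft) {g : ℕ} (χ : Chart K F k Ft g)
    (G : Type*) [Group G] [MulSemiringAction G K] [DistribMulAction G (Pic0 K F)] : Prop :=
  IsXi r χ 0 0 ∧
    (∀ (y y' : Pic0 K F) (s : Fin g → K), IsXi r χ y s → IsXi r χ y' s → y = y') ∧
    (∀ (y : Pic0 K F) (s : Fin g → K), IsXi r χ y s → InJ1 r y) ∧
    ∀ (σ : G) (y : Pic0 K F) (s : Fin g → K), IsXi r χ y s → IsXi r χ (σ • y) (fun i => σ • s i)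

/-! ### THE EXIT of (B5) -/

/-- What (B5) proves about the chart `Ξ` on the kernel of reduction `J1`; this is helper11's
`Assemble11.XiData` with `add` / `neg` uniform over finite sets of points only (the truncation
level of the formal group law depends on the valuations of the coordinates). -/
structure XiData {Ω J : Type*} [Field Ω] [AddCommGroup J] (A : Subring Ω) (J1 : AddSubgroup J)
    {g : ℕ} (Ξ : J → Fin g → Ω) (R : Type*) (G : Type*) [CommRing R] [Algebra R Ω] [Group G]
    [MulSemiringAction G Ω] [DistribMulAction G J] : Prop where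
  val : ∀ y ∈ J1, ∀ i, Ξ y i ∈ A
  inj : ∀ y ∈ J1, ∀ y' ∈ J1, Ξ y = Ξ y' → y = y'
  eqv : ∀ (σ : G), ∀ y ∈ J1, ∀ i, Ξ (σ • y) i = σ • Ξ y i
  add : ∀ d : R, algebraMap R Ω d ≠ 0 → ∀ S : Finset J,
    ∃ F : Fin g → MvPolynomial (Fin g ⊕ Fin g) R,
      ∀ y ∈ S, ∀ y' ∈ S, y ∈ J1 → y' ∈ J1 → ∀ i, ∃ a ∈ A,
        Ξ (y + y') i - MvPolynomial.aeval (Sum.elim (Ξ y) (Ξ y')) (F i) = algebraMap R Ω d * a
  neg : ∀ d : R, algebraMap R Ω d ≠ 0 → ∀ S : Finset J,
    ∃ F : Fin g → MvPolynomial (Fin g) R,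
      ∀ y ∈ S, y ∈ J1 → ∀ i, ∃ a ∈ A,
        Ξ (-y) i - MvPolynomial.aeval (Ξ y) (F i) = algebraMap R Ω d * a

/-- **(Ξc), pointwise form**: what remains to be proved for `add` once (Ξa), (Ξb) are known:
for all `y y' ∈ J¹` and `d ≠ 0` there is `N₀` such that for all `N ≥ N₀` the `N`-th truncation
`Fgl N` of the formal group law computes `Ξ (y + y')` modulo `d A` (same for `Inv N` and `-y`).
`Fgl`, `Inv` are helper19's `FGLUniv19.F Sys`, `FGLUniv19.G Sys`. -/
def XiC {Ω J : Type*} [Field Ω] [AddCommGroup J] (A : Subring Ω) (J1 : AddSubgroup J)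
    {g : ℕ} (Ξ : J → Fin g → Ω) (R : Type*) [CommRing R] [Algebra R Ω]
    (Fgl : ℕ → Fin g → MvPolynomial (Fin g ⊕ Fin g) R)
    (Inv : ℕ → Fin g → MvPolynomial (Fin g) R) : Prop :=
  (∀ y ∈ J1, ∀ y' ∈ J1, ∀ d : R, algebraMap R Ω d ≠ 0 → ∃ N₀ : ℕ, ∀ N : ℕ, N₀ ≤ N → ∀ i,
      ∃ a ∈ A, Ξ (y + y') i - MvPolynomial.aeval (Sum.elim (Ξ y) (Ξ y')) (Fgl N i)
        = algebraMap R Ω d * a) ∧
    ∀ y ∈ J1, ∀ d : R, algebraMap R Ω d ≠ 0 → ∃ N₀ : ℕ, ∀ N : ℕ, N₀ ≤ N → ∀ i,
      ∃ a ∈ A, Ξ (-y) i - MvPolynomial.aeval (Ξ y) (Inv N i) = algebraMap R Ω d * a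

end Fermat.Agent.ES.V19.XiIface29
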