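/-
Programme V (S19), chapter (B3) "reduction of places" — helper3 (chapter owner):
**STATEMENT-ONLY EXIT LITERAL of (B3)** (spine v1 of helper23, rulings 1 and 2): the four disc
lemmas (Da)–(Dd) at the `Q̄`-level, on main's objects, NO new reduction map.

Setting = `ES/RED/TwoCharts8` (Program I, on main): `L` algebraically closed, `A : ValuationSubring L`,
`F / L` a function field with generator `x`, `Ft / kA A` the function field of the special fibre,
`T : TwoCharts A hx Ft` the two-chart model over `A`, `T.r : Place L F → Place (kA A) Ft` ITS reduction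
map; `t := T.S0.s` the chart coordinate, `T.S0.B` the chart ring, `T.S0.red` its reduction,
`T.S0.ev P hP : B →+* A` the values at a place of the chart.  "`A`-integral functions" are the
elements of a subring `G ≤ F` with a reduction `gred : G →+* Ft` (instance:
`GaussRing15.gaussRingN A (resA A) M`, `gaussRedN`: `q`-expansions with coefficients in `A`).

For a place `Q` of the special fibre and `c : A`:
* `disc T Q`     : the residue disc `{P | T.r P = Q}`;
* `tauB T c`     : the local parameter `τ = t - c` in the chart ring; `tauSub T c s = τ - s ∈ F`;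
* `Good T Q c`   : `ord_Q (t̃ - c̄) = 1` (so `t̃ ∈ O_Q`, `t̃(Q) = c̄`, `τ̄` is a uniformiser at `Q`);
* `CQ T Q`       : the local ring `{a / b | a b ∈ B, b̄(Q) ≠ 0}` of the model at `Q`;
* `Da`, `Db`, `Dc`, `Dd` : the four disc lemmas; `DiscExit` : all of them at every GOOD `(Q, c)`.
-/
import Mathlib
import Fermat.Agent.ES.RED.TwoCharts8

set_option autoImplicit false

noncomputable section

open AlgebraicCurve

namespace Fermat.Agent.ES.V19.DiscIface3

open Fermat.Agent.X0.FF Fermat.Agent.ES.RED.Contract8 Fermat.Agent.ES.RED.TwoCharts8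

variable {L : Type*} [Field L] [IsAlgClosed L] {A : ValuationSubring L}
variable {F : Type*} [Field F] [Algebra L F] {x : F} {hx : IsGen L x}
variable {Ft : Type*} [Field Ft] [Algebra (kA A) Ft]
variable (T : TwoCharts A hx Ft) (G : Subring F) (gred : ↥G →+* Ft)
  (Q : Place (kA A) Ft) (c : ↥A)

/-- the residue disc of `Q`: the places of the generic fibre which reduce to `Q`. -/
def disc : Set (Place L F) := {P | T.r P = Q}

/-- the local parameter `τ = t - c` as an element of the chart ring (`t = T.S0.s`). -/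
def tauB : ↥T.S0.B := T.S0.sB - T.S0.const c

/-- `τ - s = t - (c + s)` as an element of `F`. -/
def tauSub (s : ↥A) : F := T.S0.s - algebraMap L F ((c : L) + (s : L))

/-- `Q` is GOOD with centre `c`: the reduction `t̃ - c̄` of `τ` has a simple zero at `Q`. -/
def Good : Prop := Q.ord (T.S0.red (tauB T c)) = 1

/-- the local ring of the model at the closed point `Q` of the special fibre:
fractions `a / b` of chart elements with `b̄(Q) ≠ 0`. -/
def CQ : Subring F where
  carrier := {f | ∃ a b : ↥T.S0.B, T.S0.red b ≠ 0 ∧ Q.ord (T.S0.red b) = 0 ∧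
    f * (b : F) = (a : F)}
  mul_mem' := by
    rintro f f' ⟨a, b, hb, hbQ, e⟩ ⟨a', b', hb', hbQ', e'⟩
    refine ⟨a * a', b * b', ?_, ?_, ?_⟩
    · rw [map_mul]; exact mul_ne_zero hb hb'
    · rw [map_mul, Place.ord_mul Q hb hb', hbQ, hbQ', add_zero]
    · rw [Subring.coe_mul, Subring.coe_mul, ← e, ← e']; ring
  one_mem' := ⟨1, 1, by rw [map_one]; exact one_ne_zero, by rw [map_one, Place.ord_one],
    by rw [one_mul]⟩
  add_mem' := by
    rintro f f' ⟨a, b, hb, hbQ, e⟩ ⟨a', b', hb', hbQ', e'⟩
    refine ⟨a * b' + a' * b, b * b', ?_, ?_, ?_⟩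
    · rw [map_mul]; exact mul_ne_zero hb hb'
    · rw [map_mul, Place.ord_mul Q hb hb', hbQ, hbQ', add_zero]
    · rw [Subring.coe_add, Subring.coe_mul, Subring.coe_mul, Subring.coe_mul, ← e, ← e']; ring
  zero_mem' := ⟨0, 1, by rw [map_one]; exact one_ne_zero, by rw [map_one, Place.ord_one],
    by rw [zero_mul]; rfl⟩
  neg_mem' := by
    rintro f ⟨a, b, hb, hbQ, e⟩
    exact ⟨-a, b, hb, hbQ, by rw [Subring.coe_neg, ← e]; ring⟩

theorem mem_CQ_iff (f : F) :
    f ∈ CQ T Q ↔ ∃ a b : ↥T.S0.B, T.S0.red b ≠ 0 ∧ Q.ord (T.S0.red b) = 0 ∧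
      f * (b : F) = (a : F) := Iff.rfl

/-- **(Da)** the disc of `Q` lies in chart 0, `τ` takes its values on the disc in `𝔪_A`, and
`P ↦ τ(P)` is a bijection of the disc onto `𝔪_A`: for every `s ∈ 𝔪_A` the function `τ - s` has
exactly one zero in the disc, and this zero is simple. -/
def Da : Prop :=
  (∀ P, T.r P = Q → T.S0.InChart P) ∧
  (∀ P, T.r P = Q → ∀ hP : T.S0.InChart P, T.S0.chi P hP (tauB T c) = 0) ∧
  ∀ s : ↥A, s ∈ IsLocalRing.maximalIdeal ↥A →
    ∃ P, T.r P = Q ∧ P.ord (tauSub T c s) = 1 ∧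
      ∀ P', T.r P' = Q → 0 < P'.ord (tauSub T c s) → P' = P

/-- **(Db)** an `A`-integral function without poles on the disc of `Q` lies in the local ring. -/
def Db : Prop :=
  ∀ f : F, f ∈ G → (∀ P, T.r P = Q → 0 ≤ P.ord f) → f ∈ CQ T Q

/-- **(Dc)** an `A`-integral function with nonzero reduction is, on the disc of `Q`, a unit of the
local ring times the product of the `(τ - τ(P)) ^ ord_P f` over its zeros and poles `P` in the
disc. -/
def Dc : Prop :=
  ∀ f : ↥G, gred f ≠ 0 →
    ∃ (W : Finset (Place L F)) (val : Place L F → ↥A) (u : (↥(CQ T Q))ˣ),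
      (∀ P ∈ W, T.r P = Q ∧ val P ∈ IsLocalRing.maximalIdeal ↥A ∧
        0 < P.ord (tauSub T c (val P))) ∧
      (∀ P, T.r P = Q → P.ord (f : F) ≠ 0 → P ∈ W) ∧
      (f : F) = ((u : ↥(CQ T Q)) : F) * ∏ P ∈ W, tauSub T c (val P) ^ (P.ord (f : F))

/-- **(Dd)**, core form (division by `τ` in the local ring): every element of `CQ` is a constant of
`A` plus a multiple of `τ`.  (The Taylor expansion `CQ →+* A⟦X⟧`, its injectivity, the evaluation
congruences and the compatibility with reduction follow formally: `TaylorSec3`.) -/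
def Dd : Prop :=
  ∀ f ∈ CQ T Q, ∃ a : ↥A, ∃ g ∈ CQ T Q,
    f = algebraMap L F (a : L) + ((tauB T c : ↥T.S0.B) : F) * g

/-- **The exit literal of (B3)**: the four disc lemmas at every GOOD `(Q, c)`. -/
def DiscExit : Prop :=
  ∀ (Q : Place (kA A) Ft) (c : ↥A), Good T Q c →
    Da T Q c ∧ Db T G Q ∧ Dc T G gred Q c ∧ Dd T Q c

end Fermat.Agent.ES.V19.DiscIface3
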