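/-
Programme V (S19), chapter B5, brick (Ξb) "injectivity", local part (helper5):
**the coordinate `val_τ : disc(Q) → 𝔪_A`, `P ↦ τ(P)`, is a bijection** — read off from helper3's frozen
literal `DiscIface3.Da T Q c` (B3 exit (Da)).

Setting = `DiscIface3` (main's `TwoCharts8`): `T : TwoCharts A hx Ft`, `Q` a place of the special fibre,
`c : A`, `τ = tauB T c = t - c` in the chart ring `T.S0.B`, values `T.S0.ev P hP : B →+* A`.

* `valTau T c P hP : A`              : the value `τ(P)` of `τ` at a place `P` of chart 0;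
* `coe_tauB_sub_const`               : `τ - s = tauSub T c s` in `F`;
* `valTau_mem_maximalIdeal`          : `τ(P) ∈ 𝔪_A` for `P` in the disc of `Q`;
* `tauSub_ne_zero`                   : `τ - s ≠ 0` for `s ∈ 𝔪_A`;
* `ord_tauSub_valTau_pos`            : `P` is a zero of `τ - τ(P)`;
* `valTau_eq_of_ord_pos`             : a zero `P` of `τ - s` in chart 0 has `τ(P) = s`;
* `valTau_inj`                       : **`τ(P) = τ(P')`, `P P' ∈ disc(Q)` ⇒ `P = P'`**;
* `exists_valTau_eq`                 : every `s ∈ 𝔪_A` is `τ(P)` for a `P ∈ disc(Q)` (a simple zero of `τ - s`);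
* `existsUnique_valTau_eq`           : `∃! P, T.r P = Q ∧ ∃ hP, τ(P) = s`.
-/
import Mathlib
import Fermat.Agent.ES.V19.DiscIface3

set_option autoImplicit false

noncomputable section

open AlgebraicCurve

namespace Fermat.Agent.ES.V19.XiInj5

open Fermat.Agent.X0.FF Fermat.Agent.ES.RED.Contract8 Fermat.Agent.ES.RED.TwoCharts8
  Fermat.Agent.ES.V19.DiscIface3

variable {L : Type*} [Field L] [IsAlgClosed L] {A : ValuationSubring L}
variable {F : Type*} [Field F] [Algebra L F] {x : F} {hx : IsGen L x}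
variable {Ft : Type*} [Field Ft] [Algebra (kA A) Ft]
variable (T : TwoCharts A hx Ft) (Q : Place (kA A) Ft) (c : ↥A)

/-- the value `τ(P) ∈ A` of the local parameter `τ = t - c` at a place `P` of chart 0. -/
def valTau (P : Place L F) (hP : T.S0.InChart P) : ↥A := T.S0.ev P hP (tauB T c)

/-- `τ - s`, computed in the chart ring, is `tauSub T c s`. -/
theorem coe_tauB_sub_const (s : ↥A) :
    (((tauB T c - T.S0.const s : ↥T.S0.B)) : F) = tauSub T c s := by
  show T.S0.s - algebraMap L F (c : L) - algebraMap L F (s : L) =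
    T.S0.s - algebraMap L F ((c : L) + (s : L))
  rw [map_add]
  ring

/-- a zero `P` (in chart 0) of `τ - s` has `τ(P) = s`. -/
theorem valTau_eq_of_ord_pos {P : Place L F} (hP : T.S0.InChart P) {s : ↥A}
    (h : 0 < P.ord (tauSub T c s)) : valTau T c P hP = s := by
  have h0 : T.S0.ev P hP (tauB T c - T.S0.const s) = 0 := by
    rw [ChartSpec.ev_eq_zero_iff, coe_tauB_sub_const]
    exact Or.inr h
  rw [map_sub, ChartSpec.ev_const, sub_eq_zero] at h0
  exact h0

variable {T Q c}

/-- on the disc of `Q` the parameter `τ` takes its values in `𝔪_A`. -/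
theorem valTau_mem_maximalIdeal (h : Da T Q c) {P : Place L F} (hQ : T.r P = Q)
    (hP : T.S0.InChart P) : valTau T c P hP ∈ IsLocalRing.maximalIdeal ↥A := by
  have h1 := h.2.1 P hQ hP
  rw [ChartSpec.chi_apply, IsLocalRing.residue_eq_zero_iff] at h1
  exact h1

/-- `τ - s ≠ 0` for `s ∈ 𝔪_A` (it has a simple zero). -/
theorem tauSub_ne_zero (h : Da T Q c) {s : ↥A} (hs : s ∈ IsLocalRing.maximalIdeal ↥A) :
    tauSub T c s ≠ 0 := by
  obtain ⟨P, _, h1, _⟩ := h.2.2 s hs
  intro h0
  rw [h0, Place.ord_zero] at h1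
  exact zero_ne_one h1

/-- `P ∈ disc(Q)` is a zero of `τ - τ(P)`. -/
theorem ord_tauSub_valTau_pos (h : Da T Q c) {P : Place L F} (hQ : T.r P = Q)
    (hP : T.S0.InChart P) : 0 < P.ord (tauSub T c (valTau T c P hP)) := by
  have h0 : T.S0.ev P hP (tauB T c - T.S0.const (valTau T c P hP)) = 0 :=
    T.S0.ev_sub_const P hP (tauB T c)
  rw [ChartSpec.ev_eq_zero_iff, coe_tauB_sub_const] at h0
  rcases h0 with h0 | h0
  · exact absurd h0 (tauSub_ne_zero h (valTau_mem_maximalIdeal h hQ hP))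
  · exact h0

/-- **injectivity of `val_τ` on the disc of `Q`.** -/
theorem valTau_inj (h : Da T Q c) {P P' : Place L F} (hQ : T.r P = Q) (hQ' : T.r P' = Q)
    (hP : T.S0.InChart P) (hP' : T.S0.InChart P')
    (he : valTau T c P hP = valTau T c P' hP') : P = P' := by
  obtain ⟨P₀, _, _, huniq⟩ := h.2.2 _ (valTau_mem_maximalIdeal h hQ hP)
  have h1 := huniq P hQ (ord_tauSub_valTau_pos h hQ hP)
  have h2 := huniq P' hQ' (by rw [he]; exact ord_tauSub_valTau_pos h hQ' hP')
  rw [h1, h2]

/-- **surjectivity of `val_τ`**: every `s ∈ 𝔪_A` is the value of `τ` at a point of the disc, which is a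
simple zero of `τ - s`. -/
theorem exists_valTau_eq (h : Da T Q c) {s : ↥A} (hs : s ∈ IsLocalRing.maximalIdeal ↥A) :
    ∃ (P : Place L F) (hP : T.S0.InChart P), T.r P = Q ∧ valTau T c P hP = s ∧
      P.ord (tauSub T c s) = 1 := by
  obtain ⟨P, hQ, h1, _⟩ := h.2.2 s hs
  have hP := h.1 P hQ
  refine ⟨P, hP, hQ, valTau_eq_of_ord_pos T c hP ?_, h1⟩
  rw [h1]
  exact one_pos

/-- `val_τ : disc(Q) → 𝔪_A` is a bijection. -/
theorem existsUnique_valTau_eq (h : Da T Q c) {s : ↥A} (hs : s ∈ IsLocalRing.maximalIdeal ↥A) :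
    ∃! P : Place L F, T.r P = Q ∧ ∃ hP : T.S0.InChart P, valTau T c P hP = s := by
  obtain ⟨P, hP, hQ, hv, _⟩ := exists_valTau_eq h hs
  refine ⟨P, ⟨hQ, hP, hv⟩, ?_⟩
  rintro P' ⟨hQ', hP', hv'⟩
  exact valTau_inj h hQ' hQ hP' hP (hv'.trans hv.symm)

/-- the coordinate as an element of `L`, defined on the whole disc (chart membership supplied by (Da)). -/
def coord (h : Da T Q c) (P : Place L F) (hQ : T.r P = Q) : L :=
  ((valTau T c P (h.1 P hQ) : ↥A) : L)

theorem coord_mem (h : Da T Q c) (P : Place L F) (hQ : T.r P = Q) : coord h P hQ ∈ A :=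
  (valTau T c P (h.1 P hQ)).2

theorem coord_inj (h : Da T Q c) {P P' : Place L F} (hQ : T.r P = Q) (hQ' : T.r P' = Q)
    (he : coord h P hQ = coord h P' hQ') : P = P' :=
  valTau_inj h hQ hQ' (h.1 P hQ) (h.1 P' hQ') (Subtype.ext he)

/-- `τ(P) = 0` exactly at the zero of `τ` in the disc. -/
theorem coord_eq_zero_iff (h : Da T Q c) (P : Place L F) (hQ : T.r P = Q) :
    coord h P hQ = 0 ↔ 0 < P.ord (tauSub T c 0) := by
  constructor
  · intro h0
    have h1 : valTau T c P (h.1 P hQ) = 0 := Subtype.ext h0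
    have := ord_tauSub_valTau_pos h hQ (h.1 P hQ)
    rwa [h1] at this
  · intro h0
    have := valTau_eq_of_ord_pos T c (h.1 P hQ) h0
    show ((valTau T c P (h.1 P hQ) : ↥A) : L) = 0
    rw [this]
    rfl

end Fermat.Agent.ES.V19.XiInj5
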