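/-
Programme V (S19), join step J4 "CHART" (helper5): **helper29's `XiIface29.ChartHyp` from helper3's
`DiscIface3.Da`**, on main's `TwoCharts8`.

Data: `T : TwoCharts A hx Ft`, `g` places `Qb i` of the special fibre with centres `c i : A` such that (Da)
holds at every `(Qb i, c i)` (B3; for GOOD places).  Then
* `centre T Qb c hDa i` : the zero `Q_i` of `τ_i = t - c i` in the disc of `Qb i`
  (`r_centre`, `ord_centre`, `centre_unique`);
* `chartOf T Qb c hDa : XiIface29.Chart L F (kA A) Ft g` : `Qbar := Qb`, `t i := tauSub T (c i) 0 = t - c i`,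
  `Q := centre`;
* `chartHyp` : **`XiIface29.ChartHyp A T.r (chartOf T Qb c hDa)`**, given that the `Qb i` are distinct,
  `l(Ē₀) = 1` and a place `Ps` outside the discs;
* `good_of_ord` : `Good T Q c` from `ord_Q (t̃ - y) = 1` and `res c = y` (for Teichmüller centres);
* `exists_place_of_da` : a place in the disc of `Q` (to produce `Ps` from a GOOD place `Qs ∉ {Qb i}`).
-/
import Mathlib
import Fermat.Agent.ES.V19.XiIface29
import Fermat.Agent.ES.V19.XiInj5

set_option autoImplicit false

open AlgebraicCurve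

noncomputable section

namespace Fermat.Agent.ES.V19.XiChartOf5

open Fermat.Agent.X0.FF Fermat.Agent.ES.RED.Contract8 Fermat.Agent.ES.RED.TwoCharts8
  Fermat.Agent.ES.V19.OnePlaceRep9 Fermat.Agent.ES.V19.DiscIface3 Fermat.Agent.ES.V19.XiInj5
  Fermat.Agent.ES.V19.XiIface29

variable {L : Type*} [Field L] [IsAlgClosed L] {A : ValuationSubring L}
variable {F : Type*} [Field F] [Algebra L F] {x : F} {hx : IsGen L x}
variable {Ft : Type*} [Field Ft] [Algebra (kA A) Ft]
variable (T : TwoCharts A hx Ft)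

/-- `(τ - 0) - s = τ - s`. -/
theorem tauSub_zero_sub (c s : ↥A) :
    tauSub T c 0 - algebraMap L F (s : L) = tauSub T c s := by
  show T.S0.s - algebraMap L F ((c : L) + ((0 : ↥A) : L)) - algebraMap L F (s : L) =
    T.S0.s - algebraMap L F ((c : L) + (s : L))
  rw [ZeroMemClass.coe_zero, add_zero, map_add]
  ring

/-- `Good` from the order of `t̃ - y`, `y = res c`. -/
theorem good_of_ord (Q : Place (kA A) Ft) (c : ↥A) (y : kA A) (hc : resA A c = y)
    (h : Q.ord (T.S0.red T.S0.sB - algebraMap (kA A) Ft y) = 1) : Good T Q c := by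
  show Q.ord (T.S0.red (T.S0.sB - T.S0.const c)) = 1
  rw [map_sub, T.S0.red_const', hc]
  exact h

/-- the disc of a place with (Da) is not empty. -/
theorem exists_place_of_da {Q : Place (kA A) Ft} {c : ↥A} (h : Da T Q c) :
    ∃ P : Place L F, T.r P = Q := by
  obtain ⟨P, hP, _⟩ := h.2.2 0 (Ideal.zero_mem _)
  exact ⟨P, hP⟩

variable {g : ℕ} (Qb : Fin g → Place (kA A) Ft) (c : Fin g → ↥A)
  (hDa : ∀ i, Da T (Qb i) (c i))

/-- the centre `Q_i`: the zero of `τ_i = t - c i` in the disc of `Qb i`. -/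
def centre (i : Fin g) : Place L F := ((hDa i).2.2 0 (Ideal.zero_mem _)).choose

theorem r_centre (i : Fin g) : T.r (centre T Qb c hDa i) = Qb i :=
  ((hDa i).2.2 0 (Ideal.zero_mem _)).choose_spec.1

theorem ord_centre (i : Fin g) : (centre T Qb c hDa i).ord (tauSub T (c i) 0) = 1 :=
  ((hDa i).2.2 0 (Ideal.zero_mem _)).choose_spec.2.1

theorem centre_unique (i : Fin g) {P : Place L F} (hP : T.r P = Qb i)
    (h : 0 < P.ord (tauSub T (c i) 0)) : P = centre T Qb c hDa i :=
  ((hDa i).2.2 0 (Ideal.zero_mem _)).choose_spec.2.2 P hP h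

/-- **The chart** attached to the places `Qb i` and the centres `c i`. -/
def chartOf : Chart L F (kA A) Ft g where
  Qbar := Qb
  t := fun i => tauSub T (c i) 0
  Q := centre T Qb c hDa

@[simp] theorem chartOf_Qbar : (chartOf T Qb c hDa).Qbar = Qb := rfl

@[simp] theorem chartOf_t (i : Fin g) : (chartOf T Qb c hDa).t i = tauSub T (c i) 0 := rfl

@[simp] theorem chartOf_Q : (chartOf T Qb c hDa).Q = centre T Qb c hDa := rfl

/-- **J4**: the chart hypotheses of `XiIface29` from (Da). -/
theorem chartHyp (hinj : Function.Injective Qb)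
    (hl : Module.finrank (kA A) (riemannRochSpace (redDiv Qb)) = 1)
    (Ps : Place L F) (hPs : ∀ i, T.r Ps ≠ Qb i) :
    ChartHyp A T.r (chartOf T Qb c hDa) where
  inj := hinj
  l_E0bar := hl
  centre_red := r_centre T Qb c hDa
  centre_zero := fun i => by
    show 0 < (centre T Qb c hDa i).ord (tauSub T (c i) 0)
    rw [ord_centre]
    exact one_pos
  val_mem := fun i P hP => by
    have hin := (hDa i).1 P hP
    refine ⟨((valTau T (c i) P hin : ↥A) : L), ?_, ?_⟩
    · exact ValuationSubring.coe_mem_nonunits_iff.mpr (valTau_mem_maximalIdeal (hDa i) hP hin)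
    · show 0 < P.ord (tauSub T (c i) 0 - algebraMap L F ((valTau T (c i) P hin : ↥A) : L))
      rw [tauSub_zero_sub]
      exact ord_tauSub_valTau_pos (hDa i) hP hin
  val_unique := fun i s hs => by
    obtain ⟨ha, hm⟩ := ValuationSubring.mem_nonunits_iff_exists_mem_maximalIdeal.mp hs
    obtain ⟨P, hP, h1, huniq⟩ := (hDa i).2.2 ⟨s, ha⟩ hm
    have e : ∀ P' : Place L F,
        P'.ord ((chartOf T Qb c hDa).t i - algebraMap L F s) =
          P'.ord (tauSub T (c i) ⟨s, ha⟩) := fun P' => by
      show P'.ord (tauSub T (c i) 0 - algebraMap L F ((⟨s, ha⟩ : ↥A) : L)) = _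
      rw [tauSub_zero_sub]
    refine ⟨P, ⟨hP, ?_⟩, ?_⟩
    · rw [e, h1]
      exact one_pos
    · rintro P' ⟨hP', h'⟩
      rw [e] at h'
      exact huniq P' hP' h'
  aux := ⟨Ps, hPs⟩

end Fermat.Agent.ES.V19.XiChartOf5
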