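/-
Programme V (S19), join step J5 (helper9): **helper14's `BasisData` over the fixed ring, on main's two-chart model,
from the exit literals of B3 (`DiscIface3`) and J1 (`RedCtx` at `(gaussInt, rho)`).**

Setting = `DiscIface3`: `T : TwoCharts A hx Ft`, `G := gaussInt T.S0.B T.S0.red`, `gred := rho T.S0.B T.S0.red`,
`r := T.r`.  Chart data as in `XiChartOf5` (J4): `g = genusFF L F` places `Qb i` of the special fibre with centres
`c i : A`, GOOD, with (Da), (Db), (Dd); `Q i := XiChartOf5.centre T Qb c hDa i` (the zero of `t i := tauSub T (c i) 0`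
in the disc of `Qb i`), `tbar i := T.S0.red (tauB T (c i))`; an auxiliary place `Ps` reducing outside the `Qb i`.

* `localRed_disc` : **`BasisInt9.LocalRed` at a zero of `τ` in a GOOD disc** (via `LocalRedDisc9.localRed_of_disc` and the
  derived API `DiscLocal3`/`DiscRed3` of B3);
* `smul_eq_of_da` : a semilinear automorphism which fixes `τ` and preserves the disc of `Q` fixes the zero of `τ`
  in the disc (from the uniqueness clause of (Da));
* `finrank_H1_centre` : `h¹(Q_1 + … + Q_g) = 0` from `l(Qb_1 + … + Qb_g) = 1` (`SupTrick15.const_of_mem_L`);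
* `hbar_of_finrank` : the shape of "`L(Ē₀)` = constants" used by `BasisInt9`;
* **`exists_basisData_disc`** : the conclusion of `BasisFinal9.exists_basisData_fixed` on these data, for a group `Γ`
  acting through `ρ : Γ →* SemilinearAut L F` (shape of `XiIface29.EqvHyp`) which fixes the `t i`, preserves the
  discs of the `Qb i` and fixes `Ps`; `O` any subring of `L` containing the `Γ`-fixed elements of `A`.
-/
import Mathlib
import Fermat.Prelude.Def_AlgebraicCurve_BaseChangeGalois
import Fermat.Agent.ES.V19.DiscRed3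
import Fermat.Agent.ES.V19.GaussFracIdem15
import Fermat.Agent.ES.V19.XiChartOf5
import Fermat.Agent.ES.V19.GenericNonSpecial8
import Fermat.Agent.ES.V19.LocalRedDisc9
import Fermat.Agent.ES.V19.BasisEqv9

set_option autoImplicit false

open AlgebraicCurve

noncomputable section

namespace Fermat.Agent.ES.V19.BasisDisc9

open Fermat.Agent.X0.FF Fermat.Agent.RR Fermat.Agent.RR.LSpace
  Fermat.Agent.ES.RED.Contract8 Fermat.Agent.ES.RED.TwoCharts8
  Fermat.Agent.ES.V19.OnePlaceRep9 Fermat.Agent.ES.V19.BasisQbar9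
  Fermat.Agent.ES.V19.GaussFrac15 Fermat.Agent.ES.V19.GaussFracIdem15 Fermat.Agent.ES.V19.SupTrick15
  Fermat.Agent.ES.V19.BasisInt9 Fermat.Agent.ES.V19.BasisData9 Fermat.Agent.ES.V19.BasisFinal9
  Fermat.Agent.ES.V19.BasisEqv9 Fermat.Agent.ES.V19.LocalRedDisc9
  Fermat.Agent.ES.V19.DiscIface3 Fermat.Agent.ES.V19.DiscLocal3 Fermat.Agent.ES.V19.DiscTaylor3
  Fermat.Agent.ES.V19.DiscRed3 Fermat.Agent.ES.V19.XiChartOf5 Fermat.Agent.ES.V19.NormalFormBasis14
open Fermat.Agent.ES.V19.LaurentMap19 (Lam mapLam)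

/-! ### generalities -/

section Gen

variable {K E : Type*} [Field K] [Field E] [Algebra K E]

/-- `r_* (P_1 + … + P_n) = r P_1 + … + r P_n`. -/
theorem mapDomain_redDiv' {K' E' : Type*} [Field K'] [Field E'] [Algebra K' E']
    (r : Place K E → Place K' E') {n : ℕ} (Q : Fin n → Place K E) :
    Finsupp.mapDomain r (redDiv Q) = redDiv (fun i => r (Q i)) := by
  unfold redDiv
  rw [← Finsupp.mapDomain.addMonoidHom_apply, map_sum]
  refine Finset.sum_congr rfl fun i _ => ?_
  rw [Finsupp.mapDomain.addMonoidHom_apply, Finsupp.mapDomain_single]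

/-- the shape of "`L(Ē₀)` consists of constants" used by `BasisInt9`. -/
theorem hbar_of_finrank (H : LHyp K E) {n : ℕ} {Qb : Fin n → Place K E} (hinj : Function.Injective Qb)
    (hl : Module.finrank K (riemannRochSpace (redDiv Qb)) = 1) (h : E)
    (h1 : ∀ v : Place K E, (∀ i, Qb i ≠ v) → 0 ≤ v.ord h) (h2 : ∀ i, -1 ≤ (Qb i).ord h) :
    ∃ x : K, h = algebraMap K E x := by
  apply Fermat.Agent.ES.V19.GenericNonSpecial8.eq_algebraMap_of_finrank_L_eq_one H (redDiv_nonneg Qb) hl
  rw [mem_riemannRochSpace_iff]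
  intro v
  right
  by_cases hv : ∃ i, Qb i = v
  · obtain ⟨i, rfl⟩ := hv
    rw [redDiv_apply_self hinj i]
    exact h2 i
  · rw [redDiv_apply_of_not_mem (fun i hi => hv ⟨i, hi⟩), neg_zero]
    exact h1 v (fun i hi => hv ⟨i, hi⟩)

end Gen

variable {L : Type*} [Field L] [IsAlgClosed L] {A : ValuationSubring L}
variable {F : Type*} [Field F] [Algebra L F] {x : F} {hx : IsGen L x}
variable {Ft : Type*} [Field Ft] [Algebra (kA A) Ft]
variable [IsAlgClosed (kA A)] {xt : Ft} (hxt : IsGen (kA A) xt)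
variable (T : TwoCharts A hx Ft)
variable (C : RedCtx A (resA A) (gaussInt T.S0.B T.S0.red) (rho T.S0.B T.S0.red) T.r)
  (HL : LHyp L F) (HLt : LHyp (kA A) Ft)

/-! ### one disc -/

section One

variable {Q : Place (kA A) Ft} {c : ↥A} (hDa : Da T Q c)

omit [IsAlgClosed (kA A)] in
include hDa in
/-- `τ` is regular on the disc. -/
theorem ord_tauSub_nonneg (P : Place L F) (hPQ : T.r P = Q) : 0 ≤ P.ord (tauSub T c 0) := by
  rw [tauSub_zero]
  exact ord_nonneg_of_mem P (T.S0.mem_place P (hDa.1 P hPQ) _ (tauB T c).2)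

omit [IsAlgClosed (kA A)] in
/-- the reduction of `τ` in the vocabulary `(gaussInt, rho)`. -/
theorem isRedOf_tau :
    IsRedOf (gaussInt T.S0.B T.S0.red) (rho T.S0.B T.S0.red) (tauSub T c 0) (T.S0.red (tauB T c)) :=
  (isRedOf_gaussInt_iff _ _).mpr (isRedOf_tauSub T c 0 (Ideal.zero_mem _))

include hxt C hDa in
/-- **`LocalRed` at a zero of `τ` in a GOOD disc**, from (Da), (Db), (Dd). -/
theorem localRed_disc (hDb : Db T (gaussInt T.S0.B T.S0.red) Q) (hDd : Dd T Q c)
    (P : Place L F) (hPQ : T.r P = Q) (hP1 : P.ord (tauSub T c 0) = 1)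
    (htbar : (T.r P).ord (T.S0.red (tauB T c)) = 1) :
    LocalRed (resA A) (gaussInt T.S0.B T.S0.red) (rho T.S0.B T.S0.red) T.r HL HLt P hP1 htbar := by
  refine localRed_of_disc C HL HLt P hP1 htbar (CQ T Q) ?_ ?_ ?_ ?_ ?_ (isRedOf_tau T)
  · -- (Dd)
    intro f hf
    obtain ⟨a, g, hg, e⟩ := hDd f hf
    exact ⟨a, g, hg, by rw [tauSub_zero]; exact e⟩
  · -- (Db)
    intro f hf hreg
    exact hDb f ((isGI_gaussInt_iff f).mp hf) (fun P' hP' => hreg P' (hP'.trans hPQ.symm))
  · intro f hf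
    exact (isGI_gaussInt_iff f).mpr (CQ_le_gaussInt T Q hf)
  · intro f hf
    exact mem_place_of_mem_CQ hxt T Q P hPQ (hDa.1 P hPQ) hf
  · intro f hf φ hφ
    have h1 : IsRedOf T.S0.B T.S0.red f φ := (isRedOf_gaussInt_iff f φ).mp hφ
    have h2 := isRedOf_rhoQ T Q ⟨f, hf⟩
    rw [h1.unique h2, hPQ]
    exact rhoQ_mem T Q P hPQ (hDa.1 P hPQ) ⟨f, hf⟩

omit [IsAlgClosed (kA A)] in
include hDa in
/-- a semilinear automorphism which fixes `τ` and preserves the disc of `Q` fixes the zero of `τ` in the disc. -/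
theorem smul_eq_of_da (g : SemilinearAut L F) (hg : g • tauSub T c 0 = tauSub T c 0)
    (hdisc : ∀ P : Place L F, T.r P = Q → T.r (g • P) = Q)
    (P : Place L F) (hPQ : T.r P = Q) (hP : 0 < P.ord (tauSub T c 0)) : g • P = P := by
  obtain ⟨P₀, -, -, huniq⟩ := hDa.2.2 0 (Ideal.zero_mem _)
  have h1 : P = P₀ := huniq P hPQ hP
  have h2 : g • P = P₀ := by
    apply huniq (g • P) (hdisc P hPQ)
    have := SemilinearAut.ord_smul g P (tauSub T c 0)
    rw [hg] at this
    rw [this]
    exact hP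
  rw [h2, h1]

end One

/-! ### the chart -/

variable (Qb : Fin (genusFF L F) → Place (kA A) Ft) (c : Fin (genusFF L F) → ↥A)
  (hDa : ∀ i, Da T (Qb i) (c i))

omit [IsAlgClosed (kA A)] in
theorem ord_centre_pos (i : Fin (genusFF L F)) : 0 < (centre T Qb c hDa i).ord (tauSub T (c i) 0) := by
  rw [ord_centre]
  exact one_pos

omit [IsAlgClosed (kA A)] in
theorem good_centre (hgood : ∀ i, Good T (Qb i) (c i)) (i : Fin (genusFF L F)) :
    (T.r (centre T Qb c hDa i)).ord (T.S0.red (tauB T (c i))) = 1 := by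
  rw [r_centre]
  exact hgood i

omit [IsAlgClosed (kA A)] in
theorem injective_r_centre (hinj : Function.Injective Qb) :
    Function.Injective fun i => T.r (centre T Qb c hDa i) := by
  intro i j hij
  apply hinj
  have : T.r (centre T Qb c hDa i) = T.r (centre T Qb c hDa j) := hij
  rwa [r_centre, r_centre] at this

omit [IsAlgClosed (kA A)] in
theorem injective_centre (hinj : Function.Injective Qb) : Function.Injective (centre T Qb c hDa) :=
  fun i j hij => injective_r_centre T Qb c hDa hinj (congrArg T.r hij)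

omit [IsAlgClosed (kA A)] in
include C HL HLt in
/-- every element of `L(Q_1 + … + Q_g)` is constant. -/
theorem const_of_mem_L_centre
    (hl : Module.finrank (kA A) (riemannRochSpace (redDiv Qb)) = 1)
    (Ps : Place L F) (hPs : ∀ i, T.r Ps ≠ Qb i) (f : F)
    (hf : f ∈ riemannRochSpace (redDiv (centre T Qb c hDa))) : ∃ a : L, f = algebraMap L F a := by
  refine const_of_mem_L C HL (redDiv (centre T Qb c hDa)) (redDiv_nonneg _) Ps ?_ ?_ f hf
  · intro P hP
    apply redDiv_apply_of_not_mem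
    intro i hi
    apply hPs i
    rw [← hP, ← hi, r_centre]
  · intro h hh
    rw [mapDomain_redDiv'] at hh
    have e : (fun i => T.r (centre T Qb c hDa i)) = Qb := funext (r_centre T Qb c hDa)
    rw [e] at hh
    exact Fermat.Agent.ES.V19.GenericNonSpecial8.eq_algebraMap_of_finrank_L_eq_one HLt (redDiv_nonneg Qb)
      hl hh

omit [IsAlgClosed (kA A)] in
include C HL HLt in
/-- **`h¹(Q_1 + … + Q_g) = 0`.** -/
theorem finrank_H1_centre
    (hR : ∃ γ : ℤ, ∀ D : Divisor L F,
      Divisor.degree D + 1 - γ ≤ (Module.finrank L (riemannRochSpace D) : ℤ))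
    (hinj : Function.Injective Qb)
    (hl : Module.finrank (kA A) (riemannRochSpace (redDiv Qb)) = 1)
    (Ps : Place L F) (hPs : ∀ i, T.r Ps ≠ Qb i) :
    Module.finrank L (H1 (redDiv (centre T Qb c hDa))) = 0 := by
  have hl1 : Module.finrank L (riemannRochSpace (redDiv (centre T Qb c hDa))) = 1 :=
    Fermat.Agent.ES.V19.GenericNonSpecial8.finrank_L_eq_one_of_forall_const HL (redDiv_nonneg _)
      (fun f hf => const_of_mem_L_centre T C HL HLt Qb c hDa hl Ps hPs f hf)
  have h := Fermat.Agent.ES.V19.H1FiniteL8.finrank_L_sub_finrank_H1 HL hR (redDiv (centre T Qb c hDa))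
  rw [hl1, degree_redDiv HL] at h
  have : (Module.finrank L (H1 (redDiv (centre T Qb c hDa))) : ℤ) = 0 := by
    push_cast at h
    linarith
  exact_mod_cast this

include hxt C HLt in
/-- **J5: helper14's `BasisData` over the fixed ring, on main's two-chart model.** -/
theorem exists_basisData_disc
    (hR : ∃ γ : ℤ, ∀ D : Divisor L F,
      Divisor.degree D + 1 - γ ≤ (Module.finrank L (riemannRochSpace D) : ℤ))
    (hinj : Function.Injective Qb) (hgood : ∀ i, Good T (Qb i) (c i))
    (hDb : ∀ i, Db T (gaussInt T.S0.B T.S0.red) (Qb i)) (hDd : ∀ i, Dd T (Qb i) (c i))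
    (hl : Module.finrank (kA A) (riemannRochSpace (redDiv Qb)) = 1)
    (Ps : Place L F) (hPs : ∀ i, T.r Ps ≠ Qb i)
    {Γ : Type*} [Group Γ] (ρ : Γ →* SemilinearAut L F)
    (hρt : ∀ (σ : Γ) (i : Fin (genusFF L F)), ρ σ • tauSub T (c i) 0 = tauSub T (c i) 0)
    (hρdisc : ∀ (σ : Γ) (i : Fin (genusFF L F)) (P : Place L F),
      T.r P = Qb i → T.r (ρ σ • P) = Qb i)
    (hρPs : ∀ σ : Γ, ρ σ • Ps = Ps)
    (O : Subring L)
    (hO : ∀ a : L, a ∈ A → (∀ σ : Γ, SemilinearAut.baseAut (ρ σ) a = a) → a ∈ O) :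
    ∃ (B : BBData HL (ord_centre T Qb c hDa) (Q := centre T Qb c hDa) Ps)
      (D : BasisData ↥O (genusFF L F)),
      (∀ i n, mapLam O.subtype (D.bb i n) = ExpK HL (ord_centre T Qb c hDa) (B.bb i n)) ∧
      (∀ i n l, ((D.cc i n l : ↥O) : L) = B.cc i n l) ∧
      (∀ i n, IsGI (gaussInt T.S0.B T.S0.red) (rho T.S0.B T.S0.red) (B.bb i n)) := by
  have hQinj := injective_centre T Qb c hDa hinj
  have h0 := finrank_H1_centre T C HL HLt Qb c hDa hR hinj hl Ps hPs
  have hPsQ : ∀ i, centre T Qb c hDa i ≠ Ps := by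
    intro i hi
    apply hPs i
    rw [← hi, r_centre]
  obtain ⟨B⟩ := exists_bbData HL (ord_centre T Qb c hDa) hR h0 hQinj hPsQ
  refine ⟨B, ?_⟩
  refine exists_basisData_fixed C HL HLt (ord_centre T Qb c hDa)
    (injective_r_centre T Qb c hDa hinj) (good_centre T Qb c hDa hgood)
    (fun i => isRedOf_tau T) ?_ ?_ ?_ hR h0 B ?_
    {s | ∃ σ : Γ, s = (((SemilinearAut.baseAut (ρ σ) : L ≃+* L) : L →+* L),
      ((SemilinearAut.toRingAut (ρ σ) : F ≃+* F) : F →+* F))} ?_ O ?_
  · -- `htreg`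
    intro i P hP
    rw [r_centre] at hP
    exact ord_tauSub_nonneg T (hDa i) P hP
  · -- `hloc`
    intro i
    exact localRed_disc hxt T C HL HLt (hDa i) (hDb i) (hDd i) _ (r_centre T Qb c hDa i) _ _
  · -- `hstar`
    intro i hi
    apply hPs i
    rw [← hi, r_centre]
  · -- `hbar`
    intro h h1 h2
    have e : (fun i => T.r (centre T Qb c hDa i)) = Qb := funext (r_centre T Qb c hDa)
    refine hbar_of_finrank HLt hinj hl h ?_ ?_
    · intro v hv
      apply h1 v
      intro i hi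
      apply hv i
      rw [← hi, r_centre]
    · intro i
      have := h2 i
      rwa [r_centre] at this
  · -- `hS`
    rintro s ⟨σ, rfl⟩
    refine fixesChart_of_smul (ρ σ) ?_ (hρt σ) (hρPs σ)
    intro i
    exact smul_eq_of_da T (hDa i) (ρ σ) (hρt σ i) (hρdisc σ i) _ (r_centre T Qb c hDa i)
      (ord_centre_pos T Qb c hDa i)
  · -- `hO`
    intro a ha hfix
    apply hO a ha
    intro σ
    exact hfix _ ⟨σ, rfl⟩

end Fermat.Agent.ES.V19.BasisDisc9

end
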