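/-
Programme V (S19), join G4 → G3 (helper25): **`BasisDisc9.exists_basisData_disc` (J5) composed
with `ExpBaChart25` ((Lc) at the chart) in ONE statement.**

Setting = `BasisDisc9` (main's two-chart model, `G := gaussInt T.S0.B T.S0.red`, chart data
`Qb c hDa` of J4, `Q i = centre …`, `t i = tauSub T (c i) 0`).  The conclusion of
`exists_basisData_disc` (the normalised functions `B.bb i n`, helper14's `D : BasisData ↥O g` with
`mapLam O.subtype (D.bb i n) = ExpK … (B.bb i n)`, Gauss-integrality) is completed by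

* `B.bb i n ∈ Ba (chartData …)` and `Exp ⟨B.bb i n, _⟩ = mapLam (O ↪ A) (D.bb i n)`
  (the Laurent expansion `Exp : B_a →+* Lam g A` of (Lc) has the coefficients `D.bb i n`);
* the clause **`bb_exp`** of (Le): for all `i n l` there is `m` with
  `B.bb i n * τ_l ^ m ∈ CQ T (Qb l)` and
  `ofPowerSeries (taylorQ ⟨B.bb i n * τ_l ^ m, _⟩) = mapLam (O ↪ A) (D.bb i n) l * (single 1 1) ^ m`.
-/
import Mathlib
import Fermat.Agent.ES.V19.BasisDisc9
import Fermat.Agent.ES.V19.ExpBaChart25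

set_option autoImplicit false
set_option linter.style.haveILetI false

open AlgebraicCurve

noncomputable section

namespace Fermat.Agent.ES.V19.BasisExpJoin25

open Fermat.Agent.X0.FF Fermat.Agent.RR Fermat.Agent.RR.LSpace
  Fermat.Agent.ES.RED.Contract8 Fermat.Agent.ES.RED.TwoCharts8
  Fermat.Agent.ES.V19.OnePlaceRep9 Fermat.Agent.ES.V19.BasisQbar9
  Fermat.Agent.ES.V19.GaussFrac15 Fermat.Agent.ES.V19.GaussFracIdem15 Fermat.Agent.ES.V19.SupTrick15
  Fermat.Agent.ES.V19.BasisData9 Fermat.Agent.ES.V19.BasisDisc9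
  Fermat.Agent.ES.V19.DiscIface3 Fermat.Agent.ES.V19.DiscLocal3 Fermat.Agent.ES.V19.DiscTaylor3
  Fermat.Agent.ES.V19.XiChartOf5 Fermat.Agent.ES.V19.NormalFormBasis14
  Fermat.Agent.ES.V19.ExpandPlace9 Fermat.Agent.ES.V19.ExpBa25 Fermat.Agent.ES.V19.ExpBaGlue25
  Fermat.Agent.ES.V19.ExpBaChart25
open Fermat.Agent.ES.V19.LaurentMap19 (Lam mapLam)

variable {L : Type*} [Field L] [IsAlgClosed L] {A : ValuationSubring L}
variable {F : Type*} [Field F] [Algebra L F] {x : F} {hx : IsGen L x}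
variable {Ft : Type*} [Field Ft] [Algebra (kA A) Ft]
variable [IsAlgClosed (kA A)] {xt : Ft} (hxt : IsGen (kA A) xt)
variable (T : TwoCharts A hx Ft)
variable (C : RedCtx A (resA A) (gaussInt T.S0.B T.S0.red) (rho T.S0.B T.S0.red) T.r)
  (HL : LHyp L F) (HLt : LHyp (kA A) Ft)
variable (Qb : Fin (genusFF L F) → Place (kA A) Ft) (c : Fin (genusFF L F) → ↥A)
  (hDa : ∀ i, Da T (Qb i) (c i)) (hgood : ∀ i, Good T (Qb i) (c i))
  (hDb : ∀ i, Db T (gaussInt T.S0.B T.S0.red) (Qb i)) (hDd : ∀ i, Dd T (Qb i) (c i))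

omit [IsAlgClosed (kA A)] in
/-- `τ_i` is integral. -/
theorem tau_mem_gaussInt (i : Fin (genusFF L F)) :
    ((tauB T (c i) : ↥T.S0.B) : F) ∈ gaussInt T.S0.B T.S0.red :=
  le_gaussInt T.S0.B T.S0.red (tauB T (c i)).2

/-- **the local data of (Lc)** on the chart of J4, at `Gi := gaussInt T.S0.B T.S0.red`. -/
def chartDataG : Fin (genusFF L F) → LocDatum A (gaussInt T.S0.B T.S0.red) :=
  chartData hxt T (gaussInt T.S0.B T.S0.red) Qb c hgood hDa hDd hDb
    (fun _ => HL.residue _) (tau_mem_gaussInt T c)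

include C in
/-- its `Sep`. -/
theorem sep_chartDataG (hinj : Function.Injective Qb) :
    Sep (chartDataG hxt T HL Qb c hDa hgood hDb hDd) :=
  sep_chartData hxt T _ Qb c hgood hDa hDd hDb _ _ hinj fun a =>
    (isGI_gaussInt_iff _).mp (isGI_of_mem ⟨_, C.const_mem a⟩)

/-- a Gauss-integral function with poles only at the centres lies in `B_a`. -/
theorem mem_Ba_of_isGI {f : F}
    (hf : IsGI (gaussInt T.S0.B T.S0.red) (rho T.S0.B T.S0.red) f)
    (hpoles : f ∈ BaK (centre T Qb c hDa)) :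
    f ∈ Ba (chartDataG hxt T HL Qb c hDa hgood hDb hDd) :=
  ⟨(isGI_gaussInt_iff f).mp hf, fun v hv => mem_BaK.mp hpoles v hv⟩

include C HLt in
/-- **J5 + (Lc): `BasisData` over the fixed ring together with the clause `bb_exp` of (Le).** -/
theorem exists_basisData_bbExp
    (hR : ∃ γ : ℤ, ∀ D : Divisor L F,
      Divisor.degree D + 1 - γ ≤ (Module.finrank L (riemannRochSpace D) : ℤ))
    (hinj : Function.Injective Qb)
    (hl : Module.finrank (kA A) (riemannRochSpace (redDiv Qb)) = 1)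
    (Ps : Place L F) (hPs : ∀ i, T.r Ps ≠ Qb i)
    {Γ : Type*} [Group Γ] (ρ : Γ →* SemilinearAut L F)
    (hρt : ∀ (σ : Γ) (i : Fin (genusFF L F)), ρ σ • tauSub T (c i) 0 = tauSub T (c i) 0)
    (hρdisc : ∀ (σ : Γ) (i : Fin (genusFF L F)) (P : Place L F),
      T.r P = Qb i → T.r (ρ σ • P) = Qb i)
    (hρPs : ∀ σ : Γ, ρ σ • Ps = Ps)
    (O : Subring L) (hOA : ∀ a ∈ O, a ∈ A)
    (hO : ∀ a : L, a ∈ A → (∀ σ : Γ, SemilinearAut.baseAut (ρ σ) a = a) → a ∈ O) :
    ∃ (B : BBData HL (ord_centre T Qb c hDa) (Q := centre T Qb c hDa) Ps)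
      (D : BasisData ↥O (genusFF L F)),
      (∀ i n, mapLam O.subtype (D.bb i n) = ExpK HL (ord_centre T Qb c hDa) (B.bb i n)) ∧
      (∀ i n l, ((D.cc i n l : ↥O) : L) = B.cc i n l) ∧
      (∀ i n, IsGI (gaussInt T.S0.B T.S0.red) (rho T.S0.B T.S0.red) (B.bb i n)) ∧
      (∀ i n, ∃ hmem : B.bb i n ∈ Ba (chartDataG hxt T HL Qb c hDa hgood hDb hDd),
        Exp (sep_chartDataG hxt T C HL Qb c hDa hgood hDb hDd hinj) ⟨B.bb i n, hmem⟩ =
          mapLam (Subring.inclusion (S := O) (T := A.toSubring) hOA) (D.bb i n)) ∧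
      ∀ i n l, ∃ (m : ℕ) (h : B.bb i n * ((tauB T (c l) : ↥T.S0.B) : F) ^ m ∈ CQ T (Qb l)),
        HahnSeries.ofPowerSeries ℤ ↥A
            ((zeroPt T Qb c hgood hDa hDd l).taylorQ hxt ⟨_, h⟩) =
          mapLam (Subring.inclusion (S := O) (T := A.toSubring) hOA) (D.bb i n) l *
            (HahnSeries.single (1 : ℤ) (1 : ↥A)) ^ m := by
  obtain ⟨B, D, h1, h2, h3⟩ := exists_basisData_disc hxt T C HL HLt Qb c hDa hR hinj hgood hDb hDd
    hl Ps hPs ρ hρt hρdisc hρPs O hO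
  have hD := sep_chartDataG hxt T C HL Qb c hDa hgood hDb hDd hinj
  have hmem : ∀ i n, B.bb i n ∈ Ba (chartDataG hxt T HL Qb c hDa hgood hDb hDd) := fun i n =>
    mem_Ba_of_isGI hxt T HL Qb c hDa hgood hDb hDd (h3 i n) (B.mem i n)
  have hy : ∀ i n l, mapLam O.subtype (D.bb i n) l =
      expandF (HL.residue ((chartOf T Qb c hDa).Q l)) (ord_centre T Qb c hDa l) (B.bb i n) := by
    intro i n l
    rw [h1 i n]
    rfl
  refine ⟨B, D, h1, h2, h3, fun i n => ⟨hmem i n, ?_⟩, fun i n l => ?_⟩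
  · refine Exp_eq_mapLam_of_subring hD ⟨B.bb i n, hmem i n⟩ O hOA (D.bb i n) fun l => ?_
    have e1 := mapLam_Exp hD ⟨B.bb i n, hmem i n⟩ l
      (chartDataG hxt T HL Qb c hDa hgood hDb hDd l).resQ
      (chartDataG hxt T HL Qb c hDa hgood hDb hDd l).ord_t
    have e2 := mapLam_Exp_chart hD ⟨B.bb i n, hmem i n⟩ l (HL.residue _)
      (ord_centre T Qb c hDa l)
    exact (hy i n l).trans (e2.symm.trans e1)
  · exact bb_exp_chart hD (B.bb i n) (hmem i n) O hOA (D.bb i n)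
      (fun l => HL.residue _) (ord_centre T Qb c hDa) (hy i n) l

end Fermat.Agent.ES.V19.BasisExpJoin25
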