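/-
Programme V (S19), join step J1 (helper15): CHART-RING FRACTIONS = `q`-INTEGRAL FRACTIONS.

The B3 literals (`DiscIface3`, `CQ T Q`) use fractions of elements of the CHART ring `T.S0.B`; the
Prelude's (r1) and `SupTrick15` use fractions of the `q`-integral ring `G_q`.  This file shows that
the two Gauss valuation rings and their reductions coincide.

* abstract: `B ≤ G ⊂ F`, `redG|_B = redB`, and every `g ∈ G` is a `B`-fraction with reduction
  `redG g` (`hfrac`)  ⇒  `isRedOf_iff`, `isGI_iff`, `isGU_iff`, `gaussInt_eq`;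
* `RedCtx.of_le` : `RedCtx A π G redG r → RedCtx A π B redB r` (same hypotheses + constants in `B`);
* `isRedOf_of_chartSpec` : `hfrac` for a chart `S : Contract8.ChartSpec A hx Ft` (`B := S.B`),
  from the chart's `frac` and strong saturation `sat`.
-/
import Mathlib
import Fermat.Agent.ES.RED.Contract8
import Fermat.Agent.ES.V19.SupTrick15

set_option autoImplicit false

open AlgebraicCurve

namespace Fermat.Agent.ES.V19.GaussFracCompare15

open Fermat.Agent.ES.V19.GaussFrac15 Fermat.Agent.ES.V19.SupTrick15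

section Abstract

variable {F Ft : Type*} [Field F] [Field Ft] {B G : Subring F} (hBG : B ≤ G)
  {redB : ↥B →+* Ft} {redG : ↥G →+* Ft}
  (hcompat : ∀ b : ↥B, redG ⟨(b : F), hBG b.2⟩ = redB b)
  (hfrac : ∀ g : ↥G, IsRedOf B redB (g : F) (redG g))

include hcompat in
/-- `B`-fractions are `G`-fractions. -/
theorem isRedOf_of_le {f : F} {φ : Ft} (h : IsRedOf B redB f φ) : IsRedOf G redG f φ := by
  obtain ⟨a, b, hb, hab, hφ⟩ := h
  refine ⟨⟨(a : F), hBG a.2⟩, ⟨(b : F), hBG b.2⟩, ?_, hab, ?_⟩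
  · rw [hcompat]; exact hb
  · rw [hcompat, hcompat]; exact hφ

include hfrac in
/-- `G`-fractions are `B`-fractions. -/
theorem isRedOf_of_frac {f : F} {φ : Ft} (h : IsRedOf G redG f φ) : IsRedOf B redB f φ := by
  obtain ⟨a, b, hb, hab, hφ⟩ := h
  have ha' := hfrac a
  have hb' := hfrac b
  have hb0 : (b : F) ≠ 0 := coe_ne_zero_of_red_ne_zero hb
  have hfeq : f = (a : F) * (b : F)⁻¹ := by
    rw [← hab, mul_assoc, mul_inv_cancel₀ hb0, mul_one]
  have hφeq : φ = redG a * (redG b)⁻¹ := by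
    rw [← hφ, mul_assoc, mul_inv_cancel₀ hb, mul_one]
  rw [hfeq, hφeq]
  exact ha'.mul (hb'.inv hb)

include hcompat hfrac in
theorem isRedOf_iff (f : F) (φ : Ft) : IsRedOf B redB f φ ↔ IsRedOf G redG f φ :=
  ⟨isRedOf_of_le hBG hcompat, isRedOf_of_frac hfrac⟩

include hcompat hfrac in
theorem isGI_iff (f : F) : IsGI B redB f ↔ IsGI G redG f := by
  constructor
  · intro h
    obtain ⟨φ, hφ⟩ := h.exists_isRedOf
    exact (isRedOf_of_le hBG hcompat hφ).isGI
  · intro h
    obtain ⟨φ, hφ⟩ := h.exists_isRedOf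
    exact (isRedOf_of_frac hfrac hφ).isGI

include hcompat hfrac in
theorem isGU_iff (f : F) : IsGU B redB f ↔ IsGU G redG f := by
  constructor
  · intro h
    obtain ⟨φ, hφ0, hφ⟩ := h.exists_isRedOf
    exact (isRedOf_of_le hBG hcompat hφ).isGU hφ0
  · intro h
    obtain ⟨φ, hφ0, hφ⟩ := h.exists_isRedOf
    exact (isRedOf_of_frac hfrac hφ).isGU hφ0

include hcompat hfrac in
/-- **The two Gauss valuation rings coincide.** -/
theorem gaussInt_eq : gaussInt B redB = gaussInt G redG := by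
  ext f
  exact isGI_iff hBG hcompat hfrac f

include hcompat in
/-- … and so do the reductions. -/
theorem rho_eq (f : F) (hB : f ∈ gaussInt B redB) (hG : f ∈ gaussInt G redG) :
    rho B redB ⟨f, hB⟩ = rho G redG ⟨f, hG⟩ :=
  (isRedOf_of_le hBG hcompat (isRedOf_rho B redB ⟨f, hB⟩)).unique (isRedOf_rho G redG ⟨f, hG⟩)

end Abstract

section Ctx

variable {L F k Ft : Type*} [Field L] [Field F] [Algebra L F] [Field k] [Field Ft] [Algebra k Ft]
  {A : ValuationSubring L} {π : ↥A →+* k} {B G : Subring F} {redB : ↥B →+* Ft}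
  {redG : ↥G →+* Ft} {r : Place L F → Place k Ft}

/-- **`RedCtx` descends to a subring with the same fractions.** -/
theorem RedCtx.of_le (C : RedCtx A π G redG r) (hBG : B ≤ G)
    (hcompat : ∀ b : ↥B, redG ⟨(b : F), hBG b.2⟩ = redB b)
    (hfrac : ∀ g : ↥G, IsRedOf B redB (g : F) (redG g))
    (hconst : ∀ a : ↥A, algebraMap L F (a : L) ∈ B) : RedCtx A π B redB r where
  const_mem := hconst
  red_const a := by
    rw [← hcompat]
    exact C.red_const a
  pi_nonunit := C.pi_nonunit
  scale f hf := by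
    obtain ⟨c, hc, hgu⟩ := C.scale f hf
    exact ⟨c, hc, (isGU_iff hBG hcompat hfrac _).mpr hgu⟩
  r1 b hb D hD Q := by
    have := C.r1 ⟨(b : F), hBG b.2⟩ (by rw [hcompat]; exact hb) D hD Q
    rwa [hcompat] at this

end Ctx

section Chart

open Fermat.Agent.X0.FF Fermat.Agent.ES.RED.Contract8

variable {L : Type*} [Field L] [IsAlgClosed L] {A : ValuationSubring L}
variable {F : Type*} [Field F] [Algebra L F] {x : F} {hx : IsGen L x}
variable {Ft : Type*} [Field Ft] [Algebra (kA A) Ft] (S : ChartSpec A hx Ft)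
  {G : Subring F} {redG : ↥G →+* Ft} (hBG : S.B ≤ G)
  (hcompat : ∀ b : ↥S.B, redG ⟨(b : F), hBG b.2⟩ = S.red b)

include hcompat in
/-- **`hfrac` for a chart**: every element of a subring `G ⊇ S.B` with a compatible reduction is a
fraction of chart elements, with the expected reduction. -/
theorem isRedOf_of_chartSpec (g : ↥G) : IsRedOf S.B S.red (g : F) (redG g) := by
  obtain ⟨a, b, hb0, hab⟩ := S.frac (g : F)
  by_cases ha0 : a = 0
  · -- `g = 0`
    have hbF : (b : F) ≠ 0 := fun h => hb0 (Subtype.ext h)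
    have hg0 : (g : F) = 0 := by
      rw [ha0] at hab
      rcases mul_eq_zero.mp hab with h | h
      · exact h
      · exact absurd h hbF
    have : g = 0 := Subtype.ext hg0
    rw [this, map_zero]
    exact isRedOf_zero
  obtain ⟨c, a', hac, ha'⟩ := S.sat a ha0
  obtain ⟨c', b', hbc, hb'⟩ := S.sat b hb0
  have hbF : (b : F) ≠ 0 := fun h => hb0 (Subtype.ext h)
  have haF : (a : F) ≠ 0 := fun h => ha0 (Subtype.ext h)
  have hc0 : (c : L) ≠ 0 := by
    intro h
    rw [h, map_zero, zero_mul] at hac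
    exact haF hac
  have hc'0 : (c' : L) ≠ 0 := by
    intro h
    rw [h, map_zero, zero_mul] at hbc
    exact hbF hbc
  have hc'F : algebraMap L F (c' : L) ≠ 0 := by
    rw [Ne, map_eq_zero]; exact hc'0
  -- `g * b' = e * a'` with `e = c / c'`
  have hrel : (g : F) * (b' : F) = algebraMap L F ((c : L) * (c' : L)⁻¹) * (a' : F) := by
    have h1 : (g : F) * (algebraMap L F (c' : L) * (b' : F)) =
        algebraMap L F (c : L) * (a' : F) := by rw [← hbc, hab, hac]
    rw [map_mul, map_inv₀]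
    field_simp
    linear_combination h1
  -- `e ∈ A`
  have he : (c : L) * (c' : L)⁻¹ ∈ A := by
    by_contra heA
    obtain ⟨hinv, hnu⟩ := inv_nonunit_of_notMem heA
    have he0 : (c : L) * (c' : L)⁻¹ ≠ 0 := mul_ne_zero hc0 (inv_ne_zero hc'0)
    -- `a' = e⁻¹ * (g * b')` in `G`
    have hGeq : (⟨(a' : F), hBG a'.2⟩ : ↥G) =
        ⟨((S.const ⟨((c : L) * (c' : L)⁻¹)⁻¹, hinv⟩ : ↥S.B) : F), hBG (S.const _).2⟩ *
          (g * ⟨(b' : F), hBG b'.2⟩) := by
      apply Subtype.ext
      show (a' : F) = algebraMap L F ((c : L) * (c' : L)⁻¹)⁻¹ * ((g : F) * (b' : F))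
      rw [hrel, ← mul_assoc, ← map_mul, inv_mul_cancel₀ he0, map_one, one_mul]
    have h2 := congrArg redG hGeq
    rw [map_mul, hcompat, hcompat, S.red_const'] at h2
    have h3 : resA A ⟨((c : L) * (c' : L)⁻¹)⁻¹, hinv⟩ = 0 := by
      rw [IsLocalRing.residue_eq_zero_iff]
      exact hnu
    rw [h3, map_zero, zero_mul] at h2
    exact ha' h2
  -- the fraction
  refine ⟨S.const ⟨_, he⟩ * a', b', hb', ?_, ?_⟩
  · show (g : F) * (b' : F) = algebraMap L F ((c : L) * (c' : L)⁻¹) * (a' : F)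
    exact hrel
  · have hGeq : g * ⟨(b' : F), hBG b'.2⟩ =
        (⟨((S.const ⟨_, he⟩ * a' : ↥S.B) : F), hBG (S.const ⟨_, he⟩ * a').2⟩ : ↥G) := by
      apply Subtype.ext
      show (g : F) * (b' : F) = algebraMap L F ((c : L) * (c' : L)⁻¹) * (a' : F)
      exact hrel
    have h2 := congrArg redG hGeq
    rw [map_mul, hcompat, hcompat] at h2
    exact h2

end Chart

end Fermat.Agent.ES.V19.GaussFracCompare15
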