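/-
Programme V (S19), chapter B4′ (helper15): THE GAUSS VALUATION RING AS FRACTIONS.

`G ⊂ F` a subring ("functions with `A`-integral `q`-expansion", or a chart ring) with a reduction
`red : G →+* Ft` into a field.  The ring `G` is in general NOT a valuation ring (`j / (ℓ j + 1)` is
a Gauss unit whose `q`-expansion is unbounded); the honest notion of "`A`-integral function" is

* `IsGI G red f`  : `f = a / b` with `a, b ∈ G`, `red b ≠ 0`          (Gauss-integral),
* `IsGU G red f`  : moreover `red a ≠ 0`                                (Gauss unit),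
* `IsRedOf G red f φ` : `φ = red a / red b` is THE reduction of `f`    (unique: `IsRedOf.unique`),
* `gaussInt G red : Subring F`, `rho G red : gaussInt →+* Ft`          (ring and reduction map).

Pure algebra (Mathlib only).
-/
import Mathlib

set_option autoImplicit false

namespace Fermat.Agent.ES.V19.GaussFrac15

variable {F Ft : Type*} [Field F] [Field Ft] (G : Subring F) (red : ↥G →+* Ft)

/-- `f` is Gauss-integral: a fraction `a / b` of elements of `G` with `red b ≠ 0`. -/
def IsGI (f : F) : Prop := ∃ a b : ↥G, red b ≠ 0 ∧ f * (b : F) = (a : F)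

/-- `f` is a Gauss unit: a fraction `a / b` of elements of `G` with `red a ≠ 0 ≠ red b`. -/
def IsGU (f : F) : Prop := ∃ a b : ↥G, red a ≠ 0 ∧ red b ≠ 0 ∧ f * (b : F) = (a : F)

/-- `φ` is the reduction of the Gauss-integral `f`. -/
def IsRedOf (f : F) (φ : Ft) : Prop :=
  ∃ a b : ↥G, red b ≠ 0 ∧ f * (b : F) = (a : F) ∧ φ * red b = red a

variable {G red}

theorem coe_ne_zero_of_red_ne_zero {b : ↥G} (hb : red b ≠ 0) : (b : F) ≠ 0 := by
  intro h
  apply hb
  have : b = 0 := Subtype.ext h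
  rw [this, map_zero]

theorem IsRedOf.isGI {f : F} {φ : Ft} (h : IsRedOf G red f φ) : IsGI G red f := by
  obtain ⟨a, b, hb, hab, -⟩ := h
  exact ⟨a, b, hb, hab⟩

theorem IsGI.exists_isRedOf {f : F} (h : IsGI G red f) : ∃ φ : Ft, IsRedOf G red f φ := by
  obtain ⟨a, b, hb, hab⟩ := h
  exact ⟨red a / red b, a, b, hb, hab, div_mul_cancel₀ _ hb⟩

/-- The reduction is unique. -/
theorem IsRedOf.unique {f : F} {φ φ' : Ft} (h : IsRedOf G red f φ) (h' : IsRedOf G red f φ') :
    φ = φ' := by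
  obtain ⟨a, b, hb, hab, hφ⟩ := h
  obtain ⟨a', b', hb', hab', hφ'⟩ := h'
  have hG : a * b' = a' * b := by
    apply Subtype.ext
    show (a : F) * (b' : F) = (a' : F) * (b : F)
    rw [← hab, ← hab']; ring
  have hred := congrArg red hG
  rw [map_mul, map_mul, ← hφ, ← hφ'] at hred
  have h1 : φ * (red b * red b') = φ' * (red b * red b') := by
    linear_combination hred
  exact mul_right_cancel₀ (mul_ne_zero hb hb') h1

theorem isRedOf_of_mem (g : ↥G) : IsRedOf G red (g : F) (red g) :=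
  ⟨g, 1, by rw [map_one]; exact one_ne_zero, by simp, by rw [map_one, mul_one]⟩

theorem isGI_of_mem (g : ↥G) : IsGI G red (g : F) := (isRedOf_of_mem g).isGI

theorem IsRedOf.add {f f' : F} {φ φ' : Ft} (h : IsRedOf G red f φ) (h' : IsRedOf G red f' φ') :
    IsRedOf G red (f + f') (φ + φ') := by
  obtain ⟨a, b, hb, hab, hφ⟩ := h
  obtain ⟨a', b', hb', hab', hφ'⟩ := h'
  refine ⟨a * b' + a' * b, b * b', ?_, ?_, ?_⟩
  · rw [map_mul]; exact mul_ne_zero hb hb'
  · show (f + f') * ((b : F) * (b' : F)) = (a : F) * (b' : F) + (a' : F) * (b : F)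
    rw [← hab, ← hab']; ring
  · rw [map_mul, map_add, map_mul, map_mul, ← hφ, ← hφ']; ring

theorem IsRedOf.mul {f f' : F} {φ φ' : Ft} (h : IsRedOf G red f φ) (h' : IsRedOf G red f' φ') :
    IsRedOf G red (f * f') (φ * φ') := by
  obtain ⟨a, b, hb, hab, hφ⟩ := h
  obtain ⟨a', b', hb', hab', hφ'⟩ := h'
  refine ⟨a * a', b * b', ?_, ?_, ?_⟩
  · rw [map_mul]; exact mul_ne_zero hb hb'
  · show (f * f') * ((b : F) * (b' : F)) = (a : F) * (a' : F)
    rw [← hab, ← hab']; ring
  · rw [map_mul, map_mul, ← hφ, ← hφ']; ring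

theorem IsRedOf.neg {f : F} {φ : Ft} (h : IsRedOf G red f φ) : IsRedOf G red (-f) (-φ) := by
  obtain ⟨a, b, hb, hab, hφ⟩ := h
  refine ⟨-a, b, hb, ?_, ?_⟩
  · show -f * (b : F) = -(a : F)
    rw [← hab]; ring
  · rw [map_neg, ← hφ]; ring

theorem IsRedOf.sub {f f' : F} {φ φ' : Ft} (h : IsRedOf G red f φ) (h' : IsRedOf G red f' φ') :
    IsRedOf G red (f - f') (φ - φ') := by
  rw [sub_eq_add_neg, sub_eq_add_neg]
  exact h.add h'.neg

theorem isRedOf_zero : IsRedOf G red (0 : F) 0 := by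
  have := isRedOf_of_mem (G := G) (red := red) 0
  rwa [map_zero] at this

theorem isRedOf_one : IsRedOf G red (1 : F) 1 := by
  have := isRedOf_of_mem (G := G) (red := red) 1
  rwa [map_one] at this

/-- The inverse of a Gauss-integral function with nonzero reduction. -/
theorem IsRedOf.inv {f : F} {φ : Ft} (h : IsRedOf G red f φ) (hφ0 : φ ≠ 0) :
    IsRedOf G red f⁻¹ φ⁻¹ := by
  obtain ⟨a, b, hb, hab, hφ⟩ := h
  have ha : red a ≠ 0 := by rw [← hφ]; exact mul_ne_zero hφ0 hb
  have ha0 : (a : F) ≠ 0 := coe_ne_zero_of_red_ne_zero ha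
  have hb0 : (b : F) ≠ 0 := coe_ne_zero_of_red_ne_zero hb
  have hf0 : f ≠ 0 := by
    intro h0
    rw [h0, zero_mul] at hab
    exact ha0 hab.symm
  refine ⟨b, a, ha, ?_, ?_⟩
  · rw [← hab]
    field_simp
  · rw [← hφ]
    field_simp

theorem IsGU.isGI {f : F} (h : IsGU G red f) : IsGI G red f := by
  obtain ⟨a, b, -, hb, hab⟩ := h
  exact ⟨a, b, hb, hab⟩

theorem IsGU.ne_zero {f : F} (h : IsGU G red f) : f ≠ 0 := by
  obtain ⟨a, b, ha, -, hab⟩ := h
  intro h0
  rw [h0, zero_mul] at hab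
  exact coe_ne_zero_of_red_ne_zero ha hab.symm

/-- A Gauss unit has a nonzero reduction. -/
theorem IsGU.exists_isRedOf {f : F} (h : IsGU G red f) :
    ∃ φ : Ft, φ ≠ 0 ∧ IsRedOf G red f φ := by
  obtain ⟨a, b, ha, hb, hab⟩ := h
  exact ⟨red a / red b, div_ne_zero ha hb, a, b, hb, hab, div_mul_cancel₀ _ hb⟩

theorem IsRedOf.isGU {f : F} {φ : Ft} (h : IsRedOf G red f φ) (hφ0 : φ ≠ 0) : IsGU G red f := by
  obtain ⟨a, b, hb, hab, hφ⟩ := h
  exact ⟨a, b, by rw [← hφ]; exact mul_ne_zero hφ0 hb, hb, hab⟩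

theorem IsGU.inv {f : F} (h : IsGU G red f) : IsGU G red f⁻¹ := by
  obtain ⟨φ, hφ0, hφ⟩ := h.exists_isRedOf
  exact (hφ.inv hφ0).isGU (inv_ne_zero hφ0)

theorem IsGU.mul {f f' : F} (h : IsGU G red f) (h' : IsGU G red f') : IsGU G red (f * f') := by
  obtain ⟨φ, hφ0, hφ⟩ := h.exists_isRedOf
  obtain ⟨φ', hφ0', hφ'⟩ := h'.exists_isRedOf
  exact (hφ.mul hφ').isGU (mul_ne_zero hφ0 hφ0')

variable (G red)

/-- **The Gauss valuation ring** (Gauss-integral functions). -/
def gaussInt : Subring F where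
  carrier := {f | IsGI G red f}
  mul_mem' := by
    intro f f' h h'
    obtain ⟨φ, hφ⟩ := h.exists_isRedOf
    obtain ⟨φ', hφ'⟩ := h'.exists_isRedOf
    exact (hφ.mul hφ').isGI
  one_mem' := isRedOf_one.isGI
  add_mem' := by
    intro f f' h h'
    obtain ⟨φ, hφ⟩ := h.exists_isRedOf
    obtain ⟨φ', hφ'⟩ := h'.exists_isRedOf
    exact (hφ.add hφ').isGI
  zero_mem' := isRedOf_zero.isGI
  neg_mem' := by
    intro f h
    obtain ⟨φ, hφ⟩ := h.exists_isRedOf
    exact hφ.neg.isGI

theorem mem_gaussInt_iff (f : F) : f ∈ gaussInt G red ↔ IsGI G red f := Iff.rfl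

theorem le_gaussInt : G ≤ gaussInt G red := fun g hg => isGI_of_mem ⟨g, hg⟩

/-- **The reduction map** of the Gauss valuation ring. -/
noncomputable def rho : ↥(gaussInt G red) →+* Ft where
  toFun f := (IsGI.exists_isRedOf f.2).choose
  map_one' := (IsGI.exists_isRedOf (gaussInt G red).one_mem).choose_spec.unique isRedOf_one
  map_mul' f f' :=
    (IsGI.exists_isRedOf (f * f').2).choose_spec.unique
      ((IsGI.exists_isRedOf f.2).choose_spec.mul (IsGI.exists_isRedOf f'.2).choose_spec)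
  map_zero' := (IsGI.exists_isRedOf (gaussInt G red).zero_mem).choose_spec.unique isRedOf_zero
  map_add' f f' :=
    (IsGI.exists_isRedOf (f + f').2).choose_spec.unique
      ((IsGI.exists_isRedOf f.2).choose_spec.add (IsGI.exists_isRedOf f'.2).choose_spec)

theorem isRedOf_rho (f : ↥(gaussInt G red)) : IsRedOf G red (f : F) (rho G red f) :=
  (IsGI.exists_isRedOf f.2).choose_spec

variable {G red}

theorem rho_eq_of_isRedOf {f : F} {φ : Ft} (h : IsRedOf G red f φ) :
    rho G red ⟨f, h.isGI⟩ = φ :=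
  (isRedOf_rho G red ⟨f, h.isGI⟩).unique h

theorem rho_of_mem (g : ↥G) : rho G red ⟨(g : F), isGI_of_mem g⟩ = red g :=
  rho_eq_of_isRedOf (isRedOf_of_mem g)

/-- A Gauss-integral function is a Gauss unit iff its reduction is nonzero. -/
theorem isGU_iff_rho_ne_zero (f : ↥(gaussInt G red)) : IsGU G red (f : F) ↔ rho G red f ≠ 0 := by
  constructor
  · intro h
    obtain ⟨φ, hφ0, hφ⟩ := h.exists_isRedOf
    rw [(isRedOf_rho G red f).unique hφ]
    exact hφ0
  · intro h
    exact (isRedOf_rho G red f).isGU h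

/-- The Gauss valuation ring is a valuation ring as soon as every nonzero function is a Gauss unit
up to a Gauss-integral scalar on one side (used through `IsGU` in practice). -/
theorem inv_mem_gaussInt_of_isGU {f : F} (h : IsGU G red f) : f⁻¹ ∈ gaussInt G red :=
  h.inv.isGI

end Fermat.Agent.ES.V19.GaussFrac15
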