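/-
Programme V (S19), chapter B4′ (helper8): THE SCALING INPUT `RedCtx.scale` OVER `Qbar`.

For a valuation subring `A ≤ Qbar` over a prime `ℓ ∤ M`, every nonzero `f ∈ Fbar M = Qbar · F_M`
is `c · u` with `c ∈ Qbar`, `c ≠ 0`, and `u` a Gauss unit in the FRACTION sense of `GaussFrac15`
relative to the `q`-integral ring `G = gaussRingN A (residue A) M` of `GaussRing15` and its
reduction `gaussRedN`:  `u = ya / yb` with `ya, yb ∈ G` of nonzero reduction.

Proof = first half of `GaussUnit25.principalGeneratedByIntegral`: descend `f` to a number field `K`,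
write it as `c · a / b` with `a, b` integral over the DVR `A ∩ K` of nonzero reduction
(`exists_integral_fraction`), and push `a, b` back to `Qbar`; their reductions lie in
`F̃ = modularFunctionFieldFullC (residue field of A) M` by (GB2) `resField_fullC_eq`.
-/
import Mathlib
import Fermat.Agent.ES.RED.GaussUnit25
import Fermat.Agent.ES.RED.GaussRing15
import Fermat.Agent.ES.V19.GaussFrac15

set_option autoImplicit false
set_option linter.style.haveILetI false

noncomputable section

open HahnSeries ModularCurve IntermediateField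

namespace Fermat.Agent.ES.V19.ScaleQbar8

open Fermat.Agent.RED.PUR.GaussGen8 Fermat.Agent.RED.PUR.KtGauss8
open Fermat.Agent.RED.PUR.GaussBridge10 Fermat.Agent.RED.PUR.GaussInst25
open Fermat.Agent.RED.PUR Fermat.Agent.IG.PR
open Fermat.Agent.RED.Interface4 Fermat.Agent.RED.DESC Fermat.Agent.RED.DESC.NumberFieldDVR27
open Fermat.Agent.ES.RED.GaussUnit25 Fermat.Agent.ES.RED.GaussRing15
open Fermat.Agent.ES.V19.GaussFrac15

variable (A : ValuationSubring Qbar) (K : IntermediateField ℚ Qbar)

/-- The reduction of an integral series over `A ∩ K` lying in `K · F_M` lies in `F̃_M`. -/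
theorem coeffMap_residue_mem [FiniteDimensional ℚ K] (ℓ : ℕ) [Fact ℓ.Prime]
    (hA : A.LiesOverPrime ℓ) (M : ℕ) [NeZero M] (hℓM : ¬ ℓ ∣ M)
    (a : LaurentSeries ↥(AK A K)) (haE : embK (AK A K) a ∈ modularFunctionFieldFullC ↥K M) :
    coeffMap (IsLocalRing.residue ↥A) (coeffMap (incl A K) a) ∈
      modularFunctionFieldFullC (IsLocalRing.ResidueField ↥A) M := by
  haveI : IsDiscreteValuationRing ↥(AK A K) :=
    isDiscreteValuationRing_AK A K (Fact.out : ℓ.Prime).ne_zero hA
  haveI : CharP (Res (AK A K)) ℓ := charP_residueField_AK A K Fact.out hA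
  obtain ⟨π, hπ⟩ := IsDiscreteValuationRing.exists_irreducible ↥(AK A K)
  rw [coeffMap_residue_incl]
  refine coeffMap_mem_fullC (resMap A K) M ?_
  rw [← resField_fullC_eq (AK A K) hπ ℓ M hℓM]
  exact ⟨embK (AK A K) a, embK_mem _ a, haE, gaussRed_embK _ a⟩

/-- … and is nonzero when the reduction over `A ∩ K` is. -/
theorem coeffMap_residue_ne_zero (a : LaurentSeries ↥(AK A K)) (hared : redL (AK A K) a ≠ 0) :
    coeffMap (IsLocalRing.residue ↥A) (coeffMap (incl A K) a) ≠ 0 := by
  rw [coeffMap_residue_incl]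
  intro h
  apply hared
  exact CoeffDescent1.coeffMap_injective_of_injective (resMap A K) (resMap_injective A K)
    (h.trans (map_zero _).symm)

/-- The `Qbar`-series of an integral series over `A ∩ K` lying in `K · F_M` lies in `Fbar M`. -/
theorem coeffMap_subtype_mem (M : ℕ) [NeZero M]
    (a : LaurentSeries ↥(AK A K)) (haE : embK (AK A K) a ∈ modularFunctionFieldFullC ↥K M) :
    coeffMap A.subtype (coeffMap (incl A K) a) ∈
      laurentBaseChange Qbar (modularFunctionFieldFull M) := by
  rw [coeffMap_subtype_incl]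
  refine CoeffDescent1.coeffMap_mem_laurentBaseChange_of_algHom (algebraMap K Qbar)
    (modularFunctionFieldFull M) ?_
  rw [DegBaseChange25.laurentBaseChange_full_eq]; exact haE

/-- **`RedCtx.scale` over `Qbar`**: every nonzero function of `Fbar M` is a nonzero constant times
a Gauss unit (fraction of two `q`-integral functions of nonzero reduction). -/
theorem exists_scale (ℓ : ℕ) [Fact ℓ.Prime] (hA : A.LiesOverPrime ℓ) (M : ℕ) [NeZero M]
    (hℓM : ¬ ℓ ∣ M) (f : ↥(laurentBaseChange Qbar (modularFunctionFieldFull M))) (hf0 : f ≠ 0) :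
    ∃ c : Qbar, c ≠ 0 ∧
      IsGU (gaussRingN A (IsLocalRing.residue ↥A) M) (gaussRedN A (IsLocalRing.residue ↥A) M)
        ((algebraMap Qbar ↥(laurentBaseChange Qbar (modularFunctionFieldFull M)) c)⁻¹ * f) := by
  haveI := isAlgebraic_Qbar
  obtain ⟨K, -, hfin, x', hx', hx'f⟩ :=
    CoeffDescent1.exists_finite_descent (L := Qbar) (F₀ := modularFunctionFieldFull M) ⊥ f.2
  haveI := hfin
  haveI : IsDiscreteValuationRing ↥(AK A K) :=
    isDiscreteValuationRing_AK A K (Fact.out : ℓ.Prime).ne_zero hA
  obtain ⟨π, hπ⟩ := IsDiscreteValuationRing.exists_irreducible ↥(AK A K)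
  have hu := isUnif_of_irreducible (AK A K) hπ
  have hx'C : x' ∈ modularFunctionFieldFullC ↥K M := by
    rw [← DegBaseChange25.laurentBaseChange_full_eq]; exact hx'
  have hx'0 : x' ≠ 0 := by
    rintro rfl
    rw [map_zero] at hx'f
    exact hf0 (Subtype.ext hx'f.symm)
  obtain ⟨c, a, b, hc0, haE, hbE, hared, hbred, hrel⟩ := exists_integral_fraction hu M hx'C hx'0
  have hya := coeffMap_subtype_mem A K M a haE
  have hyb := coeffMap_subtype_mem A K M b hbE
  have hyat := coeffMap_residue_mem A K ℓ hA M hℓM a haE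
  have hybt := coeffMap_residue_mem A K ℓ hA M hℓM b hbE
  -- the two elements of the Gauss ring
  set ga : ↥(gaussRingN A (IsLocalRing.residue ↥A) M) :=
    ⟨⟨coeffMap A.subtype (coeffMap (incl A K) a), hya⟩,
      mem_gaussRing_of_coeffMap A (IsLocalRing.residue ↥A) _ _ _ hya hyat⟩ with hga
  set gb : ↥(gaussRingN A (IsLocalRing.residue ↥A) M) :=
    ⟨⟨coeffMap A.subtype (coeffMap (incl A K) b), hyb⟩,
      mem_gaussRing_of_coeffMap A (IsLocalRing.residue ↥A) _ _ _ hyb hybt⟩ with hgb
  have hreda : gaussRedN A (IsLocalRing.residue ↥A) M ga ≠ 0 := by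
    intro h0
    have h1 := gaussRed_mk A (IsLocalRing.residue ↥A) _ _ _ hya hyat
    rw [← hga] at h1
    rw [h1] at h0
    exact coeffMap_residue_ne_zero A K a hared (congrArg Subtype.val h0)
  have hredb : gaussRedN A (IsLocalRing.residue ↥A) M gb ≠ 0 := by
    intro h0
    have h1 := gaussRed_mk A (IsLocalRing.residue ↥A) _ _ _ hyb hybt
    rw [← hgb] at h1
    rw [h1] at h0
    exact coeffMap_residue_ne_zero A K b hbred (congrArg Subtype.val h0)
  have hcQ : algebraMap K Qbar c ≠ 0 := by
    rw [Ne, map_eq_zero]; exact hc0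
  -- the relation `f * yb = c * ya`
  have hrelQ : f * ((gb : ↥(gaussRingN A (IsLocalRing.residue ↥A) M)) :
        ↥(laurentBaseChange Qbar (modularFunctionFieldFull M))) =
      algebraMap Qbar _ (algebraMap K Qbar c) * (ga : ↥(laurentBaseChange Qbar _)) := by
    apply Subtype.ext
    show (f : LaurentSeries Qbar) * coeffMap A.subtype (coeffMap (incl A K) b) =
      algebraMap Qbar (LaurentSeries Qbar) (algebraMap K Qbar c) *
        coeffMap A.subtype (coeffMap (incl A K) a)
    rw [coeffMap_subtype_incl, coeffMap_subtype_incl, ← hx'f, ← map_mul, hrel, map_mul,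
      GaussGen8.coeffMap_C, algebraMap_eq_C (K := Qbar)]
  refine ⟨algebraMap K Qbar c, hcQ, ga, gb, hreda, hredb, ?_⟩
  have hcF : algebraMap Qbar ↥(laurentBaseChange Qbar (modularFunctionFieldFull M))
      (algebraMap K Qbar c) ≠ 0 := by
    rw [Ne, map_eq_zero]; exact hcQ
  rw [mul_assoc, hrelQ, ← mul_assoc, inv_mul_cancel₀ hcF, one_mul]

end Fermat.Agent.ES.V19.ScaleQbar8
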