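/-
Programme V (S19), chapter B4′ (helper15): THE `RedCtx` OF THE PRELUDE'S OBJECTS.

For `A : ValuationSubring L`, `π : A →+* k` killing the non-units, level `N`,
`F = laurentBaseChange L (modularFunctionFieldFull N)`, `F~ = modularFunctionFieldFullC k N`,
`G_q = GaussRing15.gaussRingN A π N` (functions with `A`-integral `q`-expansion reducing into `F~`),
`red = gaussRedN`, and a place reduction `r` with the Prelude's `IsPlaceReductionAlong A π N r`:

* `redCtx_of_isPlaceReductionAlong` : `SupTrick15.RedCtx A π G_q red r`, given the fraction scaling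
  `hscale` (every `f ≠ 0` is a constant times a Gauss unit);
* `redCtx_modL` : the same for `L = Qbar`, `π = residue`.
-/
import Mathlib
import Fermat.Prelude.Def_ModularCurve_ReductionModL
import Fermat.Agent.ES.RED.GaussRing15
import Fermat.Agent.ES.V19.SupTrick15

set_option autoImplicit false

open AlgebraicCurve ModularCurve HahnSeries

noncomputable section

namespace Fermat.Agent.ES.V19.SupTrickInst15

open Fermat.Agent.ES.RED.GaussRing15 Fermat.Agent.ES.V19.GaussFrac15
  Fermat.Agent.ES.V19.SupTrick15

section General

variable {L : Type*} [Field L] [Algebra ℚ L] (A : ValuationSubring L) {k : Type*} [Field k]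
  (π : ↥A →+* k) (N : ℕ)
  (r : Place L ↥(laurentBaseChange L (modularFunctionFieldFull N)) →
    Place k ↥(modularFunctionFieldFullC k N))

/-- The fraction scaling hypothesis: every nonzero function is a constant times a Gauss unit. -/
def Scaling : Prop :=
  ∀ f : ↥(laurentBaseChange L (modularFunctionFieldFull N)), f ≠ 0 →
    ∃ c : L, c ≠ 0 ∧ IsGU (gaussRingN A π N) (gaussRedN A π N)
      ((algebraMap L ↥(laurentBaseChange L (modularFunctionFieldFull N)) c)⁻¹ * f)

/-- (r1) for the `q`-integral ring, from the Prelude's `IsPlaceReductionAlong`. -/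
theorem r1_of_isPlaceReductionAlong (hr : IsPlaceReductionAlong A π N r)
    (g : ↥(gaussRingN A π N)) (hg : gaussRedN A π N g ≠ 0)
    (D : Divisor L ↥(laurentBaseChange L (modularFunctionFieldFull N)))
    (hD : ∀ P, D P = P.ord (g : ↥(laurentBaseChange L (modularFunctionFieldFull N))))
    (Q : Place k ↥(modularFunctionFieldFullC k N)) :
    Finsupp.mapDomain r D Q = Q.ord (gaussRedN A π N g) := by
  set y : LaurentSeries ↥A := gaussLift A π _ _ g with hy
  have hyF : coeffMap A.subtype y ∈ laurentBaseChange L (modularFunctionFieldFull N) := by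
    rw [hy, coeffMap_gaussLift]
    exact (g : ↥(laurentBaseChange L (modularFunctionFieldFull N))).2
  have hyk : coeffMap π y ∈ modularFunctionFieldFullC k N := coeffMap_gaussLift_mem A π _ _ g
  have hne : coeffMap π y ≠ 0 := by
    intro h0
    apply hg
    apply Subtype.ext
    rw [coe_gaussRed]
    exact h0
  have hgeq : (⟨coeffMap A.subtype y, hyF⟩ : ↥(laurentBaseChange L (modularFunctionFieldFull N)))
      = (g : ↥(laurentBaseChange L (modularFunctionFieldFull N))) :=
    Subtype.ext (coeffMap_gaussLift A π _ _ g)
  have := hr.2 y hyF hyk hne D (fun P => by rw [hgeq]; exact hD P) Q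
  rw [this]
  rfl

/-- **The reduction context of the Prelude's objects.** -/
theorem redCtx_of_isPlaceReductionAlong (hπ : ∀ a : ↥A, ¬ IsUnit a → π a = 0)
    (hr : IsPlaceReductionAlong A π N r) (hscale : Scaling A π N) :
    RedCtx A π (gaussRingN A π N) (gaussRedN A π N) r where
  const_mem a := algebraMap_mem_gaussRing A π _ _ a
  red_const a := gaussRed_algebraMap A π _ _ a
  pi_nonunit := hπ
  scale := hscale
  r1 := r1_of_isPlaceReductionAlong A π N r hr

end General

section ModL

variable (A : ValuationSubring (AlgebraicClosure ℚ)) (N : ℕ)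

/-- the residue map kills the non-units. -/
theorem residue_eq_zero_of_not_isUnit (a : ↥A) (ha : ¬ IsUnit a) : IsLocalRing.residue ↥A a = 0 := by
  rw [IsLocalRing.residue_eq_zero_iff]
  exact ha

/-- **The reduction context modulo `ℓ`** (`L = Qbar`, `π = residue`). -/
theorem redCtx_modL
    (r : Place (AlgebraicClosure ℚ) (modularFunctionFieldBar N) →
      Place (IsLocalRing.ResidueField A)
        (modularFunctionFieldFullC (IsLocalRing.ResidueField A) N))
    (hr : IsPlaceReductionModL A N r) (hscale : Scaling A (IsLocalRing.residue ↥A) N) :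
    RedCtx A (IsLocalRing.residue ↥A) (gaussRingN A (IsLocalRing.residue ↥A) N)
      (gaussRedN A (IsLocalRing.residue ↥A) N) r :=
  redCtx_of_isPlaceReductionAlong A (IsLocalRing.residue ↥A) N r
    (residue_eq_zero_of_not_isUnit A) hr hscale

end ModL

end Fermat.Agent.ES.V19.SupTrickInst15
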