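/-
Programme V (S19), join step J1 (helper15): **`RedCtx` AT MAIN'S OBJECTS.**

`A ≤ Qbar` over `ℓ ∤ M`, `F = Fbar M = X0.FF M`, `F̃ = modularFunctionFieldFullC (kA A) M`,
`T : TwoCharts A hx F̃` any two-chart model whose reduction map is a place reduction in the sense of
the Prelude (`hr : IsPlaceReductionModL A M T.r`, on main: `RedInst15.isPlaceReductionModL_main` /
`SPFinal21.hr_main`) and whose chart 0 is coefficientwise (`hS0 : CoeffChart T.S0`).  Then:

* `redCtx_q`        : `RedCtx A (resA A) G_q red_q T.r` for the `q`-integral ring `G_q = gaussRingN`;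
* `redCtx_chart`    : `RedCtx A (resA A) T.S0.B T.S0.red T.r` for the chart ring;
* `redCtx_gaussInt` : `RedCtx A (resA A) (gaussInt T.S0.B T.S0.red) (rho T.S0.B T.S0.red) T.r`
  — THE instance used by B3/B4′/B5 (`G := gaussInt`, `gred := rho`);
* `gaussInt_chart_eq`, `isRedOf_chart_iff` : chart fractions = `q`-integral fractions;
* `lHyp_bar` : `RR.LSpace.LHyp Qbar (X0.FF M)`.
-/
import Mathlib
import Fermat.Agent.RR.LHypGen
import Fermat.Agent.ES.RED.GaloisInst21
import Fermat.Agent.ES.RED.ChartInputsOf15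
import Fermat.Agent.ES.V19.ScaleQbar8
import Fermat.Agent.ES.V19.SupTrickInst15
import Fermat.Agent.ES.V19.GaussFracIdem15
import Fermat.Agent.ES.V19.GaussFracCompare15

set_option autoImplicit false
set_option synthInstance.maxHeartbeats 400000

noncomputable section

open AlgebraicCurve ModularCurve

namespace Fermat.Agent.ES.V19.RedCtxInst15

open Fermat.Agent.X0 Fermat.Agent.X0.FF Fermat.Agent.RED.Interface4
open Fermat.Agent.ES.RED.Contract8 Fermat.Agent.ES.RED.TwoCharts8 Fermat.Agent.ES.RED.GaloisInst21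
open Fermat.Agent.ES.RED.GaussRing15 Fermat.Agent.ES.RED.RedCharts15
open Fermat.Agent.ES.V19.GaussFrac15 Fermat.Agent.ES.V19.SupTrick15

variable {M : ℕ} [NeZero M] (ℓ : ℕ) [Fact ℓ.Prime] (hℓM : ¬ ℓ ∣ M)
  (A : ValuationSubring Qbar) (hA : A.LiesOverPrime ℓ)
  {x : X0.FF M} {hx : IsGen Qbar x}
  (T : TwoCharts A hx ↥(modularFunctionFieldFullC (kA A) M))
  (hr : IsPlaceReductionModL A M T.r)
  (hS0 : CoeffChart (F₀ := modularFunctionFieldFull M) T.S0)

omit [NeZero M] in
/-- `LHyp` for the generic fibre. -/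
theorem lHyp_bar (hx : IsGen Qbar x) : Fermat.Agent.RR.LSpace.LHyp Qbar (X0.FF M) :=
  Fermat.Agent.RR.LHypGen.lHyp_of_isGen hx

include hℓM hA hr in
/-- **`RedCtx` for the `q`-integral ring.** -/
theorem redCtx_q :
    RedCtx A (resA A) (gaussRingN A (resA A) M) (gaussRedN A (resA A) M) T.r :=
  Fermat.Agent.ES.V19.SupTrickInst15.redCtx_modL A M T.r hr
    (Fermat.Agent.ES.V19.ScaleQbar8.exists_scale A ℓ hA M hℓM)

include hS0 in
/-- the chart ring lies in the `q`-integral ring, compatibly with the reductions. -/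
theorem chart_le : T.S0.B ≤ gaussRingN A (resA A) M :=
  (Fermat.Agent.ES.RED.ChartInputsOf15.compat_of_coeffChart hS0).le_gaussRingN

theorem chart_compat (b : ↥T.S0.B) :
    gaussRedN A (resA A) M ⟨(b : X0.FF M), chart_le A T hS0 b.2⟩ = T.S0.red b :=
  (Fermat.Agent.ES.RED.ChartInputsOf15.compat_of_coeffChart hS0).gaussRedN_eq (b : X0.FF M) b.2

include hS0 in
/-- every `q`-integral function is a fraction of chart elements, with the expected reduction. -/
theorem chart_frac (g : ↥(gaussRingN A (resA A) M)) :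
    IsRedOf T.S0.B T.S0.red (g : X0.FF M) (gaussRedN A (resA A) M g) :=
  Fermat.Agent.ES.V19.GaussFracCompare15.isRedOf_of_chartSpec T.S0 (chart_le A T hS0)
    (chart_compat A T hS0) g

include hS0 in
/-- **chart fractions = `q`-integral fractions.** -/
theorem isRedOf_chart_iff (f : X0.FF M) (φ : ↥(modularFunctionFieldFullC (kA A) M)) :
    IsRedOf T.S0.B T.S0.red f φ ↔
      IsRedOf (gaussRingN A (resA A) M) (gaussRedN A (resA A) M) f φ :=
  Fermat.Agent.ES.V19.GaussFracCompare15.isRedOf_iff (chart_le A T hS0) (chart_compat A T hS0)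
    (chart_frac A T hS0) f φ

include hS0 in
theorem gaussInt_chart_eq :
    gaussInt T.S0.B T.S0.red = gaussInt (gaussRingN A (resA A) M) (gaussRedN A (resA A) M) :=
  Fermat.Agent.ES.V19.GaussFracCompare15.gaussInt_eq (chart_le A T hS0) (chart_compat A T hS0)
    (chart_frac A T hS0)

include hℓM hA hr hS0 in
/-- **`RedCtx` for the chart ring.** -/
theorem redCtx_chart : RedCtx A (resA A) T.S0.B T.S0.red T.r :=
  Fermat.Agent.ES.V19.GaussFracCompare15.RedCtx.of_le (redCtx_q ℓ hℓM A hA T hr)
    (chart_le A T hS0) (chart_compat A T hS0) (chart_frac A T hS0) T.S0.const_mem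

include hℓM hA hr hS0 in
/-- **`RedCtx` for the Gauss valuation ring** `(gaussInt, rho)` of the chart: THE instance of the
abstract context of `SupTrick15` (and of `G`, `gred` in `DiscIface3`). -/
theorem redCtx_gaussInt :
    RedCtx A (resA A) (gaussInt T.S0.B T.S0.red) (rho T.S0.B T.S0.red) T.r :=
  Fermat.Agent.ES.V19.GaussFracIdem15.RedCtx.gaussInt (redCtx_chart ℓ hℓM A hA T hr hS0)
    (lHyp_bar hx)

end Fermat.Agent.ES.V19.RedCtxInst15
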