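/-
Programme V (S19), join step (J7), helper29: **`XiIface29.EqvHyp` at the instance** `G := ↥Γ_f`.

Setting = helper21's `RedKer21` (`T : TwoCharts A hx F̃_M`, coefficientwise charts `h0 h1`) and
helper5's chart `XiChartOf5.chartOf T Qb c hDa` (`t_i = t - c_i`).  For a level `f` such that
* `hc` : every `σ ∈ Γ_f` fixes the centres `c_i` (Teichmüller lifts: `Teich16.teich_mem_fixRing`),
* `hQ` : the residual action of every `σ ∈ Γ_f` fixes the places `Q̄_i`
         (`PlaceStabInst29.exists_gammaF_fixes_places_Ft`),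
the group `↥(gammaF A ℓ f)` acting through `ρ := arithmeticGalois ∘ subtype` satisfies `EqvHyp`:
`smul_pic`, `smul_base` hold by `rfl`, `smul_t` because `t` is Galois-fixed (`CoeffChart.smul_s`),
`smul_disc` by main's `GaloisInst21.r_smul_decomposition'`.
-/
import Mathlib
import Fermat.Agent.ES.RED.GaloisInst21
import Fermat.Agent.ES.V19.GammaF16
import Fermat.Agent.ES.V19.XiChartOf5

set_option autoImplicit false
set_option linter.unusedSectionVars false
set_option synthInstance.maxHeartbeats 400000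
set_option maxHeartbeats 1000000

noncomputable section

open AlgebraicCurve ModularCurve

namespace Fermat.Agent.ES.V19.XiEqvInst29

open Fermat.Agent.X0.FF Fermat.Agent.ES.RED.Contract8 Fermat.Agent.ES.RED.TwoCharts8
  Fermat.Agent.ES.RED.GaloisRed21 Fermat.Agent.ES.RED.GaloisGlobal21
  Fermat.Agent.ES.RED.GaloisInst21 Fermat.Agent.ES.KRON.FrobPlace13
  Fermat.Agent.ES.V19.GammaF16 Fermat.Agent.ES.V19.DiscIface3 Fermat.Agent.ES.V19.XiIface29
  Fermat.Agent.ES.V19.XiChartOf5

attribute [local instance 5000] HahnSeries.powerSeriesAlgebra SubalgebraClass.toAlgebra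

local notation "Qb" => AlgebraicClosure ℚ
local notation "GQ" => (AlgebraicClosure ℚ ≃ₐ[ℚ] AlgebraicClosure ℚ)

variable {A : ValuationSubring Qb} {M : ℕ} [NeZero M]
  {x : ↥(laurentBaseChange Qb (modularFunctionFieldFull M))} {hx : IsGen Qb x}
  (T : TwoCharts A hx ↥(modularFunctionFieldFullC (kA A) M))
  [IsAlgClosed (kA A)] {xt : ↥(modularFunctionFieldFullC (kA A) M)}
  (hxt : IsGen (kA A) xt)
  (h0 : CoeffChart (F₀ := modularFunctionFieldFull M) T.S0)
  (h1 : CoeffChart (F₀ := modularFunctionFieldFull M) T.S1)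

/-- the action of `Γ_f` on the function field: `arithmeticGalois` restricted. -/
def rho (ℓ f : ℕ) : ↥(gammaF A ℓ f) →*
    SemilinearAut Qb ↥(laurentBaseChange Qb (modularFunctionFieldFull M)) :=
  (arithmeticGalois (modularFunctionFieldFull M)).comp (gammaF A ℓ f).subtype

theorem rho_apply (ℓ f : ℕ) (σ : ↥(gammaF A ℓ f)) :
    rho (A := A) (M := M) ℓ f σ = arithmeticGalois (modularFunctionFieldFull M) (σ : GQ) := rfl

variable {g : ℕ} (Qbar : Fin g → Place (kA A) ↥(modularFunctionFieldFullC (kA A) M))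
  (c : Fin g → ↥A) (hDa : ∀ i, Da T (Qbar i) (c i))

include hxt h0 h1 in
/-- **(J7)** `EqvHyp` for `G := ↥Γ_f`. -/
theorem eqvHyp {ℓ f : ℕ}
    (hc : ∀ σ ∈ gammaF A ℓ f, ∀ i, σ ((c i : ↥A) : Qb) = ((c i : ↥A) : Qb))
    (hQ : ∀ (σ : GQ) (hσ : σ ∈ gammaF A ℓ f) (i : Fin g),
      coeffSemi (kA A) M (psiRes A ⟨σ, gammaF_le_decomposition f hσ⟩) • Qbar i = Qbar i) :
    EqvHyp T.r (chartOf T Qbar c hDa) ↥(gammaF A ℓ f) (rho (A := A) (M := M) ℓ f) where
  smul_pic := fun _ _ => rfl
  smul_base := fun _ _ => rfl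
  smul_t := fun σ i => by
    show arithmeticGalois (modularFunctionFieldFull M) (σ : GQ) •
        (T.S0.s - algebraMap Qb _ (((c i : ↥A) : Qb) + ((0 : ↥A) : Qb))) =
      T.S0.s - algebraMap Qb _ (((c i : ↥A) : Qb) + ((0 : ↥A) : Qb))
    rw [smul_sub, h0.smul_s, SemilinearAut.smul_algebraMap]
    congr 2
    show (σ : GQ) (((c i : ↥A) : Qb) + ((0 : ↥A) : Qb)) = _
    rw [map_add, hc σ σ.2 i, ZeroMemClass.coe_zero, map_zero]
  smul_disc := fun σ i P hP => by
    show T.r (arithmeticGalois (modularFunctionFieldFull M) (σ : GQ) • P) = Qbar i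
    have h := r_smul_decomposition' T hxt h0 h1
      ⟨(σ : GQ), gammaF_le_decomposition f σ.2⟩ P
    rw [h, hP]
    exact hQ σ σ.2 i

end Fermat.Agent.ES.V19.XiEqvInst29
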