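/-
Programme V (S19), FINAL JOIN, step G4 = J5 (helper9): **helper14's `BasisData` over `O_f = fixRing A Γ_f` AT MAIN'S
OBJECTS.**

Setting = `RedCtxInst15` / `XiEqvInst29`: `A ≤ Qbar` over `ℓ ∤ M`, `F = X0.FF M`, `F̃ = modularFunctionFieldFullC (kA A) M`,
`T : TwoCharts A hx F̃` with `hr : IsPlaceReductionModL A M T.r` and coefficientwise chart 0 (`hS0`); chart
`χ = XiChartOf5.chartOf T Qb c hDa` of J4 with `g = genusFF Qbar F` points; `Γ_f = gammaF A ℓ f` acting through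
`XiEqvInst29.rho ℓ f`, with J7's `EqvHyp T.r χ ↥Γ_f (rho ℓ f)` and an auxiliary place `Ps` fixed by `Γ_f`.

NAMED INPUTS (exit literals of the other join steps): (Da), (Db), (Dd) at the `g` GOOD points (J2), `hl : l(ΣQ̄_i) = 1`
and injectivity (J3), `HLt` (helper13's `LHypFt13.lHyp_Ft`), `hE` (J7), `hρPs`.
OUTPUT: `B : BBData` (the normalised functions `bb i n ∈ F`, Gauss-integral), `D : BasisData ↥(fixRing A Γ_f) g` with
`mapLam (subtype) (D.bb i n) = ExpK (B.bb i n)`: the `D` of (H-XiC) (`Sys := NFSystemOfBasis14.nfSystem D`).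
-/
import Mathlib
import Fermat.Agent.ES.V19.RedCtxInst15
import Fermat.Agent.ES.V19.XiEqvInst29
import Fermat.Agent.ES.V19.TraceDescent26
import Fermat.Agent.ES.V19.BasisDisc9

set_option autoImplicit false
set_option synthInstance.maxHeartbeats 400000
set_option maxHeartbeats 1000000

open AlgebraicCurve ModularCurve

noncomputable section

namespace Fermat.Agent.ES.V19.BasisInst9

open Fermat.Agent.X0 Fermat.Agent.X0.FF Fermat.Agent.RR Fermat.Agent.RR.LSpace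
  Fermat.Agent.RED.Interface4
  Fermat.Agent.ES.RED.Contract8 Fermat.Agent.ES.RED.TwoCharts8 Fermat.Agent.ES.RED.GaloisInst21
  Fermat.Agent.ES.V19.OnePlaceRep9 Fermat.Agent.ES.V19.BasisQbar9
  Fermat.Agent.ES.V19.GaussFrac15 Fermat.Agent.ES.V19.SupTrick15
  Fermat.Agent.ES.V19.BasisData9 Fermat.Agent.ES.V19.BasisDisc9
  Fermat.Agent.ES.V19.DiscIface3 Fermat.Agent.ES.V19.XiIface29 Fermat.Agent.ES.V19.XiChartOf5
  Fermat.Agent.ES.V19.XiEqvInst29 Fermat.Agent.ES.V19.GammaF16 Fermat.Agent.ES.V19.TraceDescent26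
  Fermat.Agent.ES.V19.NormalFormBasis14
open Fermat.Agent.ES.V19.LaurentMap19 (Lam mapLam)

attribute [local instance 5000] HahnSeries.powerSeriesAlgebra SubalgebraClass.toAlgebra

variable {M : ℕ} [NeZero M] (ℓ : ℕ) [Fact ℓ.Prime] (hℓM : ¬ ℓ ∣ M)
  (A : ValuationSubring Qbar) (hA : A.LiesOverPrime ℓ)
  {x : X0.FF M} {hx : IsGen Qbar x}
  (T : TwoCharts A hx ↥(modularFunctionFieldFullC (kA A) M))
  (hr : IsPlaceReductionModL A M T.r)
  (hS0 : CoeffChart (F₀ := modularFunctionFieldFull M) T.S0)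
  [IsAlgClosed (kA A)] {xt : ↥(modularFunctionFieldFullC (kA A) M)} (hxt : IsGen (kA A) xt)
  (HLt : LHyp (kA A) ↥(modularFunctionFieldFullC (kA A) M))
  (Qb : Fin (genusFF Qbar (X0.FF M)) → Place (kA A) ↥(modularFunctionFieldFullC (kA A) M))
  (c : Fin (genusFF Qbar (X0.FF M)) → ↥A)
  (hDa : ∀ i, Da T (Qb i) (c i))

include hℓM hA hr hS0 hxt HLt in
/-- **G4 = J5 at main's objects.** -/
theorem exists_basisData_inst
    (hinj : Function.Injective Qb) (hgood : ∀ i, Good T (Qb i) (c i))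
    (hDb : ∀ i, Db T (gaussInt T.S0.B T.S0.red) (Qb i)) (hDd : ∀ i, Dd T (Qb i) (c i))
    (hl : Module.finrank (kA A) (riemannRochSpace (redDiv Qb)) = 1)
    (Ps : Place Qbar (X0.FF M)) (hPs : ∀ i, T.r Ps ≠ Qb i)
    {f : ℕ}
    (hE : EqvHyp T.r (chartOf T Qb c hDa) ↥(gammaF A ℓ f) (rho (A := A) (M := M) ℓ f))
    (hρPs : ∀ σ : ↥(gammaF A ℓ f), rho (A := A) (M := M) ℓ f σ • Ps = Ps) :
    ∃ (B : BBData (RedCtxInst15.lHyp_bar hx) (ord_centre T Qb c hDa) (Q := centre T Qb c hDa) Ps)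
      (D : BasisData ↥(fixRing A (gammaF A ℓ f)) (genusFF Qbar (X0.FF M))),
      (∀ i n, mapLam (fixRing A (gammaF A ℓ f)).subtype (D.bb i n)
        = ExpK (RedCtxInst15.lHyp_bar hx) (ord_centre T Qb c hDa) (B.bb i n)) ∧
      (∀ i n l, ((D.cc i n l : ↥(fixRing A (gammaF A ℓ f))) : Qbar) = B.cc i n l) ∧
      (∀ i n, IsGI (gaussInt T.S0.B T.S0.red) (rho T.S0.B T.S0.red) (B.bb i n)) := by
  refine exists_basisData_disc hxt T (RedCtxInst15.redCtx_gaussInt ℓ hℓM A hA T hr hS0)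
    (RedCtxInst15.lHyp_bar hx) HLt Qb c hDa
    (Fermat.Agent.RR.LHypGen.riemann_inequality_of_isGen hx) hinj hgood hDb hDd hl Ps hPs
    (XiEqvInst29.rho (A := A) (M := M) ℓ f) hE.smul_t hE.smul_disc hρPs
    (fixRing A (gammaF A ℓ f)) ?_
  intro a ha hfix
  refine mem_fixRing_iff.mpr ⟨ha, fun σ hσ => ?_⟩
  have h1 := hfix ⟨σ, hσ⟩
  have h2 := hE.smul_base ⟨σ, hσ⟩ a
  rw [← h2] at h1
  exact h1

end Fermat.Agent.ES.V19.BasisInst9

end
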