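/-
Programme V (S19), FINAL JOIN, step G4 = J5 (helper9), assembled with the level of J7: **for the Teichmüller chart of
J4 there is a level `f₀ > 0` such that for every `f` with `f₀ ∣ f`: `EqvHyp` holds for `Γ_f`, the auxiliary place
`P_⋆` is `Γ_f`-fixed, and helper14's `BasisData` exists over `O_f = fixRing A Γ_f`.**

Setting = `BasisInst9` + `XiLevel29`: `T : TwoCharts A hx F̃_M` with `hr`, coefficientwise charts `h0 h1`; points
`Qb i` (`i : Fin (genusFF Qbar F)`) with residues `y i` and the auxiliary point `(Qs, ys)` as produced by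
`Points23.exists_good_points` with `τ := teichA`; centres `c i := teichA (y i)`, `c_⋆ := teichA ys`.
NAMED INPUTS: (Da) at the `g + 1` points, (Db), (Dd) at the `g` points (J2), `hinj`, `hgood`, `hl`, `hQs` (J3),
`HLt`, `hRt` (`LHypFt13`).  `P_⋆` := the zero of `t - c_⋆` in the disc of `Qs` (third clause of (Da)); it is fixed by
`Γ_f` by `BasisDisc9.smul_eq_of_da` (J7 at the one-point family `(Qs, ys)`).
-/
import Mathlib
import Fermat.Agent.ES.V19.XiLevel29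
import Fermat.Agent.ES.V19.BasisInst9

set_option autoImplicit false
set_option synthInstance.maxHeartbeats 400000
set_option maxHeartbeats 1000000

open AlgebraicCurve ModularCurve

noncomputable section

namespace Fermat.Agent.ES.V19.BasisLevel9

open Fermat.Agent.X0 Fermat.Agent.X0.FF Fermat.Agent.RR Fermat.Agent.RR.LSpace
  Fermat.Agent.RED.Interface4
  Fermat.Agent.ES.RED.Contract8 Fermat.Agent.ES.RED.TwoCharts8 Fermat.Agent.ES.RED.GaloisInst21
  Fermat.Agent.ES.V19.OnePlaceRep9 Fermat.Agent.ES.V19.BasisQbar9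
  Fermat.Agent.ES.V19.GaussFrac15 Fermat.Agent.ES.V19.SupTrick15
  Fermat.Agent.ES.V19.BasisData9 Fermat.Agent.ES.V19.BasisDisc9 Fermat.Agent.ES.V19.BasisInst9
  Fermat.Agent.ES.V19.DiscIface3 Fermat.Agent.ES.V19.XiIface29 Fermat.Agent.ES.V19.XiChartOf5
  Fermat.Agent.ES.V19.XiChartTeich5
  Fermat.Agent.ES.V19.XiEqvInst29 Fermat.Agent.ES.V19.XiLevel29
  Fermat.Agent.ES.V19.GammaF16 Fermat.Agent.ES.V19.TraceDescent26
  Fermat.Agent.ES.V19.NormalFormBasis14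
open Fermat.Agent.ES.V19.LaurentMap19 (Lam mapLam)

attribute [local instance 5000] HahnSeries.powerSeriesAlgebra SubalgebraClass.toAlgebra

variable {M : ℕ} [NeZero M] {ℓ : ℕ} (hℓ : ℓ.Prime) (hℓM : ¬ ℓ ∣ M)
  {A : ValuationSubring Qbar} (hA : A.LiesOverPrime ℓ)
  {x : X0.FF M} {hx : IsGen Qbar x}
  (T : TwoCharts A hx ↥(modularFunctionFieldFullC (kA A) M))
  (hr : IsPlaceReductionModL A M T.r)
  (h0 : CoeffChart (F₀ := modularFunctionFieldFull M) T.S0)
  (h1 : CoeffChart (F₀ := modularFunctionFieldFull M) T.S1)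
  [IsAlgClosed (kA A)] {xt : ↥(modularFunctionFieldFullC (kA A) M)} (hxt : IsGen (kA A) xt)
  (HLt : LHyp (kA A) ↥(modularFunctionFieldFullC (kA A) M))
  (hRt : ∃ γ : ℤ, ∀ D : Divisor (kA A) ↥(modularFunctionFieldFullC (kA A) M),
    Divisor.degree D + 1 - γ ≤ (Module.finrank (kA A) (riemannRochSpace D) : ℤ))
  (Qb : Fin (genusFF Qbar (X0.FF M)) → Place (kA A) ↥(modularFunctionFieldFullC (kA A) M))
  (y : Fin (genusFF Qbar (X0.FF M)) → kA A)
  (hDa : ∀ i, Da T (Qb i) (teichA hℓ hA (y i)))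

include hℓM hr h0 h1 hxt HLt hRt in
/-- **G4 = J5 with the level.** -/
theorem exists_basisData_level
    (hinj : Function.Injective Qb) (hgood : ∀ i, Good T (Qb i) (teichA hℓ hA (y i)))
    (hDb : ∀ i, Db T (gaussInt T.S0.B T.S0.red) (Qb i))
    (hDd : ∀ i, Dd T (Qb i) (teichA hℓ hA (y i)))
    (hl : Module.finrank (kA A) (riemannRochSpace (redDiv Qb)) = 1)
    (Qs : Place (kA A) ↥(modularFunctionFieldFullC (kA A) M)) (ys : kA A)
    (hDas : Da T Qs (teichA hℓ hA ys)) (hQs : ∀ i, Qs ≠ Qb i) :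
    ∃ Ps : Place Qbar (X0.FF M), T.r Ps = Qs ∧ Ps.ord (tauSub T (teichA hℓ hA ys) 0) = 1 ∧
      ∃ f₀ : ℕ, 0 < f₀ ∧ ∀ f : ℕ, f₀ ∣ f →
        EqvHyp T.r (chartOf T Qb (fun i => teichA hℓ hA (y i)) hDa) ↥(gammaF A ℓ f)
          (rho (A := A) (M := M) ℓ f) ∧
        (∀ σ : ↥(gammaF A ℓ f), rho (A := A) (M := M) ℓ f σ • Ps = Ps) ∧
        ∃ (B : BBData (RedCtxInst15.lHyp_bar hx)
              (ord_centre T Qb (fun i => teichA hℓ hA (y i)) hDa)
              (Q := centre T Qb (fun i => teichA hℓ hA (y i)) hDa) Ps)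
          (D : BasisData ↥(fixRing A (gammaF A ℓ f)) (genusFF Qbar (X0.FF M))),
          (∀ i n, mapLam (fixRing A (gammaF A ℓ f)).subtype (D.bb i n)
            = ExpK (RedCtxInst15.lHyp_bar hx)
                (ord_centre T Qb (fun i => teichA hℓ hA (y i)) hDa) (B.bb i n)) ∧
          (∀ i n l, ((D.cc i n l : ↥(fixRing A (gammaF A ℓ f))) : Qbar) = B.cc i n l) ∧
          (∀ i n, IsGI (gaussInt T.S0.B T.S0.red) (GaussFrac15.rho T.S0.B T.S0.red) (B.bb i n)) := by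
  have : Fact ℓ.Prime := ⟨hℓ⟩
  obtain ⟨Ps, hPsQ, hPs1, -⟩ := hDas.2.2 0 (Ideal.zero_mem _)
  refine ⟨Ps, hPsQ, hPs1, ?_⟩
  obtain ⟨f₀, hf₀, H⟩ := exists_eqvHyp hℓ hA T hxt h0 h1 HLt hRt Qb y hDa
    (fun _ : Fin 1 => Qs) (fun _ => ys)
  refine ⟨f₀, hf₀, fun f hf => ?_⟩
  obtain ⟨hE, hc', hQ'⟩ := H f hf
  -- `EqvHyp` at the one-point family `(Qs, ys)`
  have hEs := eqvHyp T hxt h0 h1 (fun _ : Fin 1 => Qs) (fun _ => teichA hℓ hA ys) (fun _ => hDas)
    hc' hQ'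
  have hρPs : ∀ σ : ↥(gammaF A ℓ f), rho (A := A) (M := M) ℓ f σ • Ps = Ps := by
    intro σ
    refine smul_eq_of_da T hDas _ (hEs.smul_t σ 0) (hEs.smul_disc σ 0) Ps hPsQ ?_
    rw [hPs1]
    exact one_pos
  refine ⟨hE, hρPs, ?_⟩
  exact exists_basisData_inst ℓ hℓM A hA T hr h0 hxt HLt Qb (fun i => teichA hℓ hA (y i)) hDa
    hinj hgood hDb hDd hl Ps (fun i => by rw [hPsQ]; exact hQs i) hE hρPs

end Fermat.Agent.ES.V19.BasisLevel9

end
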