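/-
Programme V (S19), FINAL JOIN, G4 → G3 at main's objects (helper25):
**helper9's `BasisLevel9.exists_basisData_level` completed by the (Lc) clauses: the Laurent
expansion `Exp` of `bb i n` is `D.bb i n`, and helper28's clause `bb_exp` of (Le).**

* `bbExp_of_basisData` (setting of `BasisDisc9`/`BasisExpJoin25`, abstract two-chart model): for ANY
  `B : BBData …` and `D : BasisData ↥O g` with
  (1) `mapLam O.subtype (D.bb i n) = ExpK … (B.bb i n)` and (3) `IsGI … (B.bb i n)`: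
  (4) `B.bb i n ∈ Ba (chartDataG …)` and `Exp hD ⟨B.bb i n, _⟩ = mapLam (O ↪ A) (D.bb i n)`;
  (5) `∀ i n l, ∃ m (h : B.bb i n * τ_l ^ m ∈ CQ T (Qb l)),
        ofPowerSeries (taylorQ ⟨_, h⟩) = mapLam (O ↪ A) (D.bb i n) l * (single 1 1) ^ m`.
* `fixRing_le` : `fixRing A Γ ⊆ A`.
* **`exists_basisData_bbExp_level`** : binder block and inputs of `exists_basisData_level`
  VERBATIM; conclusion = its conclusion with (4) and (5) added under the SAME `∃ B D`
  (`O = fixRing A Γ_f`).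
-/
import Mathlib
import Fermat.Agent.ES.V19.BasisLevel9
import Fermat.Agent.ES.V19.BasisExpJoin25

set_option autoImplicit false
set_option synthInstance.maxHeartbeats 400000
set_option maxHeartbeats 1000000

open AlgebraicCurve ModularCurve

noncomputable section

namespace Fermat.Agent.ES.V19.BasisExpLevel25

open Fermat.Agent.X0 Fermat.Agent.X0.FF Fermat.Agent.RR Fermat.Agent.RR.LSpace
  Fermat.Agent.RED.Interface4
  Fermat.Agent.ES.RED.Contract8 Fermat.Agent.ES.RED.TwoCharts8 Fermat.Agent.ES.RED.GaloisInst21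
  Fermat.Agent.ES.V19.OnePlaceRep9 Fermat.Agent.ES.V19.BasisQbar9
  Fermat.Agent.ES.V19.GaussFrac15 Fermat.Agent.ES.V19.SupTrick15
  Fermat.Agent.ES.V19.BasisData9 Fermat.Agent.ES.V19.BasisDisc9 Fermat.Agent.ES.V19.BasisInst9
  Fermat.Agent.ES.V19.BasisLevel9
  Fermat.Agent.ES.V19.DiscIface3 Fermat.Agent.ES.V19.DiscTaylor3
  Fermat.Agent.ES.V19.XiIface29 Fermat.Agent.ES.V19.XiChartOf5
  Fermat.Agent.ES.V19.XiChartTeich5
  Fermat.Agent.ES.V19.XiEqvInst29 Fermat.Agent.ES.V19.XiLevel29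
  Fermat.Agent.ES.V19.GammaF16 Fermat.Agent.ES.V19.TraceDescent26
  Fermat.Agent.ES.V19.NormalFormBasis14
  Fermat.Agent.ES.V19.ExpandPlace9 Fermat.Agent.ES.V19.ExpBa25 Fermat.Agent.ES.V19.ExpBaGlue25
  Fermat.Agent.ES.V19.ExpBaChart25 Fermat.Agent.ES.V19.BasisExpJoin25
open Fermat.Agent.ES.V19.LaurentMap19 (Lam mapLam)

attribute [local instance 5000] HahnSeries.powerSeriesAlgebra SubalgebraClass.toAlgebra

/-! ### the (Lc) clauses for any `B`, `D` -/

section Abstract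

variable {L : Type*} [Field L] [IsAlgClosed L] {A : ValuationSubring L}
variable {F : Type*} [Field F] [Algebra L F] {x : F} {hx : IsGen L x}
variable {Ft : Type*} [Field Ft] [Algebra (kA A) Ft]
variable [IsAlgClosed (kA A)] {xt : Ft} (hxt : IsGen (kA A) xt)
variable (T : TwoCharts A hx Ft) (HL : LHyp L F)
variable (Qb : Fin (genusFF L F) → Place (kA A) Ft) (c : Fin (genusFF L F) → ↥A)
  (hDa : ∀ i, Da T (Qb i) (c i)) (hgood : ∀ i, Good T (Qb i) (c i))
  (hDb : ∀ i, Db T (gaussInt T.S0.B T.S0.red) (Qb i)) (hDd : ∀ i, Dd T (Qb i) (c i))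

/-- **(4) and (5) from (1) and (3)**, for any normalised family `B` and any `D` over a subring
`O ⊆ A`. -/
theorem bbExp_of_basisData
    (hD : Sep (chartDataG hxt T HL Qb c hDa hgood hDb hDd)) {Ps : Place L F}
    (B : BBData HL (ord_centre T Qb c hDa) (Q := centre T Qb c hDa) Ps)
    (O : Subring L) (hOA : ∀ a ∈ O, a ∈ A) (D : BasisData ↥O (genusFF L F))
    (h1 : ∀ i n, mapLam O.subtype (D.bb i n) = ExpK HL (ord_centre T Qb c hDa) (B.bb i n))
    (h3 : ∀ i n, IsGI (gaussInt T.S0.B T.S0.red) (GaussFrac15.rho T.S0.B T.S0.red) (B.bb i n)) :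
    (∀ i n, ∃ hmem : B.bb i n ∈ Ba (chartDataG hxt T HL Qb c hDa hgood hDb hDd),
      Exp hD ⟨B.bb i n, hmem⟩ =
        mapLam (Subring.inclusion (S := O) (T := A.toSubring) hOA) (D.bb i n)) ∧
    ∀ i n l, ∃ (m : ℕ) (h : B.bb i n * ((tauB T (c l) : ↥T.S0.B) : F) ^ m ∈ CQ T (Qb l)),
      HahnSeries.ofPowerSeries ℤ ↥A
          ((zeroPt T Qb c hgood hDa hDd l).taylorQ hxt ⟨_, h⟩) =
        mapLam (Subring.inclusion (S := O) (T := A.toSubring) hOA) (D.bb i n) l *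
          (HahnSeries.single (1 : ℤ) (1 : ↥A)) ^ m := by
  have hmem : ∀ i n, B.bb i n ∈ Ba (chartDataG hxt T HL Qb c hDa hgood hDb hDd) := fun i n =>
    mem_Ba_of_isGI hxt T HL Qb c hDa hgood hDb hDd (h3 i n) (B.mem i n)
  have hy : ∀ i n l, mapLam O.subtype (D.bb i n) l =
      expandF (HL.residue ((chartOf T Qb c hDa).Q l)) (ord_centre T Qb c hDa l) (B.bb i n) := by
    intro i n l
    rw [h1 i n]
    rfl
  refine ⟨fun i n => ⟨hmem i n, ?_⟩, fun i n l => ?_⟩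
  · refine Exp_eq_mapLam_of_subring hD ⟨B.bb i n, hmem i n⟩ O hOA (D.bb i n) fun l => ?_
    have e1 := mapLam_Exp hD ⟨B.bb i n, hmem i n⟩ l
      (chartDataG hxt T HL Qb c hDa hgood hDb hDd l).resQ
      (chartDataG hxt T HL Qb c hDa hgood hDb hDd l).ord_t
    have e2 := mapLam_Exp_chart hD ⟨B.bb i n, hmem i n⟩ l (HL.residue _)
      (ord_centre T Qb c hDa l)
    exact (hy i n l).trans (e2.symm.trans e1)
  · exact bb_exp_chart hD (B.bb i n) (hmem i n) O hOA (D.bb i n)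
      (fun l => HL.residue _) (ord_centre T Qb c hDa) (hy i n) l

end Abstract

/-- `fixRing A Γ ⊆ A`. -/
theorem fixRing_le (A : ValuationSubring Qbar) (Γ : Subgroup (Qbar ≃ₐ[ℚ] Qbar)) :
    ∀ a ∈ fixRing A Γ, a ∈ A := fun _ h => (mem_fixRing_iff.mp h).1

/-! ### at main's objects, with the level -/

variable {M : ℕ} [NeZero M] {ℓ : ℕ} (hℓ : ℓ.Prime) (hℓM : ¬ ℓ ∣ M)
  {A : ValuationSubring Qbar} (hA : A.LiesOverPrime ℓ)
  {x : X0.FF M} {hx : IsGen Qbar x}
  (T : TwoCharts A hx ↥(modularFunctionFieldFullC (kA A) M))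
  (hr : IsPlaceReductionModL A M T.r)
  (h0 : CoeffChart (F₀ := modularFunctionFieldFull M) T.S0)
  (h1 : CoeffChart (F₀ := modularFunctionFieldFull M) T.S1)
  [IsAlgClosed (kA A)] {xt : ↥(modularFunctionFieldFullC (kA A) M)} (hxt : IsGen (kA A) xt)
  (HLt : LHyp (kA A) ↥(modularFunctionFieldFullC (kA A) M))
  (hRt : ∃ γ : ℤ, ∀ D : Divisor (kA A) ↥(modularFunctionFieldFullC (kA A) M),
    Divisor.degree D + 1 - γ ≤ (Module.finrank (kA A) (riemannRochSpace D) : ℤ))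
  (Qb : Fin (genusFF Qbar (X0.FF M)) → Place (kA A) ↥(modularFunctionFieldFullC (kA A) M))
  (y : Fin (genusFF Qbar (X0.FF M)) → kA A)
  (hDa : ∀ i, Da T (Qb i) (teichA hℓ hA (y i)))

include hℓM hr h0 h1 hxt HLt hRt in
/-- **G4 with the level, completed by the (Lc) clauses (4), (5).** -/
theorem exists_basisData_bbExp_level
    (hinj : Function.Injective Qb) (hgood : ∀ i, Good T (Qb i) (teichA hℓ hA (y i)))
    (hDb : ∀ i, Db T (gaussInt T.S0.B T.S0.red) (Qb i))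
    (hDd : ∀ i, Dd T (Qb i) (teichA hℓ hA (y i)))
    (hl : Module.finrank (kA A) (riemannRochSpace (redDiv Qb)) = 1)
    (Qs : Place (kA A) ↥(modularFunctionFieldFullC (kA A) M)) (ys : kA A)
    (hDas : Da T Qs (teichA hℓ hA ys)) (hQs : ∀ i, Qs ≠ Qb i) :
    ∃ Ps : Place Qbar (X0.FF M), T.r Ps = Qs ∧ Ps.ord (tauSub T (teichA hℓ hA ys) 0) = 1 ∧
      ∃ f₀ : ℕ, 0 < f₀ ∧ ∀ f : ℕ, f₀ ∣ f →
        EqvHyp T.r (chartOf T Qb (fun i => teichA hℓ hA (y i)) hDa) ↥(gammaF A ℓ f)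
          (XiEqvInst29.rho (A := A) (M := M) ℓ f) ∧
        (∀ σ : ↥(gammaF A ℓ f), XiEqvInst29.rho (A := A) (M := M) ℓ f σ • Ps = Ps) ∧
        ∃ (B : BBData (RedCtxInst15.lHyp_bar hx)
              (ord_centre T Qb (fun i => teichA hℓ hA (y i)) hDa)
              (Q := centre T Qb (fun i => teichA hℓ hA (y i)) hDa) Ps)
          (D : BasisData ↥(fixRing A (gammaF A ℓ f)) (genusFF Qbar (X0.FF M))),
          (∀ i n, mapLam (fixRing A (gammaF A ℓ f)).subtype (D.bb i n)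
            = ExpK (RedCtxInst15.lHyp_bar hx)
                (ord_centre T Qb (fun i => teichA hℓ hA (y i)) hDa) (B.bb i n)) ∧
          (∀ i n l, ((D.cc i n l : ↥(fixRing A (gammaF A ℓ f))) : Qbar) = B.cc i n l) ∧
          (∀ i n, IsGI (gaussInt T.S0.B T.S0.red) (GaussFrac15.rho T.S0.B T.S0.red)
            (B.bb i n)) ∧
          (∀ hD : Sep (chartDataG hxt T (RedCtxInst15.lHyp_bar hx) Qb
              (fun i => teichA hℓ hA (y i)) hDa hgood hDb hDd), ∀ i n,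
            ∃ hmem : B.bb i n ∈ Ba (chartDataG hxt T (RedCtxInst15.lHyp_bar hx) Qb
                (fun i => teichA hℓ hA (y i)) hDa hgood hDb hDd),
              Exp hD ⟨B.bb i n, hmem⟩ =
                mapLam (Subring.inclusion (S := fixRing A (gammaF A ℓ f)) (T := A.toSubring)
                  (fixRing_le A (gammaF A ℓ f))) (D.bb i n)) ∧
          ∀ i n l, ∃ (m : ℕ)
              (h : B.bb i n * ((tauB T (teichA hℓ hA (y l)) : ↥T.S0.B) : X0.FF M) ^ m ∈
                CQ T (Qb l)),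
            HahnSeries.ofPowerSeries ℤ ↥A
                ((zeroPt T Qb (fun i => teichA hℓ hA (y i)) hgood hDa hDd l).taylorQ hxt
                  ⟨_, h⟩) =
              mapLam (Subring.inclusion (S := fixRing A (gammaF A ℓ f)) (T := A.toSubring)
                  (fixRing_le A (gammaF A ℓ f))) (D.bb i n) l *
                (HahnSeries.single (1 : ℤ) (1 : ↥A)) ^ m := by
  have : Fact ℓ.Prime := ⟨hℓ⟩
  obtain ⟨Ps, hPsQ, hPs1, f₀, hf₀, H⟩ := exists_basisData_level hℓ hℓM hA T hr h0 h1 hxt HLt hRt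
    Qb y hDa hinj hgood hDb hDd hl Qs ys hDas hQs
  refine ⟨Ps, hPsQ, hPs1, f₀, hf₀, fun f hf => ?_⟩
  obtain ⟨hE, hρPs, B, D, e1, e2, e3⟩ := H f hf
  have hD := sep_chartDataG hxt T (RedCtxInst15.redCtx_gaussInt ℓ hℓM A hA T hr h0)
    (RedCtxInst15.lHyp_bar hx) Qb (fun i => teichA hℓ hA (y i)) hDa hgood hDb hDd hinj
  obtain ⟨e4, e5⟩ := bbExp_of_basisData hxt T (RedCtxInst15.lHyp_bar hx) Qb
    (fun i => teichA hℓ hA (y i)) hDa hgood hDb hDd hD B (fixRing A (gammaF A ℓ f))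
    (fixRing_le A (gammaF A ℓ f)) D e1 e3
  exact ⟨hE, hρPs, B, D, e1, e2, e3, fun _ => e4, e5⟩

end Fermat.Agent.ES.V19.BasisExpLevel25
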