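/-
Programme V (S19), chapter B1 (helper12, route owner): **INTERNAL INTERFACE of B1, statements
only** (ruling 5: twisted Čech + Nakayama over `A` + dimension count; exit = `GenusSF12.GenusLe`).

PART 1 (any function field `F / K` in the Prelude's sense, `t : F`):
* `Reg K t f`    : `f` is regular at every place where `t` is regular   (`f ∈ B̃₀(t)`);
* `Reg01 K t f`  : `f` is regular at every place where `t` and `t⁻¹` are (`f ∈ B̃₀₁(t)`);
* `HasPoleDivisor t D` : `deg D = [F : K(t)]` and `L(n • D) = B̃₀(t) ∩ tⁿ·B̃₀(t⁻¹)` for all `n`;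
* `CechInj t D`  : injective half of Čech vs repartitions: if `H1 (n • D) = 0` then
  `B̃₀₁(t) ⊆ B̃₀(t) + tⁿ·B̃₀(t⁻¹)`.

PART 2 (the modular curve; `A ≤ ℚ̄` over `ℓ ∤ M`, `K` a number field, `tK : FK M K`): the `A`-spans
inside `Fbar M` of the level-`K` charts (`RED/PUR/ChartGeneric22.chart`, base changed by
`PlaceExtend27.baseChangeHom`):
* `M0 = A·B0_K`, `M1 n = A·tⁿ·B1_K`, `M01 = A·B0_K[1/t]`;
* `FGProp`   : (I1) `M01 / (M0 + M1 n)` is a finitely generated `A`-module, for every `n`;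
* `KerProp`  : (I2) `M01 ⊆ intF` and `ker (redF | M01) ⊆ 𝔪_A • M01`;
* `SurjProp` : (I3) special-fibre base change: `B̃₀(t̃) ⊆ redF (M0)`, `B̃₀(t̃⁻¹) ⊆ redF (M1 0)`;
* `Reg01Prop`: (I3') `redF (M01) ⊆ B̃₀₁(t̃)`.
No proof in this file.
-/
import Mathlib
import Fermat.Prelude.Def_AlgebraicCurve_Repartitions
import Fermat.Agent.ES.RED.ChartIntegralA1

set_option autoImplicit false
set_option synthInstance.maxHeartbeats 400000

open AlgebraicCurve ModularCurve IntermediateField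

noncomputable section

namespace Fermat.Agent.ES.V19.CechIface12

/-! ### Part 1: any function field -/

section Curve

variable (K : Type*) {F : Type*} [Field K] [Field F] [Algebra K F]

/-- `f` is regular at every place of `F / K` at which `t` is regular. -/
def Reg (t f : F) : Prop :=
  ∀ P : Place K F, t ∈ P.toValuationSubring → f ∈ P.toValuationSubring

/-- `f` is regular at every place of `F / K` at which both `t` and `t⁻¹` are regular. -/
def Reg01 (t f : F) : Prop :=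
  ∀ P : Place K F, t ∈ P.toValuationSubring → t⁻¹ ∈ P.toValuationSubring →
    f ∈ P.toValuationSubring

variable {K}

/-- `D` is the pole divisor of `t`: it has degree `[F : K(t)]`, and for every `n` the space
`L(n • D)` consists of the `f` that are regular wherever `t` is and such that `f / tⁿ` is regular
wherever `t⁻¹` is. -/
def HasPoleDivisor (t : F) (D : Divisor K F) : Prop :=
  Divisor.degree D = (Module.finrank K⟮t⟯ F : ℤ) ∧
    ∀ (n : ℕ) (f : F), f ∈ riemannRochSpace (n • D) ↔ Reg K t f ∧ Reg K t⁻¹ (f * t⁻¹ ^ n)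

/-- Injective half of "Čech = repartitions" for the two charts `t`, `t⁻¹` and the sheaf
`O(n • D)`: if `H1 (n • D) = 0` then every function regular away from the zeros and poles of `t`
is a sum `a + b` with `a` regular wherever `t` is and `b / tⁿ` regular wherever `t⁻¹` is. -/
def CechInj (t : F) (D : Divisor K F) : Prop :=
  ∀ n : ℕ, Subsingleton (H1 (n • D)) → ∀ f : F, Reg01 K t f →
    ∃ a b : F, Reg K t a ∧ Reg K t⁻¹ (b * t⁻¹ ^ n) ∧ f = a + b

end Curve

/-! ### Part 2: the `A`-spans of the level-`K` charts -/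

section Concrete

open Fermat.Agent.RED.Interface4 Fermat.Agent.RED.DESC.PlaceExtend27
  Fermat.Agent.RED.PUR.ChartGeneric22 Fermat.Agent.ES.RED.ChartIntegralA1

variable (A : ValuationSubring Qbar) (M : ℕ) (K : IntermediateField ℚ Qbar)

/-- The `A`-span in `Fbar M` of the base change of a subset of the level-`K` function field. -/
def spanA (B : Set ↥(FK M K)) : Submodule ↥A ↥(Fbar M) :=
  Submodule.span ↥A (baseChangeHom M K '' B)

variable (tK : ↥(FK M K))

/-- `M₀ = A·B0_K`, `B0_K = chart (A ∩ K) t_K` the integral closure of `(A ∩ K)[t_K]` in `K·F_M`. -/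
def M0 : Submodule ↥A ↥(Fbar M) :=
  spanA A M K (chart ↥(AK A K) tK : Set ↥(FK M K))

/-- `M₁(n) = A·tⁿ·B1_K`, `B1_K = chart (A ∩ K) t_K⁻¹`. -/
def M1 (n : ℕ) : Submodule ↥A ↥(Fbar M) :=
  spanA A M K {f : ↥(FK M K) | tK⁻¹ ^ n * f ∈ chart ↥(AK A K) tK⁻¹}

/-- `M₀₁ = A·B0_K[1/t_K]`. -/
def M01 : Submodule ↥A ↥(Fbar M) :=
  spanA A M K {f : ↥(FK M K) | ∃ k : ℕ, tK ^ k * f ∈ chart ↥(AK A K) tK}

/-- **(I1)** `H(n) = M₀₁ / (M₀ + M₁(n))` is a finitely generated `A`-module, for every `n`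
(generated by finitely many elements OF `M₀₁`). -/
def FGProp : Prop :=
  ∀ n : ℕ, ∃ G : Finset ↥(Fbar M), (∀ g ∈ G, g ∈ M01 A M K tK) ∧
    M01 A M K tK ≤ Submodule.span ↥A (G : Set ↥(Fbar M)) ⊔ (M0 A M K tK ⊔ M1 A M K tK n)

variable [NeZero M] (ℓ : ℕ) [Fact ℓ.Prime] (hA : A.LiesOverPrime ℓ) (hℓM : ¬ ℓ ∣ M)

/-- **(I2)** `M₀₁` consists of `A`-integral `q`-expansions, and an element of `M₀₁` with zero
reduction lies in `𝔪_A • M₀₁`. -/
def KerProp : Prop :=
  ∃ h01 : ∀ f ∈ M01 A M K tK, f ∈ intF A M,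
    ∀ (f : ↥(Fbar M)) (hf : f ∈ M01 A M K tK), redF A M ℓ hA hℓM ⟨f, h01 f hf⟩ = 0 →
      f ∈ IsLocalRing.maximalIdeal ↥A • M01 A M K tK

/-- **(I3)** special-fibre base change: every `f̄ ∈ F̃` regular wherever `t̃` is regular is the
reduction of an element of `M₀`; every `f̄` regular wherever `t̃⁻¹` is regular is the reduction of
an element of `M₁(0)`. -/
def SurjProp (tt : ↥(modularFunctionFieldFullC (kA A) M)) : Prop :=
  (∀ fb : ↥(modularFunctionFieldFullC (kA A) M), Reg (kA A) tt fb →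
      ∃ f ∈ M0 A M K tK, ∃ hf : f ∈ intF A M, redF A M ℓ hA hℓM ⟨f, hf⟩ = fb) ∧
    ∀ fb : ↥(modularFunctionFieldFullC (kA A) M), Reg (kA A) tt⁻¹ fb →
      ∃ f ∈ M1 A M K tK 0, ∃ hf : f ∈ intF A M, redF A M ℓ hA hℓM ⟨f, hf⟩ = fb

/-- **(I3')** the reduction of an element of `M₀₁` is regular wherever `t̃` and `t̃⁻¹` are. -/
def Reg01Prop (tt : ↥(modularFunctionFieldFullC (kA A) M)) : Prop :=
  ∀ (f : ↥(Fbar M)) (_ : f ∈ M01 A M K tK) (hf : f ∈ intF A M),
    Reg01 (kA A) tt (redF A M ℓ hA hℓM ⟨f, hf⟩)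

end Concrete

end Fermat.Agent.ES.V19.CechIface12
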