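/-
Programme V (S19), chapter B1 (`g ≤ g̃`, ruling 5: helper12's route), leaf (I1), helper24:
**the twisted Čech `H¹` of the `A`-spans of the level-`K` charts is finitely generated.**

Interface: `ES/V19/CechIface12` (helper12, frozen): `M0 = A·B0_K`, `M1 n = A·tⁿ·B1_K`,
`M01 = A·B0_K[1/t]` inside `Fbar M`.  From main's two-chart model at level `K`
(`RED/CORE/CoreIface24.TwoChartModel`, fields `t_ne`, `t_mem`, `tinv_mem`, `fin0`, `ov0`, `ov1`):

* `M0_le_M01`, `M1_le_M01 n` ;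
* `fgProp : CechIface12.FGProp A M K tK`  (main's `CechConnected14.cech_h1_span_module` over the
  non-noetherian base `O := A`; the generators `(t⁻¹)ᵃ·e_i` lie in `M01`).

The proof is done once abstractly (`fg_span`: `R → O` a ring hom, `bc : F → E` a ring hom over it,
spans over `O` of images of subsets of `F`), then instantiated.
-/
import Mathlib
import Fermat.Agent.RED.CORE.CoreIface24
import Fermat.Agent.RED.CORE.CechConnected14
import Fermat.Agent.ES.RED.ChartUnion1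
import Fermat.Agent.ES.V19.CechIface12

set_option autoImplicit false
set_option linter.unusedSectionVars false

noncomputable section

namespace Fermat.Agent.ES.V19.CechFG24

/-! ### the abstract statement -/

section Abstract

open Polynomial Fermat.Agent.RED.CORE.CechConnected14

variable {R F O E : Type*} [CommRing R] [Field F] [Algebra R F] [CommRing O] [CommRing E]
  [Algebra O E] (ι : R →+* O) (bc : F →+* E)

/-- the `O`-span of the image of a subset of `F`. -/
def sp (B : Set F) : Submodule O E := Submodule.span O (bc '' B)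

theorem bc_mem_sp {B : Set F} {x : F} (hx : x ∈ B) : bc x ∈ sp (O := O) bc B :=
  Submodule.subset_span ⟨x, hx, rfl⟩

theorem sp_mono {B B' : Set F} (h : B ⊆ B') : sp (O := O) bc B ≤ sp bc B' :=
  Submodule.span_mono (Set.image_mono h)

/-- multiplication by `bc y` maps `sp B` into `sp B'` if `y · B ⊆ B'`. -/
theorem bc_mul_mem_sp {B B' : Set F} (y : F) (h : ∀ x ∈ B, y * x ∈ B') {f : E}
    (hf : f ∈ sp (O := O) bc B) : bc y * f ∈ sp (O := O) bc B' := by
  induction hf using Submodule.span_induction with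
  | mem f hf =>
    obtain ⟨x, hx, rfl⟩ := hf
    rw [← map_mul]
    exact bc_mem_sp bc (h x hx)
  | zero => rw [mul_zero]; exact zero_mem _
  | add f g _ _ hf hg => rw [mul_add]; exact add_mem hf hg
  | smul a f _ hf => rw [mul_smul_comm]; exact Submodule.smul_mem _ a hf

/-- **Finite generation of the twisted Čech `H¹` of the spans.** -/
theorem fg_span (hbc : ∀ a : R, bc (algebraMap R F a) = algebraMap O E (ι a))
    (t : F) (ht0 : t ≠ 0) (B0 B1 : Subalgebra R F) (htB0 : t ∈ B0) (htB1 : t⁻¹ ∈ B1)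
    (fin0 : ∃ (r : ℕ) (e : Fin r → F), (∀ i, e i ∈ B0) ∧
      ∀ x ∈ B0, ∃ P : Fin r → R[X], x = ∑ i, aeval t (P i) * e i)
    (ov1 : ∀ x ∈ B0, ∃ k : ℕ, t⁻¹ ^ k * x ∈ B1) (n : ℕ) :
    ∃ G : Finset E, (∀ g ∈ G, g ∈ sp (O := O) bc {f : F | ∃ k : ℕ, t ^ k * f ∈ B0}) ∧
      sp (O := O) bc {f : F | ∃ k : ℕ, t ^ k * f ∈ B0} ≤
        Submodule.span O (G : Set E) ⊔
          (sp (O := O) bc (B0 : Set F) ⊔ sp (O := O) bc {f : F | t⁻¹ ^ n * f ∈ B1}) := by
  classical
  obtain ⟨r, e, he, hgen⟩ := fin0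
  have hk : ∀ i, ∃ k : ℕ, t⁻¹ ^ k * e i ∈ B1 := fun i => ov1 (e i) (he i)
  choose k hk using hk
  obtain ⟨N, hN⟩ : ∃ N : ℕ, ∀ i, k i ≤ N :=
    ⟨Finset.univ.sup k, fun i => Finset.le_sup (Finset.mem_univ i)⟩
  have htu : bc t * bc t⁻¹ = 1 := by
    rw [← map_mul, mul_inv_cancel₀ ht0, map_one]
  -- the hypotheses of `cech_h1_span_module`
  have h1 : ∀ x ∈ sp (O := O) bc (B0 : Set F), bc t * x ∈ sp (O := O) bc (B0 : Set F) :=
    fun x hx => bc_mul_mem_sp bc t (fun y hy => B0.mul_mem htB0 hy) hx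
  have h2 : ∀ x ∈ sp (O := O) bc {f : F | t⁻¹ ^ n * f ∈ B1},
      bc t⁻¹ * x ∈ sp (O := O) bc {f : F | t⁻¹ ^ n * f ∈ B1} := fun x hx =>
    bc_mul_mem_sp bc t⁻¹ (fun y hy => by
      show t⁻¹ ^ n * (t⁻¹ * y) ∈ B1
      have : t⁻¹ ^ n * (t⁻¹ * y) = t⁻¹ * (t⁻¹ ^ n * y) := by ring
      rw [this]
      exact B1.mul_mem htB1 hy) hx
  have h3 : ∀ i, bc (e i) ∈ sp (O := O) bc (B0 : Set F) := fun i => bc_mem_sp bc (he i)
  have h4 : ∀ x ∈ sp (O := O) bc (B0 : Set F),
      ∃ P : Fin r → O[X], x = ∑ i, aeval (bc t) (P i) * bc (e i) := by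
    intro x hx
    induction hx using Submodule.span_induction with
    | mem x hx =>
      obtain ⟨y, hy, rfl⟩ := hx
      obtain ⟨P, hP⟩ := hgen y hy
      refine ⟨fun i => (P i).map ι, ?_⟩
      rw [hP, map_sum]
      refine Finset.sum_congr rfl fun i _ => ?_
      rw [map_mul]
      congr 1
      rw [aeval_def, aeval_def, hom_eval₂, eval₂_map]
      congr 1
      exact RingHom.ext hbc
    | zero => exact ⟨fun _ => 0, by simp⟩
    | add x y _ _ hx hy =>
      obtain ⟨P, hP⟩ := hx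
      obtain ⟨Q, hQ⟩ := hy
      refine ⟨fun i => P i + Q i, ?_⟩
      rw [hP, hQ, ← Finset.sum_add_distrib]
      refine Finset.sum_congr rfl fun i _ => ?_
      rw [map_add, add_mul]
    | smul a x _ hx =>
      obtain ⟨P, hP⟩ := hx
      refine ⟨fun i => Polynomial.C a * P i, ?_⟩
      rw [hP, Finset.smul_sum]
      refine Finset.sum_congr rfl fun i _ => ?_
      rw [map_mul, aeval_C, mul_assoc, Algebra.smul_def]
  have hpow : ∀ (d : ℕ) (x : E), x ∈ sp (O := O) bc (B0 : Set F) →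
      bc t ^ d * x ∈ sp (O := O) bc (B0 : Set F) := by
    intro d
    induction d with
    | zero => intro x hx; simpa using hx
    | succ d ih => intro x hx; rw [pow_succ, mul_assoc]; exact ih _ (h1 x hx)
  have h5 : ∀ x ∈ sp (O := O) bc {f : F | ∃ k : ℕ, t ^ k * f ∈ B0},
      ∃ d : ℕ, bc t ^ d * x ∈ sp (O := O) bc (B0 : Set F) := by
    intro x hx
    induction hx using Submodule.span_induction with
    | mem x hx =>
      obtain ⟨y, ⟨d, hd⟩, rfl⟩ := hx
      refine ⟨d, ?_⟩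
      rw [← map_pow, ← map_mul]
      exact bc_mem_sp bc hd
    | zero => exact ⟨0, by simp⟩
    | add x y _ _ hx hy =>
      obtain ⟨d, hd⟩ := hx
      obtain ⟨d', hd'⟩ := hy
      refine ⟨d + d', ?_⟩
      have : bc t ^ (d + d') * (x + y) =
          bc t ^ d' * (bc t ^ d * x) + bc t ^ d * (bc t ^ d' * y) := by
        rw [pow_add]; ring
      rw [this]
      exact add_mem (hpow _ _ hd) (hpow _ _ hd')
    | smul a x _ hx =>
      obtain ⟨d, hd⟩ := hx
      exact ⟨d, by rw [mul_smul_comm]; exact Submodule.smul_mem _ a hd⟩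
  have h6 : ∀ i, bc t⁻¹ ^ N * bc (e i) ∈ sp (O := O) bc {f : F | t⁻¹ ^ n * f ∈ B1} := by
    intro i
    rw [← map_pow, ← map_mul]
    refine bc_mem_sp bc ?_
    show t⁻¹ ^ n * (t⁻¹ ^ N * e i) ∈ B1
    have h7 : t⁻¹ ^ n * (t⁻¹ ^ N * e i) = t⁻¹ ^ (n + (N - k i)) * (t⁻¹ ^ k i * e i) := by
      rw [← mul_assoc, ← mul_assoc, ← pow_add, ← pow_add]
      congr 2
      have := hN i
      omega
    rw [h7]
    exact B1.mul_mem (B1.pow_mem htB1 _) (hk i)
  have hmain := cech_h1_span_module (bc t) (bc t⁻¹) htu (sp (O := O) bc (B0 : Set F))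
    (sp (O := O) bc {f : F | t⁻¹ ^ n * f ∈ B1})
    (sp (O := O) bc {f : F | ∃ k : ℕ, t ^ k * f ∈ B0})
    h1 h2 (fun i => bc (e i)) h3 h4 h5 N h6
  -- the finite set of generators
  refine ⟨Finset.univ.image fun p : Fin r × Fin N => bc t⁻¹ ^ (p.2 : ℕ) * bc (e p.1), ?_, ?_⟩
  · intro g hg
    obtain ⟨p, -, rfl⟩ := Finset.mem_image.mp hg
    rw [← map_pow, ← map_mul]
    refine bc_mem_sp bc ⟨(p.2 : ℕ), ?_⟩
    have : t ^ (p.2 : ℕ) * (t⁻¹ ^ (p.2 : ℕ) * e p.1) = e p.1 := by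
      rw [inv_pow, mul_inv_cancel_left₀ (pow_ne_zero _ ht0)]
    rw [this]
    exact he p.1
  · have hset : ((Finset.univ.image fun p : Fin r × Fin N => bc t⁻¹ ^ (p.2 : ℕ) * bc (e p.1) :
        Finset E) : Set E) = gens (bc t⁻¹) (fun i => bc (e i)) N := by
      rw [Finset.coe_image, Finset.coe_univ, Set.image_univ]
      rfl
    rw [hset]
    exact hmain

end Abstract

/-! ### the instance: the `A`-spans of the level-`K` charts -/

set_option synthInstance.maxHeartbeats 400000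
set_option maxHeartbeats 1000000

section Concrete

open ModularCurve Fermat.Agent.RED.Interface4 Fermat.Agent.RED.DESC.PlaceExtend27
  Fermat.Agent.RED.DESC Fermat.Agent.RED.PUR.ChartGeneric22 Fermat.Agent.RED.NumInst4
  Fermat.Agent.RED.CORE.CoreIface24 Fermat.Agent.ES.RED.ChartUnion1
  Fermat.Agent.ES.V19.CechIface12

variable (A : ValuationSubring Qbar) (M : ℕ) [NeZero M] (K : IntermediateField ℚ Qbar)
  (tK : ↥(FK M K))

/-- `M0 ≤ M01`. -/
theorem M0_le_M01 : M0 A M K tK ≤ M01 A M K tK :=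
  Submodule.span_mono (Set.image_mono fun x hx => ⟨0, by rwa [pow_zero, one_mul]⟩)

variable {A M K tK}
variable {ϖ : ↥(AK A K)} {Ov : ValuationSubring ↥(FK M K)}

/-- `M1 n ≤ M01` (overlap `ov0` of the model). -/
theorem M1_le_M01
    (hm : TwoChartModel ↥(AK A K) K ↥(FK M K) ϖ tK (chart ↥(AK A K) tK) (chart ↥(AK A K) tK⁻¹) Ov)
    (n : ℕ) : M1 A M K tK n ≤ M01 A M K tK := by
  refine Submodule.span_mono (Set.image_mono fun f hf => ?_)
  obtain ⟨k, hk⟩ := hm.ov0 _ hf
  refine ⟨k, ?_⟩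
  have h1 : tK ^ k * f = tK ^ n * (tK ^ k * (tK⁻¹ ^ n * f)) := by
    rw [inv_pow, mul_left_comm (tK ^ k), mul_inv_cancel_left₀ (pow_ne_zero n hm.t_ne)]
  rw [h1]
  exact (chart ↥(AK A K) tK).mul_mem ((chart ↥(AK A K) tK).pow_mem hm.t_mem n) hk

/-- **(I1)** the twisted Čech `H¹` of the `A`-spans is finitely generated, by elements of `M01`. -/
theorem fgProp
    (hm : TwoChartModel ↥(AK A K) K ↥(FK M K) ϖ tK (chart ↥(AK A K) tK) (chart ↥(AK A K) tK⁻¹) Ov) :
    FGProp A M K tK := fun n =>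
  fg_span (NumberFieldDVR27.incl A K) (baseChangeHom M K) (baseChangeHom_algebraMap_AK A M K)
    tK hm.t_ne (chart ↥(AK A K) tK) (chart ↥(AK A K) tK⁻¹) hm.t_mem hm.tinv_mem hm.fin0 hm.ov1 n

end Concrete

end Fermat.Agent.ES.V19.CechFG24
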