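/-
Programme V (S19), chapter B1 (B1a), helper13: **Čech `H¹` of the two-chart cover `{t ≠ ∞}`,
`{t ≠ 0}` = repartition `H¹`**, for an arbitrary function field `F / K` satisfying
`RR.LSpace.LHyp K F` and Riemann's inequality `hR` (the hypotheses of helper8's lite chain), and a
transcendental `t ∈ F`.

* `B0 K t`, `B1 K t`, `B01 K t : Subalgebra K F` : functions regular where `0 ≤ ord t`
  (resp. `ord t ≤ 0`, `ord t = 0`);
* `poleRep HL t : F →ₗ[K] repartitions` : `f ↦` the repartition equal to `f` at the poles of `t` and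
  `0` elsewhere; `cech HL t : ↥(B01 K t) →ₗ[K] H1 0`;
* `cech_eq_zero_iff` : the kernel is `B01 ∩ (B0 + B1)`; `cech_surjective` (two applications of the
  vanishing of `H¹` in large degree, to `n·(t)_∞` and `n·(t)_0`);
* `cechEquiv : B01 ⧸ (B0 + B1) ≃ₗ[K] H1 0`, `finrank_cechQuot = genusFF K F`;
* def-free forms: `genusFF_le_of_span` (GEN) and `le_genusFF_of_indep` (IND).
-/
import Mathlib
import Fermat.Prelude.Def_AlgebraicCurve_Repartitions
import Fermat.Agent.RR.LSpace
import Fermat.Agent.RR.Riemann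
import Fermat.Agent.ES.V19.H1LargeL8
import Fermat.Agent.ES.V19.NonSpecial9

set_option autoImplicit false
set_option linter.unusedSectionVars false

open AlgebraicCurve

noncomputable section

namespace Fermat.Agent.ES.V19.CechRep13

open Fermat.Agent.X0.FF Fermat.Agent.RR Fermat.Agent.RR.LSpace

variable {K F : Type*} [Field K] [Field F] [Algebra K F]

/-! ### The three rings -/

section Rings

variable (K) (t : F)

/-- functions regular at every place where `t` has no pole (`{t ≠ ∞}`). -/
def B0 : Subalgebra K F where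
  carrier := {f | ∀ P : Place K F, 0 ≤ P.ord t → f ∈ P.toValuationSubring}
  mul_mem' ha hb P hP := P.toValuationSubring.mul_mem _ _ (ha P hP) (hb P hP)
  add_mem' ha hb P hP := P.toValuationSubring.add_mem _ _ (ha P hP) (hb P hP)
  algebraMap_mem' c P _ := P.algebraMap_mem' c

/-- functions regular at every place where `t` has no zero (`{t ≠ 0}`). -/
def B1 : Subalgebra K F where
  carrier := {f | ∀ P : Place K F, P.ord t ≤ 0 → f ∈ P.toValuationSubring}
  mul_mem' ha hb P hP := P.toValuationSubring.mul_mem _ _ (ha P hP) (hb P hP)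
  add_mem' ha hb P hP := P.toValuationSubring.add_mem _ _ (ha P hP) (hb P hP)
  algebraMap_mem' c P _ := P.algebraMap_mem' c

/-- functions regular at every place where `t` is a unit (`{t ≠ 0, ∞}`). -/
def B01 : Subalgebra K F where
  carrier := {f | ∀ P : Place K F, P.ord t = 0 → f ∈ P.toValuationSubring}
  mul_mem' ha hb P hP := P.toValuationSubring.mul_mem _ _ (ha P hP) (hb P hP)
  add_mem' ha hb P hP := P.toValuationSubring.add_mem _ _ (ha P hP) (hb P hP)
  algebraMap_mem' c P _ := P.algebraMap_mem' c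

variable {K t}

theorem mem_B0_iff {f : F} : f ∈ B0 K t ↔ ∀ P : Place K F, 0 ≤ P.ord t → 0 ≤ P.ord f :=
  forall_congr' fun P => imp_congr_right fun _ => ffp_mem_iff_ord_nonneg P

theorem mem_B1_iff {f : F} : f ∈ B1 K t ↔ ∀ P : Place K F, P.ord t ≤ 0 → 0 ≤ P.ord f :=
  forall_congr' fun P => imp_congr_right fun _ => ffp_mem_iff_ord_nonneg P

theorem mem_B01_iff {f : F} : f ∈ B01 K t ↔ ∀ P : Place K F, P.ord t = 0 → 0 ≤ P.ord f :=
  forall_congr' fun P => imp_congr_right fun _ => ffp_mem_iff_ord_nonneg P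

theorem mem_B0_iff' {f : F} :
    f ∈ B0 K t ↔ ∀ P : Place K F, 0 ≤ P.ord t → f ∈ P.toValuationSubring := Iff.rfl

theorem mem_B1_iff' {f : F} :
    f ∈ B1 K t ↔ ∀ P : Place K F, P.ord t ≤ 0 → f ∈ P.toValuationSubring := Iff.rfl

theorem mem_B01_iff' {f : F} :
    f ∈ B01 K t ↔ ∀ P : Place K F, P.ord t = 0 → f ∈ P.toValuationSubring := Iff.rfl

theorem B0_le_B01 : B0 K t ≤ B01 K t := fun _ hf P hP => hf P hP.ge

theorem B1_le_B01 : B1 K t ≤ B01 K t := fun _ hf P hP => hf P hP.le

theorem t_mem_B0 : t ∈ B0 K t := fun P hP => ffp_mem_of_ord_nonneg P hP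

theorem inv_t_mem_B1 : t⁻¹ ∈ B1 K t := fun P hP =>
  ffp_mem_of_ord_nonneg P (by rw [P.ord_inv]; omega)

theorem t_mem_B01 : t ∈ B01 K t := B0_le_B01 t_mem_B0

theorem inv_t_mem_B01 : t⁻¹ ∈ B01 K t := B1_le_B01 inv_t_mem_B1

/-- the chart `{t ≠ 0}` is the chart `{t⁻¹ ≠ ∞}`. -/
theorem B1_eq_B0_inv : B1 K t = B0 K t⁻¹ := by
  ext f
  refine forall_congr' fun P => ?_
  rw [P.ord_inv]
  constructor
  · intro h hP; exact h (by omega)
  · intro h hP; exact h (by omega)

theorem B01_inv : B01 K t⁻¹ = B01 K t := by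
  ext f
  refine forall_congr' fun P => ?_
  rw [P.ord_inv, neg_eq_zero]

/-- the sum `B0 + B1` inside `F`. -/
def sumB (K : Type*) {F : Type*} [Field K] [Field F] [Algebra K F] (t : F) : Submodule K F :=
  Subalgebra.toSubmodule (B0 K t) ⊔ Subalgebra.toSubmodule (B1 K t)

theorem mem_sumB_iff {f : F} : f ∈ sumB K t ↔ ∃ g ∈ B0 K t, ∃ h ∈ B1 K t, g + h = f :=
  Submodule.mem_sup

theorem sumB_le_B01 : sumB K t ≤ Subalgebra.toSubmodule (B01 K t) :=
  sup_le (fun _ h => B0_le_B01 h) (fun _ h => B1_le_B01 h)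

end Rings

/-! ### Repartitions -/

section Rep

theorem mem_repartitionsOf_zero_iff {α : ↥(repartitions K F)} :
    α ∈ repartitionsOf (0 : Divisor K F) ↔
      ∀ v : Place K F, (α : Place K F → F) v ∈ v.toValuationSubring := by
  rw [mem_repartitionsOf_iff]
  refine forall_congr' fun v => ?_
  rw [Finsupp.coe_zero, Pi.zero_apply, neg_zero, ffp_mem_iff_ord_nonneg]
  constructor
  · rintro (h | h)
    · rw [h]; simp
    · exact h
  · exact Or.inr

/-- membership in `A(D)` at a place where `D` vanishes. -/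
theorem mem_of_mem_repartitionsOf {D : Divisor K F} {α : ↥(repartitions K F)}
    (hα : α ∈ repartitionsOf D) {v : Place K F} (hv : D v = 0) :
    (α : Place K F → F) v ∈ v.toValuationSubring := by
  rw [ffp_mem_iff_ord_nonneg]
  rcases mem_repartitionsOf_iff.1 hα v with h | h
  · rw [h]; simp
  · rw [hv, neg_zero] at h; exact h

variable (HL : LHyp K F)

open Classical in
/-- cut a repartition down to the poles of `t`. -/
def cutPoles (t : F) : ↥(repartitions K F) →ₗ[K] ↥(repartitions K F) where
  toFun α := ⟨fun P => if P.ord t < 0 then (α : Place K F → F) P else 0, by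
    have hα := (AdelesL8.mem_repartitions_iff HL).1 α.2
    refine (AdelesL8.mem_repartitions_iff HL).2 (hα.subset fun v hv => ?_)
    have hv' : v.ord (if v.ord t < 0 then (α : Place K F → F) v else 0) < 0 := hv
    show v.ord ((α : Place K F → F) v) < 0
    split_ifs at hv' with h
    · exact hv'
    · simp at hv'⟩
  map_add' α β := by
    apply Subtype.ext
    funext P
    show (if P.ord t < 0 then ((α + β : ↥(repartitions K F)) : Place K F → F) P else 0) =
      (if P.ord t < 0 then (α : Place K F → F) P else 0) +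
        (if P.ord t < 0 then (β : Place K F → F) P else 0)
    split_ifs
    · rfl
    · simp
  map_smul' c α := by
    apply Subtype.ext
    funext P
    show (if P.ord t < 0 then ((c • α : ↥(repartitions K F)) : Place K F → F) P else 0) =
      c • (if P.ord t < 0 then (α : Place K F → F) P else 0)
    split_ifs
    · rfl
    · simp

theorem cutPoles_apply_of_lt (t : F) (α : ↥(repartitions K F)) {P : Place K F}
    (hP : P.ord t < 0) : (cutPoles HL t α : Place K F → F) P = (α : Place K F → F) P := by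
  show (if P.ord t < 0 then (α : Place K F → F) P else 0) = _
  rw [if_pos hP]

theorem cutPoles_apply_of_not_lt (t : F) (α : ↥(repartitions K F)) {P : Place K F}
    (hP : ¬ P.ord t < 0) : (cutPoles HL t α : Place K F → F) P = 0 := by
  show (if P.ord t < 0 then (α : Place K F → F) P else 0) = _
  rw [if_neg hP]

/-- the diagonal embedding `F → repartitions`. -/
def dg : F →ₗ[K] ↥(repartitions K F) :=
  (Algebra.linearMap F ↥(repartitions K F)).restrictScalars K

@[simp] theorem dg_apply (f : F) (P : Place K F) :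
    ((dg (K := K) f : ↥(repartitions K F)) : Place K F → F) P = f := rfl

theorem dg_mem_principal (f : F) : dg (K := K) f ∈ principalRepartitions K F :=
  mem_principalRepartitions_iff.2 ⟨f, rfl⟩

theorem exists_dg_of_mem_principal {b : ↥(repartitions K F)}
    (hb : b ∈ principalRepartitions K F) : ∃ f : F, b = dg (K := K) f := by
  obtain ⟨f, hf⟩ := mem_principalRepartitions_iff.1 hb
  exact ⟨f, Subtype.ext hf⟩

/-- **the repartition equal to `f` at the poles of `t` and `0` elsewhere.** -/
def poleRep (t : F) : F →ₗ[K] ↥(repartitions K F) := (cutPoles HL t).comp dg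

theorem poleRep_apply_of_lt (t f : F) {P : Place K F} (hP : P.ord t < 0) :
    (poleRep HL t f : Place K F → F) P = f := cutPoles_apply_of_lt HL t _ hP

theorem poleRep_apply_of_not_lt (t f : F) {P : Place K F} (hP : ¬ P.ord t < 0) :
    (poleRep HL t f : Place K F → F) P = 0 := cutPoles_apply_of_not_lt HL t _ hP

/-- the subspace `A(0) + F` of the repartitions. -/
abbrev AF (K F : Type*) [Field K] [Field F] [Algebra K F] : Submodule K ↥(repartitions K F) :=
  repartitionsOf (0 : Divisor K F) ⊔ principalRepartitions K F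

/-- **the kernel**: `poleRep f ∈ A(0) + F ↔ f ∈ B0 + B1`, for `f ∈ B01`. -/
theorem poleRep_mem_AF_iff {t f : F} (hf : f ∈ B01 K t) :
    poleRep HL t f ∈ AF K F ↔ f ∈ sumB K t := by
  constructor
  · intro h
    obtain ⟨a, ha, b, hb, hab⟩ := Submodule.mem_sup.1 h
    obtain ⟨g, rfl⟩ := exists_dg_of_mem_principal hb
    rw [mem_repartitionsOf_zero_iff] at ha
    have hval : ∀ P : Place K F, (a : Place K F → F) P + g = (poleRep HL t f : Place K F → F) P :=
      fun P => congrArg (fun α : ↥(repartitions K F) => (α : Place K F → F) P) hab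
    -- `g ∈ B0`
    have hg : g ∈ B0 K t := by
      intro P hP
      have h1 := hval P
      rw [poleRep_apply_of_not_lt HL t f (not_lt.2 hP)] at h1
      have h2 : g = -(a : Place K F → F) P := by rw [eq_neg_iff_add_eq_zero, add_comm]; exact h1
      rw [h2]
      exact neg_mem (ha P)
    -- `f - g ∈ B1`
    have hfg : f - g ∈ B1 K t := by
      intro P hP
      rcases hP.lt_or_eq with hlt | heq
      · have h1 := hval P
        rw [poleRep_apply_of_lt HL t f hlt] at h1
        rw [← h1, add_sub_cancel_right]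
        exact ha P
      · exact sub_mem (hf P heq) (hg P heq.ge)
    exact mem_sumB_iff.2 ⟨g, hg, f - g, hfg, by ring⟩
  · intro h
    obtain ⟨g, hg, h', hh', rfl⟩ := mem_sumB_iff.1 h
    have e : poleRep HL t (g + h') = (poleRep HL t (g + h') - dg g) + dg g := by
      rw [sub_add_cancel]
    rw [e]
    refine Submodule.add_mem_sup ?_ (dg_mem_principal g)
    rw [mem_repartitionsOf_zero_iff]
    intro P
    show (poleRep HL t (g + h') : Place K F → F) P - g ∈ P.toValuationSubring
    by_cases hP : P.ord t < 0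
    · rw [poleRep_apply_of_lt HL t _ hP, add_sub_cancel_left]
      exact hh' P hP.le
    · rw [poleRep_apply_of_not_lt HL t _ hP, zero_sub]
      exact neg_mem (hg P (not_lt.1 hP))

end Rep

/-! ### Surjectivity -/

section Surj

variable (HL : LHyp K F)
  (hR : ∃ γ : ℤ, ∀ D : Divisor K F,
    Divisor.degree D + 1 - γ ≤ (Module.finrank K (riemannRochSpace D) : ℤ))

include hR in
/-- `H¹(n • (g)_∞) = 0` for large `n`, for a non-constant `g`. -/
theorem exists_nsmul_poleDiv_sup_eq_top {g : F} (hg0 : g ≠ 0)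
    (hnc : ¬ ∃ c : K, g = algebraMap K F c) :
    ∃ n : ℕ, repartitionsOf (n • Riemann.poleDiv HL hg0) ⊔ principalRepartitions K F = ⊤ := by
  obtain ⟨c, hc⟩ := H1LargeL8.exists_forall_degree_ge_finrank_H1_eq_zero HL hR
  have hpos := Riemann.degree_poleDiv_pos HL hg0 hnc
  refine ⟨c.toNat, NonSpecial9.sup_eq_top_of_finrank_H1_eq_zero HL hR (hc _ ?_)⟩
  rw [map_nsmul, nsmul_eq_mul]
  have h1 : c ≤ (c.toNat : ℤ) := Int.self_le_toNat c
  have h2 : (0 : ℤ) ≤ (c.toNat : ℤ) := Int.natCast_nonneg _
  nlinarith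

theorem not_const_of_transcendental {t : F} (ht : Transcendental K t) :
    ¬ ∃ c : K, t = algebraMap K F c := by
  rintro ⟨c, rfl⟩
  exact ht (isAlgebraic_algebraMap c)

include hR in
/-- **surjectivity**: every repartition is `poleRep f` modulo `A(0) + F` for some `f ∈ B01`. -/
theorem exists_poleRep_sub_mem {t : F} (ht : Transcendental K t) (α : ↥(repartitions K F)) :
    ∃ f ∈ B01 K t, α - poleRep HL t f ∈ AF K F := by
  have ht0 : t ≠ 0 := by
    rintro rfl
    exact ht isAlgebraic_zero
  have hti0 : t⁻¹ ≠ 0 := inv_ne_zero ht0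
  have hti : Transcendental K t⁻¹ := fun h => ht (by simpa using h.inv)
  obtain ⟨n, hn⟩ := exists_nsmul_poleDiv_sup_eq_top HL hR ht0 (not_const_of_transcendental ht)
  obtain ⟨m, hm⟩ := exists_nsmul_poleDiv_sup_eq_top HL hR hti0 (not_const_of_transcendental hti)
  -- first step: `α = β + g`, `β ∈ A(n (t)_∞)`
  obtain ⟨β, hβ, b, hb, hβb⟩ := Submodule.mem_sup.1 (hn ▸ Submodule.mem_top : α ∈ _)
  obtain ⟨g, rfl⟩ := exists_dg_of_mem_principal hb
  -- second step: `cut β = γ + f`, `γ ∈ A(m (t)_0)`
  obtain ⟨γ, hγ, b', hb', hγb⟩ :=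
    Submodule.mem_sup.1 (hm ▸ Submodule.mem_top : cutPoles HL t β ∈ _)
  obtain ⟨f, rfl⟩ := exists_dg_of_mem_principal hb'
  have hDinf : ∀ P : Place K F, ¬ P.ord t < 0 → (n • Riemann.poleDiv HL ht0) P = 0 := by
    intro P hP
    rw [Finsupp.smul_apply, Riemann.poleDiv_apply, max_eq_left (by omega), smul_zero]
  have hD0 : ∀ P : Place K F, P.ord t ≤ 0 → (m • Riemann.poleDiv HL hti0) P = 0 := by
    intro P hP
    rw [Finsupp.smul_apply, Riemann.poleDiv_apply, P.ord_inv, max_eq_left (by omega), smul_zero]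
  have hγval : ∀ P : Place K F,
      (γ : Place K F → F) P + f = (cutPoles HL t β : Place K F → F) P :=
    fun P => congrArg (fun α : ↥(repartitions K F) => (α : Place K F → F) P) hγb
  -- `f ∈ B01`
  have hf : f ∈ B01 K t := by
    intro P hP
    have h1 := hγval P
    rw [cutPoles_apply_of_not_lt HL t β (by omega)] at h1
    have h2 : f = -(γ : Place K F → F) P := by rw [eq_neg_iff_add_eq_zero, add_comm]; exact h1
    rw [h2]
    exact neg_mem (mem_of_mem_repartitionsOf hγ (hD0 P hP.le))
  refine ⟨f, hf, ?_⟩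
  have e : α - poleRep HL t f = ((β - cutPoles HL t β) + (cutPoles HL t β - poleRep HL t f)) +
      dg g := by
    rw [← hβb]; abel
  rw [e]
  refine Submodule.add_mem_sup (Submodule.add_mem _ ?_ ?_) (dg_mem_principal g)
  · rw [mem_repartitionsOf_zero_iff]
    intro P
    show (β : Place K F → F) P - (cutPoles HL t β : Place K F → F) P ∈ P.toValuationSubring
    by_cases hP : P.ord t < 0
    · rw [cutPoles_apply_of_lt HL t β hP, sub_self]
      exact zero_mem _
    · rw [cutPoles_apply_of_not_lt HL t β hP, sub_zero]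
      exact mem_of_mem_repartitionsOf hβ (hDinf P hP)
  · rw [mem_repartitionsOf_zero_iff]
    intro P
    show (cutPoles HL t β : Place K F → F) P - (poleRep HL t f : Place K F → F) P ∈
      P.toValuationSubring
    by_cases hP : P.ord t < 0
    · rw [poleRep_apply_of_lt HL t f hP, ← hγval P, add_sub_cancel_right]
      exact mem_of_mem_repartitionsOf hγ (hD0 P hP.le)
    · rw [poleRep_apply_of_not_lt HL t f hP, cutPoles_apply_of_not_lt HL t β hP, sub_self]
      exact zero_mem _

end Surj

/-! ### The Čech map and the comparison isomorphism -/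

section Cech

variable (HL : LHyp K F)
  (hR : ∃ γ : ℤ, ∀ D : Divisor K F,
    Divisor.degree D + 1 - γ ≤ (Module.finrank K (riemannRochSpace D) : ℤ))

/-- **the Čech map** `B01 → H¹(0)`. -/
def cech (t : F) : ↥(B01 K t) →ₗ[K] H1 (0 : Divisor K F) :=
  ((AF K F).mkQ.comp (poleRep HL t)).comp (B01 K t).val.toLinearMap

theorem cech_apply (t : F) (f : ↥(B01 K t)) :
    cech HL t f = (AF K F).mkQ (poleRep HL t (f : F)) := rfl

/-- **the kernel of the Čech map is `B01 ∩ (B0 + B1)`.** -/
theorem cech_eq_zero_iff (t : F) (f : ↥(B01 K t)) : cech HL t f = 0 ↔ (f : F) ∈ sumB K t := by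
  rw [cech_apply, Submodule.mkQ_apply, Submodule.Quotient.mk_eq_zero]
  exact poleRep_mem_AF_iff HL f.2

include hR in
/-- **the Čech map is onto.** -/
theorem cech_surjective {t : F} (ht : Transcendental K t) :
    Function.Surjective (cech HL t) := by
  intro y
  obtain ⟨α, rfl⟩ := (AF K F).mkQ_surjective y
  obtain ⟨f, hf, h⟩ := exists_poleRep_sub_mem HL hR ht α
  refine ⟨⟨f, hf⟩, ?_⟩
  rw [cech_apply, Submodule.mkQ_apply, Submodule.mkQ_apply]
  exact ((Submodule.Quotient.eq _).2 h).symm

/-- `B0 + B1` as a submodule of `B01`. -/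
def sumB01 (K : Type*) {F : Type*} [Field K] [Field F] [Algebra K F] (t : F) :
    Submodule K ↥(B01 K t) :=
  (sumB K t).comap (B01 K t).val.toLinearMap

theorem mem_sumB01_iff {t : F} (f : ↥(B01 K t)) : f ∈ sumB01 K t ↔ (f : F) ∈ sumB K t := Iff.rfl

theorem ker_cech (t : F) : LinearMap.ker (cech HL t) = sumB01 K t := by
  ext f
  rw [LinearMap.mem_ker, cech_eq_zero_iff, mem_sumB01_iff]

/-- **Čech `H¹` = repartition `H¹`**: `B01 ⧸ (B0 + B1) ≃ₗ[K] H¹(0)`. -/
def cechEquiv {t : F} (ht : Transcendental K t) :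
    (↥(B01 K t) ⧸ sumB01 K t) ≃ₗ[K] H1 (0 : Divisor K F) :=
  (Submodule.quotEquivOfEq _ _ (ker_cech HL t).symm).trans
    ((cech HL t).quotKerEquivOfSurjective (cech_surjective HL hR ht))

theorem cechEquiv_mk {t : F} (ht : Transcendental K t) (f : ↥(B01 K t)) :
    cechEquiv HL hR ht (Submodule.Quotient.mk f) = cech HL t f := rfl

include HL hR in
/-- **the dimension of the Čech `H¹` is the genus.** -/
theorem finrank_cechQuot {t : F} (ht : Transcendental K t) :
    Module.finrank K (↥(B01 K t) ⧸ sumB01 K t) = genusFF K F :=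
  (cechEquiv HL hR ht).finrank_eq

include HL hR in
/-- **(GEN)**: a family spanning `B01` modulo `B0 + B1` has at least `genusFF` members. -/
theorem genusFF_le_of_span {t : F} (ht : Transcendental K t) {m : ℕ} (x : Fin m → F)
    (hx : ∀ i, x i ∈ B01 K t)
    (hspan : ∀ f ∈ B01 K t, f ∈ Submodule.span K (Set.range x) ⊔ sumB K t) :
    genusFF K F ≤ m := by
  have hfin : Module.Finite K (H1 (0 : Divisor K F)) := H1FiniteL8.finite_H1 HL hR 0
  let y : Fin m → H1 (0 : Divisor K F) := fun i => cech HL t ⟨x i, hx i⟩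
  have htop : Submodule.span K (Set.range y) = ⊤ := by
    rw [eq_top_iff]
    rintro z -
    obtain ⟨f, rfl⟩ := cech_surjective HL hR ht z
    obtain ⟨a, ha, b, hb, hab⟩ := Submodule.mem_sup.1 (hspan f f.2)
    -- `a` is a combination of the `x i`
    obtain ⟨c, rfl⟩ := (Submodule.mem_span_range_iff_exists_fun K).1 ha
    have hbB : b ∈ B01 K t := sumB_le_B01 hb
    have hf : f = (∑ i, c i • (⟨x i, hx i⟩ : ↥(B01 K t))) + ⟨b, hbB⟩ := by
      apply Subtype.ext
      rw [← hab]
      simp
    rw [hf, map_add, map_sum]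
    have hb0 : cech HL t ⟨b, hbB⟩ = 0 := (cech_eq_zero_iff HL t _).2 hb
    rw [hb0, add_zero]
    refine Submodule.sum_mem _ fun i _ => ?_
    rw [map_smul]
    exact Submodule.smul_mem _ _ (Submodule.subset_span ⟨i, rfl⟩)
  have h1 := finrank_range_le_card (R := K) y
  rw [Set.finrank, htop, finrank_top, Fintype.card_fin] at h1
  exact h1

include HL hR in
/-- **(IND)**: a family of `B01`, linearly independent modulo `B0 + B1`, has at most `genusFF`
members. -/
theorem le_genusFF_of_indep (t : F) {m : ℕ} (x : Fin m → F)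
    (hx : ∀ i, x i ∈ B01 K t)
    (hind : ∀ c : Fin m → K, (∑ i, c i • x i) ∈ sumB K t → ∀ i, c i = 0) :
    m ≤ genusFF K F := by
  have hfin : Module.Finite K (H1 (0 : Divisor K F)) := H1FiniteL8.finite_H1 HL hR 0
  let y : Fin m → H1 (0 : Divisor K F) := fun i => cech HL t ⟨x i, hx i⟩
  have hli : LinearIndependent K y := by
    rw [Fintype.linearIndependent_iff]
    intro c hc
    apply hind c
    have h1 : (∑ i, c i • y i) = cech HL t (∑ i, c i • (⟨x i, hx i⟩ : ↥(B01 K t))) := by
      rw [map_sum]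
      exact Finset.sum_congr rfl fun i _ => (map_smul _ _ _).symm
    rw [h1, cech_eq_zero_iff] at hc
    simpa using hc
  have := hli.fintype_card_le_finrank
  rwa [Fintype.card_fin] at this

end Cech

end Fermat.Agent.ES.V19.CechRep13
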