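/-
Programme V (S19), chapter B1 (B1a), helper13: **the rings `B0`, `B1`, `B01` of `CechRep13` are the
integral closures of `K[t]`, `K[t⁻¹]`, `K[t, t⁻¹]`** in `F` (so they match the chart rings of the
two-chart model on both fibres).

* `isIntegral_mem_B0` : integral over `K[t]` ⇒ in `B0 K t` (always);
* `mem_B0_of_dedekind` / `mem_B0_iff_isIntegral` : the converse, when the integral closure
  `FF.intRing K t` of `K[t]` in `F` is a Dedekind domain with fraction field `F` (char `0`:
  `FF.isDedekindDomain_intRing`; separable case: `SumOrdSep15.isDedekindDomain_intRing_sep`);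
* `mem_B1_iff_isIntegral` : the same for `t⁻¹`;
* `mem_B01_iff_exists_pow_mul` : `f ∈ B01 K t ↔ ∃ n, t ^ n * f ∈ B0 K t` (finitely many zeros of
  `t`), and the symmetric statement with `t⁻¹` and `B1`; `mem_B01_iff_isIntegral`.
-/
import Mathlib
import Fermat.Agent.X0.FFSum
import Fermat.Agent.X0.FFDedekind
import Fermat.Agent.ES.RED.SumOrdSep15
import Fermat.Agent.ES.V19.CechRep13

set_option autoImplicit false
set_option linter.unusedSectionVars false

open AlgebraicCurve IsDedekindDomain

noncomputable section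

namespace Fermat.Agent.ES.V19.CechInt13

open Fermat.Agent.X0.FF Fermat.Agent.X0.FFDedekind Fermat.Agent.RR.LSpace
  Fermat.Agent.ES.V19.CechRep13

variable {K F : Type*} [Field K] [Field F] [Algebra K F] {t : F}

/-! ### `B0` and the integral closure of `K[t]` -/

/-- an element integral over `K[t]` is regular wherever `t` is. -/
theorem isIntegral_mem_B0 {f : F} (hf : IsIntegral (polyRing K t) f) : f ∈ B0 K t := by
  intro P hP
  have ht : t ∈ P.toValuationSubring := ffp_mem_of_ord_nonneg P hP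
  exact intRing_le_of_mem P ht ⟨f, hf⟩

/-- conversely, when the integral closure of `K[t]` is a Dedekind domain with fraction field `F`,
an element regular wherever `t` is, is integral over `K[t]`. -/
theorem isIntegral_of_mem_B0 (hD : IsDedekindDomain (intRing K t))
    (hFr : IsFractionRing (intRing K t) F) {f : F} (hf : f ∈ B0 K t) :
    IsIntegral (polyRing K t) f := by
  have key : f ∈ (algebraMap (intRing K t) F).range := by
    apply HeightOneSpectrum.mem_integers_of_valuation_le_one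
    intro w
    have h1 : t ∈ (Place.ofHeightOneSpectrum (K := K) (F := F) w).toValuationSubring :=
      algebraMap_mem_ofHeightOneSpectrum (K := K) (F := F) w
        ⟨t, isIntegral_algebraMap (x := genA K t)⟩
    exact hf _ (ffp_ord_nonneg_of_mem _ h1)
  obtain ⟨b, rfl⟩ := key
  exact b.2

theorem mem_B0_iff_isIntegral (hD : IsDedekindDomain (intRing K t))
    (hFr : IsFractionRing (intRing K t) F) {f : F} :
    f ∈ B0 K t ↔ IsIntegral (polyRing K t) f :=
  ⟨isIntegral_of_mem_B0 hD hFr, isIntegral_mem_B0⟩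

/-- `B0 K t`, as a set, is the integral closure `FF.intRing K t`. -/
theorem mem_B0_iff_mem_intRing (hD : IsDedekindDomain (intRing K t))
    (hFr : IsFractionRing (intRing K t) F) {f : F} :
    f ∈ B0 K t ↔ f ∈ intRing K t :=
  mem_B0_iff_isIntegral hD hFr

/-- the same for the chart `{t ≠ 0}`. -/
theorem mem_B1_iff_isIntegral (hD : IsDedekindDomain (intRing K t⁻¹))
    (hFr : IsFractionRing (intRing K t⁻¹) F) {f : F} :
    f ∈ B1 K t ↔ IsIntegral (polyRing K t⁻¹) f := by
  rw [B1_eq_B0_inv]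
  exact mem_B0_iff_isIntegral hD hFr

/-! ### `B01 = B0[1/t] = B1[t]` -/

/-- `t ^ n * f ∈ B0 ⇒ f ∈ B01`. -/
theorem mem_B01_of_pow_mul_mem (ht : t ≠ 0) {f : F} {n : ℕ} (h : t ^ n * f ∈ B0 K t) :
    f ∈ B01 K t := by
  intro P hP
  have h1 := h P hP.ge
  have h2 : (t ^ n)⁻¹ ∈ P.toValuationSubring := by
    apply ffp_mem_of_ord_nonneg
    rw [P.ord_inv, ← zpow_natCast, P.ord_zpow, hP]
    simp
  have h3 : f = (t ^ n)⁻¹ * (t ^ n * f) := by
    rw [← mul_assoc, inv_mul_cancel₀ (pow_ne_zero n ht), one_mul]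
  rw [h3]
  exact mul_mem h2 h1

/-- `f ∈ B01 ⇒ t ^ n * f ∈ B0` for large `n`, when `t` has finitely many zeros. -/
theorem exists_pow_mul_mem_B0 (ht : t ≠ 0) (hfin : {P : Place K F | 0 < P.ord t}.Finite)
    {f : F} (hf : f ∈ B01 K t) : ∃ n : ℕ, t ^ n * f ∈ B0 K t := by
  classical
  rcases eq_or_ne f 0 with rfl | hf0
  · exact ⟨0, by simp [zero_mem]⟩
  refine ⟨hfin.toFinset.sup fun P => (-(P.ord f)).toNat, ?_⟩
  set n := hfin.toFinset.sup fun P => (-(P.ord f)).toNat with hn
  intro P hP
  apply ffp_mem_of_ord_nonneg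
  rw [P.ord_mul (pow_ne_zero n ht) hf0, ← zpow_natCast, P.ord_zpow]
  rcases hP.lt_or_eq with hpos | h0
  · have hmem : P ∈ hfin.toFinset := hfin.mem_toFinset.2 hpos
    have hle : (-(P.ord f)).toNat ≤ n := Finset.le_sup (f := fun P => (-(P.ord f)).toNat) hmem
    have h1 : -(P.ord f) ≤ (n : ℤ) := by
      have := Int.self_le_toNat (-(P.ord f))
      have h2 : ((-(P.ord f)).toNat : ℤ) ≤ (n : ℤ) := by exact_mod_cast hle
      omega
    have h3 : (n : ℤ) ≤ (n : ℤ) * P.ord t := by
      have : (0 : ℤ) ≤ (n : ℤ) := Int.natCast_nonneg n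
      nlinarith
    omega
  · rw [← h0, mul_zero, zero_add]
    exact ffp_ord_nonneg_of_mem P (hf P h0.symm)

/-- **`B01 = B0[1/t]`.** -/
theorem mem_B01_iff_exists_pow_mul (ht : t ≠ 0) (hfin : {P : Place K F | 0 < P.ord t}.Finite)
    {f : F} : f ∈ B01 K t ↔ ∃ n : ℕ, t ^ n * f ∈ B0 K t :=
  ⟨exists_pow_mul_mem_B0 ht hfin, fun ⟨_, h⟩ => mem_B01_of_pow_mul_mem ht h⟩

/-- **`B01 = B1[t]`.** -/
theorem mem_B01_iff_exists_inv_pow_mul (ht : t ≠ 0)
    (hfin : {P : Place K F | P.ord t < 0}.Finite) {f : F} :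
    f ∈ B01 K t ↔ ∃ n : ℕ, t⁻¹ ^ n * f ∈ B1 K t := by
  have hfin' : {P : Place K F | 0 < P.ord t⁻¹}.Finite := by
    refine hfin.subset fun P hP => ?_
    have h1 : 0 < P.ord t⁻¹ := hP
    rw [P.ord_inv] at h1
    show P.ord t < 0
    omega
  rw [← B01_inv, B1_eq_B0_inv]
  exact mem_B01_iff_exists_pow_mul (inv_ne_zero ht) hfin'

/-- the zeros and the poles of a nonzero function are finite in number, under `LHyp`. -/
theorem finite_zeros (HL : LHyp K F) (ht : t ≠ 0) : {P : Place K F | 0 < P.ord t}.Finite :=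
  (AdelesL8.finite_support_ord HL ht).subset fun P hP => by
    have h1 : 0 < P.ord t := hP
    show P.ord t ≠ 0
    omega

theorem finite_poles (HL : LHyp K F) (ht : t ≠ 0) : {P : Place K F | P.ord t < 0}.Finite :=
  (AdelesL8.finite_support_ord HL ht).subset fun P hP => by
    have h1 : P.ord t < 0 := hP
    show P.ord t ≠ 0
    omega

/-- **`B01` is the integral closure of `K[t, t⁻¹]`**, in the form "some `t ^ n * f` is integral
over `K[t]`". -/
theorem mem_B01_iff_isIntegral (ht : t ≠ 0) (hfin : {P : Place K F | 0 < P.ord t}.Finite)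
    (hD : IsDedekindDomain (intRing K t)) (hFr : IsFractionRing (intRing K t) F) {f : F} :
    f ∈ B01 K t ↔ ∃ n : ℕ, IsIntegral (polyRing K t) (t ^ n * f) := by
  rw [mem_B01_iff_exists_pow_mul ht hfin]
  exact exists_congr fun n => mem_B0_iff_isIntegral hD hFr

/-! ### The two standard instances: characteristic `0`, and `F / K(t)` separable -/

section Instances

open Fermat.Agent.ES.RED.SumOrdSep15 IntermediateField

theorem mem_B0_iff_isIntegral_char0 [CharZero K] (hx : IsGen K t) {f : F} :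
    f ∈ B0 K t ↔ IsIntegral (polyRing K t) f :=
  mem_B0_iff_isIntegral (isDedekindDomain_intRing hx) (isFractionRing_intRing hx)

theorem mem_B1_iff_isIntegral_char0 [CharZero K] (hx : IsGen K t) {f : F} :
    f ∈ B1 K t ↔ IsIntegral (polyRing K t⁻¹) f :=
  mem_B1_iff_isIntegral (isDedekindDomain_intRing (hx.inv))
    (isFractionRing_intRing (hx.inv))

theorem mem_B0_iff_isIntegral_sep (hx : IsGen K t) [Algebra.IsSeparable K⟮t⟯ F] {f : F} :
    f ∈ B0 K t ↔ IsIntegral (polyRing K t) f :=
  mem_B0_iff_isIntegral (isDedekindDomain_intRing_sep hx) (isFractionRing_intRing hx)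

theorem mem_B1_iff_isIntegral_sep (hx : IsGen K t) [Algebra.IsSeparable K⟮t⟯ F] {f : F} :
    f ∈ B1 K t ↔ IsIntegral (polyRing K t⁻¹) f := by
  have := isSeparable_inv (K := K) t
  exact mem_B1_iff_isIntegral (isDedekindDomain_intRing_sep (hx.inv))
    (isFractionRing_intRing (hx.inv))

end Instances

end Fermat.Agent.ES.V19.CechInt13
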