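/-
Programme V (S19), chapter B1 (ruling 5), helper13: **large multiples of a divisor of positive
degree** — the two counting inputs of the B1 assembly, for an arbitrary function field `F / K`
with `RR.LSpace.LHyp K F` and Riemann's inequality `hR` (helper8's lite chain):

* `exists_forall_ge_subsingleton_H1 : 0 < deg D → ∃ n₀, ∀ n ≥ n₀, Subsingleton (H1 (n • D))`
  (the hypothesis of `CechIface12.CechInj`);
* `exists_forall_ge_finrank_L_nsmul : 0 < deg D → ∃ n₀, ∀ n ≥ n₀, l(n • D) = n · deg D + 1 - g`;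
* `exists_forall_ge_both` : one `n₀` for both;
* for a pole divisor in the sense of `CechIface12.HasPoleDivisor` of a transcendental generator the
  degree is positive: `degree_pos_of_hasPoleDivisor`.
-/
import Mathlib
import Fermat.Agent.ES.V19.CechIface12
import Fermat.Agent.ES.V19.H1LargeL8

set_option autoImplicit false
set_option linter.unusedSectionVars false

open AlgebraicCurve IntermediateField

noncomputable section

namespace Fermat.Agent.ES.V19.CechLarge13

open Fermat.Agent.RR Fermat.Agent.RR.LSpace Fermat.Agent.ES.V19.CechIface12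

variable {K F : Type*} [Field K] [Field F] [Algebra K F]

section Large

variable (HL : LHyp K F)
  (hR : ∃ γ : ℤ, ∀ D : Divisor K F,
    Divisor.degree D + 1 - γ ≤ (Module.finrank K (riemannRochSpace D) : ℤ))

include HL hR

/-- a bound `n₀` beyond which `deg (n • D)` exceeds a given constant. -/
theorem exists_forall_ge_le_degree_nsmul {D : Divisor K F} (hD : 0 < Divisor.degree D) (c : ℤ) :
    ∃ n₀ : ℕ, ∀ n : ℕ, n₀ ≤ n → c ≤ Divisor.degree (n • D) := by
  refine ⟨c.toNat, fun n hn => ?_⟩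
  rw [map_nsmul, nsmul_eq_mul]
  have h1 : c ≤ (c.toNat : ℤ) := Int.self_le_toNat c
  have h2 : (c.toNat : ℤ) ≤ (n : ℤ) := by exact_mod_cast hn
  have h3 : (0 : ℤ) ≤ (n : ℤ) := Int.natCast_nonneg _
  nlinarith

/-- `H¹(n • D) = 0` for all large `n`, when `deg D > 0`. -/
theorem exists_forall_ge_subsingleton_H1 {D : Divisor K F} (hD : 0 < Divisor.degree D) :
    ∃ n₀ : ℕ, ∀ n : ℕ, n₀ ≤ n → Subsingleton (H1 (n • D)) := by
  obtain ⟨c, hc⟩ := H1LargeL8.exists_forall_degree_ge_finrank_H1_eq_zero HL hR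
  obtain ⟨n₀, hn₀⟩ := exists_forall_ge_le_degree_nsmul HL hR hD c
  refine ⟨n₀, fun n hn => ?_⟩
  have hfin : Module.Finite K (H1 (n • D)) := H1FiniteL8.finite_H1 HL hR _
  exact Module.finrank_zero_iff.mp (hc _ (hn₀ n hn))

/-- `l(n • D) = n · deg D + 1 - g` for all large `n`, when `deg D > 0`. -/
theorem exists_forall_ge_finrank_L_nsmul {D : Divisor K F} (hD : 0 < Divisor.degree D) :
    ∃ n₀ : ℕ, ∀ n : ℕ, n₀ ≤ n →
      (Module.finrank K (riemannRochSpace (n • D)) : ℤ) =
        (n : ℤ) * Divisor.degree D + 1 - (genusFF K F : ℤ) := by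
  obtain ⟨c, hc⟩ := H1LargeL8.exists_forall_degree_ge_finrank_L_eq HL hR
  obtain ⟨n₀, hn₀⟩ := exists_forall_ge_le_degree_nsmul HL hR hD c
  refine ⟨n₀, fun n hn => ?_⟩
  rw [hc _ (hn₀ n hn), map_nsmul, nsmul_eq_mul]

/-- one bound for both statements. -/
theorem exists_forall_ge_both {D : Divisor K F} (hD : 0 < Divisor.degree D) :
    ∃ n₀ : ℕ, ∀ n : ℕ, n₀ ≤ n → Subsingleton (H1 (n • D)) ∧
      (Module.finrank K (riemannRochSpace (n • D)) : ℤ) =
        (n : ℤ) * Divisor.degree D + 1 - (genusFF K F : ℤ) := by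
  obtain ⟨n₁, h₁⟩ := exists_forall_ge_subsingleton_H1 HL hR hD
  obtain ⟨n₂, h₂⟩ := exists_forall_ge_finrank_L_nsmul HL hR hD
  exact ⟨max n₁ n₂, fun n hn =>
    ⟨h₁ n (le_of_max_le_left hn), h₂ n (le_of_max_le_right hn)⟩⟩

end Large

/-- a pole divisor (in the sense of `CechIface12`) of `t` with `F / K(t)` finite has positive
degree. -/
theorem degree_pos_of_hasPoleDivisor {t : F} [FiniteDimensional K⟮t⟯ F] {D : Divisor K F}
    (h : HasPoleDivisor t D) : 0 < Divisor.degree D := by
  rw [h.1]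
  exact_mod_cast Module.finrank_pos

end Fermat.Agent.ES.V19.CechLarge13
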