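/-
Programme V (S19), chapter B1 (helper12): **abstract Nakayama + lifting for a two-chart Čech
complex over a local ring** (Mathlib only).

`A` a local ring (not necessarily noetherian), `E` an `A`-module, `N₀, N₁ ≤ N₀₁` submodules
("sections over the two charts and over the overlap"), `ρ : N₀₁ →+ Eb` an additive map ("reduction
modulo `𝔪_A`") which kills `𝔪_A • N₀₁` and whose kernel is contained in `𝔪_A • N₀₁`.  If
`N₀₁ / (N₀ + N₁)` is generated by finitely many elements of `N₀₁` and `ρ N₀₁ ⊆ ρ N₀ + ρ N₁`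
("`H¹` of the special fibre vanishes"), then

* `le_sup` : `N₀₁ = N₀ + N₁` ("`H¹` vanishes"), and
* `exists_lift` : every common value `ρ a = ρ b` (`a ∈ N₀`, `b ∈ N₁`) is `ρ x` for some
  `x ∈ N₀ ⊓ N₁` ("sections of the special fibre lift").
-/
import Mathlib

set_option autoImplicit false

namespace Fermat.Agent.ES.V19.CechNakayama12

open IsLocalRing

variable {A E Eb : Type*} [CommRing A] [IsLocalRing A] [AddCommGroup E] [Module A E]
  [AddCommGroup Eb]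

/-- **Nakayama, in the form used here**: `N'` generated over `N` by finitely many of its own
elements, `N' ≤ N + 𝔪 N'`; then `N' ≤ N`. -/
theorem le_of_le_sup_smul (N N' : Submodule A E) (G : Finset E)
    (hGmem : ∀ g ∈ G, g ∈ N') (hG : N' ≤ Submodule.span A (G : Set E) ⊔ N)
    (hnak : N' ≤ N ⊔ maximalIdeal A • N') : N' ≤ N := by
  have hspan : Submodule.span A (G : Set E) ≤ N' :=
    Submodule.span_le.mpr fun g hg => hGmem g (Finset.mem_coe.mp hg)
  have hfg : (Submodule.span A (G : Set E)).FG := Submodule.fg_span G.finite_toSet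
  have hjac : maximalIdeal A ≤ (⊥ : Ideal A).jacobson :=
    le_of_eq (IsLocalRing.jacobson_eq_maximalIdeal ⊥ bot_ne_top).symm
  have hsmul : maximalIdeal A • N' ≤ N ⊔ maximalIdeal A • Submodule.span A (G : Set E) := by
    calc maximalIdeal A • N'
        ≤ maximalIdeal A • (Submodule.span A (G : Set E) ⊔ N) := Submodule.smul_mono le_rfl hG
      _ = maximalIdeal A • Submodule.span A (G : Set E) ⊔ maximalIdeal A • N :=
          Submodule.smul_sup _ _ _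
      _ ≤ N ⊔ maximalIdeal A • Submodule.span A (G : Set E) := by
          refine sup_le le_sup_right (le_trans Submodule.smul_le_right le_sup_left)
  have h1 : Submodule.span A (G : Set E) ≤ N ⊔ maximalIdeal A • Submodule.span A (G : Set E) :=
    calc Submodule.span A (G : Set E) ≤ N' := hspan
      _ ≤ N ⊔ maximalIdeal A • N' := hnak
      _ ≤ N ⊔ maximalIdeal A • Submodule.span A (G : Set E) := sup_le le_sup_left hsmul
  have h2 : Submodule.span A (G : Set E) ≤ N :=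
    Submodule.le_of_le_smul_of_le_jacobson_bot hfg hjac h1
  exact hG.trans (sup_le h2 le_rfl)

variable (N0 N1 N01 : Submodule A E) (h0 : N0 ≤ N01) (h1 : N1 ≤ N01) (ρ : ↥N01 →+ Eb)

/-- `ρ` kills `𝔪 • N₀₁`. -/
theorem rho_eq_zero_of_mem_smul
    (hρm : ∀ (c : A) (x : ↥N01), c ∈ maximalIdeal A → ρ (c • x) = 0)
    (N : Submodule A E) (hN : N ≤ N01) (x : E) (hx : x ∈ maximalIdeal A • N)
    (hx' : x ∈ N01) : ρ ⟨x, hx'⟩ = 0 := by
  have key : ∀ y ∈ maximalIdeal A • N, ∃ hy : y ∈ N01, ρ ⟨y, hy⟩ = 0 := by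
    intro y hy
    refine Submodule.smul_induction_on hy ?_ ?_
    · intro c hc n hn
      refine ⟨N01.smul_mem c (hN hn), ?_⟩
      have : (⟨c • n, N01.smul_mem c (hN hn)⟩ : ↥N01) = c • (⟨n, hN hn⟩ : ↥N01) := rfl
      rw [this]
      exact hρm c _ hc
    · rintro y z ⟨hy', hy0⟩ ⟨hz', hz0⟩
      refine ⟨N01.add_mem hy' hz', ?_⟩
      have : (⟨y + z, N01.add_mem hy' hz'⟩ : ↥N01) = ⟨y, hy'⟩ + ⟨z, hz'⟩ := rfl
      rw [this, map_add, hy0, hz0, add_zero]
  exact (key x hx).2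

include h0 h1 in
/-- **`H¹ = 0`**: `N₀₁ ≤ N₀ ⊔ N₁`. -/
theorem le_sup
    (hker : ∀ x : ↥N01, ρ x = 0 → (x : E) ∈ maximalIdeal A • N01)
    (G : Finset E) (hGmem : ∀ g ∈ G, g ∈ N01)
    (hG : N01 ≤ Submodule.span A (G : Set E) ⊔ (N0 ⊔ N1))
    (hsurj : ∀ x : ↥N01, ∃ (a : E) (ha : a ∈ N0) (b : E) (hb : b ∈ N1),
      ρ x = ρ ⟨a, h0 ha⟩ + ρ ⟨b, h1 hb⟩) :
    N01 ≤ N0 ⊔ N1 := by
  refine le_of_le_sup_smul (N0 ⊔ N1) N01 G hGmem hG ?_
  intro x hx
  obtain ⟨a, ha, b, hb, hab⟩ := hsurj ⟨x, hx⟩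
  have hz : ρ (⟨x, hx⟩ - ⟨a, h0 ha⟩ - ⟨b, h1 hb⟩) = 0 := by
    rw [map_sub, map_sub, hab]
    abel
  have := hker _ hz
  have hx' : x = (a + b) + (x - a - b) := by abel
  rw [hx']
  exact Submodule.add_mem_sup (Submodule.add_mem_sup ha hb) this

include h0 h1 in
/-- **Lifting**: if `ρ a = ρ b` with `a ∈ N₀`, `b ∈ N₁`, there is `x ∈ N₀ ⊓ N₁` with
`ρ x = ρ a`. -/
theorem exists_lift
    (hρm : ∀ (c : A) (x : ↥N01), c ∈ maximalIdeal A → ρ (c • x) = 0)
    (hker : ∀ x : ↥N01, ρ x = 0 → (x : E) ∈ maximalIdeal A • N01)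
    (hle : N01 ≤ N0 ⊔ N1)
    (a : E) (ha : a ∈ N0) (b : E) (hb : b ∈ N1) (hab : ρ ⟨a, h0 ha⟩ = ρ ⟨b, h1 hb⟩) :
    ∃ (x : E) (hx0 : x ∈ N0) (_ : x ∈ N1), ρ ⟨x, h0 hx0⟩ = ρ ⟨a, h0 ha⟩ := by
  have hz : ρ (⟨a, h0 ha⟩ - ⟨b, h1 hb⟩) = 0 := by rw [map_sub, hab, sub_self]
  have hmem : a - b ∈ maximalIdeal A • N01 := hker _ hz
  have hmem' : a - b ∈ maximalIdeal A • N0 ⊔ maximalIdeal A • N1 := by
    rw [← Submodule.smul_sup]
    exact Submodule.smul_mono le_rfl hle hmem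
  obtain ⟨a', ha', b', hb', hsum⟩ := Submodule.mem_sup.mp hmem'
  have ha'0 : a' ∈ N0 := Submodule.smul_le_right ha'
  have hb'1 : b' ∈ N1 := Submodule.smul_le_right hb'
  refine ⟨a - a', N0.sub_mem ha ha'0, ?_, ?_⟩
  · have : a - a' = b + b' := by
      have h := hsum
      have : a - a' = b + (a - b - a') := by abel
      rw [this]
      congr 1
      rw [← h]
      abel
    rw [this]
    exact N1.add_mem hb hb'1
  · have hρa' : ρ ⟨a', h0 ha'0⟩ = 0 :=
      rho_eq_zero_of_mem_smul N01 ρ hρm N0 h0 a' ha' (h0 ha'0)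
    have : (⟨a - a', h0 (N0.sub_mem ha ha'0)⟩ : ↥N01) = ⟨a, h0 ha⟩ - ⟨a', h0 ha'0⟩ := rfl
    rw [this, map_sub, hρa', sub_zero]

end Fermat.Agent.ES.V19.CechNakayama12
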