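/-
Programme V (S19), chapter B1 (helper12): **the generic-fibre side of the `A`-spans of
`CechIface12`**: elements of `M₀ = A·B0_K` are regular wherever `t` is, elements of
`M₁(n) = A·tⁿ·B1_K` divided by `tⁿ` are regular wherever `t⁻¹` is, and `tⁿ·M₁(0) ⊆ M₁(n)`.
Hence (with a pole divisor `D` of `t`) `M₀ ⊓ M₁(n) ⊆ L(n • D)`.
-/
import Mathlib
import Fermat.Agent.ES.V19.CechIface12
import Fermat.Agent.X0.FFDedekind

set_option autoImplicit false
set_option synthInstance.maxHeartbeats 400000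
set_option linter.unusedSectionVars false

open AlgebraicCurve ModularCurve IntermediateField

noncomputable section

namespace Fermat.Agent.ES.V19.GenericIncl12

open Fermat.Agent.RED.Interface4 Fermat.Agent.RED.DESC.PlaceExtend27
  Fermat.Agent.RED.PUR.ChartGeneric22 Fermat.Agent.ES.RED.ChartIntegralA1
  Fermat.Agent.ES.V19.CechIface12

variable (A : ValuationSubring Qbar) (M : ℕ) (K : IntermediateField ℚ Qbar) (tK : ↥(FK M K))

/-- the scalar action of `A` on `Fbar M` is multiplication by the constant. -/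
theorem smul_eq (a : ↥A) (f : ↥(Fbar M)) :
    a • f = algebraMap Qbar ↥(Fbar M) (a : Qbar) * f := rfl

/-- scalars of `A` preserve the valuation ring of a place. -/
theorem smul_mem_place (P : Place Qbar ↥(Fbar M)) (a : ↥A) {f : ↥(Fbar M)}
    (hf : f ∈ P.toValuationSubring) : a • f ∈ P.toValuationSubring := by
  rw [smul_eq]
  exact mul_mem (P.algebraMap_mem' _) hf

/-- an element of the chart over `A` with coordinate `s` is regular wherever `s` is. -/
theorem reg_of_mem_chart {s x : ↥(Fbar M)} (hx : x ∈ chart ↥A s) : Reg Qbar s x := by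
  intro P hP
  rw [mem_chart_iff] at hx
  refine Fermat.Agent.X0.FFDedekind.mem_of_isIntegral_of_algebraMap_mem P ?_ hx
  rintro ⟨y, hy⟩
  show y ∈ P.toValuationSubring
  refine Algebra.adjoin_induction (p := fun z _ => z ∈ P.toValuationSubring) ?_ ?_ ?_ ?_ hy
  · intro z hz
    rw [Set.mem_singleton_iff] at hz
    rw [hz]
    exact hP
  · intro a
    exact P.algebraMap_mem' _
  · intro z w _ _ hz hw
    exact add_mem hz hw
  · intro z w _ _ hz hw
    exact mul_mem hz hw

/-- **`M₀` is regular wherever `t` is.** -/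
theorem reg_of_mem_M0 {x : ↥(Fbar M)} (hx : x ∈ M0 A M K tK) :
    Reg Qbar (baseChangeHom M K tK) x := by
  intro P hP
  refine Submodule.span_induction (p := fun z _ => z ∈ P.toValuationSubring) ?_ ?_ ?_ ?_ hx
  · rintro _ ⟨y, hy, rfl⟩
    exact reg_of_mem_chart A M
      (Fermat.Agent.ES.RED.ChartUnion1.baseChangeHom_mem_chart A M K tK y hy) P hP
  · exact zero_mem _
  · intro z w _ _ hz hw
    exact add_mem hz hw
  · intro a z _ hz
    exact smul_mem_place A M P a hz

/-- **`M₁(n) / tⁿ` is regular wherever `t⁻¹` is.** -/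
theorem reg_inv_of_mem_M1 (n : ℕ) {x : ↥(Fbar M)} (hx : x ∈ M1 A M K tK n) :
    Reg Qbar (baseChangeHom M K tK)⁻¹ (x * (baseChangeHom M K tK)⁻¹ ^ n) := by
  intro P hP
  refine Submodule.span_induction
    (p := fun z _ => z * (baseChangeHom M K tK)⁻¹ ^ n ∈ P.toValuationSubring) ?_ ?_ ?_ ?_ hx
  · rintro _ ⟨y, hy, rfl⟩
    have h1 := Fermat.Agent.ES.RED.ChartUnion1.baseChangeHom_mem_chart A M K tK⁻¹ _ hy
    rw [map_mul, map_pow, map_inv₀] at h1
    have h2 := reg_of_mem_chart A M h1 P hP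
    rwa [mul_comm] at h2
  · rw [zero_mul]; exact zero_mem _
  · intro z w _ _ hz hw
    rw [add_mul]
    exact add_mem hz hw
  · intro a z _ hz
    rw [smul_eq, mul_assoc]
    exact mul_mem (P.algebraMap_mem' _) hz

/-- **`tⁿ · M₁(0) ⊆ M₁(n)`.** -/
theorem pow_mul_mem_M1 (htK : tK ≠ 0) (n : ℕ) {x : ↥(Fbar M)} (hx : x ∈ M1 A M K tK 0) :
    baseChangeHom M K tK ^ n * x ∈ M1 A M K tK n := by
  refine Submodule.span_induction
    (p := fun z _ => baseChangeHom M K tK ^ n * z ∈ M1 A M K tK n) ?_ ?_ ?_ ?_ hx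
  · rintro _ ⟨y, hy, rfl⟩
    have hy' : tK⁻¹ ^ 0 * y ∈ chart ↥(AK A K) tK⁻¹ := hy
    rw [pow_zero, one_mul] at hy'
    have hmem : tK⁻¹ ^ n * (tK ^ n * y) ∈ chart ↥(AK A K) tK⁻¹ := by
      rw [← mul_assoc, ← mul_pow, inv_mul_cancel₀ htK, one_pow, one_mul]
      exact hy'
    have himg : baseChangeHom M K (tK ^ n * y) = baseChangeHom M K tK ^ n * baseChangeHom M K y := by
      rw [map_mul, map_pow]
    rw [← himg]
    exact Submodule.subset_span ⟨tK ^ n * y, hmem, rfl⟩
  · rw [mul_zero]; exact zero_mem _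
  · intro z w _ _ hz hw
    rw [mul_add]
    exact add_mem hz hw
  · intro a z _ hz
    rw [mul_smul_comm]
    exact Submodule.smul_mem _ a hz

/-- **`M₀ ⊓ M₁(n) ⊆ L(n • D)`** for a pole divisor `D` of `t`. -/
theorem mem_L_of_mem_inf {D : Divisor Qbar ↥(Fbar M)}
    (hD : HasPoleDivisor (baseChangeHom M K tK) D) (n : ℕ) {x : ↥(Fbar M)}
    (h0 : x ∈ M0 A M K tK) (h1 : x ∈ M1 A M K tK n) : x ∈ riemannRochSpace (n • D) :=
  (hD.2 n x).mpr ⟨reg_of_mem_M0 A M K tK h0, reg_inv_of_mem_M1 A M K tK n h1⟩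

end Fermat.Agent.ES.V19.GenericIncl12
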