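/-
Programme V (S19), chapter B1 (helper12): **lifts of residually independent vectors are
independent** (Mathlib only).

`A` a valuation subring of a field `L`, `V` an `L`-vector space, `S ⊆ V` an additive subgroup
stable under the scalars of `A`, `k` a field with a ring homomorphism `res : A →+* k`, `Eb` a
`k`-vector space and `ρ : S →+ Eb` semilinear along `res`.  If `ρ (f i)` (`i` in a finite type) are
linearly independent over `k`, the `f i` are linearly independent over `L`.
(Divide a nontrivial relation by a coefficient of maximal absolute value and reduce.)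
-/
import Mathlib

set_option autoImplicit false

namespace Fermat.Agent.ES.V19.IndepLift12

variable {L V k Eb : Type*} [Field L] [AddCommGroup V] [Module L V] [Field k] [AddCommGroup Eb]
  [Module k Eb]

theorem linearIndependent_of_reduction (A : ValuationSubring L) (res : ↥A →+* k)
    (S : AddSubgroup V) (hS : ∀ (a : ↥A) (x : V), x ∈ S → (a : L) • x ∈ S)
    (ρ : ↥S →+ Eb)
    (hρ : ∀ (a : ↥A) (x : ↥S), ρ ⟨(a : L) • (x : V), hS a x x.2⟩ = res a • ρ x)
    {ι : Type*} [Fintype ι] (f : ι → ↥S)
    (hli : LinearIndependent k fun i => ρ (f i)) :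
    LinearIndependent L fun i => ((f i : ↥S) : V) := by
  classical
  rw [Fintype.linearIndependent_iff]
  intro c hc
  by_contra hne
  push Not at hne
  obtain ⟨i₀, hi₀⟩ := hne
  -- a coefficient of maximal absolute value
  obtain ⟨j, -, hj⟩ := Finset.exists_max_image Finset.univ (fun i => A.valuation (c i))
    ⟨i₀, Finset.mem_univ _⟩
  have hcj : c j ≠ 0 := by
    intro h0
    have h1 := hj i₀ (Finset.mem_univ _)
    rw [h0, map_zero] at h1
    exact hi₀ ((map_eq_zero _).mp (le_antisymm h1 zero_le))
  -- the normalised coefficients lie in `A`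
  have hd : ∀ i, c i / c j ∈ A := by
    intro i
    rw [← A.valuation_le_one_iff, map_div₀]
    exact div_le_one_of_le₀ (hj i (Finset.mem_univ _)) zero_le
  let d : ι → ↥A := fun i => ⟨c i / c j, hd i⟩
  -- the normalised relation, inside `S`
  have hrel : ∑ i, ((d i : ↥A) : L) • ((f i : ↥S) : V) = 0 := by
    have : ∑ i, ((d i : ↥A) : L) • ((f i : ↥S) : V) = (c j)⁻¹ • ∑ i, c i • ((f i : ↥S) : V) := by
      rw [Finset.smul_sum]
      refine Finset.sum_congr rfl fun i _ => ?_
      rw [smul_smul]
      congr 1
      show c i / c j = (c j)⁻¹ * c i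
      rw [div_eq_mul_inv, mul_comm]
    rw [this, hc, smul_zero]
  have hrelS : ∑ i, (⟨((d i : ↥A) : L) • ((f i : ↥S) : V), hS (d i) _ (f i).2⟩ : ↥S) = 0 := by
    apply Subtype.ext
    rw [AddSubgroup.val_finsetSum]
    exact hrel
  have hred : ∑ i, res (d i) • ρ (f i) = 0 := by
    have := congrArg ρ hrelS
    rw [map_sum, map_zero] at this
    rw [← this]
    exact Finset.sum_congr rfl fun i _ => (hρ (d i) (f i)).symm
  have hzero := Fintype.linearIndependent_iff.mp hli (fun i => res (d i)) hred j
  have hdj : d j = 1 := Subtype.ext (div_self hcj)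
  rw [hdj, map_one] at hzero
  exact one_ne_zero hzero

end Fermat.Agent.ES.V19.IndepLift12
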