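/-
Programme V (S19), chapter B1 (helper12): **sections of the special fibre lift** — the junction
of `CechIface12` with the abstract core (`CechNakayama12`, `IndepLift12`).

For a number field `K`, `tK : FK M K` and the `A`-spans `M0, M1 n, M01` of the level-`K` charts:
given (I1) `FGProp`, (I2) `KerProp`, (I3) `SurjProp`, (I3') `Reg01Prop`, the inclusions
`M0, M1 n ≤ M01`, a pole divisor `D` of `t = bc tK` on the generic fibre and a pole divisor `Dt` of
`t̃` on the special fibre with the injective half of the twisted Čech comparison,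

  `H1 (m • Dt) = 0  ⟹  l(m • Dt) ≤ l(m • D)`.
-/
import Mathlib
import Fermat.Agent.ES.V19.CechIface12
import Fermat.Agent.ES.V19.CechNakayama12
import Fermat.Agent.ES.V19.IndepLift12
import Fermat.Agent.ES.V19.GenericIncl12
import Fermat.Agent.RR.LSpace

set_option autoImplicit false
set_option synthInstance.maxHeartbeats 400000
set_option linter.unusedSectionVars false
set_option linter.style.haveILetI false

open AlgebraicCurve ModularCurve IntermediateField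

noncomputable section

namespace Fermat.Agent.ES.V19.CechLiftAsm12

open Fermat.Agent.RED.Interface4 Fermat.Agent.RED.DESC.PlaceExtend27
  Fermat.Agent.RED.PUR.ChartGeneric22 Fermat.Agent.ES.RED.ChartIntegralA1
  Fermat.Agent.ES.V19.CechIface12 Fermat.Agent.ES.V19.GenericIncl12 Fermat.Agent.RR.LSpace

variable (A : ValuationSubring Qbar) (M : ℕ) [NeZero M] (ℓ : ℕ) [Fact ℓ.Prime]
  (hA : A.LiesOverPrime ℓ) (hℓM : ¬ ℓ ∣ M)

/-! ### the reduction as an additive map, semilinear along the residue map -/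

/-- `redF` of a constant multiple. -/
theorem redF_smul (a : ↥A) (x : ↥(Fbar M)) (hx : x ∈ intF A M)
    (hax : algebraMap Qbar ↥(Fbar M) (a : Qbar) * x ∈ intF A M) :
    redF A M ℓ hA hℓM ⟨algebraMap Qbar ↥(Fbar M) (a : Qbar) * x, hax⟩ =
      algebraMap (kA A) ↥(modularFunctionFieldFullC (kA A) M) (IsLocalRing.residue ↥A a) *
        redF A M ℓ hA hℓM ⟨x, hx⟩ := by
  have h : (⟨algebraMap Qbar ↥(Fbar M) (a : Qbar) * x, hax⟩ : ↥(intF A M)) =
      ⟨algebraMap Qbar ↥(Fbar M) (a : Qbar), algebraMap_mem_intF A M a⟩ * ⟨x, hx⟩ := rfl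
  rw [h, map_mul, redF_algebraMap]

/-- `intF` as an additive subgroup. -/
def intS : AddSubgroup ↥(Fbar M) := (intF A M).toAddSubgroup

theorem mem_intS {x : ↥(Fbar M)} : x ∈ intS A M ↔ x ∈ intF A M := Iff.rfl

/-- the reduction on `intS`, as an additive map. -/
def rhoS : ↥(intS A M) →+ ↥(modularFunctionFieldFullC (kA A) M) where
  toFun x := redF A M ℓ hA hℓM ⟨x.1, x.2⟩
  map_zero' := map_zero (redF A M ℓ hA hℓM)
  map_add' x y := map_add (redF A M ℓ hA hℓM) ⟨x.1, x.2⟩ ⟨y.1, y.2⟩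

theorem rhoS_apply (x : ↥(intS A M)) : rhoS A M ℓ hA hℓM x = redF A M ℓ hA hℓM ⟨x.1, x.2⟩ := rfl

theorem smul_mem_intS (a : ↥A) (x : ↥(Fbar M)) (hx : x ∈ intS A M) :
    (a : Qbar) • x ∈ intS A M := by
  rw [Algebra.smul_def]
  exact (intF A M).mul_mem (algebraMap_mem_intF A M a) hx

theorem rhoS_smul (a : ↥A) (x : ↥(intS A M)) :
    rhoS A M ℓ hA hℓM ⟨(a : Qbar) • (x : ↥(Fbar M)), smul_mem_intS A M a x x.2⟩ =
      IsLocalRing.residue ↥A a • rhoS A M ℓ hA hℓM x := by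
  have h1 : (a : Qbar) • (x : ↥(Fbar M)) = algebraMap Qbar ↥(Fbar M) (a : Qbar) * (x : ↥(Fbar M)) :=
    Algebra.smul_def _ _
  have h2 : algebraMap Qbar ↥(Fbar M) (a : Qbar) * (x : ↥(Fbar M)) ∈ intF A M :=
    h1 ▸ smul_mem_intS A M a x x.2
  have h3 : rhoS A M ℓ hA hℓM ⟨(a : Qbar) • (x : ↥(Fbar M)), smul_mem_intS A M a x x.2⟩ =
      redF A M ℓ hA hℓM ⟨algebraMap Qbar ↥(Fbar M) (a : Qbar) * (x : ↥(Fbar M)), h2⟩ := by
    show redF A M ℓ hA hℓM ⟨(a : Qbar) • (x : ↥(Fbar M)), _⟩ = _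
    congr 1
  rw [h3, redF_smul A M ℓ hA hℓM a x.1 x.2 h2, Algebra.smul_def]
  rfl

variable (K : IntermediateField ℚ Qbar) (tK : ↥(FK M K))

/-! ### the lifting theorem -/

set_option maxHeartbeats 1600000 in
/-- **Sections of `O(m • D̄∞)` on the special fibre lift to the generic fibre.** -/
theorem finrank_L_le
    (tt : ↥(modularFunctionFieldFullC (kA A) M)) (htK0 : tK ≠ 0) (htt0 : tt ≠ 0)
    (ht : ∃ h : baseChangeHom M K tK ∈ intF A M, redF A M ℓ hA hℓM ⟨_, h⟩ = tt)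
    (hFG : FGProp A M K tK) (h0 : M0 A M K tK ≤ M01 A M K tK)
    (h1 : ∀ m : ℕ, M1 A M K tK m ≤ M01 A M K tK)
    (hKer : KerProp A M K tK ℓ hA hℓM) (hSurj : SurjProp A M K tK ℓ hA hℓM tt)
    (hReg : Reg01Prop A M K tK ℓ hA hℓM tt)
    (HL : LHyp Qbar ↥(Fbar M)) (D : Divisor Qbar ↥(Fbar M))
    (hD : HasPoleDivisor (baseChangeHom M K tK) D)
    (HLt : LHyp (kA A) ↥(modularFunctionFieldFullC (kA A) M))
    (Dt : Divisor (kA A) ↥(modularFunctionFieldFullC (kA A) M))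
    (hDt : HasPoleDivisor tt Dt) (hDtI : CechInj tt Dt)
    (m : ℕ) (hsub : Subsingleton (H1 (m • Dt))) :
    Module.finrank (kA A) (riemannRochSpace (m • Dt)) ≤
      Module.finrank Qbar (riemannRochSpace (m • D)) := by
  classical
  obtain ⟨h01, hker⟩ := hKer
  obtain ⟨htint, htred⟩ := ht
  set t : ↥(Fbar M) := baseChangeHom M K tK with htdef
  -- the reduction on `M01`
  let ρ : ↥(M01 A M K tK) →+ ↥(modularFunctionFieldFullC (kA A) M) :=
    { toFun := fun x => redF A M ℓ hA hℓM ⟨x.1, h01 x.1 x.2⟩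
      map_zero' := map_zero (redF A M ℓ hA hℓM)
      map_add' := fun x y => map_add (redF A M ℓ hA hℓM) ⟨x.1, h01 x.1 x.2⟩ ⟨y.1, h01 y.1 y.2⟩ }
  have hρ : ∀ (x : ↥(Fbar M)) (hx : x ∈ M01 A M K tK),
      ρ ⟨x, hx⟩ = redF A M ℓ hA hℓM ⟨x, h01 x hx⟩ := fun _ _ => rfl
  -- `ρ` kills `𝔪 • M01`
  have hρm : ∀ (c : ↥A) (x : ↥(M01 A M K tK)), c ∈ IsLocalRing.maximalIdeal ↥A →
      ρ (c • x) = 0 := by
    intro c x hc
    have hcx : algebraMap Qbar ↥(Fbar M) (c : Qbar) * (x : ↥(Fbar M)) ∈ intF A M :=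
      h01 _ (c • x).2
    have h2 : ρ (c • x) = redF A M ℓ hA hℓM ⟨_, hcx⟩ := rfl
    rw [h2, redF_smul A M ℓ hA hℓM c x.1 (h01 x.1 x.2) hcx,
      (IsLocalRing.residue_eq_zero_iff c).mpr hc, map_zero, zero_mul]
  have hker' : ∀ x : ↥(M01 A M K tK), ρ x = 0 →
      (x : ↥(Fbar M)) ∈ IsLocalRing.maximalIdeal ↥A • M01 A M K tK :=
    fun x hx => hker x.1 x.2 hx
  -- elements of `M1 m` from `SurjProp.2`
  have hsurj1 : ∀ fb : ↥(modularFunctionFieldFullC (kA A) M), Reg (kA A) tt⁻¹ (fb * tt⁻¹ ^ m) →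
      ∃ (b : ↥(Fbar M)) (hb : b ∈ M1 A M K tK m), ρ ⟨b, h1 m hb⟩ = fb := by
    intro fb hfb
    obtain ⟨b', hb', hb'int, hb'red⟩ := hSurj.2 _ hfb
    have hb : t ^ m * b' ∈ M1 A M K tK m := pow_mul_mem_M1 A M K tK htK0 m hb'
    refine ⟨t ^ m * b', hb, ?_⟩
    rw [hρ]
    have h3 : (⟨t ^ m * b', h01 _ (h1 m hb)⟩ : ↥(intF A M)) = ⟨t, htint⟩ ^ m * ⟨b', hb'int⟩ := rfl
    rw [h3, map_mul, map_pow, htred, hb'red, mul_comm fb, ← mul_assoc, ← mul_pow,
      mul_inv_cancel₀ htt0, one_pow, one_mul]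
  -- `H¹ = 0`
  obtain ⟨G, hGmem, hG⟩ := hFG m
  have hsurj : ∀ x : ↥(M01 A M K tK), ∃ (a : ↥(Fbar M)) (ha : a ∈ M0 A M K tK)
      (b : ↥(Fbar M)) (hb : b ∈ M1 A M K tK m), ρ x = ρ ⟨a, h0 ha⟩ + ρ ⟨b, h1 m hb⟩ := by
    intro x
    obtain ⟨ab, bb, hab, hbb, hsum⟩ := hDtI m hsub _ (hReg x.1 x.2 (h01 x.1 x.2))
    obtain ⟨a, ha, haint, hared⟩ := hSurj.1 ab hab
    obtain ⟨b, hb, hbred⟩ := hsurj1 bb hbb
    refine ⟨a, ha, b, hb, ?_⟩
    rw [hbred, hρ a (h0 ha), hared]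
    exact hsum
  have hle : M01 A M K tK ≤ M0 A M K tK ⊔ M1 A M K tK m :=
    CechNakayama12.le_sup (M0 A M K tK) (M1 A M K tK m) (M01 A M K tK) h0 (h1 m) ρ hker' G hGmem
      hG hsurj
  -- lift a basis of `L(m • Dt)`
  haveI : FiniteDimensional (kA A) (riemannRochSpace (m • Dt)) := finiteDimensional_L HLt _
  haveI : FiniteDimensional Qbar (riemannRochSpace (m • D)) := finiteDimensional_L HL _
  let bs := Module.finBasis (kA A) (riemannRochSpace (m • Dt))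
  have hlift : ∀ i, ∃ (x : ↥(Fbar M)) (hx0 : x ∈ M0 A M K tK) (_ : x ∈ M1 A M K tK m),
      ρ ⟨x, h0 hx0⟩ = ((bs i : riemannRochSpace (m • Dt)) :
        ↥(modularFunctionFieldFullC (kA A) M)) := by
    intro i
    obtain ⟨hr0, hr1⟩ := (hDt.2 m _).mp (bs i).2
    obtain ⟨a, ha, haint, hared⟩ := hSurj.1 _ hr0
    obtain ⟨b, hb, hbred⟩ := hsurj1 _ hr1
    have hab : ρ ⟨a, h0 ha⟩ = ρ ⟨b, h1 m hb⟩ := by rw [hbred, hρ a (h0 ha), hared]
    obtain ⟨x, hx0, hx1, hx⟩ := CechNakayama12.exists_lift (M0 A M K tK) (M1 A M K tK m)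
      (M01 A M K tK) h0 (h1 m) ρ hρm hker' hle a ha b hb hab
    exact ⟨x, hx0, hx1, by rw [hx, hρ a (h0 ha), hared]⟩
  choose x hx0 hx1 hx using hlift
  -- the lifts are independent
  let f : Fin (Module.finrank (kA A) (riemannRochSpace (m • Dt))) → ↥(intS A M) :=
    fun i => ⟨x i, h01 _ (h0 (hx0 i))⟩
  have hli : LinearIndependent (kA A) fun i => rhoS A M ℓ hA hℓM (f i) := by
    have h5 : (fun i => rhoS A M ℓ hA hℓM (f i)) =
        fun i => ((bs i : riemannRochSpace (m • Dt)) :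
          ↥(modularFunctionFieldFullC (kA A) M)) := by
      funext i
      exact hx i
    rw [h5]
    exact bs.linearIndependent.map' (Submodule.subtype _) (Submodule.ker_subtype _)
  have hindep : LinearIndependent Qbar fun i => ((f i : ↥(intS A M)) : ↥(Fbar M)) :=
    IndepLift12.linearIndependent_of_reduction A (IsLocalRing.residue ↥A) (intS A M)
      (smul_mem_intS A M) (rhoS A M ℓ hA hℓM) (rhoS_smul A M ℓ hA hℓM) f hli
  -- they lie in `L(m • D)`
  have hmemL : ∀ i, x i ∈ riemannRochSpace (m • D) := fun i =>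
    mem_L_of_mem_inf A M K tK hD m (hx0 i) (hx1 i)
  let y : Fin (Module.finrank (kA A) (riemannRochSpace (m • Dt))) → riemannRochSpace (m • D) :=
    fun i => ⟨x i, hmemL i⟩
  have hy : LinearIndependent Qbar y := by
    apply LinearIndependent.of_comp (Submodule.subtype (riemannRochSpace (m • D)))
    exact hindep
  have := hy.fintype_card_le_finrank
  simpa using this

end Fermat.Agent.ES.V19.CechLiftAsm12
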