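/-
Programme V (S19), chapter B1 (genus of the special fibre), leaf (β) — helper17.
**Integrality descends along the coefficientwise functionals.**

`k / κ` an algebraic separable extension, `k` algebraically closed, `Φ = coeffMap (algebraMap κ k)
: κ((q)) → k((q))`, `coordMap ℓ : k((q)) →+ κ((q))` the coefficientwise application of a `κ`-linear
functional `ℓ : k → κ` (main, `ES/R48/CoeffIndep22`).  `R₀ ⊂ κ((q))` a `κ`-subalgebra.

* `FinLevel y`            : the series `y ∈ k((q))` has its coefficients in a finite subextension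
                            `κ' / κ` of `k` (`y = coeffMap (κ' → k) y'`);
* `finLevel_of_mem_adjoin` : every element of `k(Φ T)` has finite level;
* `coordMap_eq_sum_embeddings` : `Φ (coordMap ℓ y) = ∑_σ (σ a) · coeffMap σ y'` over the
                            `κ`-embeddings `σ : κ' → k`, where `ℓ|_{κ'} = Tr (a ·)`;
* **`isIntegral_coordMap`** : if `b ∈ k((q))` of finite level is integral over `Φ R₀` then
                            `coordMap ℓ b` is integral over `R₀`;
* `isIntegralElem_of_isIntegral_adjoin`, `isIntegral_coordMap_adjoin` : the same for `b` integral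
                            over `k[Φ t]`, `R₀ = κ[t]`.
-/
import Mathlib
import Fermat.Agent.ES.R48.CoeffIndep22
import Fermat.Agent.RED.DESC.CoeffDescent1

set_option autoImplicit false
set_option linter.unusedSectionVars false
set_option linter.style.haveILetI false

noncomputable section

open HahnSeries IntermediateField ModularCurve Polynomial

namespace Fermat.Agent.ES.V19.CoordIntegral17

open Fermat.Agent.ES.R48.CoeffIndep22 Fermat.Agent.RED.PUR.DegBaseChange25

variable {κ k : Type*} [Field κ] [Field k] [Algebra κ k]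

/-! ### finite level -/

/-- the coefficients of `y` lie in a finite subextension of `k / κ`. -/
def FinLevel (κ : Type*) {k : Type*} [Field κ] [Field k] [Algebra κ k] (y : LaurentSeries k) :
    Prop :=
  ∃ (κ' : IntermediateField κ k) (_ : FiniteDimensional κ ↥κ') (y' : LaurentSeries ↥κ'),
    coeffMap (algebraMap ↥κ' k) y' = y

theorem finLevel_mono {κ₁ κ₂ : IntermediateField κ k} (h : κ₁ ≤ κ₂) (y₁ : LaurentSeries ↥κ₁) :
    ∃ y₂ : LaurentSeries ↥κ₂,
      coeffMap (algebraMap ↥κ₂ k) y₂ = coeffMap (algebraMap ↥κ₁ k) y₁ := by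
  refine ⟨coeffMap ((IntermediateField.inclusion h : ↥κ₁ →ₐ[κ] ↥κ₂) : ↥κ₁ →+* ↥κ₂) y₁, ?_⟩
  rw [coeffMap_coeffMap]
  exact coeffMap_congr (RingHom.ext fun c => rfl) y₁

theorem FinLevel.add {x y : LaurentSeries k} (hx : FinLevel κ x) (hy : FinLevel κ y) :
    FinLevel κ (x + y) := by
  obtain ⟨κ₁, h₁, x', rfl⟩ := hx
  obtain ⟨κ₂, h₂, y', rfl⟩ := hy
  obtain ⟨x'', hx''⟩ := finLevel_mono (le_sup_left : κ₁ ≤ κ₁ ⊔ κ₂) x'
  obtain ⟨y'', hy''⟩ := finLevel_mono (le_sup_right : κ₂ ≤ κ₁ ⊔ κ₂) y'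
  exact ⟨κ₁ ⊔ κ₂, IntermediateField.finiteDimensional_sup κ₁ κ₂, x'' + y'',
    by rw [map_add, hx'', hy'']⟩

theorem FinLevel.mul {x y : LaurentSeries k} (hx : FinLevel κ x) (hy : FinLevel κ y) :
    FinLevel κ (x * y) := by
  obtain ⟨κ₁, h₁, x', rfl⟩ := hx
  obtain ⟨κ₂, h₂, y', rfl⟩ := hy
  obtain ⟨x'', hx''⟩ := finLevel_mono (le_sup_left : κ₁ ≤ κ₁ ⊔ κ₂) x'
  obtain ⟨y'', hy''⟩ := finLevel_mono (le_sup_right : κ₂ ≤ κ₁ ⊔ κ₂) y'
  exact ⟨κ₁ ⊔ κ₂, IntermediateField.finiteDimensional_sup κ₁ κ₂, x'' * y'',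
    by rw [map_mul, hx'', hy'']⟩

theorem FinLevel.neg {x : LaurentSeries k} (hx : FinLevel κ x) : FinLevel κ (-x) := by
  obtain ⟨κ₁, h₁, x', rfl⟩ := hx
  exact ⟨κ₁, h₁, -x', by rw [map_neg]⟩

theorem FinLevel.inv {x : LaurentSeries k} (hx : FinLevel κ x) : FinLevel κ x⁻¹ := by
  obtain ⟨κ₁, h₁, x', rfl⟩ := hx
  exact ⟨κ₁, h₁, x'⁻¹, by rw [map_inv₀]⟩

theorem finLevel_one : FinLevel κ (1 : LaurentSeries k) :=
  ⟨⊥, inferInstance, 1, map_one _⟩

/-- the image of `κ((q))` has level `κ`. -/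
theorem finLevel_coeffMap (y : LaurentSeries κ) :
    FinLevel κ (coeffMap (algebraMap κ k) y) := by
  refine ⟨⊥, inferInstance, coeffMap (algebraMap κ ↥(⊥ : IntermediateField κ k)) y, ?_⟩
  rw [coeffMap_coeffMap]
  exact coeffMap_congr (RingHom.ext fun c => rfl) y

/-- an algebraic constant has finite level. -/
theorem finLevel_algebraMap [Algebra.IsAlgebraic κ k] (c : k) :
    FinLevel κ (algebraMap k (LaurentSeries k) c) := by
  have hc : IsIntegral κ c := (Algebra.IsAlgebraic.isAlgebraic (R := κ) c).isIntegral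
  refine ⟨κ⟮c⟯, IntermediateField.adjoin.finiteDimensional hc,
    algebraMap ↥κ⟮c⟯ (LaurentSeries ↥κ⟮c⟯) ⟨c, mem_adjoin_simple_self κ c⟩, ?_⟩
  rw [coeffMap_algebraMap']
  rfl

/-- **every element of `k(Φ T)` has finite level.** -/
theorem finLevel_of_mem_adjoin [Algebra.IsAlgebraic κ k] (T : Set (LaurentSeries κ))
    {α : LaurentSeries k} (hα : α ∈ adjoin k (coeffMap (algebraMap κ k) '' T)) :
    FinLevel κ α := by
  have hα' : α ∈ Subfield.closure (Set.range (algebraMap k (LaurentSeries k)) ∪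
      coeffMap (algebraMap κ k) '' T) := hα
  clear hα
  induction hα' using Subfield.closure_induction with
  | mem x hx =>
      rcases hx with ⟨c, rfl⟩ | ⟨t, -, rfl⟩
      · exact finLevel_algebraMap c
      · exact finLevel_coeffMap t
  | one => exact finLevel_one
  | add x y _ _ hx hy => exact hx.add hy
  | neg x _ hx => exact hx.neg
  | inv x _ hx => exact hx.inv
  | mul x y _ _ hx hy => exact hx.mul hy

/-! ### the trace identity -/

section Trace

variable [IsAlgClosed k] [Algebra.IsSeparable κ k]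

/-- the coefficient of `c · y`. -/
theorem coeff_algebraMap_mul (c : k) (y : LaurentSeries k) (n : ℤ) :
    (algebraMap k (LaurentSeries k) c * y).coeff n = c * y.coeff n := by
  rw [algebraMap_laurentSeries_eq_single, HahnSeries.coeff_single_zero_mul]

/-- **the trace identity**: on a finite subextension `κ'`, `ℓ = Tr (a ·)`, and
`Φ (coordMap ℓ y) = ∑_σ σ(a) · σ(y')`. -/
theorem coordMap_eq_sum_embeddings (κ' : IntermediateField κ k) [FiniteDimensional κ ↥κ']
    (ℓ : k →ₗ[κ] κ) :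
    ∃ a : ↥κ', ∀ y' : LaurentSeries ↥κ',
      coeffMap (algebraMap κ k) (coordMap ℓ (coeffMap (algebraMap ↥κ' k) y')) =
        ∑ σ : ↥κ' →ₐ[κ] k, algebraMap k (LaurentSeries k) (σ a) *
          coeffMap (σ : ↥κ' →+* k) y' := by
  haveI : Algebra.IsSeparable κ ↥κ' := Algebra.isSeparable_tower_bot_of_isSeparable κ ↥κ' k
  set ℓ' : ↥κ' →ₗ[κ] κ := ℓ.comp κ'.val.toLinearMap with hℓ'
  have hB := traceForm_nondegenerate κ ↥κ'
  set a : ↥κ' := ((Algebra.traceForm κ ↥κ').toDual hB).symm ℓ' with ha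
  have hal : ∀ c : ↥κ', ℓ (c : k) = Algebra.trace κ ↥κ' (a * c) := by
    intro c
    have h1 := LinearMap.BilinForm.apply_toDual_symm_apply (B := Algebra.traceForm κ ↥κ')
      (hB := hB) ℓ' c
    rw [← ha, Algebra.traceForm_apply] at h1
    rw [h1]
    rfl
  refine ⟨a, fun y' => ?_⟩
  ext n
  rw [coeffMap_coeff, coordMap_coeff, coeffMap_coeff]
  have h2 : algebraMap ↥κ' k (y'.coeff n) = ((y'.coeff n : ↥κ') : k) := rfl
  rw [h2, hal, trace_eq_sum_embeddings k]
  have h3 : (∑ σ : ↥κ' →ₐ[κ] k, algebraMap k (LaurentSeries k) (σ a) *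
      coeffMap (σ : ↥κ' →+* k) y').coeff n =
      ∑ σ : ↥κ' →ₐ[κ] k, (algebraMap k (LaurentSeries k) (σ a) *
        coeffMap (σ : ↥κ' →+* k) y').coeff n :=
    map_sum (HahnSeries.coeff.addMonoidHom n) _ _
  rw [h3]
  refine Finset.sum_congr rfl fun σ _ => ?_
  rw [coeff_algebraMap_mul, coeffMap_coeff, map_mul]
  rfl

end Trace

/-! ### integrality -/

section Integral

variable [IsAlgClosed k] [Algebra.IsSeparable κ k]

variable (R₀ : Subalgebra κ (LaurentSeries κ))

/-- the structure map `R₀ → k((q))`. -/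
def f₀ : ↥R₀ →+* LaurentSeries k :=
  (coeffMap (algebraMap κ k)).comp (algebraMap ↥R₀ (LaurentSeries κ))

theorem f₀_apply (r : ↥R₀) : f₀ (k := k) R₀ r = coeffMap (algebraMap κ k) (r : LaurentSeries κ) :=
  rfl

/-- constants are integral over `Φ R₀`. -/
theorem isIntegralElem_algebraMap (c : k) :
    (f₀ (k := k) R₀).IsIntegralElem (algebraMap k (LaurentSeries k) c) := by
  obtain ⟨p, hp, hpc⟩ := Algebra.IsIntegral.isIntegral (R := κ) c
  refine ⟨p.map (algebraMap κ ↥R₀), hp.map _, ?_⟩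
  rw [Polynomial.eval₂_map]
  have hcomp : (f₀ (k := k) R₀).comp (algebraMap κ ↥R₀) =
      (algebraMap k (LaurentSeries k)).comp (algebraMap κ k) := by
    ext r : 1
    show coeffMap (algebraMap κ k) (algebraMap κ (LaurentSeries κ) r) = _
    rw [coeffMap_algebraMap']
    rfl
  rw [hcomp, ← Polynomial.hom_eval₂, hpc, map_zero]

/-- the conjugates of a root of `Φ P₀` are roots of `Φ P₀`. -/
theorem isIntegralElem_conj (κ' : IntermediateField κ k) (σ : ↥κ' →ₐ[κ] k)
    {b' : LaurentSeries ↥κ'}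
    (hb : (f₀ (k := k) R₀).IsIntegralElem (coeffMap (algebraMap ↥κ' k) b')) :
    (f₀ (k := k) R₀).IsIntegralElem (coeffMap (σ : ↥κ' →+* k) b') := by
  obtain ⟨P₀, hmonic, hP⟩ := hb
  set f₀' : ↥R₀ →+* LaurentSeries ↥κ' :=
    (coeffMap (algebraMap κ ↥κ')).comp (algebraMap ↥R₀ (LaurentSeries κ)) with hf₀'
  have hc1 : (coeffMap (algebraMap ↥κ' k)).comp f₀' = f₀ (k := k) R₀ := by
    ext r : 1
    show coeffMap (algebraMap ↥κ' k) (coeffMap (algebraMap κ ↥κ') (r : LaurentSeries κ)) = _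
    rw [coeffMap_coeffMap]
    exact coeffMap_congr (RingHom.ext fun c => rfl) _
  have hc2 : (coeffMap (σ : ↥κ' →+* k)).comp f₀' = f₀ (k := k) R₀ := by
    ext r : 1
    show coeffMap (σ : ↥κ' →+* k) (coeffMap (algebraMap κ ↥κ') (r : LaurentSeries κ)) = _
    rw [coeffMap_coeffMap]
    exact coeffMap_congr (RingHom.ext fun c => σ.commutes c) _
  have h1 : Polynomial.eval₂ f₀' b' P₀ = 0 := by
    apply Fermat.Agent.RED.DESC.CoeffDescent1.coeffMap_injective_of_injective (algebraMap ↥κ' k)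
      (algebraMap ↥κ' k).injective
    rw [Polynomial.hom_eval₂, hc1, map_zero]
    exact hP
  refine ⟨P₀, hmonic, ?_⟩
  have h2 := congrArg (coeffMap (σ : ↥κ' →+* k)) h1
  rw [Polynomial.hom_eval₂, hc2, map_zero] at h2
  exact h2

/-- **(INT)** integrality descends along `coordMap ℓ`. -/
theorem isIntegral_coordMap (ℓ : k →ₗ[κ] κ) {b : LaurentSeries k}
    (hb : (f₀ (k := k) R₀).IsIntegralElem b) (hfin : FinLevel κ b) :
    IsIntegral ↥R₀ (coordMap ℓ b) := by
  classical
  obtain ⟨κ', hfd, b', rfl⟩ := hfin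
  obtain ⟨a, ha⟩ := coordMap_eq_sum_embeddings κ' ℓ
  have hsum : (f₀ (k := k) R₀).IsIntegralElem
      (coeffMap (algebraMap κ k) (coordMap ℓ (coeffMap (algebraMap ↥κ' k) b'))) := by
    rw [ha b']
    refine Finset.sum_induction _ (fun z => (f₀ (k := k) R₀).IsIntegralElem z)
      (fun x y hx hy => RingHom.IsIntegralElem.add _ hx hy) (RingHom.isIntegralElem_zero _)
      (fun σ _ => ?_)
    exact RingHom.IsIntegralElem.mul _ (isIntegralElem_algebraMap R₀ (σ a))
      (isIntegralElem_conj R₀ κ' σ hb)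
  obtain ⟨Q, hQm, hQ⟩ := hsum
  refine ⟨Q, hQm, ?_⟩
  apply Fermat.Agent.RED.DESC.CoeffDescent1.coeffMap_injective_of_injective (algebraMap κ k)
    (algebraMap κ k).injective
  rw [Polynomial.hom_eval₂, map_zero]
  exact hQ

end Integral

/-! ### the case `R₀ = κ[t]` -/

section Adjoin

variable [IsAlgClosed k] [Algebra.IsSeparable κ k]

/-- an element integral over `k[Φ t]` is integral over `Φ (κ[t])`. -/
theorem isIntegralElem_of_isIntegral_adjoin (t : LaurentSeries κ) {b : LaurentSeries k}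
    (hb : IsIntegral ↥(Algebra.adjoin k {coeffMap (algebraMap κ k) t}) b) :
    (f₀ (k := k) (Algebra.adjoin κ {t})).IsIntegralElem b := by
  set R₀ : Subalgebra κ (LaurentSeries κ) := Algebra.adjoin κ {t} with hR₀
  letI : Algebra ↥R₀ (LaurentSeries k) := (f₀ (k := k) R₀).toAlgebra
  -- `k[Φ t]` lies in the integral closure
  have hle : ∀ z ∈ Algebra.adjoin k {coeffMap (algebraMap κ k) t},
      z ∈ integralClosure ↥R₀ (LaurentSeries k) := by
    intro z hz
    induction hz using Algebra.adjoin_induction with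
    | mem z hz =>
        rw [Set.mem_singleton_iff] at hz
        subst hz
        have h1 : (f₀ (k := k) R₀).IsIntegralElem
            (f₀ (k := k) R₀ ⟨t, Algebra.self_mem_adjoin_singleton κ t⟩) :=
          RingHom.isIntegralElem_map _
        exact h1
    | algebraMap c => exact isIntegralElem_algebraMap R₀ c
    | add z w _ _ hz hw => exact add_mem hz hw
    | mul z w _ _ hz hw => exact mul_mem hz hw
  let φ : ↥(Algebra.adjoin k {coeffMap (algebraMap κ k) t}) →+*
      ↥(integralClosure ↥R₀ (LaurentSeries k)) :=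
    { toFun := fun z => ⟨z, hle z z.2⟩
      map_one' := rfl
      map_mul' := fun _ _ => rfl
      map_zero' := rfl
      map_add' := fun _ _ => rfl }
  have h2 : IsIntegral ↥(integralClosure ↥R₀ (LaurentSeries k)) b := by
    have := IsIntegral.map_of_comp_eq (T := ↥(integralClosure ↥R₀ (LaurentSeries k)))
      (U := LaurentSeries k) φ (RingHom.id (LaurentSeries k)) (by ext; rfl) hb
    simpa using this
  have h3 : IsIntegral ↥R₀ b := isIntegral_trans b h2
  exact h3

/-- **(INT)** for `b ∈ k(Φ T)` integral over `k[Φ t]`. -/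
theorem isIntegral_coordMap_adjoin (T : Set (LaurentSeries κ)) (t : LaurentSeries κ)
    (ℓ : k →ₗ[κ] κ) {b : LaurentSeries k}
    (hbT : b ∈ adjoin k (coeffMap (algebraMap κ k) '' T))
    (hb : IsIntegral ↥(Algebra.adjoin k {coeffMap (algebraMap κ k) t}) b) :
    IsIntegral ↥(Algebra.adjoin κ {t}) (coordMap ℓ b) :=
  isIntegral_coordMap (Algebra.adjoin κ {t}) ℓ (isIntegralElem_of_isIntegral_adjoin t hb)
    (finLevel_of_mem_adjoin T hbT)

end Adjoin

end Fermat.Agent.ES.V19.CoordIntegral17
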