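/-
Programme V (S19), chapter B1 (genus of the special fibre), leaf (β) — helper17.
**Čech classes over `κ` stay independent over an algebraic closure `k`** (series form).

`k / κ` algebraic separable, `k` algebraically closed, `Φ = coeffMap (algebraMap κ k)`,
`T ⊂ κ((q))` (generators of the function field `κ(T)`), `t ∈ κ((q))` the coordinate.
`D₀, D₁ ⊂ κ((q))` additive subgroups containing the elements of `κ(T)` integral over `κ[t]`,
resp. `κ[t⁻¹]` (the two chart rings of the special fibre over `κ`).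

* `coordMap_smul_coeffMap` : `coordMap ℓ (c · Φ x) = ℓ c · x`;
* **`cech_indep`** : if `x₁, …, x_m ∈ κ((q))` are `κ`-linearly independent modulo `D₀ + D₁`, then
  `Φ x₁, …, Φ x_m` are `k`-linearly independent modulo `B̃₀ + B̃₁`, where `B̃₀` (resp. `B̃₁`) is the set
  of the elements of `k(Φ T)` integral over `k[Φ t]` (resp. `k[(Φ t)⁻¹]`);
* `exists_sum_coordMap` : a series of finite level is `∑ ω_j · Φ (coordMap ℓ_j y)`;
* **`exists_sum_integral`** (span form): every `y ∈ k(Φ T)` integral over `k[Φ t]` is a finite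
  `k`-combination `∑ ω_j · Φ d_j` with `d_j ∈ κ(T)` integral over `κ[t]`
  (the integral closure of `k[Φ t]` in `k(Φ T)` is `k ·` the integral closure of `κ[t]` in `κ(T)`).
-/
import Mathlib
import Fermat.Agent.ES.V19.CoordIntegral17

set_option autoImplicit false
set_option linter.unusedSectionVars false

noncomputable section

open HahnSeries IntermediateField ModularCurve Polynomial

namespace Fermat.Agent.ES.V19.CechSpecial17

open Fermat.Agent.ES.R48.CoeffIndep22 Fermat.Agent.ES.V19.CoordIntegral17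

variable {κ k : Type*} [Field κ] [Field k] [Algebra κ k]

/-- `coordMap ℓ (c · Φ x) = ℓ c · x`. -/
theorem coordMap_smul_coeffMap (ℓ : k →ₗ[κ] κ) (c : k) (x : LaurentSeries κ) :
    coordMap ℓ (algebraMap k (LaurentSeries k) c * coeffMap (algebraMap κ k) x) =
      algebraMap κ (LaurentSeries κ) (ℓ c) * x := by
  rw [coordMap_mul_coeffMap, coordMap_algebraMap]

variable [IsAlgClosed k] [Algebra.IsSeparable κ k]

/-- **(β), series form.** -/
theorem cech_indep (T : Set (LaurentSeries κ)) (t : LaurentSeries κ)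
    (D₀ D₁ : AddSubgroup (LaurentSeries κ))
    (hD₀ : ∀ y ∈ adjoin κ T, IsIntegral ↥(Algebra.adjoin κ {t}) y → y ∈ D₀)
    (hD₁ : ∀ y ∈ adjoin κ T, IsIntegral ↥(Algebra.adjoin κ {t⁻¹}) y → y ∈ D₁)
    {m : ℕ} (x : Fin m → LaurentSeries κ)
    (hind : ∀ c : Fin m → κ,
      (∃ d₀ ∈ D₀, ∃ d₁ ∈ D₁, ∑ i, algebraMap κ (LaurentSeries κ) (c i) * x i = d₀ + d₁) →
        ∀ i, c i = 0)
    (c : Fin m → k)
    (hc : ∃ y₀ y₁ : LaurentSeries k,
      y₀ ∈ adjoin k (coeffMap (algebraMap κ k) '' T) ∧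
      IsIntegral ↥(Algebra.adjoin k {coeffMap (algebraMap κ k) t}) y₀ ∧
      y₁ ∈ adjoin k (coeffMap (algebraMap κ k) '' T) ∧
      IsIntegral ↥(Algebra.adjoin k {(coeffMap (algebraMap κ k) t)⁻¹}) y₁ ∧
      ∑ i, algebraMap k (LaurentSeries k) (c i) * coeffMap (algebraMap κ k) (x i) = y₀ + y₁) :
    ∀ i, c i = 0 := by
  obtain ⟨y₀, y₁, hy₀T, hy₀, hy₁T, hy₁, hsum⟩ := hc
  intro i
  refine (Module.forall_dual_apply_eq_zero_iff κ (c i)).mp fun ℓ => ?_
  refine hind (fun j => ℓ (c j)) ⟨coordMap ℓ y₀, ?_, coordMap ℓ y₁, ?_, ?_⟩ i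
  · exact hD₀ _ (coordMap_mem_adjoin T ℓ hy₀T) (isIntegral_coordMap_adjoin T t ℓ hy₀T hy₀)
  · refine hD₁ _ (coordMap_mem_adjoin T ℓ hy₁T) (isIntegral_coordMap_adjoin T t⁻¹ ℓ hy₁T ?_)
    rw [map_inv₀]
    exact hy₁
  · have h1 := congrArg (coordMap ℓ) hsum
    rw [map_sum, map_add] at h1
    rw [← h1]
    refine Finset.sum_congr rfl fun j _ => ?_
    rw [coordMap_smul_coeffMap]

/-! ### the span form -/

/-- a series of finite level is the finite sum `∑ ω_j · Φ (coordMap ℓ_j y)`. -/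
theorem exists_sum_coordMap {y : LaurentSeries k} (hy : FinLevel κ y) :
    ∃ (n : ℕ) (ω : Fin n → k) (ℓ : Fin n → (k →ₗ[κ] κ)),
      y = ∑ j, algebraMap k (LaurentSeries k) (ω j) *
        coeffMap (algebraMap κ k) (coordMap (ℓ j) y) := by
  classical
  obtain ⟨κ', hfd, y', rfl⟩ := hy
  obtain ⟨ρ, hρ⟩ := LinearMap.exists_leftInverse_of_injective κ'.val.toLinearMap
    (LinearMap.ker_eq_bot.mpr κ'.val.injective)
  set b := Module.finBasis κ ↥κ' with hb
  refine ⟨Module.finrank κ ↥κ', fun j => ((b j : ↥κ') : k), fun j => (b.coord j).comp ρ, ?_⟩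
  ext n
  have h3 : (∑ j, algebraMap k (LaurentSeries k) ((b j : ↥κ') : k) *
      coeffMap (algebraMap κ k)
        (coordMap ((b.coord j).comp ρ) (coeffMap (algebraMap ↥κ' k) y'))).coeff n =
      ∑ j, (algebraMap k (LaurentSeries k) ((b j : ↥κ') : k) *
        coeffMap (algebraMap κ k)
          (coordMap ((b.coord j).comp ρ) (coeffMap (algebraMap ↥κ' k) y'))).coeff n :=
    map_sum (HahnSeries.coeff.addMonoidHom n) _ _
  rw [h3, coeffMap_coeff]
  have h4 : ∀ c : ↥κ', ρ (algebraMap ↥κ' k c) = c := fun c => by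
    have := congrArg (fun f : ↥κ' →ₗ[κ] ↥κ' => f c) hρ
    exact this
  have h5 : (y'.coeff n : ↥κ') = ∑ j, (b.coord j (y'.coeff n)) • b j := by
    conv_lhs => rw [← b.sum_repr (y'.coeff n)]
    rfl
  have h6 := congrArg (algebraMap ↥κ' k) h5
  rw [map_sum] at h6
  rw [h6]
  refine Finset.sum_congr rfl fun j _ => ?_
  rw [coeff_algebraMap_mul, coeffMap_coeff, coordMap_coeff, coeffMap_coeff, LinearMap.comp_apply,
    h4, Algebra.smul_def, map_mul, mul_comm]
  rfl

/-- **(β), span form**: every element of `k(Φ T)` integral over `k[Φ t]` is a finite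
`k`-combination of `Φ d`, `d ∈ κ(T)` integral over `κ[t]`. -/
theorem exists_sum_integral (T : Set (LaurentSeries κ)) (t : LaurentSeries κ)
    {y : LaurentSeries k} (hyT : y ∈ adjoin k (coeffMap (algebraMap κ k) '' T))
    (hy : IsIntegral ↥(Algebra.adjoin k {coeffMap (algebraMap κ k) t}) y) :
    ∃ (n : ℕ) (ω : Fin n → k) (d : Fin n → LaurentSeries κ),
      (∀ j, d j ∈ adjoin κ T) ∧ (∀ j, IsIntegral ↥(Algebra.adjoin κ {t}) (d j)) ∧
      y = ∑ j, algebraMap k (LaurentSeries k) (ω j) * coeffMap (algebraMap κ k) (d j) := by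
  obtain ⟨n, ω, ℓ, h⟩ := exists_sum_coordMap (κ := κ) (finLevel_of_mem_adjoin T hyT)
  exact ⟨n, ω, fun j => coordMap (ℓ j) y, fun j => coordMap_mem_adjoin T (ℓ j) hyT,
    fun j => isIntegral_coordMap_adjoin T t (ℓ j) hyT hy, h⟩

end Fermat.Agent.ES.V19.CechSpecial17
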