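/-
Programme V (S19), chapter B1 (ruling 5, helper12's route), helper13: **the two curve-theory leaves
of `CechIface12`, PART 1**, for an arbitrary function field `F / K` with `RR.LSpace.LHyp K F`:

* dictionary `Reg K t f ↔ f ∈ B0 K t`, `Reg K t⁻¹ f ↔ f ∈ B1 K t`, `Reg01 K t f ↔ f ∈ B01 K t`
  (`CechRep13`), hence with `CechInt13`: `reg_of_isIntegral` (always) and `isIntegral_of_reg` /
  `reg_iff_isIntegral` (Dedekind hypothesis; instances in characteristic `0` and in the separable
  case);
* `hasPoleDivisor_poleDiv` : `CechIface12.HasPoleDivisor t (Riemann.poleDiv HL ht0)` from the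
  fundamental identity `∑_{poles} -ord t = [F : K(t)]` (finsum form of `FF.sum_ord_poles` /
  `SumOrdSep15.sum_ord_poles_sep`);
* `cechInj_poleDiv` : `CechIface12.CechInj t (Riemann.poleDiv HL ht0)` (injective half of
  "twisted Čech = repartitions"; no `hR`, no transcendence);
* `exists_poleDivisor`, and the two instances `exists_poleDivisor_char0`, `exists_poleDivisor_sep`.
-/
import Mathlib
import Fermat.Agent.ES.V19.CechIface12
import Fermat.Agent.ES.V19.CechRep13
import Fermat.Agent.ES.V19.CechInt13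

set_option autoImplicit false
set_option linter.unusedSectionVars false

open AlgebraicCurve IntermediateField

noncomputable section

namespace Fermat.Agent.ES.V19.CechTw13

open Fermat.Agent.X0.FF Fermat.Agent.RR Fermat.Agent.RR.LSpace
  Fermat.Agent.ES.V19.CechIface12 Fermat.Agent.ES.V19.CechRep13 Fermat.Agent.ES.V19.CechInt13

variable {K F : Type*} [Field K] [Field F] [Algebra K F] {t : F}

/-! ### The dictionary with `CechRep13` -/

theorem reg_iff_mem_B0 {f : F} : Reg K t f ↔ f ∈ B0 K t :=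
  forall_congr' fun P => imp_congr_left (ffp_mem_iff_ord_nonneg P)

theorem reg_inv_iff_mem_B1 {f : F} : Reg K t⁻¹ f ↔ f ∈ B1 K t := by
  rw [B1_eq_B0_inv]
  exact reg_iff_mem_B0

theorem reg01_iff_mem_B01 {f : F} : Reg01 K t f ↔ f ∈ B01 K t := by
  refine forall_congr' fun P => ?_
  rw [ffp_mem_iff_ord_nonneg, ffp_mem_iff_ord_nonneg, P.ord_inv]
  constructor
  · intro h hP
    exact h hP.ge (by omega)
  · intro h h1 h2
    exact h (by omega)

/-- an element integral over `K[t]` is regular wherever `t` is. -/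
theorem reg_of_isIntegral {f : F} (hf : IsIntegral (Algebra.adjoin K {t}) f) : Reg K t f :=
  reg_iff_mem_B0.2 (isIntegral_mem_B0 hf)

/-- the converse under the Dedekind hypothesis. -/
theorem isIntegral_of_reg (hD : IsDedekindDomain (intRing K t))
    (hFr : IsFractionRing (intRing K t) F) {f : F} (hf : Reg K t f) :
    IsIntegral (Algebra.adjoin K {t}) f :=
  isIntegral_of_mem_B0 hD hFr (reg_iff_mem_B0.1 hf)

theorem reg_iff_isIntegral (hD : IsDedekindDomain (intRing K t))
    (hFr : IsFractionRing (intRing K t) F) {f : F} :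
    Reg K t f ↔ IsIntegral (Algebra.adjoin K {t}) f :=
  ⟨isIntegral_of_reg hD hFr, reg_of_isIntegral⟩

theorem reg_iff_isIntegral_char0 [CharZero K] (hx : IsGen K t) {f : F} :
    Reg K t f ↔ IsIntegral (Algebra.adjoin K {t}) f :=
  reg_iff_isIntegral (isDedekindDomain_intRing hx) (isFractionRing_intRing hx)

theorem reg_iff_isIntegral_sep (hx : IsGen K t) [Algebra.IsSeparable K⟮t⟯ F] {f : F} :
    Reg K t f ↔ IsIntegral (Algebra.adjoin K {t}) f :=
  reg_iff_isIntegral (Fermat.Agent.ES.RED.SumOrdSep15.isDedekindDomain_intRing_sep hx)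
    (isFractionRing_intRing hx)

/-- `Reg01 K t f ↔ ∃ n, Reg K t (t ^ n * f)` (finitely many zeros of `t`). -/
theorem reg01_iff_exists_pow_mul (ht : t ≠ 0) (hfin : {P : Place K F | 0 < P.ord t}.Finite)
    {f : F} : Reg01 K t f ↔ ∃ n : ℕ, Reg K t (t ^ n * f) := by
  rw [reg01_iff_mem_B01, mem_B01_iff_exists_pow_mul ht hfin]
  exact exists_congr fun n => reg_iff_mem_B0.symm

/-! ### The pole divisor -/

section PoleDiv

variable (HL : LHyp K F)

/-- `L(n • (t)_∞) = B̃₀(t) ∩ tⁿ·B̃₀(t⁻¹)`. -/
theorem mem_L_nsmul_poleDiv_iff (ht0 : t ≠ 0) (n : ℕ) (f : F) :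
    f ∈ riemannRochSpace (n • Riemann.poleDiv HL ht0) ↔
      Reg K t f ∧ Reg K t⁻¹ (f * t⁻¹ ^ n) := by
  rcases eq_or_ne f 0 with rfl | hf
  · refine ⟨fun _ => ⟨fun P _ => zero_mem _, fun P _ => by rw [zero_mul]; exact zero_mem _⟩,
      fun _ => zero_mem _⟩
  have hti : t⁻¹ ^ n ≠ 0 := pow_ne_zero n (inv_ne_zero ht0)
  have hordn : ∀ P : Place K F, P.ord (f * t⁻¹ ^ n) = P.ord f - n * P.ord t := fun P => by
    rw [P.ord_mul hf hti, ← zpow_natCast, P.ord_zpow, P.ord_inv]
    ring
  rw [mem_L_iff hf]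
  constructor
  · intro h
    refine ⟨fun P hP => ?_, fun P hP => ?_⟩
    · have hP' := ffp_ord_nonneg_of_mem P hP
      have h1 := h P
      rw [Finsupp.smul_apply, Riemann.poleDiv_apply, max_eq_left (by omega), smul_zero,
        neg_zero] at h1
      exact ffp_mem_of_ord_nonneg P h1
    · have hP' := ffp_ord_nonneg_of_mem P hP
      rw [P.ord_inv] at hP'
      have h1 := h P
      rw [Finsupp.smul_apply, Riemann.poleDiv_apply, max_eq_right (by omega), nsmul_eq_mul] at h1
      apply ffp_mem_of_ord_nonneg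
      rw [hordn]
      linarith
  · rintro ⟨h0, h1⟩ P
    rw [Finsupp.smul_apply, Riemann.poleDiv_apply, nsmul_eq_mul]
    rcases le_or_gt 0 (P.ord t) with hP | hP
    · rw [max_eq_left (by omega), mul_zero, neg_zero]
      exact ffp_ord_nonneg_of_mem P (h0 P (ffp_mem_of_ord_nonneg P hP))
    · rw [max_eq_right (by omega)]
      have h2 := ffp_ord_nonneg_of_mem P
        (h1 P (ffp_mem_of_ord_nonneg P (by rw [P.ord_inv]; omega)))
      rw [hordn] at h2
      linarith

/-- **`(t)_∞` is a pole divisor of `t`** in the sense of `CechIface12`, given the fundamental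
identity. -/
theorem hasPoleDivisor_poleDiv (ht0 : t ≠ 0)
    (hpoles : ∑ᶠ (v : Place K F) (_ : v.ord t < 0), -v.ord t = (Module.finrank K⟮t⟯ F : ℤ)) :
    HasPoleDivisor t (Riemann.poleDiv HL ht0) :=
  ⟨by rw [Riemann.degree_poleDiv_eq_finsum, hpoles], mem_L_nsmul_poleDiv_iff HL ht0⟩

/-- **the injective half of "twisted Čech = repartitions"**. -/
theorem cechInj_poleDiv (ht0 : t ≠ 0) : CechInj t (Riemann.poleDiv HL ht0) := by
  intro n hsub f hf
  have htop : repartitionsOf (n • Riemann.poleDiv HL ht0) ⊔ principalRepartitions K F = ⊤ :=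
    Submodule.Quotient.subsingleton_iff.mp hsub
  obtain ⟨β, hβ, b, hb, hβb⟩ :=
    Submodule.mem_sup.1 (htop ▸ Submodule.mem_top : poleRep HL t f ∈ _)
  obtain ⟨h, rfl⟩ := exists_dg_of_mem_principal hb
  have hval : ∀ P : Place K F,
      (β : Place K F → F) P + h = (poleRep HL t f : Place K F → F) P :=
    fun P => congrArg (fun α : ↥(repartitions K F) => (α : Place K F → F) P) hβb
  -- `h` is regular away from the poles of `t`
  have hh : Reg K t h := by
    intro P hP
    have hP' := ffp_ord_nonneg_of_mem P hP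
    have h1 := hval P
    rw [poleRep_apply_of_not_lt HL t f (by omega)] at h1
    have h2 : h = -(β : Place K F → F) P := by rw [eq_neg_iff_add_eq_zero, add_comm]; exact h1
    rw [h2]
    refine neg_mem (mem_of_mem_repartitionsOf hβ ?_)
    rw [Finsupp.smul_apply, Riemann.poleDiv_apply, max_eq_left (by omega), smul_zero]
  refine ⟨h, f - h, hh, ?_, by ring⟩
  intro P hP
  have hP' := ffp_ord_nonneg_of_mem P hP
  rw [P.ord_inv] at hP'
  have hti : t⁻¹ ^ n ≠ 0 := pow_ne_zero n (inv_ne_zero ht0)
  rcases (show P.ord t ≤ 0 by omega).lt_or_eq with hlt | heq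
  · -- a pole of `t`: `f - h = β P`
    have h1 := hval P
    rw [poleRep_apply_of_lt HL t f hlt] at h1
    rw [← h1, add_sub_cancel_right]
    rcases eq_or_ne ((β : Place K F → F) P) 0 with h0 | h0
    · rw [h0, zero_mul]; exact zero_mem _
    · have h2 := (mem_repartitionsOf_iff.1 hβ P).resolve_left h0
      rw [Finsupp.smul_apply, Riemann.poleDiv_apply, max_eq_right (by omega), nsmul_eq_mul] at h2
      apply ffp_mem_of_ord_nonneg
      rw [P.ord_mul h0 hti, ← zpow_natCast, P.ord_zpow, P.ord_inv]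
      linarith
  · -- a unit: everything is regular
    have hf' : f ∈ P.toValuationSubring :=
      hf P (ffp_mem_of_ord_nonneg P heq.ge) (ffp_mem_of_ord_nonneg P (by rw [P.ord_inv]; omega))
    have hh' : h ∈ P.toValuationSubring := hh P (ffp_mem_of_ord_nonneg P heq.ge)
    exact mul_mem (sub_mem hf' hh') (pow_mem hP n)

include HL in
/-- **the curve-theory input of B1**: a pole divisor of `t` with the injective half of the
twisted Čech comparison. -/
theorem exists_poleDivisor (ht0 : t ≠ 0)
    (hpoles : ∑ᶠ (v : Place K F) (_ : v.ord t < 0), -v.ord t = (Module.finrank K⟮t⟯ F : ℤ)) :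
    ∃ D : Divisor K F, HasPoleDivisor t D ∧ CechInj t D :=
  ⟨Riemann.poleDiv HL ht0, hasPoleDivisor_poleDiv HL ht0 hpoles, cechInj_poleDiv HL ht0⟩

include HL in
/-- characteristic `0`, algebraically closed constants. -/
theorem exists_poleDivisor_char0 [IsAlgClosed K] [CharZero K] (hx : IsGen K t) :
    ∃ D : Divisor K F, HasPoleDivisor t D ∧ CechInj t D :=
  exists_poleDivisor HL hx.ne_zero (sum_ord_poles hx)

include HL in
/-- `F / K(t)` separable, algebraically closed constants. -/
theorem exists_poleDivisor_sep [IsAlgClosed K] (hx : IsGen K t) [Algebra.IsSeparable K⟮t⟯ F] :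
    ∃ D : Divisor K F, HasPoleDivisor t D ∧ CechInj t D :=
  exists_poleDivisor HL hx.ne_zero (Fermat.Agent.ES.RED.SumOrdSep15.sum_ord_poles_sep hx)

end PoleDiv

end Fermat.Agent.ES.V19.CechTw13
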