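/-
Programme V (S19 by hand, route `S19_ROUTE23.md`), chapter (B6), helper11:
**`XiData` is monotone in the level**: a chart rational over `(R, G)` is rational over every larger
base ring `R'` and smaller group `G'`, provided every nonzero element of `R'` divides (in `A`) a
nonzero element of `R`.

* `aeval_map_eq`, `XiData.mono` : abstract form;
* `xiData_mono_subgroup` : for `Γ' ≤ Γ ≤ Gal(ℚ̄/ℚ)`, `R = fixRing A Γ`, `R' = fixRing A Γ'`
  (the divisibility is `FixRingDVR16.exists_pow_lt_val`: every nonzero element of `A` divides a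
  power of `ℓ`);
* `xiData_gammaF_mono` : from level `f₀` to every multiple `f` of `f₀`.
-/
import Fermat.Agent.ES.V19.Assemble11
import Fermat.Agent.ES.V19.FixRingDVR16

set_option autoImplicit false

noncomputable section

namespace Fermat.Agent.ES.V19.XiMono11

open Fermat.Agent.ES.V19.Assemble11 Fermat.Agent.ES.V19.TraceDescent26
  Fermat.Agent.ES.V19.GammaF16

section Abstract

variable {R R' Ω G G' : Type*} [CommRing R] [CommRing R'] [Field Ω] [Algebra R Ω] [Algebra R' Ω]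
  [Group G] [Group G'] [MulSemiringAction G Ω] [MulSemiringAction G' Ω]
variable {J : Type*} [AddCommGroup J] [DistribMulAction G J] [DistribMulAction G' J]

theorem aeval_map_eq (φ : R →+* R') (hφ : ∀ r, algebraMap R' Ω (φ r) = algebraMap R Ω r)
    {κ : Type*} (u : κ → Ω) (p : MvPolynomial κ R) :
    MvPolynomial.aeval u (MvPolynomial.map φ p) = MvPolynomial.aeval u p := by
  induction p using MvPolynomial.induction_on with
  | C r => rw [MvPolynomial.map_C, MvPolynomial.aeval_C, MvPolynomial.aeval_C, hφ]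
  | add p q hp hq => rw [map_add, map_add, map_add, hp, hq]
  | mul_X p k hp => rw [map_mul, MvPolynomial.map_X, map_mul, map_mul, hp,
      MvPolynomial.aeval_X, MvPolynomial.aeval_X]

/-- **Monotonicity of `XiData`.** -/
theorem XiData.mono {A : Subring Ω} {J1 : AddSubgroup J} {g : ℕ} {Ξ : J → Fin g → Ω}
    (h : XiData A J1 Ξ R G) (φ : R →+* R')
    (hφ : ∀ r, algebraMap R' Ω (φ r) = algebraMap R Ω r) (ψ : G' → G)
    (hψΩ : ∀ (σ : G') (x : Ω), σ • x = ψ σ • x) (hψJ : ∀ (σ : G') (y : J), σ • y = ψ σ • y)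
    (hdiv : ∀ d' : R', algebraMap R' Ω d' ≠ 0 → ∃ d : R, algebraMap R Ω d ≠ 0 ∧
      ∃ b ∈ A, algebraMap R Ω d = algebraMap R' Ω d' * b) :
    XiData A J1 Ξ R' G' := by
  refine ⟨h.val, h.inj, ?_, ?_, ?_⟩
  · intro σ y hy i
    rw [hψJ, hψΩ]
    exact h.eqv (ψ σ) y hy i
  · intro d' hd' S
    obtain ⟨d, hd, b, hb, hdb⟩ := hdiv d' hd'
    obtain ⟨F, hF⟩ := h.add d hd S
    refine ⟨fun i => MvPolynomial.map φ (F i), ?_⟩
    intro y hyS y' hy'S hy hy' i
    obtain ⟨a, ha, e⟩ := hF y hyS y' hy'S hy hy' i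
    refine ⟨b * a, A.mul_mem hb ha, ?_⟩
    rw [aeval_map_eq φ hφ, e, hdb, mul_assoc]
  · intro d' hd' S
    obtain ⟨d, hd, b, hb, hdb⟩ := hdiv d' hd'
    obtain ⟨F, hF⟩ := h.neg d hd S
    refine ⟨fun i => MvPolynomial.map φ (F i), ?_⟩
    intro y hyS hy i
    obtain ⟨a, ha, e⟩ := hF y hyS hy i
    refine ⟨b * a, A.mul_mem hb ha, ?_⟩
    rw [aeval_map_eq φ hφ, e, hdb, mul_assoc]

end Abstract

section Concrete

local notation "Qbar" => AlgebraicClosure ℚ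
local notation "GQ" => (AlgebraicClosure ℚ ≃ₐ[ℚ] AlgebraicClosure ℚ)

variable {A : ValuationSubring Qbar} {ℓ : ℕ}
variable {J : Type*} [AddCommGroup J] [DistribMulAction GQ J]

/-- From `(fixRing A Γ, Γ)` to `(fixRing A Γ', Γ')` for `Γ' ≤ Γ`. -/
theorem xiData_mono_subgroup (hℓ : ℓ.Prime) (hA : A.LiesOverPrime ℓ) {Γ Γ' : Subgroup GQ}
    (hΓ : Γ' ≤ Γ) {J1 : AddSubgroup J} {g : ℕ} {Ξ : J → Fin g → Qbar}
    (h : XiData A.toSubring J1 Ξ ↥(fixRing A Γ) ↥Γ) :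
    XiData A.toSubring J1 Ξ ↥(fixRing A Γ') ↥Γ' := by
  refine XiData.mono h (Subring.inclusion (fixRing_anti A hΓ)) (fun r => rfl)
    (fun σ => (⟨σ.1, hΓ σ.2⟩ : Γ)) (fun σ x => rfl) (fun σ y => rfl) ?_
  intro d' hd'
  have hd'0 : (d' : Qbar) ≠ 0 := hd'
  obtain ⟨n, hn⟩ := FixRingDVR16.exists_pow_lt_val hℓ hA hd'0
  have hℓ0 : (ℓ : Qbar) ≠ 0 := Nat.cast_ne_zero.mpr hℓ.ne_zero
  refine ⟨((ℓ : ↥(fixRing A Γ)) ^ n), ?_, (ℓ : Qbar) ^ n / (d' : Qbar), ?_, ?_⟩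
  · show algebraMap ↥(fixRing A Γ) Qbar ((ℓ : ↥(fixRing A Γ)) ^ n) ≠ 0
    rw [map_pow, map_natCast]
    exact pow_ne_zero n hℓ0
  · show (ℓ : Qbar) ^ n / (d' : Qbar) ∈ A
    rw [← ValuationSubring.valuation_le_one_iff, map_div₀, map_pow]
    have hv0 : A.valuation (d' : Qbar) ≠ 0 := by
      rw [Ne, map_eq_zero]
      exact hd'0
    exact (div_le_one₀ (zero_lt_iff.mpr hv0)).mpr hn.le
  · show algebraMap ↥(fixRing A Γ) Qbar ((ℓ : ↥(fixRing A Γ)) ^ n) =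
      (d' : Qbar) * ((ℓ : Qbar) ^ n / (d' : Qbar))
    rw [map_pow, map_natCast, mul_div_cancel₀ _ hd'0]

/-- From level `f₀` to every multiple of `f₀`. -/
theorem xiData_gammaF_mono (hℓ : ℓ.Prime) (hA : A.LiesOverPrime ℓ) {f₀ f : ℕ} (hff : f₀ ∣ f)
    {J1 : AddSubgroup J} {g : ℕ} {Ξ : J → Fin g → Qbar}
    (h : XiData A.toSubring J1 Ξ ↥(fixRing A (gammaF A ℓ f₀)) ↥(gammaF A ℓ f₀)) :
    XiData A.toSubring J1 Ξ ↥(fixRing A (gammaF A ℓ f)) ↥(gammaF A ℓ f) :=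
  xiData_mono_subgroup hℓ hA (gammaF_anti hff) h

end Concrete

end Fermat.Agent.ES.V19.XiMono11
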