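/-
Programme V (S19 by hand, route `S19_ROUTE23.md`), chapter (B6), helper11: **the exit of (B6), formal
part**: one level `f` carrying the étale quotient, the chart of (B5) and the base points.

Inputs: helper16's `FixesInertFixed A ℓ`; open stabilisers on `J` (`HasLevelIn`); the kernel of
reduction `J1` (`D_A`-stable, `I_A` acts trivially modulo `J1`: helper21's `RedKer21`); `I_A`-fixed
base points (`LiftClass11.exists_fixed_base_point`); ONE chart of (B5) at SOME level `f₀`.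
Output: `f > 0` with `htriv`, `XiData` and `BaseData` for `Γ_f = gammaF A ℓ f`,
`R = fixRing A Γ_f` — the hypotheses of `Assemble11.coordData_of_xi` (`ι := Unit`), and then of
helper20's `CoordStable20.coordStable`.
-/
import Fermat.Agent.ES.V19.BaseAsm11
import Fermat.Agent.ES.V19.XiMono11

set_option autoImplicit false

noncomputable section

namespace Fermat.Agent.ES.V19.ChartData11

open Fermat.Agent.ES.V19.GammaF16 Fermat.Agent.ES.V19.GammaLevel11 Fermat.Agent.ES.V19.Assemble11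
  Fermat.Agent.ES.V19.TraceDescent26 Fermat.Agent.ES.V19.BaseAsm11 Fermat.Agent.ES.V19.XiMono11

local notation "Qbar" => AlgebraicClosure ℚ
local notation "GQ" => (AlgebraicClosure ℚ ≃ₐ[ℚ] AlgebraicClosure ℚ)

variable {A : ValuationSubring Qbar} {ℓ : ℕ}
variable {J : Type*} [AddCommGroup J] [DistribMulAction GQ J]
variable {M : Type*} [AddCommGroup M] [DistribMulAction GQ M]

/-- **(B6), formal exit.** -/
theorem exists_chart_data (hℓ : ℓ.Prime) (hA : A.LiesOverPrime ℓ) (hfix : FixesInertFixed A ℓ)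
    (hlevJ : ∀ y : J, HasLevelIn A (MulAction.stabilizer GQ y))
    (J1 : AddSubgroup J) (hJ1D : ∀ σ ∈ A.decompositionSubgroup ℚ, ∀ y ∈ J1, σ • y ∈ J1)
    (hJ1I : ∀ σ ∈ A.inertiaSubgroupIn ℚ, ∀ y : J, σ • y - y ∈ J1)
    [Finite M] (inc : M →+ J) (hincG : ∀ (σ : GQ) (x : M), inc (σ • x) = σ • inc x)
    (hlift : ∀ x : M, ∃ P : J, (∀ σ ∈ A.inertiaSubgroupIn ℚ, σ • P = P) ∧ inc x - P ∈ J1)
    {g : ℕ} (hxi : ∃ f₀, 0 < f₀ ∧ ∃ Ξ : J → Fin g → Qbar,
      XiData A.toSubring J1 Ξ ↥(fixRing A (gammaF A ℓ f₀)) ↥(gammaF A ℓ f₀)) :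
    ∃ f, 0 < f ∧ (∀ σ ∈ gammaF A ℓ f, ∀ x : M, σ • x - x ∈ J1.comap inc) ∧
      ∃ (Ξ : J → Fin g → Qbar) (P : M → J),
        XiData A.toSubring J1 Ξ ↥(fixRing A (gammaF A ℓ f)) ↥(gammaF A ℓ f) ∧
        BaseData J1 inc P ↥(gammaF A ℓ f) := by
  obtain ⟨f₀, hf₀, Ξ, hΞ⟩ := hxi
  obtain ⟨f, hf, hff, htriv, P, hP⟩ :=
    exists_level_baseData hfix hlevJ J1 hJ1D hJ1I inc hincG hlift f₀ hf₀
  exact ⟨f, hf, htriv, Ξ, P, xiData_gammaF_mono hℓ hA hff hΞ, hP⟩

end Fermat.Agent.ES.V19.ChartData11
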