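/-
Programme V (S19), chapter A2 / B6 (helper16): **every `I_A`-fixed element of `ℚ̄` is fixed by some `Γ_f`**
(`ℚ̄^{I_A} = ⋃_f ℚ̄^{Γ_f}`: the maximal unramified extension of `ℚ^h` is the union of the unramified levels), and
`Γ_f` is normal in `D_A`.

Proof: Teichmüller expansion `x = c₀ + ℓ c₁ + … + ℓ^{m-1} c_{m-1} + ℓ^m r` (`c_i` Teichmüller constants, `r ∈ A`),
obtained from `P36.UnrFixed1.div_natCast_mem_of_fixed`, with `m` so large that `v(ℓ)^m < v(x' - x)` for the finitely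
many conjugates `x' ≠ x`; an element of `Γ_f` fixing all the `c_i` moves `x` by an element of `ℓ^m A`, hence fixes it.
-/
import Mathlib
import Fermat.Agent.ES.V19.Teich16
import Fermat.Agent.ES.V19.FixRingDVR16

set_option autoImplicit false
set_option linter.unusedSectionVars false

namespace Fermat.Agent.ES.V19.GammaFix16

open ValuationSubring Polynomial Fermat.Agent.ES.V19.GammaF16 Fermat.Agent.ES.V19.UnrLevel16
  Fermat.Agent.ES.V19.TraceDescent26 Fermat.Agent.ES.V19.Teich16 Fermat.Agent.ES.V19.FixRingDVR16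
open scoped Pointwise

local notation "Qbar" => AlgebraicClosure ℚ
local notation "GQ" => (AlgebraicClosure ℚ ≃ₐ[ℚ] AlgebraicClosure ℚ)

variable {A : ValuationSubring Qbar} {ℓ : ℕ}

/-- `Γ_f` is normalised by the decomposition group. -/
theorem gammaF_normal (f : ℕ) {τ σ : GQ} (hτ : τ ∈ A.decompositionSubgroup ℚ)
    (hσ : σ ∈ gammaF A ℓ f) : τ⁻¹ * σ * τ ∈ gammaF A ℓ f := by
  obtain ⟨hσD, hy⟩ := mem_gammaF_iff.mp hσ
  have hmem : τ⁻¹ * σ * τ ∈ A.decompositionSubgroup ℚ :=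
    mul_mem (mul_mem (inv_mem hτ) hσD) hτ
  refine mem_gammaF_iff.mpr ⟨hmem, fun y hyf => ?_⟩
  have heq : (⟨τ⁻¹ * σ * τ, hmem⟩ : A.decompositionSubgroup ℚ) =
      (⟨τ, hτ⟩ : A.decompositionSubgroup ℚ)⁻¹ * ⟨σ, hσD⟩ * ⟨τ, hτ⟩ := rfl
  have h1 : ((⟨τ, hτ⟩ : A.decompositionSubgroup ℚ) • y) ^ (ℓ ^ f) =
      (⟨τ, hτ⟩ : A.decompositionSubgroup ℚ) • y := by rw [← smul_pow', hyf]
  rw [heq, mul_smul, mul_smul, hy _ h1, inv_smul_smul]

/-- the same with the conjugation on the other side. -/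
theorem gammaF_normal' (f : ℕ) {τ σ : GQ} (hτ : τ ∈ A.decompositionSubgroup ℚ)
    (hσ : σ ∈ gammaF A ℓ f) : τ * σ * τ⁻¹ ∈ gammaF A ℓ f := by
  have := gammaF_normal (A := A) (ℓ := ℓ) f (inv_mem hτ) hσ
  rwa [inv_inv] at this

section Expansion

variable (hℓ : ℓ.Prime) (hA : A.LiesOverPrime ℓ)

include hℓ hA

/-- **Teichmüller expansion to order `m`** of an `I_A`-fixed element of `A`. -/
theorem exists_expansion (m : ℕ) {x : Qbar} (hx : x ∈ A)
    (hfix : ∀ σ ∈ A.inertiaSubgroupIn ℚ, σ x = x) :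
    ∃ f : ℕ, 0 < f ∧ ∃ s r : Qbar, s ∈ fixRing A (gammaF A ℓ f) ∧ r ∈ A ∧
      x = s + (ℓ : Qbar) ^ m * r := by
  induction m generalizing x with
  | zero => exact ⟨1, Nat.one_pos, 0, x, zero_mem _, hx, by rw [pow_zero, one_mul, zero_add]⟩
  | succ m ih =>
    obtain ⟨f₁, hf₁, hy⟩ := exists_pow_card_eq hℓ hA (IsLocalRing.residue A ⟨x, hx⟩)
    have hc := teich_mem_fixRing hℓ hA hf₁ hy
    set c := teich hℓ hA (IsLocalRing.residue A ⟨x, hx⟩) with hcdef
    have hxc : A.valuation (x - c) < 1 := val_sub_teich hℓ hA hx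
    have hfix1 : ∀ σ ∈ A.inertiaSubgroupIn ℚ, σ (x - c) = x - c := fun σ hσ => by
      rw [map_sub, hfix σ hσ, hc.2 σ (inertia_le_gammaF f₁ hσ)]
    have hx1 : (x - c) / (ℓ : Qbar) ∈ A :=
      Fermat.Agent.ES.P36.UnrFixed1.div_natCast_mem_of_fixed A hℓ hA _ hfix1
        ((ValuationSubring.mem_nonunits_iff (A := A)).mpr hxc)
    have hfix1' : ∀ σ ∈ A.inertiaSubgroupIn ℚ, σ ((x - c) / (ℓ : Qbar)) = (x - c) / (ℓ : Qbar) :=
      fun σ hσ => by rw [map_div₀, hfix1 σ hσ, map_natCast]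
    obtain ⟨f₂, hf₂, s, r, hs, hr, hxs⟩ := ih hx1 hfix1'
    refine ⟨f₁ * f₂, Nat.mul_pos hf₁ hf₂, c + (ℓ : Qbar) * s, r, ?_, hr, ?_⟩
    · have h1 : c ∈ fixRing A (gammaF A ℓ (f₁ * f₂)) :=
        fixRing_anti A (gammaF_anti (Dvd.intro _ rfl)) hc
      have h2 : s ∈ fixRing A (gammaF A ℓ (f₁ * f₂)) :=
        fixRing_anti A (gammaF_anti (Dvd.intro_left _ rfl)) hs
      exact add_mem h1 (mul_mem (natCast_mem _ ℓ) h2)
    · have hℓ0 : (ℓ : Qbar) ≠ 0 := Nat.cast_ne_zero.mpr hℓ.ne_zero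
      have h3 : x = c + (ℓ : Qbar) * ((x - c) / (ℓ : Qbar)) := by
        rw [mul_div_cancel₀ _ hℓ0]; ring
      rw [hxs] at h3
      rw [h3]
      ring

/-- finitely many conjugates: a uniform bound for the distances to the other conjugates. -/
theorem exists_conj_bound (x : Qbar) :
    ∃ m : ℕ, ∀ σ : GQ, σ x ≠ x → A.valuation (ℓ : Qbar) ^ m < A.valuation (σ x - x) := by
  classical
  have H : ∀ y : Qbar, y ≠ x → ∃ n : ℕ, A.valuation (ℓ : Qbar) ^ n < A.valuation (y - x) :=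
    fun y hy => exists_pow_lt_val hℓ hA (sub_ne_zero.mpr hy)
  let n : Qbar → ℕ := fun y => if h : y ≠ x then Classical.choose (H y h) else 0
  have hn : ∀ y : Qbar, y ≠ x → A.valuation (ℓ : Qbar) ^ n y < A.valuation (y - x) := by
    intro y hy
    show A.valuation (ℓ : Qbar) ^ (if h : y ≠ x then Classical.choose (H y h) else 0) < _
    rw [dif_pos hy]
    exact Classical.choose_spec (H y hy)
  have hint : IsIntegral ℚ x := Algebra.IsIntegral.isIntegral x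
  let S : Finset Qbar := (minpoly ℚ x).rootSet Qbar |>.toFinite.toFinset
  have hS : ∀ σ : GQ, σ x ∈ S := by
    intro σ
    rw [Set.Finite.mem_toFinset, mem_rootSet]
    refine ⟨minpoly.ne_zero hint, ?_⟩
    have h1 := aeval_algHom_apply (σ : Qbar →ₐ[ℚ] Qbar) x (minpoly ℚ x)
    have h2 : aeval (σ x) (minpoly ℚ x) = σ (aeval x (minpoly ℚ x)) := h1
    rw [h2, minpoly.aeval, map_zero]
  refine ⟨S.sup n, fun σ hσ => lt_of_le_of_lt ?_ (hn (σ x) hσ)⟩
  exact pow_le_pow_of_le_one zero_le (val_ell_lt_one hℓ hA).le (Finset.le_sup (hS σ))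

/-- **Every `I_A`-fixed element of `ℚ̄` is fixed by some `Γ_f`.** -/
theorem exists_gammaF_fixes (x : Qbar) (hx : ∀ σ ∈ A.inertiaSubgroupIn ℚ, σ x = x) :
    ∃ f : ℕ, 0 < f ∧ ∀ τ ∈ gammaF A ℓ f, τ x = x := by
  by_cases hx0 : x = 0
  · exact ⟨1, Nat.one_pos, fun τ _ => by rw [hx0, map_zero]⟩
  have hℓ0 : (ℓ : Qbar) ≠ 0 := Nat.cast_ne_zero.mpr hℓ.ne_zero
  -- scale `x` into `A`
  obtain ⟨n, hn⟩ := exists_pow_lt_val hℓ hA (inv_ne_zero hx0)
  set x' := (ℓ : Qbar) ^ n * x with hx'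
  have hx'A : x' ∈ A := by
    rw [← A.valuation_le_one_iff, hx', map_mul, map_pow]
    have hxv : A.valuation x ≠ 0 := by rwa [Ne, map_eq_zero]
    rw [map_inv₀] at hn
    have := mul_le_mul_left hn.le (A.valuation x)
    rwa [inv_mul_cancel₀ hxv] at this
  have hx'fix : ∀ σ ∈ A.inertiaSubgroupIn ℚ, σ x' = x' := fun σ hσ => by
    rw [hx', map_mul, map_pow, map_natCast, hx σ hσ]
  obtain ⟨m, hm⟩ := exists_conj_bound hℓ hA x'
  obtain ⟨f, hf, s, r, hs, hr, hxs⟩ := exists_expansion hℓ hA m hx'A hx'fix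
  refine ⟨f, hf, fun τ hτ => ?_⟩
  have hτD := gammaF_le_decomposition f hτ
  have key : τ x' = x' := by
    by_contra hne
    have h1 := hm τ hne
    have h2 : τ x' - x' = (ℓ : Qbar) ^ m * (τ r - r) := by
      rw [hxs, map_add, map_mul, map_pow, map_natCast, hs.2 τ hτ]
      ring
    have h3 : A.valuation (τ x' - x') ≤ A.valuation (ℓ : Qbar) ^ m := by
      rw [h2, map_mul, map_pow]
      exact mul_le_of_le_one_right' ((A.valuation_le_one_iff _).mpr
        (sub_mem (apply_mem A hτD hr) hr))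
    exact absurd h1 (not_lt.mpr h3)
  rw [hx', map_mul, map_pow, map_natCast] at key
  exact mul_left_cancel₀ (pow_ne_zero n hℓ0) key

/-- finitely many `I_A`-fixed elements: one common level. -/
theorem exists_gammaF_fixes_finset (S : Finset Qbar)
    (hS : ∀ x ∈ S, ∀ σ ∈ A.inertiaSubgroupIn ℚ, σ x = x) :
    ∃ f : ℕ, 0 < f ∧ ∀ τ ∈ gammaF A ℓ f, ∀ x ∈ S, τ x = x := by
  classical
  induction S using Finset.induction_on with
  | empty => exact ⟨1, Nat.one_pos, fun _ _ x hx => absurd hx (Finset.notMem_empty x)⟩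
  | insert a S _ ih =>
    obtain ⟨f₁, hf₁, h₁⟩ := exists_gammaF_fixes hℓ hA a (hS a (Finset.mem_insert_self a S))
    obtain ⟨f₂, hf₂, h₂⟩ := ih fun x hx => hS x (Finset.mem_insert_of_mem hx)
    refine ⟨f₁ * f₂, Nat.mul_pos hf₁ hf₂, fun τ hτ x hx => ?_⟩
    rcases Finset.mem_insert.mp hx with rfl | hxS
    · exact h₁ τ (gammaF_anti (Dvd.intro _ rfl) hτ)
    · exact h₂ τ (gammaF_anti (Dvd.intro_left _ rfl) hτ) x hxS

end Expansion

end Fermat.Agent.ES.V19.GammaFix16
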