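/-
Programme V (S19 by hand, route `S19_ROUTE23.md`), chapter (B6), join step (J8), helper21:
**helper11's formal exit `ChartData11.exists_chart_data` at `J = J₀(M)(ℚ̄)`, `J¹ = RedKer21.J1`.**

* `j1Spec` : `XiIface29.J1Spec T.r (J1 T hr hgen)` (the kernel of reduction in the relational form
  used by chapter (B5));
* `fixesInertFixed` : helper16's `GammaFix16.exists_gammaF_fixes` as `GammaLevel11.FixesInertFixed`;
* `hasLevelIn_stabilizer` : stabilisers of points of `J₀(M)(ℚ̄)` have finite level (main's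
  `OpenStab12.hasLevel_pic0`);
* `exists_fixed_base_point` : `LiftClass11.exists_fixed_base_point` for `J1 T hr hgen`;
* `exists_chart_data_inst` : from liftable places (`hLift`), the moving lemma (`hmove`) and one
  chart of (B5) at some level `f₀` (`hxi`): a level `f > 0` with `htriv`, `XiData`, `BaseData`
  for `Γ_f`, i.e. the three (B6) inputs of `FunnelAsm20.exists_hopfAlgebra_of_xi`.
-/
import Mathlib
import Fermat.Agent.ES.V19.RedKer21
import Fermat.Agent.ES.V19.ChartData11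
import Fermat.Agent.ES.V19.LiftClass11
import Fermat.Agent.ES.V19.GammaFix16
import Fermat.Agent.ES.V19.XiIface29
import Fermat.Agent.ES.GAL.OpenStab12

set_option autoImplicit false
set_option linter.unusedSectionVars false

noncomputable section

open AlgebraicCurve ModularCurve

namespace Fermat.Agent.ES.V19.ChartDataInst21

open Fermat.Agent.X0.FF Fermat.Agent.ES.RED.Contract8 Fermat.Agent.ES.RED.TwoCharts8
  Fermat.Agent.ES.RED.GaloisInst21 Fermat.Agent.ES.V19.RedKer21 Fermat.Agent.ES.V19.GammaF16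
  Fermat.Agent.ES.V19.GammaLevel11 Fermat.Agent.ES.GAL.OpenStab12
  Fermat.Agent.ES.V19.TraceDescent26

local notation "Qb" => AlgebraicClosure ℚ
local notation "GQ" => (AlgebraicClosure ℚ ≃ₐ[ℚ] AlgebraicClosure ℚ)

variable {A : ValuationSubring Qb} {M : ℕ} [NeZero M]
  {x : ↥(laurentBaseChange Qb (modularFunctionFieldFull M))} {hx : IsGen Qb x}
  (T : TwoCharts A hx ↥(modularFunctionFieldFullC (kA A) M))
  (hr : IsPlaceReductionAlong A (IsLocalRing.residue ↥A) M T.r)
  (hgen : PrincipalGeneratedByIntegral A (IsLocalRing.residue ↥A) M)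

/-- **`J¹` in the relational form of chapter (B5).** -/
theorem j1Spec : XiIface29.J1Spec T.r (J1 T hr hgen) := by
  intro y
  rw [mem_J1_iff]
  constructor
  · intro h
    obtain ⟨D, rfl⟩ := Pic0.mk_surjective y
    refine ⟨D, rfl, ?_⟩
    have h' : Pic0.mk (reductionDegZeroAlong T.r hr.1 D) = 0 := h
    have h'' := (QuotientAddGroup.eq_zero_iff _).1 h'
    rw [AddSubgroup.mem_addSubgroupOf] at h''
    exact h''
  · rintro ⟨D, rfl, hD⟩
    show Pic0.mk (reductionDegZeroAlong T.r hr.1 D) = 0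
    refine (QuotientAddGroup.eq_zero_iff _).2 ?_
    rw [AddSubgroup.mem_addSubgroupOf]
    exact hD

/-- helper16's theorem in helper11's vocabulary. -/
theorem fixesInertFixed {ℓ : ℕ} (hℓ : ℓ.Prime) (hA : A.LiesOverPrime ℓ) : FixesInertFixed A ℓ :=
  fun y hy => Fermat.Agent.ES.V19.GammaFix16.exists_gammaF_fixes hℓ hA y hy

/-- stabilisers of points of `J₀(M)(ℚ̄)` have finite level. -/
theorem hasLevelIn_stabilizer (A : ValuationSubring Qb) (y : JZero M) :
    HasLevelIn A (MulAction.stabilizer GQ y) := by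
  obtain ⟨L, hL, H⟩ := hasLevel_pic0 M y
  exact ⟨L, hL, fun σ _ ha => MulAction.mem_stabilizer_iff.2 (H σ ha)⟩

/-- **base points** (`LiftClass11.exists_fixed_base_point` for `J1 T hr hgen`). -/
theorem exists_fixed_base_point
    (Lift : Set (Place (kA A) ↥(modularFunctionFieldFullC (kA A) M)))
    (hLift : ∀ Q ∈ Lift, ∃ P, T.r P = Q ∧ ∀ σ ∈ A.inertiaSubgroupIn ℚ,
      arithmeticGalois (modularFunctionFieldFull M) σ • P = P)
    (hmove : ∀ z : JZeroC (kA A) M,
      ∃ Dbar : Divisor.degZero (K := kA A) (F := modularFunctionFieldFullC (kA A) M),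
        Pic0.mk Dbar = z ∧
          ∀ Q, (Dbar : Divisor (kA A) (modularFunctionFieldFullC (kA A) M)) Q ≠ 0 → Q ∈ Lift)
    (y : JZero M) :
    ∃ P : JZero M, (∀ σ ∈ A.inertiaSubgroupIn ℚ, σ • P = P) ∧ y - P ∈ J1 T hr hgen :=
  LiftClass11.exists_fixed_base_point T.r hr hgen
    (A.inertiaSubgroupIn ℚ : Set GQ) Lift hLift hmove y

variable [IsAlgClosed (kA A)] {xt : ↥(modularFunctionFieldFullC (kA A) M)}
  (hxt : IsGen (kA A) xt)
  (h0 : CoeffChart (F₀ := modularFunctionFieldFull M) T.S0)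
  (h1 : CoeffChart (F₀ := modularFunctionFieldFull M) T.S1)

include hxt h0 h1 in
/-- **(J8): helper11's formal exit of (B6) at `J = J₀(M)(ℚ̄)`, `J¹ = J1 T hr hgen`.** -/
theorem exists_chart_data_inst {ℓ : ℕ} (hℓ : ℓ.Prime) (hA : A.LiesOverPrime ℓ)
    {Mod : Type*} [AddCommGroup Mod] [DistribMulAction GQ Mod] [Finite Mod]
    (inc : Mod →+ JZero M) (hincG : ∀ (σ : GQ) (y : Mod), inc (σ • y) = σ • inc y)
    (Lift : Set (Place (kA A) ↥(modularFunctionFieldFullC (kA A) M)))
    (hLift : ∀ Q ∈ Lift, ∃ P, T.r P = Q ∧ ∀ σ ∈ A.inertiaSubgroupIn ℚ,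
      arithmeticGalois (modularFunctionFieldFull M) σ • P = P)
    (hmove : ∀ z : JZeroC (kA A) M,
      ∃ Dbar : Divisor.degZero (K := kA A) (F := modularFunctionFieldFullC (kA A) M),
        Pic0.mk Dbar = z ∧
          ∀ Q, (Dbar : Divisor (kA A) (modularFunctionFieldFullC (kA A) M)) Q ≠ 0 → Q ∈ Lift)
    {g : ℕ} (hxi : ∃ f₀, 0 < f₀ ∧ ∃ Ξ : JZero M → Fin g → Qb,
      Assemble11.XiData A.toSubring (J1 T hr hgen) Ξ ↥(fixRing A (gammaF A ℓ f₀))
        ↥(gammaF A ℓ f₀)) :
    ∃ f, 0 < f ∧ (∀ σ ∈ gammaF A ℓ f, ∀ y : Mod, σ • y - y ∈ (J1 T hr hgen).comap inc) ∧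
      ∃ (Ξ : JZero M → Fin g → Qb) (P : Mod → JZero M),
        Assemble11.XiData A.toSubring (J1 T hr hgen) Ξ ↥(fixRing A (gammaF A ℓ f))
          ↥(gammaF A ℓ f) ∧
        Assemble11.BaseData (J1 T hr hgen) inc P ↥(gammaF A ℓ f) :=
  ChartData11.exists_chart_data hℓ hA (fixesInertFixed hℓ hA) (hasLevelIn_stabilizer A)
    (J1 T hr hgen) (fun _ hσ _ hy => smul_mem_J1 T hr hgen hxt h0 h1 hσ hy)
    (fun _ hσ y => smul_sub_mem_J1_of_mem_inertia T hr hgen hxt h0 h1 hσ y)
    inc hincG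
    (fun y => exists_fixed_base_point T hr hgen Lift hLift hmove (inc y)) hxi

end Fermat.Agent.ES.V19.ChartDataInst21
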