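/-
Programme V (S19), chapter A2 (descent), helper26: **coordinates with respect to a basis of equivariant
functions**.  If `b` is a `ℚ̄`-basis of `X → ℚ̄` all of whose members are fixed by `star τ`, then `star τ`
acts on coordinates through `τ`; hence `f` is `Γ`-equivariant iff its coordinates are `Γ`-fixed.
-/
import Mathlib
import Fermat.Agent.ES.V19.StarAct26

set_option autoImplicit false

namespace Fermat.Agent.ES.V19.CoordEquiv26

open Fermat.Agent.ES.V19.StarAct26

local notation "Qbar" => AlgebraicClosure ℚ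
local notation "GQ" => (AlgebraicClosure ℚ ≃ₐ[ℚ] AlgebraicClosure ℚ)

noncomputable section

variable {X : Type*} [MulAction GQ X] {ι : Type*} [Fintype ι]

/-- `star τ` acts on coordinates through `τ`. -/
theorem repr_star (b : Module.Basis ι Qbar (X → Qbar)) (τ : GQ)
    (hτ : ∀ i, StarAct26.star τ (b i) = b i) (f : X → Qbar) (i : ι) :
    b.repr (StarAct26.star τ f) i = τ (b.repr f i) := by
  have h1 : StarAct26.star τ f = ∑ j, τ (b.repr f j) • b j := by
    conv_lhs => rw [← b.sum_repr f]
    rw [StarAct26.star_sum]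
    refine Finset.sum_congr rfl fun j _ => ?_
    rw [StarAct26.star_smul, hτ j]
  rw [h1, b.repr_sum_self]

/-- Equivariance in coordinates. -/
theorem isEquivariant_iff_repr (b : Module.Basis ι Qbar (X → Qbar)) {Γ : Subgroup GQ}
    (hb : ∀ i, IsEquivariant Γ (b i)) (f : X → Qbar) :
    IsEquivariant Γ f ↔ ∀ i, ∀ σ ∈ Γ, σ (b.repr f i) = b.repr f i := by
  constructor
  · intro hf i σ hσ
    have h1 := repr_star b σ (fun j => (isEquivariant_iff_star.1 (hb j)) σ hσ) f i
    rw [(isEquivariant_iff_star.1 hf) σ hσ] at h1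
    exact h1.symm
  · intro h
    rw [isEquivariant_iff_star]
    intro σ hσ
    apply b.repr.injective
    ext i
    rw [repr_star b σ (fun j => (isEquivariant_iff_star.1 (hb j)) σ hσ) f i, h i σ hσ]

/-- A combination of equivariant basis functions with `Γ`-fixed coefficients is `Γ`-equivariant. -/
theorem isEquivariant_sum_smul (b : Module.Basis ι Qbar (X → Qbar)) {Γ : Subgroup GQ}
    (hb : ∀ i, IsEquivariant Γ (b i)) (c : ι → Qbar) (hc : ∀ i, ∀ σ ∈ Γ, σ (c i) = c i) :
    IsEquivariant Γ (∑ i, c i • b i) :=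
  IsEquivariant.sum _ fun i _ => (hb i).smul (hc i)

end

end Fermat.Agent.ES.V19.CoordEquiv26
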