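/-
Programme V (S19), brick (A4+), helper20: **from one chart to a `D`-stable order**, in the concrete
setting `Ω = ℚ̄`, `G = Γ ≤ G_ℚ`, `R = fixRing A Γ` (helper26), and the bridge from helper23's
`CoordOrder23` to the hypotheses of helper26's descent.

`A` a valuation subring of `ℚ̄`, `D = A.decompositionSubgroup ℚ`, `Γ` a subgroup normalised by `D`,
`M` an abelian group with an action of `G_ℚ`, `M0 ⊂ M` a `D`-stable subgroup, and a family of charts
`X₀ χ : M → Fin g → ℚ̄` satisfying helper23's `CoordData` over `fixRing A Γ` for the group `Γ`.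

* `stab A X₀ (τ, χ) x := τ (X₀ χ (τ⁻¹ • x))`, indexed by `↥D × ι₀`;
* `coordData_stab` : the transported family again satisfies `CoordData`;
* `star_mem_order` : the order generated by the transported family is stable under `star τ`, `τ ∈ D`;
* `mem_span_of_mem_tens` : helper23's `tens` form of `Δ`-closedness gives helper26's span form;
* `coordStable` : all the hypotheses of helper26's descent for the order `stableOrder`.
-/
import Mathlib
import Fermat.Prelude.Def_FLTPrelim_Ramification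
import Fermat.Agent.S05.Inertia
import Fermat.Agent.ES.V19.StarAct26
import Fermat.Agent.ES.V19.TraceDescent26
import Fermat.Agent.ES.V19.CoordOrder23

set_option autoImplicit false

noncomputable section

namespace Fermat.Agent.ES.V19.CoordStable20

open Fermat.Agent.ES.V19.StarAct26 Fermat.Agent.ES.V19.TraceDescent26
  Fermat.Agent.ES.V19.Denominator23 Fermat.Agent.ES.V19.TensTwo23
  Fermat.Agent.ES.V19.CoordOrder23

local notation "Qbar" => AlgebraicClosure ℚ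
local notation "GQ" => (AlgebraicClosure ℚ ≃ₐ[ℚ] AlgebraicClosure ℚ)

/-! ### The coefficient ring `fixRing A Γ` -/

section Ring

variable (A : ValuationSubring Qbar) (Γ : Subgroup GQ)

/-- The scalars `fixRing A Γ` commute with the action of `Γ` on `ℚ̄`. -/
instance smulCommClass_fixRing : SMulCommClass ↥Γ ↥(fixRing A Γ) Qbar where
  smul_comm σ r x := by
    show (σ : GQ) ((r : Qbar) * x) = (r : Qbar) * (σ : GQ) x
    rw [map_mul, r.2.2 σ σ.2]

/-- `A ∩ ℚ̄^Γ ⊂ fixRing A Γ`, in helper23's shape. -/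
theorem fixHyp_fixRing : FixHyp ↥Γ ↥(fixRing A Γ) A.toSubring := by
  intro x hx hfix
  exact ⟨⟨x, hx, fun σ hσ => hfix ⟨σ, hσ⟩⟩, rfl⟩

theorem algebraMap_mem (r : ↥(fixRing A Γ)) :
    algebraMap ↥(fixRing A Γ) Qbar r ∈ A.toSubring := r.2.1

variable {A Γ}

/-- An element of the decomposition group which normalises `Γ` maps `fixRing A Γ` into itself. -/
theorem apply_mem_fixRing {τ : GQ} (hτ : τ ∈ A.decompositionSubgroup ℚ)
    (hn : ∀ σ ∈ Γ, τ⁻¹ * σ * τ ∈ Γ) {r : Qbar} (hr : r ∈ fixRing A Γ) : τ r ∈ fixRing A Γ := by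
  refine ⟨(Fermat.Agent.S05.Inertia.apply_mem_iff_of_mem_decomposition hτ r).mpr hr.1,
    fun σ hσ => ?_⟩
  have h1 : σ (τ r) = τ ((τ⁻¹ * σ * τ) r) := by
    simp only [AlgEquiv.mul_apply, AlgEquiv.apply_symm_apply, AlgEquiv.aut_inv]
  rw [h1, hr.2 _ (hn σ hσ)]

/-- The endomorphism of `fixRing A Γ` induced by an element of the decomposition group. -/
def fixHom {τ : GQ} (hτ : τ ∈ A.decompositionSubgroup ℚ) (hn : ∀ σ ∈ Γ, τ⁻¹ * σ * τ ∈ Γ) :
    ↥(fixRing A Γ) →+* ↥(fixRing A Γ) where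
  toFun r := ⟨τ (r : Qbar), apply_mem_fixRing hτ hn r.2⟩
  map_one' := Subtype.ext (map_one τ)
  map_mul' r s := Subtype.ext (map_mul τ (r : Qbar) (s : Qbar))
  map_zero' := Subtype.ext (map_zero τ)
  map_add' r s := Subtype.ext (map_add τ (r : Qbar) (s : Qbar))

@[simp] theorem coe_fixHom {τ : GQ} (hτ : τ ∈ A.decompositionSubgroup ℚ)
    (hn : ∀ σ ∈ Γ, τ⁻¹ * σ * τ ∈ Γ) (r : ↥(fixRing A Γ)) :
    ((fixHom hτ hn r : ↥(fixRing A Γ)) : Qbar) = τ (r : Qbar) := rfl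

/-- `τ` of a polynomial expression over `fixRing A Γ` is the transported polynomial in the
transported arguments. -/
theorem apply_aeval {κ : Type*} {τ : GQ} (hτ : τ ∈ A.decompositionSubgroup ℚ)
    (hn : ∀ σ ∈ Γ, τ⁻¹ * σ * τ ∈ Γ) (v : κ → Qbar) (p : MvPolynomial κ ↥(fixRing A Γ)) :
    τ (MvPolynomial.aeval v p) =
      MvPolynomial.aeval (fun j => τ (v j)) (MvPolynomial.map (fixHom hτ hn) p) := by
  induction p using MvPolynomial.induction_on with
  | C r =>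
    rw [MvPolynomial.map_C, MvPolynomial.aeval_C, MvPolynomial.aeval_C]
    rfl
  | add p q hp hq => rw [map_add, map_add, map_add, map_add, hp, hq]
  | mul_X p j hp =>
    rw [map_mul, map_mul, map_mul, map_mul, hp, MvPolynomial.map_X, MvPolynomial.aeval_X,
      MvPolynomial.aeval_X]

end Ring

/-! ### The transported family of charts -/

section Family

variable (A : ValuationSubring Qbar) {Γ : Subgroup GQ}
variable {M : Type*} [AddCommGroup M] [DistribMulAction GQ M]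
variable {M0 : AddSubgroup M} {ι₀ : Type*} {g : ℕ}

/-- The charts transported by the decomposition group: `X (τ, χ) x = τ (X₀ χ (τ⁻¹ x))`. -/
def stab (X₀ : ι₀ → M → Fin g → Qbar) :
    ↥(A.decompositionSubgroup ℚ) × ι₀ → M → Fin g → Qbar :=
  fun p x i => (p.1 : GQ) (X₀ p.2 ((p.1 : GQ)⁻¹ • x) i)

theorem stab_apply (X₀ : ι₀ → M → Fin g → Qbar) (τ : ↥(A.decompositionSubgroup ℚ)) (χ : ι₀)
    (x : M) (i : Fin g) :
    stab A X₀ (τ, χ) x i = (τ : GQ) (X₀ χ ((τ : GQ)⁻¹ • x) i) := rfl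

theorem stab_one (X₀ : ι₀ → M → Fin g → Qbar) (χ : ι₀) (x : M) (i : Fin g) :
    stab A X₀ (1, χ) x i = X₀ χ x i := by
  rw [stab_apply]
  simp

variable {A}

/-- `D`-stability of `M0` passes to cosets. -/
theorem mk_smul_eq (hM0 : ∀ τ ∈ A.decompositionSubgroup ℚ, ∀ x ∈ M0, τ • x ∈ M0)
    {τ : GQ} (hτ : τ ∈ A.decompositionSubgroup ℚ) {x y : M}
    (h : (QuotientAddGroup.mk x : M ⧸ M0) = QuotientAddGroup.mk y) :
    (QuotientAddGroup.mk (τ • x) : M ⧸ M0) = QuotientAddGroup.mk (τ • y) := by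
  rw [QuotientAddGroup.eq] at h ⊢
  have h1 := hM0 τ hτ _ h
  rwa [smul_add, smul_neg] at h1

variable (hnorm : ∀ τ ∈ A.decompositionSubgroup ℚ, ∀ σ ∈ Γ, τ⁻¹ * σ * τ ∈ Γ)
  (hM0 : ∀ τ ∈ A.decompositionSubgroup ℚ, ∀ x ∈ M0, τ • x ∈ M0)
  {X₀ : ι₀ → M → Fin g → Qbar}
  (h₀ : CoordData A.toSubring M0 X₀ ↥(fixRing A Γ) ↥Γ)
include hnorm hM0 h₀

/-- **The transported family satisfies `CoordData`.** -/
theorem coordData_stab : CoordData A.toSubring M0 (stab A X₀) ↥(fixRing A Γ) ↥Γ where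
  triv := h₀.triv
  eqv := by
    rintro ⟨τ, χ⟩ i σ x
    have hσ' : (τ : GQ)⁻¹ * (σ : GQ) * (τ : GQ) ∈ Γ := hnorm τ τ.2 σ σ.2
    have h1 := h₀.eqv χ i ⟨_, hσ'⟩ ((τ : GQ)⁻¹ • x)
    show (τ : GQ) (X₀ χ ((τ : GQ)⁻¹ • ((σ : GQ) • x)) i) =
      (σ : GQ) ((τ : GQ) (X₀ χ ((τ : GQ)⁻¹ • x) i))
    have h2 : (τ : GQ)⁻¹ • ((σ : GQ) • x) =
        ((τ : GQ)⁻¹ * (σ : GQ) * (τ : GQ)) • ((τ : GQ)⁻¹ • x) := by
      simp only [← mul_smul]
      congr 1
      group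
    have h3 : X₀ χ (((τ : GQ)⁻¹ * (σ : GQ) * (τ : GQ)) • ((τ : GQ)⁻¹ • x)) i =
        ((τ : GQ)⁻¹ * (σ : GQ) * (τ : GQ)) (X₀ χ ((τ : GQ)⁻¹ • x) i) := h1
    rw [h2, h3]
    simp only [AlgEquiv.mul_apply, AlgEquiv.apply_symm_apply, AlgEquiv.aut_inv]
  val := by
    rintro ⟨τ, χ⟩ x i
    exact (Fermat.Agent.S05.Inertia.apply_mem_iff_of_mem_decomposition τ.2 _).mpr
      (h₀.val χ _ i)
  inj := by
    intro x y hxy h
    refine h₀.inj x y hxy fun χ i => ?_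
    have := h (1, χ) i
    rwa [stab_one, stab_one] at this
  add := by
    rintro ⟨τ, χ⟩ d hd q q'
    obtain ⟨x₀, rfl⟩ := QuotientAddGroup.mk_surjective q
    obtain ⟨y₀, rfl⟩ := QuotientAddGroup.mk_surjective q'
    have hτi : (τ : GQ)⁻¹ ∈ A.decompositionSubgroup ℚ := inv_mem τ.2
    have hni : ∀ σ ∈ Γ, ((τ : GQ)⁻¹)⁻¹ * σ * (τ : GQ)⁻¹ ∈ Γ := hnorm _ hτi
    have hn : ∀ σ ∈ Γ, (τ : GQ)⁻¹ * σ * (τ : GQ) ∈ Γ := hnorm _ τ.2
    have hd' : algebraMap ↥(fixRing A Γ) Qbar (fixHom hτi hni d) ≠ 0 := by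
      show (τ : GQ)⁻¹ (d : Qbar) ≠ 0
      intro h
      exact hd ((map_eq_zero_iff _ (AlgEquiv.injective _)).mp h)
    obtain ⟨F₀, hF₀⟩ := h₀.add χ (fixHom hτi hni d) hd'
      (QuotientAddGroup.mk ((τ : GQ)⁻¹ • x₀)) (QuotientAddGroup.mk ((τ : GQ)⁻¹ • y₀))
    refine ⟨fun i => MvPolynomial.map (fixHom τ.2 hn) (F₀ i), fun x y hx hy i => ?_⟩
    obtain ⟨a, ha, hxy⟩ := hF₀ ((τ : GQ)⁻¹ • x) ((τ : GQ)⁻¹ • y)
      (mk_smul_eq hM0 hτi hx) (mk_smul_eq hM0 hτi hy) i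
    refine ⟨(τ : GQ) a,
      (Fermat.Agent.S05.Inertia.apply_mem_iff_of_mem_decomposition τ.2 a).mpr ha, ?_⟩
    have h1 := congrArg (τ : GQ) hxy
    rw [map_sub, map_mul, apply_aeval τ.2 hn, ← smul_add] at h1
    have h2 : (τ : GQ) (algebraMap ↥(fixRing A Γ) Qbar (fixHom hτi hni d)) =
        algebraMap ↥(fixRing A Γ) Qbar d := by
      show (τ : GQ) ((τ : GQ)⁻¹ (d : Qbar)) = (d : Qbar)
      simp only [AlgEquiv.apply_symm_apply, AlgEquiv.aut_inv]
    have h3 : (fun j => (τ : GQ) (Sum.elim (X₀ χ ((τ : GQ)⁻¹ • x)) (X₀ χ ((τ : GQ)⁻¹ • y)) j)) =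
        Sum.elim (stab A X₀ (τ, χ) x) (stab A X₀ (τ, χ) y) := by
      funext j
      rcases j with j | j <;> rfl
    rw [h2, h3] at h1
    exact h1
  neg := by
    rintro ⟨τ, χ⟩ d hd q
    obtain ⟨x₀, rfl⟩ := QuotientAddGroup.mk_surjective q
    have hτi : (τ : GQ)⁻¹ ∈ A.decompositionSubgroup ℚ := inv_mem τ.2
    have hni : ∀ σ ∈ Γ, ((τ : GQ)⁻¹)⁻¹ * σ * (τ : GQ)⁻¹ ∈ Γ := hnorm _ hτi
    have hn : ∀ σ ∈ Γ, (τ : GQ)⁻¹ * σ * (τ : GQ) ∈ Γ := hnorm _ τ.2
    have hd' : algebraMap ↥(fixRing A Γ) Qbar (fixHom hτi hni d) ≠ 0 := by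
      show (τ : GQ)⁻¹ (d : Qbar) ≠ 0
      intro h
      exact hd ((map_eq_zero_iff _ (AlgEquiv.injective _)).mp h)
    obtain ⟨F₀, hF₀⟩ := h₀.neg χ (fixHom hτi hni d) hd'
      (QuotientAddGroup.mk ((τ : GQ)⁻¹ • x₀))
    refine ⟨fun i => MvPolynomial.map (fixHom τ.2 hn) (F₀ i), fun x hx i => ?_⟩
    obtain ⟨a, ha, hxa⟩ := hF₀ ((τ : GQ)⁻¹ • x) (mk_smul_eq hM0 hτi hx) i
    refine ⟨(τ : GQ) a,
      (Fermat.Agent.S05.Inertia.apply_mem_iff_of_mem_decomposition τ.2 a).mpr ha, ?_⟩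
    have h1 := congrArg (τ : GQ) hxa
    rw [map_sub, map_mul, apply_aeval τ.2 hn, ← smul_neg] at h1
    have h2 : (τ : GQ) (algebraMap ↥(fixRing A Γ) Qbar (fixHom hτi hni d)) =
        algebraMap ↥(fixRing A Γ) Qbar d := by
      show (τ : GQ) ((τ : GQ)⁻¹ (d : Qbar)) = (d : Qbar)
      simp only [AlgEquiv.apply_symm_apply, AlgEquiv.aut_inv]
    rw [h2] at h1
    exact h1

end Family

/-! ### Stability of the order under `star τ`, `τ ∈ D` -/

section Stable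

variable {A : ValuationSubring Qbar} {Γ : Subgroup GQ}
variable {M : Type*} [AddCommGroup M] [DistribMulAction GQ M]
variable {M0 : AddSubgroup M} {ι₀ : Type*} {g : ℕ}

/-- `star τ` is semilinear over the endomorphism `fixHom` of `fixRing A Γ`. -/
theorem star_algebraMap {τ : GQ} (hτ : τ ∈ A.decompositionSubgroup ℚ)
    (hn : ∀ σ ∈ Γ, τ⁻¹ * σ * τ ∈ Γ) (r : ↥(fixRing A Γ)) :
    star τ (algebraMap ↥(fixRing A Γ) (M → Qbar) r) =
      algebraMap ↥(fixRing A Γ) (M → Qbar) (fixHom hτ hn r) := rfl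

/-- The functions whose `star τ`-transform lies in a given subalgebra form a subalgebra. -/
def starComap {τ : GQ} (hτ : τ ∈ A.decompositionSubgroup ℚ) (hn : ∀ σ ∈ Γ, τ⁻¹ * σ * τ ∈ Γ)
    (H : Subalgebra ↥(fixRing A Γ) (M → Qbar)) : Subalgebra ↥(fixRing A Γ) (M → Qbar) where
  carrier := {f | star τ f ∈ H}
  mul_mem' := by
    intro f f' hf hf'
    show star τ (f * f') ∈ H
    rw [StarAct26.star_mul_fn]
    exact H.mul_mem hf hf'
  add_mem' := by
    intro f f' hf hf'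
    show star τ (f + f') ∈ H
    rw [StarAct26.star_add]
    exact H.add_mem hf hf'
  algebraMap_mem' := by
    intro r
    show star τ (algebraMap ↥(fixRing A Γ) (M → Qbar) r) ∈ H
    rw [star_algebraMap hτ hn]
    exact H.algebraMap_mem _

theorem mem_starComap {τ : GQ} (hτ : τ ∈ A.decompositionSubgroup ℚ)
    (hn : ∀ σ ∈ Γ, τ⁻¹ * σ * τ ∈ Γ) (H : Subalgebra ↥(fixRing A Γ) (M → Qbar)) (f : M → Qbar) :
    f ∈ starComap hτ hn H ↔ star τ f ∈ H := Iff.rfl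

/-- `star τ` of a coset indicator is a coset indicator. -/
theorem star_ind (hM0 : ∀ τ ∈ A.decompositionSubgroup ℚ, ∀ x ∈ M0, τ • x ∈ M0)
    {τ : GQ} (hτ : τ ∈ A.decompositionSubgroup ℚ) (x₀ : M) :
    star τ (ind M0 Qbar (QuotientAddGroup.mk x₀)) = ind M0 Qbar (QuotientAddGroup.mk (τ • x₀)) := by
  classical
  funext x
  have hiff : ((QuotientAddGroup.mk (τ⁻¹ • x) : M ⧸ M0) = QuotientAddGroup.mk x₀) ↔
      ((QuotientAddGroup.mk x : M ⧸ M0) = QuotientAddGroup.mk (τ • x₀)) := by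
    constructor
    · intro h
      have := mk_smul_eq hM0 hτ h
      rwa [smul_inv_smul] at this
    · intro h
      have := mk_smul_eq hM0 (inv_mem hτ) h
      rwa [inv_smul_smul] at this
  rw [star_apply]
  unfold ind
  by_cases h : (QuotientAddGroup.mk (τ⁻¹ • x) : M ⧸ M0) = QuotientAddGroup.mk x₀
  · rw [if_pos h, if_pos (hiff.mp h), map_one]
  · rw [if_neg h, if_neg (fun h' => h (hiff.mpr h')), map_zero]

/-- `star τ` permutes the transported coordinates. -/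
theorem star_coord (X₀ : ι₀ → M → Fin g → Qbar) {τ : GQ} (hτ : τ ∈ A.decompositionSubgroup ℚ)
    (τ' : ↥(A.decompositionSubgroup ℚ)) (χ : ι₀) (i : Fin g) :
    star τ (coord (stab A X₀) (τ', χ) i) = coord (stab A X₀) (⟨τ, hτ⟩ * τ', χ) i := by
  funext x
  show τ ((τ' : GQ) (X₀ χ ((τ' : GQ)⁻¹ • (τ⁻¹ • x)) i)) =
    (τ * (τ' : GQ)) (X₀ χ ((τ * (τ' : GQ))⁻¹ • x) i)
  rw [mul_inv_rev, mul_smul, AlgEquiv.mul_apply]

/-- **`hstab`**: the order generated by the transported family is stable under `star τ`, `τ ∈ D`. -/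
theorem star_mem_order (hnorm : ∀ τ ∈ A.decompositionSubgroup ℚ, ∀ σ ∈ Γ, τ⁻¹ * σ * τ ∈ Γ)
    (hM0 : ∀ τ ∈ A.decompositionSubgroup ℚ, ∀ x ∈ M0, τ • x ∈ M0)
    (X₀ : ι₀ → M → Fin g → Qbar) :
    ∀ τ ∈ A.decompositionSubgroup ℚ, ∀ f ∈ order M0 (stab A X₀) ↥(fixRing A Γ),
      star τ f ∈ order M0 (stab A X₀) ↥(fixRing A Γ) := by
  intro τ hτ
  have hle : order M0 (stab A X₀) ↥(fixRing A Γ) ≤
      starComap hτ (hnorm τ hτ) (order M0 (stab A X₀) ↥(fixRing A Γ)) := by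
    refine Algebra.adjoin_le ?_
    rintro _ (⟨q, rfl⟩ | ⟨⟨⟨τ', χ⟩, i⟩, rfl⟩)
    · obtain ⟨x₀, rfl⟩ := QuotientAddGroup.mk_surjective q
      rw [SetLike.mem_coe, mem_starComap, star_ind hM0 hτ]
      exact ind_mem_order M0 _ _
    · rw [SetLike.mem_coe, mem_starComap]
      show star τ (coord (stab A X₀) (τ', χ) i) ∈ order M0 (stab A X₀) ↥(fixRing A Γ)
      rw [star_coord X₀ hτ]
      exact coord_mem_order M0 _ _ _
  exact fun f hf => hle hf

end Stable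

/-! ### From the `tens` form of `Δ`-closedness to the span form -/

section Bridge

variable {R Ω M : Type*} [CommRing R] [Field Ω] [Algebra R Ω]

/-- helper23's `tens H` lies in the `R`-span of the products `a(x) b(y)`, `a b ∈ H`. -/
theorem mem_span_of_mem_tens {H : Subalgebra R (M → Ω)} {u : M × M → Ω} (hu : u ∈ tens H) :
    u ∈ Submodule.span R {u : M × M → Ω | ∃ a ∈ H, ∃ b ∈ H, u = fun p => a p.1 * b p.2} := by
  rw [tens_eq_range, AlgHom.mem_range] at hu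
  obtain ⟨t, rfl⟩ := hu
  induction t using TensorProduct.induction_on with
  | zero =>
    rw [map_zero]
    exact Submodule.zero_mem _
  | tmul a b =>
    refine Submodule.subset_span ⟨a.1, a.2, b.1, b.2, ?_⟩
    rw [Algebra.TensorProduct.productMap_apply_tmul]
    rfl
  | add t t' ht ht' =>
    rw [map_add]
    exact Submodule.add_mem _ ht ht'

end Bridge

/-! ### The exit theorem -/

section Exit

variable (A : ValuationSubring Qbar) (Γ : Subgroup GQ)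
variable {M : Type*} [AddCommGroup M] [DistribMulAction GQ M]
variable (M0 : AddSubgroup M) {ι₀ : Type*} {g : ℕ}

/-- The `D`-stable order `R[e_q, τ ∘ X₀ χ i ∘ τ⁻¹]`, `R = fixRing A Γ`. -/
def stableOrder (X₀ : ι₀ → M → Fin g → Qbar) : Subalgebra ↥(fixRing A Γ) (M → Qbar) :=
  order M0 (stab A X₀) ↥(fixRing A Γ)

variable {A Γ M0}

/-- helper23's equivariance is helper26's equivariance. -/
theorem isEquivariant_of_isEqv {f : M → Qbar} (hf : IsEqv ↥Γ f) : IsEquivariant Γ f :=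
  fun σ hσ x => hf ⟨σ, hσ⟩ x

/-- **(A4+), exit**: one chart over `fixRing A Γ`, `Γ` normalised by `D`, `M0` stable under `D`
⇒ every hypothesis of helper26's descent (`exists_descended_order`) for the order `stableOrder`,
together with integrality of the values and of the counit. -/
theorem coordStable [Fintype M] [IsNoetherianRing ↥(fixRing A Γ)]
    (hnorm : ∀ τ ∈ A.decompositionSubgroup ℚ, ∀ σ ∈ Γ, τ⁻¹ * σ * τ ∈ Γ)
    (hM0 : ∀ τ ∈ A.decompositionSubgroup ℚ, ∀ x ∈ M0, τ • x ∈ M0)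
    {X₀ : ι₀ → M → Fin g → Qbar}
    (h₀ : CoordData A.toSubring M0 X₀ ↥(fixRing A Γ) ↥Γ) :
    (∀ f ∈ stableOrder A Γ M0 X₀, IsEquivariant Γ f) ∧
    (Subalgebra.toSubmodule (stableOrder A Γ M0 X₀)).FG ∧
    Submodule.span Qbar ((stableOrder A Γ M0 X₀ : Subalgebra ↥(fixRing A Γ) (M → Qbar)) :
      Set (M → Qbar)) = ⊤ ∧
    (∀ τ ∈ A.decompositionSubgroup ℚ, ∀ f ∈ stableOrder A Γ M0 X₀,
      star τ f ∈ stableOrder A Γ M0 X₀) ∧
    (∀ f ∈ stableOrder A Γ M0 X₀, (fun p : M × M => f (p.1 + p.2)) ∈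
      Submodule.span ↥(fixRing A Γ) {u : M × M → Qbar | ∃ a ∈ stableOrder A Γ M0 X₀,
        ∃ b ∈ stableOrder A Γ M0 X₀, u = fun p => a p.1 * b p.2}) ∧
    (∀ f ∈ stableOrder A Γ M0 X₀, (fun x => f (-x)) ∈ stableOrder A Γ M0 X₀) ∧
    (∀ f ∈ stableOrder A Γ M0 X₀, ∀ x, f x ∈ A) ∧
    (∀ f ∈ stableOrder A Γ M0 X₀, f 0 ∈ fixRing A Γ) := by
  have hD := coordData_stab hnorm hM0 h₀
  obtain ⟨hfg, heqv, hval, -, hdelta, hneg, heps⟩ :=
    coordOrder (fixHyp_fixRing A Γ) (algebraMap_mem A Γ) hD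
  refine ⟨fun f hf => isEquivariant_of_isEqv (heqv f hf), hfg, order_span hD,
    star_mem_order hnorm hM0 X₀, fun f hf => mem_span_of_mem_tens (hdelta f hf), hneg,
    hval, fun f hf => ?_⟩
  obtain ⟨r, hr⟩ := heps f hf
  rw [← hr]
  exact r.2

end Exit

end Fermat.Agent.ES.V19.CoordStable20
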