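/-
Programme V (S19 by hand, route `S19_ROUTE23.md`, SPINE v1), chapter (B4′), leaf **(Le)**
"NEED-2 density", helper28 — file 1: **the abstract core** (pure algebra, no geometry).

Mathematical content (helper23's proof notes).  `A` is the valuation ring of `Q̄` over `ℓ`
(here: any domain whose divisibility is total), `ϖ ∈ A`, `R = A ⧸ (ϖ)`, `B = B^♯` the ring of
Gauss-integral functions whose poles lie in the discs of `E₀` (here: any `A`-algebra),
`E = Exp^R : B → Lam g R` the truncated Laurent expansions at the `Q_i`, `rho : B → F̃` the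
reduction, `evS` the value at the auxiliary point `P_⋆`, `bbF i n ∈ B` the integral basis with exact
polar parts (`D : BasisData O g`, helper14).  CLAIM: `E f ∈ AR D R` for every `f ∈ B`.

Proof: peel the polar parts of order `≥ 2` of `E f` with the `bbF i n` (lifting the coefficients
from `R` to `A`); the rest `f₂` has at most simple polar parts.  Put `c₀ = f₂(P_⋆)` and
`h = f₂ - c₀`.  If `h ≠ 0` write `h = a • g` with `ḡ ≠ 0` (scaling).  If `ϖ ∣ a` then `E h = 0`.
Otherwise `ϖ = a μ` with `μ` a non-unit, the polar coefficients of order `≥ 2` of `E g` are killed by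
`a` in `A ⧸ (ϖ)`, hence lie in `μ R`, hence vanish modulo the maximal ideal; by `hconst`
(geometrically: (r1) + `l(Ē₀) = 1`) `ḡ` is a constant, equal to the residue of `g(P_⋆)`, and
`a * g(P_⋆) = h(P_⋆) = 0`: contradiction with `ḡ ≠ 0`.  So `E f₂ = c₀ • 1`.

No induction on valuations, no discreteness, no completeness.
-/
import Mathlib
import Fermat.Agent.ES.V19.NormalFormBasis14

set_option autoImplicit false

noncomputable section

namespace Fermat.Agent.ES.V19.DensityCore28

open scoped BigOperators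
open Fermat.Agent.ES.V19.LaurentMap19 (Lam wLam mapLam)
open Fermat.Agent.ES.V19.LaurentTuple14
open Fermat.Agent.ES.V19.NormalFormBasis14

variable {A : Type*} [CommRing A]
variable {k : Type*} [Field k]
variable {B : Type*} [CommRing B] [Algebra A B]
variable {Ft : Type*} [CommRing Ft] [Algebra k Ft]
variable {O : Type*} [CommRing O] [Algebra O A] {g : ℕ}

/-- `R = A ⧸ (ϖ)`. -/
abbrev Rq (ϖ : A) : Type _ := A ⧸ Ideal.span {ϖ}

/-- The abstract input of (Le).  `R = A ⧸ (ϖ)`; `resR : R →+* k` is the residue map (it kills the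
non-units); `E` is `Exp^R`; `rho` the reduction; `evS` the value at `P_⋆`; `bbF` the integral basis
inside `B`. -/
structure DensHyp (D : BasisData O g) (ϖ : A)
    (resR : (Rq ϖ) →+* k)
    (E : B →+* Lam g (Rq ϖ)) (rho : B →+* Ft) (evS : B →ₐ[A] A)
    (bbF : Fin g → ℕ → B) : Prop where
  /-- divisibility in `A` is total (valuation ring) -/
  total : ∀ a b : A, a ∣ b ∨ b ∣ a
  /-- the residue map kills the non-units -/
  res_nonunit : ∀ a : A, ¬ IsUnit a → resR (Ideal.Quotient.mk _ a) = 0
  /-- `E` is semilinear over `A → R` -/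
  E_smul : ∀ (a : A) (b : B), E (a • b) = (Ideal.Quotient.mk (Ideal.span {ϖ}) a) • E b
  /-- `E` of the integral basis is the base-changed basis -/
  E_bb : ∀ (i : Fin g) (n : ℕ), E (bbF i n) = genR D (Rq ϖ) (some (i, n))
  /-- scaling inside `B` -/
  scale : ∀ b : B, b ≠ 0 → ∃ (a : A) (b' : B), a ≠ 0 ∧ rho b' ≠ 0 ∧ b = a • b'
  /-- (r1) + `l(Ē₀) = 1`: if the polar coefficients of order `≥ 2` of `E b` vanish modulo the
  maximal ideal then `b̄` is a constant -/
  const : ∀ b : B, (∀ (i : Fin g) (m : ℤ), m < -1 → resR (co i m (E b)) = 0) →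
    ∃ x : k, rho b = algebraMap k Ft x
  /-- the constant is the residue of the value at `P_⋆` -/
  value : ∀ (b : B) (x : k), rho b = algebraMap k Ft x →
    x = resR (Ideal.Quotient.mk _ (evS b))

variable {D : BasisData O g} {ϖ : A} {resR : (Rq ϖ) →+* k}
  {E : B →+* Lam g (Rq ϖ)} {rho : B →+* Ft} {evS : B →ₐ[A] A}
  {bbF : Fin g → ℕ → B}

theorem E_algebraMap (H : DensHyp D ϖ resR E rho evS bbF) (a : A) :
    E (algebraMap A B a) = (Ideal.Quotient.mk (Ideal.span {ϖ}) a) • (1 : Lam g (Rq ϖ)) := by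
  have := H.E_smul a 1
  rwa [Algebra.smul_def, mul_one, map_one] at this

/-- PEEL: every `f` differs, modulo `Asub`, from an `f₂` whose expansion has only simple polar
parts. -/
theorem exists_peel (H : DensHyp D ϖ resR E rho evS bbF) (N : ℕ) :
    ∀ f : B, (∀ (i : Fin g) (m : ℤ), m < -((N : ℤ) + 1) → co i m (E f) = 0) →
      ∃ f₂ : B, (∀ (i : Fin g) (m : ℤ), m < -1 → co i m (E f₂) = 0) ∧
        E f - E f₂ ∈ Asub D (Rq ϖ) := by
  induction N with
  | zero =>
    intro f hf
    refine ⟨f, fun i m hm => hf i m (by push_cast; omega), ?_⟩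
    rw [sub_self]
    exact Submodule.zero_mem _
  | succ N ih =>
    intro f hf
    -- lift the coefficients of order `N + 2`
    have hlift : ∀ i : Fin g, ∃ e : A,
        Ideal.Quotient.mk (Ideal.span {ϖ}) e = co i (-((N : ℤ) + 2)) (E f) :=
      fun i => Ideal.Quotient.mk_surjective _
    choose e he using hlift
    set f' : B := f - ∑ i, e i • bbF i N with hf'
    have hEf' : E f' = E f - ∑ i, co i (-((N : ℤ) + 2)) (E f) • genR D (Rq ϖ) (some (i, N)) := by
      rw [hf', map_sub, map_sum]
      congr 1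
      refine Finset.sum_congr rfl fun i _ => ?_
      rw [H.E_smul, H.E_bb, he]
    obtain ⟨f₂, hf₂, hmem⟩ := ih f' (by
      intro l m hm
      rw [hEf', map_sub, co_sum_smul_genR D (Rq ϖ) N _ l m (by omega)]
      by_cases h : m = -((N : ℤ) + 2)
      · rw [if_pos h, h, sub_self]
      · rw [if_neg h, sub_zero]
        exact hf l m (by push_cast; omega))
    refine ⟨f₂, hf₂, ?_⟩
    have : E f - E f₂ = (E f' - E f₂) +
        ∑ i, co i (-((N : ℤ) + 2)) (E f) • genR D (Rq ϖ) (some (i, N)) := by
      rw [hEf']; ring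
    rw [this]
    exact Submodule.add_mem _ hmem (sum_smul_genR_mem D (Rq ϖ) N _)

/-- the key step: an `f₂` with at most simple polar parts expands to a constant. -/
theorem E_eq_const [IsDomain A] (H : DensHyp D ϖ resR E rho evS bbF)
    (f₂ : B) (hf₂ : ∀ (i : Fin g) (m : ℤ), m < -1 → co i m (E f₂) = 0) :
    E f₂ = (Ideal.Quotient.mk (Ideal.span {ϖ}) (evS f₂)) • (1 : Lam g (Rq ϖ)) := by
  set c₀ : A := evS f₂ with hc₀
  set h : B := f₂ - algebraMap A B c₀ with hh
  have hEh : E h = 0 → E f₂ = (Ideal.Quotient.mk (Ideal.span {ϖ}) c₀) • (1 : Lam g (Rq ϖ)) := by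
    intro h0
    rw [hh, map_sub, E_algebraMap H, sub_eq_zero] at h0
    exact h0
  apply hEh
  by_cases h0 : h = 0
  · rw [h0, map_zero]
  obtain ⟨a, g', ha, hg', hag⟩ := H.scale h h0
  by_cases hdvd : ϖ ∣ a
  · -- `a = 0` in `R`
    have : Ideal.Quotient.mk (Ideal.span {ϖ}) a = 0 :=
      Ideal.Quotient.eq_zero_iff_mem.2 (Ideal.mem_span_singleton.2 hdvd)
    rw [hag, H.E_smul, this, zero_smul]
  · exfalso
    -- `ϖ = a μ`, `μ` a non-unit
    obtain ⟨μ, hμ⟩ : a ∣ ϖ := (H.total a ϖ).resolve_right hdvd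
    have hμu : ¬ IsUnit μ := by
      rintro ⟨u, rfl⟩
      exact hdvd ⟨((u⁻¹ : Aˣ) : A), by rw [hμ, mul_assoc, Units.mul_inv, mul_one]⟩
    -- value of `g'` at `P_⋆` vanishes
    have hev : evS g' = 0 := by
      have h1 : evS h = 0 := by
        rw [hh, map_sub, AlgHom.commutes, ← hc₀]
        exact sub_self _
      rw [hag, map_smul, smul_eq_mul] at h1
      exact (mul_eq_zero.1 h1).resolve_left ha
    -- the polar coefficients of order `≥ 2` of `E g'` vanish modulo the maximal ideal
    have hpol : ∀ (i : Fin g) (m : ℤ), m < -1 → resR (co i m (E g')) = 0 := by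
      intro i m hm
      obtain ⟨x, hx⟩ := Ideal.Quotient.mk_surjective (I := Ideal.span {ϖ}) (co i m (E g'))
      have h1 : Ideal.Quotient.mk (Ideal.span {ϖ}) (a * x) = 0 := by
        have h2 : co i m (E h) = 0 := by
          rw [hh, map_sub, E_algebraMap H, map_sub, hf₂ i m hm, map_smul, co_one,
            if_neg (by omega), smul_zero, sub_zero]
        rw [hag, H.E_smul, map_smul, smul_eq_mul, ← hx, ← map_mul] at h2
        exact h2
      obtain ⟨y, hy⟩ := Ideal.mem_span_singleton.1 (Ideal.Quotient.eq_zero_iff_mem.1 h1)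
      have hxy : x = μ * y := by
        have : a * x = a * (μ * y) := by rw [hy, hμ, mul_assoc]
        exact mul_left_cancel₀ ha this
      rw [← hx]
      apply H.res_nonunit
      rw [hxy]
      exact fun hu => hμu (isUnit_of_mul_isUnit_left hu)
    obtain ⟨x₀, hx₀⟩ := H.const g' hpol
    have := H.value g' x₀ hx₀
    rw [hev, map_zero, map_zero] at this
    exact hg' (by rw [hx₀, this, map_zero])

/-- **(Le), abstract core**: the truncated expansion of every element of `B^♯` lies in the
`R`-span `AR D R` of `1` and the (base-changed) integral basis. -/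
theorem E_mem_AR [IsDomain A] (H : DensHyp D ϖ resR E rho evS bbF) (f : B) : E f ∈ AR D (Rq ϖ) := by
  rw [mem_AR]
  obtain ⟨N, hN⟩ := exists_pole_bound (Rq ϖ) (E f)
  obtain ⟨f₂, hf₂, hmem⟩ := exists_peel H N f (fun i m hm => hN i m (by omega))
  have h2 : E f₂ ∈ Asub D (Rq ϖ) := by
    rw [E_eq_const H f₂ hf₂]
    exact Submodule.smul_mem _ _ (one_mem_Asub D (Rq ϖ))
  have : E f = (E f - E f₂) + E f₂ := by ring
  rw [this]
  exact Submodule.add_mem _ hmem h2

end Fermat.Agent.ES.V19.DensityCore28
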