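/-
Programme V (S19 by hand, route `S19_ROUTE23.md`, SPINE v1), chapter (B4′), leaf **(Le)**
"NEED-2 density", helper28 — file 2: **extension of a ring homomorphism to fractions with
denominators a power of one element** (pure algebra, Mathlib only).

`F` a field, `C ≤ F` a subring, `x ∈ C`.
* `awaySub C x : Subring F` : the `f ∈ F` with `f * x ^ n ∈ C` for some `n`;
* for `φ : C →+* T` with `φ x` a unit: `ext C x φ hφ : awaySub C x →+* T`, THE extension of `φ`:
  `ext_mul_pow` : `ext f * φ x ^ n = φ (f * x ^ n)` whenever `f * x ^ n ∈ C`;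
  `ext_of_mem`  : `ext c = φ c` for `c ∈ C`.
(No `IsLocalization` is used, so that the consumers never have to unfold a `lift`.)
-/
import Mathlib

set_option autoImplicit false

noncomputable section

namespace Fermat.Agent.ES.V19.FracExt28

variable {F : Type*} [Field F] (C : Subring F) (x : ↥C)

/-- the fractions `c / x ^ n`, `c ∈ C`. -/
def awaySub : Subring F where
  carrier := {f | ∃ n : ℕ, f * (x : F) ^ n ∈ C}
  mul_mem' := by
    rintro f f' ⟨n, hn⟩ ⟨m, hm⟩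
    refine ⟨n + m, ?_⟩
    have h : f * f' * (x : F) ^ (n + m) = (f * (x : F) ^ n) * (f' * (x : F) ^ m) := by ring
    rw [h]
    exact C.mul_mem hn hm
  one_mem' := ⟨0, by rw [pow_zero, mul_one]; exact C.one_mem⟩
  add_mem' := by
    rintro f f' ⟨n, hn⟩ ⟨m, hm⟩
    refine ⟨n + m, ?_⟩
    have h : (f + f') * (x : F) ^ (n + m) =
        (f * (x : F) ^ n) * (x : F) ^ m + (f' * (x : F) ^ m) * (x : F) ^ n := by ring
    rw [h]
    exact C.add_mem (C.mul_mem hn (C.pow_mem x.2 m)) (C.mul_mem hm (C.pow_mem x.2 n))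
  zero_mem' := ⟨0, by rw [zero_mul]; exact C.zero_mem⟩
  neg_mem' := by
    rintro f ⟨n, hn⟩
    exact ⟨n, by rw [neg_mul]; exact C.neg_mem hn⟩

theorem mem_awaySub_iff (f : F) : f ∈ awaySub C x ↔ ∃ n : ℕ, f * (x : F) ^ n ∈ C := Iff.rfl

theorem le_awaySub : C ≤ awaySub C x := fun f hf => ⟨0, by rw [pow_zero, mul_one]; exact hf⟩

theorem mem_awaySub_of_mul_pow {f : F} (n : ℕ) (h : f * (x : F) ^ n ∈ C) : f ∈ awaySub C x :=
  ⟨n, h⟩

variable {T : Type*} [CommRing T] (φ : ↥C →+* T) (hφ : IsUnit (φ x))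

/-- the underlying function of the extension. -/
def extFun (f : ↥(awaySub C x)) : T :=
  φ ⟨(f : F) * (x : F) ^ f.2.choose, f.2.choose_spec⟩ * ((hφ.unit⁻¹ : Tˣ) : T) ^ f.2.choose

theorem extFun_mul_pow (f : ↥(awaySub C x)) (n : ℕ) (h : (f : F) * (x : F) ^ n ∈ C) :
    extFun C x φ hφ f * φ x ^ n = φ ⟨(f : F) * (x : F) ^ n, h⟩ := by
  set m : ℕ := f.2.choose with hm
  have hu : φ x * ((hφ.unit⁻¹ : Tˣ) : T) = 1 := by
    have := hφ.unit.mul_inv
    rwa [IsUnit.unit_spec] at this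
  have hup : φ x ^ m * ((hφ.unit⁻¹ : Tˣ) : T) ^ m = 1 := by
    rw [← mul_pow, hu, one_pow]
  have hC : (⟨(f : F) * (x : F) ^ m, f.2.choose_spec⟩ : ↥C) * x ^ n =
      (⟨(f : F) * (x : F) ^ n, h⟩ : ↥C) * x ^ m := by
    apply Subtype.ext
    show (f : F) * (x : F) ^ m * (x : F) ^ n = (f : F) * (x : F) ^ n * (x : F) ^ m
    ring
  have hφC := congrArg φ hC
  rw [map_mul, map_mul, map_pow, map_pow] at hφC
  show φ ⟨(f : F) * (x : F) ^ m, f.2.choose_spec⟩ * ((hφ.unit⁻¹ : Tˣ) : T) ^ m * φ x ^ n = _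
  calc φ ⟨(f : F) * (x : F) ^ m, f.2.choose_spec⟩ * ((hφ.unit⁻¹ : Tˣ) : T) ^ m * φ x ^ n
      = (φ ⟨(f : F) * (x : F) ^ m, f.2.choose_spec⟩ * φ x ^ n) * ((hφ.unit⁻¹ : Tˣ) : T) ^ m := by
        ring
    _ = φ ⟨(f : F) * (x : F) ^ n, h⟩ * (φ x ^ m * ((hφ.unit⁻¹ : Tˣ) : T) ^ m) := by
        rw [hφC]; ring
    _ = φ ⟨(f : F) * (x : F) ^ n, h⟩ := by rw [hup, mul_one]

/-- the value is determined by any admissible exponent. -/
theorem extFun_unique (f : ↥(awaySub C x)) (n : ℕ) (h : (f : F) * (x : F) ^ n ∈ C) (t : T)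
    (ht : t * φ x ^ n = φ ⟨(f : F) * (x : F) ^ n, h⟩) : extFun C x φ hφ f = t := by
  have h1 := extFun_mul_pow C x φ hφ f n h
  exact (hφ.pow n).mul_left_injective (h1.trans ht.symm)

/-- **the extension of `φ` to the fractions with denominator a power of `x`.** -/
def ext : ↥(awaySub C x) →+* T where
  toFun := extFun C x φ hφ
  map_one' := by
    have h : ((1 : ↥(awaySub C x)) : F) * (x : F) ^ 0 ∈ C := by
      rw [pow_zero, mul_one]; exact C.one_mem
    refine extFun_unique C x φ hφ 1 0 h 1 ?_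
    rw [pow_zero, mul_one]
    have : (⟨((1 : ↥(awaySub C x)) : F) * (x : F) ^ 0, h⟩ : ↥C) = 1 := by
      apply Subtype.ext
      show (1 : F) * (x : F) ^ 0 = 1
      rw [pow_zero, mul_one]
    rw [this, map_one]
  map_mul' := by
    intro f f'
    obtain ⟨n, hn⟩ := f.2
    obtain ⟨m, hm⟩ := f'.2
    have h : ((f * f' : ↥(awaySub C x)) : F) * (x : F) ^ (n + m) ∈ C := by
      have h' : ((f * f' : ↥(awaySub C x)) : F) * (x : F) ^ (n + m) =
          ((f : F) * (x : F) ^ n) * ((f' : F) * (x : F) ^ m) := by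
        rw [Subring.coe_mul]; ring
      rw [h']
      exact C.mul_mem hn hm
    refine extFun_unique C x φ hφ (f * f') (n + m) h _ ?_
    have hC : (⟨((f * f' : ↥(awaySub C x)) : F) * (x : F) ^ (n + m), h⟩ : ↥C) =
        ⟨(f : F) * (x : F) ^ n, hn⟩ * ⟨(f' : F) * (x : F) ^ m, hm⟩ := by
      apply Subtype.ext
      show ((f * f' : ↥(awaySub C x)) : F) * (x : F) ^ (n + m) =
        ((f : F) * (x : F) ^ n) * ((f' : F) * (x : F) ^ m)
      rw [Subring.coe_mul]; ring
    rw [hC, map_mul, ← extFun_mul_pow C x φ hφ f n hn, ← extFun_mul_pow C x φ hφ f' m hm]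
    ring
  map_zero' := by
    have h : ((0 : ↥(awaySub C x)) : F) * (x : F) ^ 0 ∈ C := by
      rw [pow_zero, mul_one]; exact C.zero_mem
    refine extFun_unique C x φ hφ 0 0 h 0 ?_
    rw [zero_mul]
    have : (⟨((0 : ↥(awaySub C x)) : F) * (x : F) ^ 0, h⟩ : ↥C) = 0 := by
      apply Subtype.ext
      show (0 : F) * (x : F) ^ 0 = 0
      rw [zero_mul]
    rw [this, map_zero]
  map_add' := by
    intro f f'
    obtain ⟨n, hn⟩ := f.2
    obtain ⟨m, hm⟩ := f'.2
    have h : ((f + f' : ↥(awaySub C x)) : F) * (x : F) ^ (n + m) ∈ C := by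
      have h' : ((f + f' : ↥(awaySub C x)) : F) * (x : F) ^ (n + m) =
          ((f : F) * (x : F) ^ n) * (x : F) ^ m + ((f' : F) * (x : F) ^ m) * (x : F) ^ n := by
        rw [Subring.coe_add]; ring
      rw [h']
      exact C.add_mem (C.mul_mem hn (C.pow_mem x.2 m)) (C.mul_mem hm (C.pow_mem x.2 n))
    refine extFun_unique C x φ hφ (f + f') (n + m) h _ ?_
    have hC : (⟨((f + f' : ↥(awaySub C x)) : F) * (x : F) ^ (n + m), h⟩ : ↥C) =
        ⟨(f : F) * (x : F) ^ n, hn⟩ * x ^ m + ⟨(f' : F) * (x : F) ^ m, hm⟩ * x ^ n := by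
      apply Subtype.ext
      show ((f + f' : ↥(awaySub C x)) : F) * (x : F) ^ (n + m) =
        ((f : F) * (x : F) ^ n) * (x : F) ^ m + ((f' : F) * (x : F) ^ m) * (x : F) ^ n
      rw [Subring.coe_add]; ring
    rw [hC, map_add, map_mul, map_mul, map_pow, map_pow,
      ← extFun_mul_pow C x φ hφ f n hn, ← extFun_mul_pow C x φ hφ f' m hm]
    ring

/-- the characterising property of the extension. -/
theorem ext_mul_pow (f : ↥(awaySub C x)) (n : ℕ) (h : (f : F) * (x : F) ^ n ∈ C) :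
    ext C x φ hφ f * φ x ^ n = φ ⟨(f : F) * (x : F) ^ n, h⟩ :=
  extFun_mul_pow C x φ hφ f n h

/-- on `C` the extension is `φ`. -/
theorem ext_of_mem (c : ↥C) : ext C x φ hφ ⟨(c : F), le_awaySub C x c.2⟩ = φ c := by
  have h : (c : F) * (x : F) ^ 0 ∈ C := by rw [pow_zero, mul_one]; exact c.2
  have h1 := ext_mul_pow C x φ hφ ⟨(c : F), le_awaySub C x c.2⟩ 0 h
  rw [pow_zero, mul_one] at h1
  rw [h1]
  congr 1
  apply Subtype.ext
  show (c : F) * (x : F) ^ 0 = (c : F)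
  rw [pow_zero, mul_one]

/-- the extension is determined by any admissible exponent. -/
theorem ext_unique (f : ↥(awaySub C x)) (n : ℕ) (h : (f : F) * (x : F) ^ n ∈ C) (t : T)
    (ht : t * φ x ^ n = φ ⟨(f : F) * (x : F) ^ n, h⟩) : ext C x φ hφ f = t :=
  extFun_unique C x φ hφ f n h t ht

end Fermat.Agent.ES.V19.FracExt28
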