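/-
Programme V (S19 by hand, route `S19_ROUTE23.md`, SPINE v1), chapter (B4′), leaf **(Le)**
"NEED-2 density", helper28 — file 3: **the geometric instantiation of the abstract core**
(`DensityCore28`) in helper15's reduction context `SupTrick15.RedCtx`.

Setting: fields `F / L`, `Ft / k` arbitrary; `A : ValuationSubring L`, `π : A →+* k`,
`G ⊂ F` with `red : G →+* Ft`, `r : Place L F → Place k Ft` (`RedCtx A π G red r`), `HL : LHyp L F`.

* `LocExp G red r π Q` : the LOCAL EXPANSION DATUM at a place `Q` of the special fibre — the local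
  ring `CQ ≤ gaussInt G red` of the disc of `Q`, the parameter `τ ∈ CQ`, the Taylor expansion
  `tay : CQ →+* A⟦X⟧` (`tay τ = X`, `tay a = C a`), (Db) `mem_of_reg`, its converse `reg`, the
  order inequality `ord_le` (coefficients of `tay f` vanishing modulo `𝔪_A` below `n` ⇒
  `n ≤ ord_Q (rho f)`) and `ord_τ : ord_Q (rho τ) = 1`.  To be produced from helper3's
  `DiscTaylor3.ZeroPt` (`CQ T Q`, `taylorQ`) and `DiscRed3`.
* `DensBase D` : the FIXED data — `g` distinct places `Qb i` with data `X i`, centres `P0 i`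
  (zeros of `τ_i` in the disc of `Qb i`), an auxiliary place `Qs` with datum `Xs`, a divisor
  `Ebar ≥ ∑ Qb i` on the special fibre with `L(Ebar) = k`, and the integral basis
  `bbF i n ∈ F` (Gauss-integral, poles only at the `P0 l`) whose Laurent expansions in the `τ_l` are
  the `D.bb i n` of `D : BasisData O g` (`bb_exp`).
* `DensPt Bs` : the data VARYING with the application — `ϖ ∈ A`, points `P1 i` in the discs with
  parameters `s i` (`ϖ ∣ s i ^ N`).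

Output, with `R := A ⧸ (ϖ)`:
* `Bsharp Bs Pt : Subring F` : Gauss-integral functions whose poles are among the `P0 i`, `P1 i`;
* `Sloc Bs Pt i : Subring F` : fractions `c / (τ_i (τ_i - s_i)) ^ n`, `c ∈ CQ_i`; `Bsharp_le_Sloc`;
* `ExpR Bs Pt i : Sloc i →+* LaurentSeries R` with the rules `ExpR_const`, `ExpR_tau`,
  `ExpR_of_mem` (on `CQ_i` it is `ofPowerSeries ∘ map mk ∘ tay`), `ExpR_tau_sub`;
* **`dens_mem_AR`** : for `f ∈ Bsharp` and `e : Lam g R` with `e i = ExpR i f` for all `i`: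
  `e ∈ AR D R`.
-/
import Mathlib
import Fermat.Agent.ES.V19.SupTrick15
import Fermat.Agent.ES.V19.DensityCore28
import Fermat.Agent.ES.V19.FracExt28

set_option autoImplicit false
set_option linter.style.haveILetI false

open AlgebraicCurve

noncomputable section

namespace Fermat.Agent.ES.V19.DensityInst28

open scoped BigOperators
open HahnSeries
open Fermat.Agent.X0.FF Fermat.Agent.RR.LSpace Fermat.Agent.ES.V19.GaussFrac15
  Fermat.Agent.ES.V19.SupTrick15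
open Fermat.Agent.ES.V19.LaurentMap19 (Lam wLam mapLam)
open Fermat.Agent.ES.V19.LaurentTuple14 Fermat.Agent.ES.V19.NormalFormBasis14
open Fermat.Agent.ES.V19.DensityCore28 Fermat.Agent.ES.V19.FracExt28

/-! ### Laurent series: three small lemmas -/

section Laurent

variable {R S : Type*} [CommRing R] [CommRing S]

theorem ofPS_coeff_neg (p : PowerSeries R) {m : ℤ} (hm : m < 0) :
    (ofPowerSeries ℤ R p).coeff m = 0 := by
  rw [ofPowerSeries_apply]
  apply embDomain_of_notMem_range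
  rintro ⟨n, hn⟩
  have : (n : ℤ) = m := hn
  omega

theorem coeffMap_ofPS (f : R →+* S) (p : PowerSeries R) :
    ModularCurve.coeffMap f (ofPowerSeries ℤ R p) = ofPowerSeries ℤ S (PowerSeries.map f p) := by
  ext m
  rw [ModularCurve.coeffMap_coeff]
  rcases lt_or_ge m 0 with hm | hm
  · rw [ofPS_coeff_neg p hm, ofPS_coeff_neg _ hm, map_zero]
  · obtain ⟨n, rfl⟩ := Int.eq_ofNat_of_zero_le hm
    rw [ofPowerSeries_apply_coeff, ofPowerSeries_apply_coeff, PowerSeries.coeff_map]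

theorem isUnit_single_one : IsUnit (single (1 : ℤ) (1 : R)) := by
  refine ⟨⟨single 1 1, single (-1) 1, ?_, ?_⟩, rfl⟩
  · rw [single_mul_single]; simp
  · rw [single_mul_single]; simp

theorem isUnit_X_sub_C {s : R} (hs : IsNilpotent s) :
    IsUnit (single (1 : ℤ) (1 : R) - HahnSeries.C s) := by
  rw [sub_eq_add_neg]
  refine IsNilpotent.isUnit_add_left_of_commute ?_ isUnit_single_one (Commute.all _ _)
  exact (hs.map (HahnSeries.C : R →+* HahnSeries ℤ R)).neg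

end Laurent

variable {L F k Ft : Type*} [Field L] [Field F] [Algebra L F] [Field k] [Field Ft] [Algebra k Ft]
variable {A : ValuationSubring L}

/-- **The local expansion datum at a place `Q` of the special fibre.** -/
structure LocExp (G : Subring F) (red : ↥G →+* Ft) (r : Place L F → Place k Ft)
    (π : ↥A →+* k) (Q : Place k Ft) where
  /-- the local ring of the disc of `Q` -/
  CQ : Subring F
  le_gauss : CQ ≤ gaussInt G red
  const_mem : ∀ a : ↥A, algebraMap L F (a : L) ∈ CQ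
  /-- the parameter -/
  τ : ↥CQ
  /-- the Taylor expansion in `τ` -/
  tay : ↥CQ →+* PowerSeries ↥A
  tay_const : ∀ a : ↥A, tay ⟨algebraMap L F (a : L), const_mem a⟩ = PowerSeries.C a
  tay_τ : tay τ = PowerSeries.X
  /-- (Db) -/
  mem_of_reg : ∀ f : F, f ∈ gaussInt G red → (∀ P : Place L F, r P = Q → 0 ≤ P.ord f) → f ∈ CQ
  reg : ∀ f : F, f ∈ CQ → ∀ P : Place L F, r P = Q → 0 ≤ P.ord f
  /-- compatibility of the Taylor expansion with the reduction (one inequality) -/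
  ord_le : ∀ (f : ↥CQ) (n : ℕ), (∀ m < n, π (PowerSeries.coeff m (tay f)) = 0) →
    rho G red ⟨(f : F), le_gauss f.2⟩ ≠ 0 →
      (n : ℤ) ≤ Q.ord (rho G red ⟨(f : F), le_gauss f.2⟩)
  /-- `Q` is GOOD: the reduction of `τ` is a uniformiser at `Q` -/
  ord_τ : Q.ord (rho G red ⟨(τ : F), le_gauss τ.2⟩) = 1

namespace LocExp

variable {G : Subring F} {red : ↥G →+* Ft} {r : Place L F → Place k Ft} {π : ↥A →+* k}
  {Q : Place k Ft} (X : LocExp G red r π Q)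

/-- constants of `A` in the local ring. -/
def constC : ↥A →+* ↥X.CQ where
  toFun a := ⟨algebraMap L F (a : L), X.const_mem a⟩
  map_one' := Subtype.ext (by simp)
  map_mul' a b := Subtype.ext (by simp)
  map_zero' := Subtype.ext (by simp)
  map_add' a b := Subtype.ext (by simp)

@[simp] theorem coe_constC (a : ↥A) : ((X.constC a : ↥X.CQ) : F) = algebraMap L F (a : L) := rfl

theorem tay_constC (a : ↥A) : X.tay (X.constC a) = PowerSeries.C a := X.tay_const a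

/-- the reduction on the local ring. -/
def rhoC : ↥X.CQ →+* Ft := (rho G red).comp (Subring.inclusion X.le_gauss)

theorem rhoC_apply (f : ↥X.CQ) : X.rhoC f = rho G red ⟨(f : F), X.le_gauss f.2⟩ := rfl

end LocExp


variable {G : Subring F} {red : ↥G →+* Ft} {r : Place L F → Place k Ft} {π : ↥A →+* k}
variable {O : Type*} [CommRing O] [Algebra O ↥A] {g : ℕ}

/-- **The fixed data of (Le).** -/
structure DensBase (G : Subring F) (red : ↥G →+* Ft) (r : Place L F → Place k Ft)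
    (π : ↥A →+* k) (D : BasisData O g) where
  C : RedCtx A π G red r
  HL : LHyp L F
  /-- the places `Q̄_i` of the special fibre -/
  Qb : Fin g → Place k Ft
  Qb_inj : Function.Injective Qb
  /-- the local data at the `Q̄_i` -/
  X : ∀ i, LocExp (A := A) G red r π (Qb i)
  /-- the centres: the zeros of the `τ_i` -/
  P0 : Fin g → Place L F
  hP0 : ∀ i, r (P0 i) = Qb i
  zero0 : ∀ i, 0 < (P0 i).ord (((X i).τ : ↥(X i).CQ) : F)
  /-- the auxiliary place -/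
  Qs : Place k Ft
  hQs : ∀ i, Qb i ≠ Qs
  Xs : LocExp (A := A) G red r π Qs
  /-- the divisor `Ē₀` -/
  Ebar : Divisor k Ft
  Ebar_nonneg : ∀ Q, 0 ≤ Ebar Q
  Ebar_Qb : ∀ i, 1 ≤ Ebar (Qb i)
  hbar : ∀ h ∈ riemannRochSpace Ebar, ∃ x : k, h = algebraMap k Ft x
  /-- the integral basis -/
  bbF : Fin g → ℕ → F
  bb_gauss : ∀ i n, bbF i n ∈ gaussInt G red
  bb_pole : ∀ i n (P : Place L F), (∀ l, P ≠ P0 l) → bbF i n ∈ P.toValuationSubring
  bb_exp : ∀ i n l, ∃ (m : ℕ) (h : bbF i n * (((X l).τ : ↥(X l).CQ) : F) ^ m ∈ (X l).CQ),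
    ofPowerSeries ℤ ↥A ((X l).tay ⟨_, h⟩) =
      (mapLam (algebraMap O ↥A) (D.bb i n)) l * (single (1 : ℤ) (1 : ↥A)) ^ m

/-- **The varying data of (Le).** -/
structure DensPt {D : BasisData O g} (Bs : DensBase (A := A) G red r π D) where
  /-- the modulus -/
  ϖ : ↥A
  /-- the parameters of the moving points -/
  s : Fin g → ↥A
  N : ℕ
  hnil : ∀ i, ϖ ∣ s i ^ N
  /-- the moving points -/
  P1 : Fin g → Place L F
  hP1 : ∀ i, r (P1 i) = Bs.Qb i
  zero1 : ∀ i, 0 < (P1 i).ord ((((Bs.X i).τ : ↥(Bs.X i).CQ) : F) - algebraMap L F (s i : L))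

variable {D : BasisData O g} (Bs : DensBase (A := A) G red r π D) (Pt : DensPt Bs)

/-- **`B^♯`**: the Gauss-integral functions whose poles are among the `P0 i`, `P1 i`. -/
def Bsharp : Subring F where
  carrier := {f | f ∈ gaussInt G red ∧
    ∀ P : Place L F, (∀ i, P ≠ Bs.P0 i ∧ P ≠ Pt.P1 i) → f ∈ P.toValuationSubring}
  mul_mem' := by
    rintro f f' ⟨h, hP⟩ ⟨h', hP'⟩
    exact ⟨(gaussInt G red).mul_mem h h', fun P hne =>
      P.toValuationSubring.mul_mem _ _ (hP P hne) (hP' P hne)⟩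
  one_mem' := ⟨(gaussInt G red).one_mem, fun P _ => P.toValuationSubring.one_mem⟩
  add_mem' := by
    rintro f f' ⟨h, hP⟩ ⟨h', hP'⟩
    exact ⟨(gaussInt G red).add_mem h h', fun P hne =>
      P.toValuationSubring.add_mem _ _ (hP P hne) (hP' P hne)⟩
  zero_mem' := ⟨(gaussInt G red).zero_mem, fun P _ => P.toValuationSubring.zero_mem⟩
  neg_mem' := by
    rintro f ⟨h, hP⟩
    exact ⟨(gaussInt G red).neg_mem h, fun P hne => P.toValuationSubring.neg_mem _ (hP P hne)⟩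

theorem mem_Bsharp_iff (f : F) : f ∈ Bsharp Bs Pt ↔ f ∈ gaussInt G red ∧
    ∀ P : Place L F, (∀ i, P ≠ Bs.P0 i ∧ P ≠ Pt.P1 i) → f ∈ P.toValuationSubring := Iff.rfl

theorem Bsharp_le_gauss : Bsharp Bs Pt ≤ gaussInt G red := fun _ hf => hf.1

/-- the denominator `τ_i (τ_i - s_i)`. -/
def den (i : Fin g) : ↥(Bs.X i).CQ := (Bs.X i).τ * ((Bs.X i).τ - (Bs.X i).constC (Pt.s i))

theorem coe_den (i : Fin g) : ((den Bs Pt i : ↥(Bs.X i).CQ) : F) =
    (((Bs.X i).τ : ↥(Bs.X i).CQ) : F) *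
      ((((Bs.X i).τ : ↥(Bs.X i).CQ) : F) - algebraMap L F (Pt.s i : L)) := rfl

/-- the fractions `c / (τ_i (τ_i - s_i)) ^ n`, `c ∈ CQ_i`. -/
def Sloc (i : Fin g) : Subring F := awaySub (Bs.X i).CQ (den Bs Pt i)

theorem CQ_le_Sloc (i : Fin g) : (Bs.X i).CQ ≤ Sloc Bs Pt i := le_awaySub _ _

/-- the Taylor expansion modulo `ϖ`, as a Laurent series. -/
def phi (i : Fin g) : ↥(Bs.X i).CQ →+* LaurentSeries (Rq Pt.ϖ) :=
  (ofPowerSeries ℤ (Rq Pt.ϖ)).comp
    ((PowerSeries.map (Ideal.Quotient.mk (Ideal.span {Pt.ϖ}))).comp (Bs.X i).tay)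

theorem phi_apply (i : Fin g) (u : ↥(Bs.X i).CQ) : phi Bs Pt i u =
    ofPowerSeries ℤ (Rq Pt.ϖ) (PowerSeries.map (Ideal.Quotient.mk (Ideal.span {Pt.ϖ}))
      ((Bs.X i).tay u)) := rfl

theorem phi_constC (i : Fin g) (a : ↥A) :
    phi Bs Pt i ((Bs.X i).constC a) = HahnSeries.C (Ideal.Quotient.mk (Ideal.span {Pt.ϖ}) a) := by
  rw [phi_apply, LocExp.tay_constC, PowerSeries.map_C, ofPowerSeries_C]

theorem phi_tau (i : Fin g) : phi Bs Pt i (Bs.X i).τ = single (1 : ℤ) (1 : Rq Pt.ϖ) := by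
  rw [phi_apply, (Bs.X i).tay_τ, PowerSeries.map_X, ofPowerSeries_X]

theorem phi_den (i : Fin g) : phi Bs Pt i (den Bs Pt i) =
    single (1 : ℤ) (1 : Rq Pt.ϖ) *
      (single (1 : ℤ) (1 : Rq Pt.ϖ) -
        HahnSeries.C (Ideal.Quotient.mk (Ideal.span {Pt.ϖ}) (Pt.s i))) := by
  unfold den
  rw [map_mul, map_sub, phi_tau, phi_constC]

theorem isNilpotent_mk_s (i : Fin g) :
    IsNilpotent (Ideal.Quotient.mk (Ideal.span {Pt.ϖ}) (Pt.s i)) := by
  refine ⟨Pt.N, ?_⟩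
  rw [← map_pow]
  exact Ideal.Quotient.eq_zero_iff_mem.2 (Ideal.mem_span_singleton.2 (Pt.hnil i))

theorem isUnit_phi_den (i : Fin g) : IsUnit (phi Bs Pt i (den Bs Pt i)) := by
  rw [phi_den]
  exact isUnit_single_one.mul (isUnit_X_sub_C (isNilpotent_mk_s Bs Pt i))

/-- **the truncated Laurent expansion at `Q_i`**, on the fractions `c / (τ_i (τ_i - s_i)) ^ n`. -/
def ExpR (i : Fin g) : ↥(Sloc Bs Pt i) →+* LaurentSeries (Rq Pt.ϖ) :=
  ext (Bs.X i).CQ (den Bs Pt i) (phi Bs Pt i) (isUnit_phi_den Bs Pt i)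

/-- rule (iii): on the local ring, `ExpR` is the Taylor expansion modulo `ϖ`. -/
theorem ExpR_of_mem (i : Fin g) (u : ↥(Bs.X i).CQ) :
    ExpR Bs Pt i ⟨(u : F), CQ_le_Sloc Bs Pt i u.2⟩ =
      ofPowerSeries ℤ (Rq Pt.ϖ) (PowerSeries.map (Ideal.Quotient.mk (Ideal.span {Pt.ϖ}))
        ((Bs.X i).tay u)) :=
  ext_of_mem _ _ _ _ u

/-- rule (i): constants. -/
theorem ExpR_const (i : Fin g) (a : ↥A) :
    ExpR Bs Pt i ⟨algebraMap L F (a : L), CQ_le_Sloc Bs Pt i ((Bs.X i).const_mem a)⟩ =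
      HahnSeries.C (Ideal.Quotient.mk (Ideal.span {Pt.ϖ}) a) := by
  have h := ExpR_of_mem Bs Pt i ((Bs.X i).constC a)
  rw [LocExp.tay_constC, PowerSeries.map_C, ofPowerSeries_C] at h
  exact h

/-- rule (ii): the parameter. -/
theorem ExpR_tau (i : Fin g) :
    ExpR Bs Pt i ⟨(((Bs.X i).τ : ↥(Bs.X i).CQ) : F), CQ_le_Sloc Bs Pt i (Bs.X i).τ.2⟩ =
      single (1 : ℤ) (1 : Rq Pt.ϖ) := by
  have h := ExpR_of_mem Bs Pt i (Bs.X i).τ
  rw [(Bs.X i).tay_τ, PowerSeries.map_X, ofPowerSeries_X] at h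
  exact h

/-- `τ_i - a ↦ X - C ā`. -/
theorem ExpR_tau_sub (i : Fin g) (a : ↥A) :
    ExpR Bs Pt i ⟨(((Bs.X i).τ : ↥(Bs.X i).CQ) : F) - algebraMap L F (a : L),
        CQ_le_Sloc Bs Pt i ((Bs.X i).τ - (Bs.X i).constC a).2⟩ =
      single (1 : ℤ) (1 : Rq Pt.ϖ) - HahnSeries.C (Ideal.Quotient.mk (Ideal.span {Pt.ϖ}) a) := by
  have h := ExpR_of_mem Bs Pt i ((Bs.X i).τ - (Bs.X i).constC a)
  rw [map_sub, (Bs.X i).tay_τ, LocExp.tay_constC, map_sub, PowerSeries.map_X, PowerSeries.map_C,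
    map_sub, ofPowerSeries_X, ofPowerSeries_C] at h
  exact h

/-- the characterising property of `ExpR`. -/
theorem ExpR_mul_pow (i : Fin g) (f : ↥(Sloc Bs Pt i)) (n : ℕ)
    (h : (f : F) * ((den Bs Pt i : ↥(Bs.X i).CQ) : F) ^ n ∈ (Bs.X i).CQ) :
    ExpR Bs Pt i f * phi Bs Pt i (den Bs Pt i) ^ n = phi Bs Pt i ⟨_, h⟩ :=
  ext_mul_pow _ _ _ _ f n h


/-! ### `B^♯ ⊂ CQ_i[1 / τ_i (τ_i - s_i)]` -/

theorem tau_ne_zero (i : Fin g) : (((Bs.X i).τ : ↥(Bs.X i).CQ) : F) ≠ 0 := by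
  intro h
  have := Bs.zero0 i
  rw [h, Place.ord_zero] at this
  exact lt_irrefl _ this

theorem tau_sub_ne_zero (i : Fin g) :
    (((Bs.X i).τ : ↥(Bs.X i).CQ) : F) - algebraMap L F (Pt.s i : L) ≠ 0 := by
  intro h
  have := Pt.zero1 i
  rw [h, Place.ord_zero] at this
  exact lt_irrefl _ this

theorem den_ne_zero (i : Fin g) : ((den Bs Pt i : ↥(Bs.X i).CQ) : F) ≠ 0 := by
  rw [coe_den]
  exact mul_ne_zero (tau_ne_zero Bs i) (tau_sub_ne_zero Bs Pt i)

theorem ord_den_nonneg (i : Fin g) (P : Place L F) (hP : r P = Bs.Qb i) :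
    0 ≤ P.ord ((den Bs Pt i : ↥(Bs.X i).CQ) : F) :=
  (Bs.X i).reg _ (den Bs Pt i).2 P hP

theorem ord_den_pos0 (i : Fin g) : 1 ≤ (Bs.P0 i).ord ((den Bs Pt i : ↥(Bs.X i).CQ) : F) := by
  rw [coe_den, Place.ord_mul _ (tau_ne_zero Bs i) (tau_sub_ne_zero Bs Pt i)]
  have h1 := Bs.zero0 i
  have h2 : 0 ≤ (Bs.P0 i).ord
      ((((Bs.X i).τ : ↥(Bs.X i).CQ) : F) - algebraMap L F (Pt.s i : L)) :=
    (Bs.X i).reg _ ((Bs.X i).τ - (Bs.X i).constC (Pt.s i)).2 _ (Bs.hP0 i)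
  omega

theorem ord_den_pos1 (i : Fin g) : 1 ≤ (Pt.P1 i).ord ((den Bs Pt i : ↥(Bs.X i).CQ) : F) := by
  rw [coe_den, Place.ord_mul _ (tau_ne_zero Bs i) (tau_sub_ne_zero Bs Pt i)]
  have h1 := Pt.zero1 i
  have h2 : 0 ≤ (Pt.P1 i).ord (((Bs.X i).τ : ↥(Bs.X i).CQ) : F) :=
    (Bs.X i).reg _ (Bs.X i).τ.2 _ (Pt.hP1 i)
  omega

/-- **`B^♯ ⊂ S_i`**: multiplying by a power of `τ_i (τ_i - s_i)` kills the poles in the disc of
`Q̄_i`, and (Db) applies. -/
theorem Bsharp_le_Sloc (i : Fin g) : Bsharp Bs Pt ≤ Sloc Bs Pt i := by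
  intro f hf
  by_cases hf0 : f = 0
  · rw [hf0]; exact (Sloc Bs Pt i).zero_mem
  have hd0 := den_ne_zero Bs Pt i
  refine ⟨(-(Bs.P0 i).ord f).toNat + (-(Pt.P1 i).ord f).toNat,
    (Bs.X i).mem_of_reg _ ?_ ?_⟩
  · exact (gaussInt G red).mul_mem hf.1
      ((gaussInt G red).pow_mem ((Bs.X i).le_gauss (den Bs Pt i).2) _)
  · intro P hP
    rw [Place.ord_mul P hf0 (pow_ne_zero _ hd0), ord_pow]
    have hn0 := Int.self_le_toNat (-(Bs.P0 i).ord f)
    have hn1 := Int.self_le_toNat (-(Pt.P1 i).ord f)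
    have hdn := ord_den_nonneg Bs Pt i P hP
    push_cast
    by_cases h0 : P = Bs.P0 i
    · have hd := ord_den_pos0 Bs Pt i
      rw [h0]
      nlinarith [Int.natCast_nonneg (-(Bs.P0 i).ord f).toNat,
        Int.natCast_nonneg (-(Pt.P1 i).ord f).toNat]
    · by_cases h1 : P = Pt.P1 i
      · have hd := ord_den_pos1 Bs Pt i
        rw [h1]
        nlinarith [Int.natCast_nonneg (-(Bs.P0 i).ord f).toNat,
          Int.natCast_nonneg (-(Pt.P1 i).ord f).toNat]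
      · have hfP : f ∈ P.toValuationSubring := by
          refine hf.2 P fun l => ⟨?_, ?_⟩
          · intro hl
            have : l = i := Bs.Qb_inj (by rw [← Bs.hP0 l, ← hl, hP])
            exact h0 (by rw [hl, this])
          · intro hl
            have : l = i := Bs.Qb_inj (by rw [← Pt.hP1 l, ← hl, hP])
            exact h1 (by rw [hl, this])
        have hfo := ord_nonneg_of_mem P hfP
        nlinarith [Int.natCast_nonneg (-(Bs.P0 i).ord f).toNat,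
          Int.natCast_nonneg (-(Pt.P1 i).ord f).toNat]

/-- **`Exp^R`** on `B^♯`. -/
def ExpRB : ↥(Bsharp Bs Pt) →+* Lam g (Rq Pt.ϖ) :=
  RingHom.pi (f := fun _ : Fin g => LaurentSeries (Rq Pt.ϖ)) fun i =>
    (ExpR Bs Pt i).comp (Subring.inclusion (Bsharp_le_Sloc Bs Pt i))

theorem ExpRB_apply (f : ↥(Bsharp Bs Pt)) (i : Fin g) :
    ExpRB Bs Pt f i = ExpR Bs Pt i ⟨(f : F), Bsharp_le_Sloc Bs Pt i f.2⟩ := rfl

/-! ### The `A`-algebra `B^♯`, the reduction and the value at the auxiliary point -/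

theorem const_mem_Bsharp (a : ↥A) : algebraMap L F (a : L) ∈ Bsharp Bs Pt :=
  ⟨le_gaussInt G red (Bs.C.const_mem a), fun P _ => P.algebraMap_mem' _⟩

/-- constants of `A` in `B^♯`. -/
def constB : ↥A →+* ↥(Bsharp Bs Pt) where
  toFun a := ⟨algebraMap L F (a : L), const_mem_Bsharp Bs Pt a⟩
  map_one' := Subtype.ext (by simp)
  map_mul' a b := Subtype.ext (by simp)
  map_zero' := Subtype.ext (by simp)
  map_add' a b := Subtype.ext (by simp)

@[simp] theorem coe_constB (a : ↥A) :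
    ((constB Bs Pt a : ↥(Bsharp Bs Pt)) : F) = algebraMap L F (a : L) := rfl

/-- the `A`-algebra structure of `B^♯` (NOT an instance: use `letI`). -/
@[reducible] def algB : Algebra ↥A ↥(Bsharp Bs Pt) := (constB Bs Pt).toAlgebra

/-- the reduction on `B^♯`. -/
def rhoB : ↥(Bsharp Bs Pt) →+* Ft := (rho G red).comp (Subring.inclusion (Bsharp_le_gauss Bs Pt))

theorem rhoB_apply (f : ↥(Bsharp Bs Pt)) :
    rhoB Bs Pt f = rho G red ⟨(f : F), Bsharp_le_gauss Bs Pt f.2⟩ := rfl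

theorem Bsharp_le_CQs : Bsharp Bs Pt ≤ Bs.Xs.CQ := by
  intro f hf
  refine Bs.Xs.mem_of_reg f hf.1 fun P hP => ord_nonneg_of_mem P (hf.2 P fun l => ⟨?_, ?_⟩)
  · intro hl
    exact Bs.hQs l (by rw [← Bs.hP0 l, ← hl, hP])
  · intro hl
    exact Bs.hQs l (by rw [← Pt.hP1 l, ← hl, hP])

/-- the value at the auxiliary point (constant coefficient of the Taylor expansion at `Q_⋆`). -/
def evSr : ↥(Bsharp Bs Pt) →+* ↥A :=
  (PowerSeries.constantCoeff (R := ↥A)).comp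
    (Bs.Xs.tay.comp (Subring.inclusion (Bsharp_le_CQs Bs Pt)))

theorem evSr_constB (a : ↥A) : evSr Bs Pt (constB Bs Pt a) = a := by
  show PowerSeries.constantCoeff (Bs.Xs.tay (Bs.Xs.constC a)) = a
  rw [LocExp.tay_constC, PowerSeries.constantCoeff_C]

/-- the value at the auxiliary point, as an `A`-algebra homomorphism. -/
def evS : letI := algB Bs Pt; ↥(Bsharp Bs Pt) →ₐ[↥A] ↥A :=
  letI := algB Bs Pt
  { evSr Bs Pt with commutes' := fun a => evSr_constB Bs Pt a }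


/-! ### The hypotheses of the abstract core -/

theorem LocExp.rhoC_constC {Q : Place k Ft} (X : LocExp (A := A) G red r π Q)
    (C : RedCtx A π G red r) (a : ↥A) : X.rhoC (X.constC a) = algebraMap k Ft (π a) :=
  rho_eq_of_isRedOf (C.isRedOf_const a)

theorem rhoB_constB (a : ↥A) : rhoB Bs Pt (constB Bs Pt a) = algebraMap k Ft (π a) :=
  rho_eq_of_isRedOf (Bs.C.isRedOf_const a)

/-- the residue map `A ⧸ (ϖ) → k` (for a non-unit `ϖ`). -/
def resR (hϖ : ¬ IsUnit Pt.ϖ) : Rq Pt.ϖ →+* k :=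
  Ideal.Quotient.lift (Ideal.span {Pt.ϖ}) π (by
    intro a ha
    obtain ⟨y, rfl⟩ := Ideal.mem_span_singleton.1 ha
    rw [map_mul, Bs.C.pi_nonunit _ hϖ, zero_mul])

theorem resR_mk (hϖ : ¬ IsUnit Pt.ϖ) (a : ↥A) :
    resR Bs Pt hϖ (Ideal.Quotient.mk (Ideal.span {Pt.ϖ}) a) = π a :=
  Ideal.Quotient.lift_mk _ _ _

theorem not_isUnit_s (hϖ : ¬ IsUnit Pt.ϖ) (i : Fin g) : ¬ IsUnit (Pt.s i) := fun h =>
  hϖ (isUnit_of_dvd_unit (Pt.hnil i) (h.pow Pt.N))

/-- scaling inside `B^♯`. -/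
theorem scale_Bsharp (b : ↥(Bsharp Bs Pt)) (hb : b ≠ 0) :
    ∃ (a : ↥A) (b' : ↥(Bsharp Bs Pt)), a ≠ 0 ∧ rhoB Bs Pt b' ≠ 0 ∧ b = constB Bs Pt a * b' := by
  have hbF : (b : F) ≠ 0 := fun h => hb (Subtype.ext h)
  obtain ⟨c, hc, hgu⟩ := Bs.C.scale (b : F) hbF
  have hcF : algebraMap L F c ≠ 0 := fun h => hc ((algebraMap L F).injective (by rw [h, map_zero]))
  have hu0 : (algebraMap L F c)⁻¹ * (b : F) ≠ 0 := hgu.ne_zero
  have hbu : (b : F) = algebraMap L F c * ((algebraMap L F c)⁻¹ * (b : F)) := by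
    rw [← mul_assoc, mul_inv_cancel₀ hcF, one_mul]
  have huG : (algebraMap L F c)⁻¹ * (b : F) ∈ gaussInt G red := hgu.isGI
  have hcG : algebraMap L F c ∈ gaussInt G red := by
    have h1 : algebraMap L F c = (b : F) * ((algebraMap L F c)⁻¹ * (b : F))⁻¹ := by
      field_simp
    rw [h1]
    exact (gaussInt G red).mul_mem b.2.1 (inv_mem_gaussInt_of_isGU hgu)
  have hcA : c ∈ A := Bs.C.mem_of_const_isGI c hcG
  have huB : (algebraMap L F c)⁻¹ * (b : F) ∈ Bsharp Bs Pt := by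
    refine ⟨huG, fun P hne => ?_⟩
    rw [← map_inv₀]
    exact P.toValuationSubring.mul_mem _ _ (P.algebraMap_mem' _) (b.2.2 P hne)
  refine ⟨⟨c, hcA⟩, ⟨_, huB⟩, ?_, ?_, Subtype.ext hbu⟩
  · intro h
    exact hc (congrArg Subtype.val h)
  · exact (isGU_iff_rho_ne_zero ⟨_, huG⟩).1 hgu

/-- the constant is the residue of the value at the auxiliary point. -/
theorem value_Bsharp (b : ↥(Bsharp Bs Pt)) (x : k) (hx : rhoB Bs Pt b = algebraMap k Ft x) :
    x = π (evSr Bs Pt b) := by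
  by_contra hne
  set b' : ↥Bs.Xs.CQ := Subring.inclusion (Bsharp_le_CQs Bs Pt) b with hb'
  set a₀ : ↥A := evSr Bs Pt b with ha₀
  have hrho : Bs.Xs.rhoC (b' - Bs.Xs.constC a₀) = algebraMap k Ft (x - π a₀) := by
    rw [map_sub, LocExp.rhoC_constC _ Bs.C, map_sub, ← hx]
    rfl
  have hne0 : Bs.Xs.rhoC (b' - Bs.Xs.constC a₀) ≠ 0 := by
    rw [hrho]
    intro h
    apply hne
    have := (algebraMap k Ft).injective (h.trans (map_zero _).symm)
    exact sub_eq_zero.1 this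
  have h1 := Bs.Xs.ord_le (b' - Bs.Xs.constC a₀) 1 (by
    intro m hm
    have hm0 : m = 0 := by omega
    rw [hm0, map_sub, LocExp.tay_constC, map_sub, PowerSeries.coeff_zero_eq_constantCoeff_apply,
      PowerSeries.coeff_zero_eq_constantCoeff_apply, PowerSeries.constantCoeff_C]
    have : PowerSeries.constantCoeff (Bs.Xs.tay b') = a₀ := rfl
    rw [this, sub_self, map_zero]) hne0
  have h2 : Bs.Qs.ord (Bs.Xs.rhoC (b' - Bs.Xs.constC a₀)) = 0 := by
    rw [hrho, ord_algebraMap]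
  rw [← LocExp.rhoC_apply, h2] at h1
  exact absurd h1 (by norm_num)


theorem rhoC_tau_ne_zero (i : Fin g) : (Bs.X i).rhoC (Bs.X i).τ ≠ 0 := by
  intro h
  have := (Bs.X i).ord_τ
  rw [← LocExp.rhoC_apply, h, Place.ord_zero] at this
  exact zero_ne_one this

theorem rhoC_den (hϖ : ¬ IsUnit Pt.ϖ) (i : Fin g) :
    (Bs.X i).rhoC (den Bs Pt i) = (Bs.X i).rhoC (Bs.X i).τ * (Bs.X i).rhoC (Bs.X i).τ := by
  unfold den
  rw [map_mul, map_sub, LocExp.rhoC_constC _ Bs.C, Bs.C.pi_nonunit _ (not_isUnit_s Bs Pt hϖ i),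
    map_zero, sub_zero]

theorem coeffMap_phi_den (hϖ : ¬ IsUnit Pt.ϖ) (i : Fin g) :
    ModularCurve.coeffMap (resR Bs Pt hϖ) (phi Bs Pt i (den Bs Pt i)) = single (2 : ℤ) (1 : k) := by
  rw [phi_den, map_mul, map_sub, ModularCurve.coeffMap_single, map_one]
  have h0 : ModularCurve.coeffMap (resR Bs Pt hϖ)
      (HahnSeries.C (Ideal.Quotient.mk (Ideal.span {Pt.ϖ}) (Pt.s i))) = 0 := by
    show ModularCurve.coeffMap (resR Bs Pt hϖ)
      (single (0 : ℤ) (Ideal.Quotient.mk (Ideal.span {Pt.ϖ}) (Pt.s i))) = 0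
    rw [ModularCurve.coeffMap_single, resR_mk, Bs.C.pi_nonunit _ (not_isUnit_s Bs Pt hϖ i),
      single_eq_zero]
  rw [h0, sub_zero, single_mul_single, mul_one]
  rfl

/-- **the local estimate**: if the polar coefficients of order `≥ 2` of `Exp^R_i b` vanish modulo
the maximal ideal, then `b̄` has at most a simple pole at `Q̄_i`. -/
theorem ord_rhoB_ge (hϖ : ¬ IsUnit Pt.ϖ) (b : ↥(Bsharp Bs Pt)) (hφ : rhoB Bs Pt b ≠ 0) (i : Fin g)
    (hpol : ∀ m : ℤ, m < -1 → resR Bs Pt hϖ ((ExpRB Bs Pt b i).coeff m) = 0) :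
    -1 ≤ (Bs.Qb i).ord (rhoB Bs Pt b) := by
  obtain ⟨n, hn⟩ := Bsharp_le_Sloc Bs Pt i b.2
  -- the numerator `c = b * den ^ n`
  have hτ := (Bs.X i).ord_τ
  rw [← LocExp.rhoC_apply] at hτ
  have hτ0 := rhoC_tau_ne_zero Bs i
  have hc : (Bs.X i).rhoC ⟨_, hn⟩ = rhoB Bs Pt b * ((Bs.X i).rhoC (den Bs Pt i)) ^ n := by
    have h1 : Subring.inclusion (Bs.X i).le_gauss ⟨_, hn⟩ =
        Subring.inclusion (Bsharp_le_gauss Bs Pt) b *
          (Subring.inclusion (Bs.X i).le_gauss (den Bs Pt i)) ^ n := Subtype.ext rfl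
    show rho G red (Subring.inclusion (Bs.X i).le_gauss ⟨_, hn⟩) = _
    rw [h1, map_mul, map_pow]
    rfl
  rw [rhoC_den Bs Pt hϖ i] at hc
  have hc0 : (Bs.X i).rhoC ⟨_, hn⟩ ≠ 0 := by
    rw [hc]
    exact mul_ne_zero hφ (pow_ne_zero _ (mul_ne_zero hτ0 hτ0))
  have hord : (Bs.Qb i).ord ((Bs.X i).rhoC ⟨_, hn⟩) = (Bs.Qb i).ord (rhoB Bs Pt b) + 2 * n := by
    rw [hc, Place.ord_mul _ hφ (pow_ne_zero _ (mul_ne_zero hτ0 hτ0)), ord_pow,
      Place.ord_mul _ hτ0 hτ0, hτ]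
    ring
  -- the coefficients of `tay c` below `2 n - 1` vanish modulo the maximal ideal
  have key := ExpR_mul_pow Bs Pt i ⟨(b : F), Bsharp_le_Sloc Bs Pt i b.2⟩ n hn
  have key' := congrArg (ModularCurve.coeffMap (resR Bs Pt hϖ)) key
  rw [map_mul, map_pow, coeffMap_phi_den, single_pow, one_pow, phi_apply, coeffMap_ofPS] at key'
  have hco : ∀ j : ℕ, j < 2 * n - 1 →
      π (PowerSeries.coeff j ((Bs.X i).tay ⟨_, hn⟩)) = 0 := by
    intro j hj
    have h1 := congrArg (fun y : LaurentSeries k => y.coeff ((j : ℤ) - 2 * n + n • (2 : ℤ))) key'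
    simp only [] at h1
    rw [coeff_mul_single_add, mul_one, ModularCurve.coeffMap_coeff] at h1
    have h2 : ((j : ℤ) - 2 * n + n • (2 : ℤ)) = (j : ℤ) := by
      rw [nsmul_eq_mul]; ring
    rw [h2, ofPowerSeries_apply_coeff, PowerSeries.coeff_map, PowerSeries.coeff_map, resR_mk] at h1
    rw [← h1]
    exact hpol _ (by omega)
  have h3 := (Bs.X i).ord_le ⟨_, hn⟩ (2 * n - 1) hco hc0
  rw [← LocExp.rhoC_apply, hord] at h3
  have h4 : (2 * (n : ℤ)) - 1 ≤ ((2 * n - 1 : ℕ) : ℤ) := by omega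
  omega

/-- (r1) + `l(Ē₀) = 1`: if the polar coefficients of order `≥ 2` of `Exp^R b` vanish modulo the
maximal ideal then `b̄` is a constant. -/
theorem const_Bsharp (hϖ : ¬ IsUnit Pt.ϖ) (b : ↥(Bsharp Bs Pt))
    (hpol : ∀ (i : Fin g) (m : ℤ), m < -1 → resR Bs Pt hϖ ((ExpRB Bs Pt b i).coeff m) = 0) :
    ∃ x : k, rhoB Bs Pt b = algebraMap k Ft x := by
  by_cases hφ : rhoB Bs Pt b = 0
  · exact ⟨0, by rw [hφ, map_zero]⟩
  apply Bs.hbar
  rw [mem_L_iff hφ]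
  intro Q
  have hbF : (b : F) ≠ 0 := by
    intro h
    apply hφ
    have : b = 0 := Subtype.ext h
    rw [this, map_zero]
  by_cases hQ : ∃ i, Bs.Qb i = Q
  · obtain ⟨i, rfl⟩ := hQ
    have h1 := ord_rhoB_ge Bs Pt hϖ b hφ i (hpol i)
    have h2 := Bs.Ebar_Qb i
    omega
  · have hQ' : ∀ i, Bs.Qb i ≠ Q := fun i h => hQ ⟨i, h⟩
    have h1 := r1_isRedOf Bs.C Bs.HL (b : F) (rhoB Bs Pt b)
      (isRedOf_rho G red ⟨(b : F), Bsharp_le_gauss Bs Pt b.2⟩) hφ (divOf Bs.HL hbF)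
      (fun P => divOf_apply Bs.HL hbF P) Q
    have h2 : 0 ≤ Finsupp.mapDomain r (divOf Bs.HL hbF) Q := by
      apply mapDomain_apply_nonneg
      intro P hP
      rw [divOf_apply]
      refine ord_nonneg_of_mem P (b.2.2 P fun l => ⟨?_, ?_⟩)
      · intro hl
        exact hQ' l (by rw [← Bs.hP0 l, ← hl, hP])
      · intro hl
        exact hQ' l (by rw [← Pt.hP1 l, ← hl, hP])
    have h3 := Bs.Ebar_nonneg Q
    omega


/-! ### The integral basis inside `B^♯` -/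

theorem bb_mem_Bsharp (i : Fin g) (n : ℕ) : Bs.bbF i n ∈ Bsharp Bs Pt :=
  ⟨Bs.bb_gauss i n, fun P hne => Bs.bb_pole i n P fun l => (hne l).1⟩

/-- the integral basis, in `B^♯`. -/
def bbB (i : Fin g) (n : ℕ) : ↥(Bsharp Bs Pt) := ⟨Bs.bbF i n, bb_mem_Bsharp Bs Pt i n⟩

theorem ExpRB_bb (i : Fin g) (n : ℕ) :
    ExpRB Bs Pt (bbB Bs Pt i n) = genR D (Rq Pt.ϖ) (some (i, n)) := by
  funext l
  obtain ⟨m, h, hexp⟩ := Bs.bb_exp i n l
  have hmem : Bs.bbF i n ∈ Sloc Bs Pt l := Bsharp_le_Sloc Bs Pt l (bb_mem_Bsharp Bs Pt i n)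
  have h1 : ExpR Bs Pt l ⟨Bs.bbF i n, hmem⟩ *
      (ExpR Bs Pt l ⟨(((Bs.X l).τ : ↥(Bs.X l).CQ) : F), CQ_le_Sloc Bs Pt l (Bs.X l).τ.2⟩) ^ m =
      ExpR Bs Pt l ⟨_, CQ_le_Sloc Bs Pt l h⟩ := by
    rw [← map_pow, ← map_mul]
    rfl
  rw [ExpR_tau, ExpR_of_mem Bs Pt l ⟨_, h⟩, ← coeffMap_ofPS, hexp, map_mul, map_pow,
    ModularCurve.coeffMap_single, RingHom.map_one] at h1
  have h2 := (isUnit_single_one (R := Rq Pt.ϖ)).pow m |>.mul_left_injective h1
  show ExpR Bs Pt l ⟨Bs.bbF i n, hmem⟩ = _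
  rw [h2]
  show ModularCurve.coeffMap (Ideal.Quotient.mk (Ideal.span {Pt.ϖ}))
    (ModularCurve.coeffMap (algebraMap O ↥A) (D.bb i n l)) =
      ModularCurve.coeffMap (algebraMap O (Rq Pt.ϖ)) (D.bb i n l)
  rw [ModularCurve.coeffMap_coeffMap]
  rfl

theorem ExpRB_constB_mul (a : ↥A) (b : ↥(Bsharp Bs Pt)) :
    ExpRB Bs Pt (constB Bs Pt a * b) =
      (Ideal.Quotient.mk (Ideal.span {Pt.ϖ}) a) • ExpRB Bs Pt b := by
  rw [map_mul]
  ext l d
  rw [LaurentMap19.mul_apply, LaurentMap19.smul_apply_coeff]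
  have h1 : ExpRB Bs Pt (constB Bs Pt a) l =
      HahnSeries.C (Ideal.Quotient.mk (Ideal.span {Pt.ϖ}) a) := ExpR_const Bs Pt l a
  rw [h1, C_mul_eq_smul, HahnSeries.coeff_smul, smul_eq_mul]

/-- **the hypotheses of the abstract core hold.** -/
theorem densHyp (hϖ : ¬ IsUnit Pt.ϖ) :
    letI := algB Bs Pt
    DensHyp D Pt.ϖ (resR Bs Pt hϖ) (ExpRB Bs Pt) (rhoB Bs Pt) (evS Bs Pt) (bbB Bs Pt) := by
  letI := algB Bs Pt
  refine ⟨fun a b => ValuationRing.dvd_total a b, ?_, ?_, ExpRB_bb Bs Pt, ?_, ?_, ?_⟩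
  · intro a ha
    rw [resR_mk]
    exact Bs.C.pi_nonunit a ha
  · intro a b
    exact ExpRB_constB_mul Bs Pt a b
  · intro b hb
    obtain ⟨a, b', ha, hb', e⟩ := scale_Bsharp Bs Pt b hb
    exact ⟨a, b', ha, hb', e⟩
  · intro b hb
    exact const_Bsharp Bs Pt hϖ b hb
  · intro b x hx
    rw [resR_mk]
    exact value_Bsharp Bs Pt b x hx

/-- **(Le)**: the truncated Laurent expansions of every `f ∈ B^♯` lie in `AR D (A ⧸ (ϖ))`. -/
theorem ExpRB_mem_AR (f : ↥(Bsharp Bs Pt)) : ExpRB Bs Pt f ∈ AR D (Rq Pt.ϖ) := by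
  by_cases hϖ : IsUnit Pt.ϖ
  · have hsub : Subsingleton (Rq Pt.ϖ) :=
      Ideal.Quotient.subsingleton_iff.2 (Ideal.span_singleton_eq_top.2 hϖ)
    have h0 : ExpRB Bs Pt f = 0 := LaurentMap19.Lam.ext fun i d => Subsingleton.elim _ _
    rw [h0]
    exact (AR D (Rq Pt.ϖ)).zero_mem
  · letI := algB Bs Pt
    exact E_mem_AR (densHyp Bs Pt hϖ) f

/-- **(Le), consumer form.** -/
theorem dens_mem_AR (f : F) (hf : f ∈ Bsharp Bs Pt) (e : Lam g (Rq Pt.ϖ))
    (he : ∀ i, ∃ hfi : f ∈ Sloc Bs Pt i, e i = ExpR Bs Pt i ⟨f, hfi⟩) : e ∈ AR D (Rq Pt.ϖ) := by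
  have h : e = ExpRB Bs Pt ⟨f, hf⟩ := by
    funext i
    obtain ⟨hfi, hi⟩ := he i
    rw [hi]
    rfl
  rw [h]
  exact ExpRB_mem_AR Bs Pt ⟨f, hf⟩

end Fermat.Agent.ES.V19.DensityInst28
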