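/-
helper19 — Programme V (S19, route `S19_ROUTE23.md`), leaf (A5c), file 2:
the UNIVERSAL truncated formal group law `F^(j)` and inverse `G^(j)` of a normal-form system.

A normal-form system `NFSystem O g` consists, for every `O`-algebra `R` (in the universe of `O`), of
subalgebras `AR R` ("regular off `E₀`") and `BR R` ("regular near `E₀`") of `Lam g R`, functorial under
`mapLam`, such that `NormalForm23.Hyp I (AR R) (BR R) (wLam g R)` holds for every nilpotent ideal
`I` of `R` (this is what (A5b) provides from a basis with exact polar parts).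

Universal rings: `Rj2 O g j = O[S,S'] / (S,S')^j`, `Rj1 O g j = O[S] / (S)^j`.

* `F Sys j i : MvPolynomial (Fin g ⊕ Fin g) O` with `fgl_spec`:
  for every `O`-algebra `R`, ideal `I` with `I^j = ⊥`, `s s' s'' ∈ I^g`, `a ∈ I • AR R`, `b ∈ I • BR R`:
  `sig w s * sig w s' = sig w s'' * (1 + a) * (1 + b) → s'' i = aeval (Sum.elim s s') (F Sys j i)`;
* `G Sys j i : MvPolynomial (Fin g) O` with `inv_spec`:
  `sig w s * sig w t = (1 + a) * (1 + b) → t i = aeval s (G Sys j i)`.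
-/
import Mathlib
import Fermat.Agent.ES.V19.NormalForm23
import Fermat.Agent.ES.V19.LaurentMap19

set_option autoImplicit false

noncomputable section

namespace Fermat.Agent.ES.V19.FGLUniv19

open scoped BigOperators
open Fermat.Agent.ES.V19.NormalForm23 Fermat.Agent.ES.V19.LaurentMap19

universe u

/-- A functorial normal-form system over `O` (see the header). -/
structure NFSystem (O : Type u) [CommRing O] (g : ℕ) where
  AR : ∀ (R : Type u) [CommRing R] [Algebra O R], Subalgebra R (Lam g R)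
  BR : ∀ (R : Type u) [CommRing R] [Algebra O R], Subalgebra R (Lam g R)
  map_AR : ∀ {R R' : Type u} [CommRing R] [CommRing R'] [Algebra O R] [Algebra O R']
    (φ : R →ₐ[O] R') (x : Lam g R), x ∈ AR R → mapLam (φ : R →+* R') x ∈ AR R'
  map_BR : ∀ {R R' : Type u} [CommRing R] [CommRing R'] [Algebra O R] [Algebra O R']
    (φ : R →ₐ[O] R') (x : Lam g R), x ∈ BR R → mapLam (φ : R →+* R') x ∈ BR R'
  hyp : ∀ (R : Type u) [CommRing R] [Algebra O R] (I : Ideal R), (∃ j : ℕ, I ^ j = ⊥) →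
    Hyp I (AR R) (BR R) (wLam g R)

section Univ

variable (O : Type u) [CommRing O] (ι : Type) 

/-- The ideal generated by the variables. -/
def varIdeal : Ideal (MvPolynomial ι O) := Ideal.span (Set.range MvPolynomial.X)

/-- The universal truncated ring `O[X_ι] / (X)^j`. -/
abbrev Rj (j : ℕ) : Type u := MvPolynomial ι O ⧸ (varIdeal O ι) ^ j

/-- The image of the variable ideal in `Rj`. -/
def Ij (j : ℕ) : Ideal (Rj O ι j) := (varIdeal O ι).map (Ideal.Quotient.mk _)

theorem Ij_pow (j : ℕ) : Ij O ι j ^ j = ⊥ := by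
  unfold Ij
  rw [← Ideal.map_pow, Ideal.map_quotient_self]

/-- The class of the variable `X k`. -/
def xbar (j : ℕ) (k : ι) : Rj O ι j := Ideal.Quotient.mk _ (MvPolynomial.X k)

theorem xbar_mem (j : ℕ) (k : ι) : xbar O ι j k ∈ Ij O ι j :=
  Ideal.mem_map_of_mem _ (Ideal.subset_span ⟨k, rfl⟩)

variable {O ι}

/-- Evaluation `O[X_ι]/(X)^j → R` at a point with coordinates in an ideal `I` with `I^j = ⊥`. -/
def evalBar {R : Type u} [CommRing R] [Algebra O R] (I : Ideal R) {j : ℕ} (hI : I ^ j = ⊥)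
    (p : ι → R) (hp : ∀ k, p k ∈ I) : Rj O ι j →ₐ[O] R :=
  Ideal.Quotient.liftₐ ((varIdeal O ι) ^ j) (MvPolynomial.aeval p) (by
    intro a ha
    have h1 : varIdeal O ι ≤ I.comap (MvPolynomial.aeval p : MvPolynomial ι O →ₐ[O] R) := by
      unfold varIdeal
      rw [Ideal.span_le]
      rintro _ ⟨k, rfl⟩
      simpa using hp k
    have h2 : (varIdeal O ι) ^ j ≤ (I ^ j).comap (MvPolynomial.aeval p : MvPolynomial ι O →ₐ[O] R) :=
      (Ideal.pow_right_mono h1 j).trans (Ideal.le_comap_pow _ j)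
    have h3 := h2 ha
    rw [hI] at h3
    simpa using h3)

theorem evalBar_mk {R : Type u} [CommRing R] [Algebra O R] (I : Ideal R) {j : ℕ} (hI : I ^ j = ⊥)
    (p : ι → R) (hp : ∀ k, p k ∈ I) (f : MvPolynomial ι O) :
    evalBar I hI p hp (Ideal.Quotient.mk _ f) = MvPolynomial.aeval p f := by
  unfold evalBar
  exact Ideal.Quotient.liftₐ_apply _ _ _ _

theorem evalBar_xbar {R : Type u} [CommRing R] [Algebra O R] (I : Ideal R) {j : ℕ} (hI : I ^ j = ⊥)
    (p : ι → R) (hp : ∀ k, p k ∈ I) (k : ι) : evalBar I hI p hp (xbar O ι j k) = p k := by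
  unfold xbar
  rw [evalBar_mk]
  simp

theorem evalBar_mem {R : Type u} [CommRing R] [Algebra O R] (I : Ideal R) {j : ℕ} (hI : I ^ j = ⊥)
    (p : ι → R) (hp : ∀ k, p k ∈ I) {r : Rj O ι j} (hr : r ∈ Ij O ι j) :
    evalBar I hI p hp r ∈ I := by
  have h1 : Ij O ι j ≤ I.comap (evalBar I hI p hp : Rj O ι j →ₐ[O] R) := by
    unfold Ij
    rw [Ideal.map_le_iff_le_comap]
    unfold varIdeal
    rw [Ideal.span_le]
    rintro _ ⟨k, rfl⟩
    show evalBar I hI p hp (Ideal.Quotient.mk _ (MvPolynomial.X k)) ∈ I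
    rw [evalBar_mk]
    simpa using hp k
  exact h1 hr

end Univ

section Spec

variable {O : Type u} [CommRing O] {g : ℕ} (Sys : NFSystem O g)

/-- images of normal-form data under an `O`-algebra map respecting the ideals -/
theorem map_nf {R R' : Type u} [CommRing R] [CommRing R'] [Algebra O R] [Algebra O R']
    (φ : R →ₐ[O] R') {I : Ideal R} {I' : Ideal R'} (hI : ∀ r ∈ I, φ r ∈ I')
    {a b : Lam g R} (ha : a ∈ I • (Sys.AR R).toSubmodule) (hb : b ∈ I • (Sys.BR R).toSubmodule) :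
    mapLam (φ : R →+* R') a ∈ I' • (Sys.AR R').toSubmodule ∧
      mapLam (φ : R →+* R') b ∈ I' • (Sys.BR R').toSubmodule :=
  ⟨mapLam_mem_smul (φ : R →+* R') hI (fun x hx => Sys.map_AR φ x hx) ha,
    mapLam_mem_smul (φ : R →+* R') hI (fun x hx => Sys.map_BR φ x hx) hb⟩

theorem pow_one_smul_le {R : Type u} [CommRing R] (I : Ideal R) (N : Submodule R (Lam g R)) :
    I ^ (1 + 1) • N ≤ I • N := by
  have h : I ^ (1 + 1) ≤ I := by
    calc I ^ (1 + 1) ≤ I ^ 1 := Ideal.pow_le_pow_right (by omega)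
      _ = I := pow_one I
  exact Submodule.smul_mono_left h

/-- `(1 + a₁) * (1 + a) = 1 + a₂` with `a₂ ∈ I • A`. -/
theorem one_add_mul_one_add {R : Type u} [CommRing R] (I : Ideal R) (A : Subalgebra R (Lam g R))
    {a₁ a : Lam g R} (h₁ : a₁ ∈ I • A.toSubmodule) (h : a ∈ I • A.toSubmodule) :
    ∃ a₂ ∈ I • A.toSubmodule, (1 + a₁) * (1 + a) = 1 + a₂ := by
  refine ⟨a₁ + a + a₁ * a, ?_, by ring⟩
  refine add_mem (add_mem h₁ h) ?_
  have h2 := mul_mem_smul I A (r := 1) (r' := 1) (by simpa using h₁) (by simpa using h)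
  exact pow_one_smul_le I _ h2

/-! ### The group law -/

/-- the universal element `σ(S) σ(S')` -/
def univ2 (j : ℕ) : Lam g (Rj O (Fin g ⊕ Fin g) j) :=
  sig (wLam g _) (fun i => xbar O (Fin g ⊕ Fin g) j (Sum.inl i)) *
    sig (wLam g _) (fun i => xbar O (Fin g ⊕ Fin g) j (Sum.inr i))

theorem univ2_sub_one_mem (j : ℕ) :
    univ2 (O := O) (g := g) j - 1 ∈ IL (Ij O (Fin g ⊕ Fin g) j) 1 :=
  mul_sub_one_mem _ (sig_sub_one_mem _ _ fun _ => xbar_mem O _ j _)
    (sig_sub_one_mem _ _ fun _ => xbar_mem O _ j _)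

theorem exists_univ2_nf (j : ℕ) :
    ∃ T : Fin g → Rj O (Fin g ⊕ Fin g) j, (∀ i, T i ∈ Ij O (Fin g ⊕ Fin g) j) ∧
      ∃ a ∈ Ij O (Fin g ⊕ Fin g) j • (Sys.AR (Rj O (Fin g ⊕ Fin g) j)).toSubmodule,
      ∃ b ∈ Ij O (Fin g ⊕ Fin g) j • (Sys.BR (Rj O (Fin g ⊕ Fin g) j)).toSubmodule,
        univ2 (O := O) (g := g) j = sig (wLam g _) T * (1 + a) * (1 + b) :=
  exists_nf (Sys.hyp _ (Ij O (Fin g ⊕ Fin g) j) ⟨j, Ij_pow O _ j⟩) _ (univ2_sub_one_mem j)

/-- the universal coordinates of the sum, in `Rj` -/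
def Tbar (j : ℕ) : Fin g → Rj O (Fin g ⊕ Fin g) j := (exists_univ2_nf Sys j).choose

/-- **The truncated formal group law**: a polynomial lift of the universal coordinates. -/
def F (j : ℕ) (i : Fin g) : MvPolynomial (Fin g ⊕ Fin g) O :=
  (Ideal.Quotient.mk_surjective (Tbar Sys j i)).choose

theorem mk_F (j : ℕ) (i : Fin g) :
    Ideal.Quotient.mk ((varIdeal O (Fin g ⊕ Fin g)) ^ j) (F Sys j i) = Tbar Sys j i :=
  (Ideal.Quotient.mk_surjective (Tbar Sys j i)).choose_spec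

/-- **Naturality / the sentence used by (B5)**: whenever `σ(s) σ(s') = σ(s'') (1+a) (1+b)` over an
`O`-algebra `R` with `I^j = ⊥`, the coordinates `s''` are the values of `F^(j)` at `(s, s')`. -/
theorem fgl_spec (j : ℕ) {R : Type u} [CommRing R] [Algebra O R] (I : Ideal R) (hI : I ^ j = ⊥)
    {s s' s'' : Fin g → R} (hs : ∀ i, s i ∈ I) (hs' : ∀ i, s' i ∈ I) (hs'' : ∀ i, s'' i ∈ I)
    {a b : Lam g R} (ha : a ∈ I • (Sys.AR R).toSubmodule) (hb : b ∈ I • (Sys.BR R).toSubmodule)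
    (h : sig (wLam g R) s * sig (wLam g R) s' = sig (wLam g R) s'' * (1 + a) * (1 + b)) (i : Fin g) :
    s'' i = MvPolynomial.aeval (Sum.elim s s') (F Sys j i) := by
  obtain ⟨hT, a₀, ha₀, b₀, hb₀, hu⟩ := (exists_univ2_nf Sys j).choose_spec
  have hp : ∀ k, Sum.elim s s' k ∈ I := by
    rintro (k | k)
    · exact hs k
    · exact hs' k
  set φ := evalBar (O := O) I hI (Sum.elim s s') hp with hφ
  obtain ⟨ha₁, hb₁⟩ := map_nf Sys φ (fun r hr => evalBar_mem I hI _ hp hr) ha₀ hb₀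
  have hmap := congrArg (mapLam (φ : Rj O (Fin g ⊕ Fin g) j →+* R)) hu
  unfold univ2 at hmap
  rw [map_mul, map_mul, map_mul, mapLam_sig, mapLam_sig, mapLam_sig, map_add, map_add, map_one]
    at hmap
  have e1 : (fun i => (φ : Rj O (Fin g ⊕ Fin g) j →+* R) (xbar O (Fin g ⊕ Fin g) j (Sum.inl i)))
      = s := by
    funext i
    exact evalBar_xbar I hI _ hp (Sum.inl i)
  have e2 : (fun i => (φ : Rj O (Fin g ⊕ Fin g) j →+* R) (xbar O (Fin g ⊕ Fin g) j (Sum.inr i)))
      = s' := by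
    funext i
    exact evalBar_xbar I hI _ hp (Sum.inr i)
  rw [e1, e2, h] at hmap
  have huniq := nf_unique (Sys.hyp R I ⟨j, hI⟩) hs''
    (fun i => evalBar_mem I hI _ hp (hT i)) ha ha₁ hb hb₁ hmap
  have := congrFun huniq i
  rw [this]
  show φ (Tbar Sys j i) = _
  rw [← mk_F, hφ, evalBar_mk]

/-! ### The inverse -/

/-- `x ∈ IL I 1` is nilpotent when `I` is. -/
theorem isNilpotent_of_mem_IL {R : Type u} [CommRing R] {Λ : Type*} [CommRing Λ] [Algebra R Λ]
    {I : Ideal R} {j : ℕ} (hI : I ^ j = ⊥) {x : Λ} (hx : x ∈ IL I 1) : IsNilpotent x := by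
  have key : ∀ n : ℕ, x ^ n ∈ IL (Λ := Λ) I n := by
    intro n
    induction n with
    | zero =>
      unfold IL
      rw [pow_zero, pow_zero, Ideal.one_eq_top, Ideal.map_top]
      exact Submodule.mem_top
    | succ n ih =>
      rw [pow_succ]
      exact mul_mem_IL I ih hx
  refine ⟨j, ?_⟩
  have := key j
  rw [IL_eq_bot_of_pow_eq_bot hI] at this
  simpa using this

theorem isUnit_sig {R : Type u} [CommRing R] {I : Ideal R} {j : ℕ} (hI : I ^ j = ⊥)
    {s : Fin g → R} (hs : ∀ i, s i ∈ I) : IsUnit (sig (wLam g R) s) := by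
  have h1 : sig (wLam g R) s = (sig (wLam g R) s - 1) + 1 := by ring
  rw [h1]
  exact (isNilpotent_of_mem_IL hI (sig_sub_one_mem I _ hs)).isUnit_add_one

/-- the universal element `σ(S)⁻¹` -/
def univ1 (j : ℕ) : Lam g (Rj O (Fin g) j) :=
  ((isUnit_sig (g := g) (Ij_pow O (Fin g) j)
    (s := fun i => xbar O (Fin g) j i) (fun i => xbar_mem O _ j i)).unit⁻¹ : (Lam g _)ˣ)

theorem univ1_mul (j : ℕ) :
    univ1 (O := O) (g := g) j * sig (wLam g _) (fun i => xbar O (Fin g) j i) = 1 := by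
  unfold univ1
  exact IsUnit.val_inv_mul _

theorem univ1_sub_one_mem (j : ℕ) :
    univ1 (O := O) (g := g) j - 1 ∈ IL (Ij O (Fin g) j) 1 := by
  have h1 : univ1 (O := O) (g := g) j - 1
      = univ1 (O := O) (g := g) j * -(sig (wLam g _) (fun i => xbar O (Fin g) j i) - 1) := by
    have := univ1_mul (O := O) (g := g) j
    linear_combination this
  rw [h1]
  exact Ideal.mul_mem_left _ _
    ((Ideal.neg_mem_iff _).mpr (sig_sub_one_mem _ _ fun i => xbar_mem O _ j i))

theorem exists_univ1_nf (j : ℕ) :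
    ∃ T : Fin g → Rj O (Fin g) j, (∀ i, T i ∈ Ij O (Fin g) j) ∧
      ∃ a ∈ Ij O (Fin g) j • (Sys.AR (Rj O (Fin g) j)).toSubmodule,
      ∃ b ∈ Ij O (Fin g) j • (Sys.BR (Rj O (Fin g) j)).toSubmodule,
        univ1 (O := O) (g := g) j = sig (wLam g _) T * (1 + a) * (1 + b) :=
  exists_nf (Sys.hyp _ (Ij O (Fin g) j) ⟨j, Ij_pow O _ j⟩) _ (univ1_sub_one_mem j)

/-- the universal coordinates of the inverse, in `Rj` -/
def Tbar1 (j : ℕ) : Fin g → Rj O (Fin g) j := (exists_univ1_nf Sys j).choose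

/-- **The truncated formal inverse**. -/
def G (j : ℕ) (i : Fin g) : MvPolynomial (Fin g) O :=
  (Ideal.Quotient.mk_surjective (Tbar1 Sys j i)).choose

theorem mk_G (j : ℕ) (i : Fin g) :
    Ideal.Quotient.mk ((varIdeal O (Fin g)) ^ j) (G Sys j i) = Tbar1 Sys j i :=
  (Ideal.Quotient.mk_surjective (Tbar1 Sys j i)).choose_spec

/-- **Naturality for the inverse**: whenever `σ(s) σ(t) = (1+a) (1+b)` over an `O`-algebra `R` with
`I^j = ⊥`, the coordinates `t` are the values of `G^(j)` at `s`. -/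
theorem inv_spec (j : ℕ) {R : Type u} [CommRing R] [Algebra O R] (I : Ideal R) (hI : I ^ j = ⊥)
    {s t : Fin g → R} (hs : ∀ i, s i ∈ I) (ht : ∀ i, t i ∈ I)
    {a b : Lam g R} (ha : a ∈ I • (Sys.AR R).toSubmodule) (hb : b ∈ I • (Sys.BR R).toSubmodule)
    (h : sig (wLam g R) s * sig (wLam g R) t = (1 + a) * (1 + b)) (i : Fin g) :
    t i = MvPolynomial.aeval s (G Sys j i) := by
  obtain ⟨hT, a₀, ha₀, b₀, hb₀, hu⟩ := (exists_univ1_nf Sys j).choose_spec
  set φ := evalBar (O := O) I hI s hs with hφ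
  obtain ⟨ha₁, hb₁⟩ := map_nf Sys φ (fun r hr => evalBar_mem I hI _ hs hr) ha₀ hb₀
  -- the image of `univ1` is the inverse of `σ(s)`
  have hinv := congrArg (mapLam (φ : Rj O (Fin g) j →+* R)) (univ1_mul (O := O) (g := g) j)
  rw [map_mul, mapLam_sig, map_one] at hinv
  have e1 : (fun i => (φ : Rj O (Fin g) j →+* R) (xbar O (Fin g) j i)) = s := by
    funext i
    exact evalBar_xbar I hI _ hs i
  rw [e1] at hinv
  have hmap := congrArg (mapLam (φ : Rj O (Fin g) j →+* R)) hu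
  rw [map_mul, map_mul, mapLam_sig, map_add, map_add, map_one] at hmap
  set v₁ := mapLam (φ : Rj O (Fin g) j →+* R) (univ1 (O := O) (g := g) j) with hv₁
  set a₁ := mapLam (φ : Rj O (Fin g) j →+* R) a₀ with ha₁def
  set b₁ := mapLam (φ : Rj O (Fin g) j →+* R) b₀ with hb₁def
  set T' : Fin g → R := fun i => (φ : Rj O (Fin g) j →+* R) ((exists_univ1_nf Sys j).choose i)
    with hT'
  obtain ⟨a₂, ha₂, ea⟩ := one_add_mul_one_add I (Sys.AR R) ha₁ ha
  obtain ⟨b₂, hb₂, eb⟩ := one_add_mul_one_add I (Sys.BR R) hb₁ hb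
  have hfin : sig (wLam g R) t * (1 + 0) * (1 + 0)
      = sig (wLam g R) T' * (1 + a₂) * (1 + b₂) := by
    rw [← ea, ← eb]
    have h3 : sig (wLam g R) t = v₁ * ((1 + a) * (1 + b)) := by
      rw [← h, ← mul_assoc, hinv, one_mul]
    rw [h3, hmap]
    ring
  have huniq := nf_unique (Sys.hyp R I ⟨j, hI⟩) ht
    (fun i => evalBar_mem I hI _ hs (hT i)) (Submodule.zero_mem _) ha₂ (Submodule.zero_mem _) hb₂
    hfin
  have := congrFun huniq i
  rw [this]
  show φ (Tbar1 Sys j i) = _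
  rw [← mk_G, hφ, evalBar_mk]

/-! ### Zero constant terms -/

theorem sig_zero {R : Type u} [CommRing R] : sig (wLam g R) (fun _ => (0 : R)) = 1 := by
  simp [sig]

/-- `F^(j)(0,0) = 0` for `j ≥ 1`. -/
theorem constantCoeff_F (j : ℕ) (hj : 1 ≤ j) (i : Fin g) :
    MvPolynomial.constantCoeff (F Sys j i) = 0 := by
  have hI : (⊥ : Ideal O) ^ j = ⊥ := Ideal.bot_pow (by omega)
  have h := fgl_spec Sys j (R := O) (⊥ : Ideal O) hI (s := fun _ => 0) (s' := fun _ => 0)
    (s'' := fun _ => 0) (fun _ => Submodule.zero_mem _) (fun _ => Submodule.zero_mem _)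
    (fun _ => Submodule.zero_mem _) (a := 0) (b := 0) (Submodule.zero_mem _) (Submodule.zero_mem _)
    (by rw [sig_zero]; ring) i
  have e : (Sum.elim (fun _ : Fin g => (0 : O)) (fun _ : Fin g => (0 : O))) = 0 := by
    funext k
    rcases k with k | k <;> rfl
  rw [e, MvPolynomial.aeval_zero] at h
  simpa using h.symm

/-- `G^(j)(0) = 0` for `j ≥ 1`. -/
theorem constantCoeff_G (j : ℕ) (hj : 1 ≤ j) (i : Fin g) :
    MvPolynomial.constantCoeff (G Sys j i) = 0 := by
  have hI : (⊥ : Ideal O) ^ j = ⊥ := Ideal.bot_pow (by omega)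
  have h := inv_spec Sys j (R := O) (⊥ : Ideal O) hI (s := fun _ => 0) (t := fun _ => 0)
    (fun _ => Submodule.zero_mem _) (fun _ => Submodule.zero_mem _)
    (a := 0) (b := 0) (Submodule.zero_mem _) (Submodule.zero_mem _)
    (by rw [sig_zero]; ring) i
  have e : (fun _ : Fin g => (0 : O)) = 0 := rfl
  rw [e, MvPolynomial.aeval_zero] at h
  simpa using h.symm

end Spec

end Fermat.Agent.ES.V19.FGLUniv19
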