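/-
Programme V (S19 by hand, route `S19_ROUTE23.md`), brick (A5b), helper14, file 3 (glue):
a `NormalFormBasis14.BasisData O g` (basis with exact polar parts) gives a functorial normal-form
system `FGLUniv19.NFSystem O g` (helper19), hence the truncated formal group law `FGLUniv19.F`
and inverse `FGLUniv19.G` with their specifications `fgl_spec`, `inv_spec`.
-/
import Mathlib
import Fermat.Agent.ES.V19.NormalFormBasis14
import Fermat.Agent.ES.V19.FGLUniv19

set_option autoImplicit false

noncomputable section

namespace Fermat.Agent.ES.V19.NFSystemOfBasis14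

open Fermat.Agent.ES.V19.NormalFormBasis14
open Fermat.Agent.ES.V19.LaurentMap19 (Lam wLam mapLam)

universe u

variable {O : Type u} [CommRing O] {g : ℕ} (D : BasisData O g)

theorem map_AR_univ {R R' : Type u} [CommRing R] [CommRing R'] [Algebra O R] [Algebra O R']
    (φ : R →ₐ[O] R') (x : Lam g R) (hx : x ∈ AR D R) : mapLam (φ : R →+* R') x ∈ AR D R' :=
  map_AR D φ hx

theorem map_BR_univ {R R' : Type u} [CommRing R] [CommRing R'] [Algebra O R] [Algebra O R']
    (φ : R →ₐ[O] R') (x : Lam g R) (hx : x ∈ BR g R) : mapLam (φ : R →+* R') x ∈ BR g R' :=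
  map_BR (φ : R →+* R') hx

theorem hyp_univ (R : Type u) [CommRing R] [Algebra O R] (I : Ideal R)
    (hI : ∃ j : ℕ, I ^ j = ⊥) : NormalForm23.Hyp I (AR D R) (BR g R) (wLam g R) :=
  hyp D I hI

/-- the normal-form system of a basis with exact polar parts. -/
def nfSystem : FGLUniv19.NFSystem O g where
  AR R _ _ := AR D R
  BR R _ _ := BR g R
  map_AR := map_AR_univ D
  map_BR := fun φ x hx => map_BR_univ φ x hx
  hyp := hyp_univ D

@[simp] theorem nfSystem_AR (R : Type u) [CommRing R] [Algebra O R] :
    (nfSystem D).AR R = AR D R := rfl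

@[simp] theorem nfSystem_BR (R : Type u) [CommRing R] [Algebra O R] :
    (nfSystem D).BR R = BR g R := rfl

end Fermat.Agent.ES.V19.NFSystemOfBasis14
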