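/-
helper7 — Programme V (S19, SPINE v1 of helper23), chapter B5 (chart Ξ), the ALGEBRA SIDE of (Ξc).

Input (delivered by the geometric half of (Ξc), i.e. by (Dc), (Dd), (Le)): over `R = A ⧸ (d)` with a
nilpotent ideal `I`, coordinates `s s' s'' ∈ I^g`, and elements `E β : Lam g R` with
`E - 1 ∈ I • AR R` (this is (Le) applied to `h = 1 + ϖ₁ g`), `β - 1 ∈ I • BR R` (the Taylor series
of the local units `u_i` of (Dc)) and the LOCAL SHAPE of `h` in each disc,
`E_i * ((X - s''_i) * X) = β_i * ((X - s_i) * (X - s'_i))` in `R((X))`.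

Output: `s'' i = aeval (Sum.elim s s') (F Sys j i)` in `R` (`add_spec`), and its lift to `A`:
`s'' i - aeval (Sum.elim s s') (F Sys N i) ∈ span {d}` (`add_congr`); same for the inverse with
`G Sys j` (`neg_spec`, `neg_congr`).

Everything here is commutative algebra on top of `NormalForm23`, `LaurentMap19`, `FGLUniv19`.
-/
import Mathlib
import Fermat.Agent.ES.V19.NormalForm23
import Fermat.Agent.ES.V19.LaurentMap19
import Fermat.Agent.ES.V19.FGLUniv19

set_option autoImplicit false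

noncomputable section

namespace Fermat.Agent.ES.V19.XiAdd7

open scoped BigOperators
open Fermat.Agent.ES.V19.NormalForm23 Fermat.Agent.ES.V19.LaurentMap19
  Fermat.Agent.ES.V19.FGLUniv19

universe u

/-! ### Inverting `1 + b` for `b ∈ I • B`, `I` nilpotent -/

section Inv

variable {R : Type u} [CommRing R] {Λ : Type*} [CommRing Λ] [Algebra R Λ]

/-- `(I • B) * B ⊆ I • B` for a subalgebra `B`. -/
theorem mul_mem_smul_of_mem (I : Ideal R) (B : Subalgebra R Λ) {x y : Λ}
    (hx : x ∈ I • B.toSubmodule) (hy : y ∈ B) : x * y ∈ I • B.toSubmodule := by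
  refine Submodule.smul_induction_on hx (fun r hr a ha => ?_) (fun x z hx hz => ?_)
  · rw [smul_mul_assoc]
    exact Submodule.smul_mem_smul hr (B.mul_mem ha hy)
  · rw [add_mul]
    exact add_mem hx hz

/-- `I • B ⊆ B`. -/
theorem mem_of_mem_smul (I : Ideal R) (B : Subalgebra R Λ) {x : Λ}
    (hx : x ∈ I • B.toSubmodule) : x ∈ B := by
  refine Submodule.smul_induction_on hx (fun r _ a ha => ?_) (fun x z hx hz => ?_)
  · exact B.smul_mem ha r
  · exact B.add_mem hx hz

/-- For `I` nilpotent and `b ∈ I • B`, the element `1 + b` has an inverse of the same shape. -/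
theorem exists_one_add_inv (I : Ideal R) {j : ℕ} (hI : I ^ j = ⊥) (B : Subalgebra R Λ) {b : Λ}
    (hb : b ∈ I • B.toSubmodule) : ∃ b' ∈ I • B.toSubmodule, (1 + b) * (1 + b') = 1 := by
  have hbIL : b ∈ IL (Λ := Λ) I 1 := mem_IL_of_mem_smul I B.toSubmodule (by simpa using hb)
  obtain ⟨n, hn⟩ := isNilpotent_of_mem_IL hI hbIL
  set c : Λ := ∑ k ∈ Finset.range n, (-b) ^ k with hc
  have hcB : c ∈ B := by
    rw [hc]
    exact B.sum_mem fun k _ => B.pow_mem (B.neg_mem (mem_of_mem_smul I B hb)) k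
  have hmul : (1 + b) * c = 1 := by
    have h1 : (1 - -b) * c = 1 - (-b) ^ n := mul_neg_geom_sum (-b) n
    have h2 : (-b) ^ n = 0 := by rw [neg_pow, hn, mul_zero]
    rw [h2, sub_zero, sub_neg_eq_add] at h1
    exact h1
  refine ⟨-b * c, ?_, ?_⟩
  · exact mul_mem_smul_of_mem I B ((Submodule.neg_mem_iff _).mpr hb) hcB
  · linear_combination (-b) * hmul

end Inv

/-! ### The spec of `F` and `G` in "local shape" form -/

section Spec

variable {O : Type u} [CommRing O] {g : ℕ} (Sys : NFSystem O g)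

/-- **Addition**: if `E * σ(s'') = β * (σ(s) * σ(s'))` with `E ∈ 1 + I • AR`, `β ∈ 1 + I • BR`,
then `s'' = F^(j)(s, s')`. -/
theorem add_spec (j : ℕ) {R : Type u} [CommRing R] [Algebra O R] (I : Ideal R) (hI : I ^ j = ⊥)
    {s s' s'' : Fin g → R} (hs : ∀ i, s i ∈ I) (hs' : ∀ i, s' i ∈ I) (hs'' : ∀ i, s'' i ∈ I)
    {E β : Lam g R} (hE : E - 1 ∈ I • (Sys.AR R).toSubmodule)
    (hβ : β - 1 ∈ I • (Sys.BR R).toSubmodule)
    (h : E * sig (wLam g R) s'' = β * (sig (wLam g R) s * sig (wLam g R) s')) (i : Fin g) :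
    s'' i = MvPolynomial.aeval (Sum.elim s s') (F Sys j i) := by
  obtain ⟨b', hb', hinv⟩ := exists_one_add_inv I hI (Sys.BR R) hβ
  refine fgl_spec Sys j I hI hs hs' hs'' hE hb' ?_ i
  have h1 : β * (1 + b') = 1 := by
    have : (1 + (β - 1)) = β := by ring
    rw [this] at hinv
    exact hinv
  calc sig (wLam g R) s * sig (wLam g R) s'
      = (β * (sig (wLam g R) s * sig (wLam g R) s')) * (1 + b') := by
        linear_combination (-(sig (wLam g R) s * sig (wLam g R) s')) * h1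
    _ = E * sig (wLam g R) s'' * (1 + b') := by rw [← h]
    _ = sig (wLam g R) s'' * (1 + (E - 1)) * (1 + b') := by ring

/-- **Inverse**: if `E = β * (σ(s) * σ(t))` with `E ∈ 1 + I • AR`, `β ∈ 1 + I • BR`,
then `t = G^(j)(s)`. -/
theorem neg_spec (j : ℕ) {R : Type u} [CommRing R] [Algebra O R] (I : Ideal R) (hI : I ^ j = ⊥)
    {s t : Fin g → R} (hs : ∀ i, s i ∈ I) (ht : ∀ i, t i ∈ I)
    {E β : Lam g R} (hE : E - 1 ∈ I • (Sys.AR R).toSubmodule)
    (hβ : β - 1 ∈ I • (Sys.BR R).toSubmodule)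
    (h : E = β * (sig (wLam g R) s * sig (wLam g R) t)) (i : Fin g) :
    t i = MvPolynomial.aeval s (G Sys j i) := by
  obtain ⟨b', hb', hinv⟩ := exists_one_add_inv I hI (Sys.BR R) hβ
  refine inv_spec Sys j I hI hs ht hE hb' ?_ i
  have h1 : β * (1 + b') = 1 := by
    have : (1 + (β - 1)) = β := by ring
    rw [this] at hinv
    exact hinv
  calc sig (wLam g R) s * sig (wLam g R) t
      = (β * (sig (wLam g R) s * sig (wLam g R) t)) * (1 + b') := by
        linear_combination (-(sig (wLam g R) s * sig (wLam g R) t)) * h1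
    _ = E * (1 + b') := by rw [← h]
    _ = (1 + (E - 1)) * (1 + b') := by ring

end Spec

/-! ### Laurent series: `σ(s)_i = 1 - s_i X⁻¹` and the local shape -/

section Local

variable {g : ℕ} {R : Type*} [CommRing R]

/-- `X` as a Laurent series. -/
def LX (R : Type*) [CommRing R] : LaurentSeries R := HahnSeries.single (1 : ℤ) (1 : R)

/-- `X⁻¹` as a Laurent series. -/
def LXinv (R : Type*) [CommRing R] : LaurentSeries R := HahnSeries.single (-1 : ℤ) (1 : R)

theorem LX_mul_LXinv : LX R * LXinv R = 1 := by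
  unfold LX LXinv
  rw [HahnSeries.single_mul_single]
  simp

theorem isUnit_LX : IsUnit (LX R) :=
  IsUnit.of_mul_eq_one _ LX_mul_LXinv

/-- The `i`-th component of `σ(s)` is `1 - s_i X⁻¹`. -/
theorem sig_apply (s : Fin g → R) (i : Fin g) :
    sig (wLam g R) s i = 1 - HahnSeries.C (s i) * LXinv R := by
  unfold sig
  rw [LaurentMap19.sub_apply, LaurentMap19.one_apply, LaurentMap19.sum_apply]
  congr 1
  rw [Finset.sum_eq_single i]
  · rw [LaurentMap19.smul_apply, wLam_apply_self]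
    unfold LXinv
    ext d
    by_cases hd : d = -1
    · subst hd
      simp
    · simp [HahnSeries.coeff_single_of_ne hd]
  · intro k _ hk
    rw [LaurentMap19.smul_apply, wLam_apply_of_ne (Ne.symm hk), smul_zero]
  · intro h
    exact absurd (Finset.mem_univ i) h

/-- `X - s = X * (1 - s X⁻¹)`. -/
theorem LX_sub_C (r : R) : LX R - HahnSeries.C r = LX R * (1 - HahnSeries.C r * LXinv R) := by
  have := LX_mul_LXinv (R := R)
  linear_combination (HahnSeries.C r) * this

/-- **Local shape ⇒ global identity in `Lam g R`** (addition):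
`E_i * ((X - s''_i) * X) = β_i * ((X - s_i) * (X - s'_i))` for all `i` gives
`E * σ(s'') = β * (σ(s) * σ(s'))`. -/
theorem sig_identity_of_local {s s' s'' : Fin g → R} {E β : Lam g R}
    (h : ∀ i, E i * ((LX R - HahnSeries.C (s'' i)) * LX R)
      = β i * ((LX R - HahnSeries.C (s i)) * (LX R - HahnSeries.C (s' i)))) :
    E * sig (wLam g R) s'' = β * (sig (wLam g R) s * sig (wLam g R) s') := by
  funext i
  rw [LaurentMap19.mul_apply, LaurentMap19.mul_apply, LaurentMap19.mul_apply, sig_apply, sig_apply,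
    sig_apply]
  have hi := h i
  rw [LX_sub_C, LX_sub_C, LX_sub_C] at hi
  have hu : IsUnit (LX R * LX R) := (isUnit_LX (R := R)).mul isUnit_LX
  refine hu.mul_left_cancel ?_
  linear_combination hi

/-- **Local shape ⇒ global identity in `Lam g R`** (inverse):
`E_i * (X * X) = β_i * ((X - s_i) * (X - t_i))` for all `i` gives `E = β * (σ(s) * σ(t))`. -/
theorem sig_identity_of_local_neg {s t : Fin g → R} {E β : Lam g R}
    (h : ∀ i, E i * (LX R * LX R)
      = β i * ((LX R - HahnSeries.C (s i)) * (LX R - HahnSeries.C (t i)))) :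
    E = β * (sig (wLam g R) s * sig (wLam g R) t) := by
  funext i
  rw [LaurentMap19.mul_apply, LaurentMap19.mul_apply, sig_apply, sig_apply]
  have hi := h i
  rw [LX_sub_C, LX_sub_C] at hi
  have hu : IsUnit (LX R * LX R) := (isUnit_LX (R := R)).mul isUnit_LX
  refine hu.mul_left_cancel ?_
  linear_combination hi

end Local

/-! ### Lifting the congruences from `A ⧸ (d)` to `A` -/

section Lift

variable {O : Type u} [CommRing O] {g : ℕ} (Sys : NFSystem O g)
variable {A : Type u} [CommRing A] [Algebra O A]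

/-- The quotient `A ⧸ (d)` (an `O`-algebra via `Ideal.Quotient.algebra`). -/
abbrev Rd (d : A) : Type u := A ⧸ Ideal.span ({d} : Set A)

/-- The quotient map `A → A ⧸ (d)`. -/
abbrev mkd (d : A) : A →+* Rd d := Ideal.Quotient.mk (Ideal.span ({d} : Set A))

/-- The image of `π A` in `A ⧸ (d)`. -/
def Ipi (d π : A) : Ideal (Rd d) := (Ideal.span ({π} : Set A)).map (mkd d)

theorem mk_mem_Ipi (d : A) {π a : A} (h : π ∣ a) : mkd d a ∈ Ipi d π :=
  Ideal.mem_map_of_mem _ (Ideal.mem_span_singleton.mpr h)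

/-- If `π ^ N₀ ∈ (d)` then the image of `π A` in `A ⧸ (d)` is nilpotent of exponent `N ≥ N₀`. -/
theorem Ipi_pow (d π : A) {N₀ N : ℕ} (hπ : d ∣ π ^ N₀) (hN : N₀ ≤ N) : Ipi d π ^ N = ⊥ := by
  unfold Ipi
  rw [← Ideal.map_pow, Ideal.span_singleton_pow, Ideal.map_eq_bot_iff_le_ker, Ideal.mk_ker,
    Ideal.span_singleton_le_span_singleton]
  exact hπ.trans (pow_dvd_pow π hN)

/-- `aeval` commutes with the quotient map `A → A ⧸ (d)`. -/
theorem mk_aeval {ι : Type*} (d : A) (v : ι → A) (p : MvPolynomial ι O) :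
    mkd d (MvPolynomial.aeval v p) = MvPolynomial.aeval (fun k => mkd d (v k)) p :=
  MvPolynomial.comp_aeval_apply v (Ideal.Quotient.mkₐ O (Ideal.span ({d} : Set A))) p

/-- **(Ξc), addition, algebra side.** `d, π ∈ A` with `d ∣ π ^ N₀`, `N ≥ N₀`; coordinates
`s s' s'' ∈ (π A)^g`; over `R = A ⧸ (d)`, `I = π R`: `E ∈ 1 + I • AR R`, `β ∈ 1 + I • BR R` with
`E * σ(s'') = β * (σ(s) * σ(s'))`. Then `s'' i ≡ F^(N)(s, s') i` modulo `d`. -/
theorem add_congr (d π : A) {N₀ N : ℕ} (hπ : d ∣ π ^ N₀) (hN : N₀ ≤ N)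
    {s s' s'' : Fin g → A} (hs : ∀ i, π ∣ s i) (hs' : ∀ i, π ∣ s' i) (hs'' : ∀ i, π ∣ s'' i)
    {E β : Lam g (Rd d)} (hE : E - 1 ∈ Ipi d π • (Sys.AR (Rd d)).toSubmodule)
    (hβ : β - 1 ∈ Ipi d π • (Sys.BR (Rd d)).toSubmodule)
    (h : E * sig (wLam g (Rd d)) (fun i => mkd d (s'' i))
      = β * (sig (wLam g (Rd d)) (fun i => mkd d (s i))
        * sig (wLam g (Rd d)) (fun i => mkd d (s' i))))
    (i : Fin g) : d ∣ s'' i - MvPolynomial.aeval (Sum.elim s s') (F Sys N i) := by
  have key := add_spec Sys N (Ipi d π) (Ipi_pow d π hπ hN)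
    (fun i => mk_mem_Ipi d (hs i)) (fun i => mk_mem_Ipi d (hs' i))
    (fun i => mk_mem_Ipi d (hs'' i)) hE hβ h i
  have e : (Sum.elim (fun i => mkd d (s i)) (fun i => mkd d (s' i)))
      = fun k => mkd d (Sum.elim s s' k) := by
    funext k
    rcases k with k | k <;> rfl
  rw [e, ← mk_aeval, ← sub_eq_zero, ← map_sub, Ideal.Quotient.eq_zero_iff_mem,
    Ideal.mem_span_singleton] at key
  exact key

/-- **(Ξc), inverse, algebra side.** Same setting; `E = β * (σ(s) * σ(t))` gives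
`t i ≡ G^(N)(s) i` modulo `d`. -/
theorem neg_congr (d π : A) {N₀ N : ℕ} (hπ : d ∣ π ^ N₀) (hN : N₀ ≤ N)
    {s t : Fin g → A} (hs : ∀ i, π ∣ s i) (ht : ∀ i, π ∣ t i)
    {E β : Lam g (Rd d)} (hE : E - 1 ∈ Ipi d π • (Sys.AR (Rd d)).toSubmodule)
    (hβ : β - 1 ∈ Ipi d π • (Sys.BR (Rd d)).toSubmodule)
    (h : E = β * (sig (wLam g (Rd d)) (fun i => mkd d (s i))
        * sig (wLam g (Rd d)) (fun i => mkd d (t i))))
    (i : Fin g) : d ∣ t i - MvPolynomial.aeval s (G Sys N i) := by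
  have key := neg_spec Sys N (Ipi d π) (Ipi_pow d π hπ hN)
    (fun i => mk_mem_Ipi d (hs i)) (fun i => mk_mem_Ipi d (ht i)) hE hβ h i
  rw [← mk_aeval, ← sub_eq_zero, ← map_sub, Ideal.Quotient.eq_zero_iff_mem,
    Ideal.mem_span_singleton] at key
  exact key

end Lift

end Fermat.Agent.ES.V19.XiAdd7
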