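/-
helper7 — Programme V (S19, SPINE v1 + RULING 3 of helper23), chapter B5 (chart Ξ), (Ξc):
THE LOCAL ANALYSIS IN ONE DISC, from the frozen (B3) literals `DiscIface3.Da`, `DiscIface3.Db` and the
fraction vocabulary `GaussFrac15` / `SupTrick15.RedCtx` (no use of (Dc): the divisor of `h` is known).

* `exists_scale_of_red_zero` : a Gauss-integral `f` with reduction `0` is `c₀ · w`, `c₀ ∈ 𝔪_A`,
  `w` Gauss-integral;
* `ord_tauSub_eq`            : on the disc of `Q`, `ord_P (τ - s) = [P = P_s]`;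
* `isRedOf_tauSub`           : `τ - s` (`s ∈ 𝔪_A`) has reduction `τ̄ ≠ 0`;
* `exists_local_unit`        : `h` with `h̄ = 1` and `ord_P h = [P=P₁] + [P=P₂] - [P=P₃] - [P=P₄]` on
  the disc (`P_k` the zero of `τ - s_k`) is `u (τ-s₁)(τ-s₂) / ((τ-s₃)(τ-s₄))` with `u ∈ CQ`, `ū = 1`;
* `exists_scale_sub_one`     : such a `u` is `1 + c₀ · w` with `c₀ ∈ 𝔪_A`, `w ∈ CQ`;
* `exists_common_divisor`    : finitely many elements of `𝔪_A` and `d ∈ 𝔪_A ∖ 0` have a common
  divisor `π ∈ 𝔪_A ∖ 0` (valuation ring).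
-/
import Mathlib
import Fermat.Agent.ES.V19.DiscIface3
import Fermat.Agent.ES.V19.GaussFrac15
import Fermat.Agent.ES.V19.SupTrick15
import Fermat.Agent.ES.V19.XiInj5

set_option autoImplicit false

noncomputable section

open AlgebraicCurve

namespace Fermat.Agent.ES.V19.XiLocal7

open Fermat.Agent.X0.FF Fermat.Agent.ES.RED.Contract8 Fermat.Agent.ES.RED.TwoCharts8
  Fermat.Agent.ES.V19.DiscIface3 Fermat.Agent.ES.V19.GaussFrac15 Fermat.Agent.ES.V19.SupTrick15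
  Fermat.Agent.ES.V19.XiInj5

/-! ### Scaling a function with zero reduction -/

section Scale

variable {L F k Ft : Type*} [Field L] [Field F] [Algebra L F] [Field k] [Field Ft] [Algebra k Ft]
variable {A : ValuationSubring L} {π : ↥A →+* k} {G : Subring F} {red : ↥G →+* Ft}
  {r : Place L F → Place k Ft}

/-- A Gauss-integral function with reduction `0` is `c₀ · w` with `c₀ ∈ 𝔪_A` and `w` Gauss-integral. -/
theorem exists_scale_of_red_zero (C : RedCtx A π G red r) {f : F} (hf : IsRedOf G red f 0) :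
    ∃ c₀ : ↥A, c₀ ∈ IsLocalRing.maximalIdeal ↥A ∧ ∃ w : F, IsGI G red w ∧
      f = algebraMap L F (c₀ : L) * w := by
  rcases eq_or_ne f 0 with rfl | hf0
  · exact ⟨0, Ideal.zero_mem _, 0, isRedOf_zero.isGI, by simp⟩
  obtain ⟨c, hc0, hw⟩ := C.scale f hf0
  set w : F := (algebraMap L F c)⁻¹ * f with hwdef
  have hcF : algebraMap L F c ≠ 0 := by
    intro h
    exact hc0 ((map_eq_zero (algebraMap L F)).mp h)
  have hfw : f = algebraMap L F c * w := by
    rw [hwdef, ← mul_assoc, mul_inv_cancel₀ hcF, one_mul]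
  -- `c ∈ A` and `c` is not a unit of `A`
  have key : ∃ hcA : c ∈ A, ¬ IsUnit (⟨c, hcA⟩ : ↥A) := by
    by_contra hcon
    -- then `c⁻¹ ∈ A`
    have hinv : c⁻¹ ∈ A := by
      rcases A.mem_or_inv_mem c with hcA | hcA
      · have hu : IsUnit (⟨c, hcA⟩ : ↥A) := by
          by_contra hnu
          exact hcon ⟨hcA, hnu⟩
        obtain ⟨v, hv⟩ := hu.exists_right_inv
        have h1 : c * (v : L) = 1 := by
          have := congrArg Subtype.val hv
          simpa using this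
        have h2 : c⁻¹ = (v : L) := by
          rw [← mul_one c⁻¹, ← h1, ← mul_assoc, inv_mul_cancel₀ hc0, one_mul]
        rw [h2]
        exact v.2
      · exact hcA
    have h1 : IsRedOf G red w (algebraMap k Ft (π ⟨c⁻¹, hinv⟩) * 0) := by
      have h2 := (C.isRedOf_const ⟨c⁻¹, hinv⟩).mul hf
      have h3 : algebraMap L F ((⟨c⁻¹, hinv⟩ : ↥A) : L) * f = w := by
        rw [hwdef, map_inv₀]
      rwa [h3] at h2
    rw [mul_zero] at h1
    obtain ⟨φ, hφ0, hφ⟩ := hw.exists_isRedOf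
    exact hφ0 (hφ.unique h1)
  obtain ⟨hcA, hnu⟩ := key
  exact ⟨⟨c, hcA⟩, (IsLocalRing.mem_maximalIdeal _).mpr hnu, w, hw.isGI, hfw⟩

end Scale

/-! ### A common divisor in a valuation ring -/

section Divisor

variable {L : Type*} [Field L] (A : ValuationSubring L)

/-- Finitely many elements of `𝔪_A` and a nonzero `d ∈ 𝔪_A` have a common divisor
`π ∈ 𝔪_A ∖ 0`. -/
theorem exists_common_divisor (S : Finset ↥A) (hS : ∀ a ∈ S, a ∈ IsLocalRing.maximalIdeal ↥A)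
    {d : ↥A} (hd : d ∈ IsLocalRing.maximalIdeal ↥A) (hd0 : d ≠ 0) :
    ∃ π : ↥A, π ∈ IsLocalRing.maximalIdeal ↥A ∧ π ≠ 0 ∧ π ∣ d ∧ ∀ a ∈ S, π ∣ a := by
  classical
  induction S using Finset.induction_on with
  | empty => exact ⟨d, hd, hd0, dvd_refl d, fun a ha => absurd ha (Finset.notMem_empty a)⟩
  | insert a S _ ih =>
    obtain ⟨π, hπ, hπ0, hπd, hπS⟩ := ih fun b hb => hS b (Finset.mem_insert_of_mem hb)
    rcases ValuationRing.dvd_total π a with h | h
    · refine ⟨π, hπ, hπ0, hπd, fun b hb => ?_⟩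
      rcases Finset.mem_insert.mp hb with rfl | hb
      · exact h
      · exact hπS b hb
    · have ha0 : a ≠ 0 := by
        rintro rfl
        exact hπ0 (zero_dvd_iff.mp h)
      refine ⟨a, hS a (Finset.mem_insert_self a S), ha0, h.trans hπd, fun b hb => ?_⟩
      rcases Finset.mem_insert.mp hb with rfl | hb
      · exact dvd_refl _
      · exact h.trans (hπS b hb)

end Divisor

/-! ### The disc of `Q` -/

section Disc

variable {L : Type*} [Field L] [IsAlgClosed L] {A : ValuationSubring L}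
variable {F : Type*} [Field F] [Algebra L F] {x : F} {hx : IsGen L x}
variable {Ft : Type*} [Field Ft] [Algebra (kA A) Ft]
variable {T : TwoCharts A hx Ft} {G : Subring F} {red : ↥G →+* Ft}
  {Q : Place (kA A) Ft} {c : ↥A}

omit [IsAlgClosed L] in
/-- `ord_P (a • f) = ord_P f` for a nonzero constant `a`. -/
theorem ord_const_mul (P : Place L F) {a : L} (ha : a ≠ 0) (f : F) :
    P.ord (algebraMap L F a * f) = P.ord f := by
  rcases eq_or_ne f 0 with rfl | hf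
  · rw [mul_zero]
  · have haF : algebraMap L F a ≠ 0 := fun h => ha ((map_eq_zero (algebraMap L F)).mp h)
    rw [Place.ord_mul P haF hf, ord_algebraMap, zero_add]

/-- `τ - s` is regular on the disc of `Q`. -/
theorem ord_tauSub_nonneg (hDa : Da T Q c) (s : ↥A) {P : Place L F} (hQ : T.r P = Q) :
    0 ≤ P.ord (tauSub T c s) := by
  rw [← coe_tauB_sub_const]
  exact ord_nonneg_of_mem P (T.S0.mem_place P (hDa.1 P hQ) _ (tauB T c - T.S0.const s).2)

open Classical in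
/-- On the disc of `Q`: `ord_P (τ - s) = [P = P₀]`, `P₀` the zero of `τ - s`. -/
theorem ord_tauSub_eq (hDa : Da T Q c) {s : ↥A} (hs : s ∈ IsLocalRing.maximalIdeal ↥A)
    {P₀ : Place L F} (hQ₀ : T.r P₀ = Q) (h₀ : 0 < P₀.ord (tauSub T c s))
    {P : Place L F} (hQ : T.r P = Q) :
    P.ord (tauSub T c s) = if P = P₀ then 1 else 0 := by
  obtain ⟨P₁, _, h1, huniq⟩ := hDa.2.2 s hs
  have e₀ : P₀ = P₁ := huniq P₀ hQ₀ h₀
  split_ifs with hP
  · rw [hP, e₀, h1]
  · have hge := ord_tauSub_nonneg hDa s hQ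
    by_contra hne
    have hpos : 0 < P.ord (tauSub T c s) := lt_of_le_of_ne hge (Ne.symm hne)
    exact hP ((huniq P hQ hpos).trans e₀.symm)

/-- The reduction of `τ = t - c` is nonzero at a GOOD `(Q, c)`. -/
theorem red_tauB_ne_zero (hgood : Good T Q c) : T.S0.red (tauB T c) ≠ 0 := by
  intro h
  unfold Good at hgood
  rw [h, Place.ord_zero] at hgood
  exact zero_ne_one hgood

/-- `τ - s` has reduction `τ̄` for `s ∈ 𝔪_A`. -/
theorem isRedOf_tauSub (hBG : ∀ b : ↥T.S0.B, IsRedOf G red (b : F) (T.S0.red b))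
    {s : ↥A} (hs : s ∈ IsLocalRing.maximalIdeal ↥A) :
    IsRedOf G red (tauSub T c s) (T.S0.red (tauB T c)) := by
  have h := hBG (tauB T c - T.S0.const s)
  rw [coe_tauB_sub_const, map_sub, T.S0.red_const', (IsLocalRing.residue_eq_zero_iff s).mpr hs,
    map_zero, sub_zero] at h
  exact h

open Classical in
/-- **The local unit.** `h` with reduction `1` whose divisor on the disc of `Q` is
`P₁ + P₂ - P₃ - P₄` (`P_k` the zero of `τ - s_k`) is `u (τ - s₁)(τ - s₂) / ((τ - s₃)(τ - s₄))`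
with `u ∈ CQ` of reduction `1`. -/
theorem exists_local_unit (hBG : ∀ b : ↥T.S0.B, IsRedOf G red (b : F) (T.S0.red b))
    (hgood : Good T Q c) (hDa : Da T Q c) (hDb : Db T (gaussInt G red) Q)
    {h : F} (hh : IsRedOf G red h 1) {s₁ s₂ s₃ s₄ : ↥A}
    (hs₁ : s₁ ∈ IsLocalRing.maximalIdeal ↥A) (hs₂ : s₂ ∈ IsLocalRing.maximalIdeal ↥A)
    (hs₃ : s₃ ∈ IsLocalRing.maximalIdeal ↥A) (hs₄ : s₄ ∈ IsLocalRing.maximalIdeal ↥A)
    {P₁ P₂ P₃ P₄ : Place L F}
    (hP₁ : T.r P₁ = Q ∧ 0 < P₁.ord (tauSub T c s₁)) (hP₂ : T.r P₂ = Q ∧ 0 < P₂.ord (tauSub T c s₂))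
    (hP₃ : T.r P₃ = Q ∧ 0 < P₃.ord (tauSub T c s₃)) (hP₄ : T.r P₄ = Q ∧ 0 < P₄.ord (tauSub T c s₄))
    (hord : ∀ P, T.r P = Q → P.ord h = (if P = P₁ then 1 else 0) + (if P = P₂ then 1 else 0)
      - (if P = P₃ then 1 else 0) - (if P = P₄ then 1 else 0)) :
    ∃ u : F, u ∈ CQ T Q ∧ IsRedOf G red u 1 ∧
      h * (tauSub T c s₃ * tauSub T c s₄) = u * (tauSub T c s₁ * tauSub T c s₂) := by
  have hτ := red_tauB_ne_zero hgood
  have n₁ := tauSub_ne_zero hDa hs₁
  have n₂ := tauSub_ne_zero hDa hs₂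
  have n₃ := tauSub_ne_zero hDa hs₃
  have n₄ := tauSub_ne_zero hDa hs₄
  have hh0 : h ≠ 0 := (hh.isGU one_ne_zero).ne_zero
  have r₁ := isRedOf_tauSub (c := c) hBG hs₁
  have r₂ := isRedOf_tauSub (c := c) hBG hs₂
  have r₃ := isRedOf_tauSub (c := c) hBG hs₃
  have r₄ := isRedOf_tauSub (c := c) hBG hs₄
  set u : F := h * (tauSub T c s₃ * tauSub T c s₄) * (tauSub T c s₁ * tauSub T c s₂)⁻¹ with hu
  have hured : IsRedOf G red u 1 := by
    have h1 := (hh.mul (r₃.mul r₄)).mul ((r₁.mul r₂).inv (mul_ne_zero hτ hτ))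
    have h2 : (1 : Ft) * (T.S0.red (tauB T c) * T.S0.red (tauB T c))
        * (T.S0.red (tauB T c) * T.S0.red (tauB T c))⁻¹ = 1 := by
      rw [one_mul, mul_inv_cancel₀ (mul_ne_zero hτ hτ)]
    rwa [h2] at h1
  have huord : ∀ P, T.r P = Q → 0 ≤ P.ord u := by
    intro P hQ
    have e : P.ord u = 0 := by
      rw [hu, Place.ord_mul P (mul_ne_zero hh0 (mul_ne_zero n₃ n₄))
          (inv_ne_zero (mul_ne_zero n₁ n₂)),
        Place.ord_mul P hh0 (mul_ne_zero n₃ n₄), Place.ord_mul P n₃ n₄, Place.ord_inv,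
        Place.ord_mul P n₁ n₂, hord P hQ, ord_tauSub_eq hDa hs₁ hP₁.1 hP₁.2 hQ,
        ord_tauSub_eq hDa hs₂ hP₂.1 hP₂.2 hQ, ord_tauSub_eq hDa hs₃ hP₃.1 hP₃.2 hQ,
        ord_tauSub_eq hDa hs₄ hP₄.1 hP₄.2 hQ]
      ring
    rw [e]
  refine ⟨u, hDb u hured.isGI huord, hured, ?_⟩
  rw [hu, mul_assoc, inv_mul_cancel₀ (mul_ne_zero n₁ n₂), mul_one]

/-- **`u ≡ 1`.** An element `u ∈ CQ` of reduction `1` is `1 + c₀ · w`, `c₀ ∈ 𝔪_A`, `w ∈ CQ`.
(`hreg`: the elements of `CQ` are regular on the disc of `Q`.) -/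
theorem exists_scale_sub_one (C : RedCtx A (resA A) G red T.r)
    (hDb : Db T (gaussInt G red) Q)
    (hreg : ∀ f ∈ CQ T Q, ∀ P, T.r P = Q → 0 ≤ P.ord f)
    {u : F} (hu : u ∈ CQ T Q) (hu1 : IsRedOf G red u 1) :
    ∃ c₀ : ↥A, c₀ ∈ IsLocalRing.maximalIdeal ↥A ∧ ∃ w ∈ CQ T Q,
      u - 1 = algebraMap L F (c₀ : L) * w := by
  have h0 : IsRedOf G red (u - 1) 0 := by
    have := hu1.sub (isRedOf_one (G := G) (red := red))
    rwa [sub_self] at this
  obtain ⟨c₀, hc₀, w, hw, e⟩ := exists_scale_of_red_zero C h0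
  rcases eq_or_ne (c₀ : L) 0 with hz | hz
  · refine ⟨c₀, hc₀, 0, (CQ T Q).zero_mem, ?_⟩
    rw [e, hz, map_zero, zero_mul, mul_zero]
  · refine ⟨c₀, hc₀, w, hDb w hw fun P hQ => ?_, e⟩
    have h1 := hreg (u - 1) ((CQ T Q).sub_mem hu (CQ T Q).one_mem) P hQ
    rwa [e, ord_const_mul P hz] at h1

end Disc

end Fermat.Agent.ES.V19.XiLocal7
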