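/-
helper7 — Programme V (S19, SPINE v1 + RULING 3 of helper23), chapter B5 (chart Ξ):
**THE BRIDGE of (Ξc)**: from the function `h` with `h̄ = 1` and
`div h = ∑ P_i + ∑ P'_i - ∑ P''_i - ∑ Q_i` (delivered by helper29's `XiAddH29`), the disc lemmas
(Da), (Db) of the frozen `DiscIface3`, the Taylor expansions of `DiscTaylor3` and the expansion package
of (Le) (`ExpPkg`: the ring `B^♯`, `Exp^R : B^♯ →+* Lam g (A ⧸ (d))`, its computation rules and
`Exp^R f ∈ AR`), to the congruences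

  `d ∣ s'' i - aeval (Sum.elim s s') (F Sys N i)`   (`add_congr_of_chart`),
  `d ∣ t i - aeval s (G Sys N i)`                   (`neg_congr_of_chart`)

for all `N ≥ N₀`, in the valuation ring `A`.

Proof: (Db) gives in each disc `h = u_i (τ_i - s_i)(τ_i - s'_i) / ((τ_i - s''_i) τ_i)` with
`u_i ∈ CQ_i`, `ū_i = 1` (`XiLocal7.exists_local_unit`); scaling gives `u_i = 1 + c_i w_i`,
`h = 1 + c' w'` with `c_i, c' ∈ 𝔪_A`; `π` := a common divisor of all coordinates, of the `c_i`, of `c'`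
and of `d`; then `E := Exp^R h ∈ 1 + π • AR` by (Le), `β := (Taylor u_i mod d)_i ∈ 1 + π • BR`, and the
local shapes give `E * σ(s'') = β * (σ(s) * σ(s'))`; conclude with `XiAdd7.add_congr / neg_congr`.
-/
import Mathlib
import Fermat.Agent.ES.V19.FGLUniv19
import Fermat.Agent.ES.V19.OnePlaceRep9
import Fermat.Agent.ES.V19.XiAdd7
import Fermat.Agent.ES.V19.XiLocal7

set_option autoImplicit false

noncomputable section

open AlgebraicCurve

namespace Fermat.Agent.ES.V19.XiBridge7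

open scoped BigOperators
open Fermat.Agent.X0.FF Fermat.Agent.ES.RED.Contract8 Fermat.Agent.ES.RED.TwoCharts8
  Fermat.Agent.ES.V19.DiscIface3 Fermat.Agent.ES.V19.GaussFrac15 Fermat.Agent.ES.V19.SupTrick15
  Fermat.Agent.ES.V19.XiInj5 Fermat.Agent.ES.V19.XiLocal7 Fermat.Agent.ES.V19.XiAdd7
  Fermat.Agent.ES.V19.OnePlaceRep9
  Fermat.Agent.ES.V19.NormalForm23 Fermat.Agent.ES.V19.LaurentMap19 Fermat.Agent.ES.V19.FGLUniv19

universe u

/-! ### `redDiv` on a disc -/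

section RedDiv

variable {K F : Type*} [Field K] [Field F] [Algebra K F]

open Classical in
theorem redDiv_apply_eq_sum {n : ℕ} (P : Fin n → Place K F) (v : Place K F) :
    redDiv P v = ∑ i, if v = P i then (1 : ℤ) else 0 := by
  rw [redDiv, Finsupp.finsetSum_apply]
  refine Finset.sum_congr rfl fun i _ => ?_
  rw [Finsupp.single_apply]
  by_cases h : P i = v
  · rw [if_pos h, if_pos h.symm]
  · rw [if_neg h, if_neg (fun h' => h h'.symm)]

open Classical in
/-- On the fibre of `ρ` over `ρ (P i₀)`, when `ρ ∘ P` is injective, only `P i₀` contributes. -/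
theorem redDiv_apply_of_fibre {n : ℕ} {β : Type*} (ρ : Place K F → β) (P : Fin n → Place K F)
    (hinj : Function.Injective fun i => ρ (P i)) (i₀ : Fin n) {v : Place K F}
    (hv : ρ v = ρ (P i₀)) : redDiv P v = if v = P i₀ then 1 else 0 := by
  rw [redDiv_apply_eq_sum, Finset.sum_eq_single i₀]
  · intro j _ hj
    rw [if_neg]
    intro h
    apply hj
    apply hinj
    show ρ (P j) = ρ (P i₀)
    rw [← h, hv]
  · intro h
    exact absurd (Finset.mem_univ i₀) h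

theorem redDiv_apply_nonneg {n : ℕ} (P : Fin n → Place K F) (v : Place K F) : 0 ≤ redDiv P v := by
  classical
  rw [redDiv_apply_eq_sum]
  exact Finset.sum_nonneg fun i _ => by split_ifs <;> norm_num

theorem exists_eq_of_redDiv_pos {n : ℕ} (P : Fin n → Place K F) {v : Place K F}
    (h : 0 < redDiv P v) : ∃ i, v = P i := by
  classical
  by_contra hcon
  push Not at hcon
  rw [redDiv_apply_eq_sum, Finset.sum_eq_zero (fun i _ => if_neg (hcon i))] at h
  exact lt_irrefl _ h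

end RedDiv

/-! ### The expansion package of (Le) -/

section Pkg

variable {L : Type u} [Field L] [IsAlgClosed L] {A : ValuationSubring L}
variable {F : Type*} [Field F] [Algebra L F] {x : F} {hx : IsGen L x}
variable {Ft : Type*} [Field Ft] [Algebra (kA A) Ft]
variable {g : ℕ} {O : Type u} [CommRing O] [Algebra O ↥A]

/-- **The expansion package** consumed from (B4′)(Le) for a modulus `d` and pole coordinates `s''`:
the ring `B^♯` (it contains every Gauss-integral function whose poles are among the zeros of the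
`τ_i` and of the `τ_i - s''_i`), the truncated expansion `E = Exp^R : B^♯ →+* Lam g (A ⧸ (d))`,
(Le) `E f ∈ AR`, and the two computation rules of `E`. -/
structure ExpPkg (T : TwoCharts A hx Ft) (G : Subring F) (red : ↥G →+* Ft)
    (Qb : Fin g → Place (kA A) Ft) (c : Fin g → ↥A) (Sys : NFSystem O g)
    (tay : ∀ i, ↥(CQ T (Qb i)) →+* PowerSeries ↥A) (d : ↥A) (s'' : Fin g → ↥A) where
  /-- the ring `B^♯` -/
  B : Subring F
  /-- the truncated expansion `Exp^R` -/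
  E : ↥B →+* Lam g (Rd d)
  mem_B : ∀ f : F, IsGI G red f →
    (∀ P : Place L F, P.ord f < 0 → ∃ i, T.r P = Qb i ∧
      (0 < P.ord (tauSub T (c i) 0) ∨ 0 < P.ord (tauSub T (c i) (s'' i)))) → f ∈ B
  E_mem : ∀ f : ↥B, E f ∈ Sys.AR (Rd d)
  E_const : ∀ (a : ↥A) (ha : algebraMap L F (a : L) ∈ B),
    E ⟨algebraMap L F (a : L), ha⟩ = (mkd d a) • (1 : Lam g (Rd d))
  E_loc : ∀ (f : ↥B) (i : Fin g) (v : ↥(CQ T (Qb i))),
    (f : F) * (tauSub T (c i) 0 * tauSub T (c i) (s'' i)) = (v : F) →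
      E f i * (LX (Rd d) * (LX (Rd d) - HahnSeries.C (mkd d (s'' i))))
        = HahnSeries.ofPowerSeries ℤ (Rd d) (PowerSeries.map (mkd d) (tay i v))

end Pkg

/-! ### The geometric context -/

section Ctx

variable {L : Type u} [Field L] [IsAlgClosed L] {A : ValuationSubring L}
variable {F : Type*} [Field F] [Algebra L F] {x : F} {hx : IsGen L x}
variable {Ft : Type*} [Field Ft] [Algebra (kA A) Ft]
variable {g : ℕ} (T : TwoCharts A hx Ft)

/-- chart-ring elements lie in the local ring `CQ`. -/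
theorem coe_mem_CQ (Q : Place (kA A) Ft) (b : ↥T.S0.B) : (b : F) ∈ CQ T Q :=
  ⟨b, 1, by rw [map_one]; exact one_ne_zero, by rw [map_one, Place.ord_one],
    by rw [OneMemClass.coe_one, mul_one]⟩

theorem tauSub_mem_CQ (Q : Place (kA A) Ft) (c s : ↥A) : tauSub T c s ∈ CQ T Q := by
  rw [← coe_tauB_sub_const]
  exact coe_mem_CQ T Q _

theorem const_mem_CQ (Q : Place (kA A) Ft) (a : ↥A) : algebraMap L F (a : L) ∈ CQ T Q :=
  coe_mem_CQ T Q (T.S0.const a)

/-- **The geometric context of the bridge**: the reduction context (J1), the chart ring inside the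
Gauss-integral functions, `g` distinct GOOD points with their disc lemmas (Da), (Db) (J2), regularity
of `CQ` on the disc (`DiscLocal3.ord_nonneg_of_mem_CQ`), the archimedean property of `A` (rank one),
and the two computation rules of the Taylor expansions (`DiscTaylor3.taylorQ_tau_sub`,
`taylorQ_constCQ`). -/
structure DiscCtx (G : Subring F) (red : ↥G →+* Ft) (Qb : Fin g → Place (kA A) Ft)
    (c : Fin g → ↥A) (tay : ∀ i, ↥(CQ T (Qb i)) →+* PowerSeries ↥A) : Prop where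
  ctx : RedCtx A (resA A) G red T.r
  hBG : ∀ b : ↥T.S0.B, IsRedOf G red (b : F) (T.S0.red b)
  inj : Function.Injective Qb
  good : ∀ i, Good T (Qb i) (c i)
  da : ∀ i, Da T (Qb i) (c i)
  db : ∀ i, Db T (gaussInt G red) (Qb i)
  reg : ∀ i, ∀ f ∈ CQ T (Qb i), ∀ P, T.r P = Qb i → 0 ≤ P.ord f
  arch : ∀ π : ↥A, π ∈ IsLocalRing.maximalIdeal ↥A → π ≠ 0 → ∀ d : ↥A, d ≠ 0 →
    ∃ N : ℕ, d ∣ π ^ N
  tay_sub : ∀ (i : Fin g) (s : ↥A), s ∈ IsLocalRing.maximalIdeal ↥A →
    tay i ⟨tauSub T (c i) s, tauSub_mem_CQ T (Qb i) (c i) s⟩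
      = PowerSeries.X - PowerSeries.C s
  tay_const : ∀ (i : Fin g) (a : ↥A),
    tay i ⟨algebraMap L F (a : L), const_mem_CQ T (Qb i) a⟩ = PowerSeries.C a

end Ctx

/-! ### The divisor of `h` on the discs -/

section DivH

variable {L : Type u} [Field L] [IsAlgClosed L] {A : ValuationSubring L}
variable {F : Type*} [Field F] [Algebra L F] {x : F} {hx : IsGen L x}
variable {Ft : Type*} [Field Ft] [Algebra (kA A) Ft]
variable {g : ℕ} {T : TwoCharts A hx Ft} {Qb : Fin g → Place (kA A) Ft}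

theorem injective_r_comp (hQb : Function.Injective Qb) {P : Fin g → Place L F}
    (hP : ∀ i, T.r (P i) = Qb i) : Function.Injective fun j => T.r (P j) := by
  intro a b hab
  apply hQb
  have : T.r (P a) = T.r (P b) := hab
  rwa [hP a, hP b] at this

open Classical in
/-- the divisor of `h` on the disc of `Q̄_i`. -/
theorem ord_disc (hQb : Function.Injective Qb) {P P' P'' Q₀ : Fin g → Place L F}
    (hP : ∀ i, T.r (P i) = Qb i) (hP' : ∀ i, T.r (P' i) = Qb i)
    (hP'' : ∀ i, T.r (P'' i) = Qb i) (hQ₀ : ∀ i, T.r (Q₀ i) = Qb i) {h : F}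
    (hdiv : ∀ v : Place L F, v.ord h = (redDiv P + redDiv P' - redDiv P'' - redDiv Q₀) v)
    (i : Fin g) (v : Place L F) (hv : T.r v = Qb i) :
    v.ord h = (if v = P i then 1 else 0) + (if v = P' i then 1 else 0)
      - (if v = P'' i then 1 else 0) - (if v = Q₀ i then 1 else 0) := by
  rw [hdiv, Finsupp.sub_apply, Finsupp.sub_apply, Finsupp.add_apply,
    redDiv_apply_of_fibre T.r P (injective_r_comp hQb hP) i (hv.trans (hP i).symm),
    redDiv_apply_of_fibre T.r P' (injective_r_comp hQb hP') i (hv.trans (hP' i).symm),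
    redDiv_apply_of_fibre T.r P'' (injective_r_comp hQb hP'') i (hv.trans (hP'' i).symm),
    redDiv_apply_of_fibre T.r Q₀ (injective_r_comp hQb hQ₀) i (hv.trans (hQ₀ i).symm)]

omit [IsAlgClosed L] in
/-- the poles of `h` are among the `P''_i` and the `Q_i`. -/
theorem pole_mem {P P' P'' Q₀ : Fin g → Place L F} {h : F}
    (hdiv : ∀ v : Place L F, v.ord h = (redDiv P + redDiv P' - redDiv P'' - redDiv Q₀) v)
    {v : Place L F} (hv : v.ord h < 0) : ∃ i, v = Q₀ i ∨ v = P'' i := by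
  rw [hdiv, Finsupp.sub_apply, Finsupp.sub_apply, Finsupp.add_apply] at hv
  have h1 := redDiv_apply_nonneg P v
  have h2 := redDiv_apply_nonneg P' v
  have h3 := redDiv_apply_nonneg P'' v
  have h4 := redDiv_apply_nonneg Q₀ v
  rcases lt_or_ge 0 (redDiv Q₀ v) with h5 | h5
  · obtain ⟨i, hi⟩ := exists_eq_of_redDiv_pos Q₀ h5
    exact ⟨i, Or.inl hi⟩
  · have h6 : 0 < redDiv P'' v := by omega
    obtain ⟨i, hi⟩ := exists_eq_of_redDiv_pos P'' h6
    exact ⟨i, Or.inr hi⟩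

end DivH

/-! ### The identity `E * σ(s'') = β * (σ(s) * σ(s'))` -/

section Main

variable {L : Type u} [Field L] [IsAlgClosed L] {A : ValuationSubring L}
variable {F : Type*} [Field F] [Algebra L F] {x : F} {hx : IsGen L x}
variable {Ft : Type*} [Field Ft] [Algebra (kA A) Ft]
variable {g : ℕ} {O : Type u} [CommRing O] [Algebra O ↥A]
variable {T : TwoCharts A hx Ft} {G : Subring F} {red : ↥G →+* Ft}
  {Qb : Fin g → Place (kA A) Ft} {c : Fin g → ↥A} {Sys : NFSystem O g}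
  {tay : ∀ i, ↥(CQ T (Qb i)) →+* PowerSeries ↥A}

/-- **The identity.**  See the file header. -/
theorem exists_identity (H : DiscCtx T G red Qb c tay)
    {s s' s'' : Fin g → ↥A} (hs : ∀ i, s i ∈ IsLocalRing.maximalIdeal ↥A)
    (hs' : ∀ i, s' i ∈ IsLocalRing.maximalIdeal ↥A)
    (hs'' : ∀ i, s'' i ∈ IsLocalRing.maximalIdeal ↥A)
    {P P' P'' Q₀ : Fin g → Place L F}
    (hP : ∀ i, T.r (P i) = Qb i ∧ 0 < (P i).ord (tauSub T (c i) (s i)))
    (hP' : ∀ i, T.r (P' i) = Qb i ∧ 0 < (P' i).ord (tauSub T (c i) (s' i)))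
    (hP'' : ∀ i, T.r (P'' i) = Qb i ∧ 0 < (P'' i).ord (tauSub T (c i) (s'' i)))
    (hQ₀ : ∀ i, T.r (Q₀ i) = Qb i ∧ 0 < (Q₀ i).ord (tauSub T (c i) 0))
    {h : F} (hh : IsRedOf G red h 1)
    (hdiv : ∀ v : Place L F, v.ord h = (redDiv P + redDiv P' - redDiv P'' - redDiv Q₀) v)
    {d : ↥A} (hd : d ∈ IsLocalRing.maximalIdeal ↥A) (hd0 : d ≠ 0)
    (pkg : ExpPkg T G red Qb c Sys tay d s'')
    (hBR : ∀ x : Lam g (Rd d), (∀ i, ∀ m : ℤ, m < 0 → (x i).coeff m = 0) → x ∈ Sys.BR (Rd d)) :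
    ∃ (π : ↥A) (N₀ : ℕ), d ∣ π ^ N₀ ∧ (∀ i, π ∣ s i) ∧ (∀ i, π ∣ s' i) ∧ (∀ i, π ∣ s'' i) ∧
      ∃ E β : Lam g (Rd d), E - 1 ∈ Ipi d π • (Sys.AR (Rd d)).toSubmodule ∧
        β - 1 ∈ Ipi d π • (Sys.BR (Rd d)).toSubmodule ∧
        E * sig (wLam g (Rd d)) (fun i => mkd d (s'' i))
          = β * (sig (wLam g (Rd d)) (fun i => mkd d (s i))
            * sig (wLam g (Rd d)) (fun i => mkd d (s' i))) := by
  classical
  -- Step 1: the local units
  have hloc : ∀ i, ∃ u : F, u ∈ CQ T (Qb i) ∧ IsRedOf G red u 1 ∧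
      h * (tauSub T (c i) (s'' i) * tauSub T (c i) 0)
        = u * (tauSub T (c i) (s i) * tauSub T (c i) (s' i)) := fun i =>
    exists_local_unit H.hBG (H.good i) (H.da i) (H.db i) hh (hs i) (hs' i) (hs'' i)
      (Ideal.zero_mem _) (hP i) (hP' i) (hP'' i) (hQ₀ i)
      (fun v hv => ord_disc H.inj (fun j => (hP j).1) (fun j => (hP' j).1)
        (fun j => (hP'' j).1) (fun j => (hQ₀ j).1) hdiv i v hv)
  choose u hu_mem hu_red hu_eq using hloc
  -- Step 2: `u_i = 1 + c₀_i w_i`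
  have hsc : ∀ i, ∃ c₀ : ↥A, c₀ ∈ IsLocalRing.maximalIdeal ↥A ∧ ∃ w ∈ CQ T (Qb i),
      u i - 1 = algebraMap L F (c₀ : L) * w := fun i =>
    exists_scale_sub_one H.ctx (H.db i) (H.reg i) (hu_mem i) (hu_red i)
  choose c₀ hc₀ w hw_mem hw_eq using hsc
  -- Step 3: `h = 1 + c₁ w₁`
  have h0 : IsRedOf G red (h - 1) 0 := by
    have := hh.sub (isRedOf_one (G := G) (red := red))
    rwa [sub_self] at this
  obtain ⟨c₁, hc₁, w₁, hw₁, hw₁_eq⟩ := exists_scale_of_red_zero H.ctx h0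
  -- Step 4: the common divisor
  obtain ⟨π, hπ, hπ0, hπd, hπS⟩ := exists_common_divisor A
    (Finset.univ.image s ∪ Finset.univ.image s' ∪ Finset.univ.image s'' ∪ Finset.univ.image c₀
      ∪ {c₁})
    (by
      intro a ha
      simp only [Finset.mem_union, Finset.mem_image, Finset.mem_univ, true_and,
        Finset.mem_singleton] at ha
      rcases ha with (((⟨i, rfl⟩ | ⟨i, rfl⟩) | ⟨i, rfl⟩) | ⟨i, rfl⟩) | rfl
      · exact hs i
      · exact hs' i
      · exact hs'' i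
      · exact hc₀ i
      · exact hc₁) hd hd0
  obtain ⟨N₀, hN₀⟩ := H.arch π hπ hπ0 d hd0
  have hπs : ∀ i, π ∣ s i := fun i => hπS _ (by
    simp only [Finset.mem_union, Finset.mem_image, Finset.mem_univ, true_and,
      Finset.mem_singleton]
    exact Or.inl (Or.inl (Or.inl (Or.inl ⟨i, rfl⟩))))
  have hπs' : ∀ i, π ∣ s' i := fun i => hπS _ (by
    simp only [Finset.mem_union, Finset.mem_image, Finset.mem_univ, true_and,
      Finset.mem_singleton]
    exact Or.inl (Or.inl (Or.inl (Or.inr ⟨i, rfl⟩))))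
  have hπs'' : ∀ i, π ∣ s'' i := fun i => hπS _ (by
    simp only [Finset.mem_union, Finset.mem_image, Finset.mem_univ, true_and,
      Finset.mem_singleton]
    exact Or.inl (Or.inl (Or.inr ⟨i, rfl⟩)))
  have hπc₀ : ∀ i, π ∣ c₀ i := fun i => hπS _ (by
    simp only [Finset.mem_union, Finset.mem_image, Finset.mem_univ, true_and,
      Finset.mem_singleton]
    exact Or.inl (Or.inr ⟨i, rfl⟩))
  have hπc₁ : π ∣ c₁ := hπS _ (Finset.mem_union_right _ (Finset.mem_singleton_self _))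
  obtain ⟨q₁, hq₁⟩ := hπc₁
  choose q hq using hπc₀
  have hπL : (π : L) ≠ 0 := fun h => hπ0 (Subtype.ext h)
  -- Step 5: `f₁ = (h - 1) / π`
  set f₁ : F := algebraMap L F (q₁ : L) * w₁ with hf₁
  have hf₁GI : IsGI G red f₁ :=
    (gaussInt G red).mul_mem (H.ctx.isRedOf_const q₁).isGI hw₁
  have hh1 : h - 1 = algebraMap L F (π : L) * f₁ := by
    rw [hw₁_eq, hq₁, hf₁, MulMemClass.coe_mul, map_mul, mul_assoc]
  -- membership in `B^♯`
  have hmemB : ∀ f : F, IsGI G red f → (∀ v : Place L F, v.ord f < 0 → v.ord h < 0) →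
      f ∈ pkg.B := by
    intro f hf hpole
    refine pkg.mem_B f hf fun v hv => ?_
    obtain ⟨i, hi | hi⟩ := pole_mem hdiv (hpole v hv)
    · exact ⟨i, hi ▸ (hQ₀ i).1, Or.inl (hi ▸ (hQ₀ i).2)⟩
    · exact ⟨i, hi ▸ (hP'' i).1, Or.inr (hi ▸ (hP'' i).2)⟩
  have hhB : h ∈ pkg.B := hmemB h hh.isGI fun v hv => hv
  have hf₁B : f₁ ∈ pkg.B := by
    refine hmemB f₁ hf₁GI fun v hv => ?_
    have h1 : v.ord (h - 1) < 0 := by rwa [hh1, ord_const_mul v hπL]
    have hne : h - 1 ≠ 0 := by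
      intro h0
      rw [h0, Place.ord_zero] at h1
      exact lt_irrefl _ h1
    by_contra hge
    have h2 := ord_sub_ge v hne
    rw [Place.ord_one] at h2
    have h3 : 0 ≤ min (v.ord h) 0 := le_min (not_lt.mp hge) le_rfl
    omega
  have hcB : ∀ a : ↥A, algebraMap L F (a : L) ∈ pkg.B := fun a =>
    pkg.mem_B _ (H.ctx.isRedOf_const a).isGI fun v hv => by
      rw [ord_algebraMap] at hv
      exact absurd hv (lt_irrefl _)
  -- Step 6: `E = Exp^R h`
  have hBeq : (⟨h, hhB⟩ : ↥pkg.B) = 1 + ⟨algebraMap L F (π : L), hcB π⟩ * ⟨f₁, hf₁B⟩ :=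
    Subtype.ext (by
      show h = 1 + algebraMap L F (π : L) * f₁
      rw [← hh1]; ring)
  have hEeq : pkg.E ⟨h, hhB⟩ = 1 + (mkd d π) • pkg.E ⟨f₁, hf₁B⟩ := by
    rw [hBeq, map_add, map_one, map_mul, pkg.E_const, smul_mul_assoc, one_mul]
  have hE : pkg.E ⟨h, hhB⟩ - 1 ∈ Ipi d π • (Sys.AR (Rd d)).toSubmodule := by
    rw [hEeq, add_sub_cancel_left]
    exact Submodule.smul_mem_smul (mk_mem_Ipi d (dvd_refl π)) (pkg.E_mem _)
  -- Step 7: `β = Taylor u`
  have hueq : ∀ i, (⟨u i, hu_mem i⟩ : ↥(CQ T (Qb i))) = 1 +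
      ⟨algebraMap L F (π : L), const_mem_CQ T (Qb i) π⟩ *
        (⟨algebraMap L F ((q i : ↥A) : L), const_mem_CQ T (Qb i) (q i)⟩ * ⟨w i, hw_mem i⟩) :=
    fun i => Subtype.ext (by
      show u i = 1 + algebraMap L F (π : L) * (algebraMap L F ((q i : ↥A) : L) * w i)
      have := hw_eq i
      rw [hq i, MulMemClass.coe_mul, map_mul, mul_assoc] at this
      rw [← this]; ring)
  set y : Lam g (Rd d) := fun i => HahnSeries.ofPowerSeries ℤ (Rd d)
    (PowerSeries.map (mkd d) (PowerSeries.C (q i) * tay i ⟨w i, hw_mem i⟩)) with hy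
  set β : Lam g (Rd d) := fun i => HahnSeries.ofPowerSeries ℤ (Rd d)
    (PowerSeries.map (mkd d) (tay i ⟨u i, hu_mem i⟩)) with hβdef
  have hβi : ∀ i, β i = 1 + HahnSeries.C (mkd d π) * y i := by
    intro i
    show HahnSeries.ofPowerSeries ℤ (Rd d) (PowerSeries.map (mkd d) (tay i ⟨u i, hu_mem i⟩)) = _
    rw [hueq i, map_add, map_one, map_mul, map_mul, H.tay_const, H.tay_const, map_add, map_one,
      map_mul, PowerSeries.map_C, map_add, map_one, map_mul, HahnSeries.ofPowerSeries_C]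
  have hβeq : β - 1 = (mkd d π) • y := by
    refine Lam.ext fun i m => ?_
    rw [LaurentMap19.sub_apply, LaurentMap19.one_apply, hβi i, add_sub_cancel_left,
      smul_apply_coeff, HahnSeries.C_mul_eq_smul, HahnSeries.coeff_smul, smul_eq_mul]
  have hyBR : y ∈ Sys.BR (Rd d) := by
    refine hBR y fun i m hm => ?_
    show (HahnSeries.ofPowerSeries ℤ (Rd d) _).coeff m = 0
    rw [PowerSeries.coeff_coe, if_pos hm]
  have hβ : β - 1 ∈ Ipi d π • (Sys.BR (Rd d)).toSubmodule := by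
    rw [hβeq]
    exact Submodule.smul_mem_smul (mk_mem_Ipi d (dvd_refl π)) hyBR
  -- Step 8: the local shapes
  have hLX : HahnSeries.ofPowerSeries ℤ (Rd d) PowerSeries.X = LX (Rd d) :=
    HahnSeries.ofPowerSeries_X
  have hshape : ∀ i, pkg.E ⟨h, hhB⟩ i * ((LX (Rd d) - HahnSeries.C (mkd d (s'' i))) * LX (Rd d))
      = β i * ((LX (Rd d) - HahnSeries.C (mkd d (s i)))
        * (LX (Rd d) - HahnSeries.C (mkd d (s' i)))) := by
    intro i
    have h1 := pkg.E_loc ⟨h, hhB⟩ i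
      (⟨u i, hu_mem i⟩ * (⟨tauSub T (c i) (s i), tauSub_mem_CQ T (Qb i) (c i) (s i)⟩
        * ⟨tauSub T (c i) (s' i), tauSub_mem_CQ T (Qb i) (c i) (s' i)⟩))
      (by
        show h * (tauSub T (c i) 0 * tauSub T (c i) (s'' i))
          = u i * (tauSub T (c i) (s i) * tauSub T (c i) (s' i))
        rw [← hu_eq i]; ring)
    have htay : tay i (⟨u i, hu_mem i⟩ *
        (⟨tauSub T (c i) (s i), tauSub_mem_CQ T (Qb i) (c i) (s i)⟩
          * ⟨tauSub T (c i) (s' i), tauSub_mem_CQ T (Qb i) (c i) (s' i)⟩))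
        = tay i ⟨u i, hu_mem i⟩ * ((PowerSeries.X - PowerSeries.C (s i))
          * (PowerSeries.X - PowerSeries.C (s' i))) := by
      rw [map_mul, map_mul, H.tay_sub i (s i) (hs i), H.tay_sub i (s' i) (hs' i)]
    rw [htay] at h1
    simp only [map_mul, map_sub, PowerSeries.map_X, PowerSeries.map_C, hLX,
      HahnSeries.ofPowerSeries_C] at h1
    rw [mul_comm (LX (Rd d) - HahnSeries.C (mkd d (s'' i))) (LX (Rd d))]
    exact h1
  exact ⟨π, N₀, hN₀, hπs, hπs', hπs'', pkg.E ⟨h, hhB⟩, β, hE, hβ, sig_identity_of_local hshape⟩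

/-- **(Ξc), addition, at the level of the chart.**  For every `d ≠ 0` there is `N₀` such that the
coordinates `s''` of the sum are `F^(N)(s, s')` modulo `d`, for all `N ≥ N₀`. -/
theorem add_congr_of_chart (H : DiscCtx T G red Qb c tay)
    {s s' s'' : Fin g → ↥A} (hs : ∀ i, s i ∈ IsLocalRing.maximalIdeal ↥A)
    (hs' : ∀ i, s' i ∈ IsLocalRing.maximalIdeal ↥A)
    (hs'' : ∀ i, s'' i ∈ IsLocalRing.maximalIdeal ↥A)
    {P P' P'' Q₀ : Fin g → Place L F}
    (hP : ∀ i, T.r (P i) = Qb i ∧ 0 < (P i).ord (tauSub T (c i) (s i)))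
    (hP' : ∀ i, T.r (P' i) = Qb i ∧ 0 < (P' i).ord (tauSub T (c i) (s' i)))
    (hP'' : ∀ i, T.r (P'' i) = Qb i ∧ 0 < (P'' i).ord (tauSub T (c i) (s'' i)))
    (hQ₀ : ∀ i, T.r (Q₀ i) = Qb i ∧ 0 < (Q₀ i).ord (tauSub T (c i) 0))
    {h : F} (hh : IsRedOf G red h 1)
    (hdiv : ∀ v : Place L F, v.ord h = (redDiv P + redDiv P' - redDiv P'' - redDiv Q₀) v)
    {d : ↥A} (hd0 : d ≠ 0)
    (pkg : d ∈ IsLocalRing.maximalIdeal ↥A → ExpPkg T G red Qb c Sys tay d s'')
    (hBR : ∀ x : Lam g (Rd d), (∀ i, ∀ m : ℤ, m < 0 → (x i).coeff m = 0) → x ∈ Sys.BR (Rd d)) :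
    ∃ N₀ : ℕ, ∀ N : ℕ, N₀ ≤ N → ∀ i,
      d ∣ s'' i - MvPolynomial.aeval (Sum.elim s s') (FGLUniv19.F Sys N i) := by
  by_cases hd : d ∈ IsLocalRing.maximalIdeal ↥A
  · obtain ⟨π, N₀, hN₀, hπs, hπs', hπs'', E, β, hE, hβ, hid⟩ :=
      exists_identity H hs hs' hs'' hP hP' hP'' hQ₀ hh hdiv hd hd0 (pkg hd) hBR
    exact ⟨N₀, fun N hN i => add_congr Sys d π hN₀ hN hπs hπs' hπs'' hE hβ hid i⟩
  · have hu : IsUnit d := by
      by_contra hnu
      exact hd ((IsLocalRing.mem_maximalIdeal _).mpr hnu)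
    exact ⟨0, fun N _ i => hu.dvd⟩

/-- **(Ξc), inverse, at the level of the chart.**  `P'` = the points of `-y`, `t` its coordinates:
`div h = ∑ P_i + ∑ P'_i - 2 ∑ Q_i`. -/
theorem neg_congr_of_chart (H : DiscCtx T G red Qb c tay)
    {s t : Fin g → ↥A} (hs : ∀ i, s i ∈ IsLocalRing.maximalIdeal ↥A)
    (ht : ∀ i, t i ∈ IsLocalRing.maximalIdeal ↥A)
    {P P' Q₀ : Fin g → Place L F}
    (hP : ∀ i, T.r (P i) = Qb i ∧ 0 < (P i).ord (tauSub T (c i) (s i)))
    (hP' : ∀ i, T.r (P' i) = Qb i ∧ 0 < (P' i).ord (tauSub T (c i) (t i)))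
    (hQ₀ : ∀ i, T.r (Q₀ i) = Qb i ∧ 0 < (Q₀ i).ord (tauSub T (c i) 0))
    {h : F} (hh : IsRedOf G red h 1)
    (hdiv : ∀ v : Place L F, v.ord h = (redDiv P + redDiv P' - redDiv Q₀ - redDiv Q₀) v)
    {d : ↥A} (hd0 : d ≠ 0)
    (pkg : d ∈ IsLocalRing.maximalIdeal ↥A → ExpPkg T G red Qb c Sys tay d (fun _ => 0))
    (hBR : ∀ x : Lam g (Rd d), (∀ i, ∀ m : ℤ, m < 0 → (x i).coeff m = 0) → x ∈ Sys.BR (Rd d)) :
    ∃ N₀ : ℕ, ∀ N : ℕ, N₀ ≤ N → ∀ i,
      d ∣ t i - MvPolynomial.aeval s (FGLUniv19.G Sys N i) := by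
  by_cases hd : d ∈ IsLocalRing.maximalIdeal ↥A
  · obtain ⟨π, N₀, hN₀, hπs, hπt, -, E, β, hE, hβ, hid⟩ :=
      exists_identity H hs ht (s'' := fun _ => 0) (fun _ => Ideal.zero_mem _) hP hP' hQ₀ hQ₀ hh
        hdiv hd hd0 (pkg hd) hBR
    have hz : (fun _ : Fin g => mkd d (0 : ↥A)) = fun _ => (0 : Rd d) := by
      funext i
      exact map_zero _
    rw [hz, sig_zero, mul_one] at hid
    exact ⟨N₀, fun N hN i => neg_congr Sys d π hN₀ hN hπs hπt hE hβ hid i⟩
  · have hu : IsUnit d := by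
      by_contra hnu
      exact hd ((IsLocalRing.mem_maximalIdeal _).mpr hnu)
    exact ⟨0, fun N _ i => hu.dvd⟩

end Main

end Fermat.Agent.ES.V19.XiBridge7
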