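/-
helper5 — Programme V (S19, SPINE v1 of helper23), chapter B5 (chart Ξ), leaf of G3 `XiCInst7`:
**the bridge (Le) ⇒ helper7's `XiBridge7.ExpPkg`.**

Input: helper28's `DensityInst28` — a `DensBase G red T.r (resA A) D` (fixed data of (Le)) and a
`DensPt Bs` (modulus `ϖ`, moving points with parameters `s`) — together with helper7's geometric
context `XiBridge7.DiscCtx T G red Qb c tay`, and a cast-free COMPATIBILITY bundle `Compat` saying
that the local data `Bs.X i` of (Le) are the local rings `CQ T (Qb i)`, the parameters `τ_i = t - c_i`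
and the Taylor expansions `tay i` of the chart (these four fields are `rfl` / `Iff.rfl` /
`DiscTaylor3.tauSub_zero` when `Bs.X i` is built from `CQ T (Qb i)`, `tauC`, `taylorQ`), and that a
`(G, red)`-Gauss-integral function is `(G₀, red₀)`-Gauss-integral (`hGI`; the (Le) data may live
over another pair `(G₀, red₀)` than the context).

Output:
* `expPkg H Bs hC Pt hs : ExpPkg T G red Qb c (nfSystem D) tay Pt.ϖ Pt.s`
  (`B := Bsharp Bs Pt`, `E := ExpRB Bs Pt`; `mem_B` from the uniqueness clause of (Da),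
  `E_mem := ExpRB_mem_AR`, `E_const := ExpR_const`, `E_loc` := `ExpR_mul_pow` + `phi_den`);
* `exists_densPt` : for `d ≠ 0` and `s'' i ∈ 𝔪_A` there is a `Pt : DensPt Bs` with `Pt.ϖ = d`,
  `Pt.s = s''` (`N` from `H.arch`, `P1 i` := the zero of `τ_i - s''_i` given by (Da));
* **`nonempty_expPkg`**, **`expPkgAt`** : the `pkg` argument of `XiBridge7.add_congr_of_chart`,
  `neg_congr_of_chart` at `Sys := NFSystemOfBasis14.nfSystem D`; `hBR_nfSystem` : their `hBR`;
* **`add_congr_of_dens`**, **`neg_congr_of_dens`** : the two exits of `XiBridge7` with `pkg` and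
  `hBR` discharged — the remaining inputs are `DiscCtx`, `DensBase` + `Compat`, and `h`.
-/
import Mathlib
import Fermat.Agent.ES.V19.XiBridge7
import Fermat.Agent.ES.V19.DensityInst28
import Fermat.Agent.ES.V19.NFSystemOfBasis14

set_option autoImplicit false

noncomputable section

open AlgebraicCurve

namespace Fermat.Agent.ES.V19.ExpPkgOfDens5

open scoped BigOperators
open Fermat.Agent.X0.FF Fermat.Agent.ES.RED.Contract8 Fermat.Agent.ES.RED.TwoCharts8
  Fermat.Agent.ES.V19.DiscIface3 Fermat.Agent.ES.V19.GaussFrac15 Fermat.Agent.ES.V19.SupTrick15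
  Fermat.Agent.ES.V19.XiAdd7 Fermat.Agent.ES.V19.XiBridge7 Fermat.Agent.ES.V19.DensityInst28
  Fermat.Agent.ES.V19.NormalFormBasis14 Fermat.Agent.ES.V19.NFSystemOfBasis14
open Fermat.Agent.ES.V19.LaurentMap19 (Lam wLam mapLam)

universe u

variable {L : Type u} [Field L] [IsAlgClosed L] {A : ValuationSubring L}
variable {F : Type*} [Field F] [Algebra L F] {x : F} {hx : IsGen L x}
variable {Ft : Type*} [Field Ft] [Algebra (kA A) Ft]
variable {g : ℕ} {O : Type u} [CommRing O] [Algebra O ↥A]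
variable {T : TwoCharts A hx Ft} {G : Subring F} {red : ↥G →+* Ft}
  {G₀ : Subring F} {red₀ : ↥G₀ →+* Ft}
  {Qb : Fin g → Place (kA A) Ft} {c : Fin g → ↥A}
  {tay : ∀ i, ↥(CQ T (Qb i)) →+* PowerSeries ↥A} {D : BasisData O g}

/-- `τ - s = (τ - 0) - s`. -/
theorem tauSub_zero_sub (c s : ↥A) :
    tauSub T c 0 - algebraMap L F (s : L) = tauSub T c s := by
  unfold tauSub
  rw [ZeroMemClass.coe_zero, add_zero, map_add]
  ring

/-- **Compatibility of the (Le) data with the chart** (cast-free on purpose).  The pair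
`(G₀, red₀)` of the (Le) data may differ from the pair `(G, red)` of the geometric context
(e.g. `(T.S0.B, T.S0.red)` against `(gaussInt T.S0.B T.S0.red, rho …)`): only `hGI` relates them
(`fun _ h => h` when they agree, `GaussFracIdem15.isGI_gaussInt_iff` in the example). -/
structure Compat (G : Subring F) (red : ↥G →+* Ft)
    (Bs : DensBase (A := A) G₀ red₀ T.r (resA A) D) (Qb : Fin g → Place (kA A) Ft)
    (c : Fin g → ↥A) (tay : ∀ i, ↥(CQ T (Qb i)) →+* PowerSeries ↥A) : Prop where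
  hGI : ∀ f : F, IsGI G red f → f ∈ gaussInt G₀ red₀
  hQb : ∀ i, Bs.Qb i = Qb i
  hCQ : ∀ (i : Fin g) (f : F), f ∈ (Bs.X i).CQ ↔ f ∈ CQ T (Qb i)
  hτ : ∀ i, (((Bs.X i).τ : ↥(Bs.X i).CQ) : F) = tauSub T (c i) 0
  htay : ∀ (i : Fin g) (f : F) (h1 : f ∈ (Bs.X i).CQ) (h2 : f ∈ CQ T (Qb i)),
    (Bs.X i).tay ⟨f, h1⟩ = tay i ⟨f, h2⟩

section Pkg

variable {Bs : DensBase (A := A) G₀ red₀ T.r (resA A) D}

/-- the denominator of (Le) in the chart vocabulary. -/
theorem coe_den_eq (hC : Compat G red Bs Qb c tay) (Pt : DensPt Bs) (i : Fin g) :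
    ((den Bs Pt i : ↥(Bs.X i).CQ) : F) = tauSub T (c i) 0 * tauSub T (c i) (Pt.s i) := by
  rw [coe_den, hC.hτ i, tauSub_zero_sub]

/-- the centre `P0 i` is THE zero of `τ_i` in the disc of `Q̄_i`. -/
theorem eq_P0 (H : DiscCtx T G red Qb c tay) (hC : Compat G red Bs Qb c tay) (i : Fin g)
    {P : Place L F} (hP : T.r P = Qb i) (h0 : 0 < P.ord (tauSub T (c i) 0)) : P = Bs.P0 i := by
  obtain ⟨P₁, -, -, huniq⟩ := (H.da i).2.2 0 (Ideal.zero_mem _)
  have e0 : Bs.P0 i = P₁ := by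
    refine huniq _ ?_ ?_
    · rw [← hC.hQb i]; exact Bs.hP0 i
    · have := Bs.zero0 i
      rwa [hC.hτ i] at this
  rw [e0]
  exact huniq P hP h0

/-- the moving point `P1 i` is THE zero of `τ_i - s_i` in the disc of `Q̄_i`. -/
theorem eq_P1 (H : DiscCtx T G red Qb c tay) (hC : Compat G red Bs Qb c tay) (Pt : DensPt Bs)
    (hs : ∀ i, Pt.s i ∈ IsLocalRing.maximalIdeal ↥A) (i : Fin g)
    {P : Place L F} (hP : T.r P = Qb i) (h1 : 0 < P.ord (tauSub T (c i) (Pt.s i))) :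
    P = Pt.P1 i := by
  obtain ⟨P₁, -, -, huniq⟩ := (H.da i).2.2 (Pt.s i) (hs i)
  have e1 : Pt.P1 i = P₁ := by
    refine huniq _ ?_ ?_
    · rw [← hC.hQb i]; exact Pt.hP1 i
    · have := Pt.zero1 i
      rwa [hC.hτ i, tauSub_zero_sub] at this
  rw [e1]
  exact huniq P hP h1

/-- **The expansion package of `XiBridge7` from the density theorem (Le).** -/
def expPkg (H : DiscCtx T G red Qb c tay) (hC : Compat G red Bs Qb c tay) (Pt : DensPt Bs)
    (hs : ∀ i, Pt.s i ∈ IsLocalRing.maximalIdeal ↥A) :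
    ExpPkg T G red Qb c (nfSystem D) tay Pt.ϖ Pt.s where
  B := Bsharp Bs Pt
  E := ExpRB Bs Pt
  mem_B := by
    intro f hf hpole
    refine ⟨hC.hGI f hf, fun P hne => ?_⟩
    by_contra hmem
    have hlt : P.ord f < 0 := by
      by_contra hge
      exact hmem (mem_of_ord_nonneg P (not_lt.mp hge))
    obtain ⟨i, hi, h0 | h1⟩ := hpole P hlt
    · exact (hne i).1 (eq_P0 H hC i hi h0)
    · exact (hne i).2 (eq_P1 H hC Pt hs i hi h1)
  E_mem := fun f => ExpRB_mem_AR Bs Pt f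
  E_const := by
    intro a ha
    refine LaurentMap19.Lam.ext fun i m => ?_
    have h1 : ExpRB Bs Pt ⟨algebraMap L F (a : L), ha⟩ i =
        HahnSeries.C (Ideal.Quotient.mk (Ideal.span {Pt.ϖ}) a) := ExpR_const Bs Pt i a
    rw [h1, LaurentMap19.smul_apply_coeff, LaurentMap19.one_apply, HahnSeries.C_apply,
      HahnSeries.coeff_single, HahnSeries.coeff_one]
    split_ifs <;> simp
  E_loc := by
    intro f i v hv
    -- `f * den ^ 1 = v ∈ CQ_i`
    have hfd : (f : F) * ((den Bs Pt i : ↥(Bs.X i).CQ) : F) ^ 1 = (v : F) := by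
      rw [pow_one, coe_den_eq hC Pt i, hv]
    have hmem : (f : F) * ((den Bs Pt i : ↥(Bs.X i).CQ) : F) ^ 1 ∈ (Bs.X i).CQ := by
      rw [hfd]; exact (hC.hCQ i _).mpr v.2
    have h1 := ExpR_mul_pow Bs Pt i ⟨(f : F), Bsharp_le_Sloc Bs Pt i f.2⟩ 1 hmem
    rw [pow_one, phi_den, phi_apply] at h1
    have h2 : (Bs.X i).tay ⟨_, hmem⟩ = tay i v := by
      rw [hC.htay i _ hmem (by rw [hfd]; exact v.2)]
      exact congrArg (tay i) (Subtype.ext hfd)
    rw [h2] at h1
    exact h1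

end Pkg

/-! ### The varying data -/

section Pt

variable (Bs : DensBase (A := A) G₀ red₀ T.r (resA A) D)

/-- for `d ≠ 0` and parameters `s'' i ∈ 𝔪_A` there is a `DensPt` with modulus `d` and parameters
`s''`: the moving points are the zeros of the `τ_i - s''_i` (Da), the nilpotency exponent comes from
the archimedean property of `A`. -/
theorem exists_densPt (H : DiscCtx T G red Qb c tay) (hC : Compat G red Bs Qb c tay)
    {d : ↥A} (hd0 : d ≠ 0) {s'' : Fin g → ↥A}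
    (hs'' : ∀ i, s'' i ∈ IsLocalRing.maximalIdeal ↥A) :
    ∃ Pt : DensPt Bs, Pt.ϖ = d ∧ Pt.s = s'' := by
  -- the exponents
  have hN : ∀ i, ∃ N : ℕ, d ∣ s'' i ^ N := by
    intro i
    by_cases h0 : s'' i = 0
    · exact ⟨1, by rw [h0, pow_one]; exact dvd_zero d⟩
    · exact H.arch (s'' i) (hs'' i) h0 d hd0
  choose N hNd using hN
  -- the points
  have hP : ∀ i, ∃ P : Place L F, T.r P = Qb i ∧ 0 < P.ord (tauSub T (c i) (s'' i)) := by
    intro i
    obtain ⟨P, hPQ, hP1, -⟩ := (H.da i).2.2 (s'' i) (hs'' i)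
    exact ⟨P, hPQ, by rw [hP1]; exact one_pos⟩
  choose P hPQ hPpos using hP
  refine ⟨⟨d, s'', ∑ i, N i, fun i => ?_, P, fun i => ?_, fun i => ?_⟩, rfl, rfl⟩
  · exact (hNd i).trans (pow_dvd_pow _ (Finset.single_le_sum (f := N)
      (fun j _ => Nat.zero_le _) (Finset.mem_univ i)))
  · rw [hC.hQb i]; exact hPQ i
  · rw [hC.hτ i, tauSub_zero_sub]; exact hPpos i

/-- **The `pkg` argument of `XiBridge7.add_congr_of_chart` / `neg_congr_of_chart`.** -/
theorem nonempty_expPkg (H : DiscCtx T G red Qb c tay) (hC : Compat G red Bs Qb c tay)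
    {d : ↥A} (hd0 : d ≠ 0) {s'' : Fin g → ↥A}
    (hs'' : ∀ i, s'' i ∈ IsLocalRing.maximalIdeal ↥A) :
    Nonempty (ExpPkg T G red Qb c (nfSystem D) tay d s'') := by
  obtain ⟨Pt, rfl, rfl⟩ := exists_densPt Bs H hC hd0 hs''
  exact ⟨expPkg H hC Pt hs''⟩

/-- the package itself (a choice). -/
def expPkgAt (H : DiscCtx T G red Qb c tay) (hC : Compat G red Bs Qb c tay)
    {d : ↥A} (hd0 : d ≠ 0) {s'' : Fin g → ↥A}
    (hs'' : ∀ i, s'' i ∈ IsLocalRing.maximalIdeal ↥A) :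
    ExpPkg T G red Qb c (nfSystem D) tay d s'' :=
  (nonempty_expPkg Bs H hC hd0 hs'').some

end Pt

/-- the hypothesis `hBR` of `XiBridge7.add_congr_of_chart` for `Sys := nfSystem D`. -/
theorem hBR_nfSystem {A' : Type u} [CommRing A'] [Algebra O A'] (D : BasisData O g) (d : A')
    (y : Lam g (Rd d)) (hy : ∀ i, ∀ m : ℤ, m < 0 → (y i).coeff m = 0) :
    y ∈ (nfSystem D).BR (Rd d) :=
  (mem_BR (g := g) (R := Rd d)).mpr fun i m hm => hy i m hm

/-! ### The two exits of `XiBridge7` with the (Le) package plugged in -/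

section Exit

variable (Bs : DensBase (A := A) G₀ red₀ T.r (resA A) D)

/-- **(Ξc), addition**: `XiBridge7.add_congr_of_chart` with `pkg`, `hBR` discharged by (Le). -/
theorem add_congr_of_dens (H : DiscCtx T G red Qb c tay) (hC : Compat G red Bs Qb c tay)
    {s s' s'' : Fin g → ↥A} (hs : ∀ i, s i ∈ IsLocalRing.maximalIdeal ↥A)
    (hs' : ∀ i, s' i ∈ IsLocalRing.maximalIdeal ↥A)
    (hs'' : ∀ i, s'' i ∈ IsLocalRing.maximalIdeal ↥A)
    {P P' P'' Q₀ : Fin g → Place L F}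
    (hP : ∀ i, T.r (P i) = Qb i ∧ 0 < (P i).ord (tauSub T (c i) (s i)))
    (hP' : ∀ i, T.r (P' i) = Qb i ∧ 0 < (P' i).ord (tauSub T (c i) (s' i)))
    (hP'' : ∀ i, T.r (P'' i) = Qb i ∧ 0 < (P'' i).ord (tauSub T (c i) (s'' i)))
    (hQ₀ : ∀ i, T.r (Q₀ i) = Qb i ∧ 0 < (Q₀ i).ord (tauSub T (c i) 0))
    {h : F} (hh : IsRedOf G red h 1)
    (hdiv : ∀ v : Place L F, v.ord h =
      (OnePlaceRep9.redDiv P + OnePlaceRep9.redDiv P' - OnePlaceRep9.redDiv P''
        - OnePlaceRep9.redDiv Q₀) v)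
    {d : ↥A} (hd0 : d ≠ 0) :
    ∃ N₀ : ℕ, ∀ N : ℕ, N₀ ≤ N → ∀ i,
      d ∣ s'' i - MvPolynomial.aeval (Sum.elim s s') (FGLUniv19.F (nfSystem D) N i) :=
  add_congr_of_chart H hs hs' hs'' hP hP' hP'' hQ₀ hh hdiv hd0
    (fun _ => expPkgAt Bs H hC hd0 hs'') (hBR_nfSystem D d)

/-- **(Ξc), inverse**: `XiBridge7.neg_congr_of_chart` with `pkg`, `hBR` discharged by (Le). -/
theorem neg_congr_of_dens (H : DiscCtx T G red Qb c tay) (hC : Compat G red Bs Qb c tay)
    {s t : Fin g → ↥A} (hs : ∀ i, s i ∈ IsLocalRing.maximalIdeal ↥A)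
    (ht : ∀ i, t i ∈ IsLocalRing.maximalIdeal ↥A)
    {P P' Q₀ : Fin g → Place L F}
    (hP : ∀ i, T.r (P i) = Qb i ∧ 0 < (P i).ord (tauSub T (c i) (s i)))
    (hP' : ∀ i, T.r (P' i) = Qb i ∧ 0 < (P' i).ord (tauSub T (c i) (t i)))
    (hQ₀ : ∀ i, T.r (Q₀ i) = Qb i ∧ 0 < (Q₀ i).ord (tauSub T (c i) 0))
    {h : F} (hh : IsRedOf G red h 1)
    (hdiv : ∀ v : Place L F, v.ord h =
      (OnePlaceRep9.redDiv P + OnePlaceRep9.redDiv P' - OnePlaceRep9.redDiv Q₀
        - OnePlaceRep9.redDiv Q₀) v)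
    {d : ↥A} (hd0 : d ≠ 0) :
    ∃ N₀ : ℕ, ∀ N : ℕ, N₀ ≤ N → ∀ i,
      d ∣ t i - MvPolynomial.aeval s (FGLUniv19.G (nfSystem D) N i) :=
  neg_congr_of_chart H hs ht hP hP' hQ₀ hh hdiv hd0
    (fun _ => expPkgAt Bs H hC hd0 (fun _ => Ideal.zero_mem _)) (hBR_nfSystem D d)

end Exit

end Fermat.Agent.ES.V19.ExpPkgOfDens5
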