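/-
Programme V (S19), chapter (B3) "reduction of places" — helper3:
**the local ring `CQ T Q` of `DiscIface3`: values on the disc, and (Dd) from (PEEL-a).**

Setting = `DiscIface3` (= main's `TwoCharts8`), plus `[IsAlgClosed (kA A)]` and a generator `xt` of
`Ft / kA A` (needed for the value map at `Q`; in the instance `xt = t̃`).

* `isUnit_iff_ord`            : units of `O_v` are the nonzero elements of order `0`;
* `chi_ne_zero_iff`           : for `P` in the disc of `Q`: `χ_P b ≠ 0 ↔ b̄ ≠ 0 ∧ ord_Q b̄ = 0`  ((R1));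
* `mem_place_of_mem_CQ`       : `CQ T Q ⊂ O_P` for `P` in the disc;
* `evCQ … : ↥(CQ T Q) →+* ↥A` : the value at `P`, with `evCQ_coe` (on chart elements it is
  `T.S0.ev P hP`), `evCQ_mul_eq` (`f * b = a ⇒ f(P) * b(P) = a(P)`), `coe_evCQ` (it is the value map
  `valueHom hx P`), `evCQ_eq_zero_iff` (`f(P) = 0 ↔ f = 0 ∨ 0 < ord_P f`), `evCQ_const`;
* `ord_nonneg_of_mem_CQ`, `isUnit_CQ_of_ev` (`f(P)` a unit of `A` ⇒ `f` a unit of `CQ`);
* **`dd_of_peelA`** : the literal `DiscIface3.Dd T Q c` from `Good T Q c`, a zero `P₀` of `τ` in the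
  disc and main's (PEEL-a) at `P₀`.
-/
import Mathlib
import Fermat.Agent.ES.V19.DiscIface3

set_option autoImplicit false

noncomputable section

open AlgebraicCurve

namespace Fermat.Agent.ES.V19.DiscLocal3

open Fermat.Agent.X0.FF Fermat.Agent.ES.RED.PlaceValue13 Fermat.Agent.ES.RED.Contract8
  Fermat.Agent.ES.RED.TwoCharts8 Fermat.Agent.ES.V19.DiscIface3

/-- units of the valuation ring of a place: nonzero of order `0`. -/
theorem isUnit_iff_ord {K F : Type*} [Field K] [Field F] [Algebra K F] (v : Place K F)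
    (a : ↥v.toValuationSubring) : IsUnit a ↔ ((a : F) ≠ 0 ∧ v.ord (a : F) = 0) := by
  have h1 : IsUnit a ↔ a ∉ IsLocalRing.maximalIdeal ↥v.toValuationSubring := by
    rw [IsLocalRing.mem_maximalIdeal, mem_nonunits_iff, not_not]
  rw [h1, mem_maximalIdeal_iff]
  have h2 := ord_nonneg_of_mem v a.2
  constructor
  · intro h
    push Not at h
    refine ⟨fun h0 => h.1 (Subtype.ext h0), ?_⟩
    omega
  · rintro ⟨h0, h3⟩
    push Not
    exact ⟨fun h => h0 (congrArg Subtype.val h), by omega⟩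

variable {L : Type*} [Field L] [IsAlgClosed L] {A : ValuationSubring L}
variable {F : Type*} [Field F] [Algebra L F] {x : F} {hx : IsGen L x}
variable {Ft : Type*} [Field Ft] [Algebra (kA A) Ft]
variable [IsAlgClosed (kA A)] {xt : Ft} (hxt : IsGen (kA A) xt)
variable (T : TwoCharts A hx Ft) (Q : Place (kA A) Ft) (c : ↥A)

include hxt in
/-- **(R1) in order form**: for `P` in the disc of `Q`, `χ_P b ≠ 0` iff `b̄` is a unit at `Q`. -/
theorem chi_ne_zero_iff (P : Place L F) (hQ : T.r P = Q) (hP : T.S0.InChart P) (b : ↥T.S0.B) :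
    T.S0.chi P hP b ≠ 0 ↔ (T.S0.red b ≠ 0 ∧ Q.ord (T.S0.red b) = 0) := by
  subst hQ
  rw [T.r_eq0 P hP, ← valueHom_rAt hxt T.places0 T.tr0 P hP b, valueHom_ne_zero_iff,
    isUnit_iff_ord]

omit [IsAlgClosed (kA A)] in
/-- the reduction of a chart element is regular at `Q` (for `Q` in the image of the disc map). -/
theorem red_mem_of_disc (P : Place L F) (hQ : T.r P = Q) (hP : T.S0.InChart P) (b : ↥T.S0.B) :
    T.S0.red b ∈ Q.toValuationSubring := by
  subst hQ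
  rw [T.r_eq0 P hP]
  exact red_mem_rAt T.places0 T.tr0 P hP b

include hxt in
/-- a denominator of `CQ` is a unit at every place of the disc. -/
theorem ord_den_eq_zero (P : Place L F) (hQ : T.r P = Q) (hP : T.S0.InChart P) (b : ↥T.S0.B)
    (hb : T.S0.red b ≠ 0) (hbQ : Q.ord (T.S0.red b) = 0) :
    (b : F) ≠ 0 ∧ P.ord (b : F) = 0 := by
  have hχ : T.S0.chi P hP b ≠ 0 := (chi_ne_zero_iff hxt T Q P hQ hP b).mpr ⟨hb, hbQ⟩
  have hev : T.S0.ev P hP b ≠ 0 := by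
    intro h0
    apply hχ
    rw [ChartSpec.chi_apply, h0, map_zero]
  rw [Ne, T.S0.ev_eq_zero_iff P hP b] at hev
  push Not at hev
  refine ⟨hev.1, ?_⟩
  have := ord_nonneg_of_mem P (T.S0.mem_place P hP b b.2)
  omega

include hxt in
/-- `CQ T Q ⊂ O_P` for every place `P` of the disc of `Q`. -/
theorem mem_place_of_mem_CQ (P : Place L F) (hQ : T.r P = Q) (hP : T.S0.InChart P) {f : F}
    (hf : f ∈ CQ T Q) : f ∈ P.toValuationSubring := by
  obtain ⟨a, b, hb, hbQ, e⟩ := hf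
  obtain ⟨hb0, hbP⟩ := ord_den_eq_zero hxt T Q P hQ hP b hb hbQ
  have hinv : (b : F)⁻¹ ∈ P.toValuationSubring := by
    apply mem_of_ord_nonneg
    rw [Place.ord_inv, hbP, neg_zero]
  have : f = (a : F) * (b : F)⁻¹ := by rw [← e]; field_simp
  rw [this]
  exact P.toValuationSubring.mul_mem _ _ (T.S0.mem_place P hP a a.2) hinv

include hxt in
theorem ord_nonneg_of_mem_CQ (P : Place L F) (hQ : T.r P = Q) (hP : T.S0.InChart P) {f : F}
    (hf : f ∈ CQ T Q) : 0 ≤ P.ord f :=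
  ord_nonneg_of_mem P (mem_place_of_mem_CQ hxt T Q P hQ hP hf)

/-- the inclusion `CQ T Q ⊂ O_P`. -/
def toPlaceCQ (P : Place L F) (hQ : T.r P = Q) (hP : T.S0.InChart P) :
    ↥(CQ T Q) →+* ↥P.toValuationSubring :=
  Subring.inclusion (S := CQ T Q) (T := P.toValuationSubring.toSubring)
    (fun _ hf => mem_place_of_mem_CQ hxt T Q P hQ hP hf)

include hxt in
/-- the values of `CQ T Q` at a place of the disc lie in `A`. -/
theorem valueHom_mem_of_mem_CQ (P : Place L F) (hQ : T.r P = Q) (hP : T.S0.InChart P)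
    (f : ↥(CQ T Q)) : valueHom hx P (toPlaceCQ hxt T Q P hQ hP f) ∈ A := by
  obtain ⟨a, b, hb, hbQ, e⟩ := f.2
  have hχ : T.S0.chi P hP b ≠ 0 := (chi_ne_zero_iff hxt T Q P hQ hP b).mpr ⟨hb, hbQ⟩
  have hu : IsUnit (T.S0.ev P hP b) := by
    by_contra hnu
    apply hχ
    rw [ChartSpec.chi_apply]
    exact (IsLocalRing.residue_eq_zero_iff _).mpr ((IsLocalRing.mem_maximalIdeal _).mpr hnu)
  -- `f(P) * b(P) = a(P)`
  have hmul : valueHom hx P (toPlaceCQ hxt T Q P hQ hP f) * ((T.S0.ev P hP b : ↥A) : L) =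
      ((T.S0.ev P hP a : ↥A) : L) := by
    rw [T.S0.coe_ev P hP b, T.S0.coe_ev P hP a, ← map_mul]
    congr 1
    exact Subtype.ext e
  obtain ⟨w, hw⟩ := hu.exists_right_inv
  have hw' : ((T.S0.ev P hP b : ↥A) : L) * (w : L) = 1 := by
    have := congrArg (Subtype.val) hw
    simpa using this
  have : valueHom hx P (toPlaceCQ hxt T Q P hQ hP f) = ((T.S0.ev P hP a : ↥A) : L) * (w : L) := by
    rw [← hmul, mul_assoc, hw', mul_one]
  rw [this]
  exact A.mul_mem _ _ (T.S0.ev P hP a).2 w.2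

/-- **the value at a place `P` of the disc**, `CQ T Q →+* A`. -/
def evCQ (P : Place L F) (hQ : T.r P = Q) (hP : T.S0.InChart P) : ↥(CQ T Q) →+* ↥A :=
  ((valueHom hx P : ↥P.toValuationSubring →+* L).comp (toPlaceCQ hxt T Q P hQ hP)).codRestrict
    A.toSubring (fun f => valueHom_mem_of_mem_CQ hxt T Q P hQ hP f)

theorem coe_evCQ (P : Place L F) (hQ : T.r P = Q) (hP : T.S0.InChart P) (f : ↥(CQ T Q)) :
    ((evCQ hxt T Q P hQ hP f : ↥A) : L) =
      valueHom hx P ⟨(f : F), mem_place_of_mem_CQ hxt T Q P hQ hP f.2⟩ := rfl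

omit [IsAlgClosed (kA A)] in
/-- chart elements lie in `CQ T Q`. -/
theorem coe_mem_CQ (b : ↥T.S0.B) : (b : F) ∈ CQ T Q :=
  ⟨b, 1, by rw [map_one]; exact one_ne_zero, by rw [map_one, Place.ord_one],
    by rw [Subring.coe_one, mul_one]⟩

/-- the chart ring inside the local ring. -/
def ofB : ↥T.S0.B →+* ↥(CQ T Q) :=
  Subring.inclusion (S := T.S0.B) (T := CQ T Q) (fun b hb => coe_mem_CQ T Q ⟨b, hb⟩)

omit [IsAlgClosed (kA A)] in
@[simp] theorem coe_ofB (b : ↥T.S0.B) : ((ofB T Q b : ↥(CQ T Q)) : F) = (b : F) := rfl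

/-- on chart elements the value is `T.S0.ev P hP`. -/
theorem evCQ_ofB (P : Place L F) (hQ : T.r P = Q) (hP : T.S0.InChart P) (b : ↥T.S0.B) :
    evCQ hxt T Q P hQ hP (ofB T Q b) = T.S0.ev P hP b := by
  apply Subtype.ext
  rw [coe_evCQ, T.S0.coe_ev P hP b]
  rfl

/-- `f(P) = 0 ↔ f = 0 ∨ 0 < ord_P f`. -/
theorem evCQ_eq_zero_iff (P : Place L F) (hQ : T.r P = Q) (hP : T.S0.InChart P)
    (f : ↥(CQ T Q)) :
    evCQ hxt T Q P hQ hP f = 0 ↔ ((f : F) = 0 ∨ 0 < P.ord (f : F)) := by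
  rw [← valueHom_eq_zero_iff_ord hx P ⟨(f : F), mem_place_of_mem_CQ hxt T Q P hQ hP f.2⟩,
    ← coe_evCQ hxt T Q P hQ hP f]
  exact ⟨fun h => by rw [h]; rfl, fun h => Subtype.ext h⟩

/-- constants of `A` in the local ring. -/
def constCQ : ↥A →+* ↥(CQ T Q) := (ofB T Q).comp T.S0.constHom

omit [IsAlgClosed (kA A)] in
theorem coe_constCQ (a : ↥A) : ((constCQ T Q a : ↥(CQ T Q)) : F) = algebraMap L F (a : L) := rfl

theorem evCQ_constCQ (P : Place L F) (hQ : T.r P = Q) (hP : T.S0.InChart P) (a : ↥A) :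
    evCQ hxt T Q P hQ hP (constCQ T Q a) = a := by
  show evCQ hxt T Q P hQ hP (ofB T Q (T.S0.const a)) = a
  rw [evCQ_ofB, T.S0.ev_const P hP a]

include hxt in
/-- an element of `CQ` whose value at a place of the disc is a unit of `A` is a unit of `CQ`. -/
theorem isUnit_of_isUnit_evCQ (P : Place L F) (hQ : T.r P = Q) (hP : T.S0.InChart P)
    (f : ↥(CQ T Q)) (hu : IsUnit (evCQ hxt T Q P hQ hP f)) : IsUnit f := by
  obtain ⟨a, b, hb, hbQ, e⟩ := f.2
  obtain ⟨hb0, hbP⟩ := ord_den_eq_zero hxt T Q P hQ hP b hb hbQ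
  -- `f * b = a` in `CQ`, so `a(P) = f(P) * b(P)` is a unit of `A`
  have hfb : f * ofB T Q b = ofB T Q a := Subtype.ext e
  have hχb : T.S0.chi P hP b ≠ 0 := (chi_ne_zero_iff hxt T Q P hQ hP b).mpr ⟨hb, hbQ⟩
  have hub : IsUnit (T.S0.ev P hP b) := by
    by_contra hnu
    apply hχb
    rw [ChartSpec.chi_apply]
    exact (IsLocalRing.residue_eq_zero_iff _).mpr ((IsLocalRing.mem_maximalIdeal _).mpr hnu)
  have hua : IsUnit (T.S0.ev P hP a) := by
    have := congrArg (evCQ hxt T Q P hQ hP) hfb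
    rw [map_mul, evCQ_ofB, evCQ_ofB] at this
    rw [← this]
    exact hu.mul hub
  have hχa : T.S0.chi P hP a ≠ 0 := by
    rw [ChartSpec.chi_apply]
    intro h0
    exact ((IsLocalRing.mem_maximalIdeal _).mp ((IsLocalRing.residue_eq_zero_iff _).mp h0)) hua
  obtain ⟨ha, haQ⟩ := (chi_ne_zero_iff hxt T Q P hQ hP a).mp hχa
  -- the inverse `b / a`
  have ha0 : (a : F) ≠ 0 := (ord_den_eq_zero hxt T Q P hQ hP a ha haQ).1
  have hf0 : (f : F) ≠ 0 := by
    intro h0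
    rw [h0, zero_mul] at e
    exact ha0 e.symm
  have hinv : (f : F)⁻¹ ∈ CQ T Q := by
    refine ⟨b, a, ha, haQ, ?_⟩
    rw [← e]
    field_simp
  refine ⟨⟨f, ⟨(f : F)⁻¹, hinv⟩, ?_, ?_⟩, rfl⟩
  · exact Subtype.ext (mul_inv_cancel₀ hf0)
  · exact Subtype.ext (inv_mul_cancel₀ hf0)

/-! ### (Dd) from (PEEL-a) -/

include hxt in
/-- **(Dd)**: division by `τ` in the local ring, from main's (PEEL-a) at the zero `P₀` of `τ`. -/
theorem dd_of_peelA (hgood : Good T Q c) (P₀ : Place L F) (hQ : T.r P₀ = Q)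
    (hP : T.S0.InChart P₀) (hτ : T.S0.ev P₀ hP (tauB T c) = 0) (hpeel : T.S0.PeelA P₀ hP) :
    Dd T Q c := by
  obtain ⟨u, hu, hpeel⟩ := hpeel
  -- `τ = u * (w₁ / d₁)` with `w₁ / d₁` a unit
  obtain ⟨d₁, w₁, hd₁, e₁⟩ := hpeel (tauB T c) hτ
  have hredτ : T.S0.red (tauB T c) ≠ 0 := by
    intro h0
    unfold Good at hgood
    rw [h0, Place.ord_zero] at hgood
    exact zero_ne_one hgood
  obtain ⟨hd₁r, hd₁Q⟩ := (chi_ne_zero_iff hxt T Q P₀ hQ hP d₁).mp hd₁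
  have e₁r : T.S0.red (tauB T c) * T.S0.red d₁ = T.S0.red u * T.S0.red w₁ := by
    rw [← map_mul, ← map_mul, e₁]
  have hu0 : T.S0.red u ≠ 0 := by
    intro h0
    rw [h0, zero_mul] at e₁r
    exact mul_ne_zero hredτ hd₁r e₁r
  have hw0 : T.S0.red w₁ ≠ 0 := by
    intro h0
    rw [h0, mul_zero] at e₁r
    exact mul_ne_zero hredτ hd₁r e₁r
  -- `ord_Q ū ≥ 1`
  have hχu : T.S0.chi P₀ hP u = 0 := by rw [ChartSpec.chi_apply, hu, map_zero]
  have hu1 : 1 ≤ Q.ord (T.S0.red u) := by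
    by_contra hlt
    have hnn := ord_nonneg_of_mem Q (red_mem_of_disc T Q P₀ hQ hP u)
    have : Q.ord (T.S0.red u) = 0 := by omega
    exact (chi_ne_zero_iff hxt T Q P₀ hQ hP u).mpr ⟨hu0, this⟩ hχu
  have hw1 : 0 ≤ Q.ord (T.S0.red w₁) :=
    ord_nonneg_of_mem Q (red_mem_of_disc T Q P₀ hQ hP w₁)
  have hsum : Q.ord (T.S0.red u) + Q.ord (T.S0.red w₁) = 1 := by
    rw [← Place.ord_mul Q hu0 hw0, ← e₁r, Place.ord_mul Q hredτ hd₁r, hd₁Q, add_zero]
    exact hgood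
  have hwQ : Q.ord (T.S0.red w₁) = 0 := by omega
  -- the division
  intro f hf
  obtain ⟨a, b, hb, hbQ, e⟩ := hf
  set a₀ : ↥A := evCQ hxt T Q P₀ hQ hP ⟨f, ⟨a, b, hb, hbQ, e⟩⟩ with ha₀
  -- `z := a - a₀ b` vanishes at `P₀`
  have hz : T.S0.ev P₀ hP (a - T.S0.const a₀ * b) = 0 := by
    have hfb : (⟨f, ⟨a, b, hb, hbQ, e⟩⟩ : ↥(CQ T Q)) * ofB T Q b = ofB T Q a := Subtype.ext e
    have := congrArg (evCQ hxt T Q P₀ hQ hP) hfb
    rw [map_mul, evCQ_ofB, evCQ_ofB] at this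
    rw [map_sub, map_mul, T.S0.ev_const P₀ hP a₀, ← this, ha₀, sub_self]
  obtain ⟨d, z', hd, ez⟩ := hpeel _ hz
  obtain ⟨hdr, hdQ⟩ := (chi_ne_zero_iff hxt T Q P₀ hQ hP d).mp hd
  -- `g := (d₁ z') / (w₁ d b)`
  obtain ⟨hb0, -⟩ := ord_den_eq_zero hxt T Q P₀ hQ hP b hb hbQ
  obtain ⟨hd0, -⟩ := ord_den_eq_zero hxt T Q P₀ hQ hP d hdr hdQ
  obtain ⟨hw10, -⟩ := ord_den_eq_zero hxt T Q P₀ hQ hP w₁ hw0 hwQ
  refine ⟨a₀, ((d₁ * z' : ↥T.S0.B) : F) * ((w₁ * d * b : ↥T.S0.B) : F)⁻¹, ?_, ?_⟩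
  · refine ⟨d₁ * z', w₁ * d * b, ?_, ?_, ?_⟩
    · rw [map_mul, map_mul]
      exact mul_ne_zero (mul_ne_zero hw0 hdr) hb
    · rw [map_mul, map_mul, Place.ord_mul Q (mul_ne_zero hw0 hdr) hb,
        Place.ord_mul Q hw0 hdr, hwQ, hdQ, hbQ]
      rfl
    · have : ((w₁ * d * b : ↥T.S0.B) : F) ≠ 0 := by
        rw [Subring.coe_mul, Subring.coe_mul]
        exact mul_ne_zero (mul_ne_zero hw10 hd0) hb0
      rw [inv_mul_cancel_right₀ this]
  · -- `f - a₀ = τ * g`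
    have ezF : ((a : F) - algebraMap L F (a₀ : L) * (b : F)) * (d : F) = (u : F) * (z' : F) := by
      have := congrArg (fun y : ↥T.S0.B => (y : F)) ez
      simpa using this
    have e₁F : ((tauB T c : ↥T.S0.B) : F) * (d₁ : F) = (u : F) * (w₁ : F) := by
      have := congrArg (fun y : ↥T.S0.B => (y : F)) e₁
      simpa using this
    rw [Subring.coe_mul, Subring.coe_mul, Subring.coe_mul]
    have hfa : f = (a : F) * (b : F)⁻¹ := by rw [← e]; field_simp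
    rw [hfa]
    field_simp
    linear_combination (w₁ : F) * ezF - (z' : F) * e₁F

end Fermat.Agent.ES.V19.DiscLocal3
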