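/-
Programme V (S19), chapter (B3) "reduction of places", brick (N4) (helper3):
**Taylor expansion along a section.**  Pure commutative algebra (Mathlib only).

`C` an `R`-algebra, `ev : C →ₐ[R] R` a section ("evaluation at a rational point `Q`"), `τ : C` a
regular element generating `ker ev` (`C = B_x` the local ring of the smooth model at a closed point
of the special fibre, `τ = s - ev s` the local parameter of `S19_ROUTE23` (B3), `R = O`).

* `SecDatum ev τ`            : the three hypotheses (`ev τ = 0`, `ker ev ⊆ (τ)`, `τ` regular);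
* `shift h c`                : the difference quotient `(c - ev c) / τ`;
* `taylor h : C →ₐ[R] R⟦X⟧`  : `coeff n (taylor h c) = ev (shift^[n] c)`; `taylor_tau : taylor h τ = X`;
* `sub_trunc`                : `c - ∑_{i<n} a_i τ^i = τ^n * shift^[n] c`  (Taylor with remainder);
* `X_pow_dvd_taylor_iff`     : `X^n ∣ taylor c ↔ τ^n ∣ c`;
* `taylor_injective`         : under Krull's intersection property `⋂ (τ^n) = 0`
                               (`krull_of_isLocalRing`: noetherian local domain, `τ` a non-unit);
* `eval_congr`               : for ANY `R`-point `ev'` of `C`: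
                               `ev' c - ∑_{i<n} a_i (ev' τ)^i = (ev' τ)^n * ev' (shift^[n] c)`
                               ("evaluation of the Taylor series at a point of the disc", no
                               completeness of `R` needed);
* `taylor_map`               : functoriality in `(R, C, ev, τ)` (reduction mod `π`, extension of `O`);
* `isUnit_taylor_iff`, `dvd_of_forall_dvd_coeff` (`π ∣` all coefficients `⇒ π ∣ c`, under the
  Krull property of `C / π`; `krullMod_of_isLocalRing`).
-/
import Mathlib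

set_option autoImplicit false

noncomputable section

namespace Fermat.Agent.ES.V19.TaylorSec3

open PowerSeries

variable {R C : Type*} [CommRing R] [CommRing C] [Algebra R C]

/-- `τ` is a regular generator of the kernel of the section `ev`. -/
structure SecDatum (ev : C →ₐ[R] R) (τ : C) : Prop where
  ev_tau : ev τ = 0
  dvd_of_ev : ∀ c : C, ev c = 0 → τ ∣ c
  reg : ∀ c : C, τ * c = 0 → c = 0

variable {ev : C →ₐ[R] R} {τ : C}

theorem ev_sub_algebraMap (ev : C →ₐ[R] R) (c : C) : ev (c - algebraMap R C (ev c)) = 0 := by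
  rw [map_sub, AlgHom.commutes, Algebra.algebraMap_self_apply, sub_self]

/-- the difference quotient `(c - ev c) / τ`. -/
def shift (h : SecDatum ev τ) (c : C) : C :=
  (h.dvd_of_ev _ (ev_sub_algebraMap ev c)).choose

theorem tau_mul_shift (h : SecDatum ev τ) (c : C) :
    τ * shift h c = c - algebraMap R C (ev c) :=
  (h.dvd_of_ev _ (ev_sub_algebraMap ev c)).choose_spec.symm

theorem eq_add_tau_mul_shift (h : SecDatum ev τ) (c : C) :
    c = algebraMap R C (ev c) + τ * shift h c := by
  rw [tau_mul_shift]; ring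

/-- uniqueness of the difference quotient. -/
theorem shift_eq_of_eq (h : SecDatum ev τ) {c d : C} (r : R)
    (e : c = algebraMap R C r + τ * d) : shift h c = d := by
  have hr : ev c = r := by
    rw [e, map_add, map_mul, h.ev_tau, zero_mul, add_zero, AlgHom.commutes,
      Algebra.algebraMap_self_apply]
  have h1 : τ * (shift h c - d) = 0 := by
    rw [mul_sub, tau_mul_shift, hr]
    rw [e]; ring
  exact sub_eq_zero.mp (h.reg _ h1)

theorem shift_add (h : SecDatum ev τ) (c d : C) : shift h (c + d) = shift h c + shift h d := by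
  refine shift_eq_of_eq h (ev c + ev d) ?_
  rw [map_add, mul_add, tau_mul_shift, tau_mul_shift]; ring

theorem shift_algebraMap_mul (h : SecDatum ev τ) (r : R) (c : C) :
    shift h (algebraMap R C r * c) = algebraMap R C r * shift h c := by
  refine shift_eq_of_eq h (r * ev c) ?_
  rw [map_mul, mul_left_comm, tau_mul_shift]; ring

theorem shift_smul (h : SecDatum ev τ) (r : R) (c : C) : shift h (r • c) = r • shift h c := by
  rw [Algebra.smul_def, Algebra.smul_def, shift_algebraMap_mul]

theorem shift_zero (h : SecDatum ev τ) : shift h 0 = 0 :=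
  shift_eq_of_eq h 0 (by simp)

theorem shift_algebraMap (h : SecDatum ev τ) (r : R) : shift h (algebraMap R C r) = 0 :=
  shift_eq_of_eq h r (by simp)

theorem shift_one (h : SecDatum ev τ) : shift h 1 = 0 := by
  have := shift_algebraMap h 1
  rwa [map_one] at this

theorem shift_tau_mul (h : SecDatum ev τ) (c : C) : shift h (τ * c) = c :=
  shift_eq_of_eq h 0 (by simp)

theorem shift_tau (h : SecDatum ev τ) : shift h τ = 1 := by
  have := shift_tau_mul h 1
  rwa [mul_one] at this

/-- the Leibniz rule of the difference quotient. -/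
theorem shift_mul (h : SecDatum ev τ) (c d : C) :
    shift h (c * d) = algebraMap R C (ev c) * shift h d + shift h c * d := by
  refine shift_eq_of_eq h (ev c * ev d) ?_
  have hc := tau_mul_shift h c
  have hd := tau_mul_shift h d
  have e1 : τ * (algebraMap R C (ev c) * shift h d + shift h c * d) =
      algebraMap R C (ev c) * (τ * shift h d) + (τ * shift h c) * d := by ring
  rw [e1, hc, hd, map_mul]; ring

/-- the additive map underlying `shift`. -/
def shiftLin (h : SecDatum ev τ) : C →ₗ[R] C where
  toFun := shift h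
  map_add' := shift_add h
  map_smul' r c := by rw [RingHom.id_apply, shift_smul]

@[simp] theorem shiftLin_apply (h : SecDatum ev τ) (c : C) : shiftLin h c = shift h c := rfl

/-- the `n`-th Taylor coefficient `ev (shift^[n] c)`. -/
def tcoeff (h : SecDatum ev τ) (n : ℕ) (c : C) : R := ev ((shift h)^[n] c)

theorem tcoeff_zero (h : SecDatum ev τ) (c : C) : tcoeff h 0 c = ev c := rfl

theorem tcoeff_succ (h : SecDatum ev τ) (n : ℕ) (c : C) :
    tcoeff h (n + 1) c = tcoeff h n (shift h c) := by
  rw [tcoeff, tcoeff, Function.iterate_succ_apply]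

theorem tcoeff_add (h : SecDatum ev τ) (n : ℕ) (c d : C) :
    tcoeff h n (c + d) = tcoeff h n c + tcoeff h n d := by
  induction n generalizing c d with
  | zero => simp [tcoeff_zero]
  | succ n ih => rw [tcoeff_succ, tcoeff_succ, tcoeff_succ, shift_add, ih]

theorem tcoeff_algebraMap_mul (h : SecDatum ev τ) (n : ℕ) (r : R) (c : C) :
    tcoeff h n (algebraMap R C r * c) = r * tcoeff h n c := by
  induction n generalizing c with
  | zero =>
    rw [tcoeff_zero, tcoeff_zero, map_mul, AlgHom.commutes, Algebra.algebraMap_self_apply]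
  | succ n ih => rw [tcoeff_succ, tcoeff_succ, shift_algebraMap_mul, ih]

theorem tcoeff_zero_right (h : SecDatum ev τ) (n : ℕ) : tcoeff h n 0 = 0 := by
  induction n with
  | zero => rw [tcoeff_zero, map_zero]
  | succ n ih => rw [tcoeff_succ, shift_zero, ih]

/-- the Cauchy product formula for the Taylor coefficients. -/
theorem tcoeff_mul (h : SecDatum ev τ) (n : ℕ) (c d : C) :
    tcoeff h n (c * d) =
      ∑ p ∈ Finset.HasAntidiagonal.antidiagonal n, tcoeff h p.1 c * tcoeff h p.2 d := by
  induction n generalizing c d with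
  | zero =>
    rw [Finset.Nat.antidiagonal_zero, Finset.sum_singleton, tcoeff_zero, tcoeff_zero, tcoeff_zero,
      map_mul]
  | succ n ih =>
    rw [tcoeff_succ, shift_mul, tcoeff_add, tcoeff_algebraMap_mul, ih,
      Finset.Nat.antidiagonal_succ, Finset.sum_cons, Finset.sum_map]
    simp only [Function.Embedding.coe_prodMap, Function.Embedding.coeFn_mk, Prod.map_fst,
      Prod.map_snd, Function.Embedding.refl_apply, Nat.succ_eq_add_one]
    rw [tcoeff_zero, ← tcoeff_succ]
    congr 1

/-- **The Taylor expansion along the section** `ev`, in the parameter `τ`. -/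
def taylor (h : SecDatum ev τ) : C →ₐ[R] R⟦X⟧ where
  toFun c := PowerSeries.mk fun n => tcoeff h n c
  map_one' := by
    ext n
    rw [coeff_mk, coeff_one]
    cases n with
    | zero => rw [tcoeff_zero, map_one, if_pos rfl]
    | succ n => rw [tcoeff_succ, shift_one, tcoeff_zero_right, if_neg (Nat.succ_ne_zero n)]
  map_mul' c d := by
    ext n
    rw [coeff_mk, coeff_mul, tcoeff_mul]
    refine Finset.sum_congr rfl fun p _ => ?_
    rw [coeff_mk, coeff_mk]
  map_zero' := by
    ext n
    rw [coeff_mk, tcoeff_zero_right, map_zero]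
  map_add' c d := by
    ext n
    rw [coeff_mk, tcoeff_add, map_add, coeff_mk, coeff_mk]
  commutes' r := by
    ext n
    rw [coeff_mk, PowerSeries.algebraMap_apply, Algebra.algebraMap_self_apply, coeff_C]
    cases n with
    | zero => rw [tcoeff_zero, AlgHom.commutes, Algebra.algebraMap_self_apply, if_pos rfl]
    | succ n =>
      rw [tcoeff_succ, shift_algebraMap, tcoeff_zero_right, if_neg (Nat.succ_ne_zero n)]

@[simp] theorem coeff_taylor (h : SecDatum ev τ) (n : ℕ) (c : C) :
    coeff n (taylor h c) = ev ((shift h)^[n] c) := by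
  show coeff n (PowerSeries.mk fun n => tcoeff h n c) = _
  rw [coeff_mk]; rfl

theorem constantCoeff_taylor (h : SecDatum ev τ) (c : C) :
    constantCoeff (taylor h c) = ev c := by
  rw [← coeff_zero_eq_constantCoeff_apply, coeff_taylor]; rfl

/-- `taylor (τ * c) = X * taylor c`. -/
theorem taylor_tau_mul (h : SecDatum ev τ) (c : C) : taylor h (τ * c) = X * taylor h c := by
  ext n
  cases n with
  | zero =>
    rw [coeff_taylor, Function.iterate_zero, id_eq, map_mul, h.ev_tau, zero_mul,
      coeff_zero_eq_constantCoeff_apply, map_mul, constantCoeff_X, zero_mul]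
  | succ n =>
    rw [coeff_taylor, Function.iterate_succ_apply, shift_tau_mul, coeff_succ_X_mul, coeff_taylor]

/-- the parameter goes to `X`. -/
theorem taylor_tau (h : SecDatum ev τ) : taylor h τ = X := by
  have := taylor_tau_mul h 1
  rwa [mul_one, map_one, mul_one] at this

/-- **Taylor's formula with remainder.** -/
theorem sub_trunc (h : SecDatum ev τ) (n : ℕ) (c : C) :
    c - ∑ i ∈ Finset.range n, algebraMap R C (coeff i (taylor h c)) * τ ^ i =
      τ ^ n * (shift h)^[n] c := by
  induction n with
  | zero => simp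
  | succ n ih =>
    rw [Finset.sum_range_succ, ← sub_sub, ih, coeff_taylor, Function.iterate_succ_apply',
      pow_succ, mul_assoc, tau_mul_shift]
    ring

theorem pow_dvd_of_X_pow_dvd (h : SecDatum ev τ) {n : ℕ} {c : C} (hc : X ^ n ∣ taylor h c) :
    τ ^ n ∣ c := by
  have h0 : ∀ i ∈ Finset.range n, algebraMap R C (coeff i (taylor h c)) * τ ^ i = 0 := by
    intro i hi
    rw [(X_pow_dvd_iff.mp hc) i (Finset.mem_range.mp hi), map_zero, zero_mul]
  have := sub_trunc h n c
  rw [Finset.sum_eq_zero h0, sub_zero] at this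
  exact ⟨_, this⟩

/-- `X ^ n ∣ taylor c ↔ τ ^ n ∣ c`. -/
theorem X_pow_dvd_taylor_iff (h : SecDatum ev τ) (n : ℕ) (c : C) :
    X ^ n ∣ taylor h c ↔ τ ^ n ∣ c := by
  refine ⟨pow_dvd_of_X_pow_dvd h, ?_⟩
  rintro ⟨d, rfl⟩
  rw [map_mul, map_pow, taylor_tau]
  exact dvd_mul_right _ _

/-- **Injectivity** of the Taylor expansion under Krull's intersection property. -/
theorem taylor_injective (h : SecDatum ev τ) (hkrull : ∀ c : C, (∀ n : ℕ, τ ^ n ∣ c) → c = 0) :
    Function.Injective (taylor h) := by
  rw [injective_iff_map_eq_zero]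
  intro c hc
  refine hkrull c fun n => pow_dvd_of_X_pow_dvd h ?_
  rw [hc]
  exact dvd_zero _

/-- Krull's intersection property in a noetherian local domain (`τ` a non-unit). -/
theorem krull_of_isLocalRing [IsNoetherianRing C] [IsLocalRing C] (hτ : ¬ IsUnit τ) (c : C)
    (hc : ∀ n : ℕ, τ ^ n ∣ c) : c = 0 := by
  have hne : Ideal.span {τ} ≠ ⊤ := by
    rw [Ne, Ideal.span_singleton_eq_top]
    exact hτ
  have hbot := Ideal.iInf_pow_eq_bot_of_isLocalRing (Ideal.span {τ}) hne
  have hmem : c ∈ ⨅ i : ℕ, Ideal.span {τ} ^ i := by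
    rw [Ideal.mem_iInf]
    intro n
    rw [Ideal.span_singleton_pow, Ideal.mem_span_singleton]
    exact hc n
  rw [hbot] at hmem
  exact hmem

/-- **Evaluation of the Taylor polynomial at another point of the disc**: for any `R`-point `ev'`
of `C`, `ev' c - ∑_{i<n} a_i (ev' τ)^i = (ev' τ)^n * ev' (shift^[n] c)`. -/
theorem eval_congr (h : SecDatum ev τ) (ev' : C →ₐ[R] R) (n : ℕ) (c : C) :
    ev' c - ∑ i ∈ Finset.range n, coeff i (taylor h c) * ev' τ ^ i =
      ev' τ ^ n * ev' ((shift h)^[n] c) := by
  have := congrArg ev' (sub_trunc h n c)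
  rw [map_sub, map_sum, map_mul, map_pow] at this
  rw [← this]
  congr 1
  refine Finset.sum_congr rfl fun i _ => ?_
  rw [map_mul, map_pow, AlgHom.commutes, Algebra.algebraMap_self_apply]

/-- the same as a divisibility. -/
theorem pow_dvd_eval_sub (h : SecDatum ev τ) (ev' : C →ₐ[R] R) (n : ℕ) (c : C) :
    ev' τ ^ n ∣ ev' c - ∑ i ∈ Finset.range n, coeff i (taylor h c) * ev' τ ^ i :=
  ⟨_, eval_congr h ev' n c⟩

theorem isUnit_taylor_iff (h : SecDatum ev τ) (c : C) : IsUnit (taylor h c) ↔ IsUnit (ev c) := by
  rw [PowerSeries.isUnit_iff_constantCoeff, constantCoeff_taylor]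

/-! ### functoriality -/

section Functorial

variable {R' C' : Type*} [CommRing R'] [CommRing C'] [Algebra R' C']
  {ev' : C' →ₐ[R'] R'} {τ' : C'}

theorem shift_map (h : SecDatum ev τ) (h' : SecDatum ev' τ') (φ : C →+* C') (ψ : R →+* R')
    (hφτ : φ τ = τ') (hφR : ∀ r : R, φ (algebraMap R C r) = algebraMap R' C' (ψ r))
    (c : C) : shift h' (φ c) = φ (shift h c) := by
  refine shift_eq_of_eq h' (ψ (ev c)) ?_
  rw [← hφR, ← hφτ, ← map_mul, ← map_add, ← eq_add_tau_mul_shift]

theorem iterate_shift_map (h : SecDatum ev τ) (h' : SecDatum ev' τ') (φ : C →+* C') (ψ : R →+* R')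
    (hφτ : φ τ = τ') (hφR : ∀ r : R, φ (algebraMap R C r) = algebraMap R' C' (ψ r))
    (n : ℕ) (c : C) : (shift h')^[n] (φ c) = φ ((shift h)^[n] c) := by
  induction n generalizing c with
  | zero => rfl
  | succ n ih =>
    rw [Function.iterate_succ_apply, Function.iterate_succ_apply,
      shift_map h h' φ ψ hφτ hφR, ih]

/-- **Functoriality of the Taylor expansion** (reduction modulo `π`, extension of the base). -/
theorem taylor_map (h : SecDatum ev τ) (h' : SecDatum ev' τ') (φ : C →+* C') (ψ : R →+* R')
    (hφτ : φ τ = τ') (hφR : ∀ r : R, φ (algebraMap R C r) = algebraMap R' C' (ψ r))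
    (hev : ∀ c : C, ev' (φ c) = ψ (ev c)) (c : C) :
    taylor h' (φ c) = PowerSeries.map ψ (taylor h c) := by
  ext n
  rw [coeff_taylor, coeff_map, coeff_taylor, iterate_shift_map h h' φ ψ hφτ hφR, hev]

end Functorial

/-! ### divisibility of all coefficients -/

/-- If `π` divides every Taylor coefficient of `c`, then `c ∈ π C + τ^n C` for all `n`. -/
theorem exists_eq_of_forall_dvd_coeff (h : SecDatum ev τ) (π : R) (c : C)
    (hc : ∀ n : ℕ, π ∣ coeff n (taylor h c)) (n : ℕ) :
    ∃ a b : C, c = algebraMap R C π * a + τ ^ n * b := by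
  choose q hq using hc
  refine ⟨∑ i ∈ Finset.range n, algebraMap R C (q i) * τ ^ i, (shift h)^[n] c, ?_⟩
  rw [← sub_trunc h n c, Finset.mul_sum]
  have : ∑ i ∈ Finset.range n, algebraMap R C π * (algebraMap R C (q i) * τ ^ i) =
      ∑ i ∈ Finset.range n, algebraMap R C (coeff i (taylor h c)) * τ ^ i := by
    refine Finset.sum_congr rfl fun i _ => ?_
    rw [hq i, map_mul, mul_assoc]
  rw [this]; ring

/-- **`π ∣` all coefficients `⇒ π ∣ c`**, under the Krull property of `C / π`. -/
theorem dvd_of_forall_dvd_coeff (h : SecDatum ev τ) (π : R)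
    (hkrull : ∀ c : C, (∀ n : ℕ, ∃ a b : C, c = algebraMap R C π * a + τ ^ n * b) →
      algebraMap R C π ∣ c)
    (c : C) (hc : ∀ n : ℕ, π ∣ coeff n (taylor h c)) : algebraMap R C π ∣ c :=
  hkrull c (exists_eq_of_forall_dvd_coeff h π c hc)

/-- the Krull property of `C / π` in a noetherian local ring (`τ` a non-unit). -/
theorem krullMod_of_isLocalRing [IsNoetherianRing C] [IsLocalRing C] (hτ : ¬ IsUnit τ) (p : C)
    (c : C) (hc : ∀ n : ℕ, ∃ a b : C, c = p * a + τ ^ n * b) : p ∣ c := by
  have hne : Ideal.span {τ} ≠ ⊤ := by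
    rw [Ne, Ideal.span_singleton_eq_top]
    exact hτ
  have hbot := Ideal.iInf_pow_smul_eq_bot_of_isLocalRing (M := C ⧸ Ideal.span {p})
    (Ideal.span {τ}) hne
  have hmem : (Ideal.Quotient.mk (Ideal.span {p}) c) ∈
      ⨅ i : ℕ, Ideal.span {τ} ^ i • (⊤ : Submodule C (C ⧸ Ideal.span {p})) := by
    rw [Submodule.mem_iInf]
    intro n
    obtain ⟨a, b, e⟩ := hc n
    have h1 : Ideal.Quotient.mk (Ideal.span {p}) c = (τ ^ n) • Ideal.Quotient.mk (Ideal.span {p}) b := by
      rw [e, map_add, map_mul, Ideal.Quotient.eq_zero_iff_mem.mpr (Ideal.mem_span_singleton_self p),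
        zero_mul, zero_add, map_mul]
      rfl
    rw [h1]
    refine Submodule.smul_mem_smul ?_ Submodule.mem_top
    rw [Ideal.span_singleton_pow]
    exact Ideal.mem_span_singleton_self _
  rw [hbot, Submodule.mem_bot, Ideal.Quotient.eq_zero_iff_mem, Ideal.mem_span_singleton] at hmem
  exact hmem

end Fermat.Agent.ES.V19.TaylorSec3
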