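/-
Programme V (S19), chapter (B3) "reduction of places" — helper3:
**DERIVED API of the exit literal `DiscIface3`: the Taylor expansion `CQ T Q →+* A⟦X⟧`.**

Setting = `DiscIface3` / `DiscLocal3`.  A `ZeroPt T Q c` is a zero `P₀` of `τ = t - c` in the disc of `Q`
together with the division property (Dd); `nonempty_zeroPt` produces one from the literals
`Da T Q c` and `Dd T Q c`.

For `Z : ZeroPt T Q c`:
* `algCQ T Q : Algebra ↥A ↥(CQ T Q)` (constants; a `def`, use it with `letI`), `evAlgCQ` : the value at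
  a place of the disc as an `A`-algebra homomorphism;
* `Z.secDatum` : `TaylorSec3.SecDatum (value at P₀) τ`;
* **`Z.taylorQ : ↥(CQ T Q) →+* PowerSeries ↥A`** with `coeff_zero_taylorQ` (= value at `P₀`),
  `taylorQ_tau` (`= X`), `taylorQ_constCQ` (`= C a`), `taylorQ_tau_sub` (`τ - s ↦ X - C s`),
  `taylorQ_injective`, `X_pow_dvd_taylorQ_iff`, `isUnit_taylorQ_iff`;
* **`Z.eval_congr`** : for every place `P` of the disc, with `s := τ(P)`:
  `f(P) - ∑_{n<N} a_n s^n = s^N * (…)(P)`; `Z.pow_dvd_eval_sub`; and `tau_ev_mem` : `τ(P) ∈ 𝔪_A`.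
-/
import Mathlib
import Fermat.Agent.ES.V19.DiscLocal3
import Fermat.Agent.ES.V19.TaylorSec3

set_option autoImplicit false
set_option linter.style.haveILetI false

noncomputable section

open AlgebraicCurve

namespace Fermat.Agent.ES.V19.DiscTaylor3

open PowerSeries Fermat.Agent.X0.FF Fermat.Agent.ES.RED.PlaceValue13 Fermat.Agent.ES.RED.Contract8
  Fermat.Agent.ES.RED.TwoCharts8 Fermat.Agent.ES.V19.DiscIface3 Fermat.Agent.ES.V19.DiscLocal3
  Fermat.Agent.ES.V19.TaylorSec3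

variable {L : Type*} [Field L] [IsAlgClosed L] {A : ValuationSubring L}
variable {F : Type*} [Field F] [Algebra L F] {x : F} {hx : IsGen L x}
variable {Ft : Type*} [Field Ft] [Algebra (kA A) Ft]
variable [IsAlgClosed (kA A)] {xt : Ft} (hxt : IsGen (kA A) xt)
variable (T : TwoCharts A hx Ft) (Q : Place (kA A) Ft) (c : ↥A)

/-- the `A`-algebra structure of the local ring (constants). NOT an instance: use `letI`. -/
@[reducible] def algCQ : Algebra ↥A ↥(CQ T Q) := (constCQ T Q).toAlgebra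

/-- the value at a place of the disc, as an `A`-algebra homomorphism. -/
def evAlgCQ (P : Place L F) (hQ : T.r P = Q) (hP : T.S0.InChart P) :
    letI := algCQ T Q
    ↥(CQ T Q) →ₐ[↥A] ↥A :=
  letI := algCQ T Q
  { evCQ hxt T Q P hQ hP with
    commutes' := fun a => evCQ_constCQ hxt T Q P hQ hP a }

theorem evAlgCQ_apply (P : Place L F) (hQ : T.r P = Q) (hP : T.S0.InChart P) (f : ↥(CQ T Q)) :
    letI := algCQ T Q
    evAlgCQ hxt T Q P hQ hP f = evCQ hxt T Q P hQ hP f := rfl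

/-- the parameter `τ` in the local ring. -/
def tauC : ↥(CQ T Q) := ofB T Q (tauB T c)

omit [IsAlgClosed (kA A)] in
theorem coe_tauC : ((tauC T Q c : ↥(CQ T Q)) : F) = ((tauB T c : ↥T.S0.B) : F) := rfl

omit [IsAlgClosed (kA A)] in
/-- `τ - 0 = τ`. -/
theorem tauSub_zero : tauSub T c 0 = ((tauB T c : ↥T.S0.B) : F) := by
  unfold tauSub tauB
  rw [ZeroMemClass.coe_zero, add_zero]
  rfl

omit [IsAlgClosed (kA A)] in
/-- `τ - s` as an element of the chart ring. -/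
theorem tauSub_eq (s : ↥A) :
    tauSub T c s = ((tauB T c - T.S0.const s : ↥T.S0.B) : F) := by
  unfold tauSub tauB
  rw [map_add]
  show _ = (T.S0.s - algebraMap L F (c : L)) - algebraMap L F (s : L)
  ring

omit [IsAlgClosed (kA A)] in
theorem tauC_ne_zero (hgood : Good T Q c) : tauC T Q c ≠ 0 := by
  intro h0
  have h1 : ((tauB T c : ↥T.S0.B) : F) = 0 := congrArg Subtype.val h0
  have h2 : tauB T c = 0 := Subtype.ext h1
  unfold Good at hgood
  rw [h2, map_zero, Place.ord_zero] at hgood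
  exact zero_ne_one hgood

/-- **A zero of `τ` in the disc of `Q`, with the division property (Dd).** -/
structure ZeroPt where
  /-- the zero of `τ` -/
  P₀ : Place L F
  hQ : T.r P₀ = Q
  hP : T.S0.InChart P₀
  hτ : T.S0.ev P₀ hP (tauB T c) = 0
  good : Good T Q c
  dd : Dd T Q c

omit [IsAlgClosed (kA A)] in
/-- the literals (Da), (Dd) produce a `ZeroPt`. -/
theorem nonempty_zeroPt (hgood : Good T Q c) (hDa : Da T Q c) (hDd : Dd T Q c) :
    Nonempty (ZeroPt T Q c) := by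
  obtain ⟨P, hQ, hord, -⟩ := hDa.2.2 0 (Ideal.zero_mem _)
  have hP : T.S0.InChart P := hDa.1 P hQ
  refine ⟨⟨P, hQ, hP, ?_, hgood, hDd⟩⟩
  rw [T.S0.ev_eq_zero_iff P hP]
  right
  rw [← tauSub_zero, hord]
  exact one_pos

namespace ZeroPt

variable {T Q c}
variable (Z : ZeroPt T Q c)

/-- the value at the zero `P₀` of `τ`. -/
def ev₀ : letI := algCQ T Q; ↥(CQ T Q) →ₐ[↥A] ↥A := evAlgCQ hxt T Q Z.P₀ Z.hQ Z.hP

theorem ev₀_apply (f : ↥(CQ T Q)) :
    letI := algCQ T Q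
    Z.ev₀ hxt f = evCQ hxt T Q Z.P₀ Z.hQ Z.hP f := rfl

/-- **the `SecDatum` of the disc**: `τ` is a regular generator of the kernel of the value at `P₀`. -/
theorem secDatum : letI := algCQ T Q; SecDatum (Z.ev₀ hxt) (tauC T Q c) := by
  letI := algCQ T Q
  refine ⟨?_, ?_, ?_⟩
  · show evCQ hxt T Q Z.P₀ Z.hQ Z.hP (ofB T Q (tauB T c)) = 0
    rw [evCQ_ofB, Z.hτ]
  · intro f hf
    obtain ⟨a, g, hg, e⟩ := Z.dd (f : F) f.2
    have hfe : f = constCQ T Q a + tauC T Q c * ⟨g, hg⟩ := Subtype.ext e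
    have h1 : evCQ hxt T Q Z.P₀ Z.hQ Z.hP f = a := by
      rw [hfe, map_add, map_mul, evCQ_constCQ]
      show a + evCQ hxt T Q Z.P₀ Z.hQ Z.hP (ofB T Q (tauB T c)) * _ = a
      rw [evCQ_ofB, Z.hτ, zero_mul, add_zero]
    have h2 : a = 0 := h1.symm.trans hf
    refine ⟨⟨g, hg⟩, ?_⟩
    rw [hfe, h2, map_zero, zero_add]
  · intro f hf
    exact (mul_eq_zero.mp hf).resolve_left (tauC_ne_zero T Q c Z.good)

/-- **The Taylor expansion at `Q`** in the parameter `τ = t - c`, centred at the zero `P₀` of `τ`. -/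
def taylorQ : ↥(CQ T Q) →+* PowerSeries ↥A :=
  letI := algCQ T Q
  (taylor (Z.secDatum hxt) : ↥(CQ T Q) →+* PowerSeries ↥A)

theorem taylorQ_apply (f : ↥(CQ T Q)) :
    letI := algCQ T Q
    Z.taylorQ hxt f = taylor (Z.secDatum hxt) f := rfl

/-- the constant coefficient is the value at `P₀`. -/
theorem constantCoeff_taylorQ (f : ↥(CQ T Q)) :
    constantCoeff (Z.taylorQ hxt f) = evCQ hxt T Q Z.P₀ Z.hQ Z.hP f := by
  letI := algCQ T Q
  rw [taylorQ_apply, constantCoeff_taylor]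
  rfl

theorem taylorQ_tau : Z.taylorQ hxt (tauC T Q c) = X := by
  letI := algCQ T Q
  rw [taylorQ_apply, taylor_tau]

theorem taylorQ_constCQ (a : ↥A) : Z.taylorQ hxt (constCQ T Q a) = C a := by
  letI := algCQ T Q
  rw [taylorQ_apply]
  exact (taylor (Z.secDatum hxt)).commutes a

/-- `τ - s ↦ X - C s`. -/
theorem taylorQ_tau_sub (s : ↥A) :
    Z.taylorQ hxt (ofB T Q (tauB T c - T.S0.const s)) = X - C s := by
  have : ofB T Q (tauB T c - T.S0.const s) = tauC T Q c - constCQ T Q s := by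
    rw [map_sub]; rfl
  rw [this, map_sub, taylorQ_tau, taylorQ_constCQ]

theorem X_pow_dvd_taylorQ_iff (n : ℕ) (f : ↥(CQ T Q)) :
    X ^ n ∣ Z.taylorQ hxt f ↔ tauC T Q c ^ n ∣ f := by
  letI := algCQ T Q
  rw [taylorQ_apply]
  exact X_pow_dvd_taylor_iff (Z.secDatum hxt) n f

theorem isUnit_taylorQ_iff (f : ↥(CQ T Q)) :
    IsUnit (Z.taylorQ hxt f) ↔ IsUnit (evCQ hxt T Q Z.P₀ Z.hQ Z.hP f) := by
  rw [PowerSeries.isUnit_iff_constantCoeff, constantCoeff_taylorQ]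

omit [IsAlgClosed (kA A)] in
/-- `ord_{P₀} τ > 0`. -/
theorem ord_tau_pos : 0 < Z.P₀.ord ((tauB T c : ↥T.S0.B) : F) := by
  have h := (T.S0.ev_eq_zero_iff Z.P₀ Z.hP (tauB T c)).mp Z.hτ
  rcases h with h | h
  · exfalso
    exact tauC_ne_zero T Q c Z.good (Subtype.ext h)
  · exact h

include Z hxt in
/-- **Krull**: an element of `CQ` divisible by all powers of `τ` vanishes. -/
theorem eq_zero_of_forall_pow_dvd (f : ↥(CQ T Q)) (hf : ∀ n : ℕ, tauC T Q c ^ n ∣ f) : f = 0 := by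
  by_contra hf0
  have hfF : (f : F) ≠ 0 := fun h => hf0 (Subtype.ext h)
  have hτF : ((tauB T c : ↥T.S0.B) : F) ≠ 0 := fun h =>
    tauC_ne_zero T Q c Z.good (Subtype.ext h)
  have hpos := Z.ord_tau_pos
  have hnn := ord_nonneg_of_mem_CQ hxt T Q Z.P₀ Z.hQ Z.hP f.2
  obtain ⟨n, hn⟩ : ∃ n : ℕ, n = (Z.P₀.ord (f : F)).toNat + 1 := ⟨_, rfl⟩
  obtain ⟨g, hg⟩ := hf n
  have hfe : (f : F) = ((tauB T c : ↥T.S0.B) : F) ^ n * (g : F) := by
    have := congrArg Subtype.val hg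
    rwa [Subring.coe_mul, SubmonoidClass.coe_pow, coe_tauC] at this
  have hgF : (g : F) ≠ 0 := by
    intro h0
    apply hfF
    rw [hfe, h0, mul_zero]
  have hgnn := ord_nonneg_of_mem_CQ hxt T Q Z.P₀ Z.hQ Z.hP g.2
  have h1 : Z.P₀.ord (f : F) =
      (n : ℤ) * Z.P₀.ord ((tauB T c : ↥T.S0.B) : F) + Z.P₀.ord (g : F) := by
    conv_lhs => rw [hfe]
    rw [Place.ord_mul Z.P₀ (pow_ne_zero _ hτF) hgF, ← zpow_natCast, Place.ord_zpow]
  have h2 : (n : ℤ) ≤ (n : ℤ) * Z.P₀.ord ((tauB T c : ↥T.S0.B) : F) := by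
    have h3 : (1 : ℤ) ≤ Z.P₀.ord ((tauB T c : ↥T.S0.B) : F) := hpos
    have h4 : (0 : ℤ) ≤ (n : ℤ) := Int.natCast_nonneg n
    nlinarith
  have h3 : ((Z.P₀.ord (f : F)).toNat : ℤ) = Z.P₀.ord (f : F) := Int.toNat_of_nonneg hnn
  have h4 : (n : ℤ) = Z.P₀.ord (f : F) + 1 := by rw [hn]; push_cast; rw [h3]
  omega

theorem taylorQ_injective : Function.Injective (Z.taylorQ hxt) := by
  letI := algCQ T Q
  exact taylor_injective (Z.secDatum hxt) (eq_zero_of_forall_pow_dvd hxt Z)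

/-- **Evaluation of the Taylor expansion at a place of the disc.** -/
theorem eval_congr (P : Place L F) (hQ : T.r P = Q) (hP : T.S0.InChart P) (N : ℕ)
    (f : ↥(CQ T Q)) :
    letI := algCQ T Q
    evCQ hxt T Q P hQ hP f -
        ∑ n ∈ Finset.range N, coeff n (Z.taylorQ hxt f) * evCQ hxt T Q P hQ hP (tauC T Q c) ^ n =
      evCQ hxt T Q P hQ hP (tauC T Q c) ^ N *
        evCQ hxt T Q P hQ hP ((shift (Z.secDatum hxt))^[N] f) := by
  letI := algCQ T Q
  exact TaylorSec3.eval_congr (Z.secDatum hxt) (evAlgCQ hxt T Q P hQ hP) N f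

/-- the same as a divisibility in `A`. -/
theorem pow_dvd_eval_sub (P : Place L F) (hQ : T.r P = Q) (hP : T.S0.InChart P) (N : ℕ)
    (f : ↥(CQ T Q)) :
    evCQ hxt T Q P hQ hP (tauC T Q c) ^ N ∣ evCQ hxt T Q P hQ hP f -
      ∑ n ∈ Finset.range N, coeff n (Z.taylorQ hxt f) * evCQ hxt T Q P hQ hP (tauC T Q c) ^ n :=
  ⟨_, Z.eval_congr hxt P hQ hP N f⟩

end ZeroPt

include hxt in
/-- on the disc of a GOOD `Q`, `τ` takes its values in `𝔪_A`. -/
theorem tau_ev_mem (hgood : Good T Q c) (P : Place L F) (hQ : T.r P = Q) (hP : T.S0.InChart P) :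
    T.S0.ev P hP (tauB T c) ∈ IsLocalRing.maximalIdeal ↥A := by
  rw [← IsLocalRing.residue_eq_zero_iff]
  by_contra hne
  have hχ : T.S0.chi P hP (tauB T c) ≠ 0 := hne
  obtain ⟨-, h0⟩ := (chi_ne_zero_iff hxt T Q P hQ hP (tauB T c)).mp hχ
  unfold Good at hgood
  rw [h0] at hgood
  exact zero_ne_one hgood

end Fermat.Agent.ES.V19.DiscTaylor3
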