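/-
Programme V (S19), chapter (B3) "reduction of places", brick (N4) (helper3), part 2:
**the section of a rational section, and Laurent expansions.**

* `evOfRatSec` : for `p : C` a regular element which is a rational section in the sense of
  `ES/RED/SpecLocal22.RatSec R p` (`R → C ⧸ (p)` onto) with `R ∩ (p) = 0`, the section
  `ev : C →ₐ[R] R` with `p ∣ c - ev c`; `secDatum_of_ratSec : SecDatum (evOfRatSec …) p`, so that
  `TaylorSec3.taylor` applies to the prime elements `p_P = τ - ev_P τ` of `S19_ROUTE23` (B3).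
* `laurent h : S →+* R((X))` for `S = C[1/τ]` (any `IsLocalization.Away τ S`), extending
  `taylor h`; `laurent_algebraMap`, `laurent_mul_pow` (`s * τ^n = c ⇒ laurent s * X^n = taylor c`),
  `laurent_injective` (under Krull), `exists_mul_pow_eq_of_laurent` (pole order: if
  `X^n * laurent s` is a power series then `τ^n * s ∈ C`).
-/
import Mathlib
import Fermat.Agent.ES.RED.SpecLocal22
import Fermat.Agent.ES.V19.TaylorSec3

set_option autoImplicit false

noncomputable section

namespace Fermat.Agent.ES.V19.LaurentSec3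

open PowerSeries Fermat.Agent.ES.V19.TaylorSec3 Fermat.Agent.ES.RED.SpecLocal22

/-! ### the section attached to a rational section -/

section RatSec

variable {R C : Type*} [CommRing R] [CommRing C] [Algebra R C] {p : C}

/-- the value `r` with `p ∣ c - r`. -/
def valOfRatSec (hp : RatSec R p) (c : C) : R := (hp c).choose

theorem dvd_sub_valOfRatSec (hp : RatSec R p) (c : C) :
    p ∣ c - algebraMap R C (valOfRatSec hp c) := (hp c).choose_spec

theorem valOfRatSec_eq (hp : RatSec R p) (hinj : ∀ r : R, p ∣ algebraMap R C r → r = 0)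
    {c : C} {r : R} (h : p ∣ c - algebraMap R C r) : valOfRatSec hp c = r := by
  have h1 : p ∣ algebraMap R C (valOfRatSec hp c - r) := by
    have := dvd_sub h (dvd_sub_valOfRatSec hp c)
    rw [map_sub]
    convert this using 1
    ring
  exact sub_eq_zero.mp (hinj _ h1)

/-- **The section `C →ₐ[R] R` of a rational section `p`** (evaluation at the point `p = 0`). -/
def evOfRatSec (hp : RatSec R p) (hinj : ∀ r : R, p ∣ algebraMap R C r → r = 0) : C →ₐ[R] R where
  toFun := valOfRatSec hp
  map_one' := valOfRatSec_eq hp hinj (by rw [map_one, sub_self]; exact dvd_zero p)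
  map_mul' c d := by
    refine valOfRatSec_eq hp hinj ?_
    have hc := dvd_sub_valOfRatSec hp c
    have hd := dvd_sub_valOfRatSec hp d
    have e : c * d - algebraMap R C (valOfRatSec hp c * valOfRatSec hp d) =
        (c - algebraMap R C (valOfRatSec hp c)) * d +
          algebraMap R C (valOfRatSec hp c) * (d - algebraMap R C (valOfRatSec hp d)) := by
      rw [map_mul]; ring
    rw [e]
    exact dvd_add (Dvd.dvd.mul_right hc d) (Dvd.dvd.mul_left hd _)
  map_zero' := valOfRatSec_eq hp hinj (by rw [map_zero, sub_self]; exact dvd_zero p)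
  map_add' c d := by
    refine valOfRatSec_eq hp hinj ?_
    have hc := dvd_sub_valOfRatSec hp c
    have hd := dvd_sub_valOfRatSec hp d
    have e : c + d - algebraMap R C (valOfRatSec hp c + valOfRatSec hp d) =
        (c - algebraMap R C (valOfRatSec hp c)) + (d - algebraMap R C (valOfRatSec hp d)) := by
      rw [map_add]; ring
    rw [e]
    exact dvd_add hc hd
  commutes' r := by
    refine valOfRatSec_eq hp hinj ?_
    rw [Algebra.algebraMap_self_apply, sub_self]
    exact dvd_zero p

theorem dvd_sub_evOfRatSec (hp : RatSec R p) (hinj : ∀ r : R, p ∣ algebraMap R C r → r = 0)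
    (c : C) : p ∣ c - algebraMap R C (evOfRatSec hp hinj c) := dvd_sub_valOfRatSec hp c

theorem evOfRatSec_eq (hp : RatSec R p) (hinj : ∀ r : R, p ∣ algebraMap R C r → r = 0)
    {c : C} {r : R} (h : p ∣ c - algebraMap R C r) : evOfRatSec hp hinj c = r :=
  valOfRatSec_eq hp hinj h

theorem evOfRatSec_eq_zero_iff (hp : RatSec R p) (hinj : ∀ r : R, p ∣ algebraMap R C r → r = 0)
    (c : C) : evOfRatSec hp hinj c = 0 ↔ p ∣ c := by
  constructor
  · intro h
    have := dvd_sub_evOfRatSec hp hinj c
    rwa [h, map_zero, sub_zero] at this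
  · intro h
    exact evOfRatSec_eq hp hinj (by rwa [map_zero, sub_zero])

/-- **`SecDatum` for a rational section.** -/
theorem secDatum_of_ratSec (hp : RatSec R p) (hinj : ∀ r : R, p ∣ algebraMap R C r → r = 0)
    (hreg : ∀ c : C, p * c = 0 → c = 0) : SecDatum (evOfRatSec hp hinj) p where
  ev_tau := (evOfRatSec_eq_zero_iff hp hinj p).mpr dvd_rfl
  dvd_of_ev c hc := (evOfRatSec_eq_zero_iff hp hinj c).mp hc
  reg := hreg

/-- in a domain. -/
theorem secDatum_of_ratSec_of_isDomain [IsDomain C] (hp : RatSec R p)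
    (hinj : ∀ r : R, p ∣ algebraMap R C r → r = 0) (hp0 : p ≠ 0) :
    SecDatum (evOfRatSec hp hinj) p :=
  secDatum_of_ratSec hp hinj fun _ hc => (mul_eq_zero.mp hc).resolve_left hp0

end RatSec

/-! ### Laurent expansions on `C[1/τ]` -/

section Laurent

variable {R C : Type*} [CommRing R] [CommRing C] [Algebra R C] {ev : C →ₐ[R] R} {τ : C}
  (S : Type*) [CommRing S] [Algebra C S] [IsLocalization.Away τ S]

theorem powers_le_comap (h : SecDatum ev τ) :
    Submonoid.powers τ ≤ Submonoid.comap (taylor h : C →+* R⟦X⟧) (Submonoid.powers (X : R⟦X⟧)) := by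
  rintro _ ⟨n, rfl⟩
  refine ⟨n, ?_⟩
  show X ^ n = taylor h (τ ^ n)
  rw [map_pow, taylor_tau]

/-- **The Laurent expansion** `C[1/τ] →+* R((X))` extending `taylor h`. -/
def laurent (h : SecDatum ev τ) : S →+* LaurentSeries R :=
  IsLocalization.map (M := Submonoid.powers τ) (T := Submonoid.powers (X : R⟦X⟧))
    (LaurentSeries R) (taylor h : C →+* R⟦X⟧) (powers_le_comap h)

theorem laurent_algebraMap (h : SecDatum ev τ) (c : C) :
    laurent S h (algebraMap C S c) = HahnSeries.ofPowerSeries ℤ R (taylor h c) := by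
  rw [laurent, IsLocalization.map_eq, LaurentSeries.coe_algebraMap]
  rfl

theorem laurent_tau (h : SecDatum ev τ) :
    laurent S h (algebraMap C S τ) = HahnSeries.single (1 : ℤ) (1 : R) := by
  rw [laurent_algebraMap, taylor_tau, HahnSeries.ofPowerSeries_X]

/-- `s * τ^n = c ⇒ laurent s * X^n = taylor c`. -/
theorem laurent_mul_pow (h : SecDatum ev τ) {s : S} {n : ℕ} {c : C}
    (e : s * algebraMap C S τ ^ n = algebraMap C S c) :
    laurent S h s * HahnSeries.ofPowerSeries ℤ R (X ^ n) =
      HahnSeries.ofPowerSeries ℤ R (taylor h c) := by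
  rw [← laurent_algebraMap S h c, ← e, map_mul, map_pow (laurent S h), laurent_tau, map_pow,
    HahnSeries.ofPowerSeries_X]

theorem exists_mul_pow_eq (s : S) : ∃ (n : ℕ) (c : C), s * algebraMap C S τ ^ n = algebraMap C S c := by
  obtain ⟨⟨c, ⟨_, n, rfl⟩⟩, e⟩ := IsLocalization.surj (Submonoid.powers τ) s
  exact ⟨n, c, by rw [← map_pow]; exact e⟩

theorem isUnit_algebraMap_tau : IsUnit (algebraMap C S τ) :=
  IsLocalization.map_units S (⟨τ, Submonoid.mem_powers τ⟩ : Submonoid.powers τ)

theorem ofPowerSeries_X_pow_ne (n : ℕ) (f : LaurentSeries R)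
    (hf : f * HahnSeries.ofPowerSeries ℤ R (X ^ n) = 0) : f = 0 := by
  have hu : IsUnit (HahnSeries.ofPowerSeries ℤ R ((X : R⟦X⟧) ^ n)) := by
    rw [← LaurentSeries.coe_algebraMap]
    exact IsLocalization.map_units (LaurentSeries R)
      (⟨X ^ n, n, rfl⟩ : Submonoid.powers (X : R⟦X⟧))
  exact (hu.mul_left_eq_zero).mp hf

/-- **Injectivity of the Laurent expansion** when the Taylor expansion is injective. -/
theorem laurent_injective (h : SecDatum ev τ) (hinj : Function.Injective (taylor h)) :
    Function.Injective (laurent S h) := by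
  rw [injective_iff_map_eq_zero]
  intro s hs
  obtain ⟨n, c, e⟩ := exists_mul_pow_eq (τ := τ) S s
  have h1 := laurent_mul_pow S h e
  rw [hs, zero_mul] at h1
  have h2 : taylor h c = 0 := HahnSeries.ofPowerSeries_injective (by rw [← h1, map_zero])
  have h3 : c = 0 := hinj (by rw [h2, map_zero])
  rw [h3, map_zero] at e
  exact ((isUnit_algebraMap_tau (τ := τ) S).pow n).mul_left_eq_zero.mp e

/-- **Pole order**: if `laurent s * X^n` is a power series, then `s * τ^n ∈ C`. -/
theorem exists_mul_pow_eq_of_laurent (h : SecDatum ev τ) (s : S) (n : ℕ) (g : R⟦X⟧)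
    (hg : laurent S h s * HahnSeries.ofPowerSeries ℤ R (X ^ n) = HahnSeries.ofPowerSeries ℤ R g) :
    ∃ c : C, s * algebraMap C S τ ^ n = algebraMap C S c := by
  obtain ⟨m, c, e⟩ := exists_mul_pow_eq (τ := τ) S s
  by_cases hmn : m ≤ n
  · refine ⟨c * τ ^ (n - m), ?_⟩
    rw [map_mul, map_pow, ← e, mul_assoc, ← pow_add, Nat.add_sub_cancel' hmn]
  · push Not at hmn
    have h1 := laurent_mul_pow S h e
    -- `taylor c = g * X^(m-n)`
    have h2 : HahnSeries.ofPowerSeries ℤ R (taylor h c) =
        HahnSeries.ofPowerSeries ℤ R (g * X ^ (m - n)) := by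
      rw [← h1, map_mul (HahnSeries.ofPowerSeries ℤ R) g, ← hg, mul_assoc, ← map_mul, ← pow_add,
        Nat.add_sub_cancel' hmn.le]
    have h3 : taylor h c = g * X ^ (m - n) := HahnSeries.ofPowerSeries_injective h2
    have h4 : τ ^ (m - n) ∣ c := by
      rw [← X_pow_dvd_taylor_iff h, h3]
      exact dvd_mul_left _ _
    obtain ⟨c', rfl⟩ := h4
    refine ⟨c', ?_⟩
    have hu := (isUnit_algebraMap_tau (τ := τ) S).pow (m - n)
    apply hu.mul_left_injective
    show s * algebraMap C S τ ^ n * algebraMap C S τ ^ (m - n) =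
      algebraMap C S c' * algebraMap C S τ ^ (m - n)
    rw [mul_assoc, ← pow_add, Nat.add_sub_cancel' hmn.le, e, map_mul, map_pow, mul_comm]

end Laurent

end Fermat.Agent.ES.V19.LaurentSec3
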