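/-
Programme V (S19), chapter (B3) "reduction of places", brick (N4) (helper3), part 3:
**order of the Taylor expansion, and compatibility with reduction.**

`h : SecDatum ev τ` as in `TaylorSec3` (`C` an `R`-algebra, `ev : C →ₐ[R] R`, `ker ev = (τ)`).

* `ratSec_of_secDatum`, `inj_of_secDatum`, `evOfRatSec_eq_ev` : a `SecDatum` is the same thing as
  a regular rational section in the sense of `ES/RED/SpecLocal22.RatSec`;
* `le_order_taylor_iff` : `n ≤ order (taylor c) ↔ τ^n ∣ c`;
  `order_taylor_eq_addVal` : in a discrete valuation ring `C` with uniformiser `τ`,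
  `order (taylor c) = addVal C c` (the special fibre: `ord_x̄ f̄` is the `X`-adic order);
* REDUCTION.  `φ : C →+* C'` onto, `ψ : R →+* R'`, `R'` a field, `C'` a domain which is an
  `R'`-algebra, `φ ∘ algebraMap = algebraMap ∘ ψ`, `φ τ` a nonzero non-unit
  (`C' = C ⧸ (π)` the local ring of the special fibre at `x̄`, `R' = k`):
  `secDatum_map : SecDatum (evMap …) (φ τ)` and **`taylor_map_red`**:
  `taylor (secDatum_map …) (φ c) = PowerSeries.map ψ (taylor h c)`;
  `map_taylor_eq_zero_iff` : `map ψ (taylor c) = 0 ↔ φ c = 0` (when `C'` is noetherian local).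
-/
import Mathlib
import Fermat.Agent.ES.V19.LaurentSec3

set_option autoImplicit false

noncomputable section

namespace Fermat.Agent.ES.V19.TaylorPlace3

open PowerSeries Fermat.Agent.ES.V19.TaylorSec3 Fermat.Agent.ES.V19.LaurentSec3
  Fermat.Agent.ES.RED.SpecLocal22

section Basic

variable {R C : Type*} [CommRing R] [CommRing C] [Algebra R C] {ev : C →ₐ[R] R} {τ : C}

/-- a `SecDatum` is a rational section. -/
theorem ratSec_of_secDatum (h : SecDatum ev τ) : RatSec R τ := fun c =>
  ⟨ev c, ⟨shift h c, (tau_mul_shift h c).symm⟩⟩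

theorem inj_of_secDatum (h : SecDatum ev τ) (r : R) (hr : τ ∣ algebraMap R C r) : r = 0 := by
  obtain ⟨d, hd⟩ := hr
  have := congrArg ev hd
  rwa [AlgHom.commutes, Algebra.algebraMap_self_apply, map_mul, h.ev_tau, zero_mul] at this

theorem evOfRatSec_eq_ev (h : SecDatum ev τ) (c : C) :
    evOfRatSec (ratSec_of_secDatum h) (inj_of_secDatum h) c = ev c :=
  evOfRatSec_eq _ _ ⟨shift h c, (tau_mul_shift h c).symm⟩

/-- `n ≤ order (taylor c) ↔ τ^n ∣ c`. -/
theorem le_order_taylor_iff (h : SecDatum ev τ) (n : ℕ) (c : C) :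
    (n : ℕ∞) ≤ (taylor h c).order ↔ τ ^ n ∣ c := by
  rw [← X_pow_dvd_taylor_iff h, X_pow_dvd_iff]
  constructor
  · intro hle m hm
    exact coeff_of_lt_order m (lt_of_lt_of_le (by exact_mod_cast hm) hle)
  · intro hc
    exact le_order _ _ fun i hi => hc i (by exact_mod_cast hi)

/-- in a discrete valuation ring with uniformiser `τ`, the `X`-adic order of the Taylor expansion
is the valuation. -/
theorem order_taylor_eq_addVal [IsDomain C] [IsDiscreteValuationRing C] (h : SecDatum ev τ)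
    (hτ : Irreducible τ) (c : C) :
    (taylor h c).order = IsDiscreteValuationRing.addVal C c := by
  by_cases hc : c = 0
  · rw [hc, map_zero, order_zero, IsDiscreteValuationRing.addVal_zero]
  obtain ⟨n, u, hu⟩ := IsDiscreteValuationRing.eq_unit_mul_pow_irreducible hc hτ
  have hval : IsDiscreteValuationRing.addVal C c = n := by
    rw [hu]
    exact IsDiscreteValuationRing.addVal_def' u hτ n
  rw [hval]
  apply le_antisymm
  · by_contra hlt
    push Not at hlt
    have h1 : ((n + 1 : ℕ) : ℕ∞) ≤ (taylor h c).order := by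
      rw [Nat.cast_add, Nat.cast_one]
      exact Order.add_one_le_of_lt hlt
    rw [le_order_taylor_iff, hu] at h1
    obtain ⟨d, hd⟩ := h1
    have hτn : τ ^ n ≠ 0 := pow_ne_zero n hτ.ne_zero
    have h2 : (u : C) = τ * d := by
      apply mul_right_cancel₀ hτn
      rw [hd, pow_succ]; ring
    exact hτ.not_isUnit (isUnit_of_dvd_unit ⟨d, h2⟩ u.isUnit)
  · rw [le_order_taylor_iff, hu]
    exact dvd_mul_left _ _

end Basic

/-! ### reduction -/

section Reduction

variable {R C R' C' : Type*} [CommRing R] [CommRing C] [Algebra R C] [Field R'] [CommRing C']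
  [IsDomain C'] [Algebra R' C'] {ev : C →ₐ[R] R} {τ : C}
  (φ : C →+* C') (ψ : R →+* R')

omit [IsDomain C'] in
theorem ratSec_map (hφ : Function.Surjective φ)
    (hφR : ∀ r : R, φ (algebraMap R C r) = algebraMap R' C' (ψ r)) (h : SecDatum ev τ) :
    RatSec R' (φ τ) := by
  intro c'
  obtain ⟨c, rfl⟩ := hφ c'
  refine ⟨ψ (ev c), ?_⟩
  rw [← hφR, ← map_sub, ← tau_mul_shift h c, map_mul]
  exact dvd_mul_right _ _

omit [IsDomain C'] in
theorem inj_map (hτ' : ¬ IsUnit (φ τ)) (r' : R') (hr : φ τ ∣ algebraMap R' C' r') : r' = 0 := by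
  by_contra h0
  exact hτ' (isUnit_of_dvd_unit hr ((IsUnit.mk0 r' h0).map _))

/-- the induced section of the reduction. -/
def evMap (hφ : Function.Surjective φ)
    (hφR : ∀ r : R, φ (algebraMap R C r) = algebraMap R' C' (ψ r)) (h : SecDatum ev τ)
    (hτ' : ¬ IsUnit (φ τ)) : C' →ₐ[R'] R' :=
  evOfRatSec (ratSec_map φ ψ hφ hφR h) (inj_map φ hτ')

omit [IsDomain C'] in
theorem evMap_apply (hφ : Function.Surjective φ)
    (hφR : ∀ r : R, φ (algebraMap R C r) = algebraMap R' C' (ψ r)) (h : SecDatum ev τ)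
    (hτ' : ¬ IsUnit (φ τ)) (c : C) : evMap φ ψ hφ hφR h hτ' (φ c) = ψ (ev c) := by
  refine evOfRatSec_eq _ _ ?_
  rw [← hφR, ← map_sub, ← tau_mul_shift h c, map_mul]
  exact dvd_mul_right _ _

/-- **the `SecDatum` of the reduction.** -/
theorem secDatum_map (hφ : Function.Surjective φ)
    (hφR : ∀ r : R, φ (algebraMap R C r) = algebraMap R' C' (ψ r)) (h : SecDatum ev τ)
    (hτ' : ¬ IsUnit (φ τ)) (hτ0 : φ τ ≠ 0) : SecDatum (evMap φ ψ hφ hφR h hτ') (φ τ) :=
  secDatum_of_ratSec_of_isDomain _ _ hτ0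

/-- **Compatibility of the Taylor expansion with reduction.** -/
theorem taylor_map_red (hφ : Function.Surjective φ)
    (hφR : ∀ r : R, φ (algebraMap R C r) = algebraMap R' C' (ψ r)) (h : SecDatum ev τ)
    (hτ' : ¬ IsUnit (φ τ)) (hτ0 : φ τ ≠ 0) (c : C) :
    taylor (secDatum_map φ ψ hφ hφR h hτ' hτ0) (φ c) = PowerSeries.map ψ (taylor h c) :=
  taylor_map h (secDatum_map φ ψ hφ hφR h hτ' hτ0) φ ψ rfl hφR (evMap_apply φ ψ hφ hφR h hτ') c

/-- the reduction of the Taylor expansion vanishes exactly on `ker φ`. -/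
theorem map_taylor_eq_zero_iff [IsNoetherianRing C'] [IsLocalRing C']
    (hφ : Function.Surjective φ)
    (hφR : ∀ r : R, φ (algebraMap R C r) = algebraMap R' C' (ψ r)) (h : SecDatum ev τ)
    (hτ' : ¬ IsUnit (φ τ)) (hτ0 : φ τ ≠ 0) (c : C) :
    PowerSeries.map ψ (taylor h c) = 0 ↔ φ c = 0 := by
  rw [← taylor_map_red φ ψ hφ hφR h hτ' hτ0]
  constructor
  · intro h0
    exact taylor_injective _ (krull_of_isLocalRing hτ') (by rw [h0, map_zero])
  · intro h0
    rw [h0, map_zero]

end Reduction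

end Fermat.Agent.ES.V19.TaylorPlace3
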