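/-
Programme V (S19), chapter (B3) "reduction of places" — helper3:
**DERIVED API of the exit literal `DiscIface3`, part 2: REDUCTION of the local ring `CQ T Q`.**

Vocabulary of RULING 3: "`A`-integral" = `GaussFrac15.IsGI`, "Gauss unit" = `IsGU`, "`f̄`" = `rho f`.

* PURE GAUSS ALGEBRA (any `G ≤ F`, `red : G →+* Ft`):
  `mem_gaussInt_of_mul_mem` (**Gauss multiplicativity**: `f` Gauss-integral with `rho f ≠ 0`,
  `f * h` Gauss-integral ⇒ `h` Gauss-integral), `rho_of_mul` (`rho f * rho h = rho (f h)`);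
  TRANSFER along `B ≤ G` with `red|B = redB`: `isRedOf_of_le`, `isGI_of_le`, `isGU_of_le`,
  `gaussInt_mono`, `rho_of_le`.
* THE LOCAL RING.  `CQ_le_gaussInt : CQ T Q ≤ gaussInt B red`; `rhoQ T Q : ↥(CQ T Q) →+* Ft`
  (`= rho` on `CQ`), `isRedOf_rhoQ`, `rhoQ_mul_eq`, `rhoQ_ofB`, `rhoQ_constCQ`, `rhoQ_tauC`;
  transfer to any `(G, gred)` containing the chart ring: `rho_eq_rhoQ`.
* For a `Z : ZeroPt T Q c` (`DiscTaylor3`): `Z.rhoO : ↥(CQ T Q) →+* ↥O_Q` (onto: `rhoO_surjective`),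
  **(R1) on the local ring** `valueHom_rhoO : (rhoO f)(Q) = res (f(P))` for every `P` of the disc;
  `Z.secDatumQ : SecDatum (valueHom hxt Q) τ̄` (the Taylor datum of the special fibre at `Q`),
  **`Z.map_taylorQ : map res (taylorQ f) = taylor secDatumQ (rhoO f)`** (the reduction of the
  Taylor expansion is the Taylor expansion of the reduction), `le_order_taylorBar_iff`,
  **`order_map_taylorQ`** (`order (map res (taylorQ f)) = ord_Q (rhoQ f)`),
  `map_taylorQ_eq_zero_iff` (`= 0 ↔ rhoQ f = 0`).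
* GAUSS UNITS `τ - s` (`s ∈ 𝔪_A`): `tauSub_mem_CQ`, `rhoQ_tauSub` (`= τ̄`), `isGU_tauSub`,
  `isRedOf_tauSub`.
-/
import Mathlib
import Fermat.Agent.ES.V19.DiscTaylor3
import Fermat.Agent.ES.V19.TaylorPlace3
import Fermat.Agent.ES.V19.GaussFrac15

set_option autoImplicit false
set_option linter.style.haveILetI false

noncomputable section

open AlgebraicCurve

namespace Fermat.Agent.ES.V19.DiscRed3

open PowerSeries Fermat.Agent.X0.FF Fermat.Agent.ES.RED.PlaceValue13 Fermat.Agent.ES.RED.Contract8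
  Fermat.Agent.ES.RED.TwoCharts8 Fermat.Agent.ES.V19.DiscIface3 Fermat.Agent.ES.V19.DiscLocal3
  Fermat.Agent.ES.V19.DiscTaylor3 Fermat.Agent.ES.V19.TaylorSec3 Fermat.Agent.ES.V19.TaylorPlace3
  Fermat.Agent.ES.V19.GaussFrac15

/-! ### pure Gauss algebra -/

section Gauss

variable {F Ft : Type*} [Field F] [Field Ft] {G : Subring F} {red : ↥G →+* Ft}

/-- **Gauss multiplicativity**: if `f` is Gauss-integral with nonzero reduction and `f * h` is
Gauss-integral, then `h` is Gauss-integral. -/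
theorem mem_gaussInt_of_mul_mem (f : ↥(gaussInt G red)) (hf : rho G red f ≠ 0) {h : F}
    (hfh : (f : F) * h ∈ gaussInt G red) : h ∈ gaussInt G red := by
  have hu : IsGU G red (f : F) := (isGU_iff_rho_ne_zero f).mpr hf
  have hinv : (f : F)⁻¹ ∈ gaussInt G red := inv_mem_gaussInt_of_isGU hu
  have e : h = (f : F)⁻¹ * ((f : F) * h) := by
    rw [← mul_assoc, inv_mul_cancel₀ hu.ne_zero, one_mul]
  rw [e]
  exact (gaussInt G red).mul_mem hinv hfh

/-- the reduction in Gauss multiplicativity: `rho f * rho h = rho (f * h)`. -/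
theorem rho_of_mul (f : ↥(gaussInt G red)) {h : F} (hh : h ∈ gaussInt G red)
    (hfh : (f : F) * h ∈ gaussInt G red) :
    rho G red f * rho G red ⟨h, hh⟩ = rho G red ⟨(f : F) * h, hfh⟩ := by
  rw [← map_mul]
  rfl

/-- a Gauss-integral function with Gauss-integral inverse has nonzero reduction. -/
theorem rho_ne_zero_of_inv_mem (f : ↥(gaussInt G red)) (hinv : (f : F)⁻¹ ∈ gaussInt G red)
    (hf0 : (f : F) ≠ 0) : rho G red f ≠ 0 := by
  intro h0
  have h1 : f * ⟨(f : F)⁻¹, hinv⟩ = 1 := Subtype.ext (mul_inv_cancel₀ hf0)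
  have h2 := congrArg (rho G red) h1
  rw [map_mul, h0, zero_mul, map_one] at h2
  exact zero_ne_one h2

variable {B : Subring F} {redB : ↥B →+* Ft} (hBG : B ≤ G)
  (hred : ∀ b : ↥B, red ⟨(b : F), hBG b.2⟩ = redB b)

include hred in
/-- transfer of reductions along `B ≤ G`. -/
theorem isRedOf_of_le {f : F} {φ : Ft} (h : IsRedOf B redB f φ) : IsRedOf G red f φ := by
  obtain ⟨a, b, hb, hab, hφ⟩ := h
  refine ⟨⟨(a : F), hBG a.2⟩, ⟨(b : F), hBG b.2⟩, ?_, hab, ?_⟩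
  · rw [hred]; exact hb
  · rw [hred, hred]; exact hφ

include hred in
theorem isGI_of_le {f : F} (h : IsGI B redB f) : IsGI G red f := by
  obtain ⟨φ, hφ⟩ := h.exists_isRedOf
  exact (isRedOf_of_le hBG hred hφ).isGI

include hred in
theorem isGU_of_le {f : F} (h : IsGU B redB f) : IsGU G red f := by
  obtain ⟨φ, hφ0, hφ⟩ := h.exists_isRedOf
  exact (isRedOf_of_le hBG hred hφ).isGU hφ0

include hred in
theorem gaussInt_mono : gaussInt B redB ≤ gaussInt G red := fun _ hf => isGI_of_le hBG hred hf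

/-- the reduction does not change along `B ≤ G`. -/
theorem rho_of_le (f : ↥(gaussInt B redB)) :
    rho G red ⟨(f : F), gaussInt_mono hBG hred f.2⟩ = rho B redB f :=
  rho_eq_of_isRedOf (isRedOf_of_le hBG hred (isRedOf_rho B redB f))

end Gauss

/-! ### the local ring `CQ T Q` inside the Gauss valuation ring of the chart -/

variable {L : Type*} [Field L] [IsAlgClosed L] {A : ValuationSubring L}
variable {F : Type*} [Field F] [Algebra L F] {x : F} {hx : IsGen L x}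
variable {Ft : Type*} [Field Ft] [Algebra (kA A) Ft]

section Local

variable (T : TwoCharts A hx Ft) (Q : Place (kA A) Ft) (c : ↥A)

/-- the local ring `CQ T Q` consists of Gauss-integral functions (of the chart ring). -/
theorem CQ_le_gaussInt : CQ T Q ≤ gaussInt T.S0.B T.S0.red := by
  rintro f ⟨a, b, hb, -, e⟩
  exact ⟨a, b, hb, e⟩

/-- **the reduction of the local ring**, `f ↦ f̄` (the restriction of `GaussFrac15.rho`). -/
def rhoQ : ↥(CQ T Q) →+* Ft :=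
  (rho T.S0.B T.S0.red).comp (Subring.inclusion (CQ_le_gaussInt T Q))

theorem rhoQ_apply (f : ↥(CQ T Q)) :
    rhoQ T Q f = rho T.S0.B T.S0.red ⟨(f : F), CQ_le_gaussInt T Q f.2⟩ := rfl

theorem isRedOf_rhoQ (f : ↥(CQ T Q)) : IsRedOf T.S0.B T.S0.red (f : F) (rhoQ T Q f) :=
  isRedOf_rho T.S0.B T.S0.red ⟨(f : F), CQ_le_gaussInt T Q f.2⟩

theorem rhoQ_ofB (b : ↥T.S0.B) : rhoQ T Q (ofB T Q b) = T.S0.red b :=
  rho_of_mem b

/-- `f * b = a ⇒ f̄ * b̄ = ā`. -/
theorem rhoQ_mul_eq (f : ↥(CQ T Q)) {a b : ↥T.S0.B} (e : (f : F) * (b : F) = (a : F)) :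
    rhoQ T Q f * T.S0.red b = T.S0.red a := by
  have h : f * ofB T Q b = ofB T Q a := Subtype.ext e
  have := congrArg (rhoQ T Q) h
  rwa [map_mul, rhoQ_ofB, rhoQ_ofB] at this

theorem rhoQ_constCQ (a : ↥A) :
    rhoQ T Q (constCQ T Q a) = algebraMap (kA A) Ft (resA A a) := by
  show rhoQ T Q (ofB T Q (T.S0.const a)) = _
  rw [rhoQ_ofB, ChartSpec.red_const']

theorem rhoQ_tauC : rhoQ T Q (tauC T Q c) = T.S0.red (tauB T c) := rhoQ_ofB T Q _

/-- the reduction of `CQ T Q` computed in any `(G, gred)` containing the chart ring. -/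
theorem rho_eq_rhoQ {G : Subring F} {gred : ↥G →+* Ft} (hBG : T.S0.B ≤ G)
    (hred : ∀ b : ↥T.S0.B, gred ⟨(b : F), hBG b.2⟩ = T.S0.red b) (f : ↥(CQ T Q)) :
    rho G gred ⟨(f : F), gaussInt_mono hBG hred (CQ_le_gaussInt T Q f.2)⟩ = rhoQ T Q f :=
  rho_of_le hBG hred ⟨(f : F), CQ_le_gaussInt T Q f.2⟩

/-! ### the Gauss units `τ - s`, `s ∈ 𝔪_A` -/

theorem tauSub_mem_CQ (s : ↥A) : tauSub T c s ∈ CQ T Q := by
  rw [tauSub_eq]
  exact coe_mem_CQ T Q _

/-- the reduction of `τ - s` is `τ̄` for `s ∈ 𝔪_A`. -/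
theorem red_tauB_sub (s : ↥A) (hs : s ∈ IsLocalRing.maximalIdeal ↥A) :
    T.S0.red (tauB T c - T.S0.const s) = T.S0.red (tauB T c) := by
  rw [map_sub, ChartSpec.red_const', (IsLocalRing.residue_eq_zero_iff s).mpr hs, map_zero,
    sub_zero]

theorem rhoQ_tauSub (s : ↥A) (hs : s ∈ IsLocalRing.maximalIdeal ↥A) :
    rhoQ T Q ⟨tauSub T c s, tauSub_mem_CQ T Q c s⟩ = T.S0.red (tauB T c) := by
  have e : (⟨tauSub T c s, tauSub_mem_CQ T Q c s⟩ : ↥(CQ T Q)) =
      ofB T Q (tauB T c - T.S0.const s) := Subtype.ext (tauSub_eq T c s)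
  rw [e, rhoQ_ofB, red_tauB_sub T c s hs]

/-- `τ̄` is THE reduction of `τ - s` (`s ∈ 𝔪_A`). -/
theorem isRedOf_tauSub (s : ↥A) (hs : s ∈ IsLocalRing.maximalIdeal ↥A) :
    IsRedOf T.S0.B T.S0.red (tauSub T c s) (T.S0.red (tauB T c)) := by
  have := isRedOf_of_mem (G := T.S0.B) (red := T.S0.red) (tauB T c - T.S0.const s)
  rwa [← tauSub_eq, red_tauB_sub T c s hs] at this

/-- **`τ - s` is a Gauss unit** for `s ∈ 𝔪_A` (at a GOOD `(Q, c)`). -/
theorem isGU_tauSub (hgood : Good T Q c) (s : ↥A) (hs : s ∈ IsLocalRing.maximalIdeal ↥A) :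
    IsGU T.S0.B T.S0.red (tauSub T c s) := by
  refine (isRedOf_tauSub T c s hs).isGU ?_
  intro h0
  unfold Good at hgood
  rw [h0, Place.ord_zero] at hgood
  exact zero_ne_one hgood

end Local

/-! ### reduction into the local ring `O_Q` of the special fibre -/

section Disc

variable [IsAlgClosed (kA A)] {xt : Ft} (hxt : IsGen (kA A) xt)
variable (T : TwoCharts A hx Ft) (Q : Place (kA A) Ft) (c : ↥A)

omit [IsAlgClosed (kA A)] in
/-- the reduction of the local ring lands in `O_Q` (as soon as the disc has a point). -/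
theorem rhoQ_mem (P : Place L F) (hQ : T.r P = Q) (hP : T.S0.InChart P) (f : ↥(CQ T Q)) :
    rhoQ T Q f ∈ Q.toValuationSubring := by
  obtain ⟨a, b, hb, hbQ, e⟩ := f.2
  have h1 := rhoQ_mul_eq T Q f e
  have h2 : rhoQ T Q f = T.S0.red a * (T.S0.red b)⁻¹ := by
    rw [← h1, mul_assoc, mul_inv_cancel₀ hb, mul_one]
  rw [h2]
  refine Q.toValuationSubring.mul_mem _ _ (red_mem_of_disc T Q P hQ hP a) ?_
  apply mem_of_ord_nonneg
  rw [Place.ord_inv, hbQ, neg_zero]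

/-- (R1) at `Q`, on chart elements: `b̄(Q) = χ_P b` for every `P` of the disc. -/
theorem valueHom_red (P : Place L F) (hQ : T.r P = Q) (hP : T.S0.InChart P) (b : ↥T.S0.B) :
    valueHom hxt Q ⟨T.S0.red b, red_mem_of_disc T Q P hQ hP b⟩ = T.S0.chi P hP b := by
  have key : ∀ (Q' : Place (kA A) Ft), Q' = rAt T.places0 T.tr0 P hP →
      ∀ h : T.S0.red b ∈ Q'.toValuationSubring,
        valueHom hxt Q' ⟨T.S0.red b, h⟩ = T.S0.chi P hP b := by
    rintro _ rfl h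
    exact valueHom_rAt hxt T.places0 T.tr0 P hP b
  exact key Q (hQ.symm.trans (T.r_eq0 P hP)) _

omit [IsAlgClosed (kA A)] in
/-- `O_Q` is the reduced local ring of the chart at any point of the disc. -/
theorem mem_Q_iff (P : Place L F) (hQ : T.r P = Q) (hP : T.S0.InChart P) (y : Ft) :
    y ∈ Q.toValuationSubring ↔
      ∃ a d : ↥T.S0.B, T.S0.chi P hP d ≠ 0 ∧ y * T.S0.red d = T.S0.red a := by
  have e : Q = rAt T.places0 T.tr0 P hP := hQ.symm.trans (T.r_eq0 P hP)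
  rw [e]
  exact mem_rAt_iff T.places0 T.tr0 P hP y

/-! ### the Taylor datum of the special fibre at `Q`, and the reduction of `taylorQ` -/

variable {T Q c}
variable (Z : ZeroPt T Q c)

/-- **the reduction of the local ring into `O_Q`.** -/
def rhoO : ↥(CQ T Q) →+* ↥Q.toValuationSubring :=
  (rhoQ T Q).codRestrict Q.toValuationSubring.toSubring (rhoQ_mem T Q Z.P₀ Z.hQ Z.hP)

omit [IsAlgClosed (kA A)] in
@[simp] theorem coe_rhoO (f : ↥(CQ T Q)) : ((rhoO Z f : ↥Q.toValuationSubring) : Ft) = rhoQ T Q f :=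
  rfl

include hxt in
/-- the reduction `CQ T Q → O_Q` is onto. -/
theorem rhoO_surjective : Function.Surjective (rhoO Z) := by
  intro y
  obtain ⟨a, d, hd, e⟩ := (mem_Q_iff T Q Z.P₀ Z.hQ Z.hP (y : Ft)).mp y.2
  obtain ⟨hdr, hdQ⟩ := (chi_ne_zero_iff hxt T Q Z.P₀ Z.hQ Z.hP d).mp hd
  obtain ⟨hd0, -⟩ := ord_den_eq_zero hxt T Q Z.P₀ Z.hQ Z.hP d hdr hdQ
  have hf : (a : F) * (d : F)⁻¹ ∈ CQ T Q :=
    ⟨a, d, hdr, hdQ, by rw [mul_assoc, inv_mul_cancel₀ hd0, mul_one]⟩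
  refine ⟨⟨_, hf⟩, Subtype.ext ?_⟩
  rw [coe_rhoO]
  have h1 := rhoQ_mul_eq T Q ⟨_, hf⟩ (a := a) (b := d)
    (by rw [mul_assoc, inv_mul_cancel₀ hd0, mul_one])
  exact mul_right_cancel₀ hdr (h1.trans e.symm)

omit [IsAlgClosed (kA A)] in
theorem rhoO_constCQ (a : ↥A) :
    rhoO Z (constCQ T Q a) = algebraMap (kA A) ↥Q.toValuationSubring (resA A a) :=
  Subtype.ext (rhoQ_constCQ T Q a)

/-- **(R1) on the local ring**: `f̄(Q) = res (f(P))` for every place `P` of the disc of `Q`. -/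
theorem valueHom_rhoO (P : Place L F) (hQ : T.r P = Q) (hP : T.S0.InChart P) (f : ↥(CQ T Q)) :
    valueHom hxt Q (rhoO Z f) = resA A (evCQ hxt T Q P hQ hP f) := by
  obtain ⟨a, b, hb, hbQ, e⟩ := f.2
  have hχb : T.S0.chi P hP b ≠ 0 := (chi_ne_zero_iff hxt T Q P hQ hP b).mpr ⟨hb, hbQ⟩
  -- in `O_Q`
  have h1 : rhoO Z f * ⟨T.S0.red b, red_mem_of_disc T Q P hQ hP b⟩ =
      ⟨T.S0.red a, red_mem_of_disc T Q P hQ hP a⟩ := Subtype.ext (rhoQ_mul_eq T Q f e)
  have h2 := congrArg (valueHom hxt Q) h1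
  rw [map_mul, valueHom_red hxt T Q P hQ hP b, valueHom_red hxt T Q P hQ hP a] at h2
  -- in `A`
  have h3 : f * ofB T Q b = ofB T Q a := Subtype.ext e
  have h4 : resA A (evCQ hxt T Q P hQ hP f) * T.S0.chi P hP b = T.S0.chi P hP a := by
    rw [ChartSpec.chi_apply, ChartSpec.chi_apply, ← evCQ_ofB hxt T Q P hQ hP b,
      ← evCQ_ofB hxt T Q P hQ hP a, ← h3, map_mul, map_mul]
  exact mul_right_cancel₀ hχb (h2.trans h4.symm)

omit [IsAlgClosed (kA A)] in
/-- `τ̄` has order one at `Q`. -/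
theorem ord_rhoO_tauC : Q.ord ((rhoO Z (tauC T Q c) : ↥Q.toValuationSubring) : Ft) = 1 := by
  rw [coe_rhoO, rhoQ_tauC]
  exact Z.good

omit [IsAlgClosed (kA A)] in
theorem rhoO_tauC_ne_zero : rhoO Z (tauC T Q c) ≠ 0 := by
  intro h0
  have := ord_rhoO_tauC Z
  rw [h0, ZeroMemClass.coe_zero, Place.ord_zero] at this
  exact zero_ne_one this

/-- **the Taylor datum of the special fibre at `Q`**: `τ̄` generates the kernel of `y ↦ y(Q)`. -/
theorem secDatumQ : SecDatum (valueHom hxt Q) (rhoO Z (tauC T Q c)) := by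
  refine ⟨?_, ?_, ?_⟩
  · rw [valueHom_rhoO hxt Z Z.P₀ Z.hQ Z.hP]
    show resA A (evCQ hxt T Q Z.P₀ Z.hQ Z.hP (ofB T Q (tauB T c))) = 0
    rw [evCQ_ofB, Z.hτ, map_zero]
  · intro y hy
    rcases (valueHom_eq_zero_iff_ord hxt Q y).mp hy with h0 | hpos
    · have : y = 0 := Subtype.ext h0
      rw [this]
      exact dvd_zero _
    · have hτ0 : ((rhoO Z (tauC T Q c) : ↥Q.toValuationSubring) : Ft) ≠ 0 := fun h =>
        rhoO_tauC_ne_zero Z (Subtype.ext h)
      have hy0 : (y : Ft) ≠ 0 := by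
        intro h
        rw [h, Place.ord_zero] at hpos
        exact lt_irrefl _ hpos
      have hz : (y : Ft) * ((rhoO Z (tauC T Q c) : ↥Q.toValuationSubring) : Ft)⁻¹ ∈
          Q.toValuationSubring := by
        apply mem_of_ord_nonneg
        rw [Place.ord_mul Q hy0 (inv_ne_zero hτ0), Place.ord_inv, ord_rhoO_tauC Z]
        omega
      refine ⟨⟨_, hz⟩, Subtype.ext ?_⟩
      show (y : Ft) = ((rhoO Z (tauC T Q c) : ↥Q.toValuationSubring) : Ft) *
        ((y : Ft) * ((rhoO Z (tauC T Q c) : ↥Q.toValuationSubring) : Ft)⁻¹)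
      field_simp
  · intro y hy
    exact (mul_eq_zero.mp hy).resolve_left (rhoO_tauC_ne_zero Z)

/-- **The reduction of the Taylor expansion is the Taylor expansion of the reduction.** -/
theorem map_taylorQ (f : ↥(CQ T Q)) :
    PowerSeries.map (resA A) (Z.taylorQ hxt f) = taylor (secDatumQ hxt Z) (rhoO Z f) := by
  letI := algCQ T Q
  exact (taylor_map (Z.secDatum hxt) (secDatumQ hxt Z) (rhoO Z) (resA A) rfl
    (rhoO_constCQ Z) (fun g => valueHom_rhoO hxt Z Z.P₀ Z.hQ Z.hP g) f).symm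

/-! ### orders -/

omit [IsAlgClosed (kA A)] in
/-- `τ̄^n ∣ y` in `O_Q` iff `n ≤ ord_Q y`. -/
theorem pow_dvd_iff_ord (y : ↥Q.toValuationSubring) (hy : y ≠ 0) (n : ℕ) :
    rhoO Z (tauC T Q c) ^ n ∣ y ↔ (n : ℤ) ≤ Q.ord (y : Ft) := by
  have hτ0 : ((rhoO Z (tauC T Q c) : ↥Q.toValuationSubring) : Ft) ≠ 0 := fun h =>
    rhoO_tauC_ne_zero Z (Subtype.ext h)
  have hy0 : (y : Ft) ≠ 0 := fun h => hy (Subtype.ext h)
  constructor
  · rintro ⟨z, rfl⟩
    have hz0 : (z : Ft) ≠ 0 := by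
      intro h
      apply hy
      rw [show z = 0 from Subtype.ext h, mul_zero]
    have hz := ord_nonneg_of_mem Q z.2
    rw [MulMemClass.coe_mul, SubmonoidClass.coe_pow, Place.ord_mul Q (pow_ne_zero n hτ0) hz0,
      ord_pow, ord_rhoO_tauC Z]
    omega
  · intro hn
    have hz : (y : Ft) * (((rhoO Z (tauC T Q c) : ↥Q.toValuationSubring) : Ft) ^ n)⁻¹ ∈
        Q.toValuationSubring := by
      apply mem_of_ord_nonneg
      rw [Place.ord_mul Q hy0 (inv_ne_zero (pow_ne_zero n hτ0)), Place.ord_inv, ord_pow,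
        ord_rhoO_tauC Z]
      omega
    refine ⟨⟨_, hz⟩, Subtype.ext ?_⟩
    show (y : Ft) = ((rhoO Z (tauC T Q c) ^ n : ↥Q.toValuationSubring) : Ft) *
      ((y : Ft) * (((rhoO Z (tauC T Q c) : ↥Q.toValuationSubring) : Ft) ^ n)⁻¹)
    rw [SubmonoidClass.coe_pow]
    field_simp

/-- `n ≤ order (Taylor expansion of y at Q) ↔ n ≤ ord_Q y`. -/
theorem le_order_taylorBar_iff (y : ↥Q.toValuationSubring) (hy : y ≠ 0) (n : ℕ) :
    (n : ℕ∞) ≤ (taylor (secDatumQ hxt Z) y).order ↔ (n : ℤ) ≤ Q.ord (y : Ft) :=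
  (le_order_taylor_iff (secDatumQ hxt Z) n y).trans (pow_dvd_iff_ord Z y hy n)

/-- **the `X`-adic order of the Taylor expansion at `Q` is `ord_Q`.** -/
theorem order_taylorBar (y : ↥Q.toValuationSubring) (hy : y ≠ 0) :
    (taylor (secDatumQ hxt Z) y).order = ((Q.ord (y : Ft)).toNat : ℕ∞) := by
  have h0 := ord_nonneg_of_mem Q y.2
  apply le_antisymm
  · refine le_of_not_gt fun hlt => ?_
    have h1 : (((Q.ord (y : Ft)).toNat + 1 : ℕ) : ℕ∞) ≤ (taylor (secDatumQ hxt Z) y).order := by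
      rw [Nat.cast_add, Nat.cast_one]
      exact Order.add_one_le_of_lt hlt
    rw [le_order_taylorBar_iff hxt Z y hy] at h1
    omega
  · rw [le_order_taylorBar_iff hxt Z y hy]
    omega

/-- the Taylor expansion at `Q` is injective. -/
theorem taylorBar_injective : Function.Injective (taylor (secDatumQ hxt Z)) := by
  refine taylor_injective _ ?_
  intro y hy
  by_contra hy0
  have := (pow_dvd_iff_ord Z y hy0 ((Q.ord (y : Ft)).toNat + 1)).mp (hy _)
  have h0 := ord_nonneg_of_mem Q y.2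
  omega

omit [IsAlgClosed (kA A)] in
include Z in
theorem ord_rhoQ_nonneg (f : ↥(CQ T Q)) : 0 ≤ Q.ord (rhoQ T Q f) :=
  ord_nonneg_of_mem Q (rhoQ_mem T Q Z.P₀ Z.hQ Z.hP f)

/-- **`order (reduction of taylorQ f) = ord_Q f̄`** for `f ∈ CQ` with `f̄ ≠ 0`. -/
theorem order_map_taylorQ (f : ↥(CQ T Q)) (hf : rhoQ T Q f ≠ 0) :
    (PowerSeries.map (resA A) (Z.taylorQ hxt f)).order = ((Q.ord (rhoQ T Q f)).toNat : ℕ∞) := by
  rw [map_taylorQ hxt Z f, order_taylorBar hxt Z (rhoO Z f) (fun h => hf (congrArg Subtype.val h))]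
  rfl

/-- the reduction of the Taylor expansion vanishes iff the reduction of `f` vanishes. -/
theorem map_taylorQ_eq_zero_iff (f : ↥(CQ T Q)) :
    PowerSeries.map (resA A) (Z.taylorQ hxt f) = 0 ↔ rhoQ T Q f = 0 := by
  rw [map_taylorQ hxt Z f]
  constructor
  · intro h
    have : rhoO Z f = 0 := taylorBar_injective hxt Z (by rw [h, map_zero])
    exact congrArg Subtype.val this
  · intro h
    have : rhoO Z f = 0 := Subtype.ext h
    rw [this, map_zero]

/-! ### units of the local ring -/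

include Z in
/-- the value of `f ∈ CQ` at a place of the disc is a unit of `A` iff `f̄` is a unit at `Q`. -/
theorem isUnit_evCQ_iff (P : Place L F) (hQ : T.r P = Q) (hP : T.S0.InChart P) (f : ↥(CQ T Q)) :
    IsUnit (evCQ hxt T Q P hQ hP f) ↔ (rhoQ T Q f ≠ 0 ∧ Q.ord (rhoQ T Q f) = 0) := by
  have h1 : IsUnit (evCQ hxt T Q P hQ hP f) ↔ resA A (evCQ hxt T Q P hQ hP f) ≠ 0 := by
    rw [Ne, IsLocalRing.residue_eq_zero_iff, IsLocalRing.mem_maximalIdeal, mem_nonunits_iff,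
      not_not]
  rw [h1, ← valueHom_rhoO hxt Z P hQ hP f, valueHom_ne_zero_iff, isUnit_iff_ord]
  rfl

include hxt Z in
/-- **the units of the local ring**: `f ∈ CQˣ ↔ f̄ ≠ 0 ∧ ord_Q f̄ = 0`. -/
theorem isUnit_CQ_iff (f : ↥(CQ T Q)) :
    IsUnit f ↔ (rhoQ T Q f ≠ 0 ∧ Q.ord (rhoQ T Q f) = 0) := by
  constructor
  · intro hu
    exact (isUnit_evCQ_iff hxt Z Z.P₀ Z.hQ Z.hP f).mp (hu.map _)
  · intro h
    exact isUnit_of_isUnit_evCQ hxt T Q Z.P₀ Z.hQ Z.hP f
      ((isUnit_evCQ_iff hxt Z Z.P₀ Z.hQ Z.hP f).mpr h)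

/-- the Taylor expansion of `f ∈ CQ` is a unit of `A⟦X⟧` iff `f` is a unit of `CQ`. -/
theorem isUnit_taylorQ_iff_isUnit (f : ↥(CQ T Q)) : IsUnit (Z.taylorQ hxt f) ↔ IsUnit f := by
  rw [Z.isUnit_taylorQ_iff hxt f, isUnit_CQ_iff hxt Z f]
  exact isUnit_evCQ_iff hxt Z Z.P₀ Z.hQ Z.hP f

end Disc

end Fermat.Agent.ES.V19.DiscRed3
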