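/-
Programme V (S19), chapter (B4′), leaf (Le) "NEED-2 density", bridge (a) of the join J6 (helper10):
**helper28's local expansion datum `DensityInst28.LocExp G gred T.r (resA A) Q` AT A GOOD `(T, Q, c)`**,
built from helper3's derived API of the (B3) exit literal (`DiscIface3`): the local ring `CQ T Q`,
a zero `Z : DiscTaylor3.ZeroPt T Q c` of `τ = t - c` in the disc of `Q`, the Taylor expansion
`Z.taylorQ hxt : ↥(CQ T Q) →+* A⟦X⟧`, and `DiscRed3` (reduction of the local ring).

Setting = `DiscIface3` / `DiscLocal3` (= main's `TwoCharts8`, `L` algebraically closed), any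
`(G, gred)` extending the chart ring (`hBG : T.S0.B ≤ G`, `hred : gred b = T.S0.red b`).

* `CQ_le_gaussInt_of_le`, `const_mem_CQ`, `taylorQ_const`, `ord_nonneg_of_mem`, `rho_eq`,
  `le_ord_rho` (`ord_le`), `ord_rho_tau` (`ord_τ`) : the fields, one by one;
* **`locExp hxt Z hBG hred hin hDb : LocExp G gred T.r (resA A) Q`** with `CQ := CQ T Q`, `τ := tauC T Q c`,
  `tay := Z.taylorQ hxt` (all by `rfl`: `locExp_CQ`, `locExp_τ`, `locExp_tay`);
  inputs: `hin : ∀ P, T.r P = Q → T.S0.InChart P` (clause 1 of `Da`) and `hDb : Db T (gaussInt G gred) Q`;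
* `locExpChart`  : the same at `(G, gred) := (T.S0.B, T.S0.red)`               (helper3's `discExit_main`);
* `locExpGauss`  : the same at `(G, gred) := (gaussInt T.S0.B T.S0.red, rho …)` (helper15's `redCtx_gaussInt`),
  from `hDb : Db T (gaussInt T.S0.B T.S0.red) Q` (idempotence of the fraction construction);
* `nonempty_zeroPt_of_discExit`, `locExpChartOfExit`, `locExpGaussOfExit` : the same from the literal
  `DiscExit T (gaussInt T.S0.B T.S0.red) (rho …)` (helper3's `DiscExitInst3.discExit_main`) and a `ZeroPt`.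
-/
import Mathlib
import Fermat.Agent.ES.V19.DiscRed3
import Fermat.Agent.ES.V19.GaussFracIdem15
import Fermat.Agent.ES.V19.DensityInst28

set_option autoImplicit false
set_option linter.style.haveILetI false

noncomputable section

open AlgebraicCurve

namespace Fermat.Agent.ES.V19.LocExpInst10

open PowerSeries Fermat.Agent.X0.FF Fermat.Agent.ES.RED.PlaceValue13 Fermat.Agent.ES.RED.Contract8
  Fermat.Agent.ES.RED.TwoCharts8 Fermat.Agent.ES.V19.DiscIface3 Fermat.Agent.ES.V19.DiscLocal3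
  Fermat.Agent.ES.V19.DiscTaylor3 Fermat.Agent.ES.V19.DiscRed3 Fermat.Agent.ES.V19.GaussFrac15
  Fermat.Agent.ES.V19.DensityInst28

variable {L : Type*} [Field L] [IsAlgClosed L] {A : ValuationSubring L}
variable {F : Type*} [Field F] [Algebra L F] {x : F} {hx : IsGen L x}
variable {Ft : Type*} [Field Ft] [Algebra (kA A) Ft]
variable [IsAlgClosed (kA A)] {xt : Ft} (hxt : IsGen (kA A) xt)
variable {T : TwoCharts A hx Ft} {Q : Place (kA A) Ft} {c : ↥A}
variable (Z : ZeroPt T Q c)
variable {G : Subring F} {gred : ↥G →+* Ft} (hBG : T.S0.B ≤ G)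
  (hred : ∀ b : ↥T.S0.B, gred ⟨(b : F), hBG b.2⟩ = T.S0.red b)

/-! ### the fields -/

omit [IsAlgClosed (kA A)] in
include hred in
/-- the local ring consists of Gauss-integral functions, for any `(G, gred)` extending the chart. -/
theorem CQ_le_gaussInt_of_le : CQ T Q ≤ gaussInt G gred :=
  fun _ hf => gaussInt_mono hBG hred (CQ_le_gaussInt T Q hf)

omit [IsAlgClosed (kA A)] in
/-- constants of `A` lie in the local ring. -/
theorem const_mem_CQ (a : ↥A) : algebraMap L F (a : L) ∈ CQ T Q := (constCQ T Q a).2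

/-- the Taylor expansion of a constant. -/
theorem taylorQ_const (a : ↥A) :
    Z.taylorQ hxt ⟨algebraMap L F (a : L), const_mem_CQ a⟩ = C a :=
  Z.taylorQ_constCQ hxt a

include hxt in
/-- elements of the local ring are regular on the disc. -/
theorem ord_nonneg_of_mem (hin : ∀ P, T.r P = Q → T.S0.InChart P) {f : F} (hf : f ∈ CQ T Q)
    (P : Place L F) (hP : T.r P = Q) : 0 ≤ P.ord f :=
  ord_nonneg_of_mem_CQ hxt T Q P hP (hin P hP) hf

omit [IsAlgClosed (kA A)] in
/-- the reduction of `f ∈ CQ` computed in `(G, gred)` is `rhoQ f`. -/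
theorem rho_eq (f : ↥(CQ T Q)) :
    rho G gred ⟨(f : F), CQ_le_gaussInt_of_le hBG hred f.2⟩ = rhoQ T Q f :=
  rho_eq_rhoQ T Q hBG hred f

/-- **`ord_le`**: if the first `n` Taylor coefficients of `f ∈ CQ` die in the residue field and
`f̄ ≠ 0`, then `n ≤ ord_Q f̄`. -/
theorem le_ord_rho (f : ↥(CQ T Q)) (n : ℕ)
    (h : ∀ m < n, resA A (coeff m (Z.taylorQ hxt f)) = 0)
    (hf : rho G gred ⟨(f : F), CQ_le_gaussInt_of_le hBG hred f.2⟩ ≠ 0) :
    (n : ℤ) ≤ Q.ord (rho G gred ⟨(f : F), CQ_le_gaussInt_of_le hBG hred f.2⟩) := by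
  rw [rho_eq hBG hred f] at hf ⊢
  have h1 := order_map_taylorQ hxt Z f hf
  have h2 : (n : ℕ∞) ≤ (PowerSeries.map (resA A) (Z.taylorQ hxt f)).order := by
    apply PowerSeries.nat_le_order
    intro i hi
    rw [PowerSeries.coeff_map]
    exact h i hi
  rw [h1, Nat.cast_le] at h2
  have h3 := ord_rhoQ_nonneg Z f
  omega

omit [IsAlgClosed (kA A)] in
include Z in
/-- **`ord_τ`**: `ord_Q τ̄ = 1`. -/
theorem ord_rho_tau :
    Q.ord (rho G gred ⟨((tauC T Q c : ↥(CQ T Q)) : F),
      CQ_le_gaussInt_of_le hBG hred (tauC T Q c).2⟩) = 1 := by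
  rw [rho_eq hBG hred (tauC T Q c), rhoQ_tauC]
  exact Z.good

/-! ### the datum -/

/-- **The local expansion datum at a GOOD `(Q, c)`**, on a zero `Z` of `τ` in the disc of `Q`. -/
def locExp (hin : ∀ P, T.r P = Q → T.S0.InChart P) (hDb : Db T (gaussInt G gred) Q) :
    LocExp (A := A) G gred T.r (resA A) Q where
  CQ := CQ T Q
  le_gauss := CQ_le_gaussInt_of_le hBG hred
  const_mem := const_mem_CQ
  τ := tauC T Q c
  tay := Z.taylorQ hxt
  tay_const := taylorQ_const hxt Z
  tay_τ := Z.taylorQ_tau hxt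
  mem_of_reg := hDb
  reg := fun _ hf P hP => ord_nonneg_of_mem hxt hin hf P hP
  ord_le := le_ord_rho hxt Z hBG hred
  ord_τ := ord_rho_tau Z hBG hred

@[simp] theorem locExp_CQ (hin : ∀ P, T.r P = Q → T.S0.InChart P)
    (hDb : Db T (gaussInt G gred) Q) : (locExp hxt Z hBG hred hin hDb).CQ = CQ T Q := rfl

@[simp] theorem locExp_τ (hin : ∀ P, T.r P = Q → T.S0.InChart P)
    (hDb : Db T (gaussInt G gred) Q) : (locExp hxt Z hBG hred hin hDb).τ = tauC T Q c := rfl

@[simp] theorem locExp_tay (hin : ∀ P, T.r P = Q → T.S0.InChart P)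
    (hDb : Db T (gaussInt G gred) Q) : (locExp hxt Z hBG hred hin hDb).tay = Z.taylorQ hxt := rfl

/-- the datum for the chart ring itself: `(G, gred) := (T.S0.B, T.S0.red)`. -/
def locExpChart (hin : ∀ P, T.r P = Q → T.S0.InChart P)
    (hDb : Db T (gaussInt T.S0.B T.S0.red) Q) :
    LocExp (A := A) T.S0.B T.S0.red T.r (resA A) Q :=
  locExp hxt Z (G := T.S0.B) (gred := T.S0.red) le_rfl (fun _ => rfl) hin hDb

omit [IsAlgClosed (kA A)] in
/-- (Db) for the Gauss valuation ring of the Gauss valuation ring (idempotence). -/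
theorem db_gaussInt {B : Subring F} {redB : ↥B →+* Ft} (hDb : Db T (gaussInt B redB) Q) :
    Db T (gaussInt (gaussInt B redB) (rho B redB)) Q :=
  fun f hf hreg => hDb f ((GaussFracIdem15.isGI_gaussInt_iff f).mp hf) hreg

/-- the datum for the Gauss valuation ring of the chart:
`(G, gred) := (gaussInt T.S0.B T.S0.red, rho T.S0.B T.S0.red)` (helper15's `redCtx_gaussInt`). -/
def locExpGauss (hin : ∀ P, T.r P = Q → T.S0.InChart P)
    (hDb : Db T (gaussInt T.S0.B T.S0.red) Q) :
    LocExp (A := A) (gaussInt T.S0.B T.S0.red) (rho T.S0.B T.S0.red) T.r (resA A) Q :=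
  locExp hxt Z (G := gaussInt T.S0.B T.S0.red) (gred := rho T.S0.B T.S0.red)
    (le_gaussInt T.S0.B T.S0.red) (fun b => rho_of_mem b) hin (db_gaussInt hDb)

/-! ### from the exit literal of (B3) -/

omit [IsAlgClosed (kA A)] in
/-- a zero of `τ` in the disc of a GOOD `(Q, c)`, from the exit literal. -/
theorem nonempty_zeroPt_of_discExit {G' : Subring F} {gred' : ↥G' →+* Ft}
    (hE : DiscExit T G' gred') (hgood : Good T Q c) : Nonempty (ZeroPt T Q c) := by
  obtain ⟨hDa, -, -, hDd⟩ := hE Q c hgood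
  exact nonempty_zeroPt T Q c hgood hDa hDd

/-- **from the exit literal `DiscExit` (at the chart's Gauss valuation ring) and a zero `Z` of `τ`**:
the datum for the chart ring. -/
def locExpChartOfExit
    (hE : DiscExit T (gaussInt T.S0.B T.S0.red) (rho T.S0.B T.S0.red)) :
    LocExp (A := A) T.S0.B T.S0.red T.r (resA A) Q :=
  locExpChart hxt Z (hE Q c Z.good).1.1 (hE Q c Z.good).2.1

/-- **from the exit literal `DiscExit` (at the chart's Gauss valuation ring) and a zero `Z` of `τ`**: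
the datum for the Gauss valuation ring `(gaussInt T.S0.B T.S0.red, rho …)`. -/
def locExpGaussOfExit
    (hE : DiscExit T (gaussInt T.S0.B T.S0.red) (rho T.S0.B T.S0.red)) :
    LocExp (A := A) (gaussInt T.S0.B T.S0.red) (rho T.S0.B T.S0.red) T.r (resA A) Q :=
  locExpGauss hxt Z (hE Q c Z.good).1.1 (hE Q c Z.good).2.1

@[simp] theorem locExpGaussOfExit_CQ
    (hE : DiscExit T (gaussInt T.S0.B T.S0.red) (rho T.S0.B T.S0.red)) :
    (locExpGaussOfExit hxt Z hE).CQ = CQ T Q := rfl

@[simp] theorem locExpGaussOfExit_τ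
    (hE : DiscExit T (gaussInt T.S0.B T.S0.red) (rho T.S0.B T.S0.red)) :
    (locExpGaussOfExit hxt Z hE).τ = tauC T Q c := rfl

@[simp] theorem locExpGaussOfExit_tay
    (hE : DiscExit T (gaussInt T.S0.B T.S0.red) (rho T.S0.B T.S0.red)) :
    (locExpGaussOfExit hxt Z hE).tay = Z.taylorQ hxt := rfl

end Fermat.Agent.ES.V19.LocExpInst10
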