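/-
Programme V (S19), join J6 (racing spare, helper9): **helper28's fixed density data `DensityInst28.DensBase` on main's
two-chart model**, from helper10's `LocExpInst10.locExpGauss`, helper25's zero points `ExpBaChart25.zeroPt` and the
output `(B, D)` of G4 (`BasisDisc9.exists_basisData_disc` + `BasisExpLevel25.bbExp_of_basisData`), together with helper5's
compatibility bundle `ExpPkgOfDens5.Compat`.

Setting = `BasisDisc9`: `T : TwoCharts A hx Ft`, `(G, red) := (gaussInt T.S0.B T.S0.red, rho T.S0.B T.S0.red)`,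
`C : RedCtx A (resA A) G red T.r`; chart `Qb c` with (Da), (Db), (Dd), GOOD; `Z i := zeroPt T Qb c hgood hDa hDd i`
(`(Z i).P₀ = centre T Qb c hDa i`), `tay i := (Z i).taylorQ hxt`; auxiliary GOOD point `(Qs, cs)` with a zero point `Zs`.

* `densBase` : the record (`X i := locExpGauss hxt (Z i) …`, `P0 := centre`, `Ebar := redDiv Qb`, `bbF := B.bb`);
* `compat`   : `Compat G red (densBase …) Qb c tay` — all fields by `rfl`/`tauSub_zero`;
* `bbExp_algebraMap` : helper25's clause (5) rewritten with `algebraMap ↥O ↥A` for any algebra structure whose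
  structure map is the inclusion.
-/
import Mathlib
import Fermat.Agent.ES.V19.LocExpInst10
import Fermat.Agent.ES.V19.ExpPkgOfDens5
import Fermat.Agent.ES.V19.BasisExpLevel25

set_option autoImplicit false

open AlgebraicCurve

noncomputable section

namespace Fermat.Agent.ES.V19.DensBaseInst9

open Fermat.Agent.X0.FF Fermat.Agent.RR Fermat.Agent.RR.LSpace
  Fermat.Agent.ES.RED.Contract8 Fermat.Agent.ES.RED.TwoCharts8
  Fermat.Agent.ES.V19.OnePlaceRep9 Fermat.Agent.ES.V19.BasisQbar9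
  Fermat.Agent.ES.V19.GaussFrac15 Fermat.Agent.ES.V19.SupTrick15
  Fermat.Agent.ES.V19.BasisData9 Fermat.Agent.ES.V19.BasisDisc9
  Fermat.Agent.ES.V19.DiscIface3 Fermat.Agent.ES.V19.DiscLocal3 Fermat.Agent.ES.V19.DiscTaylor3
  Fermat.Agent.ES.V19.XiChartOf5 Fermat.Agent.ES.V19.NormalFormBasis14
  Fermat.Agent.ES.V19.ExpBaChart25 Fermat.Agent.ES.V19.DensityInst28 Fermat.Agent.ES.V19.LocExpInst10
  Fermat.Agent.ES.V19.ExpPkgOfDens5
open Fermat.Agent.ES.V19.LaurentMap19 (Lam mapLam)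

variable {L : Type*} [Field L] [IsAlgClosed L] {A : ValuationSubring L}
variable {F : Type*} [Field F] [Algebra L F] {x : F} {hx : IsGen L x}
variable {Ft : Type*} [Field Ft] [Algebra (kA A) Ft]
variable [IsAlgClosed (kA A)] {xt : Ft} (hxt : IsGen (kA A) xt)
variable (T : TwoCharts A hx Ft)
variable (C : RedCtx A (resA A) (gaussInt T.S0.B T.S0.red) (rho T.S0.B T.S0.red) T.r)
  (HL : LHyp L F) (HLt : LHyp (kA A) Ft)
variable (Qb : Fin (genusFF L F) → Place (kA A) Ft) (c : Fin (genusFF L F) → ↥A)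
  (hDa : ∀ i, Da T (Qb i) (c i)) (hgood : ∀ i, Good T (Qb i) (c i))
  (hDb : ∀ i, Db T (gaussInt T.S0.B T.S0.red) (Qb i)) (hDd : ∀ i, Dd T (Qb i) (c i))

omit [IsAlgClosed L] [IsAlgClosed (kA A)] in
/-- helper25's clause (5), rewritten with `algebraMap ↥O ↥A` for any algebra structure on `↥A` over `↥O` whose
structure map is the inclusion. -/
theorem bbExp_algebraMap {O : Subring L} [Algebra ↥O ↥A]
    (halg : ∀ r : ↥O, ((algebraMap ↥O ↥A r : ↥A) : L) = (r : L))
    (hOA : ∀ a ∈ O, a ∈ A) (y : Lam (genusFF L F) ↥O) :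
    mapLam (algebraMap ↥O ↥A) y =
      mapLam (Subring.inclusion (S := O) (T := A.toSubring) hOA) y := by
  have e : (algebraMap ↥O ↥A) = (Subring.inclusion (S := O) (T := A.toSubring) hOA) := by
    apply RingHom.ext
    intro r
    apply Subtype.ext
    exact halg r
  rw [e]

variable (hinj : Function.Injective Qb)
  (hl : Module.finrank (kA A) (riemannRochSpace (redDiv Qb)) = 1)
  (Qs : Place (kA A) Ft) {cs : ↥A} (Zs : ZeroPt T Qs cs) (hDas : Da T Qs cs)
  (hDbs : Db T (gaussInt T.S0.B T.S0.red) Qs) (hQs : ∀ i, Qb i ≠ Qs)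
  {Ps : Place L F} (B : BBData HL (ord_centre T Qb c hDa) (Q := centre T Qb c hDa) Ps)
  {O : Subring L} [Algebra ↥O ↥A] (D : BasisData ↥O (genusFF L F))
  (h3 : ∀ i n, IsGI (gaussInt T.S0.B T.S0.red) (rho T.S0.B T.S0.red) (B.bb i n))
  (h5 : ∀ i n l, ∃ (m : ℕ) (h : B.bb i n * ((tauB T (c l) : ↥T.S0.B) : F) ^ m ∈ CQ T (Qb l)),
    HahnSeries.ofPowerSeries ℤ ↥A ((zeroPt T Qb c hgood hDa hDd l).taylorQ hxt ⟨_, h⟩) =
      mapLam (algebraMap ↥O ↥A) (D.bb i n) l * (HahnSeries.single (1 : ℤ) (1 : ↥A)) ^ m)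

/-- **helper28's fixed density data on main's two-chart model.** -/
def densBase :
    DensBase (A := A) (gaussInt T.S0.B T.S0.red) (rho T.S0.B T.S0.red) T.r (resA A) D where
  C := C
  HL := HL
  Qb := Qb
  Qb_inj := hinj
  X := fun i => locExpGauss hxt (zeroPt T Qb c hgood hDa hDd i) (hDa i).1 (hDb i)
  P0 := centre T Qb c hDa
  hP0 := r_centre T Qb c hDa
  zero0 := fun i => by
    show 0 < (centre T Qb c hDa i).ord ((tauB T (c i) : ↥T.S0.B) : F)
    rw [← tauSub_zero, ord_centre]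
    exact one_pos
  Qs := Qs
  hQs := hQs
  Xs := locExpGauss hxt Zs hDas.1 hDbs
  Ebar := redDiv Qb
  Ebar_nonneg := fun Q => redDiv_nonneg Qb Q
  Ebar_Qb := fun i => (redDiv_apply_self hinj i).ge
  hbar := fun _ hh =>
    Fermat.Agent.ES.V19.GenericNonSpecial8.eq_algebraMap_of_finrank_L_eq_one HLt (redDiv_nonneg Qb)
      hl hh
  bbF := B.bb
  bb_gauss := h3
  bb_pole := fun i n P hP => mem_BaK.mp (B.mem i n) P (fun l hl' => hP l hl'.symm)
  bb_exp := h5

/-- **helper5's compatibility bundle**: every field by `rfl` (or `tauSub_zero`). -/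
theorem compat :
    Compat (gaussInt T.S0.B T.S0.red) (rho T.S0.B T.S0.red)
      (densBase hxt T C HL HLt Qb c hDa hgood hDb hDd hinj hl Qs Zs hDas hDbs hQs B D h3 h5) Qb c
      (fun i => (zeroPt T Qb c hgood hDa hDd i).taylorQ hxt) where
  hGI := fun _ h => h
  hQb := fun _ => rfl
  hCQ := fun _ _ => Iff.rfl
  hτ := fun i => (tauSub_zero T (c i)).symm
  htay := fun _ _ _ _ => rfl

end Fermat.Agent.ES.V19.DensBaseInst9

end
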