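/-
Programme V (S19 by hand, route `S19_ROUTE23.md`), chapter A2 (descent), brick (A2-dense) `DenseHens4`
(helper4): `ℚ` is dense in `ℚ^h = ℚ̄^{D_A}` — the arithmetic input of the dense step `O^h → ℤ_(ℓ)`.

`A` is ANY valuation subring of `ℚ̄` over the prime `ℓ`, `D = A.decompositionSubgroup ℚ`.  Membership
in helper26's `TraceDescent26.fixRing A D` is spelled out (`x ∈ A ∧ ∀ σ ∈ D, σ x = x`, which is
`mem_fixRing_iff`, an `Iff.rfl`), so this file does not import it.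

* `exists_pow_mul_mem`        : `∀ x : ℚ̄, ∃ a, ℓ ^ a * x ∈ A`;
* `mem_ratLocalizedAt_of_mem` : `(q : ℚ̄) ∈ A → q ∈ ℤ_(ℓ)`;  `ratLocalizedAt_mem` : `ℤ_(ℓ) ⊆ A`;
* `exists_natCast_sub_mem_nonunits` : a `D`-fixed element of `A` is congruent to some `n < ℓ` mod `𝔪_A`;
* `exists_approx` : `∀ j, ∀ x ∈ O^h, ∃ z ∈ ℤ_(ℓ), ∃ y ∈ O^h, x = z + ℓ ^ j * y`.
-/
import Mathlib
import Fermat.Prelude.Def_FLTPrelim_Ramification
import Fermat.Prelude.Def_GaloisRep_Flat
import Fermat.Prelude.Def_EllipticCurve_FrobeniusTrace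
import Fermat.Agent.ES.FROB.FrobFacts12
import Fermat.Agent.ES.P36.UnrFixed1

set_option autoImplicit false

noncomputable section

namespace Fermat.Agent.ES.V19.DenseHens4

local notation "Qbar" => AlgebraicClosure ℚ
local notation "GQ" => (AlgebraicClosure ℚ ≃ₐ[ℚ] AlgebraicClosure ℚ)

variable {ℓ : ℕ} (hℓ : ℓ.Prime) (A : ValuationSubring Qbar) (hA : A.LiesOverPrime ℓ)

/-! ### Integers in `A` -/

theorem intCast_mem (n : ℤ) : (n : Qbar) ∈ A := by
  have : (n : Qbar) = ((n : A) : Qbar) := by simp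
  rw [this]
  exact (n : A).2

include hA in
theorem natCast_ell_mem_nonunits : (ℓ : Qbar) ∈ A.nonunits := hA

include hℓ hA in
/-- An integer prime to `ℓ` has valuation `1`. -/
theorem valuation_intCast_eq_one {m : ℤ} (hm : ¬ (ℓ : ℤ) ∣ m) : A.valuation (m : Qbar) = 1 := by
  have hcop : IsCoprime m (ℓ : ℤ) := by
    have hp : Prime (ℓ : ℤ) := Nat.prime_iff_prime_int.mp hℓ
    exact (IsCoprime.symm ((Prime.coprime_iff_not_dvd hp).mpr hm))
  obtain ⟨u, v, huv⟩ := hcop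
  have hle : A.valuation (m : Qbar) ≤ 1 := (A.valuation_le_one_iff _).mpr (intCast_mem A m)
  rcases lt_or_eq_of_le hle with hlt | heq
  · exfalso
    have h2 : (1 : Qbar) = (u : Qbar) * (m : Qbar) + (v : Qbar) * (ℓ : Qbar) := by
      have := congrArg (fun z : ℤ => (z : Qbar)) huv
      simp only [Int.cast_add, Int.cast_mul, Int.cast_natCast, Int.cast_one] at this
      exact this.symm
    have hu : A.valuation (u : Qbar) ≤ 1 := (A.valuation_le_one_iff _).mpr (intCast_mem A u)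
    have hv : A.valuation (v : Qbar) ≤ 1 := (A.valuation_le_one_iff _).mpr (intCast_mem A v)
    have hℓv : A.valuation (ℓ : Qbar) < 1 := (ValuationSubring.mem_nonunits_iff A).mp hA
    have ha : A.valuation ((u : Qbar) * (m : Qbar)) < 1 := by
      rw [map_mul]
      exact mul_lt_one_of_nonneg_of_lt_one_right hu zero_le hlt
    have hb : A.valuation ((v : Qbar) * (ℓ : Qbar)) < 1 := by
      rw [map_mul]
      exact mul_lt_one_of_nonneg_of_lt_one_right hv zero_le hℓv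
    have h1 : A.valuation (1 : Qbar) < 1 := by
      rw [h2]
      exact lt_of_le_of_lt (A.valuation.map_add _ _) (max_lt ha hb)
    rw [map_one] at h1
    exact lt_irrefl _ h1
  · exact heq

include hℓ hA in
/-- An integer prime to `ℓ` is a unit of `A`. -/
theorem intCast_inv_mem {m : ℤ} (hm : ¬ (ℓ : ℤ) ∣ m) : ((m : Qbar))⁻¹ ∈ A := by
  rw [← A.valuation_le_one_iff, map_inv₀, valuation_intCast_eq_one hℓ A hA hm, inv_one]

/-! ### `ℤ_(ℓ)` and `A ∩ ℚ` -/

include hℓ hA in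
/-- `ℤ_(ℓ) ⊆ A`. -/
theorem ratLocalizedAt_mem (z : ℚ) (hz : z ∈ GaloisRep.ratLocalizedAt ℓ) :
    algebraMap ℚ Qbar z ∈ A := by
  have hden : ¬ (ℓ : ℤ) ∣ (z.den : ℤ) := by
    intro h
    have h1 : ℓ ∣ z.den := Int.natCast_dvd_natCast.mp h
    have h2 : z.den.Coprime ℓ := hz
    have h3 : ℓ ∣ 1 := by
      have := Nat.dvd_gcd h1 (dvd_refl ℓ)
      rwa [h2] at this
    exact hℓ.one_lt.ne' (Nat.dvd_one.mp h3)
  have hz' : algebraMap ℚ Qbar z = (z.num : Qbar) * ((z.den : ℤ) : Qbar)⁻¹ := by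
    conv_lhs => rw [← Rat.num_div_den z]
    rw [map_div₀, div_eq_mul_inv]
    simp
  rw [hz']
  exact A.mul_mem _ _ (intCast_mem A _) (intCast_inv_mem hℓ A hA hden)

include hℓ hA in
/-- `A ∩ ℚ ⊆ ℤ_(ℓ)`. -/
theorem mem_ratLocalizedAt_of_mem (q : ℚ) (hq : algebraMap ℚ Qbar q ∈ A) :
    q ∈ GaloisRep.ratLocalizedAt ℓ := by
  show q.den.Coprime ℓ
  by_contra hcop
  have hdvd : ℓ ∣ q.den := by
    rcases (Nat.coprime_or_dvd_of_prime hℓ q.den) with h | h
    · exact absurd h.symm hcop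
    · exact h
  obtain ⟨d, hd⟩ := hdvd
  -- `ℓ ∤ num`
  have hnum : ¬ (ℓ : ℤ) ∣ q.num := by
    intro h
    have h1 : ℓ ∣ q.num.natAbs := Int.natCast_dvd.mp h
    have h2 : ℓ ∣ Nat.gcd q.num.natAbs q.den := Nat.dvd_gcd h1 ⟨d, hd⟩
    rw [q.reduced] at h2
    exact hℓ.one_lt.ne' (Nat.dvd_one.mp h2)
  -- `num = q * den = (q * d) * ℓ ∈ 𝔪_A`
  have h1 : (q.num : Qbar) = algebraMap ℚ Qbar q * (d : Qbar) * (ℓ : Qbar) := by
    have h2 : (q.num : ℚ) = q * (q.den : ℚ) := (Rat.mul_den_eq_num q).symm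
    have h3 := congrArg (algebraMap ℚ Qbar) h2
    rw [hd] at h3
    simp only [map_intCast, map_mul, map_natCast, Nat.cast_mul] at h3
    rw [h3]
    ring
  have hval : A.valuation (q.num : Qbar) < 1 := by
    rw [h1, map_mul]
    have ha : A.valuation (algebraMap ℚ Qbar q * (d : Qbar)) ≤ 1 := by
      rw [A.valuation_le_one_iff]
      refine A.mul_mem _ _ hq ?_
      have : (d : Qbar) = ((d : ℤ) : Qbar) := by simp
      rw [this]
      exact intCast_mem A _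
    exact mul_lt_one_of_nonneg_of_lt_one_right ha zero_le ((ValuationSubring.mem_nonunits_iff A).mp hA)
  rw [valuation_intCast_eq_one hℓ A hA hnum] at hval
  exact lt_irrefl _ hval

/-! ### Bounded denominators -/

include hℓ hA in
/-- Every element of `ℚ̄` has an `ℓ`-power multiple in `A`. -/
theorem exists_pow_mul_mem (x : Qbar) : ∃ a : ℕ, (ℓ : Qbar) ^ a * x ∈ A := by
  have halg : IsAlgebraic ℤ x :=
    (IsFractionRing.isAlgebraic_iff ℤ ℚ Qbar).mpr (Algebra.IsAlgebraic.isAlgebraic x)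
  obtain ⟨y, hy0, hint⟩ := halg.exists_integral_multiple
  have hyx : (y : Qbar) * x ∈ A := by
    have := Fermat.Agent.Lib.FrobeniusExists.mem_valuationSubring_of_isIntegral A hint
    rwa [zsmul_eq_mul] at this
  have hn0 : y.natAbs ≠ 0 := Int.natAbs_ne_zero.mpr hy0
  obtain ⟨a, m, hm, hnm⟩ := Nat.exists_eq_pow_mul_and_not_dvd hn0 ℓ hℓ.ne_one
  have hnx : ((y.natAbs : ℕ) : Qbar) * x ∈ A := by
    rcases Int.natAbs_eq y with h | h
    · have : ((y.natAbs : ℕ) : Qbar) = (y : Qbar) := by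
        conv_rhs => rw [h]
        simp
      rw [this]; exact hyx
    · have : ((y.natAbs : ℕ) : Qbar) * x = -((y : Qbar) * x) := by
        conv_rhs => rw [h]
        simp
      rw [this]; exact A.neg_mem _ hyx
  have hminv : ((m : ℤ) : Qbar)⁻¹ ∈ A :=
    intCast_inv_mem hℓ A hA (fun h => hm (Int.natCast_dvd_natCast.mp h))
  have hm0 : ((m : ℤ) : Qbar) ≠ 0 := by
    intro h0
    apply hm
    have : m = 0 := by exact_mod_cast h0
    rw [this]
    exact dvd_zero ℓ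
  refine ⟨a, ?_⟩
  have heq : (ℓ : Qbar) ^ a * x = ((m : ℤ) : Qbar)⁻¹ * (((y.natAbs : ℕ) : Qbar) * x) := by
    rw [hnm, Nat.cast_mul, Nat.cast_pow, Int.cast_natCast]
    rw [Int.cast_natCast] at hm0
    rw [mul_comm ((ℓ : Qbar) ^ a) (m : Qbar), mul_assoc, ← mul_assoc, inv_mul_cancel₀ hm0, one_mul]
  rw [heq]
  exact A.mul_mem _ _ hminv hnx

/-! ### Frobenius and the residue class of a `D`-fixed element -/

/-- The Frobenius congruence in `ℚ̄`. -/
theorem sub_pow_mem_nonunits {φ : GQ} (h : A.IsFrobeniusAt φ ℓ) {x : Qbar} (hx : x ∈ A) :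
    φ x - x ^ ℓ ∈ A.nonunits := by
  set xA : A := ⟨x, hx⟩ with hxA
  have h1 := h.smul_residue_eq (IsLocalRing.residue A xA)
  rw [← IsLocalRing.ResidueField.residue_smul, ← map_pow, ← sub_eq_zero, ← map_sub,
    IsLocalRing.residue_eq_zero_iff, ← ValuationSubring.coe_mem_nonunits_iff] at h1
  exact h1

include hA in
theorem charP_residueField (hℓ : ℓ.Prime) : CharP (IsLocalRing.ResidueField A) ℓ := by
  rw [CharP.charP_iff_prime_eq_zero hℓ]
  obtain ⟨hmem, hmax⟩ := ValuationSubring.mem_nonunits_iff_exists_mem_maximalIdeal.mp hA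
  have h1 : (⟨(ℓ : Qbar), hmem⟩ : A) = ((ℓ : ℕ) : A) := Subtype.ext (by simp)
  rw [h1, ← IsLocalRing.residue_eq_zero_iff, map_natCast] at hmax
  exact hmax

include hℓ hA in
/-- A `D`-fixed element of `A` is congruent to a natural number modulo `𝔪_A`. -/
theorem exists_natCast_sub_mem_nonunits {x : Qbar} (hx : x ∈ A)
    (hxD : ∀ σ ∈ A.decompositionSubgroup ℚ, σ x = x) :
    ∃ n : ℕ, x - (n : Qbar) ∈ A.nonunits := by
  obtain ⟨φ, hφ⟩ := Fermat.Agent.ES.FROB.FrobFacts12.exists_isFrobeniusAt_of ℓ hℓ A hA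
  have h1 := sub_pow_mem_nonunits A hφ hx
  rw [hxD φ hφ.mem_decompositionSubgroup] at h1
  have : Fact ℓ.Prime := ⟨hℓ⟩
  have : CharP (IsLocalRing.ResidueField A) ℓ := charP_residueField A hA hℓ
  set xA : A := ⟨x, hx⟩ with hxA
  have h2 : (IsLocalRing.residue A xA) ^ ℓ = IsLocalRing.residue A xA := by
    have h3 : xA - xA ^ ℓ ∈ IsLocalRing.maximalIdeal A := by
      rw [← ValuationSubring.coe_mem_nonunits_iff]
      exact h1
    rw [← IsLocalRing.residue_eq_zero_iff, map_sub, map_pow, sub_eq_zero] at h3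
    exact h3.symm
  have h4 : IsLocalRing.residue A xA ∈ (⊥ : Subfield (IsLocalRing.ResidueField A)) :=
    (Subfield.mem_bot_iff_pow_eq_self (IsLocalRing.ResidueField A) ℓ).mpr h2
  rw [← ZMod.fieldRange_castHom_eq_bot ℓ] at h4
  obtain ⟨a, ha⟩ := h4
  have hn : ∃ n : ℕ, ((n : ℕ) : IsLocalRing.ResidueField A) = IsLocalRing.residue A xA := by
    refine ⟨a.val, ?_⟩
    rw [← ha]
    conv_rhs => rw [← ZMod.natCast_zmod_val a]
    rw [map_natCast]
  obtain ⟨n, hn⟩ := hn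
  refine ⟨n, ?_⟩
  have h5 : IsLocalRing.residue A (xA - ((n : ℕ) : A)) = 0 := by
    rw [map_sub, map_natCast, hn, sub_self]
  rw [IsLocalRing.residue_eq_zero_iff, ← ValuationSubring.coe_mem_nonunits_iff] at h5
  have h6 : ((xA - ((n : ℕ) : A) : A) : Qbar) = x - (n : Qbar) := by
    simp [hxA]
  rw [h6] at h5
  exact h5

theorem inertiaSubgroupIn_le :
    A.inertiaSubgroupIn ℚ ≤ A.decompositionSubgroup ℚ := by
  intro τ hτ
  obtain ⟨g, _, rfl⟩ := hτ
  exact g.2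

include hℓ hA in
/-- One step of the approximation: `x = n + ℓ * y`. -/
theorem exists_natCast_add_mul {x : Qbar} (hx : x ∈ A)
    (hxD : ∀ σ ∈ A.decompositionSubgroup ℚ, σ x = x) :
    ∃ (n : ℕ) (y : Qbar), y ∈ A ∧ (∀ σ ∈ A.decompositionSubgroup ℚ, σ y = y) ∧
      x = (n : Qbar) + (ℓ : Qbar) * y := by
  obtain ⟨n, hn⟩ := exists_natCast_sub_mem_nonunits hℓ A hA hx hxD
  have hℓ0 : (ℓ : Qbar) ≠ 0 := Nat.cast_ne_zero.mpr hℓ.ne_zero
  have hfixD : ∀ σ ∈ A.decompositionSubgroup ℚ, σ (x - (n : Qbar)) = x - (n : Qbar) := by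
    intro σ hσ
    rw [map_sub, hxD σ hσ, map_natCast]
  have hdiv := Fermat.Agent.ES.P36.UnrFixed1.div_natCast_mem_of_fixed A hℓ hA (x - (n : Qbar))
    (fun τ hτ => hfixD τ (inertiaSubgroupIn_le A hτ)) hn
  refine ⟨n, (x - (n : Qbar)) / (ℓ : Qbar), hdiv, ?_, ?_⟩
  · intro σ hσ
    rw [map_div₀, hfixD σ hσ, map_natCast]
  · field_simp
    ring

include hℓ hA in
/-- **(A2-dense)**: `O^h = ℤ_(ℓ) + ℓ ^ j O^h` for every `j`. -/
theorem exists_approx (j : ℕ) {x : Qbar} (hx : x ∈ A)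
    (hxD : ∀ σ ∈ A.decompositionSubgroup ℚ, σ x = x) :
    ∃ (z : ↥(GaloisRep.ratLocalizedAt ℓ)) (y : Qbar), y ∈ A ∧
      (∀ σ ∈ A.decompositionSubgroup ℚ, σ y = y) ∧
      x = algebraMap ℚ Qbar (z : ℚ) + (ℓ : Qbar) ^ j * y := by
  induction j with
  | zero => exact ⟨0, x, hx, hxD, by simp⟩
  | succ j ih =>
    obtain ⟨z, y, hy, hyD, hxy⟩ := ih
    obtain ⟨n, y', hy', hy'D, hyy'⟩ := exists_natCast_add_mul hℓ A hA hy hyD
    refine ⟨z + (ℓ : ↥(GaloisRep.ratLocalizedAt ℓ)) ^ j * (n : ↥(GaloisRep.ratLocalizedAt ℓ)),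
      y', hy', hy'D, ?_⟩
    rw [hxy, hyy']
    have hcoe : ((z + (ℓ : ↥(GaloisRep.ratLocalizedAt ℓ)) ^ j *
        (n : ↥(GaloisRep.ratLocalizedAt ℓ)) : ↥(GaloisRep.ratLocalizedAt ℓ)) : ℚ) =
        (z : ℚ) + (ℓ : ℚ) ^ j * (n : ℚ) := by
      push_cast
      rfl
    rw [hcoe, map_add, map_mul, map_pow, map_natCast, map_natCast]
    ring

end Fermat.Agent.ES.V19.DenseHens4
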