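/-
Programme V (S19), chapter A2 (descent), helper26: **the module-level descent** `O_L → ℤ_(ℓ)`.

`H'` an `O_L`-module (`O_L = fixRing A Γ_L`, `UnrLevel A Γ_L`) of `Γ_L`-equivariant functions `X → ℚ̄`,
finitely generated, spanning `X → ℚ̄` over `ℚ̄`, stable under `star τ` for `τ ∈ D`.  With a reference basis
`b` of `G_ℚ`-equivariant functions and the arithmetic inputs `DenseHyp ℓ A`:

* `exists_bound`      : one power `ℓ^a` clears the denominators of all coordinates of all `f ∈ H'`;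
* `exists_pow_smul_basis_mem` : one power `ℓ^a` brings every `b i` into `H'`;
* `mem_span_descended` : every `f ∈ H'` is an `O_L`-combination of `G_ℚ`-equivariant elements of `H'`;
* `coords_descended`  : the coordinates of a `G_ℚ`-equivariant `f ∈ H'` lie in `ℓ^{-a} ℤ_(ℓ)`.
-/
import Mathlib
import Fermat.Prelude.Def_FLTPrelim_Ramification
import Fermat.Prelude.Def_GaloisRep_Flat
import Fermat.Agent.ES.V19.StarAct26
import Fermat.Agent.ES.V19.TraceDescent26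
import Fermat.Agent.ES.V19.CoordEquiv26

set_option autoImplicit false
set_option linter.style.haveILetI false
set_option linter.unusedSectionVars false
set_option linter.unnecessarySimpa false

namespace Fermat.Agent.ES.V19.DescentCore26

open Fermat.Agent.ES.V19.StarAct26 Fermat.Agent.ES.V19.TraceDescent26
  Fermat.Agent.ES.V19.CoordEquiv26

local notation "Qbar" => AlgebraicClosure ℚ
local notation "GQ" => (AlgebraicClosure ℚ ≃ₐ[ℚ] AlgebraicClosure ℚ)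

noncomputable section

open scoped Classical

/-- The arithmetic inputs of the dense step `O^h → ℤ_(ℓ)`. -/
structure DenseHyp (ℓ : ℕ) (A : ValuationSubring Qbar) : Prop where
  /-- `ℓ` is topologically nilpotent: every element of `ℚ̄` is brought into `A` by a power of `ℓ`. -/
  pow_mul_mem : ∀ x : Qbar, ∃ a : ℕ, (ℓ : Qbar) ^ a * x ∈ A
  /-- `A ∩ ℚ ⊆ ℤ_(ℓ)`. -/
  rat_mem : ∀ q : ℚ, algebraMap ℚ Qbar q ∈ A → q ∈ GaloisRep.ratLocalizedAt ℓ
  /-- `ℤ_(ℓ) ⊆ A`. -/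
  ratLoc_mem : ∀ q : ℚ, q ∈ GaloisRep.ratLocalizedAt ℓ → algebraMap ℚ Qbar q ∈ A
  /-- `O^h = ℤ_(ℓ) + ℓ^j O^h`. -/
  dense : ∀ (j : ℕ) (x : Qbar), x ∈ fixRing A (A.decompositionSubgroup ℚ) →
    ∃ q : ℚ, q ∈ GaloisRep.ratLocalizedAt ℓ ∧ ∃ y ∈ fixRing A (A.decompositionSubgroup ℚ),
      x = algebraMap ℚ Qbar q + (ℓ : Qbar) ^ j * y
  /-- `ℚ̄^{G_ℚ} = ℚ`. -/
  fixed_rat : ∀ x : Qbar, (∀ σ : GQ, σ x = x) → ∃ q : ℚ, algebraMap ℚ Qbar q = x

section Core

variable {X : Type*} [MulAction GQ X] {ι : Type*} [Fintype ι]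
variable {ℓ : ℕ} {A : ValuationSubring Qbar} {ΓL : Subgroup GQ}

theorem natCast_mem (hD : DenseHyp ℓ A) : (ℓ : Qbar) ∈ A := by
  have h := hD.ratLoc_mem (ℓ : ℚ) (by
    show ((ℓ : ℚ)).den.Coprime ℓ
    simp)
  simpa using h

theorem pow_mul_mem_of_le (hD : DenseHyp ℓ A) {a a' : ℕ} (h : a ≤ a') {x : Qbar}
    (hx : (ℓ : Qbar) ^ a * x ∈ A) : (ℓ : Qbar) ^ a' * x ∈ A := by
  obtain ⟨k, rfl⟩ := Nat.exists_eq_add_of_le h
  rw [pow_add, mul_assoc, mul_comm]
  rw [mul_comm] at hx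
  have h1 : (ℓ : Qbar) ^ k * x * (ℓ : Qbar) ^ a = (ℓ : Qbar) ^ k * (x * (ℓ : Qbar) ^ a) := by ring
  rw [h1]
  exact A.mul_mem _ _ (pow_mem (natCast_mem hD) k) hx

/-- A finite family is brought into `A` by one power of `ℓ`. -/
theorem exists_pow_mul_mem_finite (hD : DenseHyp ℓ A) {κ : Type*} [Finite κ] (x : κ → Qbar) :
    ∃ a : ℕ, ∀ k, (ℓ : Qbar) ^ a * x k ∈ A := by
  haveI := Fintype.ofFinite κ
  choose a ha using fun k => hD.pow_mul_mem (x k)
  refine ⟨Finset.univ.sup a, fun k => ?_⟩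
  exact pow_mul_mem_of_le hD (Finset.le_sup (Finset.mem_univ k)) (ha k)

/-- One power of `ℓ` clears all denominators of the coordinates of all elements of a finitely
generated `O_L`-module. -/
theorem exists_bound (hD : DenseHyp ℓ A) (b : Module.Basis ι Qbar (X → Qbar))
    (H' : Submodule ↥(fixRing A ΓL) (X → Qbar)) (hfg : H'.FG) :
    ∃ a : ℕ, ∀ f ∈ H', ∀ i, (ℓ : Qbar) ^ a * b.repr f i ∈ A := by
  obtain ⟨S, hS⟩ := hfg
  obtain ⟨a, ha⟩ := exists_pow_mul_mem_finite hD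
    (fun p : ↥(S : Set (X → Qbar)) × ι => b.repr (p.1 : X → Qbar) p.2)
  refine ⟨a, fun f hf i => ?_⟩
  rw [← hS] at hf
  induction hf using Submodule.span_induction with
  | mem s hs => exact ha (⟨s, hs⟩, i)
  | zero => simp [A.zero_mem]
  | add f g _ _ hf hg =>
    rw [map_add, Finsupp.add_apply, mul_add]
    exact A.add_mem _ _ hf hg
  | smul c f _ hf =>
    have h1 : c • f = (c : Qbar) • f := rfl
    rw [h1, map_smul, Finsupp.smul_apply, smul_eq_mul, mul_left_comm]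
    exact A.mul_mem _ _ c.2.1 hf

/-- Rational numbers are fixed by every automorphism. -/
theorem map_natCast_pow_mul (σ : GQ) (a : ℕ) (x : Qbar) :
    σ ((ℓ : Qbar) ^ a * x) = (ℓ : Qbar) ^ a * σ x := by
  rw [map_mul, map_pow, map_natCast]

/-- One power of `ℓ` brings every member of the reference basis into `H'`. -/
theorem exists_pow_smul_basis_mem (hD : DenseHyp ℓ A) (b : Module.Basis ι Qbar (X → Qbar))
    (hb : ∀ i, IsEquivariant ΓL (b i))
    (H' : Submodule ↥(fixRing A ΓL) (X → Qbar)) (hfg : H'.FG)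
    (hequiv : ∀ f ∈ H', IsEquivariant ΓL f)
    (hspan : Submodule.span Qbar (H' : Set (X → Qbar)) = ⊤) :
    ∃ a : ℕ, ∀ i, ((ℓ : Qbar) ^ a) • b i ∈ H' := by
  obtain ⟨S, hS⟩ := hfg
  have hS' : Submodule.span Qbar (S : Set (X → Qbar)) = ⊤ := by
    rw [← hspan, ← hS, Submodule.span_span_of_tower]
  obtain ⟨T, hTS, hTspan, hTli⟩ := exists_linearIndependent Qbar (S : Set (X → Qbar))
  have hTfin : T.Finite := S.finite_toSet.subset hTS
  haveI : Fintype ↥T := hTfin.fintype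
  have hTtop : ⊤ ≤ Submodule.span Qbar (Set.range (Subtype.val : ↥T → X → Qbar)) := by
    rw [Subtype.range_coe, hTspan, hS']
  let bT : Module.Basis ↥T Qbar (X → Qbar) := Module.Basis.mk hTli hTtop
  have hbT : ∀ t : ↥T, bT t = (t : X → Qbar) := fun t => by
    simp [bT]
  have hTmem : ∀ t : ↥T, (t : X → Qbar) ∈ H' := fun t => by
    rw [← hS]
    exact Submodule.subset_span (hTS t.2)
  -- the coordinates of `b i` with respect to `T` are `Γ_L`-fixed
  have hfixed : ∀ i (t : ↥T), ∀ σ ∈ ΓL, σ (bT.repr (b i) t) = bT.repr (b i) t := by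
    intro i t σ hσ
    have h1 := repr_star bT σ (fun t' => by
      rw [hbT]
      exact (isEquivariant_iff_star.1 (hequiv _ (hTmem t'))) σ hσ) (b i) t
    rw [(isEquivariant_iff_star.1 (hb i)) σ hσ] at h1
    exact h1.symm
  obtain ⟨a, ha⟩ := exists_pow_mul_mem_finite hD
    (fun p : ι × ↥T => bT.repr (b p.1) p.2)
  refine ⟨a, fun i => ?_⟩
  have h2 : ((ℓ : Qbar) ^ a) • b i =
      ∑ t : ↥T, ((ℓ : Qbar) ^ a * bT.repr (b i) t) • (t : X → Qbar) := by
    conv_lhs => rw [← bT.sum_repr (b i), Finset.smul_sum]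
    refine Finset.sum_congr rfl fun t _ => ?_
    rw [smul_smul, hbT]
  rw [h2]
  refine Submodule.sum_mem _ fun t _ => ?_
  have hc : (ℓ : Qbar) ^ a * bT.repr (b i) t ∈ fixRing A ΓL :=
    ⟨ha (i, t), fun σ hσ => by rw [map_natCast_pow_mul, hfixed i t σ hσ]⟩
  exact H'.smul_mem ⟨_, hc⟩ (hTmem t)

/-- **The dense step**: a `D`-equivariant element of `H'` is an `O_L`-combination of `G_ℚ`-equivariant
elements of `H'`. -/
theorem mem_span_of_decomp_equivariant (hD : DenseHyp ℓ A) (hΓD : ΓL ≤ A.decompositionSubgroup ℚ)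
    (b : Module.Basis ι Qbar (X → Qbar)) (hb : ∀ i, IsEquivariant ⊤ (b i))
    (H' : Submodule ↥(fixRing A ΓL) (X → Qbar))
    {a₁ a₂ : ℕ} (ha₁ : ∀ f ∈ H', ∀ i, (ℓ : Qbar) ^ a₁ * b.repr f i ∈ A)
    (ha₂ : ∀ i, ((ℓ : Qbar) ^ a₂) • b i ∈ H') (hℓ : (ℓ : Qbar) ≠ 0)
    {g : X → Qbar} (hg : g ∈ H') (hgD : IsEquivariant (A.decompositionSubgroup ℚ) g) :
    g ∈ Submodule.span ↥(fixRing A ΓL) {h | h ∈ H' ∧ IsEquivariant (⊤ : Subgroup GQ) h} := by
  set D := A.decompositionSubgroup ℚ with hDdef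
  have hbD : ∀ i, IsEquivariant D (b i) := fun i => (hb i).mono le_top
  -- coordinates are `D`-fixed
  have hcD : ∀ i, ∀ σ ∈ D, σ (b.repr g i) = b.repr g i :=
    (isEquivariant_iff_repr b hbD g).1 hgD
  have hcOh : ∀ i, (ℓ : Qbar) ^ a₁ * b.repr g i ∈ fixRing A D := fun i =>
    ⟨ha₁ g hg i, fun σ hσ => by rw [map_natCast_pow_mul, hcD i σ hσ]⟩
  choose q hq y hy hqy using fun i => hD.dense (a₁ + a₂) _ (hcOh i)
  have hpow : (ℓ : Qbar) ^ a₁ ≠ 0 := pow_ne_zero _ hℓ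
  -- the rational approximation
  set g₀ : X → Qbar := ∑ i, (algebraMap ℚ Qbar (q i) / (ℓ : Qbar) ^ a₁) • b i with hg₀
  set r : X → Qbar := ∑ i, (y i) • (((ℓ : Qbar) ^ a₂) • b i) with hr
  have hyL : ∀ i, y i ∈ fixRing A ΓL := fun i => fixRing_anti A hΓD (hy i)
  have hrmem : r ∈ H' := Submodule.sum_mem _ fun i _ => H'.smul_mem ⟨y i, hyL i⟩ (ha₂ i)
  have hsplit : g = g₀ + r := by
    conv_lhs => rw [← b.sum_repr g]
    rw [hg₀, hr, ← Finset.sum_add_distrib]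
    refine Finset.sum_congr rfl fun i _ => ?_
    rw [smul_smul, ← add_smul]
    congr 1
    have h1 := hqy i
    field_simp
    rw [pow_add] at h1
    linear_combination h1
  have hg₀mem : g₀ ∈ H' := by
    have : g₀ = g - r := by rw [hsplit]; abel
    rw [this]
    exact H'.sub_mem hg hrmem
  have hg₀eq : IsEquivariant (⊤ : Subgroup GQ) g₀ :=
    isEquivariant_sum_smul b hb _ fun i σ _ => by
      rw [map_div₀, map_pow, map_natCast, AlgEquiv.commutes]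
  have hbmem : ∀ i, ((ℓ : Qbar) ^ a₂) • b i ∈
      {h | h ∈ H' ∧ IsEquivariant (⊤ : Subgroup GQ) h} := fun i =>
    ⟨ha₂ i, (hb i).smul fun σ _ => by rw [map_pow, map_natCast]⟩
  rw [hsplit]
  refine Submodule.add_mem _ (Submodule.subset_span ⟨hg₀mem, hg₀eq⟩) ?_
  rw [hr]
  refine Submodule.sum_mem _ fun i _ => ?_
  exact Submodule.smul_mem _ (⟨y i, hyL i⟩ : ↥(fixRing A ΓL)) (Submodule.subset_span (hbmem i))

/-- **(A2), module level**: every element of `H'` is an `O_L`-combination of `G_ℚ`-equivariant elements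
of `H'`. -/
theorem mem_span_descended (hD : DenseHyp ℓ A) (hΓ : UnrLevel A ΓL)
    (b : Module.Basis ι Qbar (X → Qbar)) (hb : ∀ i, IsEquivariant ⊤ (b i))
    (H' : Submodule ↥(fixRing A ΓL) (X → Qbar)) (hfg : H'.FG)
    (hequiv : ∀ f ∈ H', IsEquivariant ΓL f)
    (hspan : Submodule.span Qbar (H' : Set (X → Qbar)) = ⊤)
    (hstab : ∀ τ ∈ A.decompositionSubgroup ℚ, ∀ f ∈ H', StarAct26.star τ f ∈ H')
    (hℓ : (ℓ : Qbar) ≠ 0) {f : X → Qbar} (hf : f ∈ H') :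
    f ∈ Submodule.span ↥(fixRing A ΓL) {h | h ∈ H' ∧ IsEquivariant (⊤ : Subgroup GQ) h} := by
  obtain ⟨a₁, ha₁⟩ := exists_bound hD b H' hfg
  obtain ⟨a₂, ha₂⟩ := exists_pow_smul_basis_mem hD b (fun i => (hb i).mono le_top) H' hfg hequiv
    hspan
  have h1 := mem_span_equivariant hΓ H' hequiv hstab hf
  refine (Submodule.span_le.2 ?_) h1
  rintro g ⟨hg, hgD⟩
  exact mem_span_of_decomp_equivariant hD hΓ.le_decomp b hb H' ha₁ ha₂ hℓ hg hgD

/-- The coordinates of a `G_ℚ`-equivariant element of `H'` lie in `ℓ^{-a} ℤ_(ℓ)`. -/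
theorem coords_descended (hD : DenseHyp ℓ A)
    (b : Module.Basis ι Qbar (X → Qbar)) (hb : ∀ i, IsEquivariant ⊤ (b i))
    (H' : Submodule ↥(fixRing A ΓL) (X → Qbar))
    {a₁ : ℕ} (ha₁ : ∀ f ∈ H', ∀ i, (ℓ : Qbar) ^ a₁ * b.repr f i ∈ A)
    {f : X → Qbar} (hf : f ∈ H') (hfG : IsEquivariant (⊤ : Subgroup GQ) f) (i : ι) :
    ∃ q : ℚ, q ∈ GaloisRep.ratLocalizedAt ℓ ∧
      (ℓ : Qbar) ^ a₁ * b.repr f i = algebraMap ℚ Qbar q := by
  have hc : ∀ σ : GQ, σ (b.repr f i) = b.repr f i := fun σ =>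
    (isEquivariant_iff_repr b hb f).1 hfG i σ (Subgroup.mem_top σ)
  obtain ⟨q₀, hq₀⟩ := hD.fixed_rat ((ℓ : Qbar) ^ a₁ * b.repr f i) fun σ => by
    rw [map_natCast_pow_mul, hc σ]
  refine ⟨q₀, hD.rat_mem q₀ ?_, hq₀.symm⟩
  rw [hq₀]
  exact ha₁ f hf i

end Core

end

end Fermat.Agent.ES.V19.DescentCore26
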