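/-
Exploration V19 (S19 / S32 by hand, route `S19_ROUTE23.md` of helper23), brick (A1), helper2:
**the exit literal — a Hopf order in a function algebra is a finite flat cocommutative Hopf algebra
whose `ℚ̄`-points are the underlying Galois module.**

Let `M` be a finite abelian group on which `Gal(ℚ̄/ℚ)` acts (`act`), `R` a principal ideal domain with
fraction field `ℚ` (in the application `R = ℤ_(ℓ)`), and `H ⊆ (M → ℚ̄)` an `R`-subalgebra such that

* every `h ∈ H` is Galois-equivariant: `h (act σ x) = σ (h x)`;
* `H` is a finitely generated `R`-module;
* `H` separates the points of `M`;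
* `H` is stable under comultiplication: `h (x + y) = ∑ i, a i x * b i y` with `a i, b i ∈ H`;
* `H` is stable under the antipode: `x ↦ h (-x)` lies in `H`.

Then `↥H` carries a Hopf algebra structure over `R`, it is finite, flat (free) and cocommutative, and
`x ↦ (h ↦ h x)` is an additive, Galois-equivariant bijection `M ≃ (H →ₐ[R] ℚ̄)` (convolution group).

This file: the two generic tools — the evaluation map `mu` on tensor products of modules of functions
with its injectivity criterion, and the Artin-type descent of linear independence for equivariant
functions.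
-/
import Mathlib

set_option autoImplicit false

open TensorProduct

namespace Fermat.Agent.ES.V19.HopfOrder2

/-! ## The evaluation map on a tensor product of modules of functions -/

section Mu

variable {R Ω : Type*} [CommRing R] [Field Ω] [Algebra R Ω]
variable {A B X Y : Type*} [AddCommGroup A] [Module R A] [AddCommGroup B] [Module R B]

/-- `a ⊗ b ↦ ((x, y) ↦ φ a x * ψ b y)`. -/
noncomputable def mu (φ : A →ₗ[R] (X → Ω)) (ψ : B →ₗ[R] (Y → Ω)) :
    A ⊗[R] B →ₗ[R] (X × Y → Ω) :=
  TensorProduct.lift
    (LinearMap.mk₂ R (fun a b z => φ a z.1 * ψ b z.2)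
      (fun a a' b => by funext z; simp [add_mul])
      (fun c a b => by funext z; simp [Algebra.smul_def, mul_assoc])
      (fun a b b' => by funext z; simp [mul_add])
      (fun c a b => by funext z; simp [Algebra.smul_def, mul_left_comm]))

@[simp] theorem mu_tmul (φ : A →ₗ[R] (X → Ω)) (ψ : B →ₗ[R] (Y → Ω)) (a : A) (b : B) (z : X × Y) :
    mu φ ψ (a ⊗ₜ[R] b) z = φ a z.1 * ψ b z.2 := by
  simp [mu]

/-- **Injectivity of `mu`**: if `A` has a basis whose image under `φ` is linearly independent over
the field `Ω`, and `ψ` is injective, then `mu φ ψ` is injective. -/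
theorem mu_injective {ι : Type*} (b : Module.Basis ι R A) (φ : A →ₗ[R] (X → Ω))
    (ψ : B →ₗ[R] (Y → Ω)) (hφ : LinearIndependent Ω (fun i => φ (b i)))
    (hψ : Function.Injective ψ) : Function.Injective (mu φ ψ) := by
  classical
  rw [injective_iff_map_eq_zero]
  intro t ht
  set c := TensorProduct.equivFinsuppOfBasisLeft (N := B) b t with hc
  have htc : t = c.sum fun i n => b i ⊗ₜ[R] n := by
    rw [← TensorProduct.equivFinsuppOfBasisLeft_symm_apply, hc, LinearEquiv.symm_apply_apply]
  have hzero : ∀ i, c i = 0 := by
    intro i
    apply hψ
    rw [map_zero]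
    funext y
    have hrel : ∑ j ∈ c.support, (ψ (c j) y) • φ (b j) = 0 := by
      funext x
      have := congrFun ht (x, y)
      rw [htc, Finsupp.sum, map_sum] at this
      simp only [Finset.sum_apply, mu_tmul, Pi.zero_apply] at this
      simp only [Finset.sum_apply, Pi.smul_apply, smul_eq_mul, Pi.zero_apply]
      rw [← this]
      exact Finset.sum_congr rfl fun j _ => mul_comm _ _
    by_cases hi : i ∈ c.support
    · exact (linearIndependent_iff'.mp hφ) c.support (fun j => ψ (c j) y) hrel i hi
    · rw [Finsupp.notMem_support_iff.mp hi, map_zero]
  have : c = 0 := Finsupp.ext hzero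
  rw [htc, this, Finsupp.sum_zero_index]

end Mu

/-! ## Descent of linear independence for equivariant functions -/

section Artin

variable {k Ω : Type*} [Field k] [Field Ω] [Algebra k Ω]
variable {M ι : Type*}

/-- **Artin-type descent.**  Let `Ω/k` be a field extension whose `k`-automorphisms have fixed field
`k`, let the automorphism group act on a set `M` (`act`, each `act σ` onto), and let `f i : M → Ω` be
equivariant functions.  If the `f i` are linearly independent over `k`, they are linearly
independent over `Ω`. -/
theorem linearIndependent_of_equivariant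
    (hfix : ∀ c : Ω, (∀ σ : Ω ≃ₐ[k] Ω, σ c = c) → c ∈ Set.range (algebraMap k Ω))
    (act : (Ω ≃ₐ[k] Ω) → M → M) (hact : ∀ σ, Function.Surjective (act σ))
    (f : ι → M → Ω) (hf : ∀ i σ x, f i (act σ x) = σ (f i x))
    (hli : LinearIndependent k f) : LinearIndependent Ω f := by
  classical
  rw [linearIndependent_iff']
  intro s
  induction s using Finset.induction_on with
  | empty => intro g _ i hi; simp at hi
  | insert a s has ih =>
    intro g hg
    by_cases hga : g a = 0
    · -- the relation lives on `s`
      have hg' : ∑ i ∈ s, g i • f i = 0 := by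
        rw [Finset.sum_insert has, hga, zero_smul, zero_add] at hg
        exact hg
      intro i hi
      rcases Finset.mem_insert.mp hi with rfl | hi
      · exact hga
      · exact ih g hg' i hi
    · exfalso
      -- normalise the coefficient of `a` to `1`
      set g' : ι → Ω := fun i => g i / g a with hg'def
      have hrel : f a + ∑ i ∈ s, g' i • f i = 0 := by
        have h1 : (g a)⁻¹ • (∑ i ∈ insert a s, g i • f i) = 0 := by rw [hg, smul_zero]
        rw [Finset.sum_insert has, smul_add, smul_smul, inv_mul_cancel₀ hga, one_smul,
          Finset.smul_sum] at h1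
        rw [← h1]
        congr 1
        refine Finset.sum_congr rfl fun i _ => ?_
        rw [smul_smul, hg'def]
        congr 1
        field_simp
      -- twist by `σ`
      have htw : ∀ σ : Ω ≃ₐ[k] Ω, f a + ∑ i ∈ s, σ (g' i) • f i = 0 := by
        intro σ
        funext y
        obtain ⟨x, rfl⟩ := hact σ y
        have := congrArg σ (congrFun hrel x)
        simp only [Pi.add_apply, Finset.sum_apply, Pi.smul_apply, smul_eq_mul, Pi.zero_apply,
          map_add, map_sum, map_mul, map_zero] at this
        simp only [Pi.add_apply, Finset.sum_apply, Pi.smul_apply, smul_eq_mul, Pi.zero_apply]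
        rw [← this, hf a σ x]
        congr 1
        exact Finset.sum_congr rfl fun i _ => by rw [hf i σ x]
      -- the coefficients are fixed by every `σ`
      have hfixg : ∀ i ∈ s, ∀ σ : Ω ≃ₐ[k] Ω, σ (g' i) = g' i := by
        intro i hi σ
        have hdiff : ∑ j ∈ s, (σ (g' j) - g' j) • f j = 0 := by
          have := congrArg₂ (· - ·) (htw σ) hrel
          simp only [sub_self, add_sub_add_left_eq_sub] at this
          rw [← this, ← Finset.sum_sub_distrib]
          exact Finset.sum_congr rfl fun j _ => sub_smul _ _ _
        exact sub_eq_zero.mp (ih _ hdiff i hi)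
      -- hence rational
      have hrat : ∀ i ∈ s, ∃ c : k, algebraMap k Ω c = g' i := fun i hi =>
        hfix (g' i) (hfixg i hi)
      choose! c hc using hrat
      -- a `k`-linear relation with coefficient `1` at `a`
      have hk : ∑ i ∈ insert a s, (if i = a then (1 : k) else c i) • f i = 0 := by
        rw [Finset.sum_insert has, if_pos rfl, one_smul, ← hrel]
        congr 1
        refine Finset.sum_congr rfl fun i hi => ?_
        have hia : i ≠ a := fun h => has (h ▸ hi)
        rw [if_neg hia, ← hc i hi, algebraMap_smul]
      have := (linearIndependent_iff'.mp hli) (insert a s) _ hk a (Finset.mem_insert_self a s)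
      rw [if_pos rfl] at this
      exact one_ne_zero this

end Artin

end Fermat.Agent.ES.V19.HopfOrder2
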