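/-
Exploration V19 (S19 / S32 by hand), brick (A1) part 2, helper2: the Hopf algebra structure on a
Hopf order `H ⊆ (M → ℚ̄)`.

`IsHopfOrder act H` : the hypotheses (equivariance, finiteness, separation, stability under
comultiplication and antipode).  From it: `↥H` is a finite free `R`-module whose basis is linearly
independent over `ℚ̄` (`linearIndependent_basis`), the evaluation maps
`muAlg : H ⊗ H →ₐ (M × M → ℚ̄)`, `muAlg3 : H ⊗ (H ⊗ H) →ₐ (M × (M × M) → ℚ̄)` are injective, and
`comul`, `counit`, `antipode` are defined by transport through them; `hopfAlgebra` assembles the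
`HopfAlgebra R ↥H` structure and `isCocomm` its cocommutativity.
-/
import Mathlib
import Fermat.Agent.ES.V19.HopfOrder2

set_option autoImplicit false
set_option linter.unusedSectionVars false
set_option linter.style.haveILetI false

open TensorProduct

namespace Fermat.Agent.ES.V19.HopfOrderStr2

open Fermat.Agent.ES.V19.HopfOrder2

local notation "Ω" => AlgebraicClosure ℚ

variable {R : Type} [CommRing R] [IsDomain R] [IsPrincipalIdealRing R] [IsIntegrallyClosed R]
  [Algebra R ℚ] [IsFractionRing R ℚ]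
variable {M : Type} [AddCommGroup M]

/-- The hypotheses on a Hopf order `H ⊆ (M → ℚ̄)` for the Galois action `act` on `M`. -/
structure IsHopfOrder (act : (Ω ≃ₐ[ℚ] Ω) → M → M) (H : Subalgebra R (M → Ω)) : Prop where
  act_bijective : ∀ σ, Function.Bijective (act σ)
  act_zero : ∀ σ, act σ 0 = 0
  equivariant : ∀ h ∈ H, ∀ σ x, h (act σ x) = σ (h x)
  fg : H.toSubmodule.FG
  separates : ∀ x y, x ≠ y → ∃ h ∈ H, h x ≠ h y
  comul_mem : ∀ h ∈ H, ∃ (n : ℕ) (a b : Fin n → M → Ω), (∀ i, a i ∈ H) ∧ (∀ i, b i ∈ H) ∧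
    ∀ x y, h (x + y) = ∑ i, a i x * b i y
  antipode_mem : ∀ h ∈ H, (fun x => h (-x)) ∈ H

/-- Precomposition with a map, as an algebra homomorphism of function algebras. -/
def pre {X Y : Type} (g : X → Y) : (Y → Ω) →ₐ[R] (X → Ω) where
  toFun f := f ∘ g
  map_one' := rfl
  map_mul' _ _ := rfl
  map_zero' := rfl
  map_add' _ _ := rfl
  commutes' _ := rfl

@[simp] theorem pre_apply {X Y : Type} (g : X → Y) (f : Y → Ω) (x : X) :
    pre (R := R) g f x = f (g x) := rfl

theorem algebraMap_injective : Function.Injective (algebraMap R Ω) := by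
  rw [IsScalarTower.algebraMap_eq R ℚ Ω]
  exact (algebraMap ℚ Ω).injective.comp (IsFractionRing.injective R ℚ)

section Basic

variable {act : (Ω ≃ₐ[ℚ] Ω) → M → M} {H : Subalgebra R (M → Ω)}

theorem moduleFinite (hH : IsHopfOrder act H) : Module.Finite R ↥H :=
  Module.Finite.iff_fg.mpr hH.fg

theorem isTorsionFree (H : Subalgebra R (M → Ω)) : Module.IsTorsionFree R ↥H := by
  rw [Module.isTorsionFree_iff_smul_eq_zero]
  intro r h hrh
  by_cases hr : r = 0
  · exact Or.inl hr
  · right
    apply Subtype.ext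
    funext x
    have h1 : (r • (h : M → Ω)) x = 0 := by
      have := congrArg (fun g : ↥H => (g : M → Ω) x) hrh
      simpa using this
    rw [Pi.smul_apply, Algebra.smul_def] at h1
    rcases mul_eq_zero.mp h1 with h2 | h2
    · exact absurd (algebraMap_injective (by rw [h2, map_zero])) hr
    · exact h2

theorem moduleFree (hH : IsHopfOrder act H) : Module.Free R ↥H :=
  haveI := moduleFinite hH
  haveI := isTorsionFree H
  Module.free_of_finite_type_torsion_free'

/-- Galois-fixed elements of `ℚ̄` are rational. -/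
theorem mem_range_of_fixed (c : Ω) (hc : ∀ σ : Ω ≃ₐ[ℚ] Ω, σ c = c) :
    c ∈ Set.range (algebraMap ℚ Ω) := by
  have : Algebra.IsAlgebraic ℚ Ω := AlgebraicClosure.isAlgebraic ℚ
  have : IsAlgClosure ℚ Ω := ⟨inferInstance, inferInstance⟩
  have : IsGalois ℚ Ω := IsAlgClosure.isGalois ℚ Ω
  exact (InfiniteGalois.mem_range_algebraMap_iff_fixed c).mpr hc

/-- **A basis of a Hopf order is linearly independent over `ℚ̄`.** -/
theorem linearIndependent_basis (hH : IsHopfOrder act H) {ι : Type*} (b : Module.Basis ι R ↥H) :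
    LinearIndependent Ω (fun i => H.val.toLinearMap (b i)) := by
  have h1 : LinearIndependent R (fun i => H.val.toLinearMap (b i)) :=
    b.linearIndependent.map' H.val.toLinearMap
      (LinearMap.ker_eq_bot.mpr Subtype.val_injective)
  have h2 : LinearIndependent ℚ (fun i => H.val.toLinearMap (b i)) :=
    (LinearIndependent.iff_fractionRing R ℚ).mp h1
  exact linearIndependent_of_equivariant mem_range_of_fixed act
    (fun σ => (hH.act_bijective σ).2) _ (fun i σ x => hH.equivariant _ (b i).2 σ x) h2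

end Basic

/-! ### The evaluation algebra maps -/

section MuAlg

variable (H : Subalgebra R (M → Ω))

/-- `a ⊗ b ↦ ((x, y) ↦ a x * b y)` as an algebra map. -/
noncomputable def muAlg : ↥H ⊗[R] ↥H →ₐ[R] (M × M → Ω) :=
  Algebra.TensorProduct.lift ((pre Prod.fst).comp H.val) ((pre Prod.snd).comp H.val)
    (fun _ _ => Commute.all _ _)

@[simp] theorem muAlg_tmul (a b : ↥H) (z : M × M) :
    muAlg H (a ⊗ₜ[R] b) z = (a : M → Ω) z.1 * (b : M → Ω) z.2 := by
  simp [muAlg]

theorem muAlg_toLinearMap :
    (muAlg H).toLinearMap = mu H.val.toLinearMap H.val.toLinearMap := by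
  apply TensorProduct.ext'
  intro a b
  funext z
  simp

/-- `a ⊗ t ↦ ((x, w) ↦ a x * muAlg t w)` as an algebra map. -/
noncomputable def muAlg3 : ↥H ⊗[R] (↥H ⊗[R] ↥H) →ₐ[R] (M × (M × M) → Ω) :=
  Algebra.TensorProduct.lift ((pre Prod.fst).comp H.val) ((pre Prod.snd).comp (muAlg H))
    (fun _ _ => Commute.all _ _)

@[simp] theorem muAlg3_tmul (a : ↥H) (t : ↥H ⊗[R] ↥H) (z : M × (M × M)) :
    muAlg3 H (a ⊗ₜ[R] t) z = (a : M → Ω) z.1 * muAlg H t z.2 := by
  simp [muAlg3]

theorem muAlg3_toLinearMap :
    (muAlg3 H).toLinearMap =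
      mu (A := ↥H) (B := ↥H ⊗[R] ↥H) (X := M) (Y := M × M) H.val.toLinearMap
        (muAlg H).toLinearMap := by
  apply TensorProduct.ext'
  intro a t
  funext z
  simp

variable {H} {act : (Ω ≃ₐ[ℚ] Ω) → M → M}

theorem muAlg_injective (hH : IsHopfOrder act H) : Function.Injective (muAlg H) := by
  have := moduleFree hH
  have := mu_injective (Module.Free.chooseBasis R ↥H) H.val.toLinearMap H.val.toLinearMap
    (linearIndependent_basis hH _) Subtype.val_injective
  intro s t hst
  apply this
  rw [← muAlg_toLinearMap]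
  exact hst

theorem muAlg3_injective (hH : IsHopfOrder act H) : Function.Injective (muAlg3 H) := by
  have := moduleFree hH
  have := mu_injective (A := ↥H) (B := ↥H ⊗[R] ↥H) (X := M) (Y := M × M)
    (Module.Free.chooseBasis R ↥H) H.val.toLinearMap (muAlg H).toLinearMap
    (linearIndependent_basis hH _) (muAlg_injective hH)
  intro s t hst
  apply this
  rw [← muAlg3_toLinearMap]
  exact hst

end MuAlg

/-! ### Comultiplication, counit, antipode -/

section Structure

variable {act : (Ω ≃ₐ[ℚ] Ω) → M → M} {H : Subalgebra R (M → Ω)}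

/-- `h ↦ ((x, y) ↦ h (x + y))`. -/
noncomputable def deltaFun (H : Subalgebra R (M → Ω)) : ↥H →ₐ[R] (M × M → Ω) :=
  (pre (fun z : M × M => z.1 + z.2)).comp H.val

@[simp] theorem deltaFun_apply (h : ↥H) (z : M × M) :
    deltaFun H h z = (h : M → Ω) (z.1 + z.2) := rfl

theorem deltaFun_mem_range (hH : IsHopfOrder act H) (h : ↥H) :
    deltaFun H h ∈ (muAlg H).range := by
  obtain ⟨n, a, b, ha, hb, hab⟩ := hH.comul_mem h h.2
  refine ⟨∑ i, (⟨a i, ha i⟩ : ↥H) ⊗ₜ[R] (⟨b i, hb i⟩ : ↥H), ?_⟩
  funext z
  rw [map_sum, Finset.sum_apply, deltaFun_apply, hab]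
  exact Finset.sum_congr rfl fun i _ => muAlg_tmul H _ _ z

/-- The comultiplication of a Hopf order. -/
noncomputable def comul (hH : IsHopfOrder act H) : ↥H →ₐ[R] ↥H ⊗[R] ↥H :=
  ((AlgEquiv.ofInjective (muAlg H) (muAlg_injective hH)).symm : (muAlg H).range →ₐ[R] _).comp
    ((deltaFun H).codRestrict (muAlg H).range (deltaFun_mem_range hH))

theorem muAlg_comul (hH : IsHopfOrder act H) (h : ↥H) :
    muAlg H (comul hH h) = deltaFun H h := by
  have := (AlgEquiv.ofInjective (muAlg H) (muAlg_injective hH)).apply_symm_apply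
    ((deltaFun H).codRestrict (muAlg H).range (deltaFun_mem_range hH) h)
  exact congrArg Subtype.val this

theorem muAlg_comul_apply (hH : IsHopfOrder act H) (h : ↥H) (x y : M) :
    muAlg H (comul hH h) (x, y) = (h : M → Ω) (x + y) := by
  rw [muAlg_comul]; rfl

/-- Evaluation at `0`. -/
noncomputable def evalZero (H : Subalgebra R (M → Ω)) : ↥H →ₐ[R] Ω :=
  (Pi.evalAlgHom R (fun _ : M => Ω) 0).comp H.val

@[simp] theorem evalZero_apply (h : ↥H) : evalZero H h = (h : M → Ω) 0 := rfl

theorem evalZero_mem (hH : IsHopfOrder act H) (h : ↥H) :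
    evalZero H h ∈ (Algebra.ofId R Ω).range := by
  have hfin := moduleFinite hH
  obtain ⟨q, hq⟩ := mem_range_of_fixed ((h : M → Ω) 0) (fun σ => by
    rw [← hH.equivariant _ h.2 σ 0, hH.act_zero])
  have hint : IsIntegral R ((h : M → Ω) 0) := (IsIntegral.of_finite R h).map (evalZero H)
  rw [← hq] at hint
  have hint' : IsIntegral R q :=
    (isIntegral_algebraMap_iff (algebraMap ℚ Ω).injective).mp hint
  obtain ⟨r, hr⟩ := IsIntegrallyClosed.algebraMap_eq_of_integral hint'
  refine ⟨r, ?_⟩
  rw [evalZero_apply, ← hq, ← hr]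
  exact IsScalarTower.algebraMap_apply R ℚ Ω r

/-- The counit of a Hopf order: `h ↦ h 0 ∈ R`. -/
noncomputable def counit (hH : IsHopfOrder act H) : ↥H →ₐ[R] R :=
  ((AlgEquiv.ofInjective (Algebra.ofId R Ω) algebraMap_injective).symm :
      (Algebra.ofId R Ω).range →ₐ[R] R).comp
    ((evalZero H).codRestrict (Algebra.ofId R Ω).range (evalZero_mem hH))

theorem algebraMap_counit (hH : IsHopfOrder act H) (h : ↥H) :
    algebraMap R Ω (counit hH h) = (h : M → Ω) 0 := by
  have := (AlgEquiv.ofInjective (Algebra.ofId R Ω) algebraMap_injective).apply_symm_apply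
    ((evalZero H).codRestrict (Algebra.ofId R Ω).range (evalZero_mem hH) h)
  exact congrArg Subtype.val this

/-! #### The coalgebra axioms -/

theorem muAlg3_map_id_comul (hH : IsHopfOrder act H) :
    (muAlg3 H).comp (Algebra.TensorProduct.map (.id R ↥H) (comul hH)) =
      (pre (fun w : M × (M × M) => (w.1, w.2.1 + w.2.2))).comp (muAlg H) := by
  apply Algebra.TensorProduct.ext'
  intro a b
  funext w
  simp only [AlgHom.comp_apply, Algebra.TensorProduct.map_tmul, AlgHom.coe_id, id_eq,
    muAlg3_tmul, pre_apply, muAlg_tmul]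
  rw [muAlg_comul]
  rfl

theorem muAlg3_assoc_tmul (s : ↥H ⊗[R] ↥H) (b : ↥H) (w : M × (M × M)) :
    muAlg3 H (Algebra.TensorProduct.assoc R R R ↥H ↥H ↥H (s ⊗ₜ[R] b)) w =
      muAlg H s (w.1, w.2.1) * (b : M → Ω) w.2.2 := by
  induction s using TensorProduct.induction_on with
  | zero => simp
  | tmul a₁ a₂ =>
    rw [Algebra.TensorProduct.assoc_tmul, muAlg3_tmul, muAlg_tmul, muAlg_tmul, mul_assoc]
  | add s t hs ht =>
    rw [add_tmul, map_add, map_add, Pi.add_apply, hs, ht, map_add, Pi.add_apply, add_mul]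

theorem muAlg3_assoc_map_comul_id (hH : IsHopfOrder act H) :
    (muAlg3 H).comp ((Algebra.TensorProduct.assoc R R R ↥H ↥H ↥H).toAlgHom.comp
        (Algebra.TensorProduct.map (comul hH) (.id R ↥H))) =
      (pre (fun w : M × (M × M) => (w.1 + w.2.1, w.2.2))).comp (muAlg H) := by
  apply Algebra.TensorProduct.ext'
  intro a b
  funext w
  simp only [AlgHom.comp_apply, Algebra.TensorProduct.map_tmul, AlgHom.coe_id, id_eq,
    pre_apply, muAlg_tmul]
  change muAlg3 H (Algebra.TensorProduct.assoc R R R ↥H ↥H ↥H (comul hH a ⊗ₜ[R] b)) w = _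
  rw [muAlg3_assoc_tmul, muAlg_comul]
  rfl

theorem coassoc (hH : IsHopfOrder act H) :
    (Algebra.TensorProduct.assoc R R R ↥H ↥H ↥H).toAlgHom.comp
        ((Algebra.TensorProduct.map (comul hH) (.id R ↥H)).comp (comul hH)) =
      (Algebra.TensorProduct.map (.id R ↥H) (comul hH)).comp (comul hH) := by
  apply AlgHom.ext
  intro h
  apply muAlg3_injective hH
  have h1 := congrArg (fun f => f (comul hH h)) (muAlg3_assoc_map_comul_id hH)
  have h2 := congrArg (fun f => f (comul hH h)) (muAlg3_map_id_comul hH)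
  simp only [AlgHom.comp_apply] at h1 h2 ⊢
  rw [h1, h2]
  funext w
  rw [pre_apply, pre_apply, muAlg_comul_apply, muAlg_comul_apply, add_assoc]

theorem val_lid_map_counit (hH : IsHopfOrder act H) :
    H.val.comp ((Algebra.TensorProduct.lid R ↥H).toAlgHom.comp
        (Algebra.TensorProduct.map (counit hH) (.id R ↥H))) =
      (pre (fun y : M => ((0 : M), y))).comp (muAlg H) := by
  apply Algebra.TensorProduct.ext'
  intro a b
  funext y
  simp only [AlgHom.comp_apply, Algebra.TensorProduct.map_tmul, AlgHom.coe_id, id_eq,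
    pre_apply, muAlg_tmul, Subalgebra.coe_val]
  change (((Algebra.TensorProduct.lid R ↥H) ((counit hH) a ⊗ₜ[R] b) : ↥H) : M → Ω) y = _
  rw [Algebra.TensorProduct.lid_tmul, Subalgebra.coe_smul, Pi.smul_apply, Algebra.smul_def,
    algebraMap_counit]

theorem rTensor_counit (hH : IsHopfOrder act H) :
    (Algebra.TensorProduct.map (counit hH) (.id R ↥H)).comp (comul hH) =
      (Algebra.TensorProduct.lid R ↥H).symm := by
  apply AlgHom.ext
  intro h
  apply (Algebra.TensorProduct.lid R ↥H).injective
  refine Eq.trans ?_ ((Algebra.TensorProduct.lid R ↥H).apply_symm_apply h).symm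
  apply Subtype.ext
  funext y
  have h1 := congrFun (congrArg (fun f => f (comul hH h)) (val_lid_map_counit hH)) y
  simp only [AlgHom.comp_apply, Subalgebra.coe_val, pre_apply] at h1
  rw [AlgHom.comp_apply]
  exact h1.trans (by rw [muAlg_comul_apply, zero_add])

theorem val_rid_map_counit (hH : IsHopfOrder act H) :
    H.val.comp ((Algebra.TensorProduct.rid R R ↥H).toAlgHom.comp
        (Algebra.TensorProduct.map (.id R ↥H) (counit hH))) =
      (pre (fun y : M => (y, (0 : M)))).comp (muAlg H) := by
  apply Algebra.TensorProduct.ext'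
  intro a b
  funext y
  simp only [AlgHom.comp_apply, Algebra.TensorProduct.map_tmul, AlgHom.coe_id, id_eq,
    pre_apply, muAlg_tmul, Subalgebra.coe_val]
  change (((Algebra.TensorProduct.rid R R ↥H) (a ⊗ₜ[R] (counit hH) b) : ↥H) : M → Ω) y = _
  rw [Algebra.TensorProduct.rid_tmul, Subalgebra.coe_smul, Pi.smul_apply, Algebra.smul_def,
    algebraMap_counit, mul_comm]

theorem lTensor_counit (hH : IsHopfOrder act H) :
    (Algebra.TensorProduct.map (.id R ↥H) (counit hH)).comp (comul hH) =
      (Algebra.TensorProduct.rid R R ↥H).symm := by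
  apply AlgHom.ext
  intro h
  apply (Algebra.TensorProduct.rid R R ↥H).injective
  refine Eq.trans ?_ ((Algebra.TensorProduct.rid R R ↥H).apply_symm_apply h).symm
  apply Subtype.ext
  funext y
  have h1 := congrFun (congrArg (fun f => f (comul hH h)) (val_rid_map_counit hH)) y
  simp only [AlgHom.comp_apply, Subalgebra.coe_val, pre_apply] at h1
  rw [AlgHom.comp_apply]
  exact h1.trans (by rw [muAlg_comul_apply, add_zero])

/-- The bialgebra structure of a Hopf order. -/
@[reducible] noncomputable def bialgebra (hH : IsHopfOrder act H) : Bialgebra R ↥H :=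
  Bialgebra.ofAlgHom (comul hH) (counit hH) (coassoc hH) (rTensor_counit hH) (lTensor_counit hH)

/-! #### Antipode and cocommutativity -/

/-- The antipode of a Hopf order: `h ↦ (x ↦ h (-x))`. -/
noncomputable def antipode (hH : IsHopfOrder act H) : ↥H →ₗ[R] ↥H where
  toFun h := ⟨fun x => (h : M → Ω) (-x), hH.antipode_mem h h.2⟩
  map_add' _ _ := rfl
  map_smul' _ _ := rfl

@[simp] theorem antipode_apply (hH : IsHopfOrder act H) (h : ↥H) (x : M) :
    (antipode hH h : M → Ω) x = (h : M → Ω) (-x) := rfl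

theorem mul_antipode_rTensor (hH : IsHopfOrder act H) (t : ↥H ⊗[R] ↥H) (x : M) :
    ((LinearMap.mul' R ↥H ((antipode hH).rTensor ↥H t) : ↥H) : M → Ω) x =
      muAlg H t (-x, x) := by
  induction t using TensorProduct.induction_on with
  | zero => simp
  | tmul a b =>
    rw [LinearMap.rTensor_tmul, LinearMap.mul'_apply, muAlg_tmul]
    rfl
  | add s t hs ht =>
    rw [map_add, map_add, map_add, Pi.add_apply, ← hs, ← ht]
    rfl

theorem mul_antipode_lTensor (hH : IsHopfOrder act H) (t : ↥H ⊗[R] ↥H) (x : M) :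
    ((LinearMap.mul' R ↥H ((antipode hH).lTensor ↥H t) : ↥H) : M → Ω) x =
      muAlg H t (x, -x) := by
  induction t using TensorProduct.induction_on with
  | zero => simp
  | tmul a b =>
    rw [LinearMap.lTensor_tmul, LinearMap.mul'_apply, muAlg_tmul]
    rfl
  | add s t hs ht =>
    rw [map_add, map_add, map_add, Pi.add_apply, ← hs, ← ht]
    rfl

theorem coe_algebraMap_counit (hH : IsHopfOrder act H) (h : ↥H) (x : M) :
    ((algebraMap R ↥H (counit hH h) : ↥H) : M → Ω) x = (h : M → Ω) 0 := by
  rw [← algebraMap_counit hH h]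
  rfl

/-- **The Hopf algebra structure of a Hopf order.** -/
@[reducible] noncomputable def hopfAlgebra (hH : IsHopfOrder act H) : HopfAlgebra R ↥H :=
  letI : Bialgebra R ↥H := bialgebra hH
  { (inferInstance : Bialgebra R ↥H) with
    antipode := antipode hH
    mul_antipode_rTensor_comul := by
      apply LinearMap.ext
      intro h
      apply Subtype.ext
      funext x
      refine (mul_antipode_rTensor hH (comul hH h) x).trans ?_
      rw [muAlg_comul_apply, neg_add_cancel]
      exact (coe_algebraMap_counit hH h x).symm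
    mul_antipode_lTensor_comul := by
      apply LinearMap.ext
      intro h
      apply Subtype.ext
      funext x
      refine (mul_antipode_lTensor hH (comul hH h) x).trans ?_
      rw [muAlg_comul_apply, add_neg_cancel]
      exact (coe_algebraMap_counit hH h x).symm }

theorem muAlg_comm (t : ↥H ⊗[R] ↥H) (x y : M) :
    muAlg H (TensorProduct.comm R ↥H ↥H t) (x, y) = muAlg H t (y, x) := by
  induction t using TensorProduct.induction_on with
  | zero => simp
  | tmul a b =>
    rw [TensorProduct.comm_tmul, muAlg_tmul, muAlg_tmul, mul_comm]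
  | add s t hs ht =>
    rw [map_add, map_add, map_add, Pi.add_apply, Pi.add_apply, hs, ht]

/-- A Hopf order is cocommutative. -/
theorem isCocomm (hH : IsHopfOrder act H) :
    letI := hopfAlgebra hH
    Coalgebra.IsCocomm R ↥H := by
  letI := hopfAlgebra hH
  refine ⟨?_⟩
  apply LinearMap.ext
  intro h
  apply muAlg_injective hH
  funext ⟨x, y⟩
  refine (muAlg_comm (comul hH h) x y).trans ?_
  rw [muAlg_comul_apply, add_comm]
  exact (muAlg_comul_apply hH h x y).symm

end Structure

end Fermat.Agent.ES.V19.HopfOrderStr2
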