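/-
Exploration V19 (S19 / S32 by hand), brick (A1) part 3, helper2: the points of a Hopf order and
the exit literal.

For a Hopf order `H ⊆ (M → ℚ̄)` (`IsHopfOrder act H`, `M` finite):
* `evalAt_bijective` : `x ↦ (h ↦ h x)` is a bijection `M → (H →ₐ[R] ℚ̄)` (injective by separation,
  surjective by counting: `#points ≤ rank_R H ≤ #M`);
* `exists_hopfAlgebra` : the conclusion of S19 / `GaloisRepAdic.IsFlatAt` for the Galois module `M`,
  over any principal ideal domain `R` with fraction field `ℚ`;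
* `exists_hopfAlgebra_Zl` : the same for `R = ℤ_(ℓ) = GaloisRep.ratLocalizedAt ℓ`, in the literal
  shape of the frozen statements.
-/
import Mathlib
import Fermat.Prelude.Def_GaloisRep_Flat
import Fermat.Agent.IG.VAL.Zl13
import Fermat.Agent.ES.V19.HopfOrderStr2

set_option autoImplicit false
set_option linter.unusedSectionVars false
set_option linter.style.haveILetI false

open TensorProduct

namespace Fermat.Agent.ES.V19.HopfOrderPts2

open Fermat.Agent.ES.V19.HopfOrder2 Fermat.Agent.ES.V19.HopfOrderStr2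

local notation "Ω" => AlgebraicClosure ℚ

section Generic

variable {R : Type} [CommRing R] [IsDomain R] [IsPrincipalIdealRing R] [IsIntegrallyClosed R]
  [Algebra R ℚ] [IsFractionRing R ℚ]
variable {M : Type} [AddCommGroup M]
variable {act : (Ω ≃ₐ[ℚ] Ω) → M → M} {H : Subalgebra R (M → Ω)}

/-- Evaluation at a point of `M`. -/
noncomputable def evalAt (H : Subalgebra R (M → Ω)) (x : M) : ↥H →ₐ[R] Ω :=
  (Pi.evalAlgHom R (fun _ : M => Ω) x).comp H.val

@[simp] theorem evalAt_apply (x : M) (h : ↥H) : evalAt H x h = (h : M → Ω) x := rfl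

theorem evalAt_injective (hH : IsHopfOrder act H) : Function.Injective (evalAt H) := by
  intro x y hxy
  by_contra hne
  obtain ⟨h, hh, hx⟩ := hH.separates x y hne
  exact hx (congrArg (fun f : ↥H →ₐ[R] Ω => f ⟨h, hh⟩) hxy)

theorem card_points_le [Finite M] (hH : IsHopfOrder act H) :
    Finite (↥H →ₐ[R] Ω) ∧ Nat.card (↥H →ₐ[R] Ω) ≤ Nat.card M := by
  classical
  have := moduleFree hH
  have := moduleFinite hH
  have := Fintype.ofFinite M
  set b := Module.Free.chooseBasis R ↥H with hb
  -- points are linearly independent in `Hom_R(H, Ω)`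
  have hli := linearIndependent_toLinearMap R ↥H Ω
  have hfinHom : Module.Finite Ω (↥H →ₗ[R] Ω) := Module.Finite.equiv (b.constr Ω)
  have hfin : Finite (↥H →ₐ[R] Ω) := hli.finite_of_isNoetherian
  have := Fintype.ofFinite (↥H →ₐ[R] Ω)
  have h1 : Fintype.card (↥H →ₐ[R] Ω) ≤ Module.finrank Ω (↥H →ₗ[R] Ω) :=
    hli.fintype_card_le_finrank
  have h2 : Module.finrank Ω (↥H →ₗ[R] Ω) = Fintype.card (Module.Free.ChooseBasisIndex R ↥H) := by
    rw [← (b.constr Ω).finrank_eq, Module.finrank_fintype_fun_eq_card]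
  -- the basis is linearly independent in `M → Ω`
  have h3 : Fintype.card (Module.Free.ChooseBasisIndex R ↥H) ≤ Module.finrank Ω (M → Ω) :=
    (linearIndependent_basis hH b).fintype_card_le_finrank
  rw [Module.finrank_fintype_fun_eq_card] at h3
  refine ⟨hfin, ?_⟩
  rw [Nat.card_eq_fintype_card, Nat.card_eq_fintype_card]
  omega

theorem evalAt_bijective [Finite M] (hH : IsHopfOrder act H) :
    Function.Bijective (evalAt H) := by
  obtain ⟨hfin, hle⟩ := card_points_le hH
  exact (evalAt_injective hH).bijective_of_nat_card_le hle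

theorem lift_evalAt (x y : M) :
    Algebra.TensorProduct.lift (evalAt H x) (evalAt H y) (fun _ _ => Commute.all _ _) =
      (Pi.evalAlgHom R (fun _ : M × M => Ω) (x, y)).comp (muAlg H) := by
  apply Algebra.TensorProduct.ext'
  intro a b
  simp

/-- **Exit literal (A1), generic base ring.** -/
theorem exists_hopfAlgebra [Finite M] (hH : IsHopfOrder act H) :
    ∃ (H' : Type) (_ : CommRing H') (_ : HopfAlgebra R H'),
      Module.Finite R H' ∧ Module.Flat R H' ∧ Coalgebra.IsCocomm R H' ∧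
      ∃ e : WithConv (H' →ₐ[R] Ω) ≃ M,
        (∀ f g, e (f * g) = e f + e g) ∧
        ∀ (σ : Ω ≃ₐ[ℚ] Ω) (f g : WithConv (H' →ₐ[R] Ω)),
          (∀ h : H', g h = σ (f h)) → e g = act σ (e f) := by
  have hfree := moduleFree hH
  have hbij := evalAt_bijective hH
  letI := hopfAlgebra hH
  -- the points equivalence
  let E : M ≃ (↥H →ₐ[R] Ω) := Equiv.ofBijective (evalAt H) hbij
  let e : WithConv (↥H →ₐ[R] Ω) ≃ M := (WithConv.equiv _).trans E.symm
  have he : ∀ f : WithConv (↥H →ₐ[R] Ω), f.ofConv = evalAt H (e f) := fun f =>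
    (E.apply_symm_apply f.ofConv).symm
  have he' : ∀ (f : WithConv (↥H →ₐ[R] Ω)) (x : M), f.ofConv = evalAt H x → e f = x := by
    intro f x hfx
    apply evalAt_injective hH
    rw [← he f, hfx]
  refine ⟨↥H, inferInstance, hopfAlgebra hH, moduleFinite hH, Module.Flat.of_free,
    isCocomm hH, e, ?_, ?_⟩
  · intro f g
    apply he'
    apply AlgHom.ext
    intro c
    have h1 : (f * g) c = Algebra.TensorProduct.lift f.ofConv g.ofConv
        (fun _ _ => Commute.all _ _) (comul hH c) := AlgHom.convMul_apply f g c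
    rw [he f, he g, lift_evalAt] at h1
    refine h1.trans ?_
    rw [AlgHom.comp_apply]
    exact muAlg_comul_apply hH c (e f) (e g)
  · intro σ f g hfg
    apply he'
    apply AlgHom.ext
    intro c
    have h1 : g.ofConv c = σ (f.ofConv c) := hfg c
    rw [h1, he f, evalAt_apply, evalAt_apply, hH.equivariant _ c.2]

end Generic

/-! ### The base ring `ℤ_(ℓ)` -/

section Zl

open Fermat.Agent.IG.VAL.Zl13

variable (ℓ : ℕ) [Fact ℓ.Prime] {M : Type} [AddCommGroup M] [Finite M]

/-- **Exit literal (A1) over `ℤ_(ℓ)`**, in the shape of S19 / `GaloisRepAdic.IsFlatAt`. -/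
theorem exists_hopfAlgebra_Zl {act : (Ω ≃ₐ[ℚ] Ω) → M → M}
    {H : Subalgebra ↥(GaloisRep.ratLocalizedAt ℓ) (M → Ω)} (hH : IsHopfOrder act H) :
    ∃ (H' : Type) (_ : CommRing H') (_ : HopfAlgebra (GaloisRep.ratLocalizedAt ℓ) H'),
      Module.Finite (GaloisRep.ratLocalizedAt ℓ) H' ∧ Module.Flat (GaloisRep.ratLocalizedAt ℓ) H' ∧
      Coalgebra.IsCocomm (GaloisRep.ratLocalizedAt ℓ) H' ∧
      ∃ e : WithConv (H' →ₐ[GaloisRep.ratLocalizedAt ℓ] AlgebraicClosure ℚ) ≃ M,
        (∀ f g, e (f * g) = e f + e g) ∧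
        ∀ (σ : AlgebraicClosure ℚ ≃ₐ[ℚ] AlgebraicClosure ℚ)
          (f g : WithConv (H' →ₐ[GaloisRep.ratLocalizedAt ℓ] AlgebraicClosure ℚ)),
          (∀ h : H', g h = σ (f h)) → e g = act σ (e f) :=
  exists_hopfAlgebra hH

end Zl

end Fermat.Agent.ES.V19.HopfOrderPts2
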