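/-
Programme V (S19 by hand, route `S19_ROUTE23.md`), chapter A, brick `RankDescent4` (helper4).

Galois-free companions of the exit literal (A1) (`hopfOrder_core`):

* `linearIndependent_of_equivariant` (Artin's minimal-relation argument): if a group `G` acts on a field
  `Ω` by ring automorphisms with `Ω^G ⊆ K` and on a set `M`, then a `K`-linearly independent family of
  `G`-equivariant functions `M → Ω` is `Ω`-linearly independent.
* `span_eq_top_of_separates`: the `Ω`-span of a point-separating `R`-subalgebra of `M → Ω`
  (`M` finite) is everything.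
* `finrank_eq_card_of_equivariant`: the `hrank` hypothesis of `hopfOrder_core`: a module-finite
  `R`-subalgebra `H ⊆ M → Ω` (`R` a PID with fraction field `K = Ω^G`) consisting of equivariant functions
  and separating the points of `M` has `finrank R H = card M`.
* `eval_zero_mem_range_of_equivariant`: the `hε` hypothesis: `h 0 ∈ R` for `h ∈ H`.
-/
import Mathlib

set_option autoImplicit false

noncomputable section

namespace Fermat.Agent.ES.V19.RankDescent4

open scoped BigOperators

section Artin

variable {K Ω G M ι : Type*} [Field K] [Field Ω] [Algebra K Ω] [Group G] [MulSemiringAction G Ω]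
  [MulAction G M]

/-- A linear relation between equivariant functions can be twisted by `σ`. -/
theorem twist_relation (f : ι → M → Ω) (hf : ∀ i (σ : G) x, f i (σ • x) = σ • f i x)
    (s : Finset ι) (c : ι → Ω) (h : ∑ i ∈ s, c i • f i = 0) (σ : G) :
    ∑ i ∈ s, (σ • c i) • f i = 0 := by
  funext x
  have h1 := congrFun h (σ⁻¹ • x)
  simp only [Finset.sum_apply, Pi.smul_apply, smul_eq_mul, Pi.zero_apply] at h1 ⊢
  have h2 := congrArg (fun a => σ • a) h1
  simp only [Finset.smul_sum, smul_mul', smul_zero] at h2
  have h3 : ∀ i, σ • f i (σ⁻¹ • x) = f i x := fun i => by rw [← hf, smul_inv_smul]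
  simpa [h3] using h2

/-- **Artin's argument.**  A `K`-linearly independent family of `G`-equivariant functions `M → Ω` is
`Ω`-linearly independent, provided every `G`-fixed element of `Ω` comes from `K`. -/
theorem linearIndependent_of_equivariant
    (hfix : ∀ a : Ω, (∀ σ : G, σ • a = a) → a ∈ (algebraMap K Ω).range)
    (f : ι → M → Ω) (hf : ∀ i (σ : G) x, f i (σ • x) = σ • f i x)
    (hK : LinearIndependent K f) : LinearIndependent Ω f := by
  classical
  rw [linearIndependent_iff']
  intro s
  induction s using Finset.induction_on with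
  | empty => intro c _ i hi; simp at hi
  | insert a t hat ih =>
    intro c hc
    by_cases hca : c a = 0
    · have hc' : ∑ i ∈ t, c i • f i = 0 := by
        rw [Finset.sum_insert hat, hca, zero_smul, zero_add] at hc; exact hc
      intro i hi
      rcases Finset.mem_insert.mp hi with rfl | hi
      · exact hca
      · exact ih c hc' i hi
    · exfalso
      set c' : ι → Ω := fun i => (c a)⁻¹ * c i with hc'def
      have hc'a : c' a = 1 := inv_mul_cancel₀ hca
      have hrel : ∑ i ∈ insert a t, c' i • f i = 0 := by
        have h1 := congrArg (fun g => (c a)⁻¹ • g) hc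
        simpa [Finset.smul_sum, smul_smul, hc'def] using h1
      have hfixed : ∀ i ∈ insert a t, ∀ σ : G, σ • c' i = c' i := by
        intro i hi σ
        rcases Finset.mem_insert.mp hi with rfl | hi
        · rw [hc'a, smul_one]
        have h1 := twist_relation f hf _ c' hrel σ
        have h2 : ∑ i ∈ t, (σ • c' i - c' i) • f i = 0 := by
          rw [Finset.sum_insert hat] at h1 hrel
          rw [hc'a] at h1 hrel
          rw [smul_one] at h1
          have h3 : ∑ i ∈ t, (σ • c' i) • f i = ∑ i ∈ t, c' i • f i := by
            have := h1.trans hrel.symm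
            exact add_left_cancel this
          simp only [sub_smul, Finset.sum_sub_distrib, h3, sub_self]
        exact sub_eq_zero.mp (ih _ h2 i hi)
      have hK' : ∀ i ∈ insert a t, ∃ d : K, algebraMap K Ω d = c' i := fun i hi =>
        hfix (c' i) (hfixed i hi)
      choose! d hd using hK'
      have hrelK : ∑ i ∈ insert a t, d i • f i = 0 := by
        rw [← hrel]
        refine Finset.sum_congr rfl fun i hi => ?_
        rw [← hd i hi]
        funext x
        simp [Algebra.smul_def]
      have hda := linearIndependent_iff'.mp hK _ _ hrelK a (Finset.mem_insert_self a t)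
      have := hd a (Finset.mem_insert_self a t)
      rw [hda, map_zero, hc'a] at this
      exact zero_ne_one this

end Artin

section Separating

variable {R Ω M : Type*} [CommRing R] [Field Ω] [Algebra R Ω] [Finite M]

/-- The `Ω`-span of a point-separating `R`-subalgebra of `M → Ω` (`M` finite) is everything. -/
theorem span_eq_top_of_separates (H : Subalgebra R (M → Ω))
    (hsep : ∀ x y : M, x ≠ y → ∃ h ∈ H, h x ≠ h y) :
    Submodule.span Ω (H : Set (M → Ω)) = ⊤ := by
  classical
  have : Fintype M := Fintype.ofFinite M
  -- the span is the underlying module of an `Ω`-subalgebra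
  have hspan : Submodule.span Ω (H : Set (M → Ω)) =
      Subalgebra.toSubmodule (Algebra.adjoin Ω (H : Set (M → Ω))) := by
    rw [Algebra.adjoin_eq_span]
    congr 1
    exact congrArg (fun S : Submonoid (M → Ω) => (S : Set (M → Ω)))
      (Submonoid.closure_eq H.toSubmonoid).symm
  rw [hspan]
  set A := Algebra.adjoin Ω (H : Set (M → Ω)) with hA
  have hHA : ∀ h ∈ H, h ∈ A := fun h hh => Algebra.subset_adjoin hh
  -- indicator functions
  have hδ : ∀ x : M, (Pi.single x (1 : Ω) : M → Ω) ∈ A := by
    intro x
    have hch : ∀ y : M, ∃ g ∈ A, g x = 1 ∧ (y ≠ x → g y = 0) := by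
      intro y
      by_cases hyx : y = x
      · exact ⟨1, A.one_mem, rfl, fun h => absurd hyx h⟩
      · obtain ⟨h, hh, hne⟩ := hsep x y (Ne.symm hyx)
        refine ⟨(h x - h y)⁻¹ • (h - algebraMap Ω (M → Ω) (h y)), ?_, ?_, ?_⟩
        · exact A.smul_mem (A.sub_mem (hHA h hh) (A.algebraMap_mem _)) _
        · simp only [Pi.smul_apply, Pi.sub_apply, Pi.algebraMap_apply, Algebra.algebraMap_self,
            RingHom.id_apply, smul_eq_mul]
          exact inv_mul_cancel₀ (sub_ne_zero.mpr hne)
        · intro _
          simp
    choose g hgA hgx hgy using hch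
    have hprod : (Pi.single x (1 : Ω) : M → Ω) = ∏ y, g y := by
      funext z
      rw [Finset.prod_apply]
      by_cases hzx : z = x
      · subst hzx
        simp [hgx]
      · rw [Pi.single_eq_of_ne hzx]
        exact (Finset.prod_eq_zero (f := fun y => g y z) (Finset.mem_univ z) (hgy z hzx)).symm
    rw [hprod]
    exact A.prod_mem fun y _ => hgA y
  rw [eq_top_iff]
  intro u _
  have hu : u = ∑ x, u x • (Pi.single x (1 : Ω) : M → Ω) := by
    funext z
    simp [Finset.sum_apply, Pi.single_apply]
  rw [hu]
  exact Submodule.sum_mem _ fun x _ => Submodule.smul_mem _ _ (hδ x)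

end Separating

section Rank

variable {R K Ω G M : Type*} [CommRing R] [IsDomain R] [IsPrincipalIdealRing R]
  [Field K] [Algebra R K] [IsFractionRing R K] [Field Ω] [Algebra R Ω] [Algebra K Ω]
  [IsScalarTower R K Ω] [Group G] [MulSemiringAction G Ω] [Fintype M] [MulAction G M]

omit [IsDomain R] [IsPrincipalIdealRing R] in
include K in
theorem algebraMap_injective_of_tower : Function.Injective (algebraMap R Ω) := by
  rw [IsScalarTower.algebraMap_eq R K Ω]
  exact (algebraMap K Ω).injective.comp (IsFractionRing.injective R K)

omit [IsDomain R] [IsPrincipalIdealRing R] [Fintype M] in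
/-- `R`-linearly independent equivariant functions are `Ω`-linearly independent. -/
theorem linearIndependent_of_equivariant_of_ring {ι : Type*}
    (hfix : ∀ a : Ω, (∀ σ : G, σ • a = a) → a ∈ (algebraMap K Ω).range)
    (v : ι → M → Ω) (hv : ∀ i (σ : G) x, v i (σ • x) = σ • v i x)
    (hR : LinearIndependent R v) : LinearIndependent Ω v :=
  linearIndependent_of_equivariant (K := K) hfix v hv
    ((LinearIndependent.iff_fractionRing R K).mp hR)

omit [IsDomain R] [IsPrincipalIdealRing R] [Fintype M] in
/-- The coordinate functions of an `R`-basis of `H` are `R`-linearly independent in `M → Ω`. -/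
theorem linearIndependent_coe_basis {ι : Type*} (H : Subalgebra R (M → Ω))
    (b : Module.Basis ι R H) : LinearIndependent R (fun i => ((b i : H) : M → Ω)) :=
  b.linearIndependent.map' (Subalgebra.val H).toLinearMap
    (LinearMap.ker_eq_bot.mpr Subtype.val_injective)

omit [IsDomain R] [IsPrincipalIdealRing R] [Fintype M] in
/-- An `R`-basis of a separating `H` spans `M → Ω` over `Ω`. -/
theorem span_coe_basis_eq_top [Finite M] {ι : Type*} (H : Subalgebra R (M → Ω))
    (hsep : ∀ x y : M, x ≠ y → ∃ h ∈ H, h x ≠ h y) (b : Module.Basis ι R H) :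
    Submodule.span Ω (Set.range fun i => ((b i : H) : M → Ω)) = ⊤ := by
  rw [eq_top_iff, ← span_eq_top_of_separates H hsep]
  refine Submodule.span_le.mpr ?_
  intro h hh
  have hmem : (⟨h, hh⟩ : H) ∈ Submodule.span R (Set.range b) := by
    rw [b.span_eq]; trivial
  have h2 : h ∈ Submodule.span R (Set.range fun i => ((b i : H) : M → Ω)) := by
    have := Submodule.apply_mem_span_image_of_mem_span (Subalgebra.val H).toLinearMap hmem
    rw [← Set.range_comp] at this
    exact this
  exact Submodule.span_subset_span R Ω _ h2

omit [IsPrincipalIdealRing R] in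
/-- The coordinate functions of an `R`-basis of an equivariant separating `H` form an `Ω`-basis
of `M → Ω`. -/
def basisOfOrder {ι : Type*}
    (hfix : ∀ a : Ω, (∀ σ : G, σ • a = a) → a ∈ (algebraMap K Ω).range)
    (H : Subalgebra R (M → Ω))
    (hequiv : ∀ h ∈ H, ∀ (σ : G) (x : M), h (σ • x) = σ • h x)
    (hsep : ∀ x y : M, x ≠ y → ∃ h ∈ H, h x ≠ h y) (b : Module.Basis ι R H) :
    Module.Basis ι Ω (M → Ω) :=
  Module.Basis.mk
    (linearIndependent_of_equivariant_of_ring (K := K) hfix _
      (fun i σ x => hequiv _ (b i).2 σ x) (linearIndependent_coe_basis H b))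
    (span_coe_basis_eq_top H hsep b).ge

omit [IsDomain R] [IsPrincipalIdealRing R] in
@[simp] theorem basisOfOrder_apply {ι : Type*}
    (hfix : ∀ a : Ω, (∀ σ : G, σ • a = a) → a ∈ (algebraMap K Ω).range)
    (H : Subalgebra R (M → Ω))
    (hequiv : ∀ h ∈ H, ∀ (σ : G) (x : M), h (σ • x) = σ • h x)
    (hsep : ∀ x y : M, x ≠ y → ∃ h ∈ H, h x ≠ h y) (b : Module.Basis ι R H) (i : ι) :
    basisOfOrder (K := K) hfix H hequiv hsep b i = ((b i : H) : M → Ω) := by
  simp [basisOfOrder]

omit [Fintype M] in
include K in
/-- `H` is a free `R`-module (torsion-free and finite over a PID). -/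
theorem free_of_order (H : Subalgebra R (M → Ω)) [Module.Finite R H] : Module.Free R H := by
  have hinj : Function.Injective (algebraMap R Ω) := algebraMap_injective_of_tower (K := K)
  have : FaithfulSMul R Ω := (faithfulSMul_iff_algebraMap_injective R Ω).mpr hinj
  have : Module.IsTorsionFree R H := inferInstance
  infer_instance

/-- **The `hrank` hypothesis of `hopfOrder_core`.** -/
theorem finrank_eq_card_of_equivariant
    (hfix : ∀ a : Ω, (∀ σ : G, σ • a = a) → a ∈ (algebraMap K Ω).range)
    (H : Subalgebra R (M → Ω)) [Module.Finite R H]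
    (hequiv : ∀ h ∈ H, ∀ (σ : G) (x : M), h (σ • x) = σ • h x)
    (hsep : ∀ x y : M, x ≠ y → ∃ h ∈ H, h x ≠ h y) :
    Module.finrank R H = Fintype.card M := by
  classical
  have : Module.Free R H := free_of_order (K := K) H
  let b := Module.Free.chooseBasis R H
  have hcard : Module.finrank R H = Fintype.card (Module.Free.ChooseBasisIndex R H) :=
    Module.finrank_eq_card_chooseBasisIndex R H
  have := Module.finrank_eq_card_basis (basisOfOrder (K := K) hfix H hequiv hsep b)
  rw [Module.finrank_fintype_fun_eq_card] at this
  omega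

omit [Fintype M] in
/-- **The `hε` hypothesis of `hopfOrder_core`**: the value at a `G`-fixed point of an element of a
module-finite equivariant `H` lies in `R`. -/
theorem eval_mem_range_of_equivariant
    (hfix : ∀ a : Ω, (∀ σ : G, σ • a = a) → a ∈ (algebraMap K Ω).range)
    (H : Subalgebra R (M → Ω)) [Module.Finite R H]
    (hequiv : ∀ h ∈ H, ∀ (σ : G) (x : M), h (σ • x) = σ • h x)
    (x₀ : M) (hx₀ : ∀ σ : G, σ • x₀ = x₀) (h : M → Ω) (hh : h ∈ H) :
    h x₀ ∈ (algebraMap R Ω).range := by
  -- `h x₀` is `G`-fixed, hence in `K`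
  obtain ⟨a, ha⟩ := hfix (h x₀) (fun σ => by rw [← hequiv h hh σ x₀, hx₀])
  -- `h` is integral over `R`
  have hint : IsIntegral R (⟨h, hh⟩ : H) := Algebra.IsIntegral.isIntegral _
  have hint' : IsIntegral R (h x₀) := by
    have h1 : IsIntegral R h := by
      have := hint.map (Subalgebra.val H)
      simpa using this
    have h2 := h1.map (Pi.evalAlgHom R (fun _ : M => Ω) x₀)
    simpa using h2
  rw [← ha] at hint'
  have hinta : IsIntegral R a :=
    (isIntegral_algebraMap_iff (algebraMap K Ω).injective).mp hint'
  obtain ⟨r, hr⟩ := (IsIntegrallyClosed.isIntegral_iff (R := R) (K := K)).mp hinta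
  refine ⟨r, ?_⟩
  rw [← ha, ← hr, ← IsScalarTower.algebraMap_apply]

end Rank

end Fermat.Agent.ES.V19.RankDescent4
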