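/-
Programme V (S19), chapter A2 (descent), helper26: **the algebra-level descent** `O_L → ℤ_(ℓ)` and the
exit of (A2).

`H'` an `O_L`-subalgebra (`O_L = fixRing A Γ_L`, `UnrLevel A Γ_L`) of `M → ℚ̄`, `M` a finite `G_ℚ`-module:
`Γ_L`-equivariant, finitely generated, separating, stable under `star τ` (`τ ∈ D`), under the
comultiplication and the antipode.  With a reference basis of `G_ℚ`-equivariant functions and `DenseHyp ℓ A`:

* `descend hA H'`          : the `ℤ_(ℓ)`-subalgebra of `G_ℚ`-equivariant elements of `H'`;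
* `descend_fg`, `descend_separates`;
* `fixed_of_comul`         : structure constants of the comultiplication in an equivariant basis are rational;
* `isHopfOrder_descend`    : `HopfOrderStr2.IsHopfOrder (fun σ x => σ • x) (descend _ H')`  (exit of (A2));
* `exists_hopfAlgebra_of_local` : with (A1), the literal of S19 / `IsFlatAt` for `M`.
-/
import Mathlib
import Fermat.Prelude.Def_FLTPrelim_Ramification
import Fermat.Prelude.Def_GaloisRep_Flat
import Fermat.Agent.IG.VAL.Zl13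
import Fermat.Agent.ES.V19.StarAct26
import Fermat.Agent.ES.V19.TraceDescent26
import Fermat.Agent.ES.V19.CoordEquiv26
import Fermat.Agent.ES.V19.DescentCore26
import Fermat.Agent.ES.V19.RankDescent4
import Fermat.Agent.ES.V19.HopfOrderPts2

set_option autoImplicit false
set_option linter.style.haveILetI false
set_option linter.unusedSectionVars false

namespace Fermat.Agent.ES.V19.DescentAsm26

open Fermat.Agent.ES.V19.StarAct26 Fermat.Agent.ES.V19.TraceDescent26
  Fermat.Agent.ES.V19.CoordEquiv26 Fermat.Agent.ES.V19.DescentCore26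
  Fermat.Agent.ES.V19.HopfOrderStr2 Fermat.Agent.IG.VAL.Zl13

local notation "Qbar" => AlgebraicClosure ℚ
local notation "GQ" => (AlgebraicClosure ℚ ≃ₐ[ℚ] AlgebraicClosure ℚ)

noncomputable section

open scoped Classical

variable {M : Type} [AddCommGroup M] [Finite M] [DistribMulAction GQ M]
variable {ℓ : ℕ} {A : ValuationSubring Qbar} {ΓL : Subgroup GQ}

theorem algebraMap_Zl_apply (r : ↥(GaloisRep.ratLocalizedAt ℓ)) :
    algebraMap ↥(GaloisRep.ratLocalizedAt ℓ) Qbar r = algebraMap ℚ Qbar (r : ℚ) := rfl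

theorem algebraMap_fix_apply (c : ↥(fixRing A ΓL)) :
    algebraMap ↥(fixRing A ΓL) Qbar c = (c : Qbar) := rfl

/-- The descended order: the `G_ℚ`-equivariant elements of `H'`. -/
def descend (hA : ∀ q : ℚ, q ∈ GaloisRep.ratLocalizedAt ℓ → algebraMap ℚ Qbar q ∈ A)
    (H' : Subalgebra ↥(fixRing A ΓL) (M → Qbar)) :
    Subalgebra ↥(GaloisRep.ratLocalizedAt ℓ) (M → Qbar) where
  carrier := {f | f ∈ H' ∧ IsEquivariant (⊤ : Subgroup GQ) f}
  mul_mem' := fun hf hg => ⟨H'.mul_mem hf.1 hg.1, hf.2.mul hg.2⟩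
  add_mem' := fun hf hg => ⟨H'.add_mem hf.1 hg.1, hf.2.add hg.2⟩
  algebraMap_mem' := fun r => by
    have hr : algebraMap ℚ Qbar (r : ℚ) ∈ fixRing A ΓL := ⟨hA _ r.2, fun σ _ => σ.commutes _⟩
    have h1 : algebraMap ↥(GaloisRep.ratLocalizedAt ℓ) (M → Qbar) r =
        algebraMap ↥(fixRing A ΓL) (M → Qbar) ⟨_, hr⟩ := by
      funext x
      rfl
    refine ⟨by rw [h1]; exact H'.algebraMap_mem _, ?_⟩
    intro σ _ x
    rw [Pi.algebraMap_apply, Pi.algebraMap_apply, algebraMap_Zl_apply, AlgEquiv.commutes]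

theorem mem_descend {hA : ∀ q : ℚ, q ∈ GaloisRep.ratLocalizedAt ℓ → algebraMap ℚ Qbar q ∈ A}
    {H' : Subalgebra ↥(fixRing A ΓL) (M → Qbar)} {f : M → Qbar} :
    f ∈ descend hA H' ↔ f ∈ H' ∧ IsEquivariant (⊤ : Subgroup GQ) f := Iff.rfl

theorem Zl_smul_eq (r : ↥(GaloisRep.ratLocalizedAt ℓ)) (g : M → Qbar) :
    r • g = (algebraMap ℚ Qbar (r : ℚ)) • g := by
  funext x
  rw [Pi.smul_apply, Pi.smul_apply, Algebra.smul_def, algebraMap_Zl_apply, smul_eq_mul]

/-- If `h(x + y) = ∑ C k l · u k x · u l y` with `h` and the linearly independent `u k` all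
`G_ℚ`-equivariant, then the coefficients `C k l` are `G_ℚ`-fixed. -/
theorem fixed_of_comul {κ : Type*} [Fintype κ] (u : κ → M → Qbar)
    (hu : ∀ k, IsEquivariant (⊤ : Subgroup GQ) (u k)) (hli : LinearIndependent Qbar u)
    {h : M → Qbar} (hh : IsEquivariant (⊤ : Subgroup GQ) h) (C : κ → κ → Qbar)
    (hC : ∀ x y, h (x + y) = ∑ k, ∑ l, C k l * u k x * u l y) (σ : GQ) (k l : κ) :
    σ (C k l) = C k l := by
  have key : ∀ x' y' : M, ∑ k, ∑ l, (σ (C k l) - C k l) * u k x' * u l y' = 0 := by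
    intro x' y'
    have h1 : h (x' + y') = ∑ k, ∑ l, σ (C k l) * u k x' * u l y' := by
      have h2 : x' + y' = σ • (σ⁻¹ • x' + σ⁻¹ • y') := by
        rw [smul_add, smul_inv_smul, smul_inv_smul]
      rw [h2, hh σ (Subgroup.mem_top σ), hC, map_sum]
      refine Finset.sum_congr rfl fun k _ => ?_
      rw [map_sum]
      refine Finset.sum_congr rfl fun l _ => ?_
      rw [map_mul, map_mul, ← hu k σ (Subgroup.mem_top σ), ← hu l σ (Subgroup.mem_top σ),
        smul_inv_smul, smul_inv_smul]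
    have h3 := hC x' y'
    rw [h1] at h3
    simp only [sub_mul, Finset.sum_sub_distrib]
    rw [h3]
    exact sub_self _
  rw [Fintype.linearIndependent_iff] at hli
  have step1 : ∀ y' : M, ∀ k, ∑ l, (σ (C k l) - C k l) * u l y' = 0 := by
    intro y'
    apply hli (fun k => ∑ l, (σ (C k l) - C k l) * u l y')
    funext x'
    simp only [Finset.sum_apply, Pi.smul_apply, smul_eq_mul, Pi.zero_apply]
    rw [← key x' y']
    refine Finset.sum_congr rfl fun k _ => ?_
    rw [Finset.sum_mul]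
    refine Finset.sum_congr rfl fun l _ => ?_
    ring
  have step2 : ∀ k l, σ (C k l) - C k l = 0 := by
    intro k
    apply hli (fun l => σ (C k l) - C k l)
    funext y'
    simp only [Finset.sum_apply, Pi.smul_apply, smul_eq_mul, Pi.zero_apply]
    exact step1 y' k
  exact sub_eq_zero.1 (step2 k l)

section Asm

variable [Fact ℓ.Prime]

omit [Finite M] [AddCommGroup M] [DistribMulAction GQ M] in
theorem natCast_ne_zero_Qbar : (ℓ : Qbar) ≠ 0 :=
  Nat.cast_ne_zero.2 (Fact.out : ℓ.Prime).ne_zero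

variable {ι : Type*} [Fintype ι]

/-- The descended order is a finitely generated `ℤ_(ℓ)`-module. -/
theorem descend_fg (hD : DenseHyp ℓ A) (b : Module.Basis ι Qbar (M → Qbar))
    (hb : ∀ i, IsEquivariant (⊤ : Subgroup GQ) (b i))
    (H' : Subalgebra ↥(fixRing A ΓL) (M → Qbar)) (hfg : H'.toSubmodule.FG) :
    (Subalgebra.toSubmodule (descend hD.ratLoc_mem H')).FG := by
  obtain ⟨a₁, ha₁⟩ := exists_bound hD b (Subalgebra.toSubmodule H') hfg
  have hℓ : (ℓ : Qbar) ^ a₁ ≠ 0 := pow_ne_zero _ natCast_ne_zero_Qbar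
  set N : Submodule ↥(GaloisRep.ratLocalizedAt ℓ) (M → Qbar) :=
    Submodule.span ↥(GaloisRep.ratLocalizedAt ℓ)
      (Set.range fun i => ((ℓ : Qbar) ^ a₁)⁻¹ • b i) with hN
  have hNfg : N.FG := Submodule.fg_span (Set.finite_range _)
  refine Submodule.FG.of_le hNfg ?_
  intro f hf
  obtain ⟨hf1, hf2⟩ := hf
  choose q hq hqe using fun i =>
    coords_descended hD b hb (Subalgebra.toSubmodule H') ha₁ hf1 hf2 i
  have hsum : f = ∑ i, (⟨q i, hq i⟩ : ↥(GaloisRep.ratLocalizedAt ℓ)) •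
      (((ℓ : Qbar) ^ a₁)⁻¹ • b i) := by
    conv_lhs => rw [← b.sum_repr f]
    refine Finset.sum_congr rfl fun i _ => ?_
    rw [Zl_smul_eq, smul_smul]
    congr 1
    show b.repr f i = algebraMap ℚ Qbar (q i) * ((ℓ : Qbar) ^ a₁)⁻¹
    rw [← hqe i]
    field_simp
  rw [hsum]
  exact Submodule.sum_mem _ fun i _ =>
    Submodule.smul_mem _ _ (Submodule.subset_span ⟨i, rfl⟩)

/-- The descended order separates points. -/
theorem descend_separates (hD : DenseHyp ℓ A) (hΓ : UnrLevel A ΓL)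
    (b : Module.Basis ι Qbar (M → Qbar)) (hb : ∀ i, IsEquivariant (⊤ : Subgroup GQ) (b i))
    (H' : Subalgebra ↥(fixRing A ΓL) (M → Qbar)) (hfg : H'.toSubmodule.FG)
    (hequiv : ∀ f ∈ H', IsEquivariant ΓL f)
    (hsep : ∀ x y : M, x ≠ y → ∃ h ∈ H', h x ≠ h y)
    (hstab : ∀ τ ∈ A.decompositionSubgroup ℚ, ∀ f ∈ H', StarAct26.star τ f ∈ H') :
    ∀ x y : M, x ≠ y → ∃ h ∈ descend hD.ratLoc_mem H', h x ≠ h y := by
  intro x y hxy
  by_contra hcon
  have hcon' : ∀ h ∈ descend hD.ratLoc_mem H', h x = h y := fun h hh => by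
    by_contra hne
    exact hcon ⟨h, hh, hne⟩
  obtain ⟨f, hf, hne⟩ := hsep x y hxy
  have hspan : Submodule.span Qbar ((Subalgebra.toSubmodule H' : Submodule _ _) : Set (M → Qbar))
      = ⊤ := RankDescent4.span_eq_top_of_separates H' hsep
  have hmem := mem_span_descended hD hΓ b hb (Subalgebra.toSubmodule H') hfg hequiv hspan hstab
    natCast_ne_zero_Qbar (f := f) hf
  have hall : ∀ g ∈ Submodule.span ↥(fixRing A ΓL)
      {h | h ∈ Subalgebra.toSubmodule H' ∧ IsEquivariant (⊤ : Subgroup GQ) h}, g x = g y := by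
    intro g hg
    induction hg using Submodule.span_induction with
    | mem s hs => exact hcon' s hs
    | zero => rfl
    | add f g _ _ hf hg => rw [Pi.add_apply, Pi.add_apply, hf, hg]
    | smul c f _ hf => rw [Pi.smul_apply, Pi.smul_apply, hf]
  exact hne (hall f hmem)

/-- **(A2)**: the descended order is a Hopf order over `ℤ_(ℓ)`. -/
theorem isHopfOrder_descend (hD : DenseHyp ℓ A) (hΓ : UnrLevel A ΓL)
    (b : Module.Basis ι Qbar (M → Qbar)) (hb : ∀ i, IsEquivariant (⊤ : Subgroup GQ) (b i))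
    (H' : Subalgebra ↥(fixRing A ΓL) (M → Qbar)) (hfg : H'.toSubmodule.FG)
    (hequiv : ∀ f ∈ H', IsEquivariant ΓL f)
    (hsep : ∀ x y : M, x ≠ y → ∃ h ∈ H', h x ≠ h y)
    (hstab : ∀ τ ∈ A.decompositionSubgroup ℚ, ∀ f ∈ H', StarAct26.star τ f ∈ H')
    (hcomul : ∀ h ∈ H', ∃ (n : ℕ) (a c : Fin n → M → Qbar), (∀ i, a i ∈ H') ∧ (∀ i, c i ∈ H') ∧
      ∀ x y, h (x + y) = ∑ i, a i x * c i y)
    (hanti : ∀ h ∈ H', (fun x => h (-x)) ∈ H') :
    IsHopfOrder (fun (σ : GQ) (x : M) => σ • x) (descend hD.ratLoc_mem H') := by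
  set H := descend hD.ratLoc_mem H' with hH
  have hHfg := descend_fg hD b hb H' hfg
  have hHsep := descend_separates hD hΓ b hb H' hfg hequiv hsep hstab
  have hHeq : ∀ h ∈ H, ∀ (σ : GQ) (x : M), h (σ • x) = σ • (h x) :=
    fun h hh σ x => hh.2 σ (Subgroup.mem_top σ) x
  refine ⟨fun σ => MulAction.bijective σ, fun σ => smul_zero σ, hHeq, hHfg, hHsep, ?_, ?_⟩
  · -- comultiplication
    haveI : Module.Finite ↥(GaloisRep.ratLocalizedAt ℓ) ↥H := Module.Finite.iff_fg.mpr hHfg
    haveI : Module.Free ↥(GaloisRep.ratLocalizedAt ℓ) ↥H := RankDescent4.free_of_order (K := ℚ) H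
    haveI : Fintype M := Fintype.ofFinite M
    let bH := Module.finBasis ↥(GaloisRep.ratLocalizedAt ℓ) ↥H
    have hfix : ∀ a : Qbar, (∀ σ : GQ, σ • a = a) → a ∈ (algebraMap ℚ Qbar).range :=
      fun a ha => by
        obtain ⟨q, hq⟩ := hD.fixed_rat a ha
        exact ⟨q, hq⟩
    let B := RankDescent4.basisOfOrder (K := ℚ) hfix H hHeq hHsep bH
    have hB : ∀ k, B k = ((bH k : ↥H) : M → Qbar) := fun k =>
      RankDescent4.basisOfOrder_apply (K := ℚ) hfix H hHeq hHsep bH k
    have hBmem : ∀ k, B k ∈ H := fun k => by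
      rw [hB]
      exact (bH k).2
    have hspan : Submodule.span Qbar
        ((Subalgebra.toSubmodule H' : Submodule _ _) : Set (M → Qbar)) = ⊤ :=
      RankDescent4.span_eq_top_of_separates H' hsep
    -- the coordinates of the elements of `H'` lie in `O_L`
    have hcoord : ∀ f ∈ H', ∀ k, B.repr f k ∈ fixRing A ΓL := by
      intro f hf
      have hmem := mem_span_descended hD hΓ b hb (Subalgebra.toSubmodule H') hfg hequiv hspan
        hstab natCast_ne_zero_Qbar (f := f) hf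
      have hall : ∀ g ∈ Submodule.span ↥(fixRing A ΓL)
          {h | h ∈ Subalgebra.toSubmodule H' ∧ IsEquivariant (⊤ : Subgroup GQ) h},
          ∀ k, B.repr g k ∈ fixRing A ΓL := by
        intro g hg
        induction hg using Submodule.span_induction with
        | mem s hs =>
          intro k
          have hs' : s ∈ H := hs
          have h1 : s = ∑ k, (algebraMap ℚ Qbar
              ((bH.repr ⟨s, hs'⟩ k : ↥(GaloisRep.ratLocalizedAt ℓ)) : ℚ)) • B k := by
            have h2 := congrArg (fun z : ↥H => (z : M → Qbar)) (bH.sum_repr ⟨s, hs'⟩)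
            simp only [AddSubmonoidClass.coe_finsetSum, SetLike.val_smul] at h2
            refine h2.symm.trans ?_
            refine Finset.sum_congr rfl fun k _ => ?_
            rw [hB, Zl_smul_eq]
          have h3 : B.repr s k = algebraMap ℚ Qbar
              ((bH.repr ⟨s, hs'⟩ k : ↥(GaloisRep.ratLocalizedAt ℓ)) : ℚ) := by
            conv_lhs => rw [h1, B.repr_sum_self]
          rw [h3]
          exact ⟨hD.ratLoc_mem _ (bH.repr ⟨s, hs'⟩ k).2, fun σ _ => σ.commutes _⟩
        | zero =>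
          intro k
          rw [map_zero, Finsupp.zero_apply]
          exact zero_mem _
        | add f g _ _ hf hg =>
          intro k
          rw [map_add, Finsupp.add_apply]
          exact add_mem (hf k) (hg k)
        | smul c f _ hf =>
          intro k
          have h1 : c • f = (c : Qbar) • f := rfl
          rw [h1, map_smul, Finsupp.smul_apply, smul_eq_mul]
          exact mul_mem c.2 (hf k)
      exact hall f hmem
    intro h hh
    obtain ⟨n, a, c, ha, hc, hac⟩ := hcomul h hh.1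
    set C : Fin (Module.finrank ↥(GaloisRep.ratLocalizedAt ℓ) ↥H) →
        Fin (Module.finrank ↥(GaloisRep.ratLocalizedAt ℓ) ↥H) → Qbar :=
      fun k l => ∑ i, B.repr (a i) k * B.repr (c i) l with hCdef
    have hCmem : ∀ k l, C k l ∈ fixRing A ΓL := fun k l =>
      sum_mem fun i _ => mul_mem (hcoord _ (ha i) k) (hcoord _ (hc i) l)
    have hC : ∀ x y, h (x + y) = ∑ k, ∑ l, C k l * B k x * B l y := by
      intro x y
      rw [hac]
      have hax : ∀ i, a i x = ∑ k, B.repr (a i) k * B k x := fun i => by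
        conv_lhs => rw [← B.sum_repr (a i)]
        simp only [Finset.sum_apply, Pi.smul_apply, smul_eq_mul]
      have hcy : ∀ i, c i y = ∑ l, B.repr (c i) l * B l y := fun i => by
        conv_lhs => rw [← B.sum_repr (c i)]
        simp only [Finset.sum_apply, Pi.smul_apply, smul_eq_mul]
      simp_rw [hax, hcy, hCdef, Finset.sum_mul_sum]
      rw [Finset.sum_comm]
      refine Finset.sum_congr rfl fun k _ => ?_
      rw [Finset.sum_comm]
      refine Finset.sum_congr rfl fun l _ => ?_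
      rw [Finset.sum_mul, Finset.sum_mul]
      refine Finset.sum_congr rfl fun i _ => by ring
    have hCfix : ∀ (σ : GQ) k l, σ (C k l) = C k l :=
      fixed_of_comul (fun k => B k) (fun k => (hBmem k).2) B.linearIndependent hh.2 C hC
    have hCq : ∀ k l, ∃ q : ℚ, q ∈ GaloisRep.ratLocalizedAt ℓ ∧ algebraMap ℚ Qbar q = C k l :=
      fun k l => by
        obtain ⟨q, hq⟩ := hD.fixed_rat (C k l) (fun σ => hCfix σ k l)
        refine ⟨q, hD.rat_mem q ?_, hq⟩
        rw [hq]
        exact (hCmem k l).1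
    choose q hq hqC using hCq
    refine ⟨_, fun k => B k,
      fun k => ∑ l, (⟨q k l, hq k l⟩ : ↥(GaloisRep.ratLocalizedAt ℓ)) • B l, hBmem,
      fun k => sum_mem fun l _ => Subalgebra.smul_mem H (hBmem l) _, fun x y => ?_⟩
    rw [hC]
    refine Finset.sum_congr rfl fun k _ => ?_
    beta_reduce
    rw [Finset.sum_apply, Finset.mul_sum]
    refine Finset.sum_congr rfl fun l _ => ?_
    rw [Zl_smul_eq, Pi.smul_apply, smul_eq_mul, hqC]
    ring
  · -- antipode
    intro h hh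
    refine ⟨hanti h hh.1, fun σ _ x => ?_⟩
    show h (-(σ • x)) = σ (h (-x))
    rw [← smul_neg, hh.2 σ (Subgroup.mem_top σ)]

theorem descend_le (hA : ∀ q : ℚ, q ∈ GaloisRep.ratLocalizedAt ℓ → algebraMap ℚ Qbar q ∈ A)
    (H' : Subalgebra ↥(fixRing A ΓL) (M → Qbar)) : ∀ h ∈ descend hA H', h ∈ H' :=
  fun _ hh => hh.1

/-- **(A1) + (A2)**: a `D`-stable Hopf order over `O_L` (`L/ℚ^h` finite unramified) gives the literal
of S19 / `GaloisRepAdic.IsFlatAt` for the `G_ℚ`-module `M`. -/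
theorem exists_hopfAlgebra_of_local (hD : DenseHyp ℓ A) (hΓ : UnrLevel A ΓL)
    (b : Module.Basis ι Qbar (M → Qbar)) (hb : ∀ i, IsEquivariant (⊤ : Subgroup GQ) (b i))
    (H' : Subalgebra ↥(fixRing A ΓL) (M → Qbar)) (hfg : H'.toSubmodule.FG)
    (hequiv : ∀ f ∈ H', IsEquivariant ΓL f)
    (hsep : ∀ x y : M, x ≠ y → ∃ h ∈ H', h x ≠ h y)
    (hstab : ∀ τ ∈ A.decompositionSubgroup ℚ, ∀ f ∈ H', StarAct26.star τ f ∈ H')
    (hcomul : ∀ h ∈ H', ∃ (n : ℕ) (a c : Fin n → M → Qbar), (∀ i, a i ∈ H') ∧ (∀ i, c i ∈ H') ∧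
      ∀ x y, h (x + y) = ∑ i, a i x * c i y)
    (hanti : ∀ h ∈ H', (fun x => h (-x)) ∈ H') :
    ∃ (H₀ : Type) (_ : CommRing H₀) (_ : HopfAlgebra (GaloisRep.ratLocalizedAt ℓ) H₀),
      Module.Finite (GaloisRep.ratLocalizedAt ℓ) H₀ ∧ Module.Flat (GaloisRep.ratLocalizedAt ℓ) H₀ ∧
      Coalgebra.IsCocomm (GaloisRep.ratLocalizedAt ℓ) H₀ ∧
      ∃ e : WithConv (H₀ →ₐ[GaloisRep.ratLocalizedAt ℓ] AlgebraicClosure ℚ) ≃ M,
        (∀ f g, e (f * g) = e f + e g) ∧
        ∀ (σ : AlgebraicClosure ℚ ≃ₐ[ℚ] AlgebraicClosure ℚ)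
          (f g : WithConv (H₀ →ₐ[GaloisRep.ratLocalizedAt ℓ] AlgebraicClosure ℚ)),
          (∀ h : H₀, g h = σ (f h)) → e g = σ • e f :=
  HopfOrderPts2.exists_hopfAlgebra_Zl ℓ
    (isHopfOrder_descend hD hΓ b hb H' hfg hequiv hsep hstab hcomul hanti)

end Asm

end

end Fermat.Agent.ES.V19.DescentAsm26
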