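/-
Programme V (S19 by hand, route `S19_ROUTE23.md`), chapter A, brick `GalSep4` (helper4).

Dischargers, for `G = Gal(Ω/K)` with `Ω/K` Galois (possibly infinite), of the two Galois hypotheses used by
`RankDescent4` / `OrderQuot4`:

* `hfix_gal`: every `G`-fixed element of `Ω` lies in `K`;
* `hGal_of_isClosed_stabilizer`, `hGal_of_finiteLevel`: if the stabilisers of the points of a `G`-set `X`
  are closed (e.g. if the action factors through a finite level `L`, the Prelude's way of expressing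
  continuity), then for `σ • x ≠ x` there is `a ∈ Ω` fixed by the stabiliser of `x` and moved by `σ`.
-/
import Mathlib

set_option autoImplicit false

noncomputable section

namespace Fermat.Agent.ES.V19.GalSep4

variable {K Ω : Type*} [Field K] [Field Ω] [Algebra K Ω]

/-- Every Galois-fixed element lies in the base field. -/
theorem hfix_gal [IsGalois K Ω] :
    ∀ a : Ω, (∀ σ : Ω ≃ₐ[K] Ω, σ • a = a) → a ∈ (algebraMap K Ω).range := by
  intro a ha
  have := (InfiniteGalois.mem_range_algebraMap_iff_fixed (k := K) (K := Ω) a).mpr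
    (fun f => ha f)
  exact this

/-- An element outside a closed subgroup moves some element of its fixed field. -/
theorem exists_fixed_moved [IsGalois K Ω] (S : Subgroup (Ω ≃ₐ[K] Ω))
    (hS : IsClosed (S : Set (Ω ≃ₐ[K] Ω))) (σ : Ω ≃ₐ[K] Ω) (hσ : σ ∉ S) :
    ∃ a : Ω, (∀ τ ∈ S, τ a = a) ∧ σ a ≠ a := by
  by_contra hcon
  push Not at hcon
  apply hσ
  have h1 := InfiniteGalois.fixingSubgroup_fixedField (k := K) (K := Ω) ⟨S, hS⟩
  have h2 : σ ∈ (IntermediateField.fixedField S).fixingSubgroup := by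
    rw [IntermediateField.mem_fixingSubgroup_iff]
    intro a ha
    exact hcon a (fun τ hτ => ha ⟨τ, hτ⟩)
  rw [h1] at h2
  exact h2

variable {X : Type*} [MulAction (Ω ≃ₐ[K] Ω) X]

/-- The hypothesis `hGal` of `OrderQuot4.isEquivOrder_quotOrder` from closed stabilisers. -/
theorem hGal_of_isClosed_stabilizer [IsGalois K Ω]
    (hX : ∀ x : X, IsClosed ((MulAction.stabilizer (Ω ≃ₐ[K] Ω) x : Subgroup (Ω ≃ₐ[K] Ω)) :
      Set (Ω ≃ₐ[K] Ω))) :
    ∀ (x : X) (σ : Ω ≃ₐ[K] Ω), σ • x ≠ x →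
      ∃ a : Ω, (∀ τ : Ω ≃ₐ[K] Ω, τ • x = x → τ • a = a) ∧ σ • a ≠ a := by
  intro x σ hσ
  obtain ⟨a, ha, hσa⟩ := exists_fixed_moved (MulAction.stabilizer (Ω ≃ₐ[K] Ω) x) (hX x) σ
    (fun h => hσ (MulAction.mem_stabilizer_iff.mp h))
  exact ⟨a, fun τ hτ => ha τ (MulAction.mem_stabilizer_iff.mpr hτ), hσa⟩

/-- The hypothesis `hGal` of `OrderQuot4.isEquivOrder_quotOrder` when the action factors through a
finite level. -/
theorem hGal_of_finiteLevel [IsGalois K Ω] (L : IntermediateField K Ω) [FiniteDimensional K L]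
    (hL : ∀ σ : Ω ≃ₐ[K] Ω, (∀ a ∈ L, σ a = a) → ∀ x : X, σ • x = x) :
    ∀ (x : X) (σ : Ω ≃ₐ[K] Ω), σ • x ≠ x →
      ∃ a : Ω, (∀ τ : Ω ≃ₐ[K] Ω, τ • x = x → τ • a = a) ∧ σ • a ≠ a := by
  refine hGal_of_isClosed_stabilizer fun x => ?_
  have hle : L.fixingSubgroup ≤ MulAction.stabilizer (Ω ≃ₐ[K] Ω) x := by
    intro σ hσ
    rw [IntermediateField.mem_fixingSubgroup_iff] at hσ
    exact MulAction.mem_stabilizer_iff.mpr (hL σ hσ x)
  exact Subgroup.isClosed_of_isOpen _ (Subgroup.isOpen_mono hle L.fixingSubgroup_isOpen)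

end Fermat.Agent.ES.V19.GalSep4
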