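/-
Programme V (S19 by hand, route `S19_ROUTE23.md`), chapter A, brick `OrderHyp4` (helper4).

The hypothesis bundle of the exit literal (A1) (`hopfOrder_core`) in def-free form, for an
`R`-subalgebra `H ⊆ M → Ω` of functions on a finite abelian group `M` with an action of `G`:

* `pullAlg φ : (M → Ω) →ₐ[R] (M' → Ω)`, precomposition with `φ : M' → M`;
* `IsEquivOrder G H`: module-finite, `G`-equivariant, separating, stable under the comultiplication
  `h ↦ ((x, y) ↦ h (x + y))` (written def-free as `h (x + y) = ∑ i, a i x * b i y` with `a i, b i ∈ H`)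
  and under the antipode `h ↦ (x ↦ h (-x))`;
* `comulClosed H`: the subalgebra of all `h` whose comultiplication lands in `H ⊗ H`; so comultiplication
  stability may be checked on algebra generators (`comul_of_adjoin`);
* `antipodeClosed H`, same for the antipode.
-/
import Mathlib

set_option autoImplicit false

noncomputable section

namespace Fermat.Agent.ES.V19.OrderHyp4

open scoped BigOperators

section Pull

variable (R Ω : Type*) [CommSemiring R] [Semiring Ω] [Algebra R Ω] {M M' M'' : Type*}

/-- Precomposition with `φ : M' → M` as an `R`-algebra homomorphism `(M → Ω) → (M' → Ω)`. -/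
def pullAlg (φ : M' → M) : (M → Ω) →ₐ[R] (M' → Ω) :=
  AlgHom.pi (R := R) (A := fun _ : M' => Ω) (fun m => Pi.evalAlgHom R (fun _ : M => Ω) (φ m))

@[simp] theorem pullAlg_apply (φ : M' → M) (f : M → Ω) (x : M') : pullAlg R Ω φ f x = f (φ x) := rfl

theorem pullAlg_eq_comp (φ : M' → M) (f : M → Ω) : pullAlg R Ω φ f = f ∘ φ := rfl

theorem pullAlg_injective {φ : M' → M} (hφ : Function.Surjective φ) :
    Function.Injective (pullAlg R Ω φ) := by
  intro f g hfg
  funext x
  obtain ⟨y, rfl⟩ := hφ x
  exact congrFun hfg y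

end Pull

section Defs

variable {R Ω : Type*} [CommRing R] [CommRing Ω] [Algebra R Ω] {M : Type*} [AddCommGroup M]

/-- The comultiplication of `h` lands in (the image of) `H ⊗ H`, def-free. -/
def HasComul (H : Subalgebra R (M → Ω)) (h : M → Ω) : Prop :=
  ∃ (n : ℕ) (a b : Fin n → M → Ω), (∀ i, a i ∈ H) ∧ (∀ i, b i ∈ H) ∧
    ∀ x y, h (x + y) = ∑ i, a i x * b i y

theorem HasComul.of_sum {H : Subalgebra R (M → Ω)} {h : M → Ω} {ι : Type*} (s : Finset ι)
    (a b : ι → M → Ω) (ha : ∀ i ∈ s, a i ∈ H) (hb : ∀ i ∈ s, b i ∈ H)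
    (hh : ∀ x y, h (x + y) = ∑ i ∈ s, a i x * b i y) : HasComul H h := by
  classical
  let e := s.equivFin
  refine ⟨s.card, fun k => a (e.symm k), fun k => b (e.symm k), fun k => ha _ (e.symm k).2,
    fun k => hb _ (e.symm k).2, fun x y => ?_⟩
  rw [hh x y, ← Finset.sum_coe_sort s]
  exact Fintype.sum_equiv e _ _ (fun i => by simp)

theorem HasComul.add {H : Subalgebra R (M → Ω)} {h h' : M → Ω} (hh : HasComul H h)
    (hh' : HasComul H h') : HasComul H (h + h') := by
  obtain ⟨n, a, b, ha, hb, hab⟩ := hh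
  obtain ⟨n', a', b', ha', hb', hab'⟩ := hh'
  refine HasComul.of_sum (Finset.univ : Finset (Fin n ⊕ Fin n')) (Sum.elim a a') (Sum.elim b b')
    ?_ ?_ ?_
  · rintro (i | i) _
    · exact ha i
    · exact ha' i
  · rintro (i | i) _
    · exact hb i
    · exact hb' i
  · intro x y
    rw [Fintype.sum_sum_type]
    simp [hab x y, hab' x y]

theorem HasComul.mul {H : Subalgebra R (M → Ω)} {h h' : M → Ω} (hh : HasComul H h)
    (hh' : HasComul H h') : HasComul H (h * h') := by
  obtain ⟨n, a, b, ha, hb, hab⟩ := hh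
  obtain ⟨n', a', b', ha', hb', hab'⟩ := hh'
  refine HasComul.of_sum (Finset.univ : Finset (Fin n × Fin n')) (fun p => a p.1 * a' p.2)
    (fun p => b p.1 * b' p.2) ?_ ?_ ?_
  · intro p _
    exact H.mul_mem (ha _) (ha' _)
  · intro p _
    exact H.mul_mem (hb _) (hb' _)
  · intro x y
    rw [Pi.mul_apply, hab x y, hab' x y, Finset.sum_mul_sum, Fintype.sum_prod_type]
    refine Finset.sum_congr rfl fun i _ => Finset.sum_congr rfl fun j _ => ?_
    simp only [Pi.mul_apply]
    ring

theorem HasComul.algebraMap_mem (H : Subalgebra R (M → Ω)) (r : R) :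
    HasComul H (algebraMap R (M → Ω) r) := by
  refine ⟨1, fun _ => algebraMap R (M → Ω) r, fun _ => 1, fun _ => H.algebraMap_mem r,
    fun _ => H.one_mem, fun x y => ?_⟩
  simp

/-- The subalgebra of functions whose comultiplication lands in `H ⊗ H`. -/
def comulClosed (H : Subalgebra R (M → Ω)) : Subalgebra R (M → Ω) where
  carrier := {h | HasComul H h}
  mul_mem' := HasComul.mul
  add_mem' := HasComul.add
  algebraMap_mem' := HasComul.algebraMap_mem H

@[simp] theorem mem_comulClosed {H : Subalgebra R (M → Ω)} {h : M → Ω} :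
    h ∈ comulClosed H ↔ HasComul H h := Iff.rfl

/-- Comultiplication stability may be checked on algebra generators. -/
theorem comul_of_adjoin {S : Set (M → Ω)} {H : Subalgebra R (M → Ω)} (hH : H = Algebra.adjoin R S)
    (hS : ∀ s ∈ S, HasComul H s) : ∀ h ∈ H, HasComul H h := by
  intro h hh
  have : Algebra.adjoin R S ≤ comulClosed H := Algebra.adjoin_le hS
  exact this (hH ▸ hh)

/-- The subalgebra of functions `h` with `h ∘ neg ∈ H`. -/
def antipodeClosed (H : Subalgebra R (M → Ω)) : Subalgebra R (M → Ω) :=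
  H.comap (pullAlg R Ω (fun x : M => -x))

@[simp] theorem mem_antipodeClosed {H : Subalgebra R (M → Ω)} {h : M → Ω} :
    h ∈ antipodeClosed H ↔ (fun x => h (-x)) ∈ H := Iff.rfl

/-- Antipode stability may be checked on algebra generators. -/
theorem antipode_of_adjoin {S : Set (M → Ω)} {H : Subalgebra R (M → Ω)}
    (hH : H = Algebra.adjoin R S) (hS : ∀ s ∈ S, (fun x => s (-x)) ∈ H) :
    ∀ h ∈ H, (fun x => h (-x)) ∈ H := by
  intro h hh
  have : Algebra.adjoin R S ≤ antipodeClosed H := Algebra.adjoin_le hS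
  exact this (hH ▸ hh)

variable (G : Type*) [Group G] [MulSemiringAction G Ω] [MulAction G M]

/-- The hypothesis bundle of `hopfOrder_core`, in `G`-equivariant def-free form. -/
structure IsEquivOrder (H : Subalgebra R (M → Ω)) : Prop where
  finite : Module.Finite R H
  equiv : ∀ h ∈ H, ∀ (σ : G) (x : M), h (σ • x) = σ • h x
  sep : ∀ x y : M, x ≠ y → ∃ h ∈ H, h x ≠ h y
  comul : ∀ h ∈ H, HasComul H h
  antipode : ∀ h ∈ H, (fun x => h (-x)) ∈ H

variable {G}

/-- The image of `R` in `Ω` is fixed by `G` as soon as some subalgebra of equivariant functions exists. -/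
theorem smul_algebraMap_of_equiv {H : Subalgebra R (M → Ω)}
    (hequiv : ∀ h ∈ H, ∀ (σ : G) (x : M), h (σ • x) = σ • h x) (σ : G) (r : R) :
    σ • algebraMap R Ω r = algebraMap R Ω r := by
  have := hequiv _ (H.algebraMap_mem r) σ 0
  simpa using this.symm

/-- The equivariant functions form an `R`-subalgebra as soon as `G` fixes the image of `R`. -/
def equivSubalgebra (hR : ∀ (σ : G) (r : R), σ • algebraMap R Ω r = algebraMap R Ω r) :
    Subalgebra R (M → Ω) where
  carrier := {h | ∀ (σ : G) (x : M), h (σ • x) = σ • h x}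
  mul_mem' := by
    intro f g hf hg σ x
    simp only [Pi.mul_apply, hf σ x, hg σ x, smul_mul']
  add_mem' := by
    intro f g hf hg σ x
    simp only [Pi.add_apply, hf σ x, hg σ x, smul_add]
  algebraMap_mem' := by
    intro r σ x
    simp only [Pi.algebraMap_apply, hR]

end Defs

end Fermat.Agent.ES.V19.OrderHyp4
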