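/-
Programme V (S19 by hand, route `S19_ROUTE23.md`), chapter A, brick (A3-quot) `OrderQuot4` (helper4).

Quotient closure of Hopf orders in function algebras, in morphism form: for a surjective `G`-equivariant
additive map `π : M → M₂` and an equivariant Hopf order `H ⊆ M → Ω` over a PID `R` with
`Frac R = K = Ω^G`, the order `H.comap π^* = {g : M₂ → Ω | g ∘ π ∈ H}` is an equivariant Hopf order for
`M₂`, provided the stabilisers of the points of `M₂` are "Galois-closed" (`hGal`; automatic for
`G = Gal(Ω/K)` and closed stabilisers, see `GalSep4`).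

The comultiplication statement is the saturated-sublattice identity
`(Λ ⊗ Λ) ∩ (V' ⊗ V') = (Λ ∩ V') ⊗ (Λ ∩ V')`, proved here by descending one tensor leg at a time.
-/
import Mathlib
import Fermat.Agent.ES.V19.OrderHyp4
import Fermat.Agent.ES.V19.RankDescent4

set_option autoImplicit false

noncomputable section

namespace Fermat.Agent.ES.V19.OrderQuot4

open scoped BigOperators
open Fermat.Agent.ES.V19.OrderHyp4 Fermat.Agent.ES.V19.RankDescent4

section Basic

/-- A function constant on the fibres of a surjection `π` descends. -/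
theorem exists_descent {Ω M M₂ : Type*} {π : M → M₂} (hπ : Function.Surjective π) (A : M → Ω)
    (hA : ∀ x x', π x = π x' → A x = A x') : ∃ A' : M₂ → Ω, ∀ x, A' (π x) = A x :=
  ⟨fun z => A (Function.surjInv hπ z), fun x => hA _ _ (Function.surjInv_eq hπ (π x))⟩

variable {R Ω M M₂ : Type*} [CommRing R] [CommRing Ω] [Algebra R Ω]

/-- The functions on `M₂` whose pull-back along `π` lies in `H`. -/
def quotOrder (H : Subalgebra R (M → Ω)) (π : M → M₂) : Subalgebra R (M₂ → Ω) :=
  H.comap (pullAlg R Ω π)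

theorem mem_quotOrder {H : Subalgebra R (M → Ω)} {π : M → M₂} {g : M₂ → Ω} :
    g ∈ quotOrder H π ↔ (fun x => g (π x)) ∈ H := Iff.rfl

/-- The pull-back, as a linear map `quotOrder H π → H`. -/
def quotToOrder (H : Subalgebra R (M → Ω)) (π : M → M₂) : quotOrder H π →ₗ[R] H :=
  LinearMap.codRestrict (Subalgebra.toSubmodule H)
    ((pullAlg R Ω π).toLinearMap.comp (Subalgebra.val (quotOrder H π)).toLinearMap)
    (fun g => g.2)

theorem quotToOrder_injective (H : Subalgebra R (M → Ω)) {π : M → M₂}
    (hπ : Function.Surjective π) : Function.Injective (quotToOrder H π) := by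
  intro g g' hgg
  apply Subtype.ext
  apply pullAlg_injective R Ω hπ
  exact congrArg Subtype.val hgg

theorem finite_quotOrder [IsNoetherianRing R] (H : Subalgebra R (M → Ω)) [Module.Finite R H]
    {π : M → M₂} (hπ : Function.Surjective π) : Module.Finite R (quotOrder H π) := by
  have : IsNoetherian R H := isNoetherian_of_isNoetherianRing_of_finite R H
  exact Module.Finite.of_injective (quotToOrder H π) (quotToOrder_injective H hπ)

end Basic

section Legs

variable {R Ω : Type*} [CommRing R] [Field Ω] [Algebra R Ω]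

/-- **Leg descent.**  If `Φ (x, t) = ∑ j, A j x * β j t` with `Ω`-linearly independent `β j` only depends
on `π x`, then so does each `A j`. -/
theorem leg_const {M M₂ X J : Type*} [Fintype J] (π : M → M₂) (β : J → X → Ω)
    (hβ : LinearIndependent Ω β) (A : J → M → Ω)
    (hΦ : ∀ x x', π x = π x' → ∀ t, ∑ j, A j x * β j t = ∑ j, A j x' * β j t) (j : J) (x x' : M)
    (hxx' : π x = π x') : A j x = A j x' := by
  have h0 : ∑ j, (A j x - A j x') • β j = 0 := by
    funext t
    simp only [Finset.sum_apply, Pi.smul_apply, smul_eq_mul, sub_mul, Finset.sum_sub_distrib,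
      Pi.zero_apply]
    rw [hΦ x x' hxx' t, sub_self]
  have := Fintype.linearIndependent_iff.mp hβ (fun j => A j x - A j x') h0 j
  exact sub_eq_zero.mp this

/-- **Re-basing the second leg** along a basis `β` of `Q`. -/
theorem rebase {X Y J : Type*} [Fintype J] (P : Subalgebra R (X → Ω)) (Q : Subalgebra R (Y → Ω))
    (β : Module.Basis J R Q) (n : ℕ) (a : Fin n → X → Ω) (b : Fin n → Y → Ω) (ha : ∀ i, a i ∈ P)
    (hb : ∀ i, b i ∈ Q) :
    ∃ A : J → X → Ω, (∀ j, A j ∈ P) ∧
      ∀ x y, ∑ i, a i x * b i y = ∑ j, A j x * ((β j : Q) : Y → Ω) y := by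
  refine ⟨fun j => ∑ i, (β.repr ⟨b i, hb i⟩ j) • a i, fun j => ?_, fun x y => ?_⟩
  · exact P.sum_mem fun i _ => P.smul_mem (ha i) _
  · have hbi : ∀ i, b i y = ∑ j, algebraMap R Ω (β.repr ⟨b i, hb i⟩ j) * ((β j : Q) : Y → Ω) y := by
      intro i
      have h1 := β.sum_repr ⟨b i, hb i⟩
      have h2 : b i = ∑ j, (β.repr ⟨b i, hb i⟩ j) • ((β j : Q) : Y → Ω) := by
        have := congrArg (Subalgebra.val Q) h1
        rw [map_sum] at this
        simpa using this.symm
      have h3 := congrFun h2 y
      rw [Finset.sum_apply] at h3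
      refine h3.trans (Finset.sum_congr rfl fun j _ => ?_)
      rw [Pi.smul_apply, Algebra.smul_def]
    calc ∑ i, a i x * b i y
        = ∑ i, ∑ j, a i x * (algebraMap R Ω (β.repr ⟨b i, hb i⟩ j) * ((β j : Q) : Y → Ω) y) := by
          refine Finset.sum_congr rfl fun i _ => ?_
          rw [hbi i, Finset.mul_sum]
      _ = ∑ j, ∑ i, a i x * (algebraMap R Ω (β.repr ⟨b i, hb i⟩ j) * ((β j : Q) : Y → Ω) y) :=
          Finset.sum_comm
      _ = ∑ j, (∑ i, (β.repr ⟨b i, hb i⟩ j) • a i) x * ((β j : Q) : Y → Ω) y := by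
          refine Finset.sum_congr rfl fun j _ => ?_
          rw [Finset.sum_apply, Finset.sum_mul]
          refine Finset.sum_congr rfl fun i _ => ?_
          rw [Pi.smul_apply, Algebra.smul_def]
          ring

end Legs

section Main

variable {R K Ω G M M₂ : Type*} [CommRing R] [IsDomain R] [IsPrincipalIdealRing R]
  [Field K] [Algebra R K] [IsFractionRing R K] [Field Ω] [Algebra R Ω] [Algebra K Ω]
  [IsScalarTower R K Ω] [Group G] [MulSemiringAction G Ω]
  [AddCommGroup M] [AddCommGroup M₂] [MulAction G M] [MulAction G M₂]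

/-- Every equivariant function on `M` has a nonzero `R`-multiple in `H` (`K · H = Map_G(M, Ω)`). -/
theorem exists_smul_mem_of_equivariant [Fintype M]
    (hfix : ∀ a : Ω, (∀ σ : G, σ • a = a) → a ∈ (algebraMap K Ω).range)
    {H : Subalgebra R (M → Ω)} (hH : IsEquivOrder G H) (w : M → Ω)
    (hw : ∀ (σ : G) (x : M), w (σ • x) = σ • w x) : ∃ r : R, r ≠ 0 ∧ r • w ∈ H := by
  classical
  have := hH.finite
  have : Module.Free R H := free_of_order (K := K) H
  let b := Module.Free.chooseBasis R H
  let B := basisOfOrder (K := K) hfix H hH.equiv hH.sep b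
  have hB : ∀ i, B i = ((b i : H) : M → Ω) := fun i =>
    basisOfOrder_apply (K := K) hfix H hH.equiv hH.sep b i
  have hBe : ∀ i (σ : G) (x : M), B i (σ • x) = σ • B i x := fun i σ x => by
    rw [hB]; exact hH.equiv _ (b i).2 σ x
  set c := B.repr w with hc
  have hsum : ∑ i, c i • B i = w := B.sum_repr w
  -- the coefficients are `G`-fixed
  have hfixed : ∀ i (σ : G), σ • c i = c i := by
    intro i σ
    have htw : ∑ i, (σ • c i) • B i = w := by
      funext x
      have h1 := congrFun hsum (σ⁻¹ • x)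
      simp only [Finset.sum_apply, Pi.smul_apply, smul_eq_mul] at h1 ⊢
      have h2 := congrArg (fun a => σ • a) h1
      simp only [Finset.smul_sum, smul_mul'] at h2
      have h3 : ∀ i, σ • B i (σ⁻¹ • x) = B i x := fun i => by rw [← hBe, smul_inv_smul]
      have h4 : σ • w (σ⁻¹ • x) = w x := by rw [← hw, smul_inv_smul]
      simpa [h3, h4] using h2
    have h0 : ∑ i, (σ • c i - c i) • B i = 0 := by
      simp only [sub_smul, Finset.sum_sub_distrib, htw, hsum, sub_self]
    exact sub_eq_zero.mp (Fintype.linearIndependent_iff.mp B.linearIndependent _ h0 i)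
  have hK : ∀ i, ∃ d : K, algebraMap K Ω d = c i := fun i => hfix (c i) (hfixed i)
  choose d hd using hK
  -- common denominator
  obtain ⟨r, hr⟩ := IsLocalization.exist_integer_multiples_of_finset (nonZeroDivisors R)
    (Finset.univ.image d)
  have hr' : ∀ i, ∃ n : R, algebraMap R K n = (r : R) • d i := fun i =>
    hr (d i) (Finset.mem_image_of_mem d (Finset.mem_univ i))
  choose n hn using hr'
  refine ⟨r, nonZeroDivisors.coe_ne_zero r, ?_⟩
  have hrw : (r : R) • w = ∑ i, n i • ((b i : H) : M → Ω) := by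
    rw [← hsum, Finset.smul_sum]
    refine Finset.sum_congr rfl fun i _ => ?_
    have hn' : algebraMap R Ω (n i) = algebraMap R Ω (r : R) * c i := by
      rw [IsScalarTower.algebraMap_apply R K Ω (n i), hn i, Algebra.smul_def, map_mul,
        ← IsScalarTower.algebraMap_apply R K Ω, hd i]
    rw [hB]
    funext x
    simp only [Pi.smul_apply]
    rw [Algebra.smul_def (n i), hn', Algebra.smul_def (r : R), smul_eq_mul, mul_assoc]
  rw [hrw]
  exact H.sum_mem fun i _ => H.smul_mem (b i).2 _

omit [AddCommGroup M₂] in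
/-- The orbit function: `τ • x ↦ τ • a`, zero off the orbit of `x`. -/
theorem exists_orbitFun (x : M₂) (a : Ω) (ha : ∀ τ : G, τ • x = x → τ • a = a) :
    ∃ u : M₂ → Ω, (∀ (σ : G) (z : M₂), u (σ • z) = σ • u z) ∧ (∀ τ : G, u (τ • x) = τ • a) ∧
      ∀ z, (¬ ∃ τ : G, τ • x = z) → u z = 0 := by
  classical
  let u : M₂ → Ω := fun z => if h : ∃ τ : G, τ • x = z then (Classical.choose h) • a else 0
  have hu1 : ∀ τ : G, u (τ • x) = τ • a := by
    intro τ
    have h : ∃ τ' : G, τ' • x = τ • x := ⟨τ, rfl⟩
    have hspec := Classical.choose_spec h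
    show (if h : ∃ τ' : G, τ' • x = τ • x then (Classical.choose h) • a else 0) = τ • a
    rw [dif_pos h]
    have h1 : (τ⁻¹ * Classical.choose h) • x = x := by
      rw [mul_smul, hspec, inv_smul_smul]
    have h2 := ha _ h1
    rw [mul_smul, inv_smul_eq_iff] at h2
    exact h2
  have hu0 : ∀ z, (¬ ∃ τ : G, τ • x = z) → u z = 0 := fun z hz => dif_neg hz
  refine ⟨u, ?_, hu1, hu0⟩
  intro σ z
  by_cases hz : ∃ τ : G, τ • x = z
  · obtain ⟨τ, rfl⟩ := hz
    rw [← mul_smul, hu1, hu1, mul_smul]
  · have hz' : ¬ ∃ τ : G, τ • x = σ • z := by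
      rintro ⟨τ, hτ⟩
      exact hz ⟨σ⁻¹ * τ, by rw [mul_smul, hτ, inv_smul_smul]⟩
    rw [hu0 z hz, hu0 _ hz', smul_zero]

omit [AddCommGroup M₂] in
/-- Equivariant functions separate the points of a `G`-set with Galois-closed stabilisers. -/
theorem exists_equivariant_separating
    (hGal : ∀ (x : M₂) (σ : G), σ • x ≠ x →
      ∃ a : Ω, (∀ τ : G, τ • x = x → τ • a = a) ∧ σ • a ≠ a)
    (x y : M₂) (hxy : x ≠ y) :
    ∃ u : M₂ → Ω, (∀ (σ : G) (z : M₂), u (σ • z) = σ • u z) ∧ u x ≠ u y := by
  by_cases hy : ∃ σ : G, σ • x = y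
  · obtain ⟨σ, rfl⟩ := hy
    obtain ⟨a, ha, hσa⟩ := hGal x σ (Ne.symm hxy)
    obtain ⟨u, hu, hux, -⟩ := exists_orbitFun (G := G) x a ha
    refine ⟨u, hu, ?_⟩
    have h1 : u x = a := by simpa using hux 1
    rw [h1, hux σ]
    exact Ne.symm hσa
  · obtain ⟨u, hu, hux, hu0⟩ := exists_orbitFun (G := G) x (1 : Ω) (fun τ _ => smul_one τ)
    refine ⟨u, hu, ?_⟩
    have h1 : u x = 1 := by simpa using hux 1
    rw [h1, hu0 y hy]
    exact one_ne_zero

/-- **(A3-quot).** -/
theorem isEquivOrder_quotOrder [Fintype M]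
    (hfix : ∀ a : Ω, (∀ σ : G, σ • a = a) → a ∈ (algebraMap K Ω).range)
    (hGal : ∀ (x : M₂) (σ : G), σ • x ≠ x →
      ∃ a : Ω, (∀ τ : G, τ • x = x → τ • a = a) ∧ σ • a ≠ a)
    {H : Subalgebra R (M → Ω)} (hH : IsEquivOrder G H) (π : M →+ M₂)
    (hπ : Function.Surjective π) (hπG : ∀ (σ : G) (x : M), π (σ • x) = σ • π x) :
    IsEquivOrder G (quotOrder H π) := by
  classical
  have hfin := hH.finite
  have hfin₂ : Module.Finite R (quotOrder H π) := finite_quotOrder H hπ
  have hequiv₂ : ∀ g ∈ quotOrder H π, ∀ (σ : G) (z : M₂), g (σ • z) = σ • g z := by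
    intro g hg σ z
    obtain ⟨x, rfl⟩ := hπ z
    rw [← hπG]
    exact hH.equiv _ (mem_quotOrder.mp hg) σ x
  have hinjR : Function.Injective (algebraMap R Ω) := algebraMap_injective_of_tower (K := K)
  refine ⟨hfin₂, hequiv₂, ?_, ?_, ?_⟩
  · -- separation
    intro x y hxy
    obtain ⟨u, hu, huxy⟩ := exists_equivariant_separating (G := G) hGal x y hxy
    obtain ⟨r, hr0, hr⟩ := exists_smul_mem_of_equivariant (K := K) hfix hH (fun z => u (π z))
      (fun σ z => by rw [hπG, hu])
    refine ⟨r • u, hr, ?_⟩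
    simp only [Pi.smul_apply, Algebra.smul_def]
    intro h
    exact huxy (mul_left_cancel₀ ((map_ne_zero_iff _ hinjR).mpr hr0) h)
  · -- comultiplication
    intro g hg
    have : Module.Free R H := free_of_order (K := K) H
    have : Module.Free R (quotOrder H π) := free_of_order (K := K) (quotOrder H π)
    let β := Module.Free.chooseBasis R H
    let e := Module.Free.chooseBasis R (quotOrder H π)
    have hβΩ : LinearIndependent Ω (fun j => ((β j : H) : M → Ω)) :=
      linearIndependent_of_equivariant_of_ring (K := K) hfix _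
        (fun j σ x => hH.equiv _ (β j).2 σ x) (linearIndependent_coe_basis H β)
    have heΩ : LinearIndependent Ω (fun k => ((e k : quotOrder H π) : M₂ → Ω)) :=
      linearIndependent_of_equivariant_of_ring (K := K) hfix _
        (fun k σ x => hequiv₂ _ (e k).2 σ x) (linearIndependent_coe_basis (quotOrder H π) e)
    obtain ⟨n, a, b, ha, hb, hab⟩ := hH.comul _ (mem_quotOrder.mp hg)
    have hab' : ∀ x y, g (π (x + y)) = ∑ i, a i x * b i y := hab
    -- Step 1: re-base the second leg along `β`
    obtain ⟨A, hA, hAab⟩ := rebase H H β n a b ha hb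
    have hgA : ∀ x y, g (π x + π y) = ∑ j, A j x * ((β j : H) : M → Ω) y := by
      intro x y
      rw [← hAab, ← hab', map_add]
    -- Step 2: the first leg descends
    have hAconst : ∀ j x x', π x = π x' → A j x = A j x' := by
      intro j x x' hxx'
      refine leg_const π _ hβΩ A ?_ j x x' hxx'
      intro x x' hxx' t
      rw [← hgA, ← hgA, hxx']
    have hA' : ∀ j, ∃ A' : M₂ → Ω, ∀ x, A' (π x) = A j x := fun j =>
      exists_descent hπ (A j) (hAconst j)
    choose A' hA'π using hA'
    have hA'mem : ∀ j, A' j ∈ quotOrder H π := by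
      intro j
      rw [mem_quotOrder]
      have : (fun x => A' j (π x)) = A j := funext (hA'π j)
      rw [this]
      exact hA j
    -- Step 3: re-base the first leg along `e` (as a "second leg" after swapping)
    obtain ⟨B, hB, hBA⟩ := rebase H (quotOrder H π) e _
      (fun j : Fin (Fintype.card (Module.Free.ChooseBasisIndex R H)) =>
        ((β ((Fintype.equivFin _).symm j) : H) : M → Ω))
      (fun j => A' ((Fintype.equivFin _).symm j)) (fun j => (β _).2) (fun j => hA'mem _)
    have hgB : ∀ x y, g (π x + π y) =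
        ∑ k, B k y * ((e k : quotOrder H π) : M₂ → Ω) (π x) := by
      intro x y
      rw [← hBA, hgA]
      rw [← (Fintype.equivFin (Module.Free.ChooseBasisIndex R H)).symm.sum_comp]
      refine Finset.sum_congr rfl fun j _ => ?_
      rw [hA'π, mul_comm]
    -- Step 4: the second leg descends
    have hBconst : ∀ k y y', π y = π y' → B k y = B k y' := by
      intro k y y' hyy'
      refine leg_const π _ heΩ B ?_ k y y' hyy'
      intro y y' hyy' t
      obtain ⟨x, rfl⟩ := hπ t
      rw [← hgB, ← hgB, hyy']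
    have hB' : ∀ k, ∃ B' : M₂ → Ω, ∀ y, B' (π y) = B k y := fun k =>
      exists_descent hπ (B k) (hBconst k)
    choose B' hB'π using hB'
    have hB'mem : ∀ k, B' k ∈ quotOrder H π := by
      intro k
      rw [mem_quotOrder]
      have : (fun y => B' k (π y)) = B k := funext (hB'π k)
      rw [this]
      exact hB k
    refine HasComul.of_sum Finset.univ (fun k => ((e k : quotOrder H π) : M₂ → Ω)) B'
      (fun k _ => (e k).2) (fun k _ => hB'mem k) ?_
    intro x y
    obtain ⟨x, rfl⟩ := hπ x
    obtain ⟨y, rfl⟩ := hπ y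
    rw [hgB]
    refine Finset.sum_congr rfl fun k _ => ?_
    rw [hB'π, mul_comm]
  · -- antipode
    intro g hg
    rw [mem_quotOrder] at hg ⊢
    have := hH.antipode _ hg
    have h2 : (fun x => g (-(π x))) = fun x => g (π (-x)) := by
      funext x; rw [map_neg]
    show (fun x => g (-(π x))) ∈ H
    rw [h2]
    exact this

end Main

end Fermat.Agent.ES.V19.OrderQuot4
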