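/-
Programme V (S19 by hand, route `S19_ROUTE23.md`), chapter A, brick `EquivBasis4` (helper4), requested
by (A2) (`#23152`).

Galois descent for permutation modules, surjective half: for `G = Gal(Ω/K)` (`Ω/K` Galois, possibly
infinite) acting on a finite set `M` with open stabilisers (Prelude-style continuity `hcont`), the
function algebra `M → Ω` has an `Ω`-basis consisting of `G`-equivariant functions.

* `exists_basis_equivariant_gen` : general `K`, `Ω`;
* `exists_basis_equivariant` : the literal shape asked for by (A2), `Ω = AlgebraicClosure ℚ`;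
* `hfix_qbar` : `∀ x : Qbar, (∀ σ, σ x = x) → x ∈ (algebraMap ℚ Qbar).range`.
-/
import Mathlib
import Fermat.Agent.ES.V19.RankDescent4
import Fermat.Agent.ES.V19.OrderQuot4
import Fermat.Agent.ES.V19.GalSep4

set_option autoImplicit false

noncomputable section

namespace Fermat.Agent.ES.V19.EquivBasis4

open Fermat.Agent.ES.V19.RankDescent4 Fermat.Agent.ES.V19.OrderQuot4 Fermat.Agent.ES.V19.GalSep4

section Gen

variable {K Ω : Type*} [Field K] [Field Ω] [Algebra K Ω] {M : Type*} [MulAction (Ω ≃ₐ[K] Ω) M]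

/-- The `K`-subalgebra of `Gal(Ω/K)`-equivariant functions on a `G`-set. -/
def equivFun (K Ω M : Type*) [Field K] [Field Ω] [Algebra K Ω] [MulAction (Ω ≃ₐ[K] Ω) M] :
    Subalgebra K (M → Ω) where
  carrier := {f | ∀ (σ : Ω ≃ₐ[K] Ω) (x : M), f (σ • x) = σ (f x)}
  mul_mem' := by
    intro f g hf hg σ x
    simp only [Pi.mul_apply, hf σ x, hg σ x, map_mul]
  add_mem' := by
    intro f g hf hg σ x
    simp only [Pi.add_apply, hf σ x, hg σ x, map_add]
  algebraMap_mem' := by
    intro r σ x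
    simp only [Pi.algebraMap_apply, AlgEquiv.commutes]

theorem mem_equivFun {f : M → Ω} :
    f ∈ equivFun K Ω M ↔ ∀ (σ : Ω ≃ₐ[K] Ω) (x : M), f (σ • x) = σ (f x) := Iff.rfl

/-- Stabilisers are closed when the action is continuous in the Prelude's sense. -/
theorem isClosed_stabilizer_of_hcont
    (hcont : ∀ x : M, ∃ L : IntermediateField K Ω, FiniteDimensional K L ∧
      ∀ σ ∈ L.fixingSubgroup, σ • x = x) (x : M) :
    IsClosed ((MulAction.stabilizer (Ω ≃ₐ[K] Ω) x : Subgroup (Ω ≃ₐ[K] Ω)) : Set (Ω ≃ₐ[K] Ω)) := by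
  obtain ⟨L, hL, hLx⟩ := hcont x
  have hle : L.fixingSubgroup ≤ MulAction.stabilizer (Ω ≃ₐ[K] Ω) x := fun σ hσ =>
    MulAction.mem_stabilizer_iff.mpr (hLx σ hσ)
  exact Subgroup.isClosed_of_isOpen _ (Subgroup.isOpen_mono hle L.fixingSubgroup_isOpen)

/-- Equivariant functions separate points. -/
theorem equivFun_separates [IsGalois K Ω]
    (hcont : ∀ x : M, ∃ L : IntermediateField K Ω, FiniteDimensional K L ∧
      ∀ σ ∈ L.fixingSubgroup, σ • x = x) (x y : M) (hxy : x ≠ y) :
    ∃ h ∈ equivFun K Ω M, h x ≠ h y := by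
  obtain ⟨u, hu, hne⟩ := exists_equivariant_separating (G := Ω ≃ₐ[K] Ω) (Ω := Ω)
    (hGal_of_isClosed_stabilizer (isClosed_stabilizer_of_hcont hcont)) x y hxy
  exact ⟨u, fun σ z => hu σ z, hne⟩

/-- **Galois descent, surjective half**: an `Ω`-basis of `M → Ω` made of equivariant functions. -/
theorem exists_basis_equivariant_gen [IsGalois K Ω] [Finite M]
    (hcont : ∀ x : M, ∃ L : IntermediateField K Ω, FiniteDimensional K L ∧
      ∀ σ ∈ L.fixingSubgroup, σ • x = x) :
    ∃ b : Module.Basis (Fin (Nat.card M)) Ω (M → Ω),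
      ∀ i, ∀ (σ : Ω ≃ₐ[K] Ω) (x : M), b i (σ • x) = σ (b i x) := by
  classical
  have hspan : Submodule.span Ω ((equivFun K Ω M : Subalgebra K (M → Ω)) : Set (M → Ω)) = ⊤ :=
    span_eq_top_of_separates (equivFun K Ω M) (equivFun_separates hcont)
  obtain ⟨s, hsE, hss, hli⟩ := exists_linearIndependent Ω
    ((equivFun K Ω M : Subalgebra K (M → Ω)) : Set (M → Ω))
  rw [hspan] at hss
  let B : Module.Basis s Ω (M → Ω) := Module.Basis.mk hli (by
    rw [Subtype.range_coe_subtype, Set.ofPred_mem_eq, hss])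
  have hB : ∀ i : s, B i = (i : M → Ω) := fun i => by simp [B]
  have : Fintype M := Fintype.ofFinite M
  have hfin : Finite s := Module.Finite.finite_basis B
  have hcard : Nat.card s = Nat.card M := by
    have h1 := Module.finrank_eq_nat_card_basis B
    rw [Module.finrank_fintype_fun_eq_card, ← Nat.card_eq_fintype_card] at h1
    exact h1.symm
  let e : s ≃ Fin (Nat.card M) := Finite.equivFinOfCardEq hcard
  refine ⟨B.reindex e, fun i σ x => ?_⟩
  rw [Module.Basis.reindex_apply, hB]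
  exact hsE (e.symm i).2 σ x

end Gen

section Qbar

/-- Galois-fixed elements of `ℚ̄` are rational. -/
theorem hfix_qbar (x : AlgebraicClosure ℚ)
    (hx : ∀ σ : AlgebraicClosure ℚ ≃ₐ[ℚ] AlgebraicClosure ℚ, σ x = x) :
    x ∈ (algebraMap ℚ (AlgebraicClosure ℚ)).range := by
  have : Algebra.IsAlgebraic ℚ (AlgebraicClosure ℚ) := AlgebraicClosure.isAlgebraic ℚ
  have : IsAlgClosure ℚ (AlgebraicClosure ℚ) := ⟨inferInstance, inferInstance⟩
  have : IsGalois ℚ (AlgebraicClosure ℚ) := IsAlgClosure.isGalois ℚ (AlgebraicClosure ℚ)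
  exact hfix_gal (K := ℚ) (Ω := AlgebraicClosure ℚ) x (fun σ => hx σ)

/-- **The literal asked for by (A2).** -/
theorem exists_basis_equivariant {M : Type*} [Finite M]
    [MulAction (AlgebraicClosure ℚ ≃ₐ[ℚ] AlgebraicClosure ℚ) M]
    (hcont : ∀ x : M, ∃ K : IntermediateField ℚ (AlgebraicClosure ℚ), FiniteDimensional ℚ K ∧
      ∀ σ ∈ K.fixingSubgroup, σ • x = x) :
    ∃ b : Module.Basis (Fin (Nat.card M)) (AlgebraicClosure ℚ) (M → AlgebraicClosure ℚ),
      ∀ i, ∀ (σ : AlgebraicClosure ℚ ≃ₐ[ℚ] AlgebraicClosure ℚ) (x : M),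
        b i (σ • x) = σ (b i x) := by
  have : Algebra.IsAlgebraic ℚ (AlgebraicClosure ℚ) := AlgebraicClosure.isAlgebraic ℚ
  have : IsAlgClosure ℚ (AlgebraicClosure ℚ) := ⟨inferInstance, inferInstance⟩
  have : IsGalois ℚ (AlgebraicClosure ℚ) := IsAlgClosure.isGalois ℚ (AlgebraicClosure ℚ)
  exact exists_basis_equivariant_gen hcont

end Qbar

end Fermat.Agent.ES.V19.EquivBasis4
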