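/-
Programme V (S19), chapter A2 (descent), helper26: **(A2) closed**.  The hypothesis structures of the
chapter are discharged:

* `denseHyp hℓ A hA : DenseHyp ℓ A` for every valuation subring `A` of `ℚ̄` over `ℓ` (helper4's `DenseHens4` and
  `EquivBasis4.hfix_qbar`);
* `UnrLevel A (gammaF A ℓ f)` is helper16's `UnrLevel16.unrLevel_gammaF`;
* the reference basis of `G_ℚ`-equivariant functions is helper4's `EquivBasis4.exists_basis_equivariant`.

Exit: for a finite discrete `G_ℚ`-module `M`, `f > 0`, `O_f := fixRing A (gammaF A ℓ f)`, and an `O_f`-subalgebra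
`H' ⊆ (M → ℚ̄)` which is `Γ_f`-equivariant, finitely generated, separating, stable under `star τ` (`τ ∈ D_A`),
under the comultiplication and the antipode:

* `isHopfOrder_of_gammaF`       : `IsHopfOrder (fun σ x => σ • x) (descend _ H')` (helper2's (A1) funnel);
* `exists_hopfAlgebra_of_gammaF` : the literal of S19 / `GaloisRepAdic.IsFlatAt` for `M`.
-/
import Mathlib
import Fermat.Prelude.Def_FLTPrelim_Ramification
import Fermat.Prelude.Def_GaloisRep_Flat
import Fermat.Agent.ES.V19.StarAct26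
import Fermat.Agent.ES.V19.TraceDescent26
import Fermat.Agent.ES.V19.DescentCore26
import Fermat.Agent.ES.V19.DescentAsm26
import Fermat.Agent.ES.V19.DenseHens4
import Fermat.Agent.ES.V19.EquivBasis4
import Fermat.Agent.ES.V19.GammaF16
import Fermat.Agent.ES.V19.UnrLevel16

set_option autoImplicit false
set_option linter.style.haveILetI false
set_option linter.unusedSectionVars false

namespace Fermat.Agent.ES.V19.DescentFinal26

open Fermat.Agent.ES.V19.StarAct26 Fermat.Agent.ES.V19.TraceDescent26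
  Fermat.Agent.ES.V19.DescentCore26 Fermat.Agent.ES.V19.DescentAsm26
  Fermat.Agent.ES.V19.HopfOrderStr2 Fermat.Agent.ES.V19.GammaF16

local notation "Qbar" => AlgebraicClosure ℚ
local notation "GQ" => (AlgebraicClosure ℚ ≃ₐ[ℚ] AlgebraicClosure ℚ)

noncomputable section

/-- The arithmetic inputs of the dense step hold for every valuation subring of `ℚ̄` over `ℓ`. -/
theorem denseHyp {ℓ : ℕ} (hℓ : ℓ.Prime) (A : ValuationSubring Qbar) (hA : A.LiesOverPrime ℓ) :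
    DenseHyp ℓ A where
  pow_mul_mem := DenseHens4.exists_pow_mul_mem hℓ A hA
  rat_mem := DenseHens4.mem_ratLocalizedAt_of_mem hℓ A hA
  ratLoc_mem := DenseHens4.ratLocalizedAt_mem hℓ A hA
  dense := fun j x hx => by
    obtain ⟨z, y, hy, hyD, hxy⟩ := DenseHens4.exists_approx hℓ A hA j hx.1 hx.2
    exact ⟨z, z.2, y, ⟨hy, hyD⟩, hxy⟩
  fixed_rat := fun x hx => by
    obtain ⟨q, hq⟩ := EquivBasis4.hfix_qbar x hx
    exact ⟨q, hq⟩

section Exit

variable {ℓ : ℕ} [Fact ℓ.Prime] {A : ValuationSubring Qbar}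
variable {M : Type} [AddCommGroup M] [Finite M] [DistribMulAction GQ M]

/-- **Exit of (A2)**, `IsHopfOrder` form. -/
theorem isHopfOrder_of_gammaF (hA : A.LiesOverPrime ℓ) {f : ℕ} (hf : 0 < f)
    (hcont : ∀ x : M, ∃ K : IntermediateField ℚ Qbar, FiniteDimensional ℚ K ∧
      ∀ σ ∈ K.fixingSubgroup, σ • x = x)
    (H' : Subalgebra ↥(fixRing A (gammaF A ℓ f)) (M → Qbar)) (hfg : H'.toSubmodule.FG)
    (hequiv : ∀ h ∈ H', IsEquivariant (gammaF A ℓ f) h)
    (hsep : ∀ x y : M, x ≠ y → ∃ h ∈ H', h x ≠ h y)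
    (hstab : ∀ τ ∈ A.decompositionSubgroup ℚ, ∀ h ∈ H', StarAct26.star τ h ∈ H')
    (hcomul : ∀ h ∈ H', ∃ (n : ℕ) (a c : Fin n → M → Qbar), (∀ i, a i ∈ H') ∧ (∀ i, c i ∈ H') ∧
      ∀ x y, h (x + y) = ∑ i, a i x * c i y)
    (hanti : ∀ h ∈ H', (fun x => h (-x)) ∈ H') :
    IsHopfOrder (fun (σ : GQ) (x : M) => σ • x)
      (descend (denseHyp (Fact.out : ℓ.Prime) A hA).ratLoc_mem H') := by
  obtain ⟨b, hb⟩ := EquivBasis4.exists_basis_equivariant hcont
  exact isHopfOrder_descend (denseHyp (Fact.out : ℓ.Prime) A hA)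
    (UnrLevel16.unrLevel_gammaF (Fact.out : ℓ.Prime) hA hf) b
    (fun i σ _ x => hb i σ x) H' hfg hequiv hsep hstab hcomul hanti

/-- **Exit of (A1) + (A2)**: the literal of S19 / `GaloisRepAdic.IsFlatAt` for the `G_ℚ`-module `M`, from a
`D_A`-stable Hopf order over `O_f`. -/
theorem exists_hopfAlgebra_of_gammaF (hA : A.LiesOverPrime ℓ) {f : ℕ} (hf : 0 < f)
    (hcont : ∀ x : M, ∃ K : IntermediateField ℚ Qbar, FiniteDimensional ℚ K ∧
      ∀ σ ∈ K.fixingSubgroup, σ • x = x)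
    (H' : Subalgebra ↥(fixRing A (gammaF A ℓ f)) (M → Qbar)) (hfg : H'.toSubmodule.FG)
    (hequiv : ∀ h ∈ H', IsEquivariant (gammaF A ℓ f) h)
    (hsep : ∀ x y : M, x ≠ y → ∃ h ∈ H', h x ≠ h y)
    (hstab : ∀ τ ∈ A.decompositionSubgroup ℚ, ∀ h ∈ H', StarAct26.star τ h ∈ H')
    (hcomul : ∀ h ∈ H', ∃ (n : ℕ) (a c : Fin n → M → Qbar), (∀ i, a i ∈ H') ∧ (∀ i, c i ∈ H') ∧
      ∀ x y, h (x + y) = ∑ i, a i x * c i y)
    (hanti : ∀ h ∈ H', (fun x => h (-x)) ∈ H') :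
    ∃ (H₀ : Type) (_ : CommRing H₀) (_ : HopfAlgebra (GaloisRep.ratLocalizedAt ℓ) H₀),
      Module.Finite (GaloisRep.ratLocalizedAt ℓ) H₀ ∧ Module.Flat (GaloisRep.ratLocalizedAt ℓ) H₀ ∧
      Coalgebra.IsCocomm (GaloisRep.ratLocalizedAt ℓ) H₀ ∧
      ∃ e : WithConv (H₀ →ₐ[GaloisRep.ratLocalizedAt ℓ] AlgebraicClosure ℚ) ≃ M,
        (∀ f g, e (f * g) = e f + e g) ∧
        ∀ (σ : AlgebraicClosure ℚ ≃ₐ[ℚ] AlgebraicClosure ℚ)
          (f g : WithConv (H₀ →ₐ[GaloisRep.ratLocalizedAt ℓ] AlgebraicClosure ℚ)),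
          (∀ h : H₀, g h = σ (f h)) → e g = σ • e f :=
  HopfOrderPts2.exists_hopfAlgebra_Zl ℓ
    (isHopfOrder_of_gammaF hA hf hcont H' hfg hequiv hsep hstab hcomul hanti)

end Exit

end

end Fermat.Agent.ES.V19.DescentFinal26
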