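/-
Programme V (S19), chapter (B3) / join step J2 — helper3:
**assembly of the exit literal `DiscIface3.DiscExit` from its leaves.**

Setting = `DiscIface3` / `DiscLocal3` (main's `TwoCharts8`, `[IsAlgClosed (kA A)]`, a generator `xt` of the
special fibre).

* `zero_of_da`   : the zero `P₀` of `τ = t - c` in the disc of `Q`, from the literal `Da T Q c`;
* `dd_of_da`     : **(Dd)** from `Good T Q c`, `Da T Q c` and main's (PEEL-a) on chart 0;
* `discExit_of`  : `DiscExit T G gred` from (Da), (Db), (Dc) at every GOOD `(Q, c)` and (PEEL-a).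
-/
import Mathlib
import Fermat.Agent.ES.V19.DiscLocal3

set_option autoImplicit false

noncomputable section

open AlgebraicCurve

namespace Fermat.Agent.ES.V19.DiscAsm3

open Fermat.Agent.X0.FF Fermat.Agent.ES.RED.PlaceValue13 Fermat.Agent.ES.RED.Contract8
  Fermat.Agent.ES.RED.TwoCharts8 Fermat.Agent.ES.V19.DiscIface3 Fermat.Agent.ES.V19.DiscLocal3

variable {L : Type*} [Field L] [IsAlgClosed L] {A : ValuationSubring L}
variable {F : Type*} [Field F] [Algebra L F] {x : F} {hx : IsGen L x}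
variable {Ft : Type*} [Field Ft] [Algebra (kA A) Ft]
variable (T : TwoCharts A hx Ft) (Q : Place (kA A) Ft) (c : ↥A)

/-- the zero of `τ = t - c` in the disc of `Q` given by (Da). -/
theorem zero_of_da (hDa : Da T Q c) :
    ∃ (P₀ : Place L F) (_ : T.r P₀ = Q) (hP : T.S0.InChart P₀), T.S0.ev P₀ hP (tauB T c) = 0 := by
  obtain ⟨P, hQ, hord, -⟩ := hDa.2.2 0 (Ideal.zero_mem _)
  have hP : T.S0.InChart P := hDa.1 P hQ
  refine ⟨P, hQ, hP, ?_⟩
  rw [T.S0.ev_eq_zero_iff P hP]
  right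
  have e : tauSub T c 0 = ((tauB T c : ↥T.S0.B) : F) := by
    unfold tauSub tauB
    rw [ZeroMemClass.coe_zero, add_zero]
    rfl
  rw [← e, hord]
  exact one_pos

variable [IsAlgClosed (kA A)] {xt : Ft} (hxt : IsGen (kA A) xt)

include hxt in
/-- **(Dd) from (Da) and (PEEL-a).** -/
theorem dd_of_da (hgood : Good T Q c) (hDa : Da T Q c)
    (peel0 : ∀ (P : Place L F) (hP : T.S0.InChart P), T.S0.PeelA P hP) : Dd T Q c := by
  obtain ⟨P₀, hQ, hP, hτ⟩ := zero_of_da T Q c hDa
  exact dd_of_peelA hxt T Q c hgood P₀ hQ hP hτ (peel0 P₀ hP)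

include hxt in
/-- **the exit literal of (B3) from its leaves.** -/
theorem discExit_of (G : Subring F) (gred : ↥G →+* Ft)
    (hda : ∀ (Q : Place (kA A) Ft) (c : ↥A), Good T Q c → Da T Q c)
    (hdb : ∀ (Q : Place (kA A) Ft) (c : ↥A), Good T Q c → Db T G Q)
    (hdc : ∀ (Q : Place (kA A) Ft) (c : ↥A), Good T Q c → Dc T G gred Q c)
    (peel0 : ∀ (P : Place L F) (hP : T.S0.InChart P), T.S0.PeelA P hP) :
    DiscExit T G gred := fun Q c hgood =>
  ⟨hda Q c hgood, hdb Q c hgood, hdc Q c hgood,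
    dd_of_da T Q c hxt hgood (hda Q c hgood) peel0⟩

end Fermat.Agent.ES.V19.DiscAsm3
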