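/-
Programme V (S19), chapter (B3) "reduction of places" — helper22: the disc lemmas **(Db)**, **(Dc)**
(and the uniqueness half of **(Da)**) AT THE LEVEL OF THE MODEL OVER `A` (the `ℚ̄`-level of SPINE v1),
in the vocabulary of main's contract `ES/RED/Contract8.ChartSpec` / `ES/RED/TwoCharts8`, with NO
finite-level (noetherian) algebra: everything follows from (R1), (R2) and (PEEL-a), which are on
main for the two-chart model.

Setting (= the `section Main` variables of `ES/RED/R2Adapter14`): `S : ChartSpec A hx Ft` one chart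
of the model over the valuation ring `A` of the algebraically closed field `L`, `r` the reduction
map on places with chart consistency `hrmem`, (R1) `hR1`, (PEEL-a) `hpeel`, (R2) on the chart ring
`hR2 : push hfin r b Q = Q.ord (red b)` (`push_eq_ord_of_R2` : it follows from `TwoCharts8.R2 S r`),
finiteness of divisors `hfin`.  `Q` a place of the special fibre in the
chart (`hQ : red s ∈ O_Q`).  The residue disc of `Q` is `{P | r P = Q}`.

* `inChart_of_eq`, `push_eq_ord` (`∑_{r P = Q} ord_P b = ord_Q (red b)`), `ord_red_nonneg`,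
  `exists_zero_of_ord_red_pos` (a chart function whose reduction vanishes at `Q` has a zero in the
  disc of `Q`);
* `locAt S Q : Subring F` : the local ring `C_Q = {a / d | a, d ∈ B, (red d)(Q) ≠ 0}`;
  `mem_place_of_mem_locAt`, `value_mem_of_mem_locAt` (elements of `C_Q` are regular with values in
  `A` on the whole disc), `evLoc` the evaluation `C_Q →+* A` at a point of the disc;
* `mem_locAt_of_regular` : **(Db)** `f = a / b` with `red b ≠ 0` ("`f` is `A`-integral") and without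
  poles on the disc of `Q` lies in `C_Q`;
* `IsFrac S f` : `f = a / b`, `red a ≠ 0`, `red b ≠ 0` (a Gauss unit), closed under `*`, `⁻¹`, `^`;
* `ord_eq_of_ord_red_eq_one` : **(Da), uniqueness** for a chart function `u` (e.g. `u = s - c`,
  `c : A`, `subConst`) with `ord_Q (red u) = 1` and `P` in the disc with `ord_P u > 0`:
  `ord_P u = 1` and `ord_{P'} u = 0` for the other `P'` of the disc;
  `existsUnique_zero` : such a `P` exists and is unique;
* `exists_eq_mul_of_evLoc_eq_zero` : division by such a local equation in `C_Q` (input of (Dd));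
* `exists_unit_mul_prod` : **(Dc)** a Gauss unit `f` is `u · ∏_{P ∈ W} p_P ^ ord_P f`, `u ∈ C_Qˣ`,
  for `W ⊇ {P in the disc | ord_P f ≠ 0}` and local equations `p_P ∈ B` of the points of `W`;
  `exists_unit_mul_prod_sub` : the same with `p_P = s - s(P)` at a GOOD `Q`.
-/
import Mathlib
import Fermat.Agent.ES.RED.TwoCharts8
import Fermat.Agent.ES.RED.R2Adapter14

set_option autoImplicit false
set_option linter.unusedSectionVars false

namespace Fermat.Agent.ES.V19.DiscChart22

open AlgebraicCurve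
open Fermat.Agent.X0.FF Fermat.Agent.ES.RED.PlaceValue13 Fermat.Agent.ES.RED.Contract8
open Fermat.Agent.ES.RED.R2Abstract14 Fermat.Agent.ES.RED.R2Adapter14

noncomputable section

variable {L : Type*} [Field L] [IsAlgClosed L] {A : ValuationSubring L}
variable {F : Type*} [Field F] [Algebra L F] {x : F} {hx : IsGen L x}
variable {Ft : Type*} [Field Ft] [Algebra (kA A) Ft] (S : ChartSpec A hx Ft)
variable [IsAlgClosed (kA A)] {xt : Ft} (hxt : IsGen (kA A) xt)
variable (r : Place L F → Place (kA A) Ft)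
variable (hrmem : ∀ P, S.red S.sB ∈ (r P).toValuationSubring ↔ S.InChart P)
variable (hR1 : ∀ (P : Place L F) (hP : S.InChart P) (b : ↥S.B),
  ∃ hmem : S.red b ∈ (r P).toValuationSubring,
    valueHom hxt (r P) ⟨S.red b, hmem⟩ = S.chi P hP b)
variable (hpeel : ∀ (P : Place L F) (hP : S.InChart P), S.PeelA P hP)
variable (hfin : FinDiv L F)
variable (hR2 : ∀ b : ↥S.B, S.red b ≠ 0 → ∀ Q : Place (kA A) Ft,
  S.red S.sB ∈ Q.toValuationSubring → push hfin r (b : F) Q = Q.ord (S.red b))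
variable (Q : Place (kA A) Ft) (hQ : S.red S.sB ∈ Q.toValuationSubring)

/-! ### the disc of `Q` -/

include hrmem hQ in
/-- the disc of `Q` lies in the chart. -/
theorem inChart_of_eq {P : Place L F} (hPQ : r P = Q) : S.InChart P :=
  (hrmem P).1 (by rw [hPQ]; exact hQ)

omit [IsAlgClosed (kA A)] in
/-- (R2) for the elements of the chart ring, from (R2) in the fraction form of
`TwoCharts8.R2` (the shape of `R2Global14.r2`). -/
theorem push_eq_ord_of_R2 (hR2' : Fermat.Agent.ES.RED.TwoCharts8.R2 S r)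
    (b : ↥S.B) (hb : S.red b ≠ 0) (Q : Place (kA A) Ft)
    (hQ : S.red S.sB ∈ Q.toValuationSubring) :
    push hfin r (b : F) Q = Q.ord (S.red b) := by
  have h := hR2' b 1 hb (by rw [map_one]; exact one_ne_zero)
    (divOf hfin ((b : F) / ((1 : ↥S.B) : F))) (fun P => rfl) Q hQ
  have e : ((1 : ↥S.B) : F) = 1 := rfl
  rw [map_one, div_one, e, div_one] at h
  exact h

include hR2 hQ in
/-- (R2) for an element of the chart ring: `∑_{r P = Q} ord_P b = ord_Q (red b)`. -/
theorem push_eq_ord (b : ↥S.B) (hb : S.red b ≠ 0) :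
    push hfin r (b : F) Q = Q.ord (S.red b) :=
  hR2 b hb Q hQ

include hrmem hfin hR2 hQ in
/-- reductions of chart functions are regular at `Q`. -/
theorem ord_red_nonneg (b : ↥S.B) (hb : S.red b ≠ 0) : 0 ≤ Q.ord (S.red b) := by
  rw [← push_eq_ord S r hfin hR2 Q hQ b hb]
  exact push_nonneg hfin r _ Q (fun P hPQ =>
    ord_nonneg_of_inChart S P (inChart_of_eq S r hrmem Q hQ hPQ) b.2)

include hrmem hfin hR2 hQ in
/-- a chart function whose reduction vanishes at `Q` has a zero in the disc of `Q`. -/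
theorem exists_zero_of_ord_red_pos (b : ↥S.B) (hb : S.red b ≠ 0) (hpos : 0 < Q.ord (S.red b)) :
    ∃ P, r P = Q ∧ 0 < P.ord (b : F) := by
  by_contra hcon
  have h0 : push hfin r (b : F) Q = 0 := push_eq_zero hfin r _ Q (fun P hPQ => by
    have h1 := ord_nonneg_of_inChart S P (inChart_of_eq S r hrmem Q hQ hPQ) b.2
    by_contra hne
    exact hcon ⟨P, hPQ, lt_of_le_of_ne h1 (Ne.symm hne)⟩)
  rw [push_eq_ord S r hfin hR2 Q hQ b hb] at h0
  omega

include hR1 in
/-- `χ_P d ≠ 0` for a point `P` of the disc when `red d` is a unit at `Q`. -/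
theorem chi_ne_zero_of_ord_eq_zero {P : Place L F} (hPQ : r P = Q) (hP : S.InChart P)
    {d : ↥S.B} (hd : S.red d ≠ 0) (ho : Q.ord (S.red d) = 0) : S.chi P hP d ≠ 0 := by
  subst hPQ
  intro hχ
  obtain ⟨hmem, hv⟩ := hR1 P hP d
  rw [hχ, valueHom_eq_zero_iff_ord] at hv
  rcases hv with h | h
  · exact hd h
  · change 0 < (r P).ord (S.red d) at h
    omega

include hR1 in
/-- `red d` is a unit at `Q` when `χ_P d ≠ 0` for a point `P` of the disc. -/
theorem ord_eq_zero_of_chi_ne_zero {P : Place L F} (hPQ : r P = Q) (hP : S.InChart P)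
    {d : ↥S.B} (hd : S.chi P hP d ≠ 0) : S.red d ≠ 0 ∧ Q.ord (S.red d) = 0 := by
  subst hPQ
  refine ⟨fun h => hd (S.chi_eq_zero_of_red_eq_zero P hP h), ?_⟩
  obtain ⟨hmem, hv⟩ := hR1 P hP d
  have hu : IsUnit (⟨S.red d, hmem⟩ : ↥(r P).toValuationSubring) := by
    rw [← valueHom_ne_zero_iff hxt (r P), hv]
    exact hd
  exact ffp_ord_eq_zero_of_isUnit (r P) hu

include hR1 in
/-- `red u` vanishes at `Q` when `u` vanishes at a point of the disc. -/
theorem ord_red_pos_of_ev_eq_zero {P : Place L F} (hPQ : r P = Q) (hP : S.InChart P)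
    {u : ↥S.B} (hu : S.ev P hP u = 0) (hur : S.red u ≠ 0) : 0 < Q.ord (S.red u) := by
  subst hPQ
  obtain ⟨hmem, hv⟩ := hR1 P hP u
  have hχ : S.chi P hP u = 0 := by rw [ChartSpec.chi_apply, hu, map_zero]
  rw [hχ, valueHom_eq_zero_iff_ord] at hv
  rcases hv with h | h
  · exact absurd h hur
  · exact h

/-! ### the local ring `C_Q` -/

/-- **The local ring of the model at `Q`**: fractions `a / d` of chart functions with `red d` a unit
at `Q`. -/
def locAt : Subring F where
  carrier := {f | ∃ a d : ↥S.B, S.red d ≠ 0 ∧ Q.ord (S.red d) = 0 ∧ f * (d : F) = (a : F)}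
  mul_mem' := by
    rintro f g ⟨a, d, hd, ho, e⟩ ⟨a', d', hd', ho', e'⟩
    refine ⟨a * a', d * d', ?_, ?_, ?_⟩
    · rw [map_mul]; exact mul_ne_zero hd hd'
    · rw [map_mul, Q.ord_mul hd hd', ho, ho', add_zero]
    · show f * g * ((d : F) * (d' : F)) = (a : F) * (a' : F)
      rw [← e, ← e']; ring
  one_mem' := ⟨1, 1, by rw [map_one]; exact one_ne_zero, by rw [map_one, Place.ord_one],
    by rw [one_mul]⟩
  add_mem' := by
    rintro f g ⟨a, d, hd, ho, e⟩ ⟨a', d', hd', ho', e'⟩
    refine ⟨a * d' + a' * d, d * d', ?_, ?_, ?_⟩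
    · rw [map_mul]; exact mul_ne_zero hd hd'
    · rw [map_mul, Q.ord_mul hd hd', ho, ho', add_zero]
    · show (f + g) * ((d : F) * (d' : F)) = (a : F) * (d' : F) + (a' : F) * (d : F)
      rw [← e, ← e']; ring
  zero_mem' := ⟨0, 1, by rw [map_one]; exact one_ne_zero, by rw [map_one, Place.ord_one],
    by rw [zero_mul]; rfl⟩
  neg_mem' := by
    rintro f ⟨a, d, hd, ho, e⟩
    refine ⟨-a, d, hd, ho, ?_⟩
    show -f * (d : F) = -(a : F)
    rw [← e]; ring

theorem mem_locAt_iff (f : F) :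
    f ∈ locAt S Q ↔
      ∃ a d : ↥S.B, S.red d ≠ 0 ∧ Q.ord (S.red d) = 0 ∧ f * (d : F) = (a : F) := Iff.rfl

theorem coe_mem_locAt (b : ↥S.B) : (b : F) ∈ locAt S Q :=
  ⟨b, 1, by rw [map_one]; exact one_ne_zero, by rw [map_one, Place.ord_one],
    by rw [show ((1 : ↥S.B) : F) = 1 from rfl, mul_one]⟩

theorem inv_mem_locAt {d : ↥S.B} (hd : S.red d ≠ 0) (ho : Q.ord (S.red d) = 0) :
    ((d : F))⁻¹ ∈ locAt S Q := by
  have hd0 : (d : F) ≠ 0 := coe_ne_zero S (fun h => hd (by rw [h, map_zero]))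
  exact ⟨1, d, hd, ho, by rw [inv_mul_cancel₀ hd0]; rfl⟩

include hrmem hR1 hQ in
/-- Elements of `C_Q` are regular on the disc of `Q`. -/
theorem mem_place_of_mem_locAt {f : F} (hf : f ∈ locAt S Q) {P : Place L F} (hPQ : r P = Q) :
    f ∈ P.toValuationSubring := by
  obtain ⟨a, d, hd, ho, e⟩ := hf
  have hP := inChart_of_eq S r hrmem Q hQ hPQ
  have hχ := chi_ne_zero_of_ord_eq_zero S hxt r hR1 Q hPQ hP hd ho
  have hd0 : (d : F) ≠ 0 := coe_ne_zero S (ne_zero_of_chi_ne_zero S P hP hχ)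
  have hdo : P.ord (d : F) = 0 :=
    ord_eq_zero_of_ev_ne_zero S P hP (ev_ne_zero_of_chi_ne_zero S P hP hχ)
  rw [ffp_mem_iff_ord_nonneg]
  by_cases hf0 : f = 0
  · rw [hf0, Place.ord_zero]
  have h1 : P.ord (a : F) = P.ord f + P.ord (d : F) := by rw [← e, P.ord_mul hf0 hd0]
  have h2 := ord_nonneg_of_inChart S P hP a.2
  omega

include hrmem hR1 hQ in
/-- The values of the elements of `C_Q` on the disc of `Q` lie in `A`. -/
theorem value_mem_of_mem_locAt {f : F} (hf : f ∈ locAt S Q) {P : Place L F} (hPQ : r P = Q) :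
    valueHom hx P ⟨f, mem_place_of_mem_locAt S hxt r hrmem hR1 Q hQ hf hPQ⟩ ∈ A := by
  have hfP := mem_place_of_mem_locAt S hxt r hrmem hR1 Q hQ hf hPQ
  obtain ⟨a, d, hd, ho, e⟩ := hf
  have hP := inChart_of_eq S r hrmem Q hQ hPQ
  have hχ := chi_ne_zero_of_ord_eq_zero S hxt r hR1 Q hPQ hP hd ho
  -- `f(P) * d(P) = a(P)` and `d(P)` is a unit of `A`
  have hmul : (⟨f, hfP⟩ : ↥P.toValuationSubring) * ⟨(d : F), S.mem_place P hP d d.2⟩ =
      ⟨(a : F), S.mem_place P hP a a.2⟩ := Subtype.ext e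
  have h1 := congrArg (valueHom hx P) hmul
  rw [map_mul, ← S.coe_ev P hP d, ← S.coe_ev P hP a] at h1
  have hunit : IsUnit (S.ev P hP d) := by
    rw [← IsLocalRing.residue_ne_zero_iff_isUnit]
    exact hχ
  obtain ⟨w, hw⟩ := hunit.exists_right_inv
  have hw' : ((S.ev P hP d : ↥A) : L) * (w : L) = 1 := by
    have := congrArg Subtype.val hw
    simpa using this
  have h2 : valueHom hx P ⟨f, hfP⟩ = ((S.ev P hP a : ↥A) : L) * (w : L) := by
    rw [← h1, mul_assoc, hw', mul_one]
  rw [h2]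
  exact A.mul_mem _ _ (S.ev P hP a).2 w.2

include hrmem hR1 hQ in
theorem locAt_le_place {P : Place L F} (hPQ : r P = Q) :
    locAt S Q ≤ P.toValuationSubring.toSubring :=
  fun _ hf => mem_place_of_mem_locAt S hxt r hrmem hR1 Q hQ hf hPQ

/-- **Evaluation on `C_Q` at a point of the disc of `Q`**, with values in `A`. -/
def evLoc {P : Place L F} (hPQ : r P = Q) : ↥(locAt S Q) →+* ↥A :=
  ((valueHom hx P : ↥P.toValuationSubring →+* L).comp
    (Subring.inclusion (locAt_le_place S hxt r hrmem hR1 Q hQ hPQ))).codRestrict A.toSubring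
    (fun f => value_mem_of_mem_locAt S hxt r hrmem hR1 Q hQ f.2 hPQ)

theorem coe_evLoc {P : Place L F} (hPQ : r P = Q) (f : ↥(locAt S Q)) :
    ((evLoc S hxt r hrmem hR1 Q hQ hPQ f : ↥A) : L) =
      valueHom hx P ⟨(f : F), mem_place_of_mem_locAt S hxt r hrmem hR1 Q hQ f.2 hPQ⟩ := rfl

/-- On chart functions `evLoc` is the evaluation `S.ev` of the contract. -/
theorem evLoc_coe {P : Place L F} (hPQ : r P = Q) (b : ↥S.B) :
    evLoc S hxt r hrmem hR1 Q hQ hPQ ⟨(b : F), coe_mem_locAt S Q b⟩ =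
      S.ev P (inChart_of_eq S r hrmem Q hQ hPQ) b := by
  apply Subtype.ext
  rw [coe_evLoc, ChartSpec.coe_ev]

/-! ### (Db): integrality on the disc -/

include hrmem hR1 hpeel hfin hR2 hQ in
theorem mem_locAt_aux : ∀ (n : ℕ) (f : F) (a b : ↥S.B), S.red b ≠ 0 → f * (b : F) = (a : F) →
    Q.ord (S.red b) ≤ n → (∀ P, r P = Q → 0 ≤ P.ord f) → f ∈ locAt S Q := by
  intro n
  induction n with
  | zero =>
    intro f a b hb e hn _
    exact ⟨a, b, hb, le_antisymm (by exact_mod_cast hn)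
      (ord_red_nonneg S r hrmem hfin hR2 Q hQ b hb), e⟩
  | succ n ih =>
    intro f a b hb e hn hreg
    by_cases h0 : Q.ord (S.red b) = 0
    · exact ⟨a, b, hb, h0, e⟩
    have hpos : 0 < Q.ord (S.red b) :=
      lt_of_le_of_ne (ord_red_nonneg S r hrmem hfin hR2 Q hQ b hb) (Ne.symm h0)
    obtain ⟨P, hPQ, hPb⟩ := exists_zero_of_ord_red_pos S r hrmem hfin hR2 Q hQ b hb hpos
    have hP := inChart_of_eq S r hrmem Q hQ hPQ
    have hb0 : b ≠ 0 := fun h => hb (by rw [h, map_zero])
    have hbF : (b : F) ≠ 0 := coe_ne_zero S hb0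
    by_cases hf0 : f = 0
    · rw [hf0]; exact (locAt S Q).zero_mem
    have haF : (a : F) ≠ 0 := by rw [← e]; exact mul_ne_zero hf0 hbF
    have hPa : 0 < P.ord (a : F) := by
      rw [← e, P.ord_mul hf0 hbF]
      have := hreg P hPQ
      omega
    obtain ⟨u, hu, hpl⟩ := hpeel P hP
    obtain ⟨d₁, b', hd₁, eb⟩ := hpl b (ev_eq_zero_of_ord_pos S P hP hPb)
    obtain ⟨d₂, a', hd₂, ea⟩ := hpl a (ev_eq_zero_of_ord_pos S P hP hPa)
    obtain ⟨hd₁r, hd₁o⟩ := ord_eq_zero_of_chi_ne_zero S hxt r hR1 Q hPQ hP hd₁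
    obtain ⟨hd₂r, hd₂o⟩ := ord_eq_zero_of_chi_ne_zero S hxt r hR1 Q hPQ hP hd₂
    have hprod : S.red b * S.red d₁ = S.red u * S.red b' := by rw [← map_mul, eb, map_mul]
    have hne : S.red u * S.red b' ≠ 0 := hprod ▸ mul_ne_zero hb hd₁r
    have hur : S.red u ≠ 0 := left_ne_zero_of_mul hne
    have hb'r : S.red b' ≠ 0 := right_ne_zero_of_mul hne
    have hupos := ord_red_pos_of_ev_eq_zero S hxt r hR1 Q hPQ hP hu hur
    have hordb' : Q.ord (S.red b') = Q.ord (S.red b) - Q.ord (S.red u) := by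
      have := congrArg Q.ord hprod
      rw [Q.ord_mul hb hd₁r, Q.ord_mul hur hb'r, hd₁o] at this
      omega
    have ebF : (b : F) * (d₁ : F) = (u : F) * (b' : F) :=
      congrArg (fun z : ↥S.B => (z : F)) eb
    have eaF : (a : F) * (d₂ : F) = (u : F) * (a' : F) :=
      congrArg (fun z : ↥S.B => (z : F)) ea
    have huF : (u : F) ≠ 0 := coe_ne_zero S (fun h => hur (by rw [h, map_zero]))
    refine ih f (a' * d₁) (b' * d₂) ?_ ?_ ?_ hreg
    · rw [map_mul]; exact mul_ne_zero hb'r hd₂r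
    · show f * ((b' : F) * (d₂ : F)) = (a' : F) * (d₁ : F)
      apply mul_left_cancel₀ huF
      linear_combination (-(f * (d₂ : F))) * ebF + ((d₂ : F) * (d₁ : F)) * e + (d₁ : F) * eaF
    · rw [map_mul, Q.ord_mul hb'r hd₂r, hd₂o, hordb']
      push_cast at hn ⊢
      omega

include hrmem hR1 hpeel hfin hR2 hQ in
/-- **(Db) integrality on the disc of `Q`.**  A function `f = a / b` with `a, b` in the chart ring
and `red b ≠ 0` (i.e. `f` is `A`-integral) which has no pole on the disc of `Q` lies in the local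
ring `C_Q`: `f = a' / d` with `(red d)(Q) ≠ 0`. -/
theorem mem_locAt_of_regular (f : F) (a b : ↥S.B) (hb : S.red b ≠ 0) (e : f * (b : F) = (a : F))
    (hreg : ∀ P, r P = Q → 0 ≤ P.ord f) : f ∈ locAt S Q :=
  mem_locAt_aux S hxt r hrmem hR1 hpeel hfin hR2 Q hQ (Q.ord (S.red b)).toNat f a b hb e
    (Int.self_le_toNat _) hreg

/-! ### Gauss units -/

/-- `f = a / b` with `a, b` in the chart ring of nonzero reduction: `f` is a *Gauss unit*
(`A`-integral with nonzero reduction, and so is `f⁻¹`). -/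
def IsFrac (f : F) : Prop :=
  ∃ a b : ↥S.B, S.red a ≠ 0 ∧ S.red b ≠ 0 ∧ f * (b : F) = (a : F)

theorem isFrac_coe {b : ↥S.B} (hb : S.red b ≠ 0) : IsFrac S (b : F) :=
  ⟨b, 1, hb, by rw [map_one]; exact one_ne_zero,
    by rw [show ((1 : ↥S.B) : F) = 1 from rfl, mul_one]⟩

theorem isFrac_one : IsFrac S (1 : F) :=
  ⟨1, 1, by rw [map_one]; exact one_ne_zero, by rw [map_one]; exact one_ne_zero,
    by rw [one_mul]⟩

variable {S}

theorem IsFrac.ne_zero {f : F} (h : IsFrac S f) : f ≠ 0 := by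
  rintro rfl
  obtain ⟨a, b, ha, -, e⟩ := h
  rw [zero_mul] at e
  have : a = 0 := Subtype.ext e.symm
  exact ha (by rw [this, map_zero])

theorem IsFrac.mul {f g : F} (hf : IsFrac S f) (hg : IsFrac S g) : IsFrac S (f * g) := by
  obtain ⟨a, b, ha, hb, e⟩ := hf
  obtain ⟨a', b', ha', hb', e'⟩ := hg
  refine ⟨a * a', b * b', by rw [map_mul]; exact mul_ne_zero ha ha',
    by rw [map_mul]; exact mul_ne_zero hb hb', ?_⟩
  show f * g * ((b : F) * (b' : F)) = (a : F) * (a' : F)
  rw [← e, ← e']; ring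

theorem IsFrac.inv {f : F} (hf : IsFrac S f) : IsFrac S f⁻¹ := by
  have hf0 := hf.ne_zero
  obtain ⟨a, b, ha, hb, e⟩ := hf
  refine ⟨b, a, hb, ha, ?_⟩
  rw [← e]
  field_simp

theorem IsFrac.pow {f : F} (hf : IsFrac S f) (n : ℕ) : IsFrac S (f ^ n) := by
  induction n with
  | zero => rw [pow_zero]; exact isFrac_one S
  | succ n ih => rw [pow_succ]; exact ih.mul hf

theorem IsFrac.zpow {f : F} (hf : IsFrac S f) (n : ℤ) : IsFrac S (f ^ n) := by
  rcases n with n | n
  · rw [Int.ofNat_eq_natCast, zpow_natCast]; exact hf.pow n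
  · rw [zpow_negSucc]; exact (hf.pow (n + 1)).inv

theorem IsFrac.prod {ι : Type*} (s : Finset ι) (g : ι → F)
    (h : ∀ i ∈ s, IsFrac S (g i)) : IsFrac S (∏ i ∈ s, g i) := by
  classical
  induction s using Finset.induction_on with
  | empty => rw [Finset.prod_empty]; exact isFrac_one S
  | insert i s hi ih =>
    rw [Finset.prod_insert hi]
    exact (h i (Finset.mem_insert_self i s)).mul
      (ih (fun j hj => h j (Finset.mem_insert_of_mem hj)))

variable (S)

include hrmem hR1 hpeel hfin hR2 hQ in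
/-- **(Db) for Gauss units**: a Gauss unit without zeros or poles on the disc of `Q` is a unit of
the local ring `C_Q`. -/
theorem isUnit_locAt_of_ord_eq_zero {f : F} (hf : IsFrac S f)
    (hord : ∀ P, r P = Q → P.ord f = 0) : f ∈ locAt S Q ∧ f⁻¹ ∈ locAt S Q := by
  constructor
  · obtain ⟨a, b, -, hb, e⟩ := hf
    exact mem_locAt_of_regular S hxt r hrmem hR1 hpeel hfin hR2 Q hQ f a b hb e
      (fun P hPQ => by rw [hord P hPQ])
  · obtain ⟨a, b, -, hb, e⟩ := hf.inv
    exact mem_locAt_of_regular S hxt r hrmem hR1 hpeel hfin hR2 Q hQ f⁻¹ a b hb e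
      (fun P hPQ => by rw [Place.ord_inv, hord P hPQ, neg_zero])

/-! ### (Da), uniqueness: the zero of `s - c` in the disc -/

/-- `s - c` as an element of the chart ring. -/
def subConst (c : ↥A) : ↥S.B := S.sB - S.const c

@[simp] theorem coe_subConst (c : ↥A) :
    ((subConst S c : ↥S.B) : F) = S.s - algebraMap L F (c : L) := rfl

include hrmem hfin hR2 hQ in
/-- **(Da), uniqueness.**  Let `u` be a chart function with `ord_Q (red u) = 1` and `P` a point of
the disc of `Q` with `ord_P u > 0`.  Then `ord_P u = 1` and `u` has no other zero in the disc. -/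
theorem ord_eq_of_ord_red_eq_one (u : ↥S.B) (hgood : Q.ord (S.red u) = 1)
    {P : Place L F} (hPQ : r P = Q) (hpos : 0 < P.ord (u : F)) :
    P.ord (u : F) = 1 ∧ ∀ P', r P' = Q → P' ≠ P → P'.ord (u : F) = 0 := by
  classical
  have hur : S.red u ≠ 0 := by
    intro h
    rw [h, Place.ord_zero] at hgood
    exact zero_ne_one hgood
  have hpush := push_eq_ord S r hfin hR2 Q hQ u hur
  rw [hgood, push_eq_sum] at hpush
  have hnn : ∀ P' : Place L F, 0 ≤ (if r P' = Q then P'.ord (u : F) else 0) := by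
    intro P'
    split_ifs with h
    · exact ord_nonneg_of_inChart S P' (inChart_of_eq S r hrmem Q hQ h) u.2
    · exact le_rfl
  have hPsupp : P ∈ (divOf hfin (u : F)).support := by
    rw [mem_support_divOf]; omega
  have key : ∀ P', r P' = Q → P' ≠ P → P'.ord (u : F) = 0 := by
    intro P' hP'Q hne
    by_contra h0
    have hP'supp : P' ∈ (divOf hfin (u : F)).support := by
      rw [mem_support_divOf]; exact h0
    have hP'pos : 0 < P'.ord (u : F) :=
      lt_of_le_of_ne (ord_nonneg_of_inChart S P' (inChart_of_eq S r hrmem Q hQ hP'Q) u.2)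
        (Ne.symm h0)
    have hsub : ({P, P'} : Finset (Place L F)) ⊆ (divOf hfin (u : F)).support := by
      intro z hz
      rw [Finset.mem_insert, Finset.mem_singleton] at hz
      rcases hz with rfl | rfl
      · exact hPsupp
      · exact hP'supp
    have hle := Finset.sum_le_sum_of_subset_of_nonneg hsub
      (f := fun P' : Place L F => if r P' = Q then P'.ord (u : F) else 0)
      (fun z _ _ => hnn z)
    rw [Finset.sum_pair (Ne.symm hne), if_pos hPQ, if_pos hP'Q, hpush] at hle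
    omega
  refine ⟨?_, key⟩
  rw [Finset.sum_eq_single_of_mem P hPsupp, if_pos hPQ] at hpush
  · exact hpush
  · intro P' _ hne
    split_ifs with h
    · exact key P' h hne
    · rfl

include hrmem hfin hR2 hQ in
/-- **(Da)**: a chart function `u` with `ord_Q (red u) = 1` has exactly one zero in the disc of
`Q` (and it is simple). -/
theorem existsUnique_zero (u : ↥S.B) (hgood : Q.ord (S.red u) = 1) :
    ∃! P, r P = Q ∧ 0 < P.ord (u : F) := by
  have hur : S.red u ≠ 0 := by
    intro h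
    rw [h, Place.ord_zero] at hgood
    exact zero_ne_one hgood
  obtain ⟨P, hPQ, hpos⟩ := exists_zero_of_ord_red_pos S r hrmem hfin hR2 Q hQ u hur
    (by rw [hgood]; exact one_pos)
  refine ⟨P, ⟨hPQ, hpos⟩, ?_⟩
  rintro P' ⟨hP'Q, hpos'⟩
  by_contra hne
  have := (ord_eq_of_ord_red_eq_one S r hrmem hfin hR2 Q hQ u hgood hPQ hpos).2 P' hP'Q hne
  omega

include hrmem hR1 hpeel hfin hR2 hQ in
/-- **Division in `C_Q`** (the input of the Taylor expansion (Dd)): let `u` be a chart function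
with `ord_Q (red u) = 1` vanishing at the point `P` of the disc of `Q`.  An element of `C_Q`
vanishing at `P` is divisible by `u` in `C_Q`. -/
theorem exists_eq_mul_of_evLoc_eq_zero (u : ↥S.B) (hgood : Q.ord (S.red u) = 1)
    {P : Place L F} (hPQ : r P = Q) (hpos : 0 < P.ord (u : F))
    (f : ↥(locAt S Q)) (hf : evLoc S hxt r hrmem hR1 Q hQ hPQ f = 0) :
    ∃ g ∈ locAt S Q, (f : F) = (u : F) * g := by
  have hur : S.red u ≠ 0 := by
    intro h
    rw [h, Place.ord_zero] at hgood
    exact zero_ne_one hgood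
  have huF : (u : F) ≠ 0 := coe_ne_zero S (fun h => hur (by rw [h, map_zero]))
  obtain ⟨h1, h2⟩ := ord_eq_of_ord_red_eq_one S r hrmem hfin hR2 Q hQ u hgood hPQ hpos
  obtain ⟨a, d, hd, ho, e⟩ := id f.2
  refine ⟨(f : F) * (u : F)⁻¹, ?_, by field_simp⟩
  refine mem_locAt_of_regular S hxt r hrmem hR1 hpeel hfin hR2 Q hQ _ a (d * u)
    (by rw [map_mul]; exact mul_ne_zero hd hur) ?_ ?_
  · show (f : F) * (u : F)⁻¹ * ((d : F) * (u : F)) = (a : F)
    rw [← e]; field_simp
  · intro P' hP'Q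
    by_cases hf0 : (f : F) = 0
    · rw [hf0, zero_mul, Place.ord_zero]
    rw [P'.ord_mul hf0 (inv_ne_zero huF), Place.ord_inv]
    have hnn : 0 ≤ P'.ord (f : F) :=
      (ffp_mem_iff_ord_nonneg P').1 (mem_place_of_mem_locAt S hxt r hrmem hR1 Q hQ f.2 hP'Q)
    by_cases hPP : P' = P
    · rw [hPP, h1]
      have hv : valueHom hx P
          ⟨(f : F), mem_place_of_mem_locAt S hxt r hrmem hR1 Q hQ f.2 hPQ⟩ = 0 := by
        have h3 := coe_evLoc S hxt r hrmem hR1 Q hQ hPQ f
        rw [hf] at h3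
        exact h3.symm
      rw [valueHom_eq_zero_iff_ord] at hv
      rcases hv with h | h
      · exact absurd h hf0
      · change 0 < P.ord (f : F) at h
        omega
    · rw [h2 P' hP'Q hPP]; omega

/-! ### (Dc): factorisation on the disc -/

/-- The order of a product of integer powers. -/
theorem ord_prod_zpow (P : Place L F) {ι : Type*} (s : Finset ι) (g : ι → F) (n : ι → ℤ)
    (hg : ∀ i ∈ s, g i ≠ 0) :
    P.ord (∏ i ∈ s, g i ^ n i) = ∑ i ∈ s, n i * P.ord (g i) := by
  classical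
  induction s using Finset.induction_on with
  | empty => simp
  | insert i s hi ih =>
    have h1 : g i ^ n i ≠ 0 := zpow_ne_zero _ (hg i (Finset.mem_insert_self i s))
    have h2 : ∏ j ∈ s, g j ^ n j ≠ 0 :=
      Finset.prod_ne_zero_iff.2 (fun j hj => zpow_ne_zero _ (hg j (Finset.mem_insert_of_mem hj)))
    rw [Finset.prod_insert hi, Finset.sum_insert hi, P.ord_mul h1 h2, P.ord_zpow,
      ih (fun j hj => hg j (Finset.mem_insert_of_mem hj))]

include hrmem hR1 hpeel hfin hR2 hQ in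
/-- **(Dc) factorisation on the disc of `Q`.**  A Gauss unit `f` whose zeros and poles on the disc
of `Q` lie in the finite set `W`, with local equations `p P ∈ B` of the points of `W`
(`ord_P (p P) = 1`, no other zero on the disc, nonzero reduction), is
`u · ∏_{P ∈ W} (p P) ^ ord_P f` with `u` a unit of the local ring `C_Q`. -/
theorem exists_unit_mul_prod (f : F) (hf : IsFrac S f)
    (W : Finset (Place L F))
    (hW : ∀ P, r P = Q → P.ord f ≠ 0 → P ∈ W)
    (p : Place L F → ↥S.B) (hp0 : ∀ P ∈ W, S.red (p P) ≠ 0)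
    (hp1 : ∀ P ∈ W, P.ord ((p P : ↥S.B) : F) = 1)
    (hp : ∀ P ∈ W, ∀ P', r P' = Q → P' ≠ P → P'.ord ((p P : ↥S.B) : F) = 0) :
    ∃ u : F, u ∈ locAt S Q ∧ u⁻¹ ∈ locAt S Q ∧
      f = u * ∏ P ∈ W, ((p P : ↥S.B) : F) ^ P.ord f := by
  classical
  have hfac : ∀ P ∈ W, IsFrac S ((p P : ↥S.B) : F) := fun P hP => isFrac_coe S (hp0 P hP)
  set Pr : F := ∏ P ∈ W, ((p P : ↥S.B) : F) ^ P.ord f with hPr
  have hPr0 : Pr ≠ 0 :=
    Finset.prod_ne_zero_iff.2 (fun P hP => zpow_ne_zero _ (hfac P hP).ne_zero)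
  have hPrF : IsFrac S Pr := IsFrac.prod W _ (fun P hP => (hfac P hP).zpow _)
  have hg : IsFrac S (f * Pr⁻¹) := hf.mul hPrF.inv
  have hord : ∀ P', r P' = Q → P'.ord (f * Pr⁻¹) = 0 := by
    intro P' hP'Q
    rw [P'.ord_mul hf.ne_zero (inv_ne_zero hPr0), Place.ord_inv, hPr,
      ord_prod_zpow P' W _ _ (fun P hP => (hfac P hP).ne_zero)]
    have hterm : ∀ P ∈ W, P.ord f * P'.ord ((p P : ↥S.B) : F) =
        if P' = P then P.ord f else 0 := by
      intro P hP
      split_ifs with h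
      · rw [h, hp1 P hP, mul_one]
      · rw [hp P hP P' hP'Q h, mul_zero]
    rw [Finset.sum_congr rfl hterm, Finset.sum_ite_eq W P' (fun P => P.ord f)]
    split_ifs with h
    · ring
    · have h0 : P'.ord f = 0 := by
        by_contra hne
        exact h (hW P' hP'Q hne)
      rw [h0]; ring
  obtain ⟨h1, h2⟩ := isUnit_locAt_of_ord_eq_zero S hxt r hrmem hR1 hpeel hfin hR2 Q hQ hg hord
  refine ⟨f * Pr⁻¹, h1, h2, ?_⟩
  rw [mul_assoc, inv_mul_cancel₀ hPr0, mul_one]

include hrmem hR1 hpeel hfin hR2 hQ in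
/-- **(Dc) at a GOOD place `Q`**, local equations `s - s(P)`: for `val P = s(P) ∈ A`
(`ord_P (s - val P) > 0`) with `ord_Q (red (s - val P)) = 1`,
`f = u · ∏_{P ∈ W} (s - s(P)) ^ ord_P f`, `u ∈ C_Qˣ`. -/
theorem exists_unit_mul_prod_sub (f : F) (hf : IsFrac S f)
    (W : Finset (Place L F)) (hWQ : ∀ P ∈ W, r P = Q)
    (hW : ∀ P, r P = Q → P.ord f ≠ 0 → P ∈ W)
    (val : Place L F → ↥A)
    (hval : ∀ P ∈ W, 0 < P.ord (S.s - algebraMap L F (val P : L)))
    (hgood : ∀ P ∈ W, Q.ord (S.red (subConst S (val P))) = 1) :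
    ∃ u : F, u ∈ locAt S Q ∧ u⁻¹ ∈ locAt S Q ∧
      f = u * ∏ P ∈ W, (S.s - algebraMap L F (val P : L)) ^ P.ord f := by
  have hur : ∀ P ∈ W, S.red (subConst S (val P)) ≠ 0 := by
    intro P hP h
    have := hgood P hP
    rw [h, Place.ord_zero] at this
    exact zero_ne_one this
  exact exists_unit_mul_prod S hxt r hrmem hR1 hpeel hfin hR2 Q hQ f hf W hW
    (fun P => subConst S (val P)) hur
    (fun P hP => (ord_eq_of_ord_red_eq_one S r hrmem hfin hR2 Q hQ _ (hgood P hP) (hWQ P hP)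
      (hval P hP)).1)
    (fun P hP => (ord_eq_of_ord_red_eq_one S r hrmem hfin hR2 Q hQ _ (hgood P hP) (hWQ P hP)
      (hval P hP)).2)

/-! ### reduction and evaluation -/

section GaussRing

variable (G : Subring F) (hBG : S.B ≤ G) (redG : ↥G →+* Ft)
  (hredG : ∀ (b : F) (hb : b ∈ S.B), redG ⟨b, hBG hb⟩ = S.red ⟨b, hb⟩)

include hredG in
/-- **`f̄(Q) = res f(P)`**: for `f` in a subring `G ⊇ B` carrying a reduction `redG` extending
`red` (the Gauss ring) and in the local ring `C_Q`, the reduction of `f` is regular at `Q` and its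
value there is the residue class of the value of `f` at any point `P` of the disc of `Q`. -/
theorem value_redG_eq (f : ↥G) (hf : (f : F) ∈ locAt S Q) {P : Place L F} (hPQ : r P = Q) :
    ∃ hmem : redG f ∈ Q.toValuationSubring,
      valueHom hxt Q ⟨redG f, hmem⟩ =
        resA A (evLoc S hxt r hrmem hR1 Q hQ hPQ ⟨(f : F), hf⟩) := by
  have hP := inChart_of_eq S r hrmem Q hQ hPQ
  obtain ⟨a, d, hd, ho, e⟩ := id hf
  have hχ := chi_ne_zero_of_ord_eq_zero S hxt r hR1 Q hPQ hP hd ho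
  -- the relation in `G` and its reduction
  have eG : f * ⟨(d : F), hBG d.2⟩ = ⟨(a : F), hBG a.2⟩ := Subtype.ext e
  have ered : redG f * S.red d = S.red a := by
    have := congrArg redG eG
    rwa [map_mul, hredG (d : F) d.2, hredG (a : F) a.2] at this
  -- the relation between the values in `A`
  have eloc : (⟨(f : F), hf⟩ : ↥(locAt S Q)) * ⟨(d : F), coe_mem_locAt S Q d⟩ =
      ⟨(a : F), coe_mem_locAt S Q a⟩ := Subtype.ext e
  have eev := congrArg (evLoc S hxt r hrmem hR1 Q hQ hPQ) eloc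
  rw [map_mul, evLoc_coe, evLoc_coe] at eev
  have eres := congrArg (resA A) eev
  rw [map_mul, ← ChartSpec.chi_apply, ← ChartSpec.chi_apply] at eres
  subst hPQ
  obtain ⟨hmd, hvd⟩ := hR1 P hP d
  obtain ⟨hma, hva⟩ := hR1 P hP a
  have hdu : IsUnit (⟨S.red d, hmd⟩ : ↥(r P).toValuationSubring) := by
    rw [← valueHom_ne_zero_iff hxt (r P), hvd]
    exact hχ
  obtain ⟨w, hw⟩ := hdu.exists_right_inv
  have hw' : S.red d * (w : Ft) = 1 := by
    have := congrArg Subtype.val hw
    simpa using this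
  have hfw : redG f = S.red a * (w : Ft) := by
    rw [← ered, mul_assoc, hw', mul_one]
  have hmem : redG f ∈ (r P).toValuationSubring := by
    rw [hfw]
    exact (r P).toValuationSubring.mul_mem _ _ hma w.2
  refine ⟨hmem, ?_⟩
  have h1 : (⟨redG f, hmem⟩ : ↥(r P).toValuationSubring) * ⟨S.red d, hmd⟩ = ⟨S.red a, hma⟩ :=
    Subtype.ext ered
  have h2 := congrArg (valueHom hxt (r P)) h1
  rw [map_mul, hvd, hva, ← eres] at h2
  exact mul_right_cancel₀ hχ h2

end GaussRing

end

end Fermat.Agent.ES.V19.DiscChart22
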