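/-
Programme V (S19), chapter B3, exit literal **(Da)** (helper10) — STATEMENT-ONLY file
(definitions and `Prop`-valued literals; the proofs are in `ES/V19/DiscVal10`).

Setting = SPINE v1, rulings 1 and 2, at the `ℚ̄`-level with main's objects: `A ≤ ℚ̄` a valuation
subring, `T : TwoCharts A hx F̃` the two-chart model of `F = ℚ̄ · F_M` (main:
`ModelInstFinal4.twoCharts_final`), `r := T.r`, chart `0` with coordinate `t = T.S0.s`.

* `tau T c : ↥T.S0.B` — the local parameter `τ = t - c` (as an element of the chart ring), `c : ↥A`.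
* `GoodAt T Q c` — `ord_Q (red τ) = 1`, i.e. `ord_Q (t̃ - c̄) = 1` (`red_tau`): `Q` is a GOOD place
  of the special fibre (`t̃` regular and unramified at `Q`) and `c` lifts `t̃(Q)`.
* `disc T Q := {P | T.r P = Q}` — the residue disc of `Q`.
* `val T c P : ↥A` — the value `τ(P)` (`T.S0.ev P _ (tau T c)` when `P` is in chart `0`, else `0`).
* `DiscValAt T Q c : Prop` — **(Da) without Galois**: every `P ∈ disc Q` is in chart `0`,
  `τ(P) ∈ 𝔪_A`, and for every `s ∈ 𝔪_A` there is exactly one `P ∈ disc Q` with `τ(P) = s`;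
  `τ(P) = s ↔ 0 < ord_P (τ - s)`, and then `ord_P (τ - s) = 1`.
* `DiscValGal T Q c : Prop` — **(Da), Galois part**: for `g ∈ D_A` with `ḡ • Q = Q` and `g c = c`:
  `g • P ∈ disc Q` and `τ(g • P) = g (τ(P))` for every `P ∈ disc Q`.
-/
import Mathlib
import Fermat.Agent.ES.RED.GaloisInst21

set_option autoImplicit false
set_option linter.unusedSectionVars false
set_option synthInstance.maxHeartbeats 400000

noncomputable section

open AlgebraicCurve ModularCurve HahnSeries

namespace Fermat.Agent.ES.V19.DiscValIface10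

open Fermat.Agent.X0.FF Fermat.Agent.ES.RED.PlaceValue13 Fermat.Agent.ES.RED.Contract8
  Fermat.Agent.ES.RED.TwoCharts8 Fermat.Agent.ES.RED.GaloisRed21 Fermat.Agent.ES.KRON.FrobPlace13

local notation "Qb" => AlgebraicClosure ℚ

-- speed only: the synthesized instance terms are unchanged (checked with `pp.all`)
attribute [local instance 5000] HahnSeries.powerSeriesAlgebra SubalgebraClass.toAlgebra

variable {A : ValuationSubring Qb} {M : ℕ} [NeZero M]
  {x : ↥(laurentBaseChange Qb (modularFunctionFieldFull M))} {hx : IsGen Qb x}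
  (T : TwoCharts A hx ↥(modularFunctionFieldFullC (kA A) M))

/-- the local parameter `τ = t - c` in the chart ring of chart `0`. -/
def tau (c : ↥A) : ↥T.S0.B := T.S0.sB - T.S0.const c

/-- `ord_Q (t̃ - c̄) = 1`: the place `Q` of the special fibre is GOOD and `c` lifts `t̃(Q)`. -/
def GoodAt (Q : Place (kA A) ↥(modularFunctionFieldFullC (kA A) M)) (c : ↥A) : Prop :=
  Q.ord (T.S0.red (tau T c)) = 1

/-- the residue disc of `Q`. -/
def disc (Q : Place (kA A) ↥(modularFunctionFieldFullC (kA A) M)) :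
    Set (Place Qb ↥(laurentBaseChange Qb (modularFunctionFieldFull M))) :=
  {P | T.r P = Q}

open Classical in
/-- the value `τ(P) ∈ A` of `τ = t - c` at a place `P` of chart `0` (and `0` outside chart `0`). -/
def val (c : ↥A) (P : Place Qb ↥(laurentBaseChange Qb (modularFunctionFieldFull M))) : ↥A :=
  if h : T.S0.InChart P then T.S0.ev P h (tau T c) else 0

/-- **(Da), first half**: `val_τ : disc Q ≃ 𝔪_A`. -/
structure DiscValAt (Q : Place (kA A) ↥(modularFunctionFieldFullC (kA A) M)) (c : ↥A) : Prop where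
  /-- the disc of a GOOD place lies in chart `0` -/
  inChart : ∀ P, T.r P = Q → T.S0.InChart P
  /-- `τ(P) ∈ 𝔪_A` on the disc -/
  val_mem : ∀ P, T.r P = Q → val T c P ∈ IsLocalRing.maximalIdeal ↥A
  /-- `val_τ` is a bijection `disc Q → 𝔪_A` -/
  existsUnique : ∀ s ∈ IsLocalRing.maximalIdeal ↥A, ∃! P, T.r P = Q ∧ val T c P = s
  /-- `τ(P) = s` iff `τ - s` vanishes at `P` -/
  val_eq_iff : ∀ P, T.r P = Q → ∀ s : ↥A,
    val T c P = s ↔
      0 < P.ord (((tau T c - T.S0.const s : ↥T.S0.B) :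
        ↥(laurentBaseChange Qb (modularFunctionFieldFull M))))
  /-- the zero of `τ - τ(P)` at `P` is simple -/
  ord_eq_one : ∀ P, T.r P = Q →
    P.ord (((tau T c - T.S0.const (val T c P) : ↥T.S0.B) :
      ↥(laurentBaseChange Qb (modularFunctionFieldFull M)))) = 1

/-- **(Da), Galois half**: `val_τ (g • P) = g (val_τ P)` for `g ∈ D_A` fixing `Q` and `c`. -/
def DiscValGal (Q : Place (kA A) ↥(modularFunctionFieldFullC (kA A) M)) (c : ↥A) : Prop :=
  ∀ g : A.decompositionSubgroup ℚ,
    coeffSemi (kA A) M (psiRes A g) • Q = Q →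
    (g : Qb ≃ₐ[ℚ] Qb) (c : Qb) = (c : Qb) →
    ∀ P, T.r P = Q →
      T.r (arithmeticGalois (modularFunctionFieldFull M) (g : Qb ≃ₐ[ℚ] Qb) • P) = Q ∧
      ((val T c (arithmeticGalois (modularFunctionFieldFull M) (g : Qb ≃ₐ[ℚ] Qb) • P) : ↥A) : Qb) =
        (g : Qb ≃ₐ[ℚ] Qb) ((val T c P : ↥A) : Qb)

end Fermat.Agent.ES.V19.DiscValIface10
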