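/-
Programme V (S19), chapter B3, brick (N3) part 1 (helper10): **UNIQUE ZERO IN A RESIDUE DISC**,
abstract in the reduction map `r`.

Setting: any two function fields `F / K`, `Ft / k` with the Prelude's places, a map on places
`r : Place K F → Place k Ft`, a function `f : F` with a divisor `D` (`D P = P.ord f`) and a
function `fbar : Ft` such that `(r1)` holds for the pair at the place `Q` of `Ft`:
`Finsupp.mapDomain r D Q = Q.ord fbar` (this is the conclusion of the Prelude's
`ModularCurve.IsPlaceReductionAlong`, on main for `r = TwoCharts.r`).  `Disc(Q) := {P | r P = Q}`.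

* `mapDomain_apply_eq_sum` (Z1): `Finsupp.mapDomain r D Q = ∑ P ∈ D.support with r P = Q, D P`.
* `existsUnique_pos_of_mapDomain_eq_one` (Z2, divisor form): if `mapDomain r D Q = 1` and
  `0 ≤ D P` on `Disc(Q)`, there is exactly one `P ∈ Disc(Q)` with `0 < D P`, and `D P = 1` there.
* `existsUnique_zero` (Z2, function form): `Q.ord fbar = 1`, `f` without poles on `Disc(Q)` ⇒
  `∃! P, r P = Q ∧ 0 < P.ord f`; `ord_eq_one_of_zero`.
* `smul_eq_of_unique` (Z3): a semilinear automorphism `g` of `F / K` with `g • f = f` and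
  `r (g • P) = r P` fixes the unique zero `P` of `f` in `Disc(Q)`.  (Rationality of the zero over
  the fixed field comes from uniqueness — no henselian hypothesis.)
* `existsUnique_zero_of_isPlaceReductionAlong`, `ord_eq_one_of_isPlaceReductionAlong`: (Z2) for
  the Prelude's `IsPlaceReductionAlong A π N r` and an `A`-integral `q`-expansion `y`.
-/
import Mathlib
import Fermat.Prelude.Def_AlgebraicCurve_BaseChangeGalois
import Fermat.Prelude.Def_ModularCurve_ReductionModL

set_option autoImplicit false

noncomputable section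

namespace Fermat.Agent.ES.V19.DiscZero10

open AlgebraicCurve

section Abstract

variable {K F k Ft : Type*} [Field K] [Field F] [Algebra K F] [Field k] [Field Ft] [Algebra k Ft]

open Classical in
/-- **(Z1)** the coefficient of `Q` in `r_* D` is the sum of `D` over the part of the support of `D`
lying in the disc of `Q`. -/
theorem mapDomain_apply_eq_sum (r : Place K F → Place k Ft) (D : Divisor K F) (Q : Place k Ft) :
    Finsupp.mapDomain r D Q = ∑ P ∈ D.support.filter (fun P => r P = Q), D P := by
  classical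
  rw [Finsupp.mapDomain, Finsupp.sum, Finsupp.finsetSum_apply, Finset.sum_filter]
  refine Finset.sum_congr rfl fun P _ => ?_
  rw [Finsupp.single_apply]

/-- **(Z2), divisor form**: if the coefficient of `Q` in `r_* D` is `1` and `D ≥ 0` on the disc of
`Q`, then `D` has exactly one point in the disc of `Q`. -/
theorem existsUnique_pos_of_mapDomain_eq_one (r : Place K F → Place k Ft) (D : Divisor K F)
    (Q : Place k Ft) (h1 : Finsupp.mapDomain r D Q = 1) (hnn : ∀ P, r P = Q → 0 ≤ D P) :
    ∃! P, r P = Q ∧ 0 < D P := by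
  classical
  rw [mapDomain_apply_eq_sum] at h1
  set s := D.support.filter (fun P => r P = Q) with hs
  have hmem : ∀ P, P ∈ s ↔ r P = Q ∧ 0 < D P := by
    intro P
    rw [hs, Finset.mem_filter, Finsupp.mem_support_iff]
    constructor
    · rintro ⟨hne, hQ⟩
      exact ⟨hQ, lt_of_le_of_ne (hnn P hQ) (Ne.symm hne)⟩
    · rintro ⟨hQ, hpos⟩
      exact ⟨ne_of_gt hpos, hQ⟩
  have hge : ∀ P ∈ s, 1 ≤ D P := fun P hP => ((hmem P).mp hP).2
  -- the sum of `|s|` integers `≥ 1` is `1`, so `|s| = 1`
  have hcard : (s.card : ℤ) ≤ 1 := by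
    have := Finset.card_nsmul_le_sum s (fun P => D P) 1 hge
    rw [h1] at this
    simpa using this
  have hne : s.Nonempty := by
    rw [Finset.nonempty_iff_ne_empty]
    intro h0
    rw [h0, Finset.sum_empty] at h1
    exact zero_ne_one h1
  obtain ⟨P₀, hP₀⟩ := hne
  refine ⟨P₀, (hmem P₀).mp hP₀, fun P hP => ?_⟩
  have hP' : P ∈ s := (hmem P).mpr hP
  have hc : s.card ≤ 1 := by exact_mod_cast hcard
  exact Finset.card_le_one.mp hc P hP' P₀ hP₀

/-- the value of `D` at the unique point is `1`. -/
theorem eq_one_of_mapDomain_eq_one (r : Place K F → Place k Ft) (D : Divisor K F)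
    (Q : Place k Ft) (h1 : Finsupp.mapDomain r D Q = 1) (hnn : ∀ P, r P = Q → 0 ≤ D P)
    {P : Place K F} (hQ : r P = Q) (hpos : 0 < D P) : D P = 1 := by
  classical
  obtain ⟨P₀, _, huniq⟩ := existsUnique_pos_of_mapDomain_eq_one r D Q h1 hnn
  rw [mapDomain_apply_eq_sum] at h1
  have hfil : D.support.filter (fun P => r P = Q) = {P} := by
    ext P'
    rw [Finset.mem_filter, Finsupp.mem_support_iff, Finset.mem_singleton]
    constructor
    · rintro ⟨hne, hQ'⟩
      have h' : r P' = Q ∧ 0 < D P' := ⟨hQ', lt_of_le_of_ne (hnn P' hQ') (Ne.symm hne)⟩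
      rw [huniq P' h', huniq P ⟨hQ, hpos⟩]
    · rintro rfl
      exact ⟨ne_of_gt hpos, hQ⟩
  rw [hfil, Finset.sum_singleton] at h1
  exact h1

/-- **(Z2), function form**: `fbar` has a simple zero at `Q`, `f` has no poles in the disc of `Q`,
and `(r1)` holds for `(f, fbar)` at `Q` ⇒ `f` has exactly one zero in the disc of `Q`. -/
theorem existsUnique_zero (r : Place K F → Place k Ft) (f : F) (fbar : Ft) (D : Divisor K F)
    (hD : ∀ P, D P = P.ord f) (Q : Place k Ft)
    (hr1 : Finsupp.mapDomain r D Q = Q.ord fbar) (hsimple : Q.ord fbar = 1)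
    (hreg : ∀ P, r P = Q → 0 ≤ P.ord f) :
    ∃! P, r P = Q ∧ 0 < P.ord f := by
  have h := existsUnique_pos_of_mapDomain_eq_one r D Q (hr1.trans hsimple)
    (fun P hP => by rw [hD]; exact hreg P hP)
  simpa only [hD] using h

/-- the zero is simple. -/
theorem ord_eq_one_of_zero (r : Place K F → Place k Ft) (f : F) (fbar : Ft) (D : Divisor K F)
    (hD : ∀ P, D P = P.ord f) (Q : Place k Ft)
    (hr1 : Finsupp.mapDomain r D Q = Q.ord fbar) (hsimple : Q.ord fbar = 1)
    (hreg : ∀ P, r P = Q → 0 ≤ P.ord f) {P : Place K F} (hQ : r P = Q) (hpos : 0 < P.ord f) :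
    P.ord f = 1 := by
  have h := eq_one_of_mapDomain_eq_one r D Q (hr1.trans hsimple)
    (fun P hP => by rw [hD]; exact hreg P hP) hQ (by rw [hD]; exact hpos)
  rwa [hD] at h

/-- **(Z3)** a semilinear automorphism fixing `f` and preserving the disc of `Q` at `P` fixes the
unique zero `P` of `f` in the disc of `Q`. -/
theorem smul_eq_of_unique (r : Place K F → Place k Ft) (f : F) (Q : Place k Ft)
    (huniq : ∃! P, r P = Q ∧ 0 < P.ord f) (g : SemilinearAut K F) (hgf : g • f = f)
    {P : Place K F} (hQ : r P = Q) (hpos : 0 < P.ord f) (hgQ : r (g • P) = r P) :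
    g • P = P := by
  obtain ⟨P₀, _, h⟩ := huniq
  have h1 : (g • P).ord f = P.ord f := by
    have := SemilinearAut.ord_smul g P f
    rwa [hgf] at this
  rw [h (g • P) ⟨hgQ.trans hQ, by rw [h1]; exact hpos⟩, h P ⟨hQ, hpos⟩]

end Abstract

section Prelude

open ModularCurve HahnSeries

variable {L : Type*} [Field L] [Algebra ℚ L] {A : ValuationSubring L}
variable {k : Type*} [Field k] {π : A →+* k} {N : ℕ}
variable {r : Place L (laurentBaseChange L (modularFunctionFieldFull N)) →
  Place k (modularFunctionFieldFullC k N)}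

/-- **(Z2) for a Prelude place reduction**: an `A`-integral `q`-expansion `y` whose reduction has a
simple zero at `Q` and which has no poles in the disc of `Q` has exactly one zero there. -/
theorem existsUnique_zero_of_isPlaceReductionAlong (hr : IsPlaceReductionAlong A π N r)
    (y : LaurentSeries A)
    (hy : coeffMap A.subtype y ∈ laurentBaseChange L (modularFunctionFieldFull N))
    (hyk : coeffMap π y ∈ modularFunctionFieldFullC k N)
    (D : Divisor L (laurentBaseChange L (modularFunctionFieldFull N)))
    (hD : ∀ P, D P =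
      P.ord (⟨coeffMap A.subtype y, hy⟩ : laurentBaseChange L (modularFunctionFieldFull N)))
    (Q : Place k (modularFunctionFieldFullC k N))
    (hsimple : Q.ord (⟨coeffMap π y, hyk⟩ : modularFunctionFieldFullC k N) = 1)
    (hreg : ∀ P, r P = Q →
      0 ≤ P.ord (⟨coeffMap A.subtype y, hy⟩ : laurentBaseChange L (modularFunctionFieldFull N))) :
    ∃! P, r P = Q ∧
      0 < P.ord (⟨coeffMap A.subtype y, hy⟩ : laurentBaseChange L (modularFunctionFieldFull N)) := by
  have hne : coeffMap π y ≠ 0 := by
    intro h0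
    have : (⟨coeffMap π y, hyk⟩ : modularFunctionFieldFullC k N) = 0 := Subtype.ext h0
    rw [this, Place.ord_zero] at hsimple
    exact zero_ne_one hsimple
  exact existsUnique_zero r _ _ D hD Q (hr.2 y hy hyk hne D hD Q) hsimple hreg

/-- the zero is simple (Prelude form). -/
theorem ord_eq_one_of_isPlaceReductionAlong (hr : IsPlaceReductionAlong A π N r)
    (y : LaurentSeries A)
    (hy : coeffMap A.subtype y ∈ laurentBaseChange L (modularFunctionFieldFull N))
    (hyk : coeffMap π y ∈ modularFunctionFieldFullC k N)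
    (D : Divisor L (laurentBaseChange L (modularFunctionFieldFull N)))
    (hD : ∀ P, D P =
      P.ord (⟨coeffMap A.subtype y, hy⟩ : laurentBaseChange L (modularFunctionFieldFull N)))
    (Q : Place k (modularFunctionFieldFullC k N))
    (hsimple : Q.ord (⟨coeffMap π y, hyk⟩ : modularFunctionFieldFullC k N) = 1)
    (hreg : ∀ P, r P = Q →
      0 ≤ P.ord (⟨coeffMap A.subtype y, hy⟩ : laurentBaseChange L (modularFunctionFieldFull N)))
    {P : Place L (laurentBaseChange L (modularFunctionFieldFull N))} (hQ : r P = Q)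
    (hpos : 0 <
      P.ord (⟨coeffMap A.subtype y, hy⟩ : laurentBaseChange L (modularFunctionFieldFull N))) :
    P.ord (⟨coeffMap A.subtype y, hy⟩ : laurentBaseChange L (modularFunctionFieldFull N)) = 1 := by
  have hne : coeffMap π y ≠ 0 := by
    intro h0
    have : (⟨coeffMap π y, hyk⟩ : modularFunctionFieldFullC k N) = 0 := Subtype.ext h0
    rw [this, Place.ord_zero] at hsimple
    exact zero_ne_one hsimple
  exact ord_eq_one_of_zero r _ _ D hD Q (hr.2 y hy hyk hne D hD Q) hsimple hreg hQ hpos

end Prelude

end Fermat.Agent.ES.V19.DiscZero10
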