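/-
Programme V (S19), chapter B3, exit literal **(Da)** PROVED (helper10): `val_τ : disc Q ≃ 𝔪_A` for a
GOOD place `Q` of the special fibre, `τ = t - c`, and its Galois equivariance.

Hypotheses (all on main for `T := ModelInstFinal4.twoCharts_final …`):
* `hr  : IsPlaceReductionModL A M T.r`                 (`RedInst15.isPlaceReductionModL_main`, (r1));
* `hS0 hS1 : GaloisInst21.CoeffChart T.S0 / T.S1`       (`coeffChart0_final`, `coeffChart1_final`);
* `hxt : IsGen (kA A) xt` for some generator `xt` of the special fibre (e.g. `ChartInputs.gent`).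

* `le_mapDomain_of_nonneg`, `r1_chart` — (r1) for an element of the chart ring of chart `0`;
* `red_tau`, `red_tau_sub`, `coe_tau_sub_ne_zero`, `val_eq`, `val_eq_iff_aux`;
* **`discValAt : GoodAt T Q c → DiscValAt T Q c`**, **`discValGal : GoodAt T Q c → DiscValGal T Q c`**;
* `centre`, `centre_spec` (the zero of `τ` in the disc), `valEquiv : disc T Q ≃ 𝔪_A`.
-/
import Mathlib
import Fermat.Agent.ES.V19.DiscZero10
import Fermat.Agent.ES.V19.DiscValIface10
import Fermat.Agent.RED.TOP.FbarFacts20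

set_option autoImplicit false
set_option linter.unusedSectionVars false
set_option synthInstance.maxHeartbeats 400000

noncomputable section

open AlgebraicCurve ModularCurve HahnSeries

namespace Fermat.Agent.ES.V19.DiscVal10

open Fermat.Agent.X0 Fermat.Agent.X0.FF Fermat.Agent.ES.RED.PlaceValue13
  Fermat.Agent.ES.RED.Contract8 Fermat.Agent.ES.RED.TwoCharts8 Fermat.Agent.ES.RED.GaloisRed21
  Fermat.Agent.ES.KRON.FrobPlace13 Fermat.Agent.ES.RED.GaloisInst21
  Fermat.Agent.ES.RED.GaloisContract21 Fermat.Agent.ES.RED.GaloisGlobal21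
  Fermat.Agent.ES.V19.DiscZero10 Fermat.Agent.ES.V19.DiscValIface10

local notation "Qb" => AlgebraicClosure ℚ

-- speed only: the synthesized instance terms are unchanged (checked with `pp.all`)
attribute [local instance 5000] HahnSeries.powerSeriesAlgebra SubalgebraClass.toAlgebra

section Abstract

variable {K F k Ft : Type*} [Field K] [Field F] [Algebra K F] [Field k] [Field Ft] [Algebra k Ft]

/-- a point of the disc of `Q` contributes at most the coefficient of `Q` in `r_* D`, when `D ≥ 0`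
on the disc. -/
theorem le_mapDomain_of_nonneg (r : Place K F → Place k Ft) (D : Divisor K F) (Q : Place k Ft)
    (hnn : ∀ P, r P = Q → 0 ≤ D P) {P : Place K F} (hP : r P = Q) :
    D P ≤ Finsupp.mapDomain r D Q := by
  classical
  rw [mapDomain_apply_eq_sum]
  have hnn' : ∀ P' ∈ D.support.filter (fun P => r P = Q), 0 ≤ D P' := fun P' hP' =>
    hnn P' (Finset.mem_filter.mp hP').2
  by_cases h0 : D P = 0
  · rw [h0]
    exact Finset.sum_nonneg hnn'
  · have hmem : P ∈ D.support.filter (fun P => r P = Q) :=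
      Finset.mem_filter.mpr ⟨Finsupp.mem_support_iff.mpr h0, hP⟩
    exact Finset.single_le_sum hnn' hmem

end Abstract

variable {A : ValuationSubring Qb} {M : ℕ} [NeZero M]
  {x : ↥(laurentBaseChange Qb (modularFunctionFieldFull M))} {hx : IsGen Qb x}
  (T : TwoCharts A hx ↥(modularFunctionFieldFullC (kA A) M))

/-! ### elementary facts on `τ = t - c` -/

theorem red_tau (c : ↥A) :
    T.S0.red (tau T c) =
      T.S0.red T.S0.sB - algebraMap (kA A) ↥(modularFunctionFieldFullC (kA A) M) (resA A c) := by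
  show T.S0.red (T.S0.sB - T.S0.const c) = _
  rw [map_sub, ChartSpec.red_const']

theorem red_tau_sub (c s : ↥A) :
    T.S0.red (tau T c - T.S0.const s) =
      T.S0.red (tau T c) - algebraMap (kA A) ↥(modularFunctionFieldFullC (kA A) M) (resA A s) := by
  rw [map_sub, ChartSpec.red_const']

/-- `red (τ - s) ≠ 0` (`t̃` is transcendental). -/
theorem red_tau_sub_ne_zero (c s : ↥A) : T.S0.red (tau T c - T.S0.const s) ≠ 0 := by
  intro h
  apply T.tr0
  rw [red_tau_sub, red_tau, sub_sub, sub_eq_zero, ← map_add] at h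
  rw [h]
  exact isAlgebraic_algebraMap _

/-- `τ - s ≠ 0` in `F`. -/
theorem coe_tau_sub_ne_zero (c s : ↥A) :
    (((tau T c - T.S0.const s : ↥T.S0.B)) :
      ↥(laurentBaseChange Qb (modularFunctionFieldFull M))) ≠ 0 := by
  intro h
  apply red_tau_sub_ne_zero T c s
  have : (tau T c - T.S0.const s : ↥T.S0.B) = 0 := Subtype.ext h
  rw [this, map_zero]

theorem val_eq (c : ↥A) (P : Place Qb ↥(laurentBaseChange Qb (modularFunctionFieldFull M)))
    (hP : T.S0.InChart P) : val T c P = T.S0.ev P hP (tau T c) := by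
  unfold val
  rw [dif_pos hP]

/-- `τ(P) = s ↔ ord_P (τ - s) > 0`, in chart `0`. -/
theorem val_eq_iff_aux (c s : ↥A)
    (P : Place Qb ↥(laurentBaseChange Qb (modularFunctionFieldFull M))) (hP : T.S0.InChart P) :
    val T c P = s ↔
      0 < P.ord (((tau T c - T.S0.const s : ↥T.S0.B)) :
        ↥(laurentBaseChange Qb (modularFunctionFieldFull M))) := by
  rw [val_eq T c P hP]
  have h1 : T.S0.ev P hP (tau T c - T.S0.const s) = T.S0.ev P hP (tau T c) - s := by
    rw [map_sub, T.S0.ev_const P hP]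
  have h2 := T.S0.ev_eq_zero_iff P hP (tau T c - T.S0.const s)
  rw [h1, sub_eq_zero] at h2
  rw [h2]
  constructor
  · rintro (h | h)
    · exact absurd h (coe_tau_sub_ne_zero T c s)
    · exact h
  · exact fun h => Or.inr h

/-! ### (r1) for elements of the chart ring -/

section R1

variable (hr : IsPlaceReductionModL A M T.r)
  (hS0 : CoeffChart (F₀ := modularFunctionFieldFull M) T.S0)

include hr hS0 in
/-- **(r1) for an element `b` of the chart ring of chart `0`**: `r_* div b = div (red b)`. -/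
theorem r1_chart (b : ↥T.S0.B) (hb : T.S0.red b ≠ 0)
    (D : Divisor Qb ↥(laurentBaseChange Qb (modularFunctionFieldFull M)))
    (hD : ∀ P, D P = P.ord ((b : ↥T.S0.B) : ↥(laurentBaseChange Qb (modularFunctionFieldFull M))))
    (Q : Place (kA A) ↥(modularFunctionFieldFullC (kA A) M)) :
    Finsupp.mapDomain T.r D Q = Q.ord (T.S0.red b) := by
  obtain ⟨Y, hY⟩ := hS0.exists_series b
  have hredY := hS0.red_eq b Y hY
  have hy : coeffMap A.subtype Y ∈ laurentBaseChange Qb (modularFunctionFieldFull M) := by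
    rw [hY]
    exact ((b : ↥T.S0.B) : ↥(laurentBaseChange Qb (modularFunctionFieldFull M))).2
  have hyk : coeffMap (IsLocalRing.residue ↥A) Y ∈
      modularFunctionFieldFullC (IsLocalRing.ResidueField ↥A) M := by
    rw [← hredY]
    exact (T.S0.red b).2
  have e1 : (⟨coeffMap A.subtype Y, hy⟩ : ↥(laurentBaseChange Qb (modularFunctionFieldFull M))) =
      ((b : ↥T.S0.B) : ↥(laurentBaseChange Qb (modularFunctionFieldFull M))) := Subtype.ext hY
  have e2 : (⟨coeffMap (IsLocalRing.residue ↥A) Y, hyk⟩ :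
      ↥(modularFunctionFieldFullC (IsLocalRing.ResidueField ↥A) M)) = T.S0.red b :=
    Subtype.ext hredY.symm
  have hne : coeffMap (IsLocalRing.residue ↥A) Y ≠ 0 := by
    intro h0
    apply hb
    rw [← e2]
    exact Subtype.ext h0
  have := hr.2 Y hy hyk hne D (fun P => by rw [hD P, e1]) Q
  rw [this, e2]

end R1

/-! ### (Da) -/

section Main

variable [IsAlgClosed (kA A)] {xt : ↥(modularFunctionFieldFullC (kA A) M)}
  (hxt : IsGen (kA A) xt)
  (hr : IsPlaceReductionModL A M T.r)
  (hS0 : CoeffChart (F₀ := modularFunctionFieldFull M) T.S0)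
  (hS1 : CoeffChart (F₀ := modularFunctionFieldFull M) T.S1)

include hxt in
/-- the disc of a GOOD place lies in chart `0`. -/
theorem inChart_of_goodAt {Q : Place (kA A) ↥(modularFunctionFieldFullC (kA A) M)} {c : ↥A}
    (hQ : GoodAt T Q c) (P : Place Qb ↥(laurentBaseChange Qb (modularFunctionFieldFull M)))
    (hP : T.r P = Q) : T.S0.InChart P := by
  apply T.inChart0_of_red_mem hxt P
  rw [hP]
  have h1 : T.S0.red (tau T c) ∈ Q.toValuationSubring := by
    apply FF.mem_of_ord_nonneg
    rw [hQ]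
    exact zero_le_one
  have h2 : T.S0.red T.S0.sB =
      T.S0.red (tau T c) +
        algebraMap (kA A) ↥(modularFunctionFieldFullC (kA A) M) (resA A c) := by
    rw [red_tau]; ring
  rw [h2]
  exact add_mem h1 (Q.algebraMap_mem' _)

/-- every element of the chart ring of chart `0` is regular at a place of chart `0`. -/
theorem ord_nonneg_of_inChart (P : Place Qb ↥(laurentBaseChange Qb (modularFunctionFieldFull M)))
    (hP : T.S0.InChart P) (b : ↥T.S0.B) :
    0 ≤ P.ord ((b : ↥T.S0.B) : ↥(laurentBaseChange Qb (modularFunctionFieldFull M))) :=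
  FF.ord_nonneg_of_mem P (T.S0.mem_place P hP b b.2)

include hxt hr hS0 in
/-- for `s ∈ 𝔪_A` the function `τ - s` has exactly one zero in the disc of a GOOD place. -/
theorem existsUnique_zero_tau_sub {Q : Place (kA A) ↥(modularFunctionFieldFullC (kA A) M)}
    {c : ↥A} (hQ : GoodAt T Q c) {s : ↥A} (hs : s ∈ IsLocalRing.maximalIdeal ↥A) :
    (∃! P, T.r P = Q ∧
      0 < P.ord (((tau T c - T.S0.const s : ↥T.S0.B)) :
        ↥(laurentBaseChange Qb (modularFunctionFieldFull M)))) ∧
    ∀ P, T.r P = Q →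
      0 < P.ord (((tau T c - T.S0.const s : ↥T.S0.B)) :
        ↥(laurentBaseChange Qb (modularFunctionFieldFull M))) →
      P.ord (((tau T c - T.S0.const s : ↥T.S0.B)) :
        ↥(laurentBaseChange Qb (modularFunctionFieldFull M))) = 1 := by
  set b : ↥T.S0.B := tau T c - T.S0.const s with hb
  have hres : resA A s = 0 := (IsLocalRing.residue_eq_zero_iff s).mpr hs
  have hred : T.S0.red b = T.S0.red (tau T c) := by
    rw [hb, red_tau_sub, hres, map_zero, sub_zero]
  obtain ⟨D, hD, -⟩ := Fermat.Agent.RED.TOP.FbarFacts20.exists_divisor_bar M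
    (coe_tau_sub_ne_zero T c s)
  have hr1 := r1_chart T hr hS0 b (red_tau_sub_ne_zero T c s) D hD Q
  have hsimple : Q.ord (T.S0.red b) = 1 := by rw [hred]; exact hQ
  have hreg : ∀ P, T.r P = Q →
      0 ≤ P.ord ((b : ↥T.S0.B) : ↥(laurentBaseChange Qb (modularFunctionFieldFull M))) :=
    fun P hP => ord_nonneg_of_inChart T P (inChart_of_goodAt T hxt hQ P hP) b
  exact ⟨existsUnique_zero T.r _ _ D hD Q hr1 hsimple hreg,
    fun P hP hpos => ord_eq_one_of_zero T.r _ _ D hD Q hr1 hsimple hreg hP hpos⟩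

include hxt hr hS0 in
/-- `τ(P) ∈ 𝔪_A` on the disc of a GOOD place. -/
theorem val_mem_of_goodAt {Q : Place (kA A) ↥(modularFunctionFieldFullC (kA A) M)} {c : ↥A}
    (hQ : GoodAt T Q c) (P : Place Qb ↥(laurentBaseChange Qb (modularFunctionFieldFull M)))
    (hP : T.r P = Q) : val T c P ∈ IsLocalRing.maximalIdeal ↥A := by
  by_contra hnot
  set a : ↥A := val T c P with ha
  have hPc := inChart_of_goodAt T hxt hQ P hP
  have hresa : resA A a ≠ 0 := fun h => hnot ((IsLocalRing.residue_eq_zero_iff a).mp h)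
  set b : ↥T.S0.B := tau T c - T.S0.const a with hb
  have hpos : 0 < P.ord ((b : ↥T.S0.B) : ↥(laurentBaseChange Qb (modularFunctionFieldFull M))) :=
    (val_eq_iff_aux T c a P hPc).mp rfl
  obtain ⟨D, hD, -⟩ := Fermat.Agent.RED.TOP.FbarFacts20.exists_divisor_bar M
    (coe_tau_sub_ne_zero T c a)
  have hr1 := r1_chart T hr hS0 b (red_tau_sub_ne_zero T c a) D hD Q
  -- `ord_Q (τ̄ - ā) = 0`
  have hord : Q.ord (T.S0.red b) = 0 := by
    have hc0 : algebraMap (kA A) ↥(modularFunctionFieldFullC (kA A) M) (resA A a) ≠ 0 := by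
      intro h
      exact hresa ((algebraMap (kA A) ↥(modularFunctionFieldFullC (kA A) M)).injective
        (by rw [h, map_zero]))
    have h1 : T.S0.red b =
        -algebraMap (kA A) ↥(modularFunctionFieldFullC (kA A) M) (resA A a) +
          T.S0.red (tau T c) := by
      rw [hb, red_tau_sub]; ring
    have h2 : Q.ord (-algebraMap (kA A) ↥(modularFunctionFieldFullC (kA A) M) (resA A a)) = 0 := by
      rw [FF.ord_neg, FF.ord_algebraMap]
    rw [h1, FF.ord_add_eq_of_lt Q (neg_ne_zero.mpr hc0) (by rw [h2, hQ]; exact zero_lt_one), h2]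
  have hle := le_mapDomain_of_nonneg T.r D Q
    (fun P' hP' => by
      rw [hD]
      exact ord_nonneg_of_inChart T P' (inChart_of_goodAt T hxt hQ P' hP') b) hP
  rw [hr1, hord, hD] at hle
  exact absurd hpos (not_lt.mpr hle)

include hxt hr hS0 in
/-- **(Da), first half.** -/
theorem discValAt {Q : Place (kA A) ↥(modularFunctionFieldFullC (kA A) M)} {c : ↥A}
    (hQ : GoodAt T Q c) : DiscValAt T Q c where
  inChart := inChart_of_goodAt T hxt hQ
  val_mem := val_mem_of_goodAt T hxt hr hS0 hQ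
  existsUnique := by
    intro s hs
    obtain ⟨⟨P₀, hP₀, huniq⟩, -⟩ := existsUnique_zero_tau_sub T hxt hr hS0 hQ hs
    refine ⟨P₀, ⟨hP₀.1, ?_⟩, ?_⟩
    · exact (val_eq_iff_aux T c s P₀ (inChart_of_goodAt T hxt hQ P₀ hP₀.1)).mpr hP₀.2
    · rintro P ⟨hP, hv⟩
      exact huniq P ⟨hP, (val_eq_iff_aux T c s P (inChart_of_goodAt T hxt hQ P hP)).mp hv⟩
  val_eq_iff := fun P hP s => val_eq_iff_aux T c s P (inChart_of_goodAt T hxt hQ P hP)
  ord_eq_one := by
    intro P hP
    have hs := val_mem_of_goodAt T hxt hr hS0 hQ P hP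
    exact (existsUnique_zero_tau_sub T hxt hr hS0 hQ hs).2 P hP
      ((val_eq_iff_aux T c _ P (inChart_of_goodAt T hxt hQ P hP)).mp rfl)

include hxt hS0 hS1 in
/-- **(Da), Galois half.** -/
theorem discValGal {Q : Place (kA A) ↥(modularFunctionFieldFullC (kA A) M)} {c : ↥A}
    (hQ : GoodAt T Q c) : DiscValGal T Q c := by
  intro g hgQ hgc P hP
  have hPc := inChart_of_goodAt T hxt hQ P hP
  have hsm : T.r (arithmeticGalois (modularFunctionFieldFull M) (g : Qb ≃ₐ[ℚ] Qb) • P) = Q := by
    rw [r_smul_decomposition T hxt g (hS0.sym g) (hS1.sym g) P, hP, hgQ]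
  refine ⟨hsm, ?_⟩
  have hPc' := (hS0.sym g).inChart_smul P hPc
  -- `g` fixes `τ`
  have hτ : (hS0.sym g).τB (tau T c) = tau T c := by
    apply Subtype.ext
    rw [(hS0.sym g).coe_τB]
    have h1 : ((tau T c : ↥T.S0.B) : ↥(laurentBaseChange Qb (modularFunctionFieldFull M))) =
        T.S0.s - algebraMap Qb ↥(laurentBaseChange Qb (modularFunctionFieldFull M)) (c : Qb) := rfl
    rw [h1, smul_sub, (hS0.sym g).smul_s, SemilinearAut.smul_algebraMap,
      baseAut_arithmeticGalois]
    congr 2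
  have h2 := (hS0.sym g).coe_ev_smul P hPc (tau T c)
  rw [hτ, baseAut_arithmeticGalois] at h2
  rw [val_eq T c _ hPc', val_eq T c P hPc]
  exact h2

/-! ### the centre and the equivalence -/

include hxt hr hS0 in
/-- the zero of `τ` in the disc of a GOOD place exists and is unique. -/
theorem existsUnique_centre {Q : Place (kA A) ↥(modularFunctionFieldFullC (kA A) M)} {c : ↥A}
    (hQ : GoodAt T Q c) : ∃! P, T.r P = Q ∧ val T c P = 0 :=
  (discValAt T hxt hr hS0 hQ).existsUnique 0 (Ideal.zero_mem _)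

include hxt hr hS0 in
/-- **`val_τ : disc Q ≃ 𝔪_A`**. -/
def valEquiv {Q : Place (kA A) ↥(modularFunctionFieldFullC (kA A) M)} {c : ↥A}
    (hQ : GoodAt T Q c) : ↥(disc T Q) ≃ ↥(IsLocalRing.maximalIdeal ↥A) :=
  Equiv.ofBijective
    (fun P => ⟨val T c P.1, (discValAt T hxt hr hS0 hQ).val_mem P.1 P.2⟩)
    ⟨fun P P' h => by
        have h' : val T c P.1 = val T c P'.1 := congrArg Subtype.val h
        obtain ⟨P₀, _, huniq⟩ := (discValAt T hxt hr hS0 hQ).existsUnique (val T c P'.1)
          ((discValAt T hxt hr hS0 hQ).val_mem P'.1 P'.2)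
        exact Subtype.ext ((huniq P.1 ⟨P.2, h'⟩).trans (huniq P'.1 ⟨P'.2, rfl⟩).symm),
      fun s => by
        obtain ⟨P₀, hP₀, -⟩ := (discValAt T hxt hr hS0 hQ).existsUnique s.1 s.2
        exact ⟨⟨P₀, hP₀.1⟩, Subtype.ext hP₀.2⟩⟩

theorem valEquiv_apply {Q : Place (kA A) ↥(modularFunctionFieldFullC (kA A) M)} {c : ↥A}
    (hQ : GoodAt T Q c) (P : ↥(disc T Q)) :
    ((valEquiv T hxt hr hS0 hQ P : ↥(IsLocalRing.maximalIdeal ↥A)) : ↥A) = val T c P.1 := rfl

end Main

end Fermat.Agent.ES.V19.DiscVal10
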