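/-
Programme V (S19), chapter B3, join step J2, component **(Da)** (helper10): the frozen exit literal
`DiscIface3.Da` (helper3, `ES/V19/DiscIface3`) PROVED at the `ℚ̄`-level for every two-chart model
`T : TwoCharts A hx F̃_M` of `F = ℚ̄ · F_M` with

* `hr  : IsPlaceReductionModL A M T.r`           (main: `RedInst15.isPlaceReductionModL_main`, (r1)),
* `hS0 : GaloisInst21.CoeffChart T.S0`            (main: `coeffChart0_final`),
* `hxt : IsGen (kA A) xt`                         (main: `ChartInputs.gent`),

from `DiscVal10.discValAt` (`GoodAt = DiscIface3.Good` by `Iff.rfl`).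

* `good_iff_goodAt`, `tauB_eq_tau`, `tauSub_eq_coe`;
* **`da_of_good : DiscIface3.Good T Q c → DiscIface3.Da T Q c`**;
* `da_all : ∀ Q c, DiscIface3.Good T Q c → DiscIface3.Da T Q c` (the shape of the hypothesis `hDa`
  of `FunnelData11.exists_funnel_data`).
-/
import Mathlib
import Fermat.Agent.ES.V19.DiscVal10
import Fermat.Agent.ES.V19.DiscIface3

set_option autoImplicit false
set_option linter.unusedSectionVars false
set_option synthInstance.maxHeartbeats 400000

noncomputable section

open AlgebraicCurve ModularCurve HahnSeries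

namespace Fermat.Agent.ES.V19.DiscDa10

open Fermat.Agent.X0 Fermat.Agent.X0.FF Fermat.Agent.ES.RED.PlaceValue13
  Fermat.Agent.ES.RED.Contract8 Fermat.Agent.ES.RED.TwoCharts8 Fermat.Agent.ES.RED.GaloisRed21
  Fermat.Agent.ES.KRON.FrobPlace13 Fermat.Agent.ES.RED.GaloisInst21
  Fermat.Agent.ES.V19.DiscValIface10 Fermat.Agent.ES.V19.DiscVal10

local notation "Qb" => AlgebraicClosure ℚ

-- speed only: the synthesized instance terms are unchanged (checked with `pp.all`)
attribute [local instance 5000] HahnSeries.powerSeriesAlgebra SubalgebraClass.toAlgebra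

variable {A : ValuationSubring Qb} {M : ℕ} [NeZero M]
  {x : ↥(laurentBaseChange Qb (modularFunctionFieldFull M))} {hx : IsGen Qb x}
  (T : TwoCharts A hx ↥(modularFunctionFieldFullC (kA A) M))

/-- the two local parameters agree (definitionally). -/
theorem tauB_eq_tau (c : ↥A) : DiscIface3.tauB T c = tau T c := rfl

/-- the two GOOD-ness conditions agree (definitionally). -/
theorem good_iff_goodAt (Q : Place (kA A) ↥(modularFunctionFieldFullC (kA A) M)) (c : ↥A) :
    DiscIface3.Good T Q c ↔ GoodAt T Q c := Iff.rfl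

/-- `τ - s = t - (c + s)` is the element `tau T c - const s` of the chart ring. -/
theorem tauSub_eq_coe (c s : ↥A) :
    DiscIface3.tauSub T c s =
      (((tau T c - T.S0.const s : ↥T.S0.B)) :
        ↥(laurentBaseChange Qb (modularFunctionFieldFull M))) := by
  show T.S0.s - algebraMap Qb ↥(laurentBaseChange Qb (modularFunctionFieldFull M))
      ((c : Qb) + (s : Qb)) =
    (T.S0.s - algebraMap Qb ↥(laurentBaseChange Qb (modularFunctionFieldFull M)) (c : Qb)) -
      algebraMap Qb ↥(laurentBaseChange Qb (modularFunctionFieldFull M)) (s : Qb)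
  rw [map_add, sub_sub]

section Main

variable [IsAlgClosed (kA A)] {xt : ↥(modularFunctionFieldFullC (kA A) M)}
  (hxt : IsGen (kA A) xt)
  (hr : IsPlaceReductionModL A M T.r)
  (hS0 : CoeffChart (F₀ := modularFunctionFieldFull M) T.S0)

include hxt hr hS0 in
/-- **(Da)** at a GOOD place `Q` with centre `c`. -/
theorem da_of_good {Q : Place (kA A) ↥(modularFunctionFieldFullC (kA A) M)} {c : ↥A}
    (hQ : DiscIface3.Good T Q c) : DiscIface3.Da T Q c := by
  have h := discValAt T hxt hr hS0 ((good_iff_goodAt T Q c).mp hQ)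
  refine ⟨h.inChart, ?_, ?_⟩
  · intro P hP hPc
    rw [tauB_eq_tau, ChartSpec.chi_apply]
    have hm := h.val_mem P hP
    rw [val_eq T c P hPc] at hm
    exact (IsLocalRing.residue_eq_zero_iff _).mpr hm
  · intro s hs
    obtain ⟨P, ⟨hP, hv⟩, huniq⟩ := h.existsUnique s hs
    refine ⟨P, hP, ?_, ?_⟩
    · have h1 := h.ord_eq_one P hP
      rw [hv] at h1
      rw [tauSub_eq_coe]
      exact h1
    · intro P' hP' hpos
      rw [tauSub_eq_coe] at hpos
      exact huniq P' ⟨hP', (h.val_eq_iff P' hP' s).mpr hpos⟩

include hxt hr hS0 in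
/-- **(Da) at every GOOD `(Q, c)`** — the hypothesis `hDa` of the consumers. -/
theorem da_all :
    ∀ (Q : Place (kA A) ↥(modularFunctionFieldFullC (kA A) M)) (c : ↥A),
      DiscIface3.Good T Q c → DiscIface3.Da T Q c :=
  fun _ _ hQ => da_of_good T hxt hr hS0 hQ

end Main

end Fermat.Agent.ES.V19.DiscDa10
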