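/-
Programme V (S19), chapter (B3) "reduction of places" — helper22: **the exit literals `Da`, `Db`,
`Dc` of `ES/V19/DiscIface3` PROVED** for a two-chart model `T : TwoCharts A hx Ft` of main's
`ES/RED/TwoCharts8`, at every GOOD `(Q, c)`, from (PEEL-a) on chart 0 and (R2) on its chart ring
(`hpeel`, `hR2`; both are on main for `twoCharts_final`, see `ES/V19/DiscFinal22.r2_0`), through
the `A`-level disc lemmas of `ES/V19/DiscChart22` (whose local ring `locAt T.S0 Q` is literally
`DiscIface3.CQ T Q`).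

"`A`-integral functions" = `GaussFrac15.gaussInt G gred` for ANY subring `G ⊇ T.S0.B` of `F` with a
reduction `gred` extending `T.S0.red` (instance: `G = gaussRingN`, `gred = gaussRedN`):
* `isGI_chart_of_mem`, `isGI_chart_of_isGI`, `isFrac_of_isGU` : the bridge — every element of `G`,
  hence of `gaussInt G gred`, is a fraction of CHART functions with nonzero reduction of the
  denominator (`S.frac` + `S.sat` + multiplicativity of `gred`);
* `red_sB_mem_of_good` : a GOOD place lies in chart 0;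
* `da` : `Good T Q c → Da T Q c`;
* `db` : `Good T Q c → Db T (gaussInt G gred) Q`;
* `dc` : `Good T Q c → Dc T (gaussInt G gred) (rho G gred) Q c`.
-/
import Mathlib
import Fermat.Agent.ES.RED.R2Global14
import Fermat.Agent.ES.V19.DiscIface3
import Fermat.Agent.ES.V19.GaussFrac15
import Fermat.Agent.ES.V19.DiscChart22

set_option autoImplicit false
set_option linter.unusedSectionVars false

namespace Fermat.Agent.ES.V19.DiscExit22

open AlgebraicCurve
open Fermat.Agent.X0.FF Fermat.Agent.ES.RED.PlaceValue13 Fermat.Agent.ES.RED.Contract8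
open Fermat.Agent.ES.RED.TwoCharts8 Fermat.Agent.ES.RED.R2Abstract14
open Fermat.Agent.ES.RED.R2Adapter14
open Fermat.Agent.ES.V19.DiscIface3 Fermat.Agent.ES.V19.GaussFrac15
open Fermat.Agent.ES.V19.DiscChart22

noncomputable section

variable {L : Type*} [Field L] [IsAlgClosed L] {A : ValuationSubring L}
variable {F : Type*} [Field F] [Algebra L F] {x : F} {hx : IsGen L x}
variable {Ft : Type*} [Field Ft] [Algebra (kA A) Ft]

/-! ### the bridge: `G`-fractions are chart fractions -/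

section Bridge

variable (S : ChartSpec A hx Ft) (G : Subring F) (gred : ↥G →+* Ft) (hBG : S.B ≤ G)
  (hredG : ∀ (b : F) (hb : b ∈ S.B), gred ⟨b, hBG hb⟩ = S.red ⟨b, hb⟩)

include hredG in
/-- Every element of `G` is a fraction of chart functions, the denominator of nonzero
reduction. -/
theorem isGI_chart_of_mem (f : ↥G) : IsGI S.B S.red (f : F) := by
  by_cases hf0 : (f : F) = 0
  · exact ⟨0, 1, by rw [map_one]; exact one_ne_zero, by rw [hf0, zero_mul]; rfl⟩
  obtain ⟨a, b, hb0, e⟩ := S.frac (f : F)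
  have hbF : (b : F) ≠ 0 := coe_ne_zero S hb0
  have ha0 : a ≠ 0 := by
    rintro rfl
    have : (f : F) * (b : F) = 0 := by rw [e]; rfl
    rcases mul_eq_zero.1 this with h | h
    · exact hf0 h
    · exact hbF h
  obtain ⟨cb, b', hbc, hb'⟩ := S.sat b hb0
  obtain ⟨ca, a', hac, ha'⟩ := S.sat a ha0
  have hcb0 : (cb : L) ≠ 0 := by
    intro h
    apply hbF
    rw [hbc, h, map_zero, zero_mul]
  have hca0 : (ca : L) ≠ 0 := by
    intro h
    apply coe_ne_zero S ha0
    rw [hac, h, map_zero, zero_mul]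
  -- `f * cb * b' = ca * a'`
  have e' : (f : F) * (algebraMap L F (cb : L) * (b' : F)) = algebraMap L F (ca : L) * (a' : F) := by
    rw [← hbc, ← hac, e]
  rcases A.mem_or_inv_mem ((ca : L) / (cb : L)) with h | h
  · -- `ca / cb ∈ A`
    refine ⟨S.const ⟨_, h⟩ * a', b', hb', ?_⟩
    show (f : F) * (b' : F) = algebraMap L F ((ca : L) / (cb : L)) * (a' : F)
    have hcbF : algebraMap L F (cb : L) ≠ 0 := (map_ne_zero (algebraMap L F)).2 hcb0
    apply mul_left_cancel₀ hcbF
    rw [map_div₀]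
    field_simp
    linear_combination e'
  · -- `cb / ca ∈ A`
    have h' : (cb : L) / (ca : L) ∈ A := by
      rw [inv_div] at h; exact h
    have eF : (f : F) * ((S.const ⟨_, h'⟩ * b' : ↥S.B) : F) = (a' : F) := by
      show (f : F) * (algebraMap L F ((cb : L) / (ca : L)) * (b' : F)) = (a' : F)
      have hcaF : algebraMap L F (ca : L) ≠ 0 := (map_ne_zero (algebraMap L F)).2 hca0
      apply mul_left_cancel₀ hcaF
      rw [map_div₀]
      field_simp
      linear_combination e'
    refine ⟨a', S.const ⟨_, h'⟩ * b', ?_, eF⟩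
    intro hzero
    apply ha'
    have eG : f * ⟨((S.const ⟨_, h'⟩ * b' : ↥S.B) : F), hBG (S.const ⟨_, h'⟩ * b').2⟩ =
        ⟨(a' : F), hBG a'.2⟩ := Subtype.ext eF
    have := congrArg gred eG
    rw [map_mul, hredG _ (S.const ⟨_, h'⟩ * b').2, hredG _ a'.2] at this
    rw [show (⟨(a' : F), a'.2⟩ : ↥S.B) = a' from rfl] at this
    rw [← this, show (⟨((S.const ⟨_, h'⟩ * b' : ↥S.B) : F), (S.const ⟨_, h'⟩ * b').2⟩ : ↥S.B) =
      S.const ⟨_, h'⟩ * b' from rfl, hzero, mul_zero]

include hredG in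
/-- the chart fraction of an element of `G` of nonzero reduction has a numerator of nonzero
reduction. -/
theorem exists_chart_frac (f : ↥G) :
    ∃ a b : ↥S.B, S.red b ≠ 0 ∧ (f : F) * (b : F) = (a : F) ∧ gred f * S.red b = S.red a := by
  obtain ⟨a, b, hb, e⟩ := isGI_chart_of_mem S G gred hBG hredG f
  refine ⟨a, b, hb, e, ?_⟩
  have eG : f * ⟨(b : F), hBG b.2⟩ = ⟨(a : F), hBG a.2⟩ := Subtype.ext e
  have := congrArg gred eG
  rwa [map_mul, hredG _ b.2, hredG _ a.2] at this

include hredG in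
/-- Gauss-integral functions for `(G, gred)` are Gauss-integral for the chart. -/
theorem isGI_chart_of_isGI {f : F} (hf : IsGI G gred f) : IsGI S.B S.red f := by
  obtain ⟨a, b, hb, e⟩ := hf
  obtain ⟨a₁, a₂, ha₂, ea, -⟩ := exists_chart_frac S G gred hBG hredG a
  obtain ⟨b₁, b₂, hb₂, eb, hbr⟩ := exists_chart_frac S G gred hBG hredG b
  have hb₁ : S.red b₁ ≠ 0 := by
    rw [← hbr]; exact mul_ne_zero hb hb₂
  refine ⟨a₁ * b₂, a₂ * b₁, by rw [map_mul]; exact mul_ne_zero ha₂ hb₁, ?_⟩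
  show f * ((a₂ : F) * (b₁ : F)) = (a₁ : F) * (b₂ : F)
  rw [← ea, ← eb, ← e]; ring

include hredG in
/-- Gauss units for `(G, gred)` are Gauss units for the chart. -/
theorem isFrac_of_isGU {f : F} (hf : IsGU G gred f) : IsFrac S f := by
  obtain ⟨a, b, ha, hb, e⟩ := hf
  obtain ⟨a₁, a₂, ha₂, ea, har⟩ := exists_chart_frac S G gred hBG hredG a
  obtain ⟨b₁, b₂, hb₂, eb, hbr⟩ := exists_chart_frac S G gred hBG hredG b
  have hb₁ : S.red b₁ ≠ 0 := by
    rw [← hbr]; exact mul_ne_zero hb hb₂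
  have ha₁ : S.red a₁ ≠ 0 := by
    rw [← har]; exact mul_ne_zero ha ha₂
  refine ⟨a₁ * b₂, a₂ * b₁, by rw [map_mul]; exact mul_ne_zero ha₁ hb₂,
    by rw [map_mul]; exact mul_ne_zero ha₂ hb₁, ?_⟩
  show f * ((a₂ : F) * (b₁ : F)) = (a₁ : F) * (b₂ : F)
  rw [← ea, ← eb, ← e]; ring

end Bridge

/-! ### the literals -/

section Literals

variable [IsAlgClosed (kA A)] {xt : Ft} (hxt : IsGen (kA A) xt)
variable (T : TwoCharts A hx Ft)
variable (hpeel : ∀ (P : Place L F) (hP : T.S0.InChart P), T.S0.PeelA P hP)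
variable (hfin : FinDiv L F)
variable (hR2 : ∀ b : ↥T.S0.B, T.S0.red b ≠ 0 → ∀ Q : Place (kA A) Ft,
  T.S0.red T.S0.sB ∈ Q.toValuationSubring → push hfin T.r (b : F) Q = Q.ord (T.S0.red b))
variable (Q : Place (kA A) Ft) (c : ↥A)

omit [IsAlgClosed (kA A)] in
/-- a GOOD place lies in chart 0. -/
theorem red_sB_mem_of_good (hgood : DiscIface3.Good T Q c) : T.S0.red T.S0.sB ∈ Q.toValuationSubring := by
  have h1 : T.S0.red (tauB T c) ∈ Q.toValuationSubring :=
    mem_of_ord_nonneg Q (by unfold DiscIface3.Good at hgood; rw [hgood]; exact zero_le_one)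
  have h2 : T.S0.red T.S0.sB =
      T.S0.red (tauB T c) + algebraMap (kA A) Ft (resA A c) := by
    unfold tauB
    rw [map_sub, ChartSpec.red_const']; ring
  rw [h2]
  exact Q.toValuationSubring.add_mem _ _ h1 (Q.algebraMap_mem' _)

omit [IsAlgClosed (kA A)] in
/-- `t - (c + s)` has the reduction of `τ = t - c` for `s ∈ 𝔪_A`. -/
theorem red_subConst_add (s : ↥A) (hs : s ∈ IsLocalRing.maximalIdeal ↥A) :
    T.S0.red (subConst T.S0 (c + s)) = T.S0.red (tauB T c) := by
  have hres : resA A s = 0 := (IsLocalRing.residue_eq_zero_iff s).2 hs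
  unfold subConst tauB
  rw [map_sub, map_sub, ChartSpec.red_const', ChartSpec.red_const', map_add, hres, add_zero]

omit [IsAlgClosed (kA A)] in
theorem coe_subConst_add (s : ↥A) :
    ((subConst T.S0 (c + s) : ↥T.S0.B) : F) = tauSub T c s := rfl

include hxt in
/-- `τ` takes its values on the disc of a GOOD place in `𝔪_A`. -/
theorem chi_tauB_eq_zero (hgood : DiscIface3.Good T Q c) (P : Place L F) (hPQ : T.r P = Q)
    (hP : T.S0.InChart P) : T.S0.chi P hP (tauB T c) = 0 := by
  by_contra hne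
  have := (ord_eq_zero_of_chi_ne_zero T.S0 hxt T.r
    (fun P hP b => Fermat.Agent.ES.RED.R2Global14.valueHom_r0 T hxt P hP b) Q hPQ hP hne).2
  unfold DiscIface3.Good at hgood
  omega

include hxt hR2 in
/-- **(Da)** at a GOOD place. -/
theorem da (hgood : DiscIface3.Good T Q c) : Da T Q c := by
  have hQ := red_sB_mem_of_good T Q c hgood
  have hrmem := fun P => Fermat.Agent.ES.RED.R2Global14.red_mem_r_iff0 T hxt P
  refine ⟨fun P hPQ => inChart_of_eq T.S0 T.r hrmem Q hQ hPQ,
    fun P hPQ hP => chi_tauB_eq_zero hxt T Q c hgood P hPQ hP, ?_⟩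
  intro s hs
  have hg : Q.ord (T.S0.red (subConst T.S0 (c + s))) = 1 := by
    rw [red_subConst_add T c s hs]; exact hgood
  have hur : T.S0.red (subConst T.S0 (c + s)) ≠ 0 := by
    intro h
    rw [h, Place.ord_zero] at hg
    exact zero_ne_one hg
  obtain ⟨P, hPQ, hpos⟩ := exists_zero_of_ord_red_pos T.S0 T.r hrmem hfin hR2 Q hQ
    (subConst T.S0 (c + s)) hur (by rw [hg]; exact one_pos)
  obtain ⟨h1, h2⟩ := ord_eq_of_ord_red_eq_one T.S0 T.r hrmem hfin hR2 Q hQ
    (subConst T.S0 (c + s)) hg hPQ hpos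
  refine ⟨P, hPQ, h1, ?_⟩
  intro P' hP'Q hpos'
  by_contra hne
  have := h2 P' hP'Q hne
  rw [coe_subConst_add] at this
  omega

variable (G : Subring F) (gred : ↥G →+* Ft) (hBG : T.S0.B ≤ G)
  (hredG : ∀ (b : F) (hb : b ∈ T.S0.B), gred ⟨b, hBG hb⟩ = T.S0.red ⟨b, hb⟩)

include hxt hpeel hR2 hredG in
/-- **(Db)** at a GOOD place, for the Gauss-integral functions of `(G, gred)`. -/
theorem db (hgood : DiscIface3.Good T Q c) : Db T (gaussInt G gred) Q := by
  have hQ := red_sB_mem_of_good T Q c hgood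
  intro f hf hreg
  obtain ⟨a, b, hb, e⟩ := isGI_chart_of_isGI T.S0 G gred hBG hredG hf
  exact mem_locAt_of_regular T.S0 hxt T.r (fun P => Fermat.Agent.ES.RED.R2Global14.red_mem_r_iff0 T hxt P)
    (fun P hP b => Fermat.Agent.ES.RED.R2Global14.valueHom_r0 T hxt P hP b) hpeel hfin hR2 Q hQ f a b hb e hreg

include hxt hpeel hR2 hredG in
/-- **(Dc)** at a GOOD place, for the Gauss units of `(G, gred)`. -/
theorem dc (hgood : DiscIface3.Good T Q c) : Dc T (gaussInt G gred) (rho G gred) Q c := by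
  classical
  have hQ := red_sB_mem_of_good T Q c hgood
  have hrmem := fun P => Fermat.Agent.ES.RED.R2Global14.red_mem_r_iff0 T hxt P
  have hR1 := fun (P : Place L F) (hP : T.S0.InChart P) (b : ↥T.S0.B) =>
    Fermat.Agent.ES.RED.R2Global14.valueHom_r0 T hxt P hP b
  intro f hf
  have hGU : IsGU G gred (f : F) := (isGU_iff_rho_ne_zero f).2 hf
  have hfrac : IsFrac T.S0 (f : F) := isFrac_of_isGU T.S0 G gred hBG hredG hGU
  have hf0 : (f : F) ≠ 0 := hfrac.ne_zero
  have hWfin : {P : Place L F | T.r P = Q ∧ P.ord (f : F) ≠ 0}.Finite :=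
    (hfin (f : F)).subset (fun P h => h.2)
  -- the values of `τ`
  let val : Place L F → ↥A := fun P =>
    if hP : T.S0.InChart P then T.S0.ev P hP T.S0.sB - c else 0
  have hvalP : ∀ P (hP : T.S0.InChart P), c + val P = T.S0.ev P hP T.S0.sB := by
    intro P hP
    show c + (if hP : T.S0.InChart P then T.S0.ev P hP T.S0.sB - c else 0) = _
    rw [dif_pos hP]; ring
  have hvalm : ∀ P, T.r P = Q → val P ∈ IsLocalRing.maximalIdeal ↥A := by
    intro P hPQ
    have hP := inChart_of_eq T.S0 T.r hrmem Q hQ hPQ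
    have hχ := chi_tauB_eq_zero hxt T Q c hgood P hPQ hP
    rw [← IsLocalRing.residue_eq_zero_iff]
    show resA A (if hP : T.S0.InChart P then T.S0.ev P hP T.S0.sB - c else 0) = 0
    rw [dif_pos hP, map_sub]
    unfold tauB at hχ
    rw [map_sub, ChartSpec.chi_const, ChartSpec.chi_apply] at hχ
    exact hχ
  have hvalpos : ∀ P, T.r P = Q → 0 < P.ord (tauSub T c (val P)) := by
    intro P hPQ
    have hP := inChart_of_eq T.S0 T.r hrmem Q hQ hPQ
    rw [← coe_subConst_add, hvalP P hP]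
    have hne : subConst T.S0 (T.S0.ev P hP T.S0.sB) ≠ 0 := by
      intro h
      exact red_sSub_ne_zero T.tr0 P hP (by
        show T.S0.red (subConst T.S0 (T.S0.ev P hP T.S0.sB)) = 0
        rw [h, map_zero])
    exact ord_pos_of_ev_eq_zero T.S0 P hP hne (T.S0.ev_sub_const P hP T.S0.sB)
  obtain ⟨u, hu, hu', e⟩ := exists_unit_mul_prod_sub T.S0 hxt T.r hrmem hR1 hpeel hfin hR2 Q hQ
    (f : F) hfrac hWfin.toFinset
    (fun P hP => ((Set.Finite.mem_toFinset hWfin).1 hP).1)
    (fun P hPQ hne => (Set.Finite.mem_toFinset hWfin).2 ⟨hPQ, hne⟩)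
    (fun P => c + val P)
    (fun P hP => hvalpos P ((Set.Finite.mem_toFinset hWfin).1 hP).1)
    (fun P hP => by
      rw [red_subConst_add T c (val P) (hvalm P ((Set.Finite.mem_toFinset hWfin).1 hP).1)]
      exact hgood)
  have hu0 : u ≠ 0 := by
    rintro rfl
    rw [zero_mul] at e
    exact hf0 e
  refine ⟨hWfin.toFinset, val, ⟨⟨u, hu⟩, ⟨u⁻¹, hu'⟩, Subtype.ext (mul_inv_cancel₀ hu0),
    Subtype.ext (inv_mul_cancel₀ hu0)⟩, ?_, ?_, e⟩
  · intro P hP
    have hPQ := ((Set.Finite.mem_toFinset hWfin).1 hP).1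
    exact ⟨hPQ, hvalm P hPQ, hvalpos P hPQ⟩
  · intro P hPQ hne
    exact (Set.Finite.mem_toFinset hWfin).2 ⟨hPQ, hne⟩

end Literals

end

end Fermat.Agent.ES.V19.DiscExit22
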