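/-
Programme V (S19), chapter (B3) "reduction of places" — helper22: the disc lemmas (Da)-uniqueness,
**(Db)**, **(Dc)** of `ES/V19/DiscChart22` INSTANTIATED at main's two-chart model over `A ≤ ℚ̄`
(`ES/RED/TwoCharts8.TwoCharts`, in the parametrisation of `ES/RED/RedInst15` / `ES/TOP/SPFinal21`:
two coefficientwise charts with coordinate `T.S0.s = tF M hmem` and (PEEL-a); `twoCharts_final` of
`ES/RED/ModelInstFinal4` is such a `T`).  `r = T.r`, the reduction map of SPINE v1.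

Chart 0 (`Q` with `t̃ ∈ O_Q`; all GOOD places are of this kind):
* `rmem0`, `r1_0`, `finDiv`, `r2_0` : the four hypotheses of `DiscChart22`;
* `mem_locAt0_of_regular` **(Db)**, `ord_eq_of_ord_red_eq_one0` / `existsUnique_zero0` **(Da)**,
  `exists_unit_mul_prod_sub0` **(Dc)**, `exists_eq_mul_of_evLoc_eq_zero0` (division in `C_Q`).
-/
import Mathlib
import Fermat.Agent.ES.RED.RedInst15
import Fermat.Agent.ES.RED.R2Global14
import Fermat.Agent.ES.KRON.KronInst10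
import Fermat.Agent.ES.V19.DiscChart22

set_option autoImplicit false
set_option linter.unusedSectionVars false
set_option synthInstance.maxHeartbeats 400000

noncomputable section

open AlgebraicCurve ModularCurve IntermediateField

namespace Fermat.Agent.ES.V19.DiscFinal22

open Fermat.Agent.ES.RED.Contract8 Fermat.Agent.ES.RED.TwoCharts8 Fermat.Agent.ES.RED.GaloisInst21
open Fermat.Agent.ES.RED.RedMain15 Fermat.Agent.ES.RED.PlaceValue13
open Fermat.Agent.ES.RED.R2Abstract14 Fermat.Agent.ES.RED.R2Adapter9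
open Fermat.Agent.X0 Fermat.Agent.X0.FF Fermat.Agent.RED.Interface4 Fermat.Agent.RED.BASE
open Fermat.Agent.ES.RED Fermat.Agent.ES.KRON Fermat.Agent.ES.V19.DiscChart22

local notation "Qb" => AlgebraicClosure ℚ

variable {M : ℕ} [NeZero M] (n e : ℕ) [NeZero n]
  (ℓ : ℕ) [Fact ℓ.Prime] (hℓM : ¬ ℓ ∣ M)
  (hmem : Interface12.TMem n e M) (hgen : Interface12.TGenBase n e)
  (A : ValuationSubring Qb) (hA : A.LiesOverPrime ℓ)
  {x : X0.FF M} {hx : IsGen Qb x}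
  (T : TwoCharts A hx ↥(modularFunctionFieldFullC (kA A) M))
  (hS0 : CoeffChart (F₀ := modularFunctionFieldFull M) T.S0)
  (hS1 : CoeffChart (F₀ := modularFunctionFieldFull M) T.S1)
  (hs0 : T.S0.s = Interface12.tF M hmem)
  (peel0 : ∀ (P : Place Qb (X0.FF M)) (hP : T.S0.InChart P), T.S0.PeelA P hP)
  (peel1 : ∀ (P : Place Qb (X0.FF M)) (hP : T.S1.InChart P), T.S1.PeelA P hP)

/-- the residue field of `A` is algebraically closed. -/
instance isAlgClosed_kA : IsAlgClosed (kA A) := KronInst10.isAlgClosed_residueField A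

/-- divisors of functions on `X₀(M)` over `ℚ̄` are finitely supported. -/
theorem finDiv : FinDiv Qb (X0.FF M) :=
  haveI := Fermat.Agent.RED.TOP.FbarFacts20.hasPrincipalDivisors_bar M
  Fermat.Agent.ES.RED.RedAssembly15.finDiv_of_hasPrincipalDivisors

include hℓM hgen hA hS0 hS1 hs0 peel0 peel1

/-- `t̃` generates the special fibre. -/
theorem gent0 : IsGen (kA A) (T.S0.red T.S0.sB) :=
  (RedInst15.chartInputs_both n e M ℓ hℓM hmem hgen A hA T hS0 hS1 hs0 peel0 peel1).1.gent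

/-- chart consistency on chart 0. -/
theorem rmem0 (P : Place Qb (X0.FF M)) :
    T.S0.red T.S0.sB ∈ (T.r P).toValuationSubring ↔ T.S0.InChart P :=
  R2Global14.red_mem_r_iff0 T
    (gent0 n e ℓ hℓM hmem hgen A hA T hS0 hS1 hs0 peel0 peel1) P

/-- (R1) on chart 0. -/
theorem r1_0 (P : Place Qb (X0.FF M)) (hP : T.S0.InChart P) (b : ↥T.S0.B) :
    ∃ hmem' : T.S0.red b ∈ (T.r P).toValuationSubring,
      valueHom (gent0 n e ℓ hℓM hmem hgen A hA T hS0 hS1 hs0 peel0 peel1) (T.r P)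
        ⟨T.S0.red b, hmem'⟩ = T.S0.chi P hP b :=
  R2Global14.valueHom_r0 T _ P hP b

/-- (R2) on the chart ring of chart 0. -/
theorem r2_0 (b : ↥T.S0.B) (hb : T.S0.red b ≠ 0)
    (Q : Place (kA A) ↥(modularFunctionFieldFullC (kA A) M))
    (hQ : T.S0.red T.S0.sB ∈ Q.toValuationSubring) :
    push (finDiv (M := M)) T.r (b : X0.FF M) Q = Q.ord (T.S0.red b) := by
  have hin := RedInst15.chartInputs_both n e M ℓ hℓM hmem hgen A hA T hS0 hS1 hs0 peel0 peel1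
  have h0 := hin.1
  have := h0.sep
  have c0 := chartHypA_of_chartSpec_self T.S0 h0.gen h0.gent T.r (hr0 T)
    (hrmem0 T h0.gent) h0.peel h0.int h0.norm h0.deg
  exact c0.r2_chart (finDiv (M := M)) (Q := Q) (FF.ord_nonneg_of_mem _ hQ) b hb

variable (Q : Place (kA A) ↥(modularFunctionFieldFullC (kA A) M))
  (hQ : T.S0.red T.S0.sB ∈ Q.toValuationSubring)

include hQ

/-- **(Db) for the two-chart model**: `f = a / b` (`a, b` in the chart ring of chart 0,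
`red b ≠ 0`) without poles on the disc `{P | T.r P = Q}` lies in the local ring `C_Q`. -/
theorem mem_locAt0_of_regular (f : X0.FF M) (a b : ↥T.S0.B) (hb : T.S0.red b ≠ 0)
    (hfab : f * (b : X0.FF M) = (a : X0.FF M)) (hreg : ∀ P, T.r P = Q → 0 ≤ P.ord f) :
    f ∈ locAt T.S0 Q :=
  mem_locAt_of_regular T.S0 (gent0 n e ℓ hℓM hmem hgen A hA T hS0 hS1 hs0 peel0 peel1) T.r (rmem0 n e ℓ hℓM hmem hgen A hA T hS0 hS1 hs0 peel0 peel1) (r1_0 n e ℓ hℓM hmem hgen A hA T hS0 hS1 hs0 peel0 peel1) peel0 finDiv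
    (r2_0 n e ℓ hℓM hmem hgen A hA T hS0 hS1 hs0 peel0 peel1) Q hQ f a b hb hfab hreg

/-- **(Db) for Gauss units**: no zeros or poles on the disc of `Q` ⇒ unit of `C_Q`. -/
theorem isUnit_locAt0_of_ord_eq_zero {f : X0.FF M} (hf : IsFrac T.S0 f)
    (hord : ∀ P, T.r P = Q → P.ord f = 0) : f ∈ locAt T.S0 Q ∧ f⁻¹ ∈ locAt T.S0 Q :=
  isUnit_locAt_of_ord_eq_zero T.S0 (gent0 n e ℓ hℓM hmem hgen A hA T hS0 hS1 hs0 peel0 peel1) T.r (rmem0 n e ℓ hℓM hmem hgen A hA T hS0 hS1 hs0 peel0 peel1) (r1_0 n e ℓ hℓM hmem hgen A hA T hS0 hS1 hs0 peel0 peel1) peel0 finDiv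
    (r2_0 n e ℓ hℓM hmem hgen A hA T hS0 hS1 hs0 peel0 peel1) Q hQ hf hord

/-- elements of `C_Q` are regular on the disc of `Q`. -/
theorem mem_place_of_mem_locAt0 {f : X0.FF M} (hf : f ∈ locAt T.S0 Q)
    {P : Place Qb (X0.FF M)} (hPQ : T.r P = Q) : f ∈ P.toValuationSubring :=
  mem_place_of_mem_locAt T.S0 (gent0 n e ℓ hℓM hmem hgen A hA T hS0 hS1 hs0 peel0 peel1) T.r (rmem0 n e ℓ hℓM hmem hgen A hA T hS0 hS1 hs0 peel0 peel1) (r1_0 n e ℓ hℓM hmem hgen A hA T hS0 hS1 hs0 peel0 peel1) Q hQ hf hPQ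

/-- the values of the elements of `C_Q` on the disc of `Q` lie in `A`. -/
theorem value_mem_of_mem_locAt0 {f : X0.FF M} (hf : f ∈ locAt T.S0 Q)
    {P : Place Qb (X0.FF M)} (hPQ : T.r P = Q) :
    valueHom hx P ⟨f, mem_place_of_mem_locAt0 n e ℓ hℓM hmem hgen A hA T hS0 hS1 hs0 peel0 peel1 Q hQ hf hPQ⟩ ∈ A :=
  value_mem_of_mem_locAt T.S0 (gent0 n e ℓ hℓM hmem hgen A hA T hS0 hS1 hs0 peel0 peel1) T.r (rmem0 n e ℓ hℓM hmem hgen A hA T hS0 hS1 hs0 peel0 peel1) (r1_0 n e ℓ hℓM hmem hgen A hA T hS0 hS1 hs0 peel0 peel1) Q hQ hf hPQ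

/-- **(Da), uniqueness**: a chart function `u` with `ord_Q (red u) = 1` and a zero `P` in the
disc of `Q`: the zero is simple and is the only one in the disc. -/
theorem ord_eq_of_ord_red_eq_one0 (u : ↥T.S0.B) (hgood : Q.ord (T.S0.red u) = 1)
    {P : Place Qb (X0.FF M)} (hPQ : T.r P = Q) (hpos : 0 < P.ord (u : X0.FF M)) :
    P.ord (u : X0.FF M) = 1 ∧ ∀ P', T.r P' = Q → P' ≠ P → P'.ord (u : X0.FF M) = 0 :=
  ord_eq_of_ord_red_eq_one T.S0 T.r (rmem0 n e ℓ hℓM hmem hgen A hA T hS0 hS1 hs0 peel0 peel1) finDiv (r2_0 n e ℓ hℓM hmem hgen A hA T hS0 hS1 hs0 peel0 peel1) Q hQ u hgood hPQ hpos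

/-- **(Da)**: a chart function `u` with `ord_Q (red u) = 1` has exactly one zero in the disc
of `Q`. -/
theorem existsUnique_zero0 (u : ↥T.S0.B) (hgood : Q.ord (T.S0.red u) = 1) :
    ∃! P, T.r P = Q ∧ 0 < P.ord (u : X0.FF M) :=
  existsUnique_zero T.S0 T.r (rmem0 n e ℓ hℓM hmem hgen A hA T hS0 hS1 hs0 peel0 peel1) finDiv (r2_0 n e ℓ hℓM hmem hgen A hA T hS0 hS1 hs0 peel0 peel1) Q hQ u hgood

/-- **(Dc) for the two-chart model at a GOOD place `Q`**: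
`f = u · ∏_{P ∈ W} (t - t(P)) ^ ord_P f`, `u ∈ C_Qˣ`. -/
theorem exists_unit_mul_prod_sub0 (f : X0.FF M) (hf : IsFrac T.S0 f)
    (W : Finset (Place Qb (X0.FF M))) (hWQ : ∀ P ∈ W, T.r P = Q)
    (hW : ∀ P, T.r P = Q → P.ord f ≠ 0 → P ∈ W)
    (val : Place Qb (X0.FF M) → ↥A)
    (hval : ∀ P ∈ W, 0 < P.ord (T.S0.s - algebraMap Qb (X0.FF M) (val P : Qb)))
    (hgood : ∀ P ∈ W, Q.ord (T.S0.red (subConst T.S0 (val P))) = 1) :
    ∃ u : X0.FF M, u ∈ locAt T.S0 Q ∧ u⁻¹ ∈ locAt T.S0 Q ∧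
      f = u * ∏ P ∈ W, (T.S0.s - algebraMap Qb (X0.FF M) (val P : Qb)) ^ P.ord f :=
  exists_unit_mul_prod_sub T.S0 (gent0 n e ℓ hℓM hmem hgen A hA T hS0 hS1 hs0 peel0 peel1) T.r (rmem0 n e ℓ hℓM hmem hgen A hA T hS0 hS1 hs0 peel0 peel1) (r1_0 n e ℓ hℓM hmem hgen A hA T hS0 hS1 hs0 peel0 peel1) peel0 finDiv
    (r2_0 n e ℓ hℓM hmem hgen A hA T hS0 hS1 hs0 peel0 peel1) Q hQ f hf W hWQ hW val hval hgood

/-- **division in `C_Q`** by a local equation `u` (`ord_Q (red u) = 1`, `u(P) = 0`). -/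
theorem exists_eq_mul_of_value_eq_zero0 (u : ↥T.S0.B) (hgood : Q.ord (T.S0.red u) = 1)
    {P : Place Qb (X0.FF M)} (hPQ : T.r P = Q) (hpos : 0 < P.ord (u : X0.FF M))
    (f : ↥(locAt T.S0 Q))
    (hf : evLoc T.S0 (gent0 n e ℓ hℓM hmem hgen A hA T hS0 hS1 hs0 peel0 peel1) T.r (rmem0 n e ℓ hℓM hmem hgen A hA T hS0 hS1 hs0 peel0 peel1) (r1_0 n e ℓ hℓM hmem hgen A hA T hS0 hS1 hs0 peel0 peel1) Q hQ hPQ f = 0) :
    ∃ g ∈ locAt T.S0 Q, (f : X0.FF M) = (u : X0.FF M) * g :=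
  exists_eq_mul_of_evLoc_eq_zero T.S0 (gent0 n e ℓ hℓM hmem hgen A hA T hS0 hS1 hs0 peel0 peel1) T.r (rmem0 n e ℓ hℓM hmem hgen A hA T hS0 hS1 hs0 peel0 peel1) (r1_0 n e ℓ hℓM hmem hgen A hA T hS0 hS1 hs0 peel0 peel1) peel0 finDiv
    (r2_0 n e ℓ hℓM hmem hgen A hA T hS0 hS1 hs0 peel0 peel1) Q hQ u hgood hPQ hpos f hf

end Fermat.Agent.ES.V19.DiscFinal22
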