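/-
Programme V (S19), GEOMETRY JOIN (helper3, coordinator; helper23's assembly plan J1–J8):
**THE INSTANCE — one name for every term at which the abstract contexts are instantiated.**

PARAMETERS of the instance (copy this `variable` block verbatim):
  `(n e M : ℕ) [NeZero n] [NeZero M] (ℓ : ℕ) [Fact ℓ.Prime] (hℓM : ¬ ℓ ∣ M)`
  `(hb : BaseHyp n e) (hnM : n ∣ M) (A : ValuationSubring Qbar) (hA : A.LiesOverPrime ℓ)`
(a Hauptmodul base `(n, e)`, a level `M` with `n ∣ M`, a prime `ℓ ∤ M`, `A ≤ ℚ̄` over `ℓ`).  The level of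
S19 is `M = auxLevel ℓ N`; `of_auxLevel` specialises a statement proved for all such `M`.

CARRIERS (all are `abbrev`s of the same types, no coercion is needed between them):
  `Qbar = Kbar = AlgebraicClosure ℚ`;
  `F  := ↥(Fbar M) = X0.FF M = ↥(modularFunctionFieldBar M) = ↥(laurentBaseChange Qbar (modularFunctionFieldFull M))`;
  `k̄  := kA A = IsLocalRing.ResidueField ↥A`, `resA A = IsLocalRing.residue ↥A`;
  `F̃  := Ft M A = ↥(modularFunctionFieldFullC (kA A) M)`.

NAMES: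
* `hmemV`, `hgenbV`, `cvV`, `hcvV`                       : the arguments of main's `twoCharts_final`;
* `tV = tF M _` (generator of `F`), `hxV : IsGen Qbar tV`; `tResV = t̃` (generator of `F̃`),
  `hxtV : IsGen (kA A) tResV`, `sepV`;
* **`TV … : TwoCharts A hxV (Ft M A)`** = `ModelInstFinal4.twoCharts_final …` (`TV_eq`, by `rfl`);
  `rV := (TV …).r` THE reduction map;
* the standard bundle of `ES/TOP/SPFinal21`: `hS0V hS1V : CoeffChart`, `hs0V : (TV …).S0.s = tV` (`rfl`),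
  `peel0V`, `peel1V`; `inputs0V inputs1V : RedMain15.ChartInputs`; `red_sB_V : t̄ = t̃`;
* `hrV : IsPlaceReductionModL A M (TV …).r`, `hgenV : PrincipalGeneratedByIntegral …`,
  `redPic0V := reductionPic0Along (TV …).r hrV hgenV` (THE reduction on `Pic⁰`; do NOT use the Prelude's
  `reductionAlong`, whose place map is an anonymous `Exists.choose`);
* `isAlgClosed_kA`, `charP_kA`;
* "`A`-integral" (RULING 3): `GqV`, `redqV` (the honest `q`-integral ring `gaussRingN`, `gaussRedN`),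
  **`GV := gaussInt (TV …).S0.B (TV …).S0.red`**, **`gredV := rho …`** (fractions of the CHART ring; equal
  to the fractions of `GqV` by helper15's `RedCtxInst15.gaussInt_chart_eq`), `B0_le_GqV`, `redqV_eq`;
* **`DiscExitV`** : the exit literal of (B3) at the instance (join step J2).

PERFORMANCE (helper10): in every file which mentions `Place (kA A) (Ft M A)` put
  `attribute [local instance 5000] HahnSeries.powerSeriesAlgebra SubalgebraClass.toAlgebra`
  `set_option synthInstance.maxHeartbeats 400000`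
(this file: 64 s → 10 s; the elaborated terms are IDENTICAL, checked with `pp.all`).
-/
import Mathlib
import Fermat.Agent.ES.RED.ModelInstFinal4
import Fermat.Agent.ES.RED.RedInst15
import Fermat.Agent.ES.RED.GaussUnit25
import Fermat.Agent.ES.KRON.KronInst10
import Fermat.Agent.ES.TOP.AuxBase8
import Fermat.Agent.ES.V19.GaussFrac15
import Fermat.Agent.ES.V19.DiscIface3

set_option autoImplicit false
set_option synthInstance.maxHeartbeats 400000
set_option linter.unusedSectionVars false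

open HahnSeries ModularCurve AlgebraicCurve
open scoped MatrixGroups

noncomputable section

namespace Fermat.Agent.ES.V19.InstNames3

open Fermat.Agent.RED.Interface4 Fermat.Agent.RED.BASE.Interface12 Fermat.Agent.RED.BASE.Hauptmodul12
  Fermat.Agent.RED.BASE.MainCusp12 Fermat.Agent.RED.BASE.EtaQuot12
  Fermat.Agent.ES.RED.Contract8 Fermat.Agent.ES.RED.TwoCharts8 Fermat.Agent.ES.RED.ModelInst4
  Fermat.Agent.ES.RED.ModelInstFinal4 Fermat.Agent.ES.RED.SpecialGen25 Fermat.Agent.ES.RED.SpecialInv25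
  Fermat.Agent.ES.RED.RedMain15 Fermat.Agent.ES.RED.RedCharts15 Fermat.Agent.ES.RED.GaussRing15
  Fermat.Agent.ES.RED.GaloisInst21 Fermat.Agent.X0 Fermat.Agent.X0.FF
  Fermat.Agent.ES.V19.GaussFrac15 Fermat.Agent.ES.V19.DiscIface3

attribute [local instance 5000] HahnSeries.powerSeriesAlgebra SubalgebraClass.toAlgebra

variable (n e M : ℕ) [NeZero n] [NeZero M] (ℓ : ℕ) [Fact ℓ.Prime] (hℓM : ¬ ℓ ∣ M)
  (hb : BaseHyp n e) (hnM : n ∣ M) (A : ValuationSubring Qbar) (hA : A.LiesOverPrime ℓ)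

/-! ### the arguments of `twoCharts_final` -/

include hb hnM in
/-- `t = t_{n,e}` is a modular function of level `M`. -/
theorem hmemV : TMem n e M := tMem_of_dvd hb hnM

include hb in
/-- `ℚ̄(t) = ` the function field of the base level. -/
theorem hgenbV : TGenBase n e := tGenBase' hb

/-- the cusp values of `t`. -/
abbrev cvV : SL(2, ℤ) → Option Kbar := Fermat.Agent.RED.BASE.CuspExpMain11.cvT n e M

include hb hnM in
theorem hcvV : CuspExports n e M (cvV n e M) := by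
  have h4 : n = 4 ∧ e = 8 ∨ n = 9 ∧ e = 3 := by
    have hexp := hb.exp
    rcases hb.four_or_nine with h4 | h9
    · have h2 : 2 ∣ n := dvd_trans (by norm_num) h4
      rcases hb.sq 2 h2 with h | h | h
      · omega
      · omega
      · have hn : n = 4 := by omega
        subst hn
        exact Or.inl ⟨rfl, by omega⟩
    · have h3 : 3 ∣ n := dvd_trans (by norm_num) h9
      rcases hb.sq 3 h3 with h | h | h
      · omega
      · omega
      · have hn : n = 9 := by omega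
        subst hn
        exact Or.inr ⟨rfl, by omega⟩
  rcases h4 with ⟨rfl, rfl⟩ | ⟨rfl, rfl⟩
  · exact cuspExports_four M hnM
  · exact cuspExports_nine M hnM

/-! ### generators -/

/-- THE generator `t` of `F / ℚ̄`. -/
abbrev tV : ↥(Fbar M) := tF M (tMem_of_dvd hb hnM)

theorem hxV : IsGen Qbar (tV n e M hb hnM) := isGen_tF n e M (tMem_of_dvd hb hnM)

/-- THE generator `t̃` of `F̃ / k̄`. -/
abbrev tResV : Ft M A := tRes n e M ℓ hℓM (tMem_of_dvd hb hnM) (tGenBase' hb) A hA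

theorem hxtV : IsGen (kA A) (tResV n e M ℓ hℓM hb hnM A hA) :=
  isGen_tRes n e M ℓ hℓM (tMem_of_dvd hb hnM) (tGenBase' hb) A hA

/-! ### the two-chart model -/

/-- **THE two-chart model of the instance.** -/
def TV : TwoCharts A (isGen_tF n e M (tMem_of_dvd hb hnM)) (Ft M A) :=
  twoCharts_final n e M ℓ hℓM (tMem_of_dvd hb hnM) (tGenBase' hb) A hA hb hnM (cvV n e M)
    (hcvV n e M hb hnM)

theorem TV_eq : TV n e M ℓ hℓM hb hnM A hA =
    twoCharts_final n e M ℓ hℓM (tMem_of_dvd hb hnM) (tGenBase' hb) A hA hb hnM (cvV n e M)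
      (hcvV n e M hb hnM) := rfl

theorem TV_S0 : (TV n e M ℓ hℓM hb hnM A hA).S0 =
    S0f n e M ℓ hℓM (tMem_of_dvd hb hnM) (tGenBase' hb) A hA := rfl

theorem TV_S1 : (TV n e M ℓ hℓM hb hnM A hA).S1 =
    S1f n e M ℓ hℓM (tMem_of_dvd hb hnM) (tGenBase' hb) A hA := rfl

/-- THE reduction map on places. -/
abbrev rV : Place Qbar ↥(Fbar M) → Place (kA A) (Ft M A) := (TV n e M ℓ hℓM hb hnM A hA).r

/-! ### the standard bundle (`ES/TOP/SPFinal21`) -/

theorem hS0V : CoeffChart (F₀ := modularFunctionFieldFull M) (TV n e M ℓ hℓM hb hnM A hA).S0 :=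
  coeffChart0_final n e M ℓ hℓM (tMem_of_dvd hb hnM) (tGenBase' hb) A hA

theorem hS1V : CoeffChart (F₀ := modularFunctionFieldFull M) (TV n e M ℓ hℓM hb hnM A hA).S1 :=
  coeffChart1_final n e M ℓ hℓM (tMem_of_dvd hb hnM) (tGenBase' hb) A hA

theorem hs0V : (TV n e M ℓ hℓM hb hnM A hA).S0.s = tV n e M hb hnM := rfl

theorem hs1V : (TV n e M ℓ hℓM hb hnM A hA).S1.s = (tV n e M hb hnM)⁻¹ := rfl

theorem peel0V (P : Place Qbar ↥(Fbar M)) (hP : (TV n e M ℓ hℓM hb hnM A hA).S0.InChart P) :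
    (TV n e M ℓ hℓM hb hnM A hA).S0.PeelA P hP :=
  peelA0_final n e M ℓ hℓM (tMem_of_dvd hb hnM) (tGenBase' hb) A hA hb hnM (cvV n e M)
    (hcvV n e M hb hnM) P hP

theorem peel1V (P : Place Qbar ↥(Fbar M)) (hP : (TV n e M ℓ hℓM hb hnM A hA).S1.InChart P) :
    (TV n e M ℓ hℓM hb hnM A hA).S1.PeelA P hP :=
  peelA1_final n e M ℓ hℓM (tMem_of_dvd hb hnM) (tGenBase' hb) A hA hb hnM (cvV n e M)
    (hcvV n e M hb hnM) P hP

theorem inputs0V : ChartInputs A M (TV n e M ℓ hℓM hb hnM A hA).S0 :=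
  (Fermat.Agent.ES.RED.RedInst15.chartInputs_both n e M ℓ hℓM (tMem_of_dvd hb hnM) (tGenBase' hb)
    A hA (TV n e M ℓ hℓM hb hnM A hA) (hS0V n e M ℓ hℓM hb hnM A hA) (hS1V n e M ℓ hℓM hb hnM A hA)
    (hs0V n e M ℓ hℓM hb hnM A hA) (peel0V n e M ℓ hℓM hb hnM A hA)
    (peel1V n e M ℓ hℓM hb hnM A hA)).1

theorem inputs1V : ChartInputs A M (TV n e M ℓ hℓM hb hnM A hA).S1 :=
  (Fermat.Agent.ES.RED.RedInst15.chartInputs_both n e M ℓ hℓM (tMem_of_dvd hb hnM) (tGenBase' hb)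
    A hA (TV n e M ℓ hℓM hb hnM A hA) (hS0V n e M ℓ hℓM hb hnM A hA) (hS1V n e M ℓ hℓM hb hnM A hA)
    (hs0V n e M ℓ hℓM hb hnM A hA) (peel0V n e M ℓ hℓM hb hnM A hA)
    (peel1V n e M ℓ hℓM hb hnM A hA)).2

/-- the reduced coordinate of chart 0 is `t̃`. -/
theorem red_sB_V : (TV n e M ℓ hℓM hb hnM A hA).S0.red (TV n e M ℓ hℓM hb hnM A hA).S0.sB =
    tResV n e M ℓ hℓM hb hnM A hA :=
  Fermat.Agent.ES.RED.RedInst15.red_sB_eq_tRes n e M ℓ hℓM (tMem_of_dvd hb hnM) (tGenBase' hb) A hA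
    (TV n e M ℓ hℓM hb hnM A hA).S0 (hS0V n e M ℓ hℓM hb hnM A hA) (hs0V n e M ℓ hℓM hb hnM A hA)

/-! ### the residue field -/

theorem isAlgClosed_kA : IsAlgClosed (kA A) :=
  Fermat.Agent.ES.KRON.KronInst10.isAlgClosed_residueField A

include hA in
theorem charP_kA : CharP (kA A) ℓ :=
  Fermat.Agent.ES.KRON.KronInst10.charP_residueField A (Fact.out : ℓ.Prime) hA

/-! ### reduction of places and of `Pic⁰` -/

/-- **(r1) + degrees**: `rV` is a place reduction in the sense of the Prelude. -/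
theorem hrV : IsPlaceReductionModL A M (rV n e M ℓ hℓM hb hnM A hA) :=
  Fermat.Agent.ES.RED.RedInst15.isPlaceReductionModL_main n e M ℓ hℓM (tMem_of_dvd hb hnM)
    (tGenBase' hb) A hA (TV n e M ℓ hℓM hb hnM A hA) (hS0V n e M ℓ hℓM hb hnM A hA)
    (hS1V n e M ℓ hℓM hb hnM A hA) (hs0V n e M ℓ hℓM hb hnM A hA) (peel0V n e M ℓ hℓM hb hnM A hA)
    (peel1V n e M ℓ hℓM hb hnM A hA)

include hℓM hA in
theorem hgenV : PrincipalGeneratedByIntegral A (IsLocalRing.residue ↥A) M :=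
  Fermat.Agent.ES.RED.GaussUnit25.principalGeneratedByIntegral A ℓ hA M hℓM

/-- THE reduction homomorphism `Pic⁰(X_M / ℚ̄) → Pic⁰(X̃_M / k̄)`. -/
def redPic0V : JZero M →+ JZeroC (kA A) M :=
  reductionPic0Along (rV n e M ℓ hℓM hb hnM A hA) (hrV n e M ℓ hℓM hb hnM A hA)
    (hgenV M ℓ hℓM A hA)

/-! ### `A`-integral functions (RULING 3) -/

/-- the honest `q`-integral ring `F ∩ A((q))` (only ever an INPUT). -/
abbrev GqV : Subring ↥(Fbar M) := gaussRingN A (resA A) M

/-- its reduction (coefficientwise). -/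
abbrev redqV : ↥(GqV M A) →+* Ft M A := gaussRedN A (resA A) M

theorem B0_le_GqV : (TV n e M ℓ hℓM hb hnM A hA).S0.B ≤ GqV M A :=
  (inputs0V n e M ℓ hℓM hb hnM A hA).compat.le_gaussRingN

theorem redqV_eq (b : ↥(TV n e M ℓ hℓM hb hnM A hA).S0.B) :
    redqV M A ⟨(b : ↥(Fbar M)), B0_le_GqV n e M ℓ hℓM hb hnM A hA b.2⟩ =
      (TV n e M ℓ hℓM hb hnM A hA).S0.red b :=
  (inputs0V n e M ℓ hℓM hb hnM A hA).compat.gaussRedN_eq (b : ↥(Fbar M)) b.2

/-- **THE ring of `A`-integral functions** (Gauss valuation ring): fractions `a / b` of chart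
elements with `b̄ ≠ 0`. -/
abbrev GV : Subring ↥(Fbar M) :=
  gaussInt (TV n e M ℓ hℓM hb hnM A hA).S0.B (TV n e M ℓ hℓM hb hnM A hA).S0.red

/-- **THE reduction `f ↦ f̄`** of `A`-integral functions. -/
abbrev gredV : ↥(GV n e M ℓ hℓM hb hnM A hA) →+* Ft M A :=
  rho (TV n e M ℓ hℓM hb hnM A hA).S0.B (TV n e M ℓ hℓM hb hnM A hA).S0.red

/-! ### the exit literal of (B3) at the instance (J2) -/

/-- **J2**: the four disc lemmas at every GOOD `(Q, c)` of the instance. -/
def DiscExitV : Prop :=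
  DiscExit (TV n e M ℓ hℓM hb hnM A hA) (GV n e M ℓ hℓM hb hnM A hA)
    (gredV n e M ℓ hℓM hb hnM A hA)

/-! ### the level of S19 -/

omit [NeZero n] [NeZero M] [Fact ℓ.Prime] in
/-- a statement proved at every level `M` of the instance holds at `M = auxLevel ℓ N` (`ℓ ∤ N`). -/
theorem of_auxLevel {ℓ N : ℕ} (hℓ : ℓ.Prime) (hN : N ≠ 0) (hℓN : ¬ ℓ ∣ N) (C : ℕ → Prop)
    (h : ∀ (n e : ℕ) [NeZero n], BaseHyp n e → ∀ M : ℕ, M ≠ 0 → n ∣ M → N ∣ M → ¬ ℓ ∣ M → C M) :
    C (auxLevel ℓ N) :=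
  Fermat.Agent.ES.TOP.AuxBase8.of_base hℓ hN hℓN C h

end Fermat.Agent.ES.V19.InstNames3
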