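/-
Programme V (S19), chapter (B3) / join step **J2 — CLOSED** (helper3):
**the exit literal `DiscIface3.DiscExit` of (B3) at main's two-chart model.**

* `discExit_main` : for every two-chart model `T` in the parametrisation of `ES/RED/RedInst15` /
  `ES/TOP/SPFinal21` (coefficientwise charts with coordinate `T.S0.s = tF M hmem`, (PEEL-a)):
  `DiscExit T (gaussInt T.S0.B T.S0.red) (rho T.S0.B T.S0.red)`;
  (Da), (Db), (Dc) = helper22's `DiscExit22.da / db / dc` (with `DiscFinal22.finDiv`, `r2_0`),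
  (Dd) = `DiscAsm3.dd_of_da` (main's (PEEL-a));
* **`discExitV : InstNames3.DiscExitV n e M ℓ hℓM hb hnM A hA`** : THE instance.
-/
import Mathlib
import Fermat.Agent.ES.V19.InstNames3
import Fermat.Agent.ES.V19.DiscAsm3
import Fermat.Agent.ES.V19.DiscExit22
import Fermat.Agent.ES.V19.DiscFinal22

set_option autoImplicit false
set_option linter.unusedSectionVars false
set_option linter.style.haveILetI false
set_option synthInstance.maxHeartbeats 400000

noncomputable section

open AlgebraicCurve ModularCurve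

namespace Fermat.Agent.ES.V19.DiscExitInst3

open Fermat.Agent.ES.RED.Contract8 Fermat.Agent.ES.RED.TwoCharts8 Fermat.Agent.ES.RED.GaloisInst21
open Fermat.Agent.X0 Fermat.Agent.X0.FF Fermat.Agent.RED.Interface4 Fermat.Agent.RED.BASE
open Fermat.Agent.RED.BASE.Hauptmodul12
open Fermat.Agent.ES.V19.DiscIface3 Fermat.Agent.ES.V19.GaussFrac15 Fermat.Agent.ES.V19.InstNames3

-- speed only: the synthesized instance terms are unchanged (checked with `pp.all`)
attribute [local instance 5000] HahnSeries.powerSeriesAlgebra SubalgebraClass.toAlgebra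

section General

variable {M : ℕ} [NeZero M] (n e : ℕ) [NeZero n]
  (ℓ : ℕ) [Fact ℓ.Prime] (hℓM : ¬ ℓ ∣ M)
  (hmem : Interface12.TMem n e M) (hgen : Interface12.TGenBase n e)
  (A : ValuationSubring Qbar) (hA : A.LiesOverPrime ℓ)
  {x : X0.FF M} {hx : IsGen Qbar x}
  (T : TwoCharts A hx ↥(modularFunctionFieldFullC (kA A) M))
  (hS0 : CoeffChart (F₀ := modularFunctionFieldFull M) T.S0)
  (hS1 : CoeffChart (F₀ := modularFunctionFieldFull M) T.S1)
  (hs0 : T.S0.s = Interface12.tF M hmem)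
  (peel0 : ∀ (P : Place Qbar (X0.FF M)) (hP : T.S0.InChart P), T.S0.PeelA P hP)
  (peel1 : ∀ (P : Place Qbar (X0.FF M)) (hP : T.S1.InChart P), T.S1.PeelA P hP)

include hℓM hgen hA hS0 hS1 hs0 peel0 peel1 in
/-- **(B3) exit literal for every two-chart model of the `SPFinal21` kind.** -/
theorem discExit_main :
    DiscExit T (gaussInt T.S0.B T.S0.red) (rho T.S0.B T.S0.red) := by
  haveI : IsAlgClosed (kA A) := Fermat.Agent.ES.KRON.KronInst10.isAlgClosed_residueField A
  have hxt := DiscFinal22.gent0 n e ℓ hℓM hmem hgen A hA T hS0 hS1 hs0 peel0 peel1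
  have hR2 := DiscFinal22.r2_0 n e ℓ hℓM hmem hgen A hA T hS0 hS1 hs0 peel0 peel1
  refine DiscAsm3.discExit_of T hxt _ _ ?_ ?_ ?_ peel0
  · intro Q c hg
    exact DiscExit22.da hxt T (DiscFinal22.finDiv (M := M)) hR2 Q c hg
  · intro Q c hg
    exact DiscExit22.db hxt T peel0 (DiscFinal22.finDiv (M := M)) hR2 Q c T.S0.B T.S0.red le_rfl
      (fun _ _ => rfl) hg
  · intro Q c hg
    exact DiscExit22.dc hxt T peel0 (DiscFinal22.finDiv (M := M)) hR2 Q c T.S0.B T.S0.red le_rfl
      (fun _ _ => rfl) hg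

end General

variable (n e M : ℕ) [NeZero n] [NeZero M] (ℓ : ℕ) [Fact ℓ.Prime] (hℓM : ¬ ℓ ∣ M)
  (hb : BaseHyp n e) (hnM : n ∣ M) (A : ValuationSubring Qbar) (hA : A.LiesOverPrime ℓ)

/-- **J2: the exit literal of (B3) at THE instance.** -/
theorem discExitV : DiscExitV n e M ℓ hℓM hb hnM A hA :=
  discExit_main n e ℓ hℓM (tMem_of_dvd hb hnM) (tGenBase' hb) A hA (TV n e M ℓ hℓM hb hnM A hA)
    (hS0V n e M ℓ hℓM hb hnM A hA) (hS1V n e M ℓ hℓM hb hnM A hA) (hs0V n e M ℓ hℓM hb hnM A hA)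
    (peel0V n e M ℓ hℓM hb hnM A hA) (peel1V n e M ℓ hℓM hb hnM A hA)

end Fermat.Agent.ES.V19.DiscExitInst3
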