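/-
Programme V (S19), chapter B4′, brick (Lc), part 1 (helper25):
**AGREEMENT of the two expansion notions.**

* helper3's integral expansion along a section (`TaylorSec3.taylor h : C →ₐ[R] R⟦X⟧`,
  `LaurentSec3.laurent S h : C[1/τ] →+* R((X))`, `h : SecDatum ev τ`), and
* helper9's field-theoretic expansion at a place of degree one
  (`ExpandPlace9.expandF hres ht : F →+* K((X))`, `ht : v.ord t = 1`)

AGREE as soon as the two situations are compatible (`Compat φ ι v t τ`): `φ : R →+* K` on the
coefficients, `ι : C →+* F` on the functions, with `ι ∘ algebraMap = algebraMap ∘ φ`, `ι τ = t` and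
`ι C ⊆ O_v`.  Then

* `expandO_eq_map_taylor` : `expandO hres ht ⟨ι c, _⟩ = PowerSeries.map φ (taylor h c)`;
* `expandF_eq_map_taylor` : `expandF hres ht (ι c) = ofPowerSeries (PowerSeries.map φ (taylor h c))`;
* **`expandF_eq_coeffMap_laurent`** : for `S = C[1/τ]` and `ιS : S →+* F` extending `ι`:
  `expandF hres ht (ιS s) = ModularCurve.coeffMap φ (laurent S h s)`;
* `coeff_expandF_eq` : the same, coefficientwise.

Applies to the generic fibre (`R = A ⊂ K = Q̄`, `C = C_Q̄`, `φ = A.subtype`) and to the special
fibre (`R = K = k̄`, `φ = id`).  Also: a `SecDatum` is an `IsUnif` of `TaylorAbs9` and the two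
abstract Taylor expansions coincide (`expand_eq_taylor`).
-/
import Mathlib
import Fermat.Prelude.Def_ModularCurve_LaurentCoeff
import Fermat.Agent.ES.V19.LaurentSec3
import Fermat.Agent.ES.V19.ExpandPlace9

set_option autoImplicit false

open AlgebraicCurve

noncomputable section

namespace Fermat.Agent.ES.V19.ExpAgree25

open Fermat.Agent.X0.FF Fermat.Agent.ES.V19.TaylorSec3 Fermat.Agent.ES.V19.LaurentSec3
  Fermat.Agent.ES.V19.TaylorAbs9 Fermat.Agent.ES.V19.ExpandPlace9

/-! ### `SecDatum` versus `IsUnif` -/

section Abstract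

variable {R C : Type*} [CommRing R] [CommRing C] [Algebra R C] {ev : C →ₐ[R] R} {τ : C}

/-- a `SecDatum` of `TaylorSec3` is an `IsUnif` of `TaylorAbs9`. -/
theorem isUnif_of_secDatum (h : SecDatum ev τ) : IsUnif R τ where
  reg := by
    intro a b hab
    have h1 : τ * (a - b) = 0 := by rw [mul_sub, hab, sub_self]
    exact sub_eq_zero.mp (h.reg _ h1)
  surj := fun c => ⟨ev c, shift h c, eq_add_tau_mul_shift h c⟩
  inj := by
    intro r b hrb
    have := congrArg ev hrb
    rwa [AlgHom.commutes, Algebra.algebraMap_self_apply, map_mul, h.ev_tau, zero_mul] at this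

theorem res_eq_ev (h : SecDatum ev τ) (c : C) : res (isUnif_of_secDatum h) c = ev c :=
  (res_step_unique (isUnif_of_secDatum h) (eq_add_tau_mul_shift h c)).1

theorem step_eq_shift (h : SecDatum ev τ) : step (isUnif_of_secDatum h) = shift h :=
  funext fun c => (res_step_unique (isUnif_of_secDatum h) (eq_add_tau_mul_shift h c)).2

/-- the two abstract Taylor expansions coincide. -/
theorem expand_eq_taylor (h : SecDatum ev τ) (c : C) :
    expand (isUnif_of_secDatum h) c = taylor h c := by
  ext n
  rw [coeff_expand, coeff_taylor, res_eq_ev h, step_eq_shift h]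

/-- `coeffMap` of a power series. -/
theorem coeffMap_ofPowerSeries {R' : Type*} [CommRing R'] (φ : R →+* R') (p : PowerSeries R) :
    ModularCurve.coeffMap φ (HahnSeries.ofPowerSeries ℤ R p) =
      HahnSeries.ofPowerSeries ℤ R' (PowerSeries.map φ p) := by
  ext k
  rw [ModularCurve.coeffMap_coeff]
  have h1 := PowerSeries.coeff_coe p k
  have h2 := PowerSeries.coeff_coe (PowerSeries.map φ p) k
  rw [h1, h2]
  split_ifs
  · exact map_zero φ
  · rw [PowerSeries.coeff_map]

end Abstract

/-! ### the agreement -/

section Agree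

variable {K F : Type*} [Field K] [Field F] [Algebra K F]
variable {R C : Type*} [CommRing R] [CommRing C] [Algebra R C] {ev : C →ₐ[R] R} {τ : C}

/-- compatibility of an integral situation `(R, C, τ)` with a place `v` of degree one of `F / K`
and a uniformiser `t`. -/
structure Compat (φ : R →+* K) (ι : C →+* F) (v : Place K F) (t : F) (τ : C) : Prop where
  map_algebraMap : ∀ r : R, ι (algebraMap R C r) = algebraMap K F (φ r)
  map_tau : ι τ = t
  mem : ∀ c : C, ι c ∈ v.toValuationSubring

variable {φ : R →+* K} {ι : C →+* F} {v : Place K F} {t : F}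

/-- `ι` with values in the valuation ring of `v`. -/
def toO (hc : Compat φ ι v t τ) : C →+* ↥v.toValuationSubring :=
  ι.codRestrict v.toValuationSubring.toSubring hc.mem

theorem coe_toO (hc : Compat φ ι v t τ) (c : C) :
    ((toO hc c : ↥v.toValuationSubring) : F) = ι c := rfl

/-- **agreement on the valuation ring.** -/
theorem expandO_eq_map_taylor (hc : Compat φ ι v t τ) (hres : ResK v) (ht : v.ord t = 1)
    (h : SecDatum ev τ) (c : C) :
    expandO hres ht (toO hc c) = PowerSeries.map φ (taylor h c) := by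
  rw [← expand_eq_taylor h c]
  refine expand_map (isUnif_of_secDatum h) (ExpandPlace9.isUnif hres ht) φ (toO hc) ?_ ?_ c
  · intro r
    apply Subtype.ext
    rw [coe_toO, hc.map_algebraMap, v.coe_algebraMap]
  · apply Subtype.ext
    rw [coe_toO, hc.map_tau, coe_tO]

/-- **agreement of the Taylor expansions.** -/
theorem expandF_eq_map_taylor (hc : Compat φ ι v t τ) (hres : ResK v) (ht : v.ord t = 1)
    (h : SecDatum ev τ) (c : C) :
    expandF hres ht (ι c) = HahnSeries.ofPowerSeries ℤ K (PowerSeries.map φ (taylor h c)) := by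
  rw [← expandO_eq_map_taylor hc hres ht h c]
  exact expandF_coe hres ht (toO hc c)

/-- the same, with `coeffMap`. -/
theorem expandF_eq_coeffMap_taylor (hc : Compat φ ι v t τ) (hres : ResK v) (ht : v.ord t = 1)
    (h : SecDatum ev τ) (c : C) :
    expandF hres ht (ι c) =
      ModularCurve.coeffMap φ (HahnSeries.ofPowerSeries ℤ R (taylor h c)) := by
  rw [coeffMap_ofPowerSeries, expandF_eq_map_taylor hc hres ht h c]

variable (S : Type*) [CommRing S] [Algebra C S] [IsLocalization.Away τ S]

/-- **AGREEMENT of the Laurent expansions** on `S = C[1/τ]`. -/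
theorem expandF_eq_coeffMap_laurent (hc : Compat φ ι v t τ) (hres : ResK v) (ht : v.ord t = 1)
    (h : SecDatum ev τ) (ιS : S →+* F) (hιS : ∀ c : C, ιS (algebraMap C S c) = ι c) (s : S) :
    expandF hres ht (ιS s) = ModularCurve.coeffMap φ (laurent S h s) := by
  obtain ⟨n, c, e⟩ := exists_mul_pow_eq (τ := τ) S s
  -- `laurent s * X^n = taylor c`
  have h1 := congrArg (ModularCurve.coeffMap φ) (laurent_mul_pow S h e)
  rw [map_mul, coeffMap_ofPowerSeries, coeffMap_ofPowerSeries, map_pow, PowerSeries.map_X] at h1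
  -- `expandF s * X^n = expandF c`
  have h2 : expandF hres ht (ιS s) * HahnSeries.ofPowerSeries ℤ K (PowerSeries.X ^ n) =
      HahnSeries.ofPowerSeries ℤ K (PowerSeries.map φ (taylor h c)) := by
    have e1 : ι c = ιS s * t ^ n := by
      rw [← hιS c, ← e, map_mul, map_pow, hιS, hc.map_tau]
    have e2 : HahnSeries.ofPowerSeries ℤ K ((PowerSeries.X : PowerSeries K) ^ n) =
        expandF hres ht (t ^ n) := by
      rw [map_pow, map_pow, expandF_unif, HahnSeries.ofPowerSeries_X]
    rw [← expandF_eq_map_taylor hc hres ht h c, e1, map_mul, e2]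
  have h3 : (expandF hres ht (ιS s) - ModularCurve.coeffMap φ (laurent S h s)) *
      HahnSeries.ofPowerSeries ℤ K (PowerSeries.X ^ n) = 0 := by
    rw [sub_mul, h1, h2, sub_self]
  exact sub_eq_zero.mp (ofPowerSeries_X_pow_ne n _ h3)

/-- the agreement, coefficientwise. -/
theorem coeff_expandF_eq (hc : Compat φ ι v t τ) (hres : ResK v) (ht : v.ord t = 1)
    (h : SecDatum ev τ) (ιS : S →+* F) (hιS : ∀ c : C, ιS (algebraMap C S c) = ι c) (s : S)
    (k : ℤ) :
    (expandF hres ht (ιS s)).coeff k = φ ((laurent S h s).coeff k) := by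
  rw [expandF_eq_coeffMap_laurent S hc hres ht h ιS hιS s, ModularCurve.coeffMap_coeff]

end Agree

end Fermat.Agent.ES.V19.ExpAgree25
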