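/-
Programme V (S19), chapter B4′, brick (Lc), part 2 (helper25):
**the ring `B_a` of `A`-integral functions with poles only at the `Q_i`, and its Laurent expansion
`Exp : B_a →+* Lam g A`** (abstract form; `Lam g A = ∏_{i<g} A((t_i))` of `LaurentMap19`).

`L ⊇ A` a field with a valuation ring, `F / L` a function field, `Gi : Subring F` the ring of
`A`-integral functions (RULING 3: `Gi = GaussFrac15.gaussInt G red`).

A `LocDatum A Gi` is the local datum of chapter (B3) at ONE good point `Q̄` of the special fibre: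
* `C` an `A`-algebra with an injective `ι : C →+* F` (the local ring `CQ T Q̄ ⊂ F` of `DiscIface3`,
  with `algCQ`), `ι (algebraMap a) = algebraMap L F a`;
* `ev : C →ₐ[A] A`, `τ : C`, `sec : SecDatum ev τ` (`DiscTaylor3`: `Z.ev₀`, `tauC`, `Z.secDatum`);
* `Qpt : Place L F` the zero of `τ` (`Z.P₀`), of degree one (`resQ`), `ord_tau : ord_Qpt (ι τ) = 1`,
  `mem_Qpt : ι C ⊆ O_Qpt`;
* `disc : Set (Place L F)` the residue disc of `Q̄`, `Qpt ∈ disc`, `τ` regular on the disc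
  (`tau_nonneg`), `ι τ ∈ Gi` (`tau_mem`), and
* `db` = the disc lemma **(Db)**: `f ∈ Gi` regular on the disc `⇒ f ∈ ι C`.

For one datum `E`:  `Sloc E = C[1/τ] ⊂ F` (a `Subring F`, with `IsLocalization.Away E.τ`),
`lau E : Sloc E →+* LaurentSeries A` (`= LaurentSec3.laurent`), injective (`lau_injective`),
`mem_Sloc_of_regular_off` (`f ∈ Gi` with no pole on the disc except at `Qpt` lies in `Sloc E`),
and the AGREEMENT with helper9's `expandF` at `Qpt` (`coeffMap_lau`).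

For a family `D : Fin g → LocDatum A Gi` with `Sep D` (the discs are disjoint, constants of `A`
are integral):
* `Ba D : Subring F`            : `{f ∈ Gi | f ∈ O_v for every v ∉ {Q_i}}`;
* `Exp D hD : Ba D →+* Lam g A` : `f ↦ (lau (D i) f)_i`; `Exp_const`, `Exp_injective`;
* **`coeffMap_Exp`**            : `coeffMap A.subtype (Exp f i) = expandF (Q_i) (t_i) f`
  (so polar-part statements over `L` transfer verbatim to `Exp`); `coeff_Exp`, `mapLam_Exp`;
* `BaLam D hD : Subalgebra A (Lam g A)` : the image of `Exp` (the input of `BasisLift14`),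
  `baLam_const` : the `LiftHyp.const` clause from "`L(E₀) = L`".
-/
import Mathlib
import Fermat.Prelude.Def_ModularCurve_LaurentCoeff
import Fermat.Agent.X0.FFDict
import Fermat.Agent.ES.V19.LaurentMap19
import Fermat.Agent.ES.V19.ExpAgree25

set_option autoImplicit false

open AlgebraicCurve

noncomputable section

namespace Fermat.Agent.ES.V19.ExpBa25

open Fermat.Agent.X0.FF Fermat.Agent.ES.V19.TaylorSec3 Fermat.Agent.ES.V19.LaurentSec3
  Fermat.Agent.ES.V19.ExpandPlace9 Fermat.Agent.ES.V19.ExpAgree25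
open Fermat.Agent.ES.V19.LaurentMap19 (Lam mapLam)

universe uL uF uC

variable {L : Type uL} [Field L] {F : Type uF} [Field F] [Algebra L F]

/-- **The local datum at one good point** (see the file header). -/
structure LocDatum (A : ValuationSubring L) (Gi : Subring F) where
  /-- the local ring of the model at the point -/
  C : Type uC
  [ringC : CommRing C]
  [algC : Algebra ↥A C]
  /-- its inclusion into the function field -/
  ι : C →+* F
  ι_inj : Function.Injective ι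
  ι_const : ∀ a : ↥A, ι (algebraMap ↥A C a) = algebraMap L F (a : L)
  /-- the value at the centre -/
  ev : C →ₐ[↥A] ↥A
  /-- the local parameter -/
  τ : C
  sec : SecDatum ev τ
  /-- the centre: the zero of `τ` in the disc -/
  Qpt : Place L F
  resQ : ResK Qpt
  ord_tau : Qpt.ord (ι τ) = 1
  mem_Qpt : ∀ c : C, ι c ∈ Qpt.toValuationSubring
  /-- the residue disc -/
  disc : Set (Place L F)
  Qpt_mem : Qpt ∈ disc
  tau_nonneg : ∀ P ∈ disc, 0 ≤ P.ord (ι τ)
  tau_mem : ι τ ∈ Gi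
  db : ∀ f ∈ Gi, (∀ P ∈ disc, 0 ≤ P.ord f) → f ∈ Set.range ι

attribute [instance] LocDatum.ringC LocDatum.algC

variable {A : ValuationSubring L} {Gi : Subring F}

/-! ### one point -/

section One

variable (E : LocDatum.{uL, uF, uC} A Gi)

/-- the uniformiser `t = ι τ ∈ F`. -/
def LocDatum.t : F := E.ι E.τ

theorem LocDatum.ord_t : E.Qpt.ord E.t = 1 := E.ord_tau

theorem LocDatum.t_ne_zero : E.t ≠ 0 := unif_ne_zero E.ord_t

/-- the compatibility of `ExpAgree25`. -/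
theorem LocDatum.compat : Compat A.subtype E.ι E.Qpt E.t E.τ where
  map_algebraMap := E.ι_const
  map_tau := rfl
  mem := E.mem_Qpt

/-- **Krull**: an element of `C` divisible by all powers of `τ` vanishes. -/
theorem LocDatum.krull (c : E.C) (hc : ∀ n : ℕ, E.τ ^ n ∣ c) : c = 0 := by
  by_contra hc0
  have hcF : E.ι c ≠ 0 := fun h => hc0 (E.ι_inj (by rw [h, map_zero]))
  obtain ⟨n, hn⟩ : ∃ n : ℕ, n = (E.Qpt.ord (E.ι c)).toNat + 1 := ⟨_, rfl⟩
  obtain ⟨d, hd⟩ := hc n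
  have hdF : E.ι c = E.t ^ n * E.ι d := by
    rw [hd, map_mul, map_pow]
    rfl
  have hd0 : E.ι d ≠ 0 := by
    intro h0
    rw [h0, mul_zero] at hdF
    exact hcF hdF
  have h1 : E.Qpt.ord (E.ι c) = (n : ℤ) + E.Qpt.ord (E.ι d) := by
    conv_lhs => rw [hdF]
    rw [E.Qpt.ord_mul (pow_ne_zero _ E.t_ne_zero) hd0, ord_unif_pow E.ord_t]
  have h2 := ord_nonneg_of_mem E.Qpt (E.mem_Qpt d)
  have h3 := Int.self_le_toNat (E.Qpt.ord (E.ι c))
  have h4 : (n : ℤ) = ((E.Qpt.ord (E.ι c)).toNat : ℤ) + 1 := by rw [hn]; push_cast; rfl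
  omega

theorem LocDatum.taylor_injective : Function.Injective (taylor E.sec) :=
  TaylorSec3.taylor_injective E.sec E.krull

/-- **`C[1/τ]` inside `F`.** -/
def Sloc : Subring F where
  carrier := {f | ∃ (n : ℕ) (c : E.C), f * E.t ^ n = E.ι c}
  mul_mem' := by
    rintro f f' ⟨n, c, e⟩ ⟨n', c', e'⟩
    refine ⟨n + n', c * c', ?_⟩
    rw [map_mul, ← e, ← e', pow_add]
    ring
  one_mem' := ⟨0, 1, by rw [pow_zero, mul_one, map_one]⟩
  add_mem' := by
    rintro f f' ⟨n, c, e⟩ ⟨n', c', e'⟩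
    refine ⟨n + n', c * E.τ ^ n' + c' * E.τ ^ n, ?_⟩
    rw [map_add, map_mul, map_mul, map_pow, map_pow, ← e, ← e', pow_add]
    show _ = f * E.t ^ n * E.t ^ n' + f' * E.t ^ n' * E.t ^ n
    ring
  zero_mem' := ⟨0, 0, by rw [zero_mul, map_zero]⟩
  neg_mem' := by
    rintro f ⟨n, c, e⟩
    refine ⟨n, -c, ?_⟩
    rw [map_neg, ← e]
    ring

theorem mem_Sloc_iff (f : F) : f ∈ Sloc E ↔ ∃ (n : ℕ) (c : E.C), f * E.t ^ n = E.ι c := Iff.rfl

/-- `C → C[1/τ]`. -/
def toSloc : E.C →+* ↥(Sloc E) :=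
  E.ι.codRestrict (Sloc E) fun c => ⟨0, c, by rw [pow_zero, mul_one]⟩

instance instAlgebraSloc25 : Algebra E.C ↥(Sloc E) := (toSloc E).toAlgebra

@[simp] theorem coe_algebraMap_Sloc (c : E.C) :
    ((algebraMap E.C ↥(Sloc E) c : ↥(Sloc E)) : F) = E.ι c := rfl

theorem tinv_mem_Sloc : E.t⁻¹ ∈ Sloc E :=
  ⟨1, 1, by rw [pow_one, inv_mul_cancel₀ E.t_ne_zero, map_one]⟩

/-- `Sloc E` is the localization of `C` away from `τ`. -/
instance instIsLocalizationSloc25 : IsLocalization.Away E.τ ↥(Sloc E) := by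
  refine (isLocalization_iff _ _).mpr ⟨?_, ?_, ?_⟩
  · rintro ⟨_, n, rfl⟩
    rw [map_pow]
    refine IsUnit.pow n ?_
    refine ⟨⟨algebraMap E.C ↥(Sloc E) E.τ, ⟨E.t⁻¹, tinv_mem_Sloc E⟩, ?_, ?_⟩, rfl⟩
    · exact Subtype.ext (mul_inv_cancel₀ E.t_ne_zero)
    · exact Subtype.ext (inv_mul_cancel₀ E.t_ne_zero)
  · rintro ⟨f, n, c, e⟩
    refine ⟨(c, ⟨E.τ ^ n, n, rfl⟩), ?_⟩
    apply Subtype.ext
    show f * E.ι (E.τ ^ n) = E.ι c
    rw [map_pow]
    exact e
  · intro x y hxy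
    refine ⟨1, ?_⟩
    have : E.ι x = E.ι y := congrArg Subtype.val hxy
    rw [E.ι_inj this]

/-- **the Laurent expansion at the point**, on `C[1/τ]`. -/
def lau : ↥(Sloc E) →+* LaurentSeries ↥A := laurent ↥(Sloc E) E.sec

theorem lau_apply (s : ↥(Sloc E)) : lau E s = laurent ↥(Sloc E) E.sec s := rfl

theorem lau_injective : Function.Injective (lau E) :=
  laurent_injective ↥(Sloc E) E.sec E.taylor_injective

theorem lau_algebraMap (c : E.C) :
    lau E (algebraMap E.C ↥(Sloc E) c) = HahnSeries.ofPowerSeries ℤ ↥A (taylor E.sec c) :=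
  laurent_algebraMap ↥(Sloc E) E.sec c

/-- constants of `A` in `Sloc E`. -/
theorem const_mem_Sloc (a : ↥A) : algebraMap L F (a : L) ∈ Sloc E :=
  ⟨0, algebraMap ↥A E.C a, by rw [pow_zero, mul_one, E.ι_const]⟩

theorem lau_const (a : ↥A) : lau E ⟨algebraMap L F (a : L), const_mem_Sloc E a⟩ = HahnSeries.C a := by
  have h1 : (⟨algebraMap L F (a : L), const_mem_Sloc E a⟩ : ↥(Sloc E)) =
      algebraMap E.C ↥(Sloc E) (algebraMap ↥A E.C a) := Subtype.ext (E.ι_const a).symm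
  rw [h1, lau_algebraMap, AlgHom.commutes]
  exact HahnSeries.ofPowerSeries_C a

/-- `lau t = X`. -/
theorem lau_t : lau E (algebraMap E.C ↥(Sloc E) E.τ) = HahnSeries.single (1 : ℤ) (1 : ↥A) :=
  laurent_tau ↥(Sloc E) E.sec

/-- **AGREEMENT** with helper9's Laurent expansion at the place `Qpt` in the uniformiser `t`. -/
theorem coeffMap_lau (hres : ResK E.Qpt) (ht : E.Qpt.ord E.t = 1) (s : ↥(Sloc E)) :
    ModularCurve.coeffMap A.subtype (lau E s) = expandF hres ht (s : F) :=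
  (expandF_eq_coeffMap_laurent ↥(Sloc E) E.compat hres ht E.sec (Sloc E).subtype
    (fun _ => rfl) s).symm

theorem coeff_lau (hres : ResK E.Qpt) (ht : E.Qpt.ord E.t = 1) (s : ↥(Sloc E)) (k : ℤ) :
    (((lau E s).coeff k : ↥A) : L) = (expandF hres ht (s : F)).coeff k := by
  rw [← coeffMap_lau E hres ht s, ModularCurve.coeffMap_coeff]
  rfl

/-- **(Db) with one pole**: an `A`-integral function without poles on the disc, except possibly
at the centre, lies in `C[1/τ]`. -/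
theorem mem_Sloc_of_regular_off {f : F} (hf : f ∈ Gi)
    (hreg : ∀ P ∈ E.disc, P ≠ E.Qpt → 0 ≤ P.ord f) : f ∈ Sloc E := by
  by_cases hf0 : f = 0
  · rw [hf0]
    exact (Sloc E).zero_mem
  set n : ℕ := (-(E.Qpt.ord f)).toNat with hn
  have hmem : f * E.t ^ n ∈ Gi := Gi.mul_mem hf (Gi.pow_mem E.tau_mem n)
  have hord : ∀ P : Place L F, P.ord (f * E.t ^ n) = P.ord f + (n : ℤ) * P.ord E.t := by
    intro P
    rw [P.ord_mul hf0 (pow_ne_zero _ E.t_ne_zero), ord_pow]
  obtain ⟨c, hc⟩ := E.db _ hmem (by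
    intro P hP
    rw [hord P]
    by_cases hPQ : P = E.Qpt
    · rw [hPQ, E.ord_t, mul_one]
      have := Int.self_le_toNat (-(E.Qpt.ord f))
      omega
    · have h1 := hreg P hP hPQ
      have h2 : 0 ≤ P.ord E.t := E.tau_nonneg P hP
      positivity)
  exact ⟨n, c, hc.symm⟩

end One

/-! ### the family -/

section Family

variable {g : ℕ} (D : Fin g → LocDatum.{uL, uF, uC} A Gi)

/-- the discs are pairwise disjoint, and the constants of `A` are integral. -/
structure Sep : Prop where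
  disj : ∀ i j : Fin g, (D j).Qpt ∈ (D i).disc → j = i
  const_mem : ∀ a : ↥A, algebraMap L F (a : L) ∈ Gi

/-- **`B_a`**: the `A`-integral functions with poles only at the `Q_i`. -/
def Ba : Subring F where
  carrier := {f | f ∈ Gi ∧ ∀ v : Place L F, (∀ i, (D i).Qpt ≠ v) → f ∈ v.toValuationSubring}
  mul_mem' := fun hf hf' => ⟨Gi.mul_mem hf.1 hf'.1, fun v hv => mul_mem (hf.2 v hv) (hf'.2 v hv)⟩
  one_mem' := ⟨Gi.one_mem, fun _ _ => one_mem _⟩
  add_mem' := fun hf hf' => ⟨Gi.add_mem hf.1 hf'.1, fun v hv => add_mem (hf.2 v hv) (hf'.2 v hv)⟩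
  zero_mem' := ⟨Gi.zero_mem, fun _ _ => zero_mem _⟩
  neg_mem' := fun hf => ⟨Gi.neg_mem hf.1, fun v hv => neg_mem (hf.2 v hv)⟩

theorem mem_Ba_iff (f : F) :
    f ∈ Ba D ↔ f ∈ Gi ∧ ∀ v : Place L F, (∀ i, (D i).Qpt ≠ v) → f ∈ v.toValuationSubring :=
  Iff.rfl

variable {D}

theorem const_mem_Ba (hD : Sep D) (a : ↥A) : algebraMap L F (a : L) ∈ Ba D :=
  ⟨hD.const_mem a, fun v _ => v.algebraMap_mem' _⟩

/-- `B_a ⊆ C_i[1/τ_i]` for every `i`. -/
theorem Ba_le_Sloc (hD : Sep D) (i : Fin g) : Ba D ≤ Sloc (D i) := by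
  intro f hf
  refine mem_Sloc_of_regular_off (D i) hf.1 fun P hP hPQ => ?_
  refine ord_nonneg_of_mem P (hf.2 P fun j hj => ?_)
  have hji : j = i := hD.disj i j (by rw [hj]; exact hP)
  rw [hji] at hj
  exact hPQ hj.symm

/-- `B_a → C_i[1/τ_i]`. -/
def toSlocBa (hD : Sep D) (i : Fin g) : ↥(Ba D) →+* ↥(Sloc (D i)) :=
  Subring.inclusion (Ba_le_Sloc hD i)

@[simp] theorem coe_toSlocBa (hD : Sep D) (i : Fin g) (f : ↥(Ba D)) :
    ((toSlocBa hD i f : ↥(Sloc (D i))) : F) = (f : F) := rfl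

/-- **The Laurent expansion `Exp : B_a →+* Lam g A`.** -/
def Exp (hD : Sep D) : ↥(Ba D) →+* Lam g ↥A :=
  RingHom.pi (f := fun _ : Fin g => LaurentSeries ↥A) fun i =>
    (lau (D i)).comp (toSlocBa hD i)

theorem Exp_apply (hD : Sep D) (f : ↥(Ba D)) (i : Fin g) :
    Exp hD f i = lau (D i) (toSlocBa hD i f) := rfl

/-- `Exp` of a constant. -/
theorem Exp_const (hD : Sep D) (a : ↥A) :
    Exp hD ⟨algebraMap L F (a : L), const_mem_Ba hD a⟩ = algebraMap ↥A (Lam g ↥A) a := by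
  funext i
  rw [Exp_apply, LaurentMap19.algebraMap_apply, ← lau_const (D i) a]
  rfl

/-- every component of `Exp` is injective. -/
theorem Exp_component_injective (hD : Sep D) (i : Fin g) :
    Function.Injective fun f : ↥(Ba D) => Exp hD f i := by
  intro f f' hff
  have h1 : toSlocBa hD i f = toSlocBa hD i f' := lau_injective (D i) hff
  have h2 : ((toSlocBa hD i f : ↥(Sloc (D i))) : F) = (toSlocBa hD i f' : ↥(Sloc (D i))) :=
    congrArg Subtype.val h1
  exact Subtype.ext h2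

/-- **`Exp` is injective** (for `g ≥ 1`). -/
theorem Exp_injective (hD : Sep D) (i : Fin g) : Function.Injective (Exp hD) := fun _ _ hff =>
  Exp_component_injective hD i (congrFun hff i)

/-- **AGREEMENT**: the coefficients of `Exp f` at `i` are those of helper9's Laurent expansion of
`f` at the place `Q_i` in the uniformiser `t_i`. -/
theorem coeffMap_Exp (hD : Sep D) (f : ↥(Ba D)) (i : Fin g) (hres : ResK (D i).Qpt)
    (ht : (D i).Qpt.ord (D i).t = 1) :
    ModularCurve.coeffMap A.subtype (Exp hD f i) = expandF hres ht (f : F) :=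
  coeffMap_lau (D i) hres ht (toSlocBa hD i f)

theorem coeff_Exp (hD : Sep D) (f : ↥(Ba D)) (i : Fin g) (hres : ResK (D i).Qpt)
    (ht : (D i).Qpt.ord (D i).t = 1) (k : ℤ) :
    (((Exp hD f i).coeff k : ↥A) : L) = (expandF hres ht (f : F)).coeff k :=
  coeff_lau (D i) hres ht (toSlocBa hD i f) k

theorem mapLam_Exp (hD : Sep D) (f : ↥(Ba D)) (i : Fin g) (hres : ResK (D i).Qpt)
    (ht : (D i).Qpt.ord (D i).t = 1) :
    mapLam A.subtype (Exp hD f) i = expandF hres ht (f : F) :=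
  coeffMap_Exp hD f i hres ht

/-- the coefficients of `Exp f` at `i` below the order of `f` at `Q_i` vanish. -/
theorem coeff_Exp_of_lt (hD : Sep D) (f : ↥(Ba D)) (i : Fin g) {n : ℤ}
    (hf : (f : F) = 0 ∨ n ≤ (D i).Qpt.ord (f : F)) {k : ℤ} (hk : k < n) :
    (Exp hD f i).coeff k = 0 := by
  apply Subtype.ext
  rw [coeff_Exp hD f i (D i).resQ (D i).ord_t k,
    coeff_expandF_of_lt (D i).resQ (D i).ord_t hf hk]
  rfl

/-- conversely, the order of `f` at `Q_i` is read off `Exp f i`. -/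
theorem le_ord_of_coeff_Exp (hD : Sep D) (f : ↥(Ba D)) (i : Fin g) {n : ℤ}
    (h : ∀ k : ℤ, k < n → (Exp hD f i).coeff k = 0) :
    (f : F) = 0 ∨ n ≤ (D i).Qpt.ord (f : F) := by
  refine le_ord_of_coeff_expandF (D i).resQ (D i).ord_t fun k hk => ?_
  rw [← coeff_Exp hD f i (D i).resQ (D i).ord_t k, h k hk]
  rfl

/-- **the image of `Exp`**, an `A`-subalgebra of `Lam g A`. -/
def BaLam (hD : Sep D) : Subalgebra ↥A (Lam g ↥A) where
  carrier := Set.range (Exp hD)
  mul_mem' := by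
    rintro _ _ ⟨f, rfl⟩ ⟨f', rfl⟩
    exact ⟨f * f', map_mul _ _ _⟩
  one_mem' := ⟨1, map_one _⟩
  add_mem' := by
    rintro _ _ ⟨f, rfl⟩ ⟨f', rfl⟩
    exact ⟨f + f', map_add _ _ _⟩
  zero_mem' := ⟨0, map_zero _⟩
  algebraMap_mem' := fun a => ⟨_, Exp_const hD a⟩

theorem mem_BaLam_iff (hD : Sep D) (x : Lam g ↥A) : x ∈ BaLam hD ↔ ∃ f : ↥(Ba D), Exp hD f = x :=
  Iff.rfl

theorem Exp_mem_BaLam (hD : Sep D) (f : ↥(Ba D)) : Exp hD f ∈ BaLam hD := ⟨f, rfl⟩

/-- **the (const) clause of `BasisLift14.LiftHyp`** for `BaLam`: if a function with poles only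
at the `Q_i`, of order `≤ 1`, is a constant of `L` ("`L(E₀) = L`", `PolarParts9`), and the
integral constants lie in `A`, then the elements of `BaLam` with at most simple poles are the
constants of `A`. -/
theorem baLam_const (hD : Sep D)
    (hGA : ∀ ξ : L, algebraMap L F ξ ∈ Gi → ξ ∈ A)
    (hker : ∀ f : F, (∀ v : Place L F, (∀ i, (D i).Qpt ≠ v) → f ∈ v.toValuationSubring) →
      (∀ i, ∀ k : ℤ, k < -1 → (expandF (D i).resQ (D i).ord_t f).coeff k = 0) →
      ∃ ξ : L, f = algebraMap L F ξ)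
    (x : Lam g ↥A) (hx : x ∈ BaLam hD)
    (hpol : ∀ (i : Fin g) (m : ℤ), m < -1 → (x i).coeff m = 0) :
    ∃ a : ↥A, x = algebraMap ↥A (Lam g ↥A) a := by
  obtain ⟨f, rfl⟩ := hx
  obtain ⟨ξ, hξ⟩ := hker (f : F) f.2.2 (by
    intro i k hk
    rw [← coeff_Exp hD f i (D i).resQ (D i).ord_t k, hpol i k hk]
    rfl)
  have hξA : ξ ∈ A := hGA ξ (by rw [← hξ]; exact f.2.1)
  refine ⟨⟨ξ, hξA⟩, ?_⟩
  rw [← Exp_const hD ⟨ξ, hξA⟩]
  congr 1
  exact Subtype.ext hξ

end Family

end Fermat.Agent.ES.V19.ExpBa25
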