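/-
Programme V (S19), chapter B4′, brick (Lc), part 3 (helper25):
**INSTANTIATION of `ExpBa25.LocDatum` by the exit of chapter (B3).**

Setting = `DiscIface3` / `DiscLocal3` / `DiscTaylor3` (helper3): `T : TwoCharts A hx Ft`, a place `Q`
of the special fibre, a centre `c : A`, `Z : DiscTaylor3.ZeroPt T Q c` (a zero `P₀` of `τ = t - c` in
the disc of `Q`, with (Dd)).  From the literals `Da T Q c` and `Db T Gi Q` of `DiscIface3`
(`Gi` = the ring of `A`-integral functions), a proof that `P₀` has degree one (`ResK`, e.g.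
`HL.residue`) and `τ ∈ Gi`:

* `ord_tau_eq_one`  : `ord_{P₀} τ = 1` (the zero of `τ` in the disc is simple: (Da));
* **`locDatum`**    : the `ExpBa25.LocDatum A Gi` with `C = CQ T Q`, `ι` the inclusion,
  `algC = algCQ T Q`, `ev = Z.ev₀`, `τ = tauC T Q c`, `Qpt = Z.P₀`, `disc = DiscIface3.disc T Q`;
* `sep_of_injective`: for a family `Q : Fin g → Place (kA A) Ft` of pairwise distinct points the
  discs are disjoint, i.e. `ExpBa25.Sep`;
hence `ExpBa25.Exp : B_a →+* Lam g A` exists for the chart data of (B3).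
-/
import Mathlib
import Fermat.Agent.ES.V19.DiscTaylor3
import Fermat.Agent.ES.V19.ExpBa25

set_option autoImplicit false
set_option linter.style.haveILetI false

noncomputable section

open AlgebraicCurve

namespace Fermat.Agent.ES.V19.ExpBaDisc25

open Fermat.Agent.X0.FF Fermat.Agent.ES.RED.Contract8 Fermat.Agent.ES.RED.TwoCharts8
  Fermat.Agent.ES.V19.DiscIface3 Fermat.Agent.ES.V19.DiscLocal3 Fermat.Agent.ES.V19.DiscTaylor3
  Fermat.Agent.ES.V19.TaylorSec3 Fermat.Agent.ES.V19.ExpandPlace9 Fermat.Agent.ES.V19.ExpBa25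

variable {L : Type*} [Field L] [IsAlgClosed L] {A : ValuationSubring L}
variable {F : Type*} [Field F] [Algebra L F] {x : F} {hx : IsGen L x}
variable {Ft : Type*} [Field Ft] [Algebra (kA A) Ft]
variable [IsAlgClosed (kA A)] {xt : Ft} (hxt : IsGen (kA A) xt)
variable {T : TwoCharts A hx Ft} (Gi : Subring F)

section One

variable {Q : Place (kA A) Ft} {c : ↥A} (Z : ZeroPt T Q c)

omit [IsAlgClosed (kA A)] in
/-- **the zero of `τ` in the disc is simple** (from (Da)). -/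
theorem ord_tau_eq_one (hDa : Da T Q c) : Z.P₀.ord ((tauB T c : ↥T.S0.B) : F) = 1 := by
  obtain ⟨P, -, hord, huniq⟩ := hDa.2.2 0 (Ideal.zero_mem _)
  have hpos : 0 < Z.P₀.ord (tauSub T c 0) := by
    rw [tauSub_zero]
    exact Z.ord_tau_pos
  rw [← tauSub_zero, huniq Z.P₀ Z.hQ hpos]
  exact hord

/-- **the local datum of (Lc) at a good point**, from the exit of (B3). -/
def locDatum (hDa : Da T Q c) (hDb : Db T Gi Q) (hres : ResK Z.P₀)
    (hτG : ((tauB T c : ↥T.S0.B) : F) ∈ Gi) : LocDatum A Gi :=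
  letI := algCQ T Q
  { C := ↥(CQ T Q)
    ι := (CQ T Q).subtype
    ι_inj := Subtype.val_injective
    ι_const := fun _ => rfl
    ev := Z.ev₀ hxt
    τ := tauC T Q c
    sec := Z.secDatum hxt
    Qpt := Z.P₀
    resQ := hres
    ord_tau := ord_tau_eq_one Z hDa
    mem_Qpt := fun f => mem_place_of_mem_CQ hxt T Q Z.P₀ Z.hQ Z.hP f.2
    disc := disc T Q
    Qpt_mem := Z.hQ
    tau_nonneg := fun P hP =>
      ord_nonneg_of_mem_CQ hxt T Q P hP (hDa.1 P hP) (tauC T Q c).2
    tau_mem := hτG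
    db := fun f hf hreg => ⟨⟨f, hDb f hf hreg⟩, rfl⟩ }

variable (hDa : Da T Q c) (hDb : Db T Gi Q) (hres : ResK Z.P₀)
  (hτG : ((tauB T c : ↥T.S0.B) : F) ∈ Gi)

@[simp] theorem locDatum_Qpt : (locDatum hxt Gi Z hDa hDb hres hτG).Qpt = Z.P₀ := rfl

@[simp] theorem locDatum_t :
    (locDatum hxt Gi Z hDa hDb hres hτG).t = ((tauB T c : ↥T.S0.B) : F) := rfl

@[simp] theorem locDatum_disc : (locDatum hxt Gi Z hDa hDb hres hτG).disc = disc T Q := rfl

/-- `C[1/τ]` for the datum of the disc: `f τ^n ∈ CQ T Q` for some `n`. -/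
theorem mem_Sloc_locDatum_iff (f : F) :
    f ∈ Sloc (locDatum hxt Gi Z hDa hDb hres hτG) ↔
      ∃ n : ℕ, f * ((tauB T c : ↥T.S0.B) : F) ^ n ∈ CQ T Q := by
  constructor
  · rintro ⟨n, a, e⟩
    have ha : ∃ a' : ↥(CQ T Q), f * ((tauB T c : ↥T.S0.B) : F) ^ n = (a' : F) := ⟨a, e⟩
    obtain ⟨a', e'⟩ := ha
    exact ⟨n, by rw [e']; exact a'.2⟩
  · rintro ⟨n, h⟩
    exact ⟨n, ⟨_, h⟩, rfl⟩

end One

section Family

variable {g : ℕ} {Q : Fin g → Place (kA A) Ft} {c : Fin g → ↥A}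
  (Z : ∀ i, ZeroPt T (Q i) (c i))
  (hDa : ∀ i, Da T (Q i) (c i)) (hDb : ∀ i, Db T Gi (Q i)) (hres : ∀ i, ResK (Z i).P₀)
  (hτG : ∀ i, ((tauB T (c i) : ↥T.S0.B) : F) ∈ Gi)

/-- the family of local data. -/
def locData : Fin g → LocDatum A Gi := fun i =>
  locDatum hxt Gi (Z i) (hDa i) (hDb i) (hres i) (hτG i)

/-- **pairwise distinct points of the special fibre have disjoint discs.** -/
theorem sep_of_injective (hQ : Function.Injective Q)
    (hconst : ∀ a : ↥A, algebraMap L F (a : L) ∈ Gi) :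
    Sep (locData hxt Gi Z hDa hDb hres hτG) where
  disj := by
    intro i j hj
    have h1 : T.r (Z j).P₀ = Q i := hj
    exact hQ ((Z j).hQ.symm.trans h1)
  const_mem := hconst

end Family

end Fermat.Agent.ES.V19.ExpBaDisc25
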