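/-
Programme V (S19), chapter B4′, brick (Lc), part 4 (helper25):
**GLUE between `Exp : B_a →+* Lam g A` (`ExpBa25`), the field-theoretic expansions `expandF`
(helper9's (Ld): `ExpK`, `BasisData`), and the Taylor expansions `taylor (D l).sec` on the local
rings (helper28's (Le): the clause `bb_exp` of `DensBase`).**

Setting of `ExpBa25`: `D : Fin g → LocDatum A Gi`, `hD : Sep D`.

* `coeff_subtype_injective`, `mapLam_subtype_injective` : `A ⊂ L` on coefficients;
* **`Exp_eq_of_mapLam`** : a tuple `x : Lam g A` whose image over `L` is the tuple of the Laurent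
  expansions `expandF` of `f ∈ B_a` at the `Q_i` IS `Exp f`;
* `Exp_eq_mapLam_of_subring` : the same through a subring `O ≤ L` contained in `A`
  (`x : Lam g O`, `mapLam O.subtype x = (expandF f)_i`  ⇒  `Exp f = mapLam (O → A) x`): this is the
  output shape of `BasisFinal9.exists_basisData_fixed`;
* **`exists_taylor_eq`** : for `f ∈ B_a` and every `l` there are `m` and `c ∈ C_l` with
  `f * t_l ^ m = ι c` and `ofPowerSeries (taylor (D l).sec c) = Exp f l * (single 1 1) ^ m`
  (at `ExpBaDisc25.locDatum`, `taylor (D l).sec = Z.taylorQ`: the clause `bb_exp`);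
* `exists_taylor_eq_of_mapLam` : both combined.
-/
import Mathlib
import Fermat.Agent.ES.V19.ExpBa25

set_option autoImplicit false

open AlgebraicCurve

noncomputable section

namespace Fermat.Agent.ES.V19.ExpBaGlue25

open Fermat.Agent.X0.FF Fermat.Agent.ES.V19.TaylorSec3 Fermat.Agent.ES.V19.LaurentSec3
  Fermat.Agent.ES.V19.ExpandPlace9 Fermat.Agent.ES.V19.ExpBa25
open Fermat.Agent.ES.V19.LaurentMap19 (Lam mapLam)

universe uL uF uC

variable {L : Type uL} [Field L] {F : Type uF} [Field F] [Algebra L F]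
variable {A : ValuationSubring L} {Gi : Subring F}

/-- `mapLam A.subtype` is injective. -/
theorem mapLam_subtype_injective {g : ℕ} :
    Function.Injective (mapLam (g := g) (A.subtype : ↥A →+* L)) := by
  intro x y h
  refine LaurentMap19.Lam.ext fun i d => ?_
  have h1 : (mapLam A.subtype x i).coeff d = (mapLam A.subtype y i).coeff d := by rw [h]
  rw [LaurentMap19.mapLam_coeff, LaurentMap19.mapLam_coeff] at h1
  exact Subtype.ext h1

variable {g : ℕ} {D : Fin g → LocDatum.{uL, uF, uC} A Gi}

/-- **a tuple over `A` whose image over `L` is the tuple of the Laurent expansions of `f` is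
`Exp f`.** -/
theorem Exp_eq_of_mapLam (hD : Sep D) (f : ↥(Ba D)) (x : Lam g ↥A)
    (hx : ∀ i, mapLam A.subtype x i = expandF (D i).resQ (D i).ord_t (f : F)) :
    Exp hD f = x := by
  apply mapLam_subtype_injective
  funext i
  rw [hx i, mapLam_Exp hD f i (D i).resQ (D i).ord_t]

/-- the same through a subring `O ≤ L` contained in `A`. -/
theorem Exp_eq_mapLam_of_subring (hD : Sep D) (f : ↥(Ba D)) (O : Subring L)
    (hOA : ∀ a ∈ O, a ∈ A) (x : Lam g ↥O)
    (hx : ∀ i, mapLam O.subtype x i = expandF (D i).resQ (D i).ord_t (f : F)) :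
    Exp hD f = mapLam (Subring.inclusion (S := O) (T := A.toSubring) hOA) x := by
  refine Exp_eq_of_mapLam hD f _ fun i => ?_
  rw [← hx i]
  apply HahnSeries.ext
  funext d
  rw [LaurentMap19.mapLam_coeff, LaurentMap19.mapLam_coeff, LaurentMap19.mapLam_coeff]
  rfl

/-- **`Exp` in terms of the Taylor expansions on the local rings.** -/
theorem exists_taylor_eq (hD : Sep D) (f : ↥(Ba D)) (l : Fin g) :
    ∃ (m : ℕ) (c : (D l).C), (f : F) * (D l).t ^ m = (D l).ι c ∧
      HahnSeries.ofPowerSeries ℤ ↥A (taylor (D l).sec c) =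
        Exp hD f l * (HahnSeries.single (1 : ℤ) (1 : ↥A)) ^ m := by
  obtain ⟨m, c, e⟩ := Ba_le_Sloc hD l f.2
  refine ⟨m, c, e, ?_⟩
  have e' : toSlocBa hD l f * algebraMap (D l).C ↥(Sloc (D l)) (D l).τ ^ m =
      algebraMap (D l).C ↥(Sloc (D l)) c := Subtype.ext e
  have h1 := laurent_mul_pow ↥(Sloc (D l)) (D l).sec e'
  rw [map_pow, HahnSeries.ofPowerSeries_X] at h1
  rw [Exp_apply, lau_apply, h1]

/-- the two combined: the shape of the clause `bb_exp` of (Le). -/
theorem exists_taylor_eq_of_mapLam (hD : Sep D) (f : ↥(Ba D)) (O : Subring L)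
    (hOA : ∀ a ∈ O, a ∈ A) (x : Lam g ↥O)
    (hx : ∀ i, mapLam O.subtype x i = expandF (D i).resQ (D i).ord_t (f : F)) (l : Fin g) :
    ∃ (m : ℕ) (c : (D l).C), (f : F) * (D l).t ^ m = (D l).ι c ∧
      HahnSeries.ofPowerSeries ℤ ↥A (taylor (D l).sec c) =
        mapLam (Subring.inclusion (S := O) (T := A.toSubring) hOA) x l *
          (HahnSeries.single (1 : ℤ) (1 : ↥A)) ^ m := by
  rw [← Exp_eq_mapLam_of_subring hD f O hOA x hx]
  exact exists_taylor_eq hD f l

end Fermat.Agent.ES.V19.ExpBaGlue25
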