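/-
Programme V (S19), chapter B4′, brick (Lc), part 5 (helper25):
**(Lc) AT THE CHART of J4**: `ExpBa25` instantiated at helper5's `XiChartOf5.chartOf T Qb c hDa`
(`Q i = centre …` the zero of `τ_i = t - c i` in the disc of `Qb i`, `t i = tauSub T (c i) 0`), from
the literals `Good`, `Da`, `Dd`, `Db` of `DiscIface3` — so that (Ld)/G4 (`ExpK`, `expandF` at
`χ.Q i` in the uniformiser `χ.t i`) and (Le)/G3 (`taylorQ` on `CQ T (Qb i)`) talk about the SAME
`Exp`.

* `zeroPt … i : DiscTaylor3.ZeroPt T (Qb i) (c i)` with `P₀ = centre T Qb c hDa i` (definitionally);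
* `chartData … : Fin g → ExpBa25.LocDatum A Gi`, `chartData_Qpt` (`= χ.Q i`, rfl), `chartData_t`
  (`= χ.t i`), `sep_chartData`;
* `mem_Ba_chartData_iff` : `f ∈ B_a ↔ f ∈ Gi ∧ (f regular outside the χ.Q i)`;
* `expandF_congr` : `expandF` does not depend on the way the uniformiser is written;
* **`mapLam_Exp_chart`** : `mapLam A.subtype (Exp f) i = expandF hres (ht i) f` for ANY proofs
  `hres : ResK (χ.Q i)`, `ht i : (χ.Q i).ord (χ.t i) = 1` (the shape of `BasisData9.ExpK`);
* **`bb_exp_chart`** : if `x : Lam g O` (`O ≤ A`) has `mapLam O.subtype x i = expandF … f` for all `i`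
  and `f ∈ B_a`, then for every `l` there is `m` with `f * τ_l ^ m ∈ CQ T (Qb l)` and
  `ofPowerSeries (taylorQ ⟨f * τ_l ^ m, _⟩) = mapLam (O ↪ A) x l * (single 1 1) ^ m`
  (the clause `bb_exp` of (Le)).
-/
import Mathlib
import Fermat.Agent.ES.V19.XiChartOf5
import Fermat.Agent.ES.V19.ExpBaDisc25
import Fermat.Agent.ES.V19.ExpBaGlue25

set_option autoImplicit false
set_option linter.style.haveILetI false

noncomputable section

open AlgebraicCurve

namespace Fermat.Agent.ES.V19.ExpBaChart25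

open Fermat.Agent.X0.FF Fermat.Agent.ES.RED.Contract8 Fermat.Agent.ES.RED.TwoCharts8
  Fermat.Agent.ES.V19.DiscIface3 Fermat.Agent.ES.V19.DiscLocal3 Fermat.Agent.ES.V19.DiscTaylor3
  Fermat.Agent.ES.V19.TaylorSec3 Fermat.Agent.ES.V19.ExpandPlace9 Fermat.Agent.ES.V19.ExpBa25
  Fermat.Agent.ES.V19.ExpBaDisc25 Fermat.Agent.ES.V19.ExpBaGlue25 Fermat.Agent.ES.V19.XiChartOf5
  Fermat.Agent.ES.V19.XiIface29
open Fermat.Agent.ES.V19.LaurentMap19 (Lam mapLam)

/-- `expandF` does not depend on the way the uniformiser is written. -/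
theorem expandF_congr {K E : Type*} [Field K] [Field E] [Algebra K E] {v : Place K E}
    (hres : ResK v) {t t' : E} (e : t = t') (ht : v.ord t = 1) (ht' : v.ord t' = 1) (f : E) :
    expandF hres ht f = expandF hres ht' f := by
  subst e
  rfl

variable {L : Type*} [Field L] [IsAlgClosed L] {A : ValuationSubring L}
variable {F : Type*} [Field F] [Algebra L F] {x : F} {hx : IsGen L x}
variable {Ft : Type*} [Field Ft] [Algebra (kA A) Ft]
variable [IsAlgClosed (kA A)] {xt : Ft} (hxt : IsGen (kA A) xt)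
variable (T : TwoCharts A hx Ft) (Gi : Subring F)
variable {g : ℕ} (Qb : Fin g → Place (kA A) Ft) (c : Fin g → ↥A)
  (hgood : ∀ i, Good T (Qb i) (c i)) (hDa : ∀ i, Da T (Qb i) (c i))
  (hDd : ∀ i, Dd T (Qb i) (c i))

omit [IsAlgClosed (kA A)] in
/-- the centre is in chart `0`. -/
theorem inChart_centre (i : Fin g) : T.S0.InChart (centre T Qb c hDa i) :=
  (hDa i).1 _ (r_centre T Qb c hDa i)

/-- **the zero point of `DiscTaylor3` at the centre of the chart.** -/
def zeroPt (i : Fin g) : ZeroPt T (Qb i) (c i) where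
  P₀ := centre T Qb c hDa i
  hQ := r_centre T Qb c hDa i
  hP := inChart_centre T Qb c hDa i
  hτ := by
    rw [T.S0.ev_eq_zero_iff (centre T Qb c hDa i) (inChart_centre T Qb c hDa i)]
    right
    rw [← tauSub_zero, ord_centre]
    exact one_pos
  good := hgood i
  dd := hDd i

omit [IsAlgClosed (kA A)] in
@[simp] theorem zeroPt_P₀ (i : Fin g) :
    (zeroPt T Qb c hgood hDa hDd i).P₀ = centre T Qb c hDa i := rfl

variable (hDb : ∀ i, Db T Gi (Qb i)) (hres : ∀ i, ResK (centre T Qb c hDa i))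
  (hτG : ∀ i, ((tauB T (c i) : ↥T.S0.B) : F) ∈ Gi)

/-- **the local data of (Lc) at the chart.** -/
def chartData : Fin g → LocDatum A Gi :=
  locData hxt Gi (zeroPt T Qb c hgood hDa hDd) hDa hDb hres hτG

@[simp] theorem chartData_Qpt (i : Fin g) :
    (chartData hxt T Gi Qb c hgood hDa hDd hDb hres hτG i).Qpt = (chartOf T Qb c hDa).Q i := rfl

theorem chartData_t (i : Fin g) :
    (chartData hxt T Gi Qb c hgood hDa hDd hDb hres hτG i).t = (chartOf T Qb c hDa).t i :=
  (tauSub_zero T (c i)).symm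

theorem chartData_t' (i : Fin g) :
    (chartData hxt T Gi Qb c hgood hDa hDd hDb hres hτG i).t = ((tauB T (c i) : ↥T.S0.B) : F) :=
  rfl

/-- distinct points, integral constants ⇒ `Sep`. -/
theorem sep_chartData (hinj : Function.Injective Qb)
    (hconst : ∀ a : ↥A, algebraMap L F (a : L) ∈ Gi) :
    Sep (chartData hxt T Gi Qb c hgood hDa hDd hDb hres hτG) :=
  sep_of_injective hxt Gi _ hDa hDb hres hτG hinj hconst

theorem mem_Ba_chartData_iff (f : F) :
    f ∈ Ba (chartData hxt T Gi Qb c hgood hDa hDd hDb hres hτG) ↔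
      f ∈ Gi ∧ ∀ v : Place L F, (∀ i, (chartOf T Qb c hDa).Q i ≠ v) → f ∈ v.toValuationSubring :=
  Iff.rfl

variable {hxt T Gi Qb c hgood hDa hDd hDb hres hτG}

/-- **AGREEMENT at the chart**: `Exp` has the Laurent coefficients of `expandF` at `χ.Q i` in the
uniformiser `χ.t i`. -/
theorem mapLam_Exp_chart (hD : Sep (chartData hxt T Gi Qb c hgood hDa hDd hDb hres hτG))
    (f : ↥(Ba (chartData hxt T Gi Qb c hgood hDa hDd hDb hres hτG))) (i : Fin g)
    (hres' : ResK ((chartOf T Qb c hDa).Q i))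
    (ht : ((chartOf T Qb c hDa).Q i).ord ((chartOf T Qb c hDa).t i) = 1) :
    mapLam A.subtype (Exp hD f) i = expandF hres' ht (f : F) := by
  rw [mapLam_Exp hD f i hres' (chartData hxt T Gi Qb c hgood hDa hDd hDb hres hτG i).ord_t]
  exact expandF_congr hres' (chartData_t hxt T Gi Qb c hgood hDa hDd hDb hres hτG i) _ ht _

/-- **the clause `bb_exp` of (Le) at the chart.** -/
theorem bb_exp_chart (hD : Sep (chartData hxt T Gi Qb c hgood hDa hDd hDb hres hτG))
    (f : F) (hf : f ∈ Ba (chartData hxt T Gi Qb c hgood hDa hDd hDb hres hτG))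
    (O : Subring L) (hOA : ∀ a ∈ O, a ∈ A) (y : Lam g ↥O)
    (hres' : ∀ i, ResK ((chartOf T Qb c hDa).Q i))
    (ht : ∀ i, ((chartOf T Qb c hDa).Q i).ord ((chartOf T Qb c hDa).t i) = 1)
    (hy : ∀ i, mapLam O.subtype y i = expandF (hres' i) (ht i) f) (l : Fin g) :
    ∃ (m : ℕ) (h : f * ((tauB T (c l) : ↥T.S0.B) : F) ^ m ∈ CQ T (Qb l)),
      HahnSeries.ofPowerSeries ℤ ↥A
          ((zeroPt T Qb c hgood hDa hDd l).taylorQ hxt ⟨_, h⟩) =
        mapLam (Subring.inclusion (S := O) (T := A.toSubring) hOA) y l *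
          (HahnSeries.single (1 : ℤ) (1 : ↥A)) ^ m := by
  have hy' : ∀ i, mapLam O.subtype y i =
      expandF (chartData hxt T Gi Qb c hgood hDa hDd hDb hres hτG i).resQ
        (chartData hxt T Gi Qb c hgood hDa hDd hDb hres hτG i).ord_t
        ((⟨f, hf⟩ : ↥(Ba (chartData hxt T Gi Qb c hgood hDa hDd hDb hres hτG))) : F) := by
    intro i
    rw [hy i]
    exact expandF_congr _ (chartData_t hxt T Gi Qb c hgood hDa hDd hDb hres hτG i).symm _ _ _
  obtain ⟨m, a, e, h2⟩ := exists_taylor_eq_of_mapLam hD ⟨f, hf⟩ O hOA y hy' l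
  have ha : ∃ a' : ↥(CQ T (Qb l)), f * ((tauB T (c l) : ↥T.S0.B) : F) ^ m = (a' : F) ∧
      HahnSeries.ofPowerSeries ℤ ↥A ((zeroPt T Qb c hgood hDa hDd l).taylorQ hxt a') =
        mapLam (Subring.inclusion (S := O) (T := A.toSubring) hOA) y l *
          (HahnSeries.single (1 : ℤ) (1 : ↥A)) ^ m := ⟨a, e, h2⟩
  obtain ⟨a', e', h2'⟩ := ha
  refine ⟨m, by rw [e']; exact a'.2, ?_⟩
  rw [← h2']
  congr 2
  exact Subtype.ext e'

end Fermat.Agent.ES.V19.ExpBaChart25
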