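/-
Programme V (S19), brick (A4+), helper20: **`Γ_f` is normal in the decomposition group**, and the
exit theorem of `CoordStable20` at the concrete level `Γ = Γ_f = gammaF A ℓ f` (helper16), with no
instance hypothesis left (`fixRing A Γ_f` is noetherian by helper16's `FixRingDVR16`).
-/
import Mathlib
import Fermat.Agent.ES.V19.GammaF16
import Fermat.Agent.ES.V19.FixRingDVR16
import Fermat.Agent.ES.V19.CoordStable20

set_option autoImplicit false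

noncomputable section

namespace Fermat.Agent.ES.V19.GammaNormal20

open Fermat.Agent.ES.V19.StarAct26 Fermat.Agent.ES.V19.TraceDescent26
  Fermat.Agent.ES.V19.CoordOrder23 Fermat.Agent.ES.V19.CoordStable20
  Fermat.Agent.ES.V19.GammaF16

local notation "Qbar" => AlgebraicClosure ℚ
local notation "GQ" => (AlgebraicClosure ℚ ≃ₐ[ℚ] AlgebraicClosure ℚ)

variable {A : ValuationSubring Qbar} {ℓ : ℕ}

/-- **`Γ_f` is normalised by the decomposition group.** -/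
theorem gammaF_normal (f : ℕ) :
    ∀ τ ∈ A.decompositionSubgroup ℚ, ∀ σ ∈ gammaF A ℓ f, τ⁻¹ * σ * τ ∈ gammaF A ℓ f := by
  intro τ hτ σ hσ
  obtain ⟨hσD, hσy⟩ := mem_gammaF_iff.mp hσ
  have hmem : τ⁻¹ * σ * τ ∈ A.decompositionSubgroup ℚ :=
    mul_mem (mul_mem (inv_mem hτ) hσD) hτ
  refine mem_gammaF_iff.mpr ⟨hmem, fun y hy => ?_⟩
  have h1 : (⟨τ⁻¹ * σ * τ, hmem⟩ : A.decompositionSubgroup ℚ) =
      (⟨τ, hτ⟩ : A.decompositionSubgroup ℚ)⁻¹ * ⟨σ, hσD⟩ * ⟨τ, hτ⟩ := rfl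
  have h2 : ((⟨τ, hτ⟩ : A.decompositionSubgroup ℚ) • y) ^ (ℓ ^ f) =
      (⟨τ, hτ⟩ : A.decompositionSubgroup ℚ) • y := by
    rw [← smul_pow', hy]
  rw [h1, mul_smul, mul_smul, hσy _ h2, inv_smul_smul]

/-- **(A4+), exit at the level `Γ_f`**: all the hypotheses of helper26's descent for the order
generated by the `D`-transports of one chart over `fixRing A Γ_f`. -/
theorem coordStable_gammaF (hℓ : ℓ.Prime) (hA : A.LiesOverPrime ℓ) (f : ℕ)
    {M : Type*} [AddCommGroup M] [DistribMulAction GQ M] [Fintype M]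
    {M0 : AddSubgroup M} {ι₀ : Type*} {g : ℕ}
    (hM0 : ∀ τ ∈ A.decompositionSubgroup ℚ, ∀ x ∈ M0, τ • x ∈ M0)
    {X₀ : ι₀ → M → Fin g → Qbar}
    (h₀ : CoordData A.toSubring M0 X₀ ↥(fixRing A (gammaF A ℓ f)) ↥(gammaF A ℓ f)) :
    (∀ h ∈ stableOrder A (gammaF A ℓ f) M0 X₀, IsEquivariant (gammaF A ℓ f) h) ∧
    (Subalgebra.toSubmodule (stableOrder A (gammaF A ℓ f) M0 X₀)).FG ∧
    Submodule.span Qbar ((stableOrder A (gammaF A ℓ f) M0 X₀ :
      Subalgebra ↥(fixRing A (gammaF A ℓ f)) (M → Qbar)) : Set (M → Qbar)) = ⊤ ∧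
    (∀ τ ∈ A.decompositionSubgroup ℚ, ∀ h ∈ stableOrder A (gammaF A ℓ f) M0 X₀,
      star τ h ∈ stableOrder A (gammaF A ℓ f) M0 X₀) ∧
    (∀ h ∈ stableOrder A (gammaF A ℓ f) M0 X₀, (fun p : M × M => h (p.1 + p.2)) ∈
      Submodule.span ↥(fixRing A (gammaF A ℓ f))
        {u : M × M → Qbar | ∃ a ∈ stableOrder A (gammaF A ℓ f) M0 X₀,
          ∃ b ∈ stableOrder A (gammaF A ℓ f) M0 X₀, u = fun p => a p.1 * b p.2}) ∧
    (∀ h ∈ stableOrder A (gammaF A ℓ f) M0 X₀,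
      (fun x => h (-x)) ∈ stableOrder A (gammaF A ℓ f) M0 X₀) ∧
    (∀ h ∈ stableOrder A (gammaF A ℓ f) M0 X₀, ∀ x, h x ∈ A) ∧
    (∀ h ∈ stableOrder A (gammaF A ℓ f) M0 X₀, h 0 ∈ fixRing A (gammaF A ℓ f)) := by
  have : IsNoetherianRing ↥(fixRing A (gammaF A ℓ f)) :=
    Fermat.Agent.ES.V19.FixRingDVR16.isNoetherianRing_fixRing_gammaF hℓ hA f
  exact coordStable (gammaF_normal f) hM0 h₀

end Fermat.Agent.ES.V19.GammaNormal20
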