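/-
Programme V (S19), the formal funnel (helper20): **one chart on the kernel of reduction ⇒ the
literal of S19 / `GaloisRepAdic.IsFlatAt` for the finite Galois module `M`.**

Chain: helper11's `Assemble11.coordData_of_xi` (one chart `Ξ` on `J1`, base points `P`)
⇒ helper23's `CoordOrder23.CoordData` for `X₀ x := Ξ (inc x - P x)`
⇒ `CoordStable20` / `GammaNormal20` (the `D`-stable order `stableOrder` over `O_f`)
⇒ helper26's `DescentFinal26` (descent `O_f → ℤ_(ℓ)`) ⇒ helper2's `IsHopfOrder` and the S19 literal.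

Everything arithmetic about `Γ_f = gammaF A ℓ f` (`UnrLevel`, `O_f` is a discrete valuation ring,
normality in `D`) is already a theorem, so no such hypothesis is left.
-/
import Mathlib
import Fermat.Agent.ES.V19.Assemble11
import Fermat.Agent.ES.V19.CoordStable20
import Fermat.Agent.ES.V19.GammaNormal20
import Fermat.Agent.ES.V19.DescentFinal26

set_option autoImplicit false

noncomputable section

namespace Fermat.Agent.ES.V19.FunnelAsm20

open Fermat.Agent.ES.V19.StarAct26 Fermat.Agent.ES.V19.TraceDescent26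
  Fermat.Agent.ES.V19.CoordOrder23 Fermat.Agent.ES.V19.CoordStable20
  Fermat.Agent.ES.V19.GammaNormal20 Fermat.Agent.ES.V19.GammaF16
  Fermat.Agent.ES.V19.Assemble11 Fermat.Agent.ES.V19.DescentAsm26
  Fermat.Agent.ES.V19.DescentFinal26 Fermat.Agent.ES.V19.HopfOrderStr2

local notation "Qbar" => AlgebraicClosure ℚ
local notation "GQ" => (AlgebraicClosure ℚ ≃ₐ[ℚ] AlgebraicClosure ℚ)

/-! ### From the span form of `Δ`-closedness to the sum form -/

section Sum

variable {R Ω M : Type*} [CommRing R] [Field Ω] [Algebra R Ω]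

/-- An element of the `R`-span of the products `a(x) b(y)`, `a b ∈ H`, is a finite sum of such
products. -/
theorem exists_sum_of_span {H : Subalgebra R (M → Ω)} {u : M × M → Ω}
    (hu : u ∈ Submodule.span R
      {u : M × M → Ω | ∃ a ∈ H, ∃ b ∈ H, u = fun p => a p.1 * b p.2}) :
    ∃ (n : ℕ) (a c : Fin n → M → Ω), (∀ i, a i ∈ H) ∧ (∀ i, c i ∈ H) ∧
      ∀ x y, u (x, y) = ∑ i, a i x * c i y := by
  induction hu using Submodule.span_induction with
  | mem u hu =>
    obtain ⟨a, ha, b, hb, rfl⟩ := hu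
    exact ⟨1, fun _ => a, fun _ => b, fun _ => ha, fun _ => hb, fun x y => by simp⟩
  | zero => exact ⟨0, Fin.elim0, Fin.elim0, fun i => i.elim0, fun i => i.elim0, fun x y => by simp⟩
  | add u v _ _ hu hv =>
    obtain ⟨n, a, c, ha, hc, huac⟩ := hu
    obtain ⟨n', a', c', ha', hc', hvac⟩ := hv
    refine ⟨n + n', Fin.append a a', Fin.append c c', ?_, ?_, fun x y => ?_⟩
    · intro i
      refine Fin.addCases (fun j => ?_) (fun j => ?_) i
      · rw [Fin.append_left]; exact ha j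
      · rw [Fin.append_right]; exact ha' j
    · intro i
      refine Fin.addCases (fun j => ?_) (fun j => ?_) i
      · rw [Fin.append_left]; exact hc j
      · rw [Fin.append_right]; exact hc' j
    · rw [Pi.add_apply, huac, hvac, Fin.sum_univ_add]
      simp only [Fin.append_left, Fin.append_right]
  | smul r u _ hu =>
    obtain ⟨n, a, c, ha, hc, huac⟩ := hu
    refine ⟨n, fun i => r • a i, c, fun i => H.smul_mem (ha i) r, hc, fun x y => ?_⟩
    rw [Pi.smul_apply, huac, Finset.smul_sum]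
    refine Finset.sum_congr rfl fun i _ => ?_
    show r • (a i x * c i y) = (r • a i x) * c i y
    rw [smul_mul_assoc]

end Sum

/-! ### The funnel -/

section Funnel

variable {ℓ : ℕ} [Fact ℓ.Prime] {A : ValuationSubring Qbar}
variable {M : Type} [AddCommGroup M] [Finite M] [DistribMulAction GQ M]

/-- **(A4+) ⇒ (A2) ⇒ (A1), from `CoordData`**: one family of charts over `O_f` on the finite
Galois module `M`, with `M0` stable under the decomposition group, gives a Hopf order over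
`ℤ_(ℓ)` in `M → ℚ̄`. -/
theorem isHopfOrder_of_coordData (hA : A.LiesOverPrime ℓ) {f : ℕ} (hf : 0 < f)
    (hcont : ∀ x : M, ∃ K : IntermediateField ℚ Qbar, FiniteDimensional ℚ K ∧
      ∀ σ ∈ K.fixingSubgroup, σ • x = x)
    {M0 : AddSubgroup M} (hM0 : ∀ τ ∈ A.decompositionSubgroup ℚ, ∀ x ∈ M0, τ • x ∈ M0)
    {ι₀ : Type*} {g : ℕ} {X₀ : ι₀ → M → Fin g → Qbar}
    (h₀ : CoordData A.toSubring M0 X₀ ↥(fixRing A (gammaF A ℓ f)) ↥(gammaF A ℓ f)) :
    IsHopfOrder (fun (σ : GQ) (x : M) => σ • x)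
      (descend (denseHyp (Fact.out : ℓ.Prime) A hA).ratLoc_mem
        (stableOrder A (gammaF A ℓ f) M0 X₀)) := by
  have : Fintype M := Fintype.ofFinite M
  have hD := coordData_stab (gammaF_normal (A := A) (ℓ := ℓ) f) hM0 h₀
  obtain ⟨hequiv, hfg, -, hstab, hdelta, hanti, -, -⟩ :=
    coordStable_gammaF (Fact.out : ℓ.Prime) hA f hM0 h₀
  exact isHopfOrder_of_gammaF hA hf hcont (stableOrder A (gammaF A ℓ f) M0 X₀) hfg hequiv
    (order_separates hD) hstab (fun h hh => exists_sum_of_span (hdelta h hh)) hanti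

/-- **The funnel, `IsHopfOrder` form**: one chart `Ξ` on the kernel of reduction `J1 ⊂ J` and base
points `P` for the finite Galois submodule `inc : M → J`, rational over `O_f`, give a Hopf order
over `ℤ_(ℓ)` in `M → ℚ̄`. -/
theorem isHopfOrder_of_xi (hA : A.LiesOverPrime ℓ) {f : ℕ} (hf : 0 < f)
    (hcont : ∀ x : M, ∃ K : IntermediateField ℚ Qbar, FiniteDimensional ℚ K ∧
      ∀ σ ∈ K.fixingSubgroup, σ • x = x)
    {J : Type*} [AddCommGroup J] [DistribMulAction GQ J] {J1 : AddSubgroup J}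
    (hJ1 : ∀ τ ∈ A.decompositionSubgroup ℚ, ∀ y ∈ J1, τ • y ∈ J1)
    (inc : M →+ J) (hinc : Function.Injective inc)
    (hincG : ∀ (σ : GQ) (x : M), inc (σ • x) = σ • inc x)
    (htriv : ∀ σ ∈ gammaF A ℓ f, ∀ x : M, σ • x - x ∈ J1.comap inc)
    {g : ℕ} {Ξ : J → Fin g → Qbar}
    (hΞ : XiData A.toSubring J1 Ξ ↥(fixRing A (gammaF A ℓ f)) ↥(gammaF A ℓ f))
    {P : M → J} (hP : BaseData J1 inc P ↥(gammaF A ℓ f)) :
    IsHopfOrder (fun (σ : GQ) (x : M) => σ • x)
      (descend (denseHyp (Fact.out : ℓ.Prime) A hA).ratLoc_mem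
        (stableOrder A (gammaF A ℓ f) (J1.comap inc)
          (fun (_ : Unit) (x : M) => Ξ (inc x - P x)))) := by
  have h₀ : CoordData A.toSubring (J1.comap inc) (fun (_ : Unit) (x : M) => Ξ (inc x - P x))
      ↥(fixRing A (gammaF A ℓ f)) ↥(gammaF A ℓ f) :=
    coordData_of_xi inc (fixHyp_fixRing A (gammaF A ℓ f)) (algebraMap_mem A (gammaF A ℓ f)) hinc
      (fun σ x => hincG σ x) (fun σ x => htriv σ σ.2 x) (fun _ : Unit => Ξ) (fun _ => hΞ)
      (fun _ : Unit => P) (fun _ => hP) ⟨()⟩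
  refine isHopfOrder_of_coordData hA hf hcont (fun τ hτ x hx => ?_) h₀
  rw [AddSubgroup.mem_comap] at hx ⊢
  rw [hincG]
  exact hJ1 τ hτ _ hx

/-- **The funnel, S19 form**: the same hypotheses give the literal of S19 /
`GaloisRepAdic.IsFlatAt` for the `G_ℚ`-module `M`. -/
theorem exists_hopfAlgebra_of_xi (hA : A.LiesOverPrime ℓ) {f : ℕ} (hf : 0 < f)
    (hcont : ∀ x : M, ∃ K : IntermediateField ℚ Qbar, FiniteDimensional ℚ K ∧
      ∀ σ ∈ K.fixingSubgroup, σ • x = x)
    {J : Type*} [AddCommGroup J] [DistribMulAction GQ J] {J1 : AddSubgroup J}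
    (hJ1 : ∀ τ ∈ A.decompositionSubgroup ℚ, ∀ y ∈ J1, τ • y ∈ J1)
    (inc : M →+ J) (hinc : Function.Injective inc)
    (hincG : ∀ (σ : GQ) (x : M), inc (σ • x) = σ • inc x)
    (htriv : ∀ σ ∈ gammaF A ℓ f, ∀ x : M, σ • x - x ∈ J1.comap inc)
    {g : ℕ} {Ξ : J → Fin g → Qbar}
    (hΞ : XiData A.toSubring J1 Ξ ↥(fixRing A (gammaF A ℓ f)) ↥(gammaF A ℓ f))
    {P : M → J} (hP : BaseData J1 inc P ↥(gammaF A ℓ f)) :
    ∃ (H₀ : Type) (_ : CommRing H₀) (_ : HopfAlgebra (GaloisRep.ratLocalizedAt ℓ) H₀),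
      Module.Finite (GaloisRep.ratLocalizedAt ℓ) H₀ ∧ Module.Flat (GaloisRep.ratLocalizedAt ℓ) H₀ ∧
      Coalgebra.IsCocomm (GaloisRep.ratLocalizedAt ℓ) H₀ ∧
      ∃ e : WithConv (H₀ →ₐ[GaloisRep.ratLocalizedAt ℓ] AlgebraicClosure ℚ) ≃ M,
        (∀ f g, e (f * g) = e f + e g) ∧
        ∀ (σ : AlgebraicClosure ℚ ≃ₐ[ℚ] AlgebraicClosure ℚ)
          (f g : WithConv (H₀ →ₐ[GaloisRep.ratLocalizedAt ℓ] AlgebraicClosure ℚ)),
          (∀ h : H₀, g h = σ (f h)) → e g = σ • e f :=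
  Fermat.Agent.ES.V19.HopfOrderPts2.exists_hopfAlgebra_Zl ℓ
    (isHopfOrder_of_xi hA hf hcont hJ1 inc hinc hincG htriv hΞ hP)

end Funnel

end Fermat.Agent.ES.V19.FunnelAsm20
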