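/-
Programme V (S19 by hand, route `S19_ROUTE23.md`), chapter (B6), join step J8, helper11:
**the three (B6) hypotheses of helper20's funnel `FunnelAsm20.exists_hopfAlgebra_of_xi`, at the
`ℚ̄`-level with main's objects.**

Setting of helper21's `RedKer21` (`T` a two-chart model with coefficientwise charts, `hr`, `hgen`;
`J1 = RedKer21.J1 T hr hgen`).  Inputs: `(Da)` of (B3) at every GOOD pair, finiteness of the
non-GOOD places (helper16's (L3)), `LHyp` + Riemann for the special fibre, ONE chart of (B5) at some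
level `f₀`.  Output: one `f > 0` with `htriv`, `XiData`, `BaseData` for `Γ_f`, `fixRing A Γ_f`.
-/
import Fermat.Agent.ES.V19.ChartData11
import Fermat.Agent.ES.V19.BasePointInst11
import Fermat.Agent.ES.V19.GammaFix16
import Fermat.Agent.ES.GAL.OpenStab12

set_option autoImplicit false
set_option linter.unusedSectionVars false
set_option synthInstance.maxHeartbeats 400000

noncomputable section

open AlgebraicCurve ModularCurve

namespace Fermat.Agent.ES.V19.FunnelData11

open Fermat.Agent.X0.FF Fermat.Agent.ES.RED.Contract8 Fermat.Agent.ES.RED.TwoCharts8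
  Fermat.Agent.ES.RED.GaloisInst21 Fermat.Agent.ES.V19.DiscIface3 Fermat.Agent.ES.V19.RedKer21
  Fermat.Agent.RR.LSpace Fermat.Agent.ES.V19.GammaF16 Fermat.Agent.ES.V19.GammaLevel11
  Fermat.Agent.ES.V19.Assemble11 Fermat.Agent.ES.V19.TraceDescent26

local notation "Qb" => AlgebraicClosure ℚ

attribute [local instance 5000] HahnSeries.powerSeriesAlgebra SubalgebraClass.toAlgebra

/-- Open stabilisers on `J₀(M)(ℚ̄)` (main's `OpenStab12.hasLevel_pic0`), in the `HasLevelIn` form. -/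
theorem hasLevelIn_stabilizer (A : ValuationSubring Qb) (M : ℕ) [NeZero M] (y : JZero M) :
    HasLevelIn A (MulAction.stabilizer (Qb ≃ₐ[ℚ] Qb) y) := by
  obtain ⟨L, hL, H⟩ := Fermat.Agent.ES.GAL.OpenStab12.hasLevel_pic0 M y
  exact ⟨L, hL, fun σ _ ha => MulAction.mem_stabilizer_iff.mpr (H σ ha)⟩

variable {A : ValuationSubring Qb} {M : ℕ} [NeZero M]
  {x : ↥(laurentBaseChange Qb (modularFunctionFieldFull M))} {hx : IsGen Qb x}
  (T : TwoCharts A hx ↥(modularFunctionFieldFullC (kA A) M))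
  (hr : IsPlaceReductionAlong A (IsLocalRing.residue ↥A) M T.r)
  (hgen : PrincipalGeneratedByIntegral A (IsLocalRing.residue ↥A) M)
  [IsAlgClosed (kA A)] {xt : ↥(modularFunctionFieldFullC (kA A) M)}
  (hxt : IsGen (kA A) xt)
  (h0 : CoeffChart (F₀ := modularFunctionFieldFull M) T.S0)
  (h1 : CoeffChart (F₀ := modularFunctionFieldFull M) T.S1)

include hxt h0 h1 in
/-- **(B6) exit at the `ℚ̄`-level: one level `f` for `htriv`, the chart and the base points.** -/
theorem exists_funnel_data {ℓ : ℕ} (hℓ : ℓ.Prime) (hA : A.LiesOverPrime ℓ)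
    (hDa : ∀ (Q : Place (kA A) ↥(modularFunctionFieldFullC (kA A) M)) (c : ↥A),
      Good T Q c → Da T Q c)
    (hbad : {Q : Place (kA A) ↥(modularFunctionFieldFullC (kA A) M) |
      ¬ ∃ c : ↥A, Good T Q c}.Finite)
    (HL : LHyp (kA A) ↥(modularFunctionFieldFullC (kA A) M))
    (hR : ∃ γ : ℤ, ∀ D : Divisor (kA A) ↥(modularFunctionFieldFullC (kA A) M),
      Divisor.degree D + 1 - γ ≤ (Module.finrank (kA A) (riemannRochSpace D) : ℤ))
    [Infinite (kA A)] [Infinite (Place (kA A) ↥(modularFunctionFieldFullC (kA A) M))]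
    {Mod : Type*} [AddCommGroup Mod] [DistribMulAction (Qb ≃ₐ[ℚ] Qb) Mod] [Finite Mod]
    (inc : Mod →+ JZero M) (hincG : ∀ (σ : Qb ≃ₐ[ℚ] Qb) (y : Mod), inc (σ • y) = σ • inc y)
    {g : ℕ} (hxi : ∃ f₀, 0 < f₀ ∧ ∃ Ξ : JZero M → Fin g → Qb,
      XiData A.toSubring (J1 T hr hgen) Ξ ↥(fixRing A (gammaF A ℓ f₀)) ↥(gammaF A ℓ f₀)) :
    ∃ f, 0 < f ∧
      (∀ σ ∈ gammaF A ℓ f, ∀ y : Mod, σ • y - y ∈ (J1 T hr hgen).comap inc) ∧
      ∃ (Ξ : JZero M → Fin g → Qb) (P : Mod → JZero M),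
        XiData A.toSubring (J1 T hr hgen) Ξ ↥(fixRing A (gammaF A ℓ f)) ↥(gammaF A ℓ f) ∧
        BaseData (J1 T hr hgen) inc P ↥(gammaF A ℓ f) :=
  ChartData11.exists_chart_data hℓ hA
    (fun y hy => GammaFix16.exists_gammaF_fixes hℓ hA y hy)
    (hasLevelIn_stabilizer A M) (J1 T hr hgen)
    (fun _ hσ _ hy => smul_mem_J1 T hr hgen hxt h0 h1 hσ hy)
    (fun _ hσ y => smul_sub_mem_J1_of_mem_inertia T hr hgen hxt h0 h1 hσ y)
    inc hincG
    (fun y => BasePointInst11.exists_fixed_base_point T hxt h0 h1 hr hgen hℓ hA hDa hbad HL hR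
      (inc y))
    hxi

end Fermat.Agent.ES.V19.FunnelData11
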