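/-
Programme V (S19), chapter B2 (helper13): **the hypotheses of the elementary curve theory
(`RR.LSpace.LHyp`) and Riemann's inequality on the SPECIAL FIBRE, in characteristic `ℓ`.**

Carrier (fixed by main, Program I): `F̃ = modularFunctionFieldFullC k N` over `k`, the target of a place
reduction `r` in the sense of the Prelude (`IsPlaceReductionAlong A π N r`: `(r P).deg = P.deg` and
`div(ȳ) = r_* div(y)` for every `A`-integral `q`-expansion `y` with `ȳ ≠ 0`).

* `principal_of_reduction` : principal divisors of `F̃` have degree zero — for EVERY `f ≠ 0`, with no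
  separability of `F̃ / k(f)`: write `f = ā / b̄` with `a, b` integral (`hfrac`), then
  `div f = r_*(div a - div b)`, `r_*` preserves degrees, and `deg div = 0` in characteristic zero.
* `lHyp_of_reduction` : `LHyp k F̃` (`residue`, `deg_eq_one` from `X0/FFConst`, characteristic free;
  `nonempty` from a pole of a separating generator).
* `riemann_inequality_of_reduction` : Riemann's inequality for `F̃` (one separating generator).
* `finite_H1`, `finrank_L_sub_finrank_H1`, `exists_forall_degree_ge_finrank_H1_eq_zero`,
  `exists_forall_degree_ge_finrank_L_eq` : the consequences (helper8's `LHyp`-only copies of `RR`).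
* `Concrete`: the instance at level `M` (`ℓ ∤ M`, Hauptmodul datum `(n, e)`), `k = ResidueField A`:
  `lHyp_Ft`, `riemann_inequality_Ft` from any `r` with `IsPlaceReductionModL A M r`
  (`RedInst15.isPlaceReductionModL_main`), `FracRed16.exists_frac_red`, `SpecialGen25.isGen_tRes`,
  `isSeparable_tRes`, and `LHypGen.lHyp_of_isGen (FbarFacts20.isGen_j M)` in characteristic zero.
-/
import Mathlib
import Fermat.Prelude.Def_ModularCurve_ReductionModL
import Fermat.Agent.RR.LSpace
import Fermat.Agent.RR.Riemann
import Fermat.Agent.RR.LHypGen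
import Fermat.Agent.ES.RED.SumOrdSep15
import Fermat.Agent.ES.RED.SpecialGen25
import Fermat.Agent.ES.RED.FracRed16
import Fermat.Agent.ES.RED.RedMem16
import Fermat.Agent.RED.TOP.FbarFacts20
import Fermat.Agent.ES.KRON.KronInst10
import Fermat.Agent.ES.V19.H1FiniteL8
import Fermat.Agent.ES.V19.H1LargeL8

set_option autoImplicit false
set_option linter.unusedSectionVars false
set_option linter.style.haveILetI false

open AlgebraicCurve ModularCurve HahnSeries IntermediateField

noncomputable section

namespace Fermat.Agent.ES.V19.LHypFt13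

open Fermat.Agent.X0 Fermat.Agent.X0.FF Fermat.Agent.RR.LSpace

/-! ### Abstract form: a place reduction in the sense of the Prelude -/

section Abstract

variable {L : Type*} [Field L] [Algebra ℚ L] {A : ValuationSubring L}
variable {k : Type*} [Field k] {π : A →+* k} {N : ℕ}
variable {r : Place L (laurentBaseChange L (modularFunctionFieldFull N)) →
  Place k (modularFunctionFieldFullC k N)}

/-- **Every element of the special fibre is a fraction of reductions of integral `q`-expansions.** -/
def FracRed (A : ValuationSubring L) (π : A →+* k) (N : ℕ) : Prop :=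
  ∀ y : LaurentSeries k, y ∈ modularFunctionFieldFullC k N →
    ∃ Ya Yb : LaurentSeries A,
      coeffMap A.subtype Ya ∈ laurentBaseChange L (modularFunctionFieldFull N) ∧
      coeffMap A.subtype Yb ∈ laurentBaseChange L (modularFunctionFieldFull N) ∧
      coeffMap π Ya ∈ modularFunctionFieldFullC k N ∧
      coeffMap π Yb ∈ modularFunctionFieldFullC k N ∧
      coeffMap π Yb ≠ 0 ∧ y * coeffMap π Yb = coeffMap π Ya

/-- The divisor of the reduction of an integral series with nonzero reduction:
`r_*` of the divisor in characteristic zero; it has degree zero. -/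
theorem exists_divisor_of_integral (hr : IsPlaceReductionAlong A π N r)
    (HL : LHyp L (laurentBaseChange L (modularFunctionFieldFull N)))
    (Y : LaurentSeries A)
    (hY : coeffMap A.subtype Y ∈ laurentBaseChange L (modularFunctionFieldFull N))
    (hYk : coeffMap π Y ∈ modularFunctionFieldFullC k N) (hne : coeffMap π Y ≠ 0) :
    ∃ D : Divisor k (modularFunctionFieldFullC k N),
      (∀ Q, D Q = Q.ord (⟨coeffMap π Y, hYk⟩ : modularFunctionFieldFullC k N)) ∧
        Divisor.degree D = 0 := by
  have hY0 : (⟨coeffMap A.subtype Y, hY⟩ :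
      laurentBaseChange L (modularFunctionFieldFull N)) ≠ 0 := by
    intro h0
    apply hne
    have h1 : coeffMap A.subtype Y = 0 := congrArg Subtype.val h0
    have h2 : Y = 0 := by
      ext n
      have h3 := congrArg (fun z : LaurentSeries L => z.coeff n) h1
      simp only [coeffMap_coeff, HahnSeries.coeff_zero] at h3
      have h4 : Y.coeff n = 0 := by simpa using h3
      simpa using h4
    rw [h2, map_zero]
  refine ⟨Finsupp.mapDomain r (divOf HL hY0), fun Q => ?_, ?_⟩
  · exact hr.2 Y hY hYk hne (divOf HL hY0) (fun P => divOf_apply HL hY0 P) Q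
  · rw [degree_mapDomain_of_deg_eq hr.1, degree_divOf]

/-- **Principal divisors of the special fibre** exist and have degree zero — no separability. -/
theorem principal_of_reduction (hr : IsPlaceReductionAlong A π N r)
    (HL : LHyp L (laurentBaseChange L (modularFunctionFieldFull N)))
    (hfrac : FracRed A π N)
    (f : modularFunctionFieldFullC k N) (hf : f ≠ 0) :
    ∃ D : Divisor k (modularFunctionFieldFullC k N),
      (∀ v : Place k (modularFunctionFieldFullC k N), D v = v.ord f) ∧ Divisor.degree D = 0 := by
  obtain ⟨Ya, Yb, ha, hb, hak, hbk, hb0, hab⟩ := hfrac (f : LaurentSeries k) f.2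
  have hf0 : (f : LaurentSeries k) ≠ 0 := fun h => hf (Subtype.ext h)
  have ha0 : coeffMap π Ya ≠ 0 := by
    rw [← hab]
    exact mul_ne_zero hf0 hb0
  obtain ⟨Da, hDa, hdega⟩ := exists_divisor_of_integral hr HL Ya ha hak ha0
  obtain ⟨Db, hDb, hdegb⟩ := exists_divisor_of_integral hr HL Yb hb hbk hb0
  refine ⟨Da - Db, fun v => ?_, by rw [map_sub, hdega, hdegb, sub_zero]⟩
  have hb0' : (⟨coeffMap π Yb, hbk⟩ : modularFunctionFieldFullC k N) ≠ 0 :=
    fun h => hb0 (congrArg Subtype.val h)
  have hmul : f * (⟨coeffMap π Yb, hbk⟩ : modularFunctionFieldFullC k N) =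
      ⟨coeffMap π Ya, hak⟩ := Subtype.ext hab
  have := v.ord_mul hf hb0'
  rw [hmul] at this
  rw [Finsupp.sub_apply, hDa, hDb, this]
  ring

variable [IsAlgClosed k] {x : modularFunctionFieldFullC k N}

/-- A function field with a separating generator has a place (a pole of the generator);
characteristic free. -/
theorem nonempty_place_sep (hx : IsGen k x)
    [Algebra.IsSeparable k⟮x⟯ (modularFunctionFieldFullC k N)] :
    Nonempty (Place k (modularFunctionFieldFullC k N)) := by
  by_contra hne
  rw [not_nonempty_iff] at hne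
  have h := Fermat.Agent.ES.RED.SumOrdSep15.sum_ord_poles_sep hx
  have h0 : ∑ᶠ (v : Place k (modularFunctionFieldFullC k N)) (_ : v.ord x < 0), -v.ord x = 0 := by
    rw [finsum_of_isEmpty]
  rw [h0] at h
  haveI := hx.finiteDimensional
  have hpos : 0 < Module.finrank k⟮x⟯ (modularFunctionFieldFullC k N) := Module.finrank_pos
  omega

/-- **`LHyp` for the special fibre.** -/
theorem lHyp_of_reduction (hr : IsPlaceReductionAlong A π N r)
    (HL : LHyp L (laurentBaseChange L (modularFunctionFieldFull N)))
    (hfrac : FracRed A π N) (hx : IsGen k x)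
    [Algebra.IsSeparable k⟮x⟯ (modularFunctionFieldFullC k N)] :
    LHyp k (modularFunctionFieldFullC k N) where
  residue := fun v _ hf => Fermat.Agent.X0.FF.exists_ord_sub_pos hx v hf
  deg_eq_one := fun v => Fermat.Agent.X0.FF.deg_eq_one hx v
  principal := principal_of_reduction hr HL hfrac
  nonempty := nonempty_place_sep hx

/-- **Riemann's inequality on the special fibre.** -/
theorem riemann_inequality_of_reduction (hr : IsPlaceReductionAlong A π N r)
    (HL : LHyp L (laurentBaseChange L (modularFunctionFieldFull N)))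
    (hfrac : FracRed A π N) (hx : IsGen k x)
    [Algebra.IsSeparable k⟮x⟯ (modularFunctionFieldFullC k N)] :
    ∃ γ : ℤ, ∀ D : Divisor k (modularFunctionFieldFullC k N),
      Divisor.degree D + 1 - γ ≤ (Module.finrank k (riemannRochSpace D) : ℤ) :=
  haveI := hx.finiteDimensional
  Fermat.Agent.RR.Riemann.riemann_inequality' (lHyp_of_reduction hr HL hfrac hx) hx.transcendental
    (Fermat.Agent.ES.RED.SumOrdSep15.sum_ord_poles_sep hx)

end Abstract

/-! ### Consequences for any function field with `LHyp` and Riemann's inequality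
(restatements of helper8's `LHyp`-only copies, so that one module can be cited) -/

section Consequences

variable {K F : Type*} [Field K] [Field F] [Algebra K F] (HL : LHyp K F)
  (hR : ∃ γ : ℤ, ∀ D : Divisor K F,
    Divisor.degree D + 1 - γ ≤ (Module.finrank K (riemannRochSpace D) : ℤ))

include HL hR

/-- `H¹(D)` is finite-dimensional. -/
theorem finite_H1 (D : Divisor K F) : Module.Finite K (H1 D) :=
  Fermat.Agent.ES.V19.H1FiniteL8.finite_H1 HL hR D

/-- Riemann's theorem: `l(D) - h¹(D) = deg D + 1 - g`. -/
theorem finrank_L_sub_finrank_H1 (D : Divisor K F) :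
    (Module.finrank K (riemannRochSpace D) : ℤ) - (Module.finrank K (H1 D) : ℤ) =
      Divisor.degree D + 1 - (genusFF K F : ℤ) :=
  Fermat.Agent.ES.V19.H1FiniteL8.finrank_L_sub_finrank_H1 HL hR D

/-- `H¹(D) = 0` in large degree. -/
theorem exists_forall_degree_ge_finrank_H1_eq_zero :
    ∃ c : ℤ, ∀ D : Divisor K F, c ≤ Divisor.degree D → Module.finrank K (H1 D) = 0 :=
  Fermat.Agent.ES.V19.H1LargeL8.exists_forall_degree_ge_finrank_H1_eq_zero HL hR

/-- `l(D) = deg D + 1 - g` in large degree. -/
theorem exists_forall_degree_ge_finrank_L_eq :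
    ∃ c : ℤ, ∀ D : Divisor K F, c ≤ Divisor.degree D →
      (Module.finrank K (riemannRochSpace D) : ℤ) = Divisor.degree D + 1 - (genusFF K F : ℤ) :=
  Fermat.Agent.ES.V19.H1LargeL8.exists_forall_degree_ge_finrank_L_eq HL hR

end Consequences

/-! ### The concrete special fibre at level `M`, `ℓ ∤ M`, with a Hauptmodul datum `(n, e)` -/

section Concrete

open Fermat.Agent.RED.Interface4 Fermat.Agent.RED.BASE Fermat.Agent.RED.TOP
open Fermat.Agent.ES.RED.SpecialGen25

variable (n e M : ℕ) [NeZero n] [NeZero M] (ℓ : ℕ) [Fact ℓ.Prime] (hℓM : ¬ ℓ ∣ M)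
  (hmem : Interface12.TMem n e M) (hgen : Interface12.TGenBase n e)
  (A : ValuationSubring Qbar) (hA : A.LiesOverPrime ℓ)

include hℓM hmem hgen hA

/-- `FracRed` at level `M`: `FracRed16.exists_frac_red`. -/
theorem fracRed_Ft : FracRed A (IsLocalRing.residue ↥A) M := by
  intro y hy
  obtain ⟨Ya, Yb, ha, hb, -, -, hb0, hab⟩ :=
    Fermat.Agent.ES.RED.FracRed16.exists_frac_red A n e ℓ hℓM hmem hgen hA hy
  have hbk : coeffMap (IsLocalRing.residue ↥A) Yb ∈
      modularFunctionFieldFullC (IsLocalRing.ResidueField ↥A) M :=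
    Fermat.Agent.ES.RED.RedMem16.coeffMap_residue_mem_fullC A ℓ hA hℓM Yb hb
  exact ⟨Ya, Yb, ha, hb, hab ▸ mul_mem hy hbk, hbk, hb0, hab⟩

variable {r : Place Qbar (modularFunctionFieldBar M) →
  Place (IsLocalRing.ResidueField ↥A) (modularFunctionFieldFullC (IsLocalRing.ResidueField ↥A) M)}

/-- **`LHyp` for the special fibre `F̃_M / k`, `k = ResidueField A`.** -/
theorem lHyp_Ft (hr : IsPlaceReductionModL A M r) :
    LHyp (IsLocalRing.ResidueField ↥A)
      (modularFunctionFieldFullC (IsLocalRing.ResidueField ↥A) M) :=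
  haveI : IsAlgClosed (IsLocalRing.ResidueField ↥A) :=
    Fermat.Agent.ES.KRON.KronInst10.isAlgClosed_residueField A
  haveI := isSeparable_tRes n e M ℓ hℓM hmem hgen A hA
  lHyp_of_reduction hr (Fermat.Agent.RR.LHypGen.lHyp_of_isGen (FbarFacts20.isGen_j M))
    (fracRed_Ft n e M ℓ hℓM hmem hgen A hA) (isGen_tRes n e M ℓ hℓM hmem hgen A hA)

/-- **Riemann's inequality for the special fibre `F̃_M / k`.** -/
theorem riemann_inequality_Ft (hr : IsPlaceReductionModL A M r) :
    ∃ γ : ℤ, ∀ D : Divisor (IsLocalRing.ResidueField ↥A)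
        (modularFunctionFieldFullC (IsLocalRing.ResidueField ↥A) M),
      Divisor.degree D + 1 - γ ≤
        (Module.finrank (IsLocalRing.ResidueField ↥A) (riemannRochSpace D) : ℤ) :=
  haveI : IsAlgClosed (IsLocalRing.ResidueField ↥A) :=
    Fermat.Agent.ES.KRON.KronInst10.isAlgClosed_residueField A
  haveI := isSeparable_tRes n e M ℓ hℓM hmem hgen A hA
  riemann_inequality_of_reduction hr
    (Fermat.Agent.RR.LHypGen.lHyp_of_isGen (FbarFacts20.isGen_j M))
    (fracRed_Ft n e M ℓ hℓM hmem hgen A hA) (isGen_tRes n e M ℓ hℓM hmem hgen A hA)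

end Concrete

end Fermat.Agent.ES.V19.LHypFt13
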