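/-
Programme V (S19), chapter B1 (helper12): **the dimension count** `g ≤ g̃`.

Two function fields `F / K`, `Ft / k` with `LHyp` and Riemann's inequality (helper8/helper13's
characteristic-free chain, `LHypFt13`), divisors `D` on `F` and `Dt` on `Ft` of the SAME positive
degree.  If `l(n • Dt) ≤ l(n • D)` for all large `n`, then `genusFF K F ≤ genusFF k Ft`
(Riemann's theorem in large degree on both sides: `l = n d + 1 - g`).
-/
import Mathlib
import Fermat.Agent.ES.V19.LHypFt13

set_option autoImplicit false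

open AlgebraicCurve

namespace Fermat.Agent.ES.V19.GenusCount12

open Fermat.Agent.RR.LSpace

variable {K F k Ft : Type*} [Field K] [Field F] [Algebra K F] [Field k] [Field Ft] [Algebra k Ft]

theorem genusFF_le_of_finrank_le (HL : LHyp K F)
    (hR : ∃ γ : ℤ, ∀ D : Divisor K F,
      Divisor.degree D + 1 - γ ≤ (Module.finrank K (riemannRochSpace D) : ℤ))
    (HLt : LHyp k Ft)
    (hRt : ∃ γ : ℤ, ∀ D : Divisor k Ft,
      Divisor.degree D + 1 - γ ≤ (Module.finrank k (riemannRochSpace D) : ℤ))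
    (D : Divisor K F) (Dt : Divisor k Ft) (d : ℤ) (hd : 0 < d)
    (hD : Divisor.degree D = d) (hDt : Divisor.degree Dt = d)
    (n₀ : ℕ)
    (hle : ∀ n : ℕ, n₀ ≤ n →
      Module.finrank k (riemannRochSpace (n • Dt)) ≤ Module.finrank K (riemannRochSpace (n • D))) :
    genusFF K F ≤ genusFF k Ft := by
  obtain ⟨c, hc⟩ := Fermat.Agent.ES.V19.LHypFt13.exists_forall_degree_ge_finrank_L_eq HL hR
  obtain ⟨ct, hct⟩ := Fermat.Agent.ES.V19.LHypFt13.exists_forall_degree_ge_finrank_L_eq HLt hRt
  -- a large `n`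
  set n : ℕ := n₀ + (max c ct).toNat with hn
  have hn₀ : n₀ ≤ n := Nat.le_add_right _ _
  have hbig : max c ct ≤ (n : ℤ) * d := by
    have h1 : max c ct ≤ ((max c ct).toNat : ℤ) := Int.self_le_toNat _
    have h2 : ((max c ct).toNat : ℤ) ≤ (n : ℤ) := by
      rw [hn]; push_cast; linarith [Int.natCast_nonneg n₀]
    have h3 : (n : ℤ) ≤ (n : ℤ) * d := by
      have : (0 : ℤ) ≤ n := Int.natCast_nonneg n
      nlinarith
    linarith
  have hdegD : Divisor.degree (n • D) = (n : ℤ) * d := by
    rw [map_nsmul, hD, nsmul_eq_mul]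
  have hdegDt : Divisor.degree (n • Dt) = (n : ℤ) * d := by
    rw [map_nsmul, hDt, nsmul_eq_mul]
  have e1 := hc (n • D) (by rw [hdegD]; exact (le_max_left _ _).trans hbig)
  have e2 := hct (n • Dt) (by rw [hdegDt]; exact (le_max_right _ _).trans hbig)
  have e3 : (Module.finrank k (riemannRochSpace (n • Dt)) : ℤ) ≤
      (Module.finrank K (riemannRochSpace (n • D)) : ℤ) := by exact_mod_cast hle n hn₀
  rw [e1, e2, hdegD, hdegDt] at e3
  have : (genusFF K F : ℤ) ≤ (genusFF k Ft : ℤ) := by linarith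
  exact_mod_cast this

end Fermat.Agent.ES.V19.GenusCount12
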