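/-
Programme V (S19), chapter B1 (helper12): **`g ≤ g̃` from the level inputs.**

`LevelInputs` : at SOME number field `K` with `tK : FK M K`, `bc tK = tF M hmem`: the four leaves
(I1) `FGProp`, (I2) `KerProp`, (I3) `SurjProp`, (I3') `Reg01Prop` of `CechIface12` and the inclusions
`M0, M1 n ≤ M01`.

`genusFF_le_of_levelInputs` : `LevelInputs` ⟹ `genusFF ℚ̄ (Fbar M) ≤ genusFF k̄ F̃`, by
`CechLiftAsm12.finrank_L_le` (lifting), `CechTw13` (pole divisors on both fibres, injective half of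
the twisted Čech comparison), `CechLarge13` (`H1 (n • D̄∞) = 0` for `n ≫ 0`), `LHypFt13` (Riemann on
the special fibre), `SpecialInv25.finrank_tRes_eq_degT` (equal degrees) and `GenusCount12`.
-/
import Mathlib
import Fermat.Agent.ES.V19.CechLiftAsm12
import Fermat.Agent.ES.V19.GenusCount12
import Fermat.Agent.ES.V19.CechTw13
import Fermat.Agent.ES.V19.CechLarge13
import Fermat.Agent.ES.V19.LHypFt13
import Fermat.Agent.ES.RED.RedInst15
import Fermat.Agent.ES.RED.ChartInst1

set_option autoImplicit false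
set_option synthInstance.maxHeartbeats 400000
set_option linter.unusedSectionVars false
set_option linter.style.haveILetI false

open AlgebraicCurve ModularCurve IntermediateField

noncomputable section

namespace Fermat.Agent.ES.V19.GenusLeCore12

open Fermat.Agent.RED.Interface4 Fermat.Agent.RED.DESC.PlaceExtend27
  Fermat.Agent.RED.PUR.ChartGeneric22 Fermat.Agent.ES.RED.ChartIntegralA1
  Fermat.Agent.ES.V19.CechIface12 Fermat.Agent.RR.LSpace Fermat.Agent.RED.BASE
  Fermat.Agent.ES.RED.SpecialGen25 Fermat.Agent.ES.RED.SpecialInv25 Fermat.Agent.X0.FF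

variable (n e M : ℕ) [NeZero n] [NeZero M] (ℓ : ℕ) [Fact ℓ.Prime] (hℓM : ¬ ℓ ∣ M)
  (hmem : Interface12.TMem n e M) (hgen : Interface12.TGenBase n e)
  (A : ValuationSubring Qbar) (hA : A.LiesOverPrime ℓ)

/-- **The level inputs of B1** (the four leaves of `CechIface12` at one number field). -/
def LevelInputs : Prop :=
  ∃ (K : IntermediateField ℚ Qbar) (tK : ↥(FK M K)),
    baseChangeHom M K tK = Interface12.tF M hmem ∧
    FGProp A M K tK ∧ M0 A M K tK ≤ M01 A M K tK ∧ (∀ m : ℕ, M1 A M K tK m ≤ M01 A M K tK) ∧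
    KerProp A M K tK ℓ hA hℓM ∧
    SurjProp A M K tK ℓ hA hℓM (tRes n e M ℓ hℓM hmem hgen A hA) ∧
    Reg01Prop A M K tK ℓ hA hℓM (tRes n e M ℓ hℓM hmem hgen A hA)

/-- the reduction of the Hauptmodul is `t̃`. -/
theorem redF_tF :
    redF A M ℓ hA hℓM ⟨Interface12.tF M hmem, Fermat.Agent.ES.RED.ChartInst1.tF_mem_intF A M hmem⟩ =
      tRes n e M ℓ hℓM hmem hgen A hA := by
  apply Subtype.ext
  rw [coe_redF_eq_of ℓ hA hℓM (Y := Fermat.Agent.RED.BASE.EtaQuot12.tq ↥A n e)
    (Fermat.Agent.RED.BASE.EtaQuot12.coeffMap_tq _ _ n e), coe_tRes_eq]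

set_option maxHeartbeats 1600000 in
/-- **`g ≤ g̃`** from the level inputs and a place reduction. -/
theorem genusFF_le_of_levelInputs
    {r : Place Qbar (modularFunctionFieldBar M) →
      Place (IsLocalRing.ResidueField ↥A)
        (modularFunctionFieldFullC (IsLocalRing.ResidueField ↥A) M)}
    (hr : IsPlaceReductionModL A M r)
    (hin : LevelInputs n e M ℓ hℓM hmem hgen A hA) :
    genusFF Qbar ↥(Fbar M) ≤
      genusFF (kA A) ↥(modularFunctionFieldFullC (kA A) M) := by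
  obtain ⟨K, tK, htK, hFG, h0, h1, hKer, hSurj, hReg⟩ := hin
  haveI : IsAlgClosed (kA A) := Fermat.Agent.ES.KRON.KronInst10.isAlgClosed_residueField A
  haveI := isSeparable_tRes n e M ℓ hℓM hmem hgen A hA
  -- the two curves
  have hxt : IsGen Qbar (Interface12.tF M hmem) := isGen_tF n e M hmem
  have hxtt : IsGen (kA A) (tRes n e M ℓ hℓM hmem hgen A hA) :=
    isGen_tRes n e M ℓ hℓM hmem hgen A hA
  have HL : LHyp Qbar ↥(Fbar M) :=
    Fermat.Agent.RR.LHypGen.lHyp_of_isGen (Fermat.Agent.RED.TOP.FbarFacts20.isGen_j M)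
  haveI := hxt.finiteDimensional
  haveI := hxtt.finiteDimensional
  have hR : ∃ γ : ℤ, ∀ D : Divisor Qbar ↥(Fbar M),
      Divisor.degree D + 1 - γ ≤ (Module.finrank Qbar (riemannRochSpace D) : ℤ) :=
    Fermat.Agent.RR.Riemann.riemann_inequality' HL hxt.transcendental (sum_ord_poles hxt)
  have HLt : LHyp (kA A) ↥(modularFunctionFieldFullC (kA A) M) :=
    Fermat.Agent.ES.V19.LHypFt13.lHyp_Ft n e M ℓ hℓM hmem hgen A hA hr
  have hRt := Fermat.Agent.ES.V19.LHypFt13.riemann_inequality_Ft n e M ℓ hℓM hmem hgen A hA hr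
  -- pole divisors
  obtain ⟨D, hD, -⟩ := Fermat.Agent.ES.V19.CechTw13.exists_poleDivisor_char0 HL hxt
  obtain ⟨Dt, hDt, hDtI⟩ := Fermat.Agent.ES.V19.CechTw13.exists_poleDivisor_sep HLt hxtt
  have hdegD : Divisor.degree D = (degT n e M hmem : ℤ) := hD.1
  have hdegDt : Divisor.degree Dt = (degT n e M hmem : ℤ) := by
    rw [hDt.1, finrank_tRes_eq_degT]
  have hdpos : (0 : ℤ) < (degT n e M hmem : ℤ) := by
    have : 0 < degT n e M hmem := Module.finrank_pos
    exact Int.natCast_pos.mpr this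
  -- vanishing of `H1` in large degree
  obtain ⟨n₀, hn₀⟩ := Fermat.Agent.ES.V19.CechLarge13.exists_forall_ge_subsingleton_H1 HLt hRt
    (D := Dt) (by rw [hdegDt]; exact hdpos)
  -- the reduction of `t`
  have htK0 : tK ≠ 0 := by
    intro h0'
    rw [h0', map_zero] at htK
    exact hxt.ne_zero htK.symm
  have ht : ∃ h : baseChangeHom M K tK ∈ intF A M,
      redF A M ℓ hA hℓM ⟨_, h⟩ = tRes n e M ℓ hℓM hmem hgen A hA := by
    rw [htK]
    exact ⟨_, redF_tF n e M ℓ hℓM hmem hgen A hA⟩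
  have hD' : HasPoleDivisor (baseChangeHom M K tK) D := by rw [htK]; exact hD
  refine Fermat.Agent.ES.V19.GenusCount12.genusFF_le_of_finrank_le HL hR HLt hRt D Dt
    (degT n e M hmem : ℤ) hdpos hdegD hdegDt n₀ fun m hm => ?_
  exact Fermat.Agent.ES.V19.CechLiftAsm12.finrank_L_le A M ℓ hA hℓM K tK
    (tRes n e M ℓ hℓM hmem hgen A hA) htK0 hxtt.ne_zero ht hFG h0 h1 hKer hSurj hReg HL D hD'
    HLt Dt hDt hDtI m (hn₀ m hm)

end Fermat.Agent.ES.V19.GenusLeCore12
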