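/-
Programme V (S19), chapter B1 (`g ≤ g̃`), glue, helper24: **the finite-level data**.

`ES/RED/ModelExplicit26.explicitModelStep_of_targets` (main) only exports the two-chart model at the
number-field levels `K ⊇ K₀`.  The special-fibre lemmas (`ES/RED/FibreSurj17`, helper17's (β)) need
the hypotheses from which the model was assembled: `(DEG)`, `(IRR)`, transcendence of `t̃`,
`[E : K(t)] ≠ 0` and the smoothness of both charts.  `levelHyps` reruns the proof of
`explicitModelStep_of_targets` and exports everything; `exists_levelHyps` discharges the targets as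
`ModelInstLevels4.modelAt` does.
-/
import Mathlib
import Fermat.Agent.ES.RED.ModelExplicit26
import Fermat.Agent.ES.RED.ModelInstLevels4
import Fermat.Agent.ES.RED.BaseCases3

set_option autoImplicit false
set_option linter.unusedSectionVars false
set_option synthInstance.maxHeartbeats 400000
set_option maxHeartbeats 1000000

open HahnSeries ModularCurve IntermediateField
open scoped MatrixGroups

noncomputable section

namespace Fermat.Agent.ES.V19.LevelK24

open Fermat.Agent.RED.CORE.CoreIface24 Fermat.Agent.RED.PUR.GaussGen8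
  Fermat.Agent.RED.PUR.KtGauss8 Fermat.Agent.RED.PUR.G1Package8
  Fermat.Agent.RED.PUR.ChartGeneric22 Fermat.Agent.RED.NumInst4
  Fermat.Agent.RED.ModelAsm4 Fermat.Agent.RED.ModelIface4
  Fermat.Agent.RED.Interface4 Fermat.Agent.RED.ModelTargets4
  Fermat.Agent.RED.BASE.EtaQuot12 Fermat.Agent.X0
  Fermat.Agent.RED.NumMain4 Fermat.Agent.RED.DESC.NumberFieldDVR27 Fermat.Agent.RED.ModelMain4

variable {n e M : ℕ} [NeZero n] [NeZero M] {A : ValuationSubring Qbar}

/-- **The finite-level hypotheses** at `(AK A K, FK M K, ϖ, t)`: the inputs of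
`ModelExplicit26.twoChartModel_of_g1` and of `FibreSurj17`. -/
structure LevelHyps (A : ValuationSubring Qbar) (M : ℕ) [NeZero M] (K : IntermediateField ℚ Qbar)
    [IsDiscreteValuationRing ↥(AK A K)] (ϖ : ↥(AK A K)) (t : ↥(FK M K)) : Prop where
  irr : Irreducible ϖ
  hE : FK M K ≤ fracField (AK A K)
  ht : (t : LaurentSeries K) ∈ gaussRing (AK A K)
  htr : Transcendental (Res (AK A K)) (gaussRed (AK A K) ⟨(t : LaurentSeries K), ht⟩)
  hdeg : ∃ nn : ℕ, relfinrank (Kt (AK A K) ⟨(t : LaurentSeries K), ht⟩) (FK M K) ≠ 0 ∧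
    DegLe (AK A K) (FK M K) ⟨(t : LaurentSeries K), ht⟩ nn ∧
    Irr (AK A K) (FK M K) ⟨(t : LaurentSeries K), ht⟩ nn
  hsm0 : SmoothChart (AK A K) (FK M K) ϖ t
  hsm1 : SmoothChart (AK A K) (FK M K) ϖ t⁻¹
  finRes : Finite (Res (AK A K))
  charRes : ∃ ℓ : ℕ, ℓ.Prime ∧ ¬ ℓ ∣ M ∧ CharP (Res (AK A K)) ℓ

/-- The two-chart model from the finite-level hypotheses. -/
theorem LevelHyps.model {K : IntermediateField ℚ Qbar} [IsDiscreteValuationRing ↥(AK A K)]
    {ϖ : ↥(AK A K)} {t : ↥(FK M K)} (h : LevelHyps A M K ϖ t) :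
    TwoChartModel ↥(AK A K) K ↥(FK M K) ϖ t (chart ↥(AK A K) t) (chart ↥(AK A K) t⁻¹)
      (OvE (AK A K) h.irr (FK M K) h.hE) := by
  obtain ⟨nn, hn, hdeg, hirr⟩ := h.hdeg
  exact Fermat.Agent.ES.RED.ModelExplicit26.twoChartModel_of_g1 h.irr h.hE t h.ht h.htr hn hdeg hirr
    h.hsm0 h.hsm1

/-- **The finite-level hypotheses over all large number fields**, from the five targets
(the proof of `ModelExplicit26.explicitModelStep_of_targets` with everything exported). -/
theorem levelHyps {ℓ : ℕ} [Fact ℓ.Prime] (hℓM : ¬ ℓ ∣ M)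
    (hA : A.LiesOverPrime ℓ) (cv : SL(2, ℤ) → Option Kbar)
    (hT : TTarget n e M) (hJ : JTarget n e) (hoff : OffTarget n e M A cv)
    (hover : OverTarget n e M A cv) (hinf : InfTarget n e M A) :
    ∃ K₀ : IntermediateField ℚ Qbar, FiniteDimensional ℚ K₀ ∧
      ∀ K : IntermediateField ℚ Qbar, FiniteDimensional ℚ K → K₀ ≤ K →
        ∃ _ : IsDiscreteValuationRing ↥(AK A K),
        ∀ (ϖ : ↥(AK A K)) (_ : Irreducible ϖ) (t : ↥(FK M K)),
          (t : LaurentSeries K) = tq K n e → LevelHyps A M K ϖ t := by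
  have hℓ : ℓ.Prime := Fact.out
  obtain ⟨K₁, hK₁, hT⟩ := hT
  obtain ⟨K₂, hK₂, hJ⟩ := hJ
  obtain ⟨K₃, hK₃, hoff⟩ := hoff
  obtain ⟨K₄, hK₄, hover⟩ := hover
  obtain ⟨K₅, hK₅, hinf⟩ := hinf
  refine ⟨K₁ ⊔ K₂ ⊔ K₃ ⊔ K₄ ⊔ K₅, inferInstance, fun K hKfd hle => ?_⟩
  have hle1 : K₁ ≤ K := le_trans (le_trans (le_trans (le_trans le_sup_left le_sup_left)
    le_sup_left) le_sup_left) hle
  have hle2 : K₂ ≤ K := le_trans (le_trans (le_trans (le_trans le_sup_right le_sup_left)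
    le_sup_left) le_sup_left) hle
  have hle3 : K₃ ≤ K := le_trans (le_trans (le_trans le_sup_right le_sup_left) le_sup_left) hle
  have hle4 : K₄ ≤ K := le_trans (le_trans le_sup_right le_sup_left) hle
  have hle5 : K₅ ≤ K := le_trans le_sup_right hle
  have hdvr : IsDiscreteValuationRing ↥(AK A K) := isDiscreteValuationRing_AK A K hℓ.ne_zero hA
  refine ⟨hdvr, fun ϖ hϖ t htq => ?_⟩
  have hchar : CharP (Res (AK A K)) ℓ := charP_residueField_AK A K hℓ hA
  have hfinRes : Finite (IsLocalRing.ResidueField ↥(AK A K)) :=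
    finite_residueField_AK A K hℓ.ne_zero hA
  have hfin : Finite (↥(AK A K) ⧸ (Ideal.span {ϖ} : Ideal ↥(AK A K))) := by
    rw [← hϖ.maximalIdeal_eq]
    exact hfinRes
  have hE : FK M K ≤ fracField (AK A K) :=
    Fermat.Agent.RED.PUR.GaussBridge10.FK_le_fracField A K M
  have ht : ((t : ↥(FK M K)) : LaurentSeries K) ∈ gaussRing (AK A K) := by
    rw [htq]; exact tq_mem_gaussRing (AK A K) n e
  have htr : Transcendental (Res (AK A K))
      (gaussRed (AK A K) ⟨((t : ↥(FK M K)) : LaurentSeries K), ht⟩) := by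
    have h1 : (⟨((t : ↥(FK M K)) : LaurentSeries K), ht⟩ : ↥(gaussRing (AK A K))) =
        ⟨tq K n e, tq_mem_gaussRing (AK A K) n e⟩ := Subtype.ext htq
    rw [h1]
    exact transcendental_gaussRed_tq (AK A K) n e
  have htE' : ((t : ↥(FK M K)) : LaurentSeries K) ∈ FK M K := t.2
  have hjt : jqModC K ∈ Kt (AK A K) ⟨((t : ↥(FK M K)) : LaurentSeries K), ht⟩ := by
    have h1 : (⟨((t : ↥(FK M K)) : LaurentSeries K), ht⟩ : ↥(gaussRing (AK A K))) =
        ⟨tq K n e, tq_mem_gaussRing (AK A K) n e⟩ := Subtype.ext htq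
    rw [h1]
    exact hJ K hKfd hle2
  obtain ⟨nn, -, hdeg, hirr⟩ := Fermat.Agent.RED.PUR.GaussInst25.exists_degLe_irr_FK A K hϖ ℓ M hℓM
    ⟨((t : ↥(FK M K)) : LaurentSeries K), ht⟩ htE' hjt
  have hn : relfinrank (Kt (AK A K) ⟨((t : ↥(FK M K)) : LaurentSeries K), ht⟩) (FK M K) ≠ 0 :=
    relfinrank_ne_zero (AK A K) M _ htE' hjt
  have hfd : FiniteDimensional ↥(IntermediateField.adjoin K {t}) ↥(FK M K) :=
    finiteDimensional_adjoin t hn
  have htrK : Transcendental K t :=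
    transcendental_of_coe t (transcendental_t (tG := ⟨(t : LaurentSeries K), ht⟩) hϖ htr)
  have h0 : SmoothChart (AK A K) (FK M K) ϖ t :=
    smoothChart_of_split (hoff K hKfd hle3 ϖ hϖ t htq) (hover K hKfd hle4 ϖ hϖ t htq)
  exact ⟨hϖ, hE, ht, htr, ⟨nn, hn, hdeg, hirr⟩, h0,
    smoothChart_inv_of_split hϖ htrK h0 (hinf K hKfd hle5 ϖ hϖ t htq), hfinRes,
    ⟨ℓ, hℓ, hℓM, hchar⟩⟩

/-- **The finite-level hypotheses over all large number fields**, unconditionally, under the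
hypotheses of `ModelInstFinal4.twoCharts_final`. -/
theorem exists_levelHyps {ℓ : ℕ} [Fact ℓ.Prime] (hℓM : ¬ ℓ ∣ M) (hA : A.LiesOverPrime ℓ)
    (hb : Fermat.Agent.RED.BASE.Hauptmodul12.BaseHyp n e) (hnM : n ∣ M) :
    ∃ K₀ : IntermediateField ℚ Qbar, FiniteDimensional ℚ K₀ ∧
      ∀ K : IntermediateField ℚ Qbar, FiniteDimensional ℚ K → K₀ ≤ K →
        ∃ _ : IsDiscreteValuationRing ↥(AK A K),
        ∀ (ϖ : ↥(AK A K)) (_ : Irreducible ϖ) (t : ↥(FK M K)),
          (t : LaurentSeries K) = tq K n e → LevelHyps A M K ϖ t := by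
  obtain ⟨cv, hcv⟩ := Fermat.Agent.ES.RED.BaseCases3.exists_cuspExports hb M hnM
  obtain ⟨hoff, hover, hinf⟩ :=
    Fermat.Agent.RED.S18Exports4.targetsHyp hb M hnM ℓ hℓM A hA cv hcv
  exact levelHyps hℓM hA cv
    (Fermat.Agent.RED.ModelFinal4.tTarget M (Fermat.Agent.RED.BASE.Hauptmodul12.tMem_of_dvd hb hnM))
    (Fermat.Agent.RED.ModelFinal4.jTarget (Fermat.Agent.RED.BASE.Hauptmodul12.tGenBase' hb))
    hoff hover hinf

end Fermat.Agent.ES.V19.LevelK24
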