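/-
Programme V (S19), chapter B1 (ruling 5, helper12's route), helper13: **(I3′) of `CechIface12`** —
the reduction of an element of `M₀₁ = A·B0_K[1/t_K]` is regular wherever `t̃` and `t̃⁻¹` are.

* `redF_mem_of_mem_chart` : for `t ∈ intF`, a valuation subring `V` of `F̃` containing the constants
  and `redF t` contains `redF g` for every `g ∈ chart A t` (integral closure of `A[t]`): the monic
  equation of `g` over `A[t]` reduces to a monic equation over `V`;
* `exists_pow_mul_mem_chart` : every `f ∈ M01 A M K tK` has some `t ^ k * f ∈ chart A t`,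
  `t = baseChangeHom M K tK`;
* `reg01_redF` : the general form (any `tK` with `A`-integral base change `t`, `tt := redF t ≠ 0`);
* **`reg01Prop`** : `CechIface12.Reg01Prop A M K tK ℓ hA hℓM (tRes n e M ℓ hℓM hmem hgen A hA)` for
  `baseChangeHom M K tK = tF M hmem` (and `reg01Prop'` with `(tK : K((q))) = tq K n e`).
-/
import Mathlib
import Fermat.Agent.ES.V19.CechIface12
import Fermat.Agent.ES.RED.ChartInst1
import Fermat.Agent.ES.RED.SpecialInv25

set_option autoImplicit false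
set_option linter.unusedSectionVars false
set_option synthInstance.maxHeartbeats 400000

open AlgebraicCurve ModularCurve IntermediateField HahnSeries

noncomputable section

namespace Fermat.Agent.ES.V19.Reg01Prop13

open Fermat.Agent.RED.Interface4 Fermat.Agent.RED.DESC.PlaceExtend27
  Fermat.Agent.RED.PUR.ChartGeneric22 Fermat.Agent.ES.RED.ChartIntegralA1
  Fermat.Agent.ES.V19.CechIface12 Fermat.Agent.RED.BASE.Interface12
  Fermat.Agent.RED.BASE.EtaQuot12

variable (A : ValuationSubring Qbar) (M : ℕ) [NeZero M] (ℓ : ℕ) [Fact ℓ.Prime]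
  (hA : A.LiesOverPrime ℓ) (hℓM : ¬ ℓ ∣ M)

/-! ### reduction of the chart ring into a valuation ring -/

/-- the elements of `ℚ̄·F_M` with `A`-integral expansion whose reduction lies in `V`. -/
def redInto (V : ValuationSubring ↥(modularFunctionFieldFullC (kA A) M))
    (hV : ∀ c : kA A, algebraMap (kA A) ↥(modularFunctionFieldFullC (kA A) M) c ∈ V) :
    Subalgebra ↥A ↥(Fbar M) where
  carrier := {y | ∃ h : y ∈ intF A M, redF A M ℓ hA hℓM ⟨y, h⟩ ∈ V}
  mul_mem' := by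
    rintro y₁ y₂ ⟨h₁, v₁⟩ ⟨h₂, v₂⟩
    refine ⟨mul_mem h₁ h₂, ?_⟩
    have e : (⟨y₁ * y₂, mul_mem h₁ h₂⟩ : intF A M) = ⟨y₁, h₁⟩ * ⟨y₂, h₂⟩ := rfl
    rw [e, map_mul]
    exact mul_mem v₁ v₂
  add_mem' := by
    rintro y₁ y₂ ⟨h₁, v₁⟩ ⟨h₂, v₂⟩
    refine ⟨add_mem h₁ h₂, ?_⟩
    have e : (⟨y₁ + y₂, add_mem h₁ h₂⟩ : intF A M) = ⟨y₁, h₁⟩ + ⟨y₂, h₂⟩ := rfl
    rw [e, map_add]
    exact add_mem v₁ v₂
  algebraMap_mem' a := by
    refine ⟨algebraMap_mem_intF A M a, ?_⟩
    show redF A M ℓ hA hℓM ⟨algebraMap Qbar ↥(Fbar M) (a : Qbar), algebraMap_mem_intF A M a⟩ ∈ V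
    rw [redF_algebraMap]
    exact hV _

theorem mem_redInto_iff {V : ValuationSubring ↥(modularFunctionFieldFullC (kA A) M)}
    {hV : ∀ c : kA A, algebraMap (kA A) ↥(modularFunctionFieldFullC (kA A) M) c ∈ V}
    {y : Fbar M} :
    y ∈ redInto A M ℓ hA hℓM V hV ↔ ∃ h : y ∈ intF A M, redF A M ℓ hA hℓM ⟨y, h⟩ ∈ V :=
  Iff.rfl

/-- **the reduction of the chart ring `chart A t` lands in every valuation ring of `F̃` containing
the constants and the reduction of `t`.** -/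
theorem redF_mem_of_mem_chart {t : Fbar M} (ht : t ∈ intF A M)
    (V : ValuationSubring ↥(modularFunctionFieldFullC (kA A) M))
    (hV : ∀ c : kA A, algebraMap (kA A) ↥(modularFunctionFieldFullC (kA A) M) c ∈ V)
    (htV : redF A M ℓ hA hℓM ⟨t, ht⟩ ∈ V) {g : Fbar M} (hg : g ∈ chart ↥A t)
    (hgi : g ∈ intF A M) : redF A M ℓ hA hℓM ⟨g, hgi⟩ ∈ V := by
  have hadj : Algebra.adjoin ↥A {t} ≤ redInto A M ℓ hA hℓM V hV :=
    Algebra.adjoin_le (Set.singleton_subset_iff.2 ⟨ht, htV⟩)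
  -- the ring `R = A[t]`, its map to `intF` and its reduction
  let ι : ↥(Algebra.adjoin ↥A {t}) →+* ↥(intF A M) :=
    (algebraMap ↥(Algebra.adjoin ↥A {t}) ↥(Fbar M)).codRestrict (intF A M)
      (fun r => (hadj r.2).1)
  have hι : (intF A M).subtype.comp ι = algebraMap ↥(Algebra.adjoin ↥A {t}) ↥(Fbar M) :=
    RingHom.ext fun _ => rfl
  have hψ : ∀ r, ((redF A M ℓ hA hℓM).comp ι) r ∈ V := fun r => (hadj r.2).2
  obtain ⟨p, hp, hpg⟩ := (mem_chart_iff.1 hg : IsIntegral ↥(Algebra.adjoin ↥A {t}) g)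
  refine mem_of_monic_root V _ hψ ⟨p, hp, ?_⟩
  rw [← Polynomial.hom_eval₂]
  have h0 : p.eval₂ ι (⟨g, hgi⟩ : intF A M) = 0 := by
    apply Subtype.ext
    have := Polynomial.hom_eval₂ p ι (intF A M).subtype (⟨g, hgi⟩ : intF A M)
    rw [hι] at this
    exact this.trans hpg
  rw [h0, map_zero]

/-! ### clearing the denominators in `M₀₁` -/

variable (K : IntermediateField ℚ Qbar) (tK : ↥(FK M K))

/-- every element of `M₀₁` becomes an element of the chart ring over `A` after multiplication by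
a power of `t`. -/
theorem exists_pow_mul_mem_chart {f : Fbar M} (hf : f ∈ M01 A M K tK) :
    ∃ k : ℕ, baseChangeHom M K tK ^ k * f ∈ chart ↥A (baseChangeHom M K tK) := by
  set t := baseChangeHom M K tK with ht
  have htc : t ∈ chart ↥A t := self_mem_chart t
  refine Submodule.span_induction (p := fun f _ => ∃ k : ℕ, t ^ k * f ∈ chart ↥A t)
    ?_ ?_ ?_ ?_ hf
  · rintro _ ⟨x, ⟨k, hk⟩, rfl⟩
    refine ⟨k, ?_⟩
    have := Fermat.Agent.ES.RED.ChartUnion1.baseChangeHom_mem_chart A M K tK _ hk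
    rwa [map_mul, map_pow] at this
  · exact ⟨0, by rw [mul_zero]; exact zero_mem _⟩
  · rintro f g _ _ ⟨k₁, h₁⟩ ⟨k₂, h₂⟩
    refine ⟨k₁ + k₂, ?_⟩
    have e : t ^ (k₁ + k₂) * (f + g) = t ^ k₂ * (t ^ k₁ * f) + t ^ k₁ * (t ^ k₂ * g) := by ring
    rw [e]
    exact add_mem (mul_mem (pow_mem htc _) h₁) (mul_mem (pow_mem htc _) h₂)
  · rintro a f _ ⟨k, h⟩
    refine ⟨k, ?_⟩
    rw [mul_smul_comm]
    exact Subalgebra.smul_mem _ h a

/-! ### (I3′) -/

/-- **(I3′), general form**: if `t = baseChangeHom M K tK` has an `A`-integral expansion with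
nonzero reduction `tt`, the reduction of an `A`-integral element of `M₀₁` is regular wherever `tt`
and `tt⁻¹` are. -/
theorem reg01_redF (ht : baseChangeHom M K tK ∈ intF A M)
    (htt0 : redF A M ℓ hA hℓM ⟨baseChangeHom M K tK, ht⟩ ≠ 0)
    {f : Fbar M} (hf01 : f ∈ M01 A M K tK) (hf : f ∈ intF A M) :
    Reg01 (kA A) (redF A M ℓ hA hℓM ⟨baseChangeHom M K tK, ht⟩)
      (redF A M ℓ hA hℓM ⟨f, hf⟩) := by
  intro P hP hPi
  obtain ⟨k, hk⟩ := exists_pow_mul_mem_chart A M K tK hf01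
  set t := baseChangeHom M K tK with htdef
  set tt := redF A M ℓ hA hℓM ⟨t, ht⟩ with httdef
  have hgi : t ^ k * f ∈ intF A M := mul_mem (pow_mem ht k) hf
  have h1 : redF A M ℓ hA hℓM ⟨t ^ k * f, hgi⟩ ∈ P.toValuationSubring :=
    redF_mem_of_mem_chart A M ℓ hA hℓM ht P.toValuationSubring P.algebraMap_mem' hP hk hgi
  have e : (⟨t ^ k * f, hgi⟩ : intF A M) = ⟨t, ht⟩ ^ k * ⟨f, hf⟩ := rfl
  rw [e, map_mul, map_pow, ← httdef] at h1
  have h2 : redF A M ℓ hA hℓM ⟨f, hf⟩ = tt⁻¹ ^ k * (tt ^ k * redF A M ℓ hA hℓM ⟨f, hf⟩) := by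
    rw [← mul_assoc, ← mul_pow, inv_mul_cancel₀ htt0, one_pow, one_mul]
  rw [h2]
  exact mul_mem (pow_mem hPi k) h1

section Concrete

open Fermat.Agent.ES.RED.SpecialGen25 Fermat.Agent.ES.RED.ChartInst1

variable (n e : ℕ) [NeZero n] (hmem : TMem n e M) (hgen : TGenBase n e)

/-- the reduction of the Hauptmodul `t` is `t̃`. -/
theorem redF_tF :
    redF A M ℓ hA hℓM ⟨tF M hmem, tF_mem_intF A M hmem⟩ = tRes n e M ℓ hℓM hmem hgen A hA := by
  apply Subtype.ext
  rw [coe_redF_eq_of ℓ hA hℓM (Y := tq ↥A n e)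
    (Fermat.Agent.ES.RED.SpecialInv25.coe_tF n e M hmem A).symm,
    Fermat.Agent.ES.RED.SpecialInv25.coe_tRes_eq]

/-- **(I3′) of `CechIface12`.** -/
theorem reg01Prop (hbc : baseChangeHom M K tK = tF M hmem) :
    Reg01Prop A M K tK ℓ hA hℓM (tRes n e M ℓ hℓM hmem hgen A hA) := by
  intro f hf01 hf
  have ht : baseChangeHom M K tK ∈ intF A M := hbc ▸ tF_mem_intF A M hmem
  have hred : redF A M ℓ hA hℓM ⟨baseChangeHom M K tK, ht⟩ =
      tRes n e M ℓ hℓM hmem hgen A hA := by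
    rw [← redF_tF A M ℓ hA hℓM n e hmem hgen]
    congr 1
    exact Subtype.ext hbc
  have h := reg01_redF A M ℓ hA hℓM K tK ht
    (by rw [hred]; exact (isGen_tRes n e M ℓ hℓM hmem hgen A hA).ne_zero) hf01 hf
  rwa [hred] at h

/-- the same with the hypothesis on the `q`-expansion of `tK`. -/
theorem reg01Prop' (htK : ((tK : FK M K) : LaurentSeries K) = tq K n e) :
    Reg01Prop A M K tK ℓ hA hℓM (tRes n e M ℓ hℓM hmem hgen A hA) := by
  apply reg01Prop A M ℓ hA hℓM K tK n e hmem hgen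
  apply Subtype.ext
  rw [coe_baseChangeHom, htK, coeffMap_tq]
  rfl

end Concrete

end Fermat.Agent.ES.V19.Reg01Prop13
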