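/-
Programme V (S19), chapter B1 (helper12): **`g ≤ g̃` from the two remaining leaves (level choice).**

`genusFF_le_of_leaves` : under the hypotheses of `GenusSF12.GenusLe` (Hauptmodul base `(n, e)`,
`n ∣ M`, `ℓ ∤ M`, `A` over `ℓ`), if the leaves (I2) `KerProp` and (I3) `SurjProp` of `CechIface12`
hold at every number field `K` carrying helper24's finite-level hypotheses `LevelK24.LevelHyps`
(with `(tK : K((q))) = tq K n e`), then `genusFF ℚ̄ (Fbar M) ≤ genusFF k̄ F̃`.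

The level: `K = K₀ ⊔ K₁`, `K₀` from `LevelK24.exists_levelHyps`, `K₁` from `TBridge15.exists_tq_mem`;
(I1) = `CechFG24.fgProp`, the inclusions = `CechFG24.M0_le_M01`/`M1_le_M01`, (I3′) =
`Reg01Prop13.reg01Prop`, the place reduction = `RedInst15.isPlaceReductionModL_main` at the model of
`ModelAtFinal8.modelAt`; conclusion by `GenusLeCore12.genusFF_le_of_levelInputs`.
-/
import Mathlib
import Fermat.Agent.ES.V19.GenusLeCore12
import Fermat.Agent.ES.V19.GenusSF12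
import Fermat.Agent.ES.V19.CechFG24
import Fermat.Agent.ES.V19.LevelK24
import Fermat.Agent.ES.V19.Reg01Prop13
import Fermat.Agent.ES.TOP.ModelAtFinal8
import Fermat.Agent.RED.BASE.TBridge15
import Fermat.Agent.RED.CUSP.RankConcrete16

set_option autoImplicit false
set_option synthInstance.maxHeartbeats 400000
set_option linter.unusedSectionVars false
set_option linter.style.haveILetI false

open AlgebraicCurve ModularCurve IntermediateField

noncomputable section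

namespace Fermat.Agent.ES.V19.GenusLeAsm12

open Fermat.Agent.RED.Interface4 Fermat.Agent.RED.DESC.PlaceExtend27
  Fermat.Agent.RED.PUR.ChartGeneric22 Fermat.Agent.ES.RED.ChartIntegralA1
  Fermat.Agent.ES.V19.CechIface12 Fermat.Agent.RED.BASE
  Fermat.Agent.ES.RED.SpecialGen25 Fermat.Agent.RED.NumInst4
  Fermat.Agent.RED.BASE.EtaQuot12 Fermat.Agent.RED.BASE.Hauptmodul12

variable (n e M : ℕ) [NeZero n] [NeZero M] (ℓ : ℕ) [Fact ℓ.Prime] (hℓM : ¬ ℓ ∣ M)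
  (A : ValuationSubring Qbar) (hA : A.LiesOverPrime ℓ)

/-- **The (I2) leaf**, in the form consumed by the level choice. -/
def KerLeaf : Prop :=
  ∀ (K : IntermediateField ℚ Qbar) (_ : FiniteDimensional ℚ K)
    (_ : IsDiscreteValuationRing ↥(AK A K)) (ϖ : ↥(AK A K)) (tK : ↥(FK M K)),
    Fermat.Agent.ES.V19.LevelK24.LevelHyps A M K ϖ tK → (tK : LaurentSeries K) = tq K n e →
      KerProp A M K tK ℓ hA hℓM

/-- **The (I3) leaf**, in the form consumed by the level choice. -/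
def SurjLeaf (hmem : Interface12.TMem n e M) (hgen : Interface12.TGenBase n e) : Prop :=
  ∀ (K : IntermediateField ℚ Qbar) (_ : FiniteDimensional ℚ K)
    (_ : IsDiscreteValuationRing ↥(AK A K)) (ϖ : ↥(AK A K)) (tK : ↥(FK M K)),
    Fermat.Agent.ES.V19.LevelK24.LevelHyps A M K ϖ tK → (tK : LaurentSeries K) = tq K n e →
      SurjProp A M K tK ℓ hA hℓM (tRes n e M ℓ hℓM hmem hgen A hA)

set_option maxHeartbeats 1600000 in
/-- **The level inputs from the two leaves.** -/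
theorem levelInputs_of_leaves (hb : BaseHyp n e) (hnM : n ∣ M)
    (hker : KerLeaf n e M ℓ hℓM A hA)
    (hsurj : SurjLeaf n e M ℓ hℓM A hA (tMem_of_dvd hb hnM) (tGenBase' hb)) :
    Fermat.Agent.ES.V19.GenusLeCore12.LevelInputs n e M ℓ hℓM (tMem_of_dvd hb hnM) (tGenBase' hb)
      A hA := by
  obtain ⟨K₀, hK₀, hlev⟩ := Fermat.Agent.ES.V19.LevelK24.exists_levelHyps (n := n) (e := e)
    (M := M) (A := A) hℓM hA hb hnM
  obtain ⟨K₁, hK₁, htq⟩ := Fermat.Agent.RED.BASE.TBridge15.exists_tq_mem n e M (tMem_of_dvd hb hnM)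
  haveI : FiniteDimensional ℚ ↥(K₀ ⊔ K₁) := inferInstance
  obtain ⟨hdvr, hlevK⟩ := hlev (K₀ ⊔ K₁) inferInstance le_sup_left
  haveI := hdvr
  obtain ⟨ϖ, hϖ⟩ := IsDiscreteValuationRing.exists_irreducible ↥(AK A (K₀ ⊔ K₁))
  have hLH := hlevK ϖ hϖ ⟨tq ↥(K₀ ⊔ K₁) n e, htq (K₀ ⊔ K₁) le_sup_right⟩ rfl
  have hbc : baseChangeHom M (K₀ ⊔ K₁) ⟨tq ↥(K₀ ⊔ K₁) n e, htq (K₀ ⊔ K₁) le_sup_right⟩ =
      Interface12.tF M (tMem_of_dvd hb hnM) :=
    Fermat.Agent.RED.CUSP.RankConcrete16.baseChangeHom_eq_tF M (K₀ ⊔ K₁) (tMem_of_dvd hb hnM) _ rfl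
  exact ⟨K₀ ⊔ K₁, ⟨tq ↥(K₀ ⊔ K₁) n e, htq (K₀ ⊔ K₁) le_sup_right⟩, hbc,
    Fermat.Agent.ES.V19.CechFG24.fgProp hLH.model,
    Fermat.Agent.ES.V19.CechFG24.M0_le_M01 A M (K₀ ⊔ K₁) _,
    fun m => Fermat.Agent.ES.V19.CechFG24.M1_le_M01 hLH.model m,
    hker (K₀ ⊔ K₁) inferInstance hdvr ϖ _ hLH rfl,
    hsurj (K₀ ⊔ K₁) inferInstance hdvr ϖ _ hLH rfl,
    Fermat.Agent.ES.V19.Reg01Prop13.reg01Prop A M ℓ hA hℓM (K₀ ⊔ K₁) _ n e (tMem_of_dvd hb hnM)
      (tGenBase' hb) hbc⟩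

set_option maxHeartbeats 1600000 in
/-- **`g ≤ g̃` from the two leaves.** -/
theorem genusFF_le_of_leaves (hb : BaseHyp n e) (hnM : n ∣ M)
    (hker : KerLeaf n e M ℓ hℓM A hA)
    (hsurj : SurjLeaf n e M ℓ hℓM A hA (tMem_of_dvd hb hnM) (tGenBase' hb)) :
    genusFF Qbar ↥(Fbar M) ≤
      genusFF (kA A) ↥(modularFunctionFieldFullC (kA A) M) := by
  have hℓ : ℓ.Prime := Fact.out
  obtain ⟨x, hx, T, hS0, hS1, hs0, peel0, peel1⟩ :=
    Fermat.Agent.ES.TOP.ModelAtFinal8.modelAt ℓ hℓ A hA n e hb M hnM hℓM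
  have hr := Fermat.Agent.ES.RED.RedInst15.isPlaceReductionModL_main n e M ℓ hℓM
    (tMem_of_dvd hb hnM) (tGenBase' hb) A hA T hS0 hS1 hs0 peel0 peel1
  exact Fermat.Agent.ES.V19.GenusLeCore12.genusFF_le_of_levelInputs n e M ℓ hℓM
    (tMem_of_dvd hb hnM) (tGenBase' hb) A hA hr
    (levelInputs_of_leaves n e M ℓ hℓM A hA hb hnM hker hsurj)

/-- **`GenusSF12.GenusLe` from the two leaves** (for all data). -/
theorem genusLe_of_leaves
    (hker : ∀ (n e M : ℕ) [NeZero n] [NeZero M] (ℓ : ℕ) [Fact ℓ.Prime] (hℓM : ¬ ℓ ∣ M)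
      (A : ValuationSubring Qbar) (hA : A.LiesOverPrime ℓ), KerLeaf n e M ℓ hℓM A hA)
    (hsurj : ∀ (n e M : ℕ) [NeZero n] [NeZero M] (ℓ : ℕ) [Fact ℓ.Prime] (hℓM : ¬ ℓ ∣ M)
      (A : ValuationSubring Qbar) (hA : A.LiesOverPrime ℓ) (hmem : Interface12.TMem n e M)
      (hgen : Interface12.TGenBase n e), SurjLeaf n e M ℓ hℓM A hA hmem hgen) :
    Fermat.Agent.ES.V19.GenusSF12.GenusLe := by
  intro n e _ hb M _ hnM ℓ hℓ hℓM A hA
  haveI : Fact ℓ.Prime := ⟨hℓ⟩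
  exact genusFF_le_of_leaves n e M ℓ hℓM A hA hb hnM (hker n e M ℓ hℓM A hA)
    (hsurj n e M ℓ hℓM A hA _ _)

end Fermat.Agent.ES.V19.GenusLeAsm12
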