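/-
Programme V (S19), chapter B1 (genus of the special fibre; route of ruling 5) — helper17.
**(I3) `CechIface12.SurjProp` for the Hauptmodul `t = tq n e`, at every level `K` carrying the
finite-level package, with `tt = t̃ = SpecialGen25.tRes`.**

Discharges the hypotheses of `SurjProp17.surjProp`:
* `hreg0`, `hreg1` : on the special fibre `Reg k̄ t̃^{±1} f ⇒ f` integral over `k̄[t̃^{±1}]`
  (helper13's `CechTw13.reg_iff_isIntegral_sep` with `SpecialGen25.isGen_tRes`,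
  `isSeparable_tRes` and their `⁻¹` versions in `SpecialInv25`);
* `exists_embK_tq`, `exists_embK_tq_inv` : `t_K`, `t_K⁻¹` have `A ∩ K`-integral expansions
  (`tq`, `tqInv` over `A ∩ K`);
* `coe_tRes_eq_gaussRed` : `(t̃ : k̄((q))) = coeffMap ρ (gaussRed t_K)`.

Exit: **`surjProp_tq`** (explicit `n`) and **`surjProp_tq'`** (hypotheses literally the fields
`irr, ht, hdeg, hsm0, hsm1` of helper24's `LevelK24.LevelHyps`).
-/
import Mathlib
import Fermat.Agent.ES.V19.SurjProp17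
import Fermat.Agent.ES.V19.CechTw13
import Fermat.Agent.ES.RED.SpecialInv25
import Fermat.Agent.RED.ModelTargets4

set_option autoImplicit false
set_option linter.unusedSectionVars false
set_option linter.style.haveILetI false

noncomputable section

open HahnSeries ModularCurve Polynomial IntermediateField AlgebraicCurve

namespace Fermat.Agent.ES.V19.SurjPropInst17

open Fermat.Agent.RED.Interface4 Fermat.Agent.RED.DESC Fermat.Agent.RED.DESC.NumberFieldDVR27
  Fermat.Agent.RED.DESC.PlaceExtend27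
open Fermat.Agent.RED.PUR.GaussGen8 Fermat.Agent.RED.PUR.KtGauss8 Fermat.Agent.RED.PUR.G1Package8
  Fermat.Agent.RED.PUR.GaussBridge10 Fermat.Agent.RED.PUR.ChartGeneric22 Fermat.Agent.RED.ModelAsm4
  Fermat.Agent.RED.ModelTargets4 Fermat.Agent.RED.BASE Fermat.Agent.RED.BASE.EtaQuot12
  Fermat.Agent.ES.RED.FibreSurj17 Fermat.Agent.ES.RED.ChartIntegralA1
  Fermat.Agent.ES.RED.SpecialGen25 Fermat.Agent.ES.RED.SpecialInv25
  Fermat.Agent.ES.V19.CechIface12 Fermat.Agent.ES.V19.SurjProp17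

variable (n e M : ℕ) [NeZero n] [NeZero M] (ℓ : ℕ) [Fact ℓ.Prime] (hℓM : ¬ ℓ ∣ M)
  (hmem : Interface12.TMem n e M) (hgen : Interface12.TGenBase n e)
  (A : ValuationSubring Qbar) (hA : A.LiesOverPrime ℓ)

/-! ### the special fibre: `Reg ⇒` integral -/

/-- on the special fibre, regular where `t̃` is `⇒` integral over `k̄[t̃]`. -/
theorem isIntegral_of_reg_tRes (fb : ↥(modularFunctionFieldFullC (kA A) M))
    (h : Reg (kA A) (tRes n e M ℓ hℓM hmem hgen A hA) fb) :
    IsIntegral ↥(Algebra.adjoin (kA A) {tRes n e M ℓ hℓM hmem hgen A hA}) fb := by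
  haveI := isSeparable_tRes n e M ℓ hℓM hmem hgen A hA
  exact (Fermat.Agent.ES.V19.CechTw13.reg_iff_isIntegral_sep
    (isGen_tRes n e M ℓ hℓM hmem hgen A hA)).1 h

/-- on the special fibre, regular where `t̃⁻¹` is `⇒` integral over `k̄[t̃⁻¹]`. -/
theorem isIntegral_of_reg_tRes_inv (fb : ↥(modularFunctionFieldFullC (kA A) M))
    (h : Reg (kA A) (tRes n e M ℓ hℓM hmem hgen A hA)⁻¹ fb) :
    IsIntegral ↥(Algebra.adjoin (kA A) {(tRes n e M ℓ hℓM hmem hgen A hA)⁻¹}) fb := by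
  haveI := isSeparable_tRes_inv n e M ℓ hℓM hmem hgen A hA
  exact (Fermat.Agent.ES.V19.CechTw13.reg_iff_isIntegral_sep
    (isGen_tRes_inv n e M ℓ hℓM hmem hgen A hA)).1 h

/-! ### the level `K` -/

section Level

variable {A} {M} (K : IntermediateField ℚ Qbar) (tK : ↥(FK M K))
  (htq : (tK : LaurentSeries K) = tq K n e)

include htq in
/-- `t_K` has an `A ∩ K`-integral expansion. -/
theorem exists_embK_tq :
    ∃ T : LaurentSeries ↥(AK A K), embK (AK A K) T = (tK : LaurentSeries K) :=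
  ⟨tq ↥(AK A K) n e, by rw [htq]; exact coeffMap_tq ↥(AK A K) (AK A K).subtype n e⟩

include htq in
/-- `t_K⁻¹` has an `A ∩ K`-integral expansion. -/
theorem exists_embK_tq_inv :
    ∃ T : LaurentSeries ↥(AK A K),
      embK (AK A K) T = ((tK⁻¹ : ↥(FK M K)) : LaurentSeries K) := by
  refine ⟨tqInv ↥(AK A K) n e, ?_⟩
  have h1 : ((tK⁻¹ : ↥(FK M K)) : LaurentSeries K) = (tq K n e)⁻¹ := by
    rw [← htq]
    rfl
  rw [h1, ← tqInv_eq_inv]
  exact coeffMap_tqInv ↥(AK A K) (AK A K).subtype n e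

include htq in
/-- `(t̃ : k̄((q))) = coeffMap ρ (gaussRed t_K)`. -/
theorem coe_tRes_eq_gaussRed (ht : (tK : LaurentSeries K) ∈ gaussRing (AK A K)) :
    ((tRes n e M ℓ hℓM hmem hgen A hA : ↥(modularFunctionFieldFullC (kA A) M)) :
      LaurentSeries (kA A)) =
      coeffMap (resMap A K) (gaussRed (AK A K) ⟨(tK : LaurentSeries K), ht⟩) := by
  have h1 : (⟨(tK : LaurentSeries K), ht⟩ : ↥(gaussRing (AK A K))) =
      ⟨tq K n e, tq_mem_gaussRing (AK A K) n e⟩ := Subtype.ext htq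
  rw [h1, gaussRed_tq, coeffMap_tq]
  rfl

variable [FiniteDimensional ℚ K] [IsDiscreteValuationRing ↥(AK A K)] {ϖ : ↥(AK A K)}

include htq in
/-- **(I3) `CechIface12.SurjProp`** for the Hauptmodul at a level `K` carrying the finite-level
package (`hn`, `hdeg`, `hirr` of `G1Package8`, smoothness of both charts). -/
theorem surjProp_tq (hϖ : Irreducible ϖ) (ht : (tK : LaurentSeries K) ∈ gaussRing (AK A K))
    {nn : ℕ} (hn : relfinrank (Kt (AK A K) ⟨(tK : LaurentSeries K), ht⟩) (FK M K) ≠ 0)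
    (hdeg : DegLe (AK A K) (FK M K) ⟨(tK : LaurentSeries K), ht⟩ nn)
    (hirr : Irr (AK A K) (FK M K) ⟨(tK : LaurentSeries K), ht⟩ nn)
    (hsm0 : SmoothChart (AK A K) (FK M K) ϖ tK)
    (hsm1 : SmoothChart (AK A K) (FK M K) ϖ tK⁻¹) :
    SurjProp A M K tK ℓ hA hℓM (tRes n e M ℓ hℓM hmem hgen A hA) := by
  have htr : Transcendental (Res (AK A K))
      (gaussRed (AK A K) ⟨(tK : LaurentSeries K), ht⟩) := by
    have h1 : (⟨(tK : LaurentSeries K), ht⟩ : ↥(gaussRing (AK A K))) =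
        ⟨tq K n e, tq_mem_gaussRing (AK A K) n e⟩ := Subtype.ext htq
    rw [h1]
    exact transcendental_gaussRed_tq (AK A K) n e
  exact surjProp ℓ hA hℓM hϖ tK ht htr hn hdeg hirr (exists_embK_tq n e K tK htq)
    (exists_embK_tq_inv n e K tK htq) (tRes n e M ℓ hℓM hmem hgen A hA)
    (coe_tRes_eq_gaussRed n e ℓ hℓM hmem hgen hA K tK htq ht) hsm0 hsm1
    (isIntegral_of_reg_tRes n e M ℓ hℓM hmem hgen A hA)
    (isIntegral_of_reg_tRes_inv n e M ℓ hℓM hmem hgen A hA)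

include htq in
/-- the same, with the hypotheses in the shape of the fields `irr, ht, hdeg, hsm0, hsm1` of
`LevelK24.LevelHyps`. -/
theorem surjProp_tq' (hϖ : Irreducible ϖ) (ht : (tK : LaurentSeries K) ∈ gaussRing (AK A K))
    (hdeg : ∃ nn : ℕ, relfinrank (Kt (AK A K) ⟨(tK : LaurentSeries K), ht⟩) (FK M K) ≠ 0 ∧
      DegLe (AK A K) (FK M K) ⟨(tK : LaurentSeries K), ht⟩ nn ∧
      Irr (AK A K) (FK M K) ⟨(tK : LaurentSeries K), ht⟩ nn)
    (hsm0 : SmoothChart (AK A K) (FK M K) ϖ tK)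
    (hsm1 : SmoothChart (AK A K) (FK M K) ϖ tK⁻¹) :
    SurjProp A M K tK ℓ hA hℓM (tRes n e M ℓ hℓM hmem hgen A hA) := by
  obtain ⟨nn, hn, hd, hi⟩ := hdeg
  exact surjProp_tq n e ℓ hℓM hmem hgen hA K tK htq hϖ ht hn hd hi hsm0 hsm1

end Level

end Fermat.Agent.ES.V19.SurjPropInst17
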