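/-
Programme V (S19), chapter B1 (helper12): **`g ≤ g̃` from the last leaf (I2).**

The (I3) leaf `GenusLeAsm12.SurjLeaf` is helper17's `SurjPropInst17.surjProp_tq'` (its hypotheses
are fields of `LevelK24.LevelHyps`); hence `GenusSF12.GenusLe` follows from the (I2) leaf
`GenusLeAsm12.KerLeaf` alone.
-/
import Mathlib
import Fermat.Agent.ES.V19.GenusLeAsm12
import Fermat.Agent.ES.V19.SurjPropInst17

set_option autoImplicit false
set_option synthInstance.maxHeartbeats 400000
set_option linter.unusedSectionVars false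

open AlgebraicCurve ModularCurve IntermediateField

noncomputable section

namespace Fermat.Agent.ES.V19.GenusLeSurj12

open Fermat.Agent.RED.Interface4 Fermat.Agent.RED.BASE Fermat.Agent.ES.V19.GenusLeAsm12

/-- **The (I3) leaf** (helper17). -/
theorem surjLeaf (n e M : ℕ) [NeZero n] [NeZero M] (ℓ : ℕ) [Fact ℓ.Prime] (hℓM : ¬ ℓ ∣ M)
    (A : ValuationSubring Qbar) (hA : A.LiesOverPrime ℓ) (hmem : Interface12.TMem n e M)
    (hgen : Interface12.TGenBase n e) : SurjLeaf n e M ℓ hℓM A hA hmem hgen := by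
  intro K hK hdvr ϖ tK h htq
  have := hK
  have := hdvr
  exact Fermat.Agent.ES.V19.SurjPropInst17.surjProp_tq' n e ℓ hℓM hmem hgen hA K tK htq h.irr h.ht
    h.hdeg h.hsm0 h.hsm1

/-- **`GenusSF12.GenusLe` from the (I2) leaf.** -/
theorem genusLe_of_kerLeaf
    (hker : ∀ (n e M : ℕ) [NeZero n] [NeZero M] (ℓ : ℕ) [Fact ℓ.Prime] (hℓM : ¬ ℓ ∣ M)
      (A : ValuationSubring Qbar) (hA : A.LiesOverPrime ℓ), KerLeaf n e M ℓ hℓM A hA) :
    Fermat.Agent.ES.V19.GenusSF12.GenusLe :=
  genusLe_of_leaves hker surjLeaf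

end Fermat.Agent.ES.V19.GenusLeSurj12
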