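/-
Programme V (S19), chapter B1 (`g ≤ g̃`, ruling 5), leaf (I2) — abstract core, helper24:
**the kernel of the reduction on the `O`-span of a saturated `R`-lattice is `𝔪_O` times the span.**

Pure commutative algebra (Mathlib + main's `ES/R48/CoeffIndep22.coordMap`).  Setting:
`ι : R → O` (a discrete valuation ring inside a local ring), `G` a commutative ring with constants
`cR : R → G` and a reduction `r : G → κ((q))`, `I` a commutative ring with constants `cO : O → I` and a
reduction `ρ : I → k((q))`, `β : G → I` over `ι` with `ρ ∘ β = Φ ∘ r`, `Φ = coeffMap (κ → k)`.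
`B ⊆ G` is stable under `R`-linear combinations and saturated: `r x = 0 → x ∈ ϖ B`.

`ker_core` : if `ρ (∑ a i · β (x i)) = 0` with `x i ∈ B`, then `∑ a i · β (x i) = ∑ a' i · β (y i)` with
`a' i ∈ 𝔪_O`, `y i ∈ B`.  Induction on the number of terms: if some `a i` is a unit, the `k`-relation
`∑ ā i Φ(r (x i)) = 0` gives (a coordinate functional `k → κ`) a `κ`-relation among the `r (x i)`
with one nonzero coefficient, hence by saturation one `x j` is an `R`-combination of the others
modulo `ϖ B`; substitute.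
-/
import Mathlib
import Fermat.Agent.ES.R48.CoeffIndep22

set_option autoImplicit false
set_option linter.unusedSectionVars false

noncomputable section

namespace Fermat.Agent.ES.V19.KerCore24

open ModularCurve Fermat.Agent.ES.R48.CoeffIndep22

variable {R O G I κ k : Type*} [CommRing R] [CommRing O] [IsLocalRing O] [CommRing G] [CommRing I]
  [Field κ] [Field k] [Algebra κ k]

/-- **The abstract kernel lemma.** -/
theorem ker_core (ι : R →+* O) (cR : R →+* G) (cO : O →+* I) (β : G →+* I)
    (resR : R →+* κ) (resO : O →+* k) (r : G →+* LaurentSeries κ) (ρ : I →+* LaurentSeries k)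
    (B : Set G) (ϖ : R)
    (hβ : ∀ c : R, β (cR c) = cO (ι c))
    (hresR : Function.Surjective resR) (hunit : ∀ a : R, resR a ≠ 0 → IsUnit a)
    (hresO : ∀ a : O, resO a = 0 ↔ a ∈ IsLocalRing.maximalIdeal O)
    (hϖ : ι ϖ ∈ IsLocalRing.maximalIdeal O)
    (hrC : ∀ c : R, r (cR c) = algebraMap κ (LaurentSeries κ) (resR c))
    (hρC : ∀ a : O, ρ (cO a) = algebraMap k (LaurentSeries k) (resO a))
    (hρr : ∀ x : G, ρ (β x) = coeffMap (algebraMap κ k) (r x))
    (hB0 : (0 : G) ∈ B) (hBadd : ∀ x ∈ B, ∀ y ∈ B, x + y ∈ B)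
    (hBsmul : ∀ (c : R), ∀ x ∈ B, cR c * x ∈ B)
    (hsat : ∀ x ∈ B, r x = 0 → ∃ y ∈ B, x = cR ϖ * y) :
    ∀ (n : ℕ) (a : Fin n → O) (x : Fin n → G), (∀ i, x i ∈ B) →
      ρ (∑ i, cO (a i) * β (x i)) = 0 →
      ∃ (m : ℕ) (a' : Fin m → O) (y : Fin m → G),
        (∀ i, a' i ∈ IsLocalRing.maximalIdeal O) ∧ (∀ i, y i ∈ B) ∧
          ∑ i, cO (a i) * β (x i) = ∑ i, cO (a' i) * β (y i) := by
  classical
  intro n
  induction n with
  | zero =>
    intro a x _ _
    exact ⟨0, a, x, fun i => i.elim0, fun i => i.elim0, rfl⟩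
  | succ n ih =>
    intro a x hx hρ0
    by_cases hall : ∀ i, a i ∈ IsLocalRing.maximalIdeal O
    · exact ⟨n + 1, a, x, hall, hx, rfl⟩
    push Not at hall
    obtain ⟨j, hj⟩ := hall
    have hcj : resO (a j) ≠ 0 := fun h0 => hj ((hresO _).mp h0)
    -- a coordinate functional
    obtain ⟨ℓ, hℓ⟩ : ∃ ℓ : k →ₗ[κ] κ, ℓ (resO (a j)) ≠ 0 := by
      by_contra hcon
      push Not at hcon
      exact hcj ((Module.forall_dual_apply_eq_zero_iff κ (resO (a j))).mp hcon)
    -- the `k`-relation
    have hsum : ∑ i, algebraMap k (LaurentSeries k) (resO (a i)) *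
        coeffMap (algebraMap κ k) (r (x i)) = 0 := by
      rw [← hρ0, map_sum]
      refine Finset.sum_congr rfl fun i _ => ?_
      rw [map_mul, hρC, hρr]
    -- the `κ`-relation
    have hsumκ : ∑ i, algebraMap κ (LaurentSeries κ) (ℓ (resO (a i))) * r (x i) = 0 := by
      have h1 := congrArg (coordMap ℓ) hsum
      rw [map_sum, map_zero] at h1
      rw [← h1]
      refine Finset.sum_congr rfl fun i _ => ?_
      rw [coordMap_mul_coeffMap, coordMap_algebraMap]
    -- lift the coefficients
    have hlift : ∀ i, ∃ e : R, resR e = ℓ (resO (a i)) := fun i => hresR _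
    choose e he using hlift
    obtain ⟨u, hu⟩ : IsUnit (e j) := hunit (e j) (by rw [he]; exact hℓ)
    -- the combination `z`
    have hz : ∑ i, cR (e i) * x i ∈ B :=
      Finset.sum_induction _ (· ∈ B) (fun p q hp hq => hBadd p hp q hq) hB0
        fun i _ => hBsmul _ _ (hx i)
    have hrz : r (∑ i, cR (e i) * x i) = 0 := by
      rw [map_sum, ← hsumκ]
      refine Finset.sum_congr rfl fun i _ => ?_
      rw [map_mul, hrC, he]
    obtain ⟨y, hy, hzy⟩ := hsat _ hz hrz
    -- solve for `x j`
    set S : G := ∑ i : Fin n, cR (e (j.succAbove i)) * x (j.succAbove i) with hS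
    have hdec : cR (e j) * x j + S = cR ϖ * y := by
      rw [← hzy, Fin.sum_univ_succAbove _ j]
    have hxj : x j = cR (↑u⁻¹ : R) * (cR ϖ * y - S) := by
      rw [← hdec, add_sub_cancel_right, ← mul_assoc, ← map_mul, ← hu, Units.inv_mul, map_one,
        one_mul]
    -- the new coefficients
    set v : O := a j * ι (↑u⁻¹ : R) with hv
    set S1 : I := ∑ i : Fin n, cO (a (j.succAbove i)) * β (x (j.succAbove i)) with hS1
    set S2 : I := ∑ i : Fin n, cO (ι (e (j.succAbove i))) * β (x (j.succAbove i)) with hS2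
    have hβS : β S = S2 := by
      rw [hS, map_sum]
      refine Finset.sum_congr rfl fun i _ => ?_
      rw [map_mul, hβ]
    have hf : ∑ i, cO (a i) * β (x i) =
        ∑ i : Fin n, cO (a (j.succAbove i) - v * ι (e (j.succAbove i))) * β (x (j.succAbove i)) +
          cO (v * ι ϖ) * β y := by
      have h1 : ∑ i : Fin n, cO (a (j.succAbove i) - v * ι (e (j.succAbove i))) *
          β (x (j.succAbove i)) = S1 - cO v * S2 := by
        rw [hS1, hS2, Finset.mul_sum, ← Finset.sum_sub_distrib]
        refine Finset.sum_congr rfl fun i _ => ?_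
        rw [map_sub, map_mul]
        ring
      rw [h1, Fin.sum_univ_succAbove _ j, ← hS1, hxj, map_mul, map_sub, map_mul, hβS, hβ, hβ,
        hv, map_mul, map_mul, map_mul]
      ring
    -- the extra term reduces to zero
    have hρg : ρ (cO (v * ι ϖ) * β y) = 0 := by
      rw [map_mul, hρC, map_mul, (hresO (ι ϖ)).mpr hϖ, mul_zero, map_zero, zero_mul]
    have hρf' : ρ (∑ i : Fin n, cO (a (j.succAbove i) - v * ι (e (j.succAbove i))) *
        β (x (j.succAbove i))) = 0 := by
      have h2 := hρ0
      rw [hf, map_add, hρg, add_zero] at h2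
      exact h2
    obtain ⟨m, a', y', ha', hy', hsum'⟩ := ih _ _ (fun i => hx _) hρf'
    refine ⟨m + 1, Fin.cons (v * ι ϖ) a', Fin.cons y y', ?_, ?_, ?_⟩
    · intro i
      refine Fin.cases ?_ (fun i => ?_) i
      · rw [Fin.cons_zero]
        exact Ideal.mul_mem_left _ _ hϖ
      · rw [Fin.cons_succ]
        exact ha' i
    · intro i
      refine Fin.cases ?_ (fun i => ?_) i
      · rw [Fin.cons_zero]
        exact hy
      · rw [Fin.cons_succ]
        exact hy' i
    · rw [hf, hsum', Fin.sum_univ_succ, Fin.cons_zero, Fin.cons_zero, add_comm]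
      congr 1

end Fermat.Agent.ES.V19.KerCore24
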