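/-
Programme V (S19), chapter B1 (`g ≤ g̃`, ruling 5), leaf (I2), helper24:
**`ker (redF | M₀₁) ⊆ 𝔪_A • M₀₁`** for the `A`-span `M₀₁ = A·B0_K[1/t]` of the level-`K` chart.

Interface: `ES/V19/CechIface12.KerProp` (helper12, frozen).  Abstract core: `KerCore24.ker_core`
with `R := A ∩ K`, `O := A`, `G := (A ∩ K)((q))`, `I := A((q))`, `β := coeffMap incl`,
`r := redL`, `ρ := coeffMap residue`, `B :=` the integral `q`-expansions of the elements of
`B0_K[1/t]`; saturation of `B` from `TwoChartModel.sat0` (the chart is `ϖ`-saturated in the Gauss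
valuation ring) and `redL_eq_zero_iff`.

* `kerProp hϖ hm hOv hT hTinv : CechIface12.KerProp A M K tK ℓ hA hℓM`.
-/
import Mathlib
import Fermat.Agent.RED.CORE.CoreIface24
import Fermat.Agent.ES.RED.IntegralQExp1
import Fermat.Agent.ES.RED.GaussUnit25
import Fermat.Agent.ES.RED.ChartIntegralA1
import Fermat.Agent.ES.V19.CechIface12
import Fermat.Agent.ES.V19.KerCore24

set_option autoImplicit false
set_option linter.unusedSectionVars false

noncomputable section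

namespace Fermat.Agent.ES.V19.KerProp24

open ModularCurve Fermat.Agent.RED.Interface4 Fermat.Agent.RED.DESC.PlaceExtend27
  Fermat.Agent.RED.DESC Fermat.Agent.RED.DESC.NumberFieldDVR27
  Fermat.Agent.RED.PUR.ChartGeneric22 Fermat.Agent.RED.PUR.GaussGen8
  Fermat.Agent.RED.CORE.CoreIface24 Fermat.Agent.ES.RED.ChartIntegralA1
  Fermat.Agent.ES.RED.GaussUnit25 Fermat.Agent.ES.V19.CechIface12

variable (A : ValuationSubring Qbar) (M : ℕ) [NeZero M] (K : IntermediateField ℚ Qbar)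
  (tK : ↥(FK M K))

/-- The integral `q`-expansions of the elements of `B0_K[1/t]`. -/
def serB : Set (LaurentSeries ↥(AK A K)) :=
  {Y | ∃ x : ↥(FK M K), (∃ k : ℕ, tK ^ k * x ∈ chart ↥(AK A K) tK) ∧
    embK (AK A K) Y = (x : LaurentSeries K)}

/-- the `A`-series of a combination `∑ a i • bc (x i)`. -/
theorem coe_comb {n : ℕ} (a : Fin n → ↥A) (x : Fin n → ↥(FK M K))
    (Y : Fin n → LaurentSeries ↥(AK A K))
    (hY : ∀ i, embK (AK A K) (Y i) = ((x i : ↥(FK M K)) : LaurentSeries K)) :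
    coeffMap A.subtype (∑ i, HahnSeries.C (a i) * coeffMap (incl A K) (Y i)) =
      ((∑ i, a i • baseChangeHom M K (x i) : ↥(Fbar M)) : LaurentSeries Qbar) := by
  have h1 : ((∑ i, a i • baseChangeHom M K (x i) : ↥(Fbar M)) : LaurentSeries Qbar) =
      ∑ i, ((a i • baseChangeHom M K (x i) : ↥(Fbar M)) : LaurentSeries Qbar) :=
    map_sum (algebraMap ↥(Fbar M) (LaurentSeries Qbar)) _ _
  rw [h1, map_sum]
  refine Finset.sum_congr rfl fun i _ => ?_
  rw [map_mul, coeffMap_subtype_incl, hY]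
  have h2 : ((a i • baseChangeHom M K (x i) : ↥(Fbar M)) : LaurentSeries Qbar) =
      HahnSeries.C ((a i : ↥A) : Qbar) *
        ((baseChangeHom M K (x i) : ↥(Fbar M)) : LaurentSeries Qbar) := by
    rw [Algebra.smul_def]
    show algebraMap Qbar (LaurentSeries Qbar) ((a i : ↥A) : Qbar) * _ = _
    rw [algebraMap_eq_C]
  rw [h2, coe_baseChangeHom]
  congr 1
  exact Fermat.Agent.RED.PUR.GaussGen8.coeffMap_C _ _

variable {A M K tK}
variable [IsDiscreteValuationRing ↥(AK A K)] {ϖ : ↥(AK A K)} {Ov : ValuationSubring ↥(FK M K)}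

/-- elements of `B0_K[1/t]` have integral `q`-expansions. -/
theorem exists_series
    (hT : ∃ T : LaurentSeries ↥(AK A K), embK (AK A K) T = (tK : LaurentSeries K))
    (hTinv : ∃ T : LaurentSeries ↥(AK A K),
      embK (AK A K) T = ((tK⁻¹ : ↥(FK M K)) : LaurentSeries K))
    (ht0 : tK ≠ 0) {x : ↥(FK M K)} (hx : ∃ k : ℕ, tK ^ k * x ∈ chart ↥(AK A K) tK) :
    ∃ Y : LaurentSeries ↥(AK A K), embK (AK A K) Y = (x : LaurentSeries K) := by
  obtain ⟨k, hk⟩ := hx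
  obtain ⟨Y, hY⟩ := Fermat.Agent.ES.RED.IntegralQExp1.exists_embK_of_mem_chart (AK A K) (FK M K)
    (Fermat.Agent.RED.PUR.GaussBridge10.FK_le_fracField A K M) hT hk
  obtain ⟨T', hT'⟩ := hTinv
  refine ⟨T' ^ k * Y, ?_⟩
  rw [map_mul, map_pow, hY, hT']
  have h1 : x = tK⁻¹ ^ k * (tK ^ k * x) := by
    rw [inv_pow, inv_mul_cancel_left₀ (pow_ne_zero k ht0)]
  conv_rhs => rw [h1]
  rfl

/-- coercion of a constant multiple. -/
theorem coe_algebraMap_mul (c : ↥(AK A K)) (z : ↥(FK M K)) :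
    ((algebraMap ↥(AK A K) ↥(FK M K) c * z : ↥(FK M K)) : LaurentSeries K) =
      HahnSeries.C ((c : ↥(AK A K)) : K) * (z : LaurentSeries K) := by
  show algebraMap K (LaurentSeries K) ((c : ↥(AK A K)) : K) * _ = _
  rw [algebraMap_eq_C]

theorem serB_zero (ht : tK ∈ chart ↥(AK A K) tK) : (0 : LaurentSeries ↥(AK A K)) ∈ serB A M K tK :=
  ⟨0, ⟨0, by rw [mul_zero]; exact zero_mem _⟩, by rw [map_zero]; rfl⟩

theorem serB_add (ht : tK ∈ chart ↥(AK A K) tK) {Z W : LaurentSeries ↥(AK A K)}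
    (hZ : Z ∈ serB A M K tK) (hW : W ∈ serB A M K tK) : Z + W ∈ serB A M K tK := by
  obtain ⟨z, ⟨k, hk⟩, hz⟩ := hZ
  obtain ⟨w, ⟨l, hl⟩, hw⟩ := hW
  refine ⟨z + w, ⟨k + l, ?_⟩, by rw [map_add, hz, hw]; rfl⟩
  have h1 : tK ^ (k + l) * (z + w) = tK ^ l * (tK ^ k * z) + tK ^ k * (tK ^ l * w) := by
    rw [pow_add]; ring
  rw [h1]
  exact add_mem (mul_mem (pow_mem ht l) hk) (mul_mem (pow_mem ht k) hl)

theorem serB_smul (c : ↥(AK A K)) {Z : LaurentSeries ↥(AK A K)} (hZ : Z ∈ serB A M K tK) :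
    HahnSeries.C c * Z ∈ serB A M K tK := by
  obtain ⟨z, ⟨k, hk⟩, hz⟩ := hZ
  refine ⟨algebraMap ↥(AK A K) ↥(FK M K) c * z, ⟨k, ?_⟩, ?_⟩
  · rw [mul_left_comm]
    exact mul_mem (Subalgebra.algebraMap_mem _ c) hk
  · rw [map_mul, hz, embK_C, coe_algebraMap_mul]

/-- **Saturation** of `B0_K[1/t]` (in series form). -/
theorem serB_sat (hu : IsUnif (AK A K) ϖ)
    (hm : TwoChartModel ↥(AK A K) K ↥(FK M K) ϖ tK (chart ↥(AK A K) tK) (chart ↥(AK A K) tK⁻¹) Ov)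
    (hOv : ∀ x : ↥(FK M K), x ∈ Ov ↔ (x : LaurentSeries K) ∈ gaussRing (AK A K))
    {Z : LaurentSeries ↥(AK A K)} (hZ : Z ∈ serB A M K tK) (hZ0 : redL (AK A K) Z = 0) :
    ∃ Z' ∈ serB A M K tK, Z = HahnSeries.C ϖ * Z' := by
  obtain ⟨z, ⟨k, hk⟩, hz⟩ := hZ
  obtain ⟨Z', rfl⟩ := (redL_eq_zero_iff hu Z).mp hZ0
  have hϖ0 : algebraMap ↥(AK A K) ↥(FK M K) ϖ ≠ 0 := hm.pi_ne
  obtain ⟨z', hzz'⟩ : ∃ z' : ↥(FK M K), z = algebraMap ↥(AK A K) ↥(FK M K) ϖ * z' :=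
    ⟨(algebraMap ↥(AK A K) ↥(FK M K) ϖ)⁻¹ * z, by rw [mul_inv_cancel_left₀ hϖ0]⟩
  have hz'ser : embK (AK A K) Z' = (z' : LaurentSeries K) := by
    have h1 : embK (AK A K) (HahnSeries.C ϖ) * embK (AK A K) Z' =
        embK (AK A K) (HahnSeries.C ϖ) * (z' : LaurentSeries K) := by
      rw [← map_mul, hz, hzz', embK_C, coe_algebraMap_mul]
    have h2 : embK (AK A K) (HahnSeries.C ϖ) ≠ 0 := by
      rw [embK_C]
      intro h0
      have h3 := congrArg (fun s : LaurentSeries K => s.coeff 0) h0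
      simp only [HahnSeries.C_apply, HahnSeries.coeff_single_same, HahnSeries.coeff_zero] at h3
      exact hu.ne_zero (Subtype.ext h3)
    exact mul_left_cancel₀ h2 h1
  refine ⟨Z', ⟨z', ⟨k, ?_⟩, hz'ser⟩, rfl⟩
  have hz'Ov : z' ∈ Ov := by
    rw [hOv, ← hz'ser]
    exact embK_mem (AK A K) Z'
  refine hm.sat0 (tK ^ k * z) hk (tK ^ k * z') ?_ ?_
  · exact Ov.mul_mem _ _ (pow_mem (hm.le_Ov0 _ hm.t_mem) k) hz'Ov
  · rw [hzz', mul_left_comm]

/-- every element of `M01` is a combination of base changes with integral series. -/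
theorem exists_comb
    (hT : ∃ T : LaurentSeries ↥(AK A K), embK (AK A K) T = (tK : LaurentSeries K))
    (hTinv : ∃ T : LaurentSeries ↥(AK A K),
      embK (AK A K) T = ((tK⁻¹ : ↥(FK M K)) : LaurentSeries K))
    (ht0 : tK ≠ 0) {f : ↥(Fbar M)} (hf : f ∈ M01 A M K tK) :
    ∃ (n : ℕ) (a : Fin n → ↥A) (x : Fin n → ↥(FK M K))
      (Y : Fin n → LaurentSeries ↥(AK A K)), (∀ i, Y i ∈ serB A M K tK) ∧
      (∀ i, embK (AK A K) (Y i) = ((x i : ↥(FK M K)) : LaurentSeries K)) ∧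
      f = ∑ i, a i • baseChangeHom M K (x i) := by
  obtain ⟨n, a, g, rfl⟩ := Submodule.mem_span_set'.mp hf
  have hg : ∀ i, ∃ x : ↥(FK M K), (∃ k : ℕ, tK ^ k * x ∈ chart ↥(AK A K) tK) ∧
      baseChangeHom M K x = (g i : ↥(Fbar M)) := fun i => (g i).2
  choose x hx hxg using hg
  have hY : ∀ i, ∃ Y : LaurentSeries ↥(AK A K),
      embK (AK A K) Y = ((x i : ↥(FK M K)) : LaurentSeries K) :=
    fun i => exists_series hT hTinv ht0 (hx i)
  choose Y hY using hY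
  refine ⟨n, a, x, Y, fun i => ⟨x i, hx i, hY i⟩, hY, ?_⟩
  refine Finset.sum_congr rfl fun i _ => ?_
  rw [hxg]

/-- the abstract core, instantiated. -/
theorem core_inst (hϖ : Irreducible ϖ)
    (hm : TwoChartModel ↥(AK A K) K ↥(FK M K) ϖ tK (chart ↥(AK A K) tK) (chart ↥(AK A K) tK⁻¹) Ov)
    (hOv : ∀ x : ↥(FK M K), x ∈ Ov ↔ (x : LaurentSeries K) ∈ gaussRing (AK A K))
    {n : ℕ} (a : Fin n → ↥A) (Y : Fin n → LaurentSeries ↥(AK A K))
    (hYB : ∀ i, Y i ∈ serB A M K tK)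
    (hρ0 : coeffMap (IsLocalRing.residue ↥A)
      (∑ i, HahnSeries.C (a i) * coeffMap (incl A K) (Y i)) = 0) :
    ∃ (m : ℕ) (a' : Fin m → ↥A) (Y' : Fin m → LaurentSeries ↥(AK A K)),
      (∀ i, a' i ∈ IsLocalRing.maximalIdeal ↥A) ∧ (∀ i, Y' i ∈ serB A M K tK) ∧
        ∑ i, HahnSeries.C (a i) * coeffMap (incl A K) (Y i) =
          ∑ i, HahnSeries.C (a' i) * coeffMap (incl A K) (Y' i) := by
  have hu : IsUnif (AK A K) ϖ := isUnif_of_irreducible (AK A K) hϖ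
  letI : Algebra (Res (AK A K)) (kA A) := (resMap A K).toAlgebra
  have hϖA : incl A K ϖ ∈ IsLocalRing.maximalIdeal ↥A := by
    have h1 : IsLocalRing.residue ↥(AK A K) ϖ = 0 := res0_unif hu
    rw [← IsLocalRing.residue_eq_zero_iff, ← resMap_residue, h1, map_zero]
  exact KerCore24.ker_core (incl A K)
    (HahnSeries.C : ↥(AK A K) →+* LaurentSeries ↥(AK A K))
    (HahnSeries.C : ↥A →+* LaurentSeries ↥A) (coeffMap (incl A K))
    (IsLocalRing.residue ↥(AK A K)) (IsLocalRing.residue ↥A) (redL (AK A K))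
    (coeffMap (IsLocalRing.residue ↥A)) (serB A M K tK) ϖ
    (fun c => Fermat.Agent.RED.PUR.GaussGen8.coeffMap_C _ _)
    IsLocalRing.residue_surjective
    (fun c hc => (IsLocalRing.residue_ne_zero_iff_isUnit c).mp hc)
    (fun c => IsLocalRing.residue_eq_zero_iff c) hϖA
    (fun c => by rw [redL_C, algebraMap_eq_C])
    (fun c => by rw [Fermat.Agent.RED.PUR.GaussGen8.coeffMap_C, algebraMap_eq_C])
    (fun Z => coeffMap_residue_incl A K Z)
    (serB_zero hm.t_mem) (fun Z hZ W hW => serB_add hm.t_mem hZ hW)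
    (fun c Z hZ => serB_smul c hZ)
    (fun Z hZ hZ0 => serB_sat hu hm hOv hZ hZ0)
    n a Y hYB hρ0

/-- **(I2)** `M₀₁ ⊆ intF` and `ker (redF | M₀₁) ⊆ 𝔪_A • M₀₁`. -/
theorem kerProp (ℓ : ℕ) [Fact ℓ.Prime] (hA : A.LiesOverPrime ℓ) (hℓM : ¬ ℓ ∣ M)
    (hϖ : Irreducible ϖ)
    (hm : TwoChartModel ↥(AK A K) K ↥(FK M K) ϖ tK (chart ↥(AK A K) tK) (chart ↥(AK A K) tK⁻¹) Ov)
    (hOv : ∀ x : ↥(FK M K), x ∈ Ov ↔ (x : LaurentSeries K) ∈ gaussRing (AK A K))
    (hT : ∃ T : LaurentSeries ↥(AK A K), embK (AK A K) T = (tK : LaurentSeries K))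
    (hTinv : ∃ T : LaurentSeries ↥(AK A K),
      embK (AK A K) T = ((tK⁻¹ : ↥(FK M K)) : LaurentSeries K)) :
    KerProp A M K tK ℓ hA hℓM := by
  classical
  -- `M01 ⊆ intF`
  have h01 : ∀ f ∈ M01 A M K tK, f ∈ intF A M := by
    intro f hf
    obtain ⟨n, a, x, Y, -, hY, rfl⟩ := exists_comb hT hTinv hm.t_ne hf
    exact ⟨_, coe_comb A M K a x Y hY⟩
  refine ⟨h01, fun f hf hred => ?_⟩
  obtain ⟨n, a, x, Y, hYB, hY, rfl⟩ := exists_comb hT hTinv hm.t_ne hf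
  -- the reduction of the `A`-series vanishes
  have hρ0 : coeffMap (IsLocalRing.residue ↥A)
      (∑ i, HahnSeries.C (a i) * coeffMap (incl A K) (Y i)) = 0 := by
    rw [← coe_redF_eq_of (ℓ := ℓ) (hA := hA) (hℓM := hℓM)
      (y := ⟨∑ i, a i • baseChangeHom M K (x i), h01 _ hf⟩) (coe_comb A M K a x Y hY), hred]
    rfl
  obtain ⟨m, a', Y', ha', hY', hsum⟩ := core_inst hϖ hm hOv a Y hYB hρ0
  -- conclusion
  have hy : ∀ i, ∃ y : ↥(FK M K), (∃ k : ℕ, tK ^ k * y ∈ chart ↥(AK A K) tK) ∧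
      embK (AK A K) (Y' i) = (y : LaurentSeries K) := fun i => hY' i
  choose y hyB hyY using hy
  have hfin : ∑ i, a i • baseChangeHom M K (x i) = ∑ i, a' i • baseChangeHom M K (y i) := by
    apply Subtype.ext
    rw [← coe_comb A M K a x Y hY, ← coe_comb A M K a' y Y' hyY, hsum]
  rw [hfin]
  refine Submodule.sum_mem _ fun i _ => ?_
  exact Submodule.smul_mem_smul (ha' i) (Submodule.subset_span ⟨y i, hyB i, rfl⟩)

end Fermat.Agent.ES.V19.KerProp24
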