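/-
Programme V (S19), chapter B1 (helper12, route owner): **THE EXIT OF B1, PROVED.**

`genusLe : GenusSF12.GenusLe` — for every Hauptmodul datum `(n, e)`, every level `M` with `n ∣ M`,
every prime `ℓ ∤ M` and every valuation subring `A` of `ℚ̄` over `ℓ`:
`genusFF ℚ̄ (ℚ̄·F_M) ≤ genusFF k̄ F̃_M`.

The (I2) leaf `GenusLeAsm12.KerLeaf` is helper24's `KerProp24.kerProp` at the two-chart model
`LevelK24.LevelHyps.model` (Gauss valuation ring `OvE`, `G1Package8.mem_OvE_iff`), the integral
expansions of `t_K^{±1}` being helper17's `SurjPropInst17.exists_embK_tq(_inv)`; then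
`GenusLeSurj12.genusLe_of_kerLeaf`.
-/
import Mathlib
import Fermat.Agent.ES.V19.GenusLeSurj12
import Fermat.Agent.ES.V19.KerProp24

set_option autoImplicit false
set_option synthInstance.maxHeartbeats 400000
set_option linter.unusedSectionVars false

open AlgebraicCurve ModularCurve IntermediateField

noncomputable section

namespace Fermat.Agent.ES.V19.GenusLe12

open Fermat.Agent.RED.Interface4 Fermat.Agent.RED.BASE Fermat.Agent.ES.V19.GenusLeAsm12

/-- **The (I2) leaf** (helper24). -/
theorem kerLeaf (n e M : ℕ) [NeZero n] [NeZero M] (ℓ : ℕ) [Fact ℓ.Prime] (hℓM : ¬ ℓ ∣ M)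
    (A : ValuationSubring Qbar) (hA : A.LiesOverPrime ℓ) : KerLeaf n e M ℓ hℓM A hA := by
  intro K hK hdvr ϖ tK h htq
  have := hK
  have := hdvr
  exact Fermat.Agent.ES.V19.KerProp24.kerProp ℓ hA hℓM h.irr h.model
    (fun x => Fermat.Agent.RED.PUR.G1Package8.mem_OvE_iff _ h.irr _ h.hE x)
    (Fermat.Agent.ES.V19.SurjPropInst17.exists_embK_tq n e K tK htq)
    (Fermat.Agent.ES.V19.SurjPropInst17.exists_embK_tq_inv n e K tK htq)

/-- **(B1) `g ≤ g̃`**: the genus of the generic fibre of the modular curve of level `M` is at most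
the genus of its special fibre at `ℓ ∤ M`. -/
theorem genusLe : Fermat.Agent.ES.V19.GenusSF12.GenusLe :=
  Fermat.Agent.ES.V19.GenusLeSurj12.genusLe_of_kerLeaf kerLeaf

end Fermat.Agent.ES.V19.GenusLe12
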