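/-
Programme V (S19), chapter B1 (helper12): **EXIT LITERAL of B1, statement only** (ruling 5).

For every Hauptmodul datum `(n, e)` (`Hauptmodul12.BaseHyp n e`, i.e. `(4, 8)` or `(9, 3)`), every
level `M` with `n ∣ M`, every prime `ℓ ∤ M` and every valuation subring `A` of `ℚ̄` over `ℓ`, compare
the Prelude's repartition genus `genusFF` of

  the generic fibre   `F = modularFunctionFieldBar M`                        over `ℚ̄`,
  the special fibre   `F̃ = modularFunctionFieldFullC (ResidueField A) M`    over `k̄ = ResidueField A`.

* `GenusLe` : `g(F) ≤ g(F̃)` — THE exit literal of B1 (the direction that uses properness and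
  smoothness of the model; it is all that the chapters B2/B4/B5 consume);
* `GenusEq` : `g(F̃) = g(F)` — the bonus form (with the elementary converse inequality).

These are literally the objects of main's reduction chapter: `kA A = ResidueField A`,
`Ft M A = ↥(modularFunctionFieldFullC (kA A) M)`, `Fbar M = modularFunctionFieldBar M`, and the
hypotheses are those of `ModelInstFinal4.twoCharts_final` / `RedInst15.isPlaceReductionModL_main`.
No proof in this file.
-/
import Mathlib
import Fermat.Prelude.Def_AlgebraicCurve_Repartitions
import Fermat.Prelude.Def_ModularCurve_ReductionModL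
import Fermat.Prelude.Def_FLTPrelim_Ramification
import Fermat.Agent.RED.BASE.Hauptmodul12

set_option autoImplicit false
set_option synthInstance.maxHeartbeats 400000

open AlgebraicCurve ModularCurve

namespace Fermat.Agent.ES.V19.GenusSF12

/-- **(B1), exit literal**: the genus of the generic fibre is at most the genus of the special
fibre. -/
def GenusLe : Prop :=
  ∀ (n e : ℕ) [NeZero n], Fermat.Agent.RED.BASE.Hauptmodul12.BaseHyp n e →
    ∀ (M : ℕ) [NeZero M], n ∣ M → ∀ ℓ : ℕ, ℓ.Prime → ¬ ℓ ∣ M →
      ∀ A : ValuationSubring (AlgebraicClosure ℚ), A.LiesOverPrime ℓ →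
        genusFF (AlgebraicClosure ℚ) ↥(modularFunctionFieldBar M) ≤
          genusFF (IsLocalRing.ResidueField ↥A)
            ↥(modularFunctionFieldFullC (IsLocalRing.ResidueField ↥A) M)

/-- **(B1), bonus form**: the genus of the special fibre equals the genus of the generic fibre. -/
def GenusEq : Prop :=
  ∀ (n e : ℕ) [NeZero n], Fermat.Agent.RED.BASE.Hauptmodul12.BaseHyp n e →
    ∀ (M : ℕ) [NeZero M], n ∣ M → ∀ ℓ : ℕ, ℓ.Prime → ¬ ℓ ∣ M →
      ∀ A : ValuationSubring (AlgebraicClosure ℚ), A.LiesOverPrime ℓ →
        genusFF (IsLocalRing.ResidueField ↥A)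
            ↥(modularFunctionFieldFullC (IsLocalRing.ResidueField ↥A) M) =
          genusFF (AlgebraicClosure ℚ) ↥(modularFunctionFieldBar M)

end Fermat.Agent.ES.V19.GenusSF12
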