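/-
Programme V (S19 by hand, route `S19_ROUTE23.md`), chapter (B6)/(Eb), leaf (L3), helper16:
**bad places are finite in number.**

`K` algebraically closed (any characteristic), `F/K` a function field with a SEPARATING transcendental
generator `x` (`Algebra.IsSeparable K⟮x⟯ F`).  A place `v` of `F/K` is GOOD for `x` if
`ord_v (x - c) = 1` for some constant `c` (then `c = x(v)` and `x - c` is a local parameter at `v`).

* `finite_not_good` : all but finitely many places are good.

Proof: the bad places are the poles of `x` (finite: `SumOrdSep15.finite_poles_sep`) and the places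
`v = v_P`, `P` a maximal ideal of `B := intRing K x` (the integral closure of `K[x]`), with
`e := ord_v (x - c) ≥ 2` where `c = x(v)`; then `P ^ 2 ∣ (x - c) B`, so `P` divides the different of
`B / K[x]` (`pow_sub_one_dvd_differentIdeal_aux`), which is a nonzero ideal by separability, and a
nonzero ideal of a Dedekind domain has finitely many prime divisors.
-/
import Mathlib
import Fermat.Agent.ES.RED.SumOrdSep15

set_option autoImplicit false
set_option linter.unusedSectionVars false

open AlgebraicCurve IntermediateField Polynomial IsDedekindDomain WithZero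
open scoped IntermediateField.algebraAdjoinAdjoin

noncomputable section

namespace Fermat.Agent.ES.V19.GoodCofinite16

open Fermat.Agent.X0 Fermat.Agent.X0.FF Fermat.Agent.ES.RED.SumOrdSep15

variable {K F : Type*} [Field K] [Field F] [Algebra K F] {x : F}

/-- `x - c` as an element of `K[x]`. -/
def genSub (K : Type*) {F : Type*} [Field K] [Field F] [Algebra K F] (x : F) (c : K) :
    polyRing K x := genA K x - algebraMap K (polyRing K x) c

theorem coe_genSub (c : K) : ((genSub K x c : polyRing K x) : F) = x - algebraMap K F c := rfl

theorem genSub_ne_zero (hx : Transcendental K x) (c : K) : genSub K x c ≠ 0 := by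
  intro h
  apply hx
  have h1 : x - algebraMap K F c = 0 := by
    rw [← coe_genSub, h]
    rfl
  rw [sub_eq_zero] at h1
  rw [h1]
  exact isAlgebraic_algebraMap c

/-- `(x - c)` is a maximal ideal of `K[x]`. -/
theorem span_genSub_isMaximal (hx : Transcendental K x) (c : K) :
    (Ideal.span {genSub K x c}).IsMaximal := by
  let e := Polynomial.algEquivOfTranscendental K x hx
  have he : e (X - C c) = genSub K x c := by
    apply Subtype.ext
    simp [e, genSub]
  have h1 : (Ideal.span {(X - C c : K[X])}).IsMaximal :=
    PrincipalIdealRing.isMaximal_of_irreducible (Polynomial.irreducible_X_sub_C c)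
  have h2 : Ideal.span {genSub K x c} =
      Ideal.map e.toRingEquiv (Ideal.span {(X - C c : K[X])}) := by
    rw [Ideal.map_span, Set.image_singleton]
    show Ideal.span {genSub K x c} = Ideal.span {e (X - C c)}
    rw [he]
  rw [h2]
  exact Ideal.map_isMaximal_of_equiv e.toRingEquiv

variable [IsAlgClosed K]

/-- **All but finitely many places are GOOD** for a separating transcendental generator `x`:
`ord_v (x - c) = 1` for some constant `c`. -/
theorem finite_not_good (hx : IsGen K x) (hsep : Algebra.IsSeparable K⟮x⟯ F) :
    {v : Place K F | ¬ ∃ c : K, v.ord (x - algebraMap K F c) = 1}.Finite := by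
  classical
  have hfin := hx.finite
  have hPID := isPrincipalIdealRing_polyRing hx.transcendental
  have hDedB := isDedekindDomain_intRing_sep hx
  have hFracB := isFractionRing_intRing hx
  have hFinB := finite_intRing_sep hx
  have hfaith : FaithfulSMul (polyRing K x) (intRing K x) :=
    (faithfulSMul_iff_algebraMap_injective _ _).mpr
      (fun a b h => Subtype.ext (congrArg (fun z : intRing K x => (z : F)) h))
  -- the different is a nonzero ideal
  have hD0 : differentIdeal (polyRing K x) (intRing K x) ≠ ⊥ := by
    rw [ne_eq, ← FractionalIdeal.coeIdeal_inj (K := F),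
      coeIdeal_differentIdeal (polyRing K x) K⟮x⟯ F (intRing K x)]
    simp
  have hSfin : {w : HeightOneSpectrum (intRing K x) |
      w.asIdeal ∣ differentIdeal (polyRing K x) (intRing K x)}.Finite :=
    Ideal.finite_factors hD0
  refine ((finite_poles_sep hx).union (hSfin.image
    (fun w => Place.ofHeightOneSpectrum (K := K) (F := F) w))).subset ?_
  intro v hv
  by_cases hpole : v.ord x < 0
  · exact Or.inl hpole
  right
  have hx0 : 0 ≤ v.ord x := not_lt.mp hpole
  have hxv : x ∈ v.toValuationSubring := mem_of_ord_nonneg v hx0
  obtain ⟨w, hw⟩ := exists_eq_ofHeightOneSpectrum (K := K) (F := F) (R := intRing K x) v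
    (intRing_le_of_mem v hxv)
  refine ⟨w, ?_, hw.symm⟩
  -- the value of `x` at `v`
  obtain ⟨c, hc⟩ := exists_ord_sub_pos hx v hxv
  have hc : 0 < v.ord (x - algebraMap K F c) := by
    rcases hc with hc | hc
    · exact absurd (hc ▸ isAlgebraic_algebraMap c) hx.transcendental
    · exact hc
  have hne1 : v.ord (x - algebraMap K F c) ≠ 1 := fun h => hv ⟨c, h⟩
  have h2 : 2 ≤ v.ord (x - algebraMap K F c) := by omega
  -- translate to the prime `w`
  set a : polyRing K x := genSub K x c with ha
  set xB : intRing K x := algebraMap (polyRing K x) (intRing K x) a with hxB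
  have hxBF : algebraMap (intRing K x) F xB = x - algebraMap K F c := rfl
  have hxB0 : xB ≠ 0 := by
    rw [hxB, Ne, FaithfulSMul.algebraMap_eq_zero_iff]
    exact genSub_ne_zero hx.transcendental c
  have hval0 : w.valuation F (algebraMap (intRing K x) F xB) ≠ 0 := by
    rw [Ne, Valuation.zero_iff]
    rw [hxBF]
    exact hx.sub_algebraMap_ne_zero c
  have hval : w.intValuation xB ≤ exp (-((2 : ℕ) : ℤ)) := by
    rw [← HeightOneSpectrum.valuation_of_algebraMap (K := F) w xB]
    rw [hw, dict_ord_ofHeightOneSpectrum, ← hxBF] at h2
    rw [← log_le_iff_le_exp hval0]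
    push_cast
    omega
  have hdvd : w.asIdeal ^ 2 ∣ Ideal.span {xB} := (w.intValuation_le_pow_iff_dvd xB 2).mp hval
  have hp0 : Ideal.span {a} ≠ ⊥ := by
    rw [Ne, Ideal.span_singleton_eq_bot]
    exact genSub_ne_zero hx.transcendental c
  have hpmax : (Ideal.span {a}).IsMaximal := span_genSub_isMaximal hx.transcendental c
  have hpmap : (Ideal.span {a}).map (algebraMap (polyRing K x) (intRing K x)) =
      Ideal.span {xB} := by
    rw [Ideal.map_span, Set.image_singleton]
  have hdvd' : w.asIdeal ^ 2 ∣ (Ideal.span {a}).map (algebraMap (polyRing K x) (intRing K x)) := by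
    rw [hpmap]
    exact hdvd
  have := pow_sub_one_dvd_differentIdeal_aux (polyRing K x) K⟮x⟯ F w.asIdeal (e := 2)
    (by norm_num) hp0 hdvd'
  simpa using this

/-- Over every constant `c` there is a place: `x - c` has a zero. -/
theorem exists_zero_sub (hx : IsGen K x) (hsep : Algebra.IsSeparable K⟮x⟯ F) (c : K) :
    ∃ v : Place K F, 0 < v.ord (x - algebraMap K F c) := by
  by_contra hcon
  have hfin := hx.finite
  have hsum := sum_ord_fibre_sep hx c
  have h0 : ∑ᶠ (v : Place K F) (_ : 0 < v.ord (x - algebraMap K F c)),
      v.ord (x - algebraMap K F c) = 0 := by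
    refine finsum_eq_zero_of_forall_eq_zero fun v => ?_
    classical
    rw [finsum_eq_if, if_neg fun hv => hcon ⟨v, hv⟩]
  rw [h0] at hsum
  have hpos : 0 < Module.finrank K⟮x⟯ F := Module.finrank_pos
  omega

/-- The value of `x` at a place is unique. -/
theorem eq_of_ord_sub_pos (v : Place K F) {c c' : K}
    (h : 0 < v.ord (x - algebraMap K F c)) (h' : 0 < v.ord (x - algebraMap K F c')) : c = c' := by
  by_contra hne
  have hne' : algebraMap K F (c' - c) ≠ 0 := by
    rw [Ne, map_eq_zero, sub_eq_zero]
    exact fun h => hne h.symm
  have h1 : (x - algebraMap K F c) - (x - algebraMap K F c') = algebraMap K F (c' - c) := by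
    rw [map_sub]
    ring
  have h2 := ord_sub_ge v (f := x - algebraMap K F c) (g := x - algebraMap K F c')
    (by rw [h1]; exact hne')
  rw [h1, ord_algebraMap] at h2
  have h3 : 0 < min (v.ord (x - algebraMap K F c)) (v.ord (x - algebraMap K F c')) :=
    lt_min h h'
  omega

/-- A function field over an algebraically closed field has infinitely many places. -/
theorem infinite_place (hx : IsGen K x) (hsep : Algebra.IsSeparable K⟮x⟯ F) :
    Infinite (Place K F) := by
  have hK : Infinite K := IsAlgClosed.instInfinite
  choose φ hφ using exists_zero_sub hx hsep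
  exact Infinite.of_injective φ fun c c' h => eq_of_ord_sub_pos (φ c) (hφ c) (h ▸ hφ c')

/-- **A GOOD place outside any finite set of places.** -/
theorem exists_good_not_mem (hx : IsGen K x) (hsep : Algebra.IsSeparable K⟮x⟯ F)
    {S : Set (Place K F)} (hS : S.Finite) :
    ∃ v : Place K F, v ∉ S ∧ ∃ c : K, v.ord (x - algebraMap K F c) = 1 := by
  have hinf := infinite_place hx hsep
  have hfin := (finite_not_good hx hsep).union hS
  obtain ⟨v, hv⟩ := hfin.infinite_compl.nonempty
  rw [Set.mem_compl_iff, Set.mem_union, not_or] at hv
  exact ⟨v, hv.2, not_not.mp hv.1⟩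

/-- The GOOD places are infinite in number. -/
theorem infinite_good (hx : IsGen K x) (hsep : Algebra.IsSeparable K⟮x⟯ F) :
    {v : Place K F | ∃ c : K, v.ord (x - algebraMap K F c) = 1}.Infinite := by
  intro hfin
  obtain ⟨v, hv, hgood⟩ := exists_good_not_mem hx hsep hfin
  exact hv hgood

/-- At a GOOD place with centre `c`, `x` is integral and `c` is its value. -/
theorem good_mem (v : Place K F) {c : K} (h : v.ord (x - algebraMap K F c) = 1) :
    x ∈ v.toValuationSubring := by
  have h1 : x - algebraMap K F c ∈ v.toValuationSubring := mem_of_ord_nonneg v (by omega)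
  have h2 := v.toValuationSubring.add_mem _ _ h1 (v.algebraMap_mem' c)
  rwa [sub_add_cancel] at h2

end Fermat.Agent.ES.V19.GoodCofinite16
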