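/-
Programme V (S19 by hand, route `S19_ROUTE23.md`), chapter (B6), join step J8, helper11:
**GOOD places are cofinite (helper16's `GoodCofinite16`, instantiated at `t̃ = T.S0.red T.S0.sB`), and
the exit `FunnelData11.exists_funnel_data` with `hbad` and the two `Infinite` instances discharged.**

Remaining inputs: `(Da)` at every GOOD pair, `LHyp` + Riemann's inequality for the special fibre,
`t̃` a separating generator, ONE chart of (B5).
-/
import Fermat.Agent.ES.V19.FunnelData11
import Fermat.Agent.ES.V19.GoodCofinite16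

set_option autoImplicit false
set_option linter.unusedSectionVars false
set_option synthInstance.maxHeartbeats 400000

noncomputable section

open AlgebraicCurve ModularCurve IntermediateField

namespace Fermat.Agent.ES.V19.GoodInst11

open Fermat.Agent.X0.FF Fermat.Agent.ES.RED.Contract8 Fermat.Agent.ES.RED.TwoCharts8
  Fermat.Agent.ES.RED.GaloisInst21 Fermat.Agent.ES.V19.DiscIface3 Fermat.Agent.ES.V19.RedKer21
  Fermat.Agent.RR.LSpace Fermat.Agent.ES.V19.GammaF16 Fermat.Agent.ES.V19.Assemble11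
  Fermat.Agent.ES.V19.TraceDescent26

local notation "Qb" => AlgebraicClosure ℚ

attribute [local instance 5000] HahnSeries.powerSeriesAlgebra SubalgebraClass.toAlgebra

variable {A : ValuationSubring Qb} {M : ℕ} [NeZero M]
  {x : ↥(laurentBaseChange Qb (modularFunctionFieldFull M))} {hx : IsGen Qb x}
  (T : TwoCharts A hx ↥(modularFunctionFieldFullC (kA A) M))

/-- `Good T Q c` says that `t̃ - c̄` has a simple zero at `Q`. -/
theorem good_iff (Q : Place (kA A) ↥(modularFunctionFieldFullC (kA A) M)) (c : ↥A) :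
    Good T Q c ↔ Q.ord (T.S0.red T.S0.sB - algebraMap (kA A) _ (resA A c)) = 1 := by
  unfold Good
  rw [BasePointInst11.red_tauB]

variable [IsAlgClosed (kA A)]

/-- **The places of the special fibre which are not GOOD are finite in number.** -/
theorem finite_not_good (hgent : IsGen (kA A) (T.S0.red T.S0.sB))
    (hsep : Algebra.IsSeparable (kA A)⟮T.S0.red T.S0.sB⟯ ↥(modularFunctionFieldFullC (kA A) M)) :
    {Q : Place (kA A) ↥(modularFunctionFieldFullC (kA A) M) | ¬ ∃ c : ↥A, Good T Q c}.Finite := by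
  refine (GoodCofinite16.finite_not_good hgent hsep).subset ?_
  intro Q hQ hcon
  apply hQ
  obtain ⟨cbar, hc⟩ := hcon
  obtain ⟨c, rfl⟩ := IsLocalRing.residue_surjective cbar
  exact ⟨c, (good_iff T Q c).mpr hc⟩

variable (hr : IsPlaceReductionAlong A (IsLocalRing.residue ↥A) M T.r)
  (hgen : PrincipalGeneratedByIntegral A (IsLocalRing.residue ↥A) M)
  {xt : ↥(modularFunctionFieldFullC (kA A) M)} (hxt : IsGen (kA A) xt)
  (h0 : CoeffChart (F₀ := modularFunctionFieldFull M) T.S0)
  (h1 : CoeffChart (F₀ := modularFunctionFieldFull M) T.S1)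

include hxt h0 h1 in
/-- **(B6) exit at the `ℚ̄`-level**, with the cofiniteness of GOOD places discharged. -/
theorem exists_funnel_data' {ℓ : ℕ} (hℓ : ℓ.Prime) (hA : A.LiesOverPrime ℓ)
    (hDa : ∀ (Q : Place (kA A) ↥(modularFunctionFieldFullC (kA A) M)) (c : ↥A),
      Good T Q c → Da T Q c)
    (hgent : IsGen (kA A) (T.S0.red T.S0.sB))
    (hsep : Algebra.IsSeparable (kA A)⟮T.S0.red T.S0.sB⟯ ↥(modularFunctionFieldFullC (kA A) M))
    (HL : LHyp (kA A) ↥(modularFunctionFieldFullC (kA A) M))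
    (hR : ∃ γ : ℤ, ∀ D : Divisor (kA A) ↥(modularFunctionFieldFullC (kA A) M),
      Divisor.degree D + 1 - γ ≤ (Module.finrank (kA A) (riemannRochSpace D) : ℤ))
    {Mod : Type*} [AddCommGroup Mod] [DistribMulAction (Qb ≃ₐ[ℚ] Qb) Mod] [Finite Mod]
    (inc : Mod →+ JZero M) (hincG : ∀ (σ : Qb ≃ₐ[ℚ] Qb) (y : Mod), inc (σ • y) = σ • inc y)
    {g : ℕ} (hxi : ∃ f₀, 0 < f₀ ∧ ∃ Ξ : JZero M → Fin g → Qb,
      XiData A.toSubring (J1 T hr hgen) Ξ ↥(fixRing A (gammaF A ℓ f₀)) ↥(gammaF A ℓ f₀)) :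
    ∃ f, 0 < f ∧
      (∀ σ ∈ gammaF A ℓ f, ∀ y : Mod, σ • y - y ∈ (J1 T hr hgen).comap inc) ∧
      ∃ (Ξ : JZero M → Fin g → Qb) (P : Mod → JZero M),
        XiData A.toSubring (J1 T hr hgen) Ξ ↥(fixRing A (gammaF A ℓ f)) ↥(gammaF A ℓ f) ∧
        BaseData (J1 T hr hgen) inc P ↥(gammaF A ℓ f) := by
  have : Infinite (kA A) := IsAlgClosed.instInfinite
  have : Infinite (Place (kA A) ↥(modularFunctionFieldFullC (kA A) M)) :=
    GoodCofinite16.infinite_place hgent hsep
  exact FunnelData11.exists_funnel_data T hr hgen hxt h0 h1 hℓ hA hDa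
    (finite_not_good T hgent hsep) HL hR inc hincG hxi

end Fermat.Agent.ES.V19.GoodInst11
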