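/-
Programme V (S19 by hand, route `S19_ROUTE23.md`), chapter (B6) "base points", helper11:
**a GOOD place of the special fibre has a lift fixed by inertia** (rationality by uniqueness).

Setting of helper3's `DiscIface3` (main's `TwoCharts8`).  Let `(Q, c)` satisfy `(Da)`: for every
`s ∈ 𝔪_A` the function `t - (c + s)` has exactly one zero in the residue disc of `Q`.  If a set
`S` of semilinear automorphisms of `F` preserves the reduction map (`T.r (g • P) = T.r P`), fixes the
chart coordinate `t = T.S0.s` and the constant `c`, then the zero `P` of `t - c` in the disc of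
`Q` is fixed by every `g ∈ S`.
-/
import Fermat.Agent.ES.V19.DiscIface3

set_option autoImplicit false

noncomputable section

open AlgebraicCurve

namespace Fermat.Agent.ES.V19.GoodLift11

open Fermat.Agent.X0.FF Fermat.Agent.ES.RED.Contract8 Fermat.Agent.ES.RED.TwoCharts8
  Fermat.Agent.ES.V19.DiscIface3

variable {L : Type*} [Field L] [IsAlgClosed L] {A : ValuationSubring L}
variable {F : Type*} [Field F] [Algebra L F] {x : F} {hx : IsGen L x}
variable {Ft : Type*} [Field Ft] [Algebra (kA A) Ft]
variable (T : TwoCharts A hx Ft) (Q : Place (kA A) Ft) (c : ↥A)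

/-- `g` fixes `t - (c + s)` when it fixes `t`, `c` and `s`. -/
theorem smul_tauSub (g : SemilinearAut L F) (hs : g • T.S0.s = T.S0.s)
    (hc : SemilinearAut.baseAut g (c : L) = c) (s : ↥A)
    (hs' : SemilinearAut.baseAut g (s : L) = s) :
    g • tauSub T c s = tauSub T c s := by
  unfold tauSub
  rw [smul_sub, hs, SemilinearAut.smul_algebraMap, map_add, hc, hs']

/-- **The lift of a GOOD place is fixed by uniqueness.** -/
theorem exists_fixed_lift (hDa : Da T Q c) (S : Set (SemilinearAut L F))
    (hr : ∀ g ∈ S, ∀ P, T.r (g • P) = T.r P) (hs : ∀ g ∈ S, g • T.S0.s = T.S0.s)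
    (hc : ∀ g ∈ S, SemilinearAut.baseAut g (c : L) = c) :
    ∃ P, T.r P = Q ∧ P.ord (tauSub T c 0) = 1 ∧ ∀ g ∈ S, g • P = P := by
  obtain ⟨P, hPQ, hP1, hPuniq⟩ := hDa.2.2 0 (Ideal.zero_mem _)
  refine ⟨P, hPQ, hP1, fun g hg => hPuniq (g • P) ?_ ?_⟩
  · rw [hr g hg, hPQ]
  · have h0 : SemilinearAut.baseAut g (((0 : ↥A) : L)) = ((0 : ↥A) : L) := by
      rw [ZeroMemClass.coe_zero, map_zero]
    have h1 := SemilinearAut.ord_smul g P (tauSub T c 0)
    rw [smul_tauSub T c g (hs g hg) (hc g hg) 0 h0] at h1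
    rw [h1, hP1]
    exact one_pos

end Fermat.Agent.ES.V19.GoodLift11
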