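/-
Programme V (S19 by hand, route `S19_ROUTE23.md`), THE LAST JOIN (G1), helper21:
**`hgeo` — the geometric input `TopInst19.HasXiChart ℓ (auxLevel ℓ N) k` of the frozen S19 — from
ONE named input at the instance `T := InstNames3.TV …` (`= ModelInstFinal4.twoCharts_final …`).**

* `XiInput` (G2, chapter (B5)) : one chart `Ξ` with `Assemble11.XiData` on the kernel of
  reduction `J¹ = RedKer21.J1 (TV …) (hrV …) (hgenV …)`, rational over `O_{f₀}` and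
  `Γ_{f₀}`-equivariant for SOME level `f₀ > 0` (and some `g`).
Everything else is discharged here: a valuation ring `A` over `ℓ`
(`FrobeniusExists.exists_valuationSubring_liesOverPrime`), the Hauptmodul datum `(n, e) = (9, 3)`
for `ℓ = 2` and `(4, 8)` otherwise (`AuxBase8`), helper3's instance names (`InstNames3`: `TV`,
`hrV`, `hgenV`, `hxtV`, `hS0V`, `hS1V`, `inputs0V`), `(Da)` at every GOOD pair (helper10's
`DiscDa10.da_all`), `LHyp` and Riemann's inequality for the special fibre (`LHypFt13`), and then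
helper11's `GoodInst11.exists_funnel_data'` at `Mod := Tors M ℓ k`, `inc := torsIncl M ℓ k`.

* `hasXiChart_of_xi` : at a level `M` with a Hauptmodul base;
* `hgeo` : at `M = auxLevel ℓ N`;
* `s19_of_xi` : the conclusion of the frozen S19 from `XiInput`.
-/
import Mathlib
import Fermat.Agent.ES.V19.InstNames3
import Fermat.Agent.ES.V19.RedKer21
import Fermat.Agent.ES.V19.DiscDa10
import Fermat.Agent.ES.V19.GoodInst11
import Fermat.Agent.ES.V19.TopInst19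
import Fermat.Agent.ES.V19.LHypFt13
import Fermat.Agent.ES.TOP.AuxBase8
import Fermat.Agent.Lib.FrobeniusExists

set_option autoImplicit false
set_option linter.unusedSectionVars false
set_option synthInstance.maxHeartbeats 400000

noncomputable section

open AlgebraicCurve ModularCurve IntermediateField

namespace Fermat.Agent.ES.V19.HgeoAsm21

open Fermat.Agent.X0 Fermat.Agent.X0.FF Fermat.Agent.RED.Interface4 Fermat.Agent.RED.BASE
  Fermat.Agent.RED.BASE.Hauptmodul12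
  Fermat.Agent.ES.RED Fermat.Agent.ES.RED.Contract8 Fermat.Agent.ES.RED.TwoCharts8
  Fermat.Agent.ES.RED.GaloisInst21
  Fermat.Agent.ES.V19.InstNames3 Fermat.Agent.ES.V19.RedKer21
  Fermat.Agent.ES.V19.GammaF16 Fermat.Agent.ES.V19.TraceDescent26 Fermat.Agent.ES.V19.Assemble11
  Fermat.Agent.ES.V19.TopLevel19 Fermat.Agent.ES.V19.TopInst19

local notation "Qb" => AlgebraicClosure ℚ
local notation "GQ" => (AlgebraicClosure ℚ ≃ₐ[ℚ] AlgebraicClosure ℚ)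

attribute [local instance 5000] HahnSeries.powerSeriesAlgebra SubalgebraClass.toAlgebra

/-- **the kernel of reduction at the instance** (helper3's `InstNames3` names). -/
def J1V (n e M : ℕ) [NeZero n] [NeZero M] (ℓ : ℕ) [Fact ℓ.Prime] (hℓM : ¬ ℓ ∣ M)
    (hb : BaseHyp n e) (hnM : n ∣ M) (A : ValuationSubring Qb) (hA : A.LiesOverPrime ℓ) :
    AddSubgroup (JZero M) :=
  J1 (TV n e M ℓ hℓM hb hnM A hA) (hrV n e M ℓ hℓM hb hnM A hA) (hgenV M ℓ hℓM A hA)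

/-- `J1V` is the kernel of `InstNames3.redPic0V`. -/
theorem J1V_eq_ker (n e M : ℕ) [NeZero n] [NeZero M] (ℓ : ℕ) [Fact ℓ.Prime] (hℓM : ¬ ℓ ∣ M)
    (hb : BaseHyp n e) (hnM : n ∣ M) (A : ValuationSubring Qb) (hA : A.LiesOverPrime ℓ) :
    J1V n e M ℓ hℓM hb hnM A hA = (redPic0V n e M ℓ hℓM hb hnM A hA).ker :=
  rfl

/-- **THE INPUT (G2, chapter (B5))**: one chart on the kernel of reduction `J¹ = J1V …`, rational
over `O_{f₀}` and `Γ_{f₀}`-equivariant for SOME `f₀ > 0`. -/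
def XiInput : Prop :=
  ∀ (n e M : ℕ) [NeZero n] [NeZero M] (ℓ : ℕ) [Fact ℓ.Prime] (hℓM : ¬ ℓ ∣ M)
    (hb : BaseHyp n e) (hnM : n ∣ M) (A : ValuationSubring Qb) (hA : A.LiesOverPrime ℓ),
    ∃ (g f₀ : ℕ), 0 < f₀ ∧ ∃ Ξ : JZero M → Fin g → Qb,
      XiData A.toSubring (J1V n e M ℓ hℓM hb hnM A hA) Ξ
        ↥(fixRing A (gammaF A ℓ f₀)) ↥(gammaF A ℓ f₀)

/-- **the geometric input of the funnel at a level `M` with a Hauptmodul base `(n, e)`.** -/
theorem hasXiChart_of_xi (hXi : XiInput)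
    (n e M : ℕ) [NeZero n] [NeZero M] (ℓ : ℕ) [Fact ℓ.Prime] (hℓM : ¬ ℓ ∣ M)
    (hb : BaseHyp n e) (hnM : n ∣ M) (k : ℕ) : HasXiChart ℓ M k := by
  have hℓ : ℓ.Prime := Fact.out
  obtain ⟨A, hA⟩ := Fermat.Agent.Lib.FrobeniusExists.exists_valuationSubring_liesOverPrime ℓ hℓ
  have hS0 := hS0V n e M ℓ hℓM hb hnM A hA
  have hS1 := hS1V n e M ℓ hℓM hb hnM A hA
  have hin := inputs0V n e M ℓ hℓM hb hnM A hA
  have hr := hrV n e M ℓ hℓM hb hnM A hA
  have hg := hgenV M ℓ hℓM A hA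
  have : IsAlgClosed (kA A) := isAlgClosed_kA A
  have HL := Fermat.Agent.ES.V19.LHypFt13.lHyp_Ft n e M ℓ hℓM (tMem_of_dvd hb hnM)
    (tGenBase' hb) A hA hr
  have hR := Fermat.Agent.ES.V19.LHypFt13.riemann_inequality_Ft n e M ℓ hℓM
    (tMem_of_dvd hb hnM) (tGenBase' hb) A hA hr
  have : Finite (Tors M ℓ k) := finite_tors M ℓ k hℓ.ne_zero
  obtain ⟨g, f₀, hf₀, Ξ₀, hΞ₀⟩ := hXi n e M ℓ hℓM hb hnM A hA
  obtain ⟨f, hf, htriv, Ξ, P, hΞ, hP⟩ :=
    GoodInst11.exists_funnel_data' (TV n e M ℓ hℓM hb hnM A hA) hr hg hin.gent hS0 hS1 hℓ hA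
      (DiscDa10.da_all (TV n e M ℓ hℓM hb hnM A hA) hin.gent hr hS0) hin.gent hin.sep HL hR
      (torsIncl M ℓ k) (torsIncl_smul M ℓ k) ⟨f₀, hf₀, Ξ₀, hΞ₀⟩
  exact ⟨A, hA, f, hf, J1V n e M ℓ hℓM hb hnM A hA,
    fun τ hτ y hy => smul_mem_J1 (TV n e M ℓ hℓM hb hnM A hA) hr hg hin.gent hS0 hS1 hτ hy,
    htriv, g, Ξ, hΞ, P, hP⟩

/-- **`hgeo`**: the geometric input of the frozen S19 at the auxiliary level. -/
theorem hgeo (hXi : XiInput) :
    ∀ (N ℓ k : ℕ) [NeZero N] [Fact ℓ.Prime], ¬ ℓ ∣ N → HasXiChart ℓ (auxLevel ℓ N) k := by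
  intro N ℓ k _ _ hℓN
  have hℓ : ℓ.Prime := Fact.out
  have := neZero_auxLevel19 ℓ N
  have hℓM : ¬ ℓ ∣ auxLevel ℓ N := not_dvd_auxLevel hℓ hℓN
  by_cases h2 : ℓ = 2
  · have : NeZero 9 := ⟨by norm_num⟩
    exact hasXiChart_of_xi hXi 9 3 (auxLevel ℓ N) ℓ hℓM baseHyp_nine
      (Fermat.Agent.ES.TOP.AuxBase8.nine_dvd_auxLevel N h2) k
  · have : NeZero 4 := ⟨by norm_num⟩
    exact hasXiChart_of_xi hXi 4 8 (auxLevel ℓ N) ℓ hℓM baseHyp_four
      (Fermat.Agent.ES.TOP.AuxBase8.four_dvd_auxLevel N h2) k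

/-- **the conclusion of the frozen S19 from the ONE remaining input.** -/
theorem s19_of_xi (hXi : XiInput)
    (p : ℕ) [NeZero p] (ℓ : ℕ) [Fact ℓ.Prime] (hℓp : ¬ ℓ ∣ p) (k : ℕ) :
    ∃ (H : Type) (_ : CommRing H) (_ : HopfAlgebra (GaloisRep.ratLocalizedAt ℓ) H),
      Module.Finite (GaloisRep.ratLocalizedAt ℓ) H ∧ Module.Flat (GaloisRep.ratLocalizedAt ℓ) H ∧
      Coalgebra.IsCocomm (GaloisRep.ratLocalizedAt ℓ) H ∧
      ∃ e : WithConv (H →ₐ[GaloisRep.ratLocalizedAt ℓ] AlgebraicClosure ℚ) ≃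
          ↥(Submodule.torsionBy ℤ (JZero p) ((ℓ : ℤ) ^ k)),
        (∀ f g, e (f * g) = e f + e g) ∧
        ∀ (σ : AlgebraicClosure ℚ ≃ₐ[ℚ] AlgebraicClosure ℚ)
          (f g : WithConv (H →ₐ[GaloisRep.ratLocalizedAt ℓ] AlgebraicClosure ℚ)),
          (∀ h : H, g h = σ (f h)) → ((e g : JZero p)) = σ • (e f : JZero p) :=
  s19_of_hasXiChart (hgeo hXi) p ℓ hℓp k

end Fermat.Agent.ES.V19.HgeoAsm21
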