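/-
Programme V (S19 by hand), chapter A, brick (A1) bridge, helper2: helper4's hypothesis bundle
`OrderHyp4.IsEquivOrder G H` (for `G = Gal(ℚ̄/ℚ)` acting on `M` by a `DistribMulAction`) implies
`HopfOrderStr2.IsHopfOrder (fun σ x => σ • x) H`, hence the exit literal of S19 / `IsFlatAt`:
`exists_hopfAlgebra_of_isEquivOrder`.  So the closure lemmas of (A3) (`isEquivOrder_subOrder`,
`isEquivOrder_quotOrder`, `isEquivOrder_prodOrder`) end directly at the frozen shape.
-/
import Mathlib
import Fermat.Prelude.Def_GaloisRep_Flat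
import Fermat.Agent.ES.V19.OrderHyp4
import Fermat.Agent.ES.V19.HopfOrderPts2

set_option autoImplicit false

namespace Fermat.Agent.ES.V19.HopfOrderBridge2

open Fermat.Agent.ES.V19.OrderHyp4 Fermat.Agent.ES.V19.HopfOrderStr2
  Fermat.Agent.ES.V19.HopfOrderPts2

local notation "Ω" => AlgebraicClosure ℚ

variable {R : Type} [CommRing R] [Algebra R ℚ]
variable {M : Type} [AddCommGroup M] [DistribMulAction (Ω ≃ₐ[ℚ] Ω) M]

/-- helper4's bundle gives the hypotheses of the exit literal. -/
theorem isHopfOrder_of_isEquivOrder {H : Subalgebra R (M → Ω)}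
    (hH : IsEquivOrder (Ω ≃ₐ[ℚ] Ω) H) :
    IsHopfOrder (fun (σ : Ω ≃ₐ[ℚ] Ω) (x : M) => σ • x) H where
  act_bijective σ := MulAction.bijective σ
  act_zero σ := smul_zero σ
  equivariant h hh σ x := hH.equiv h hh σ x
  fg := Module.Finite.iff_fg.mp hH.finite
  separates := hH.sep
  comul_mem := hH.comul
  antipode_mem := hH.antipode

/-- **The exit literal from helper4's bundle**, over `ℤ_(ℓ)`. -/
theorem exists_hopfAlgebra_of_isEquivOrder (ℓ : ℕ) [Fact ℓ.Prime] [Finite M]
    {H : Subalgebra ↥(GaloisRep.ratLocalizedAt ℓ) (M → Ω)}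
    (hH : IsEquivOrder (Ω ≃ₐ[ℚ] Ω) H) :
    ∃ (H' : Type) (_ : CommRing H') (_ : HopfAlgebra (GaloisRep.ratLocalizedAt ℓ) H'),
      Module.Finite (GaloisRep.ratLocalizedAt ℓ) H' ∧ Module.Flat (GaloisRep.ratLocalizedAt ℓ) H' ∧
      Coalgebra.IsCocomm (GaloisRep.ratLocalizedAt ℓ) H' ∧
      ∃ e : WithConv (H' →ₐ[GaloisRep.ratLocalizedAt ℓ] AlgebraicClosure ℚ) ≃ M,
        (∀ f g, e (f * g) = e f + e g) ∧
        ∀ (σ : AlgebraicClosure ℚ ≃ₐ[ℚ] AlgebraicClosure ℚ)
          (f g : WithConv (H' →ₐ[GaloisRep.ratLocalizedAt ℓ] AlgebraicClosure ℚ)),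
          (∀ h : H', g h = σ (f h)) → e g = σ • e f :=
  exists_hopfAlgebra_Zl ℓ (isHopfOrder_of_isEquivOrder hH)

/-! ### The span form of comultiplication stability -/

section Span

variable {R' Ω' : Type*} [CommRing R'] [CommRing Ω'] [Algebra R' Ω'] {N : Type*}

/-- A function on `N × N` in the `R'`-span of the products `a(x) b(y)`, `a, b ∈ H`, is a finite sum of
such products. -/
theorem exists_sum_of_mem_span (H : Subalgebra R' (N → Ω')) (u : N × N → Ω')
    (hu : u ∈ Submodule.span R'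
      {u : N × N → Ω' | ∃ a ∈ H, ∃ b ∈ H, u = fun p => a p.1 * b p.2}) :
    ∃ (n : ℕ) (a b : Fin n → N → Ω'), (∀ i, a i ∈ H) ∧ (∀ i, b i ∈ H) ∧
      ∀ x y, u (x, y) = ∑ i, a i x * b i y := by
  induction hu using Submodule.span_induction with
  | mem u hu =>
    obtain ⟨a, ha, b, hb, rfl⟩ := hu
    exact ⟨1, fun _ => a, fun _ => b, fun _ => ha, fun _ => hb, fun x y => by simp⟩
  | zero => exact ⟨0, Fin.elim0, Fin.elim0, fun i => i.elim0, fun i => i.elim0, fun x y => by simp⟩
  | add u v _ _ hu hv =>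
    obtain ⟨n, a, b, ha, hb, hab⟩ := hu
    obtain ⟨m, a', b', ha', hb', hab'⟩ := hv
    refine ⟨n + m, Fin.append a a', Fin.append b b', fun i => ?_, fun i => ?_, fun x y => ?_⟩
    · induction i using Fin.addCases with
      | left i => rw [Fin.append_left]; exact ha i
      | right i => rw [Fin.append_right]; exact ha' i
    · induction i using Fin.addCases with
      | left i => rw [Fin.append_left]; exact hb i
      | right i => rw [Fin.append_right]; exact hb' i
    · rw [Pi.add_apply, hab, hab', Fin.sum_univ_add]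
      simp only [Fin.append_left, Fin.append_right]
  | smul r u _ hu =>
    obtain ⟨n, a, b, ha, hb, hab⟩ := hu
    refine ⟨n, fun i => r • a i, b, fun i => H.smul_mem (ha i) r, hb, fun x y => ?_⟩
    rw [Pi.smul_apply, hab, Finset.smul_sum]
    exact Finset.sum_congr rfl fun i _ => by
      show r • (a i x * b i y) = (r • a i x) * b i y
      rw [smul_mul_assoc]

/-- The span form of comultiplication stability gives helper4's `HasComul`. -/
theorem hasComul_of_mem_span [AddCommGroup N] (H : Subalgebra R' (N → Ω')) (h : N → Ω')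
    (hh : (fun p : N × N => h (p.1 + p.2)) ∈ Submodule.span R'
      {u : N × N → Ω' | ∃ a ∈ H, ∃ b ∈ H, u = fun p => a p.1 * b p.2}) :
    HasComul H h := by
  obtain ⟨n, a, b, ha, hb, hab⟩ := exists_sum_of_mem_span H _ hh
  exact ⟨n, a, b, ha, hb, fun x y => hab x y⟩

end Span

end Fermat.Agent.ES.V19.HopfOrderBridge2
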