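/-
Programme V (S19 by hand, route `S19_ROUTE23.md`), chapter A, brick (A3-sub) `OrderSub4` (helper4).

Sub-object closure (and transport along isomorphisms) of Hopf orders in function algebras, in morphism
form: for an injective `G`-equivariant additive map `ι : M₁ → M` and an equivariant Hopf order
`H ⊆ M → Ω`, the image `H.map ι^*` of `H` in `M₁ → Ω` is an equivariant Hopf order for `M₁`.

For S19: `M₁ = J₀(N)[ℓ^k]`, `M = J₀(M')[ℓ^k]`, `ι = π^*` (`ES/RED/PullbackInj12`:
`levelPullback_smul`, injectivity on torsion at `auxLevel ℓ N`).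
-/
import Mathlib
import Fermat.Agent.ES.V19.OrderHyp4

set_option autoImplicit false

noncomputable section

namespace Fermat.Agent.ES.V19.OrderSub4

open scoped BigOperators
open Fermat.Agent.ES.V19.OrderHyp4

section Basic

variable {R Ω M M₁ : Type*} [CommRing R] [CommRing Ω] [Algebra R Ω]

/-- The restriction of `H` along `ι`. -/
def subOrder (H : Subalgebra R (M → Ω)) (ι : M₁ → M) : Subalgebra R (M₁ → Ω) :=
  H.map (pullAlg R Ω ι)

theorem mem_subOrder {H : Subalgebra R (M → Ω)} {ι : M₁ → M} {g : M₁ → Ω} :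
    g ∈ subOrder H ι ↔ ∃ h ∈ H, (fun x => h (ι x)) = g := by
  unfold subOrder
  rw [Subalgebra.mem_map]
  rfl

theorem finite_subOrder (H : Subalgebra R (M → Ω)) [Module.Finite R H] (ι : M₁ → M) :
    Module.Finite R (subOrder H ι) := by
  let l : H →ₗ[R] subOrder H ι :=
    LinearMap.codRestrict (Subalgebra.toSubmodule (subOrder H ι))
      ((pullAlg R Ω ι).toLinearMap.comp (Subalgebra.val H).toLinearMap)
      (fun h => mem_subOrder.mpr ⟨h.1, h.2, rfl⟩)
  refine Module.Finite.of_surjective l ?_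
  rintro ⟨g, hg⟩
  obtain ⟨h, hh, rfl⟩ := mem_subOrder.mp hg
  exact ⟨⟨h, hh⟩, rfl⟩

end Basic

variable {R Ω G M M₁ : Type*} [CommRing R] [CommRing Ω] [Algebra R Ω] [Group G]
  [MulSemiringAction G Ω] [AddCommGroup M] [AddCommGroup M₁] [MulAction G M] [MulAction G M₁]

/-- **(A3-sub).** -/
theorem isEquivOrder_subOrder {H : Subalgebra R (M → Ω)} (hH : IsEquivOrder G H) (ι : M₁ →+ M)
    (hinj : Function.Injective ι) (hι : ∀ (σ : G) (x : M₁), ι (σ • x) = σ • ι x) :
    IsEquivOrder G (subOrder H ι) where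
  finite := by
    have := hH.finite
    exact finite_subOrder H ι
  equiv := by
    intro g hg σ x
    obtain ⟨h, hh, rfl⟩ := mem_subOrder.mp hg
    show h (ι (σ • x)) = σ • h (ι x)
    rw [hι, hH.equiv h hh]
  sep := by
    intro x y hxy
    obtain ⟨h, hh, hne⟩ := hH.sep (ι x) (ι y) (fun e => hxy (hinj e))
    exact ⟨fun z => h (ι z), mem_subOrder.mpr ⟨h, hh, rfl⟩, hne⟩
  comul := by
    intro g hg
    obtain ⟨h, hh, rfl⟩ := mem_subOrder.mp hg
    obtain ⟨n, a, b, ha, hb, hab⟩ := hH.comul h hh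
    refine ⟨n, fun i z => a i (ι z), fun i z => b i (ι z),
      fun i => mem_subOrder.mpr ⟨a i, ha i, rfl⟩, fun i => mem_subOrder.mpr ⟨b i, hb i, rfl⟩, ?_⟩
    intro x y
    show h (ι (x + y)) = _
    rw [map_add, hab]
  antipode := by
    intro g hg
    obtain ⟨h, hh, rfl⟩ := mem_subOrder.mp hg
    refine mem_subOrder.mpr ⟨fun z => h (-z), hH.antipode h hh, ?_⟩
    funext x
    show h (-(ι x)) = h (ι (-x))
    rw [map_neg]

end Fermat.Agent.ES.V19.OrderSub4
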