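/-
Programme V (S19), chapter (B5)/(J7), helper29: **the residual action of `Γ_f` fixes any given
place of the special fibre for `f ≫ 0`.**

Part 1 (generic coefficient field `k` in which every element satisfies `y^(ℓ^f) = y` for some
`f > 0`): every `z ∈ F̃ = modularFunctionFieldFullC k N` is fixed by `coeffSemi ψ` as soon as `ψ`
fixes `𝔽_{ℓ^f} = {y | y^(ℓ^f) = y}` pointwise, `f = f(z)` (`exists_fix`).
Part 2 (any function field with `LHyp` and Riemann's inequality): every place `Q` is the ONLY zero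
of some function `z ≠ 0` (`exists_only_zero`).
Part 3: a semilinear automorphism fixing such a `z` fixes `Q` (`smul_eq_of_only_zero`); hence
`exists_fix_place` : `∃ f > 0, ∀ ψ fixing 𝔽_{ℓ^f}, coeffSemi k N ψ • Q = Q`, and the version for
finitely many places `exists_fix_places`.
-/
import Mathlib
import Fermat.Prelude.Def_AlgebraicCurve_BaseChangeGalois
import Fermat.Prelude.Def_AlgebraicCurve_Repartitions
import Fermat.Agent.RR.LSpace
import Fermat.Agent.ES.KRON.FrobPlace13

set_option autoImplicit false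
set_option linter.unusedSectionVars false

noncomputable section

namespace Fermat.Agent.ES.V19.PlaceStab29

open scoped BigOperators
open AlgebraicCurve ModularCurve HahnSeries IntermediateField Fermat.Agent.X0.FF
  Fermat.Agent.RR.LSpace Fermat.Agent.ES.KRON.FrobPlace13

/-! ### Part 1: every function of the special fibre is fixed by an open subgroup -/

section Fix

variable {k : Type*} [Field k] (ℓ : ℕ)

/-- `ψ` fixes `𝔽_{ℓ^f} = {y | y^(ℓ^f) = y}` pointwise. -/
def FixesF (ψ : k →+* k) (f : ℕ) : Prop := ∀ y : k, y ^ (ℓ ^ f) = y → ψ y = y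

variable {ℓ}

theorem pow_pow_eq_self29 {y : k} {q : ℕ} (hy : y ^ q = y) (c : ℕ) : y ^ (q ^ c) = y := by
  induction c with
  | zero => simp
  | succ c ih => rw [pow_succ, pow_mul, ih, hy]

/-- `𝔽_{ℓ^f} ⊂ 𝔽_{ℓ^(f f')}`. -/
theorem FixesF.of_mul_left {ψ : k →+* k} {f f' : ℕ} (h : FixesF ℓ ψ (f * f')) : FixesF ℓ ψ f :=
  fun y hy => h y (by rw [pow_mul]; exact pow_pow_eq_self29 hy f')

theorem FixesF.of_mul_right {ψ : k →+* k} {f f' : ℕ} (h : FixesF ℓ ψ (f * f')) :
    FixesF ℓ ψ f' := by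
  rw [mul_comm] at h
  exact h.of_mul_left

theorem FixesF.of_dvd {ψ : k →+* k} {f f' : ℕ} (hff : f ∣ f') (h : FixesF ℓ ψ f') :
    FixesF ℓ ψ f := by
  obtain ⟨c, rfl⟩ := hff
  exact h.of_mul_left

variable (N : ℕ) [NeZero N]

/-- **Part 1**, at the level of Laurent series. -/
theorem exists_fix_coeffMap (halg : ∀ y : k, ∃ f : ℕ, 0 < f ∧ y ^ (ℓ ^ f) = y)
    {x : LaurentSeries k} (hx : x ∈ modularFunctionFieldFullC k N) :
    ∃ f : ℕ, 0 < f ∧ ∀ ψ : k →+* k, FixesF ℓ ψ f → coeffMap ψ x = x := by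
  change x ∈ Subfield.closure
      (Set.range (algebraMap k (LaurentSeries k)) ∪ divisorExpansionsC k N) at hx
  induction hx using Subfield.closure_induction with
  | mem y hy =>
      rcases hy with ⟨a, rfl⟩ | ⟨d, hd, hdN, rfl⟩
      · obtain ⟨f, hf, hfa⟩ := halg a
        refine ⟨f, hf, fun ψ hψ => ?_⟩
        rw [coeffMap_algebraMap, hψ a hfa]
      · have := hd
        exact ⟨1, one_pos, fun ψ _ => coeffMap_generator k ψ d⟩
  | one => exact ⟨1, one_pos, fun ψ _ => map_one _⟩
  | add x y _ _ hx hy =>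
      obtain ⟨f, hf, hfx⟩ := hx
      obtain ⟨f', hf', hfy⟩ := hy
      refine ⟨f * f', Nat.mul_pos hf hf', fun ψ hψ => ?_⟩
      rw [map_add, hfx ψ hψ.of_mul_left, hfy ψ hψ.of_mul_right]
  | neg x _ hx =>
      obtain ⟨f, hf, hfx⟩ := hx
      exact ⟨f, hf, fun ψ hψ => by rw [map_neg, hfx ψ hψ]⟩
  | inv x _ hx =>
      obtain ⟨f, hf, hfx⟩ := hx
      exact ⟨f, hf, fun ψ hψ => by rw [map_inv₀, hfx ψ hψ]⟩
  | mul x y _ _ hx hy =>
      obtain ⟨f, hf, hfx⟩ := hx
      obtain ⟨f', hf', hfy⟩ := hy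
      refine ⟨f * f', Nat.mul_pos hf hf', fun ψ hψ => ?_⟩
      rw [map_mul, hfx ψ hψ.of_mul_left, hfy ψ hψ.of_mul_right]

/-- **Part 1**: every `z ∈ F̃` is fixed by `coeffSemi ψ` for all `ψ` fixing `𝔽_{ℓ^f}`, `f = f(z)`. -/
theorem exists_fix (halg : ∀ y : k, ∃ f : ℕ, 0 < f ∧ y ^ (ℓ ^ f) = y)
    (z : ↥(modularFunctionFieldFullC k N)) :
    ∃ f : ℕ, 0 < f ∧ ∀ ψ : k ≃+* k, FixesF ℓ (ψ : k →+* k) f → coeffSemi k N ψ • z = z := by
  obtain ⟨f, hf, h⟩ := exists_fix_coeffMap N halg z.2
  exact ⟨f, hf, fun ψ hψ => Subtype.ext (h _ hψ)⟩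

end Fix

/-! ### Part 2: a place is the only zero of some function -/

section OnlyZero

variable {K F : Type*} [Field K] [Field F] [Algebra K F]

/-- **Part 2**: every place is the only zero of some nonzero function. -/
theorem exists_only_zero (HL : LHyp K F)
    (hR : ∃ γ : ℤ, ∀ D : Divisor K F,
      Divisor.degree D + 1 - γ ≤ (Module.finrank K (riemannRochSpace D) : ℤ))
    (Q : Place K F) : ∃ z : F, z ≠ 0 ∧ 0 < Q.ord z ∧ ∀ Q' : Place K F, 0 < Q'.ord z → Q' = Q := by
  classical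
  obtain ⟨γ, hγ⟩ := hR
  -- a divisor `n Q` with `l(n Q) ≥ 2`
  set n : ℤ := max γ 0 + 1 with hn
  set D : Divisor K F := Finsupp.single Q n with hD
  have hdeg : Divisor.degree D = n := degree_single HL Q n
  have h2 : (2 : ℤ) ≤ (Module.finrank K (riemannRochSpace D) : ℤ) := by
    have := hγ D
    rw [hdeg] at this
    have : γ ≤ max γ 0 := le_max_left _ _
    omega
  have hfin : Module.Finite K (riemannRochSpace D) := finiteDimensional_L HL D
  -- a nonconstant element
  have hex : ∃ w : F, w ∈ riemannRochSpace D ∧ ∀ c : K, w ≠ algebraMap K F c := by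
    by_contra hcon
    push Not at hcon
    have hle : riemannRochSpace D ≤ Submodule.span K {(1 : F)} := by
      intro w hw
      obtain ⟨c, hc⟩ := hcon w hw
      rw [Submodule.mem_span_singleton]
      exact ⟨c, by rw [hc, Algebra.smul_def, mul_one]⟩
    have h1 : Module.finrank K (riemannRochSpace D) ≤ 1 := by
      calc Module.finrank K (riemannRochSpace D)
          ≤ Module.finrank K (Submodule.span K {(1 : F)}) := Submodule.finrank_mono hle
        _ ≤ 1 := by
          have := finrank_span_le_card (R := K) ({(1 : F)} : Set F)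
          simpa using this
    omega
  obtain ⟨w, hw, hwc⟩ := hex
  have hw0 : w ≠ 0 := fun h => hwc 0 (by rw [h, map_zero])
  have hwL := (mem_L_iff hw0).mp hw
  -- `w` has a pole, necessarily at `Q`
  have hpole : Q.ord w < 0 := by
    by_contra hnn
    push Not at hnn
    have hall : ∀ v : Place K F, 0 ≤ v.ord w := by
      intro v
      by_cases hv : v = Q
      · rw [hv]; exact hnn
      · have := hwL v
        rw [hD, Finsupp.single_apply, if_neg (Ne.symm hv)] at this
        simpa using this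
    obtain ⟨c, hc⟩ := eq_algebraMap_of_forall_ord_nonneg HL hall
    exact hwc c hc
  refine ⟨w⁻¹, inv_ne_zero hw0, by rw [Place.ord_inv]; omega, fun Q' hQ' => ?_⟩
  by_contra hne
  have := hwL Q'
  rw [hD, Finsupp.single_apply, if_neg (Ne.symm hne)] at this
  rw [Place.ord_inv] at hQ'
  simp at this
  omega

/-- **Part 3**: a semilinear automorphism fixing a function whose only zero is `Q` fixes `Q`. -/
theorem smul_eq_of_only_zero {z : F} {Q : Place K F} (hpos : 0 < Q.ord z)
    (honly : ∀ Q' : Place K F, 0 < Q'.ord z → Q' = Q) (τ : SemilinearAut K F) (hτ : τ • z = z) :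
    τ • Q = Q := by
  apply honly
  have := SemilinearAut.ord_smul τ Q z
  rw [hτ] at this
  rw [this]
  exact hpos

end OnlyZero

/-! ### The stabiliser of a place of the special fibre -/

section Stab

variable {k : Type*} [Field k] {ℓ : ℕ} (N : ℕ) [NeZero N]

/-- **The residual action fixes a given place for `f ≫ 0`.** -/
theorem exists_fix_place (halg : ∀ y : k, ∃ f : ℕ, 0 < f ∧ y ^ (ℓ ^ f) = y)
    (HL : LHyp k ↥(modularFunctionFieldFullC k N))
    (hR : ∃ γ : ℤ, ∀ D : Divisor k ↥(modularFunctionFieldFullC k N),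
      Divisor.degree D + 1 - γ ≤ (Module.finrank k (riemannRochSpace D) : ℤ))
    (Q : Place k ↥(modularFunctionFieldFullC k N)) :
    ∃ f : ℕ, 0 < f ∧ ∀ ψ : k ≃+* k, FixesF ℓ (ψ : k →+* k) f → coeffSemi k N ψ • Q = Q := by
  obtain ⟨z, -, hpos, honly⟩ := exists_only_zero HL hR Q
  obtain ⟨f, hf, hfix⟩ := exists_fix N halg z
  exact ⟨f, hf, fun ψ hψ => smul_eq_of_only_zero hpos honly _ (hfix ψ hψ)⟩

/-- the same for finitely many places at once. -/
theorem exists_fix_places (halg : ∀ y : k, ∃ f : ℕ, 0 < f ∧ y ^ (ℓ ^ f) = y)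
    (HL : LHyp k ↥(modularFunctionFieldFullC k N))
    (hR : ∃ γ : ℤ, ∀ D : Divisor k ↥(modularFunctionFieldFullC k N),
      Divisor.degree D + 1 - γ ≤ (Module.finrank k (riemannRochSpace D) : ℤ))
    {ι : Type*} [Finite ι] (Q : ι → Place k ↥(modularFunctionFieldFullC k N)) :
    ∃ f : ℕ, 0 < f ∧ ∀ ψ : k ≃+* k, FixesF ℓ (ψ : k →+* k) f →
      ∀ i, coeffSemi k N ψ • Q i = Q i := by
  classical
  have := Fintype.ofFinite ι
  choose f hf hfix using fun i => exists_fix_place N halg HL hR (Q i)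
  refine ⟨∏ i, f i, Finset.prod_pos fun i _ => hf i, fun ψ hψ i => ?_⟩
  exact hfix i ψ (hψ.of_dvd (Finset.dvd_prod_of_mem f (Finset.mem_univ i)))

end Stab

end Fermat.Agent.ES.V19.PlaceStab29
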