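/-
Programme V (S19), (J7), helper29: **`Γ_f` fixes any given finite family of places of the special
fibre `F̃_M / k̄` for `f ≫ 0`** — `PlaceStab29` at `k := ResidueField A`, `N := M`,
`ψ := psiRes A ⟨σ, _⟩` for `σ ∈ gammaF A ℓ f` (helper16's `GammaF16`); `LHyp` and Riemann's
inequality on the special fibre from helper13's `LHypFt13`, algebraicity of `k̄ / 𝔽_ℓ` from
helper16's `Teich16.exists_pow_card_eq`.
-/
import Mathlib
import Fermat.Agent.ES.RED.GaloisRed21
import Fermat.Agent.ES.V19.GammaF16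
import Fermat.Agent.ES.V19.Teich16
import Fermat.Agent.ES.V19.LHypFt13
import Fermat.Agent.ES.V19.PlaceStab29

set_option autoImplicit false
set_option linter.unusedSectionVars false
set_option synthInstance.maxHeartbeats 400000
set_option maxHeartbeats 1000000

noncomputable section

namespace Fermat.Agent.ES.V19.PlaceStabInst29

open AlgebraicCurve ModularCurve Fermat.Agent.RR.LSpace Fermat.Agent.ES.KRON.FrobPlace13
  Fermat.Agent.ES.RED.GaloisRed21 Fermat.Agent.ES.V19.GammaF16 Fermat.Agent.ES.V19.PlaceStab29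

local notation "Qbar" => AlgebraicClosure ℚ
local notation "GQ" => (AlgebraicClosure ℚ ≃ₐ[ℚ] AlgebraicClosure ℚ)

attribute [local instance 5000] HahnSeries.powerSeriesAlgebra SubalgebraClass.toAlgebra

variable {A : ValuationSubring Qbar} {ℓ : ℕ}

/-- `σ ∈ Γ_f` acts on the residue field through a `ψ` fixing `𝔽_{ℓ^f}` pointwise. -/
theorem fixesF_psiRes {f : ℕ} {σ : GQ} (hσ : σ ∈ gammaF A ℓ f) :
    FixesF ℓ ((psiRes A ⟨σ, gammaF_le_decomposition f hσ⟩ :
      IsLocalRing.ResidueField ↥A ≃+* IsLocalRing.ResidueField ↥A) :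
        IsLocalRing.ResidueField ↥A →+* IsLocalRing.ResidueField ↥A) f := by
  obtain ⟨h, hy⟩ := mem_gammaF_iff.mp hσ
  intro y hyf
  exact hy y hyf

variable (M : ℕ) [NeZero M]

/-- **`Γ_f` fixes finitely many given places of the special fibre**, abstract in `LHyp` and
Riemann's inequality. -/
theorem exists_gammaF_fixes_places (hℓ : ℓ.Prime) (hA : A.LiesOverPrime ℓ)
    (HL : LHyp (IsLocalRing.ResidueField ↥A)
      ↥(modularFunctionFieldFullC (IsLocalRing.ResidueField ↥A) M))
    (hR : ∃ γ : ℤ, ∀ D : Divisor (IsLocalRing.ResidueField ↥A)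
        ↥(modularFunctionFieldFullC (IsLocalRing.ResidueField ↥A) M),
      Divisor.degree D + 1 - γ ≤
        (Module.finrank (IsLocalRing.ResidueField ↥A) (riemannRochSpace D) : ℤ))
    {ι : Type*} [Finite ι]
    (Q : ι → Place (IsLocalRing.ResidueField ↥A)
      ↥(modularFunctionFieldFullC (IsLocalRing.ResidueField ↥A) M)) :
    ∃ f : ℕ, 0 < f ∧ ∀ (σ : GQ) (hσ : σ ∈ gammaF A ℓ f) (i : ι),
      coeffSemi (IsLocalRing.ResidueField ↥A) M
        (psiRes A ⟨σ, gammaF_le_decomposition f hσ⟩) • Q i = Q i := by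
  obtain ⟨f, hf, h⟩ := exists_fix_places (ℓ := ℓ) M
    (Fermat.Agent.ES.V19.Teich16.exists_pow_card_eq hℓ hA) HL hR Q
  exact ⟨f, hf, fun σ hσ i => h _ (fixesF_psiRes hσ) i⟩

section Concrete

open Fermat.Agent.RED.Interface4 Fermat.Agent.RED.BASE Fermat.Agent.RED.TOP

variable (n e : ℕ) [NeZero n] [Fact ℓ.Prime] (hℓM : ¬ ℓ ∣ M)
  (hmem : Interface12.TMem n e M) (hgen : Interface12.TGenBase n e) (hA : A.LiesOverPrime ℓ)
variable {r : Place Qbar (modularFunctionFieldBar M) →
  Place (IsLocalRing.ResidueField ↥A) (modularFunctionFieldFullC (IsLocalRing.ResidueField ↥A) M)}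

include hℓM hmem hgen hA in
/-- **`Γ_f` fixes finitely many given places of the special fibre `F̃_M`** (`ℓ ∤ M`, Hauptmodul
datum `(n, e)`, any place reduction `r` in the sense of the Prelude, e.g. `T.r` with
`RedInst15.isPlaceReductionModL_main`). -/
theorem exists_gammaF_fixes_places_Ft (hr : IsPlaceReductionModL A M r) {ι : Type*} [Finite ι]
    (Q : ι → Place (IsLocalRing.ResidueField ↥A)
      ↥(modularFunctionFieldFullC (IsLocalRing.ResidueField ↥A) M)) :
    ∃ f : ℕ, 0 < f ∧ ∀ (σ : GQ) (hσ : σ ∈ gammaF A ℓ f) (i : ι),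
      coeffSemi (IsLocalRing.ResidueField ↥A) M
        (psiRes A ⟨σ, gammaF_le_decomposition f hσ⟩) • Q i = Q i :=
  exists_gammaF_fixes_places M (Fact.out : ℓ.Prime) hA
    (Fermat.Agent.ES.V19.LHypFt13.lHyp_Ft n e M ℓ hℓM hmem hgen A hA hr)
    (Fermat.Agent.ES.V19.LHypFt13.riemann_inequality_Ft n e M ℓ hℓM hmem hgen A hA hr) Q

end Concrete

end Fermat.Agent.ES.V19.PlaceStabInst29
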