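/-
Programme V (S19 by hand, route `S19_ROUTE23.md`, SPINE v1), JOIN step J3 "POINTS", helper23.

From (B1) `g ≤ g̃` (`GenusSF12.GenusLe`), (B2) non-special reduced divisors avoiding a finite set
(`NonSpecial9.exists_nonspecial_not_mem`) and (L3) "the BAD places of the special fibre are finitely
many" (`GoodCofinite16`), produce the points of the chart:

* `finrank_L_redDiv_comp` : a sub-family of a family of distinct points with `l = 1` has `l = 1`;
* `exists_points_not_mem` : for ANY `g ≤ genusFF K F` and any finite set `S` of places, `g` distinct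
  places outside `S` with `l(Q_1 + … + Q_g) = 1`, and one more place outside `S`, distinct from them;
* `good_congr`            : `DiscIface3.Good T Q c` depends only on the residue class of `c`;
* `exists_good_points`    : the same on the special fibre of `TwoCharts8` with `S` = the BAD places:
  all `Q̄_i` and `Q̄_⋆` are GOOD, with centres in the image of any section `τ` of the residue map
  (RULING 2: `τ` := the Teichmüller lift `Teich16.teich`).

The output is what `XiChartOf5.chartHyp` (J4) consumes: `hinj`, `hl`, GOOD ⇒ (Da) by (B3), and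
`Ps` := any place in the disc of `Q̄_⋆` (`XiChartOf5.exists_place_of_da`).
-/
import Mathlib
import Fermat.Agent.ES.V19.DiscIface3
import Fermat.Agent.ES.V19.NonSpecial9
import Fermat.Agent.ES.V19.GenericNonSpecial8

set_option autoImplicit false

open AlgebraicCurve

noncomputable section

namespace Fermat.Agent.ES.V19.Points23

open Fermat.Agent.X0.FF Fermat.Agent.RR Fermat.Agent.RR.LSpace
  Fermat.Agent.ES.V19.OnePlaceRep9 Fermat.Agent.ES.V19.NonSpecial9
  Fermat.Agent.ES.V19.GenericNonSpecial8

section Gen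

variable {K F : Type*} [Field K] [Field F] [Algebra K F]

/-- The reduced divisor of a sub-family is below the reduced divisor of the family. -/
theorem redDiv_comp_le {m n : ℕ} (Q : Fin n → Place K F) (hQ : Function.Injective Q)
    (e : Fin m → Fin n) (he : Function.Injective e) : redDiv (Q ∘ e) ≤ redDiv Q := by
  intro v
  by_cases hv : ∃ i, (Q ∘ e) i = v
  · obtain ⟨i, rfl⟩ := hv
    rw [redDiv_apply_self (hQ.comp he) i]
    show (1 : ℤ) ≤ redDiv Q (Q (e i))
    rw [redDiv_apply_self hQ (e i)]
  · rw [redDiv_apply_of_not_mem (fun i h => hv ⟨i, h⟩)]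
    exact redDiv_nonneg Q v

/-- A sub-family of a family of distinct points with `l = 1` has `l = 1`. -/
theorem finrank_L_redDiv_comp (HL : LHyp K F) {m n : ℕ} (Q : Fin n → Place K F)
    (hQ : Function.Injective Q)
    (h1 : Module.finrank K (riemannRochSpace (redDiv Q)) = 1)
    (e : Fin m → Fin n) (he : Function.Injective e) :
    Module.finrank K (riemannRochSpace (redDiv (Q ∘ e))) = 1 :=
  finrank_L_eq_one_of_forall_const HL (redDiv_nonneg _) fun _ hf =>
    eq_algebraMap_of_finrank_L_eq_one HL (redDiv_nonneg Q) h1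
      (L_mono (redDiv_comp_le Q hQ e he) hf)

/-- **POINTS, abstract form.**  For `g ≤ genusFF K F` and a finite set `S` of places there are `g`
distinct places outside `S` with `l(Q_1 + … + Q_g) = 1`, and one more place outside `S` distinct
from all of them. -/
theorem exists_points_not_mem (HL : LHyp K F)
    (hR : ∃ γ : ℤ, ∀ D : Divisor K F,
      Divisor.degree D + 1 - γ ≤ (Module.finrank K (riemannRochSpace D) : ℤ))
    [Infinite (Place K F)] {S : Set (Place K F)} (hS : S.Finite) {g : ℕ}
    (hg : g ≤ genusFF K F) :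
    ∃ (Q : Fin g → Place K F) (Qs : Place K F), Function.Injective Q ∧ (∀ i, Q i ∉ S) ∧
      Module.finrank K (riemannRochSpace (redDiv Q)) = 1 ∧ Qs ∉ S ∧ ∀ i, Qs ≠ Q i := by
  obtain ⟨Q, hQ, hQS, h0⟩ := exists_nonspecial_not_mem HL hR hS
  have h1 := finrank_L_redDiv HL hR h0
  have he : Function.Injective (Fin.castLE hg) := Fin.castLE_injective hg
  have hfin : (S ∪ Set.range (Q ∘ Fin.castLE hg)).Finite := hS.union (Set.finite_range _)
  obtain ⟨Qs, hQs⟩ := hfin.infinite_compl.nonempty
  refine ⟨Q ∘ Fin.castLE hg, Qs, hQ.comp he, fun i => hQS _, ?_, ?_, ?_⟩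
  · exact finrank_L_redDiv_comp HL Q hQ h1 _ he
  · exact fun h => hQs (Or.inl h)
  · exact fun i h => hQs (Or.inr ⟨i, h.symm⟩)

end Gen

section Inst

open Fermat.Agent.ES.RED.Contract8 Fermat.Agent.ES.RED.TwoCharts8 Fermat.Agent.ES.V19.DiscIface3

variable {L : Type*} [Field L] [IsAlgClosed L] {A : ValuationSubring L}
variable {F : Type*} [Field F] [Algebra L F] {x : F} {hx : IsGen L x}
variable {Ft : Type*} [Field Ft] [Algebra (kA A) Ft]
variable (T : TwoCharts A hx Ft)

/-- `Good T Q c` in terms of the residue class of `c`. -/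
theorem good_iff (Q : Place (kA A) Ft) (c : ↥A) :
    Good T Q c ↔
      Q.ord (T.S0.red T.S0.sB - algebraMap (kA A) Ft (resA A c)) = 1 := by
  show Q.ord (T.S0.red (T.S0.sB - T.S0.const c)) = 1 ↔ _
  rw [map_sub, T.S0.red_const']

/-- `Good T Q c` depends only on the residue class of `c`. -/
theorem good_congr (Q : Place (kA A) Ft) {c c' : ↥A} (h : resA A c = resA A c') :
    Good T Q c ↔ Good T Q c' := by
  rw [good_iff, good_iff, h]

/-- **J3, POINTS.**  If the BAD places of the special fibre are finitely many and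
`g ≤ genusFF (kA A) Ft`, there are `g` distinct GOOD places `Q̄_i` with `l(Q̄_1 + … + Q̄_g) = 1` and
one more GOOD place `Q̄_⋆` distinct from all of them; the centres are `τ (y i)`, `τ ys` for any
section `τ` of the residue map. -/
theorem exists_good_points (HLt : LHyp (kA A) Ft)
    (hR : ∃ γ : ℤ, ∀ D : Divisor (kA A) Ft,
      Divisor.degree D + 1 - γ ≤ (Module.finrank (kA A) (riemannRochSpace D) : ℤ))
    [Infinite (Place (kA A) Ft)]
    (hbad : {Q : Place (kA A) Ft | ¬ ∃ c : ↥A, Good T Q c}.Finite)
    (τ : kA A → ↥A) (hτ : ∀ y, resA A (τ y) = y) {g : ℕ} (hg : g ≤ genusFF (kA A) Ft) :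
    ∃ (Qb : Fin g → Place (kA A) Ft) (y : Fin g → kA A) (Qs : Place (kA A) Ft) (ys : kA A),
      Function.Injective Qb ∧ (∀ i, Good T (Qb i) (τ (y i))) ∧
      Module.finrank (kA A) (riemannRochSpace (redDiv Qb)) = 1 ∧
      Good T Qs (τ ys) ∧ ∀ i, Qs ≠ Qb i := by
  obtain ⟨Qb, Qs, hinj, hS, h1, hQs, hne⟩ := exists_points_not_mem HLt hR hbad hg
  have hgood : ∀ Q : Place (kA A) Ft, Q ∉ {Q : Place (kA A) Ft | ¬ ∃ c : ↥A, Good T Q c} →
      ∃ y : kA A, Good T Q (τ y) := fun Q hQ => by
    obtain ⟨c, hc⟩ := not_not.mp hQ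
    exact ⟨resA A c, (good_congr T Q (hτ (resA A c)).symm).mp hc⟩
  choose y hy using fun i => hgood (Qb i) (hS i)
  obtain ⟨ys, hys⟩ := hgood Qs hQs
  exact ⟨Qb, y, Qs, ys, hinj, hy, h1, hys, hne⟩

end Inst

end Fermat.Agent.ES.V19.Points23
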