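/-
Programme V (S19), chapter B1 (genus of the special fibre), step (2) — helper17.
**Special-fibre base change of the chart rings, at one finite level.**

Setting of main's `ES/RED/FibreSurj17`: `O ⊂ K` a DVR (uniformiser `π`, residue field `κ`),
`E ≤ fracField O ⊂ K((q))`, `t : E` Gauss-integral with `t̃` transcendental, `(DEG)+(IRR)`, the two
charts `chart O t`, `chart O t⁻¹` smooth along the special fibre; `T ⊂ κ((q))` generators of the
residue field of the Gauss valuation of `E` (`hT : resField O E = κ(T)`).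
`k / κ` algebraic separable, `k` algebraically closed, `Φ = coeffMap (algebraMap κ k)`.

* **`exists_sum_chartRed`** : every `y ∈ k(Φ T)` integral over `k[Φ t̃]` is a finite `k`-combination
  `∑ ω_j · Φ (chartRed b_j)`, `b_j ∈ chart O t`   (`B̃₀ ⊂ k · red (B₀)`);
* **`exists_sum_chartRed_inv`** : the twin for `chart O t⁻¹` and `k[(Φ t̃)⁻¹]`   (`B̃₁ ⊂ k · red (B₁)`);
* `isIntegral_coeffMap_chartRed` : conversely `Φ (chartRed b)` is integral over `k[Φ t̃]`, and lies in
  `k(Φ T)` (`coeffMap_chartRed_mem`).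
-/
import Mathlib
import Fermat.Agent.ES.V19.CechSpecial17
import Fermat.Agent.ES.RED.FibreSurj17

set_option autoImplicit false
set_option linter.unusedSectionVars false

noncomputable section

open HahnSeries ModularCurve Polynomial IntermediateField

namespace Fermat.Agent.ES.V19.SpecialSpan17

open Fermat.Agent.RED.PUR.GaussGen8 Fermat.Agent.RED.PUR.KtGauss8 Fermat.Agent.RED.PUR.G1Package8
  Fermat.Agent.RED.PUR.GaussBridge10 Fermat.Agent.RED.PUR.ChartGeneric22 Fermat.Agent.RED.ModelAsm4
  Fermat.Agent.ES.RED.FibreSurj17 Fermat.Agent.ES.V19.CechSpecial17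

variable {K : Type*} [Field K] [CharZero K] {O : ValuationSubring K} [IsDiscreteValuationRing ↥O]
  {π : ↥O} (hπ : Irreducible π)
  {E : IntermediateField K (LaurentSeries K)} (hE : E ≤ fracField O)
  (t : ↥E) (ht : (t : LaurentSeries K) ∈ gaussRing O)
  (htr : Transcendental (Res O) (gaussRed O ⟨(t : LaurentSeries K), ht⟩))
  {n : ℕ} (hn : relfinrank (Kt O ⟨(t : LaurentSeries K), ht⟩) E ≠ 0)
  (hdeg : DegLe O E ⟨(t : LaurentSeries K), ht⟩ n)
  (hirr : Irr O E ⟨(t : LaurentSeries K), ht⟩ n)
variable (T : Set (LaurentSeries (Res O))) (hT : resField O E = adjoin (Res O) T)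
variable {k : Type*} [Field k] [Algebra (Res O) k]

section Main

variable [IsAlgClosed k] [Algebra.IsSeparable (Res O) k]

include hπ hE ht htr hn hdeg hirr hT in
/-- **`B̃₀ ⊂ k · red (B₀)`.** -/
theorem exists_sum_chartRed (hsm : SmoothChart O E π t) {y : LaurentSeries k}
    (hyT : y ∈ adjoin k (coeffMap (algebraMap (Res O) k) '' T))
    (hy : IsIntegral ↥(Algebra.adjoin k
      {coeffMap (algebraMap (Res O) k) (gaussRed O ⟨(t : LaurentSeries K), ht⟩)}) y) :
    ∃ (m : ℕ) (ω : Fin m → k) (b : Fin m → ↥(chart ↥O t)),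
      y = ∑ j, algebraMap k (LaurentSeries k) (ω j) *
        coeffMap (algebraMap (Res O) k) (chartRed hπ hE t ht (b j)) := by
  obtain ⟨m, ω, d, hdT, hdint, hsum⟩ := exists_sum_integral T _ hyT hy
  have hex : ∀ j, ∃ b : ↥(chart ↥O t), chartRed hπ hE t ht b = d j := fun j =>
    exists_chartRed_eq hπ hE t ht htr hn hdeg hirr hsm (hT ▸ hdT j) (hdint j)
  choose b hb using hex
  refine ⟨m, ω, b, ?_⟩
  rw [hsum]
  exact Finset.sum_congr rfl fun j _ => by rw [hb j]

include hπ hE ht htr hn hdeg hirr hT in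
/-- **`B̃₁ ⊂ k · red (B₁)`.** -/
theorem exists_sum_chartRed_inv (hsm : SmoothChart O E π t⁻¹) {y : LaurentSeries k}
    (hyT : y ∈ adjoin k (coeffMap (algebraMap (Res O) k) '' T))
    (hy : IsIntegral ↥(Algebra.adjoin k
      {(coeffMap (algebraMap (Res O) k) (gaussRed O ⟨(t : LaurentSeries K), ht⟩))⁻¹}) y) :
    ∃ (m : ℕ) (ω : Fin m → k) (b : Fin m → ↥(chart ↥O t⁻¹)),
      y = ∑ j, algebraMap k (LaurentSeries k) (ω j) *
        coeffMap (algebraMap (Res O) k)
          (chartRed hπ hE t⁻¹ (tinv_mem_gaussRing t ht htr) (b j)) := by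
  rw [← map_inv₀] at hy
  obtain ⟨m, ω, d, hdT, hdint, hsum⟩ := exists_sum_integral T _ hyT hy
  have hex : ∀ j, ∃ b : ↥(chart ↥O t⁻¹),
      chartRed hπ hE t⁻¹ (tinv_mem_gaussRing t ht htr) b = d j := fun j =>
    exists_chartRed_inv_eq hπ hE t ht htr hn hdeg hirr hsm (hT ▸ hdT j) (hdint j)
  choose b hb using hex
  refine ⟨m, ω, b, ?_⟩
  rw [hsum]
  exact Finset.sum_congr rfl fun j _ => by rw [hb j]

end Main

include hT in
/-- the reductions of the chart lie in `k(Φ T)`. -/
theorem coeffMap_chartRed_mem (b : ↥(chart ↥O t)) :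
    coeffMap (algebraMap (Res O) k) (chartRed hπ hE t ht b) ∈
      adjoin k (coeffMap (algebraMap (Res O) k) '' T) := by
  have h1 : chartRed hπ hE t ht b ∈ adjoin (Res O) T := hT ▸ chartRed_mem_resField hπ hE t ht b
  exact Fermat.Agent.RED.PUR.DegBaseChange25.map_mem_adjoin (algebraMap (Res O) k)
    (coeffMap (algebraMap (Res O) k))
    (fun c => Fermat.Agent.RED.PUR.DegBaseChange25.coeffMap_algebraMap' (algebraMap (Res O) k) c)
    T h1

/-- conversely, the reductions of the chart are integral over `k[Φ t̃]`. -/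
theorem isIntegral_coeffMap_chartRed (b : ↥(chart ↥O t)) :
    IsIntegral ↥(Algebra.adjoin k
      {coeffMap (algebraMap (Res O) k) (gaussRed O ⟨(t : LaurentSeries K), ht⟩)})
      (coeffMap (algebraMap (Res O) k) (chartRed hπ hE t ht b)) := by
  have h1 := isIntegral_chartRed hπ hE t ht b
  set t' : LaurentSeries (Res O) := gaussRed O ⟨(t : LaurentSeries K), ht⟩ with ht'
  -- the ring hom `κ[t̃] → k[Φ t̃]`
  have hmem : ∀ z : ↥(Algebra.adjoin (Res O) {t'}),
      coeffMap (algebraMap (Res O) k) (z : LaurentSeries (Res O)) ∈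
        Algebra.adjoin k {coeffMap (algebraMap (Res O) k) t'} := by
    rintro ⟨z, hz⟩
    induction hz using Algebra.adjoin_induction with
    | mem z hz =>
        rw [Set.mem_singleton_iff] at hz
        subst hz
        exact Algebra.self_mem_adjoin_singleton k _
    | algebraMap c =>
        show coeffMap (algebraMap (Res O) k) (algebraMap (Res O) (LaurentSeries (Res O)) c) ∈ _
        rw [Fermat.Agent.RED.PUR.DegBaseChange25.coeffMap_algebraMap']
        exact Subalgebra.algebraMap_mem _ _
    | add z w _ _ hz hw =>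
        show coeffMap (algebraMap (Res O) k) (z + w) ∈ _
        rw [map_add]
        exact add_mem hz hw
    | mul z w _ _ hz hw =>
        show coeffMap (algebraMap (Res O) k) (z * w) ∈ _
        rw [map_mul]
        exact mul_mem hz hw
  let φ : ↥(Algebra.adjoin (Res O) {t'}) →+*
      ↥(Algebra.adjoin k {coeffMap (algebraMap (Res O) k) t'}) :=
    { toFun := fun z => ⟨coeffMap (algebraMap (Res O) k) (z : LaurentSeries (Res O)), hmem z⟩
      map_one' := Subtype.ext (map_one _)
      map_mul' := fun _ _ => Subtype.ext (map_mul _ _ _)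
      map_zero' := Subtype.ext (map_zero _)
      map_add' := fun _ _ => Subtype.ext (map_add _ _ _) }
  exact IsIntegral.map_of_comp_eq
    (T := ↥(Algebra.adjoin k {coeffMap (algebraMap (Res O) k) t'})) (U := LaurentSeries k) φ
    (coeffMap (algebraMap (Res O) k)) (by ext; rfl) h1

end Fermat.Agent.ES.V19.SpecialSpan17
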