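/-
Programme V (S19), chapter B1 (genus of the special fibre), step (2) — helper17.
**Special-fibre base change of the level-`K` chart rings to the residue field of `A`.**

`A ≤ ℚ̄` over `ℓ ∤ M`, `k̄ = ResidueField A`, `K ⊂ ℚ̄` a number field, `R = A ∩ K` (a DVR, uniformiser
`ϖ`, residue field `κ`), `t_K : K·F_M` Gauss-integral with the `G1Package8` data `htr/hn/hdeg/hirr`,
the two charts `chart R t_K`, `chart R t_K⁻¹` smooth along the special fibre
(`TwoChartModel.smooth0/1`).  `ρ = resMap A K : κ → k̄`, `t̃ = coeffMap ρ (gaussRed t_K)`.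

* `algResKA`, `isAlgebraic_resKA`, `isSeparable_resKA` : `k̄ / κ` is algebraic and separable;
* **`exists_sum_level0`** : every `y ∈ k̄·F̃_M = modularFunctionFieldFullC k̄ M` integral over `k̄[t̃]`
  is `∑ ω_j · coeffMap ρ (chartRed b_j)`, `b_j ∈ chart R t_K`      (`B̃₀ ⊂ k̄ · red (B₀_K)`);
* **`exists_sum_level1`** : the twin for `chart R t_K⁻¹` and `k̄[t̃⁻¹]`   (`B̃₁ ⊂ k̄ · red (B₁_K)`);
* `coeffMap_chartRed_mem_fullC`, `isIntegral_coeffMap_chartRed_level` : the easy inclusions.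
-/
import Mathlib
import Fermat.Agent.ES.V19.SpecialSpan17
import Fermat.Agent.ES.RED.GaussUnit25
import Fermat.Agent.ES.RED.LevelMax17
import Fermat.Agent.ES.KRON.KronInst10

set_option autoImplicit false
set_option linter.unusedSectionVars false
set_option linter.style.haveILetI false

noncomputable section

open HahnSeries ModularCurve Polynomial IntermediateField

namespace Fermat.Agent.ES.V19.SpecialSpanInst17

open Fermat.Agent.RED.Interface4 Fermat.Agent.RED.DESC Fermat.Agent.RED.DESC.NumberFieldDVR27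
open Fermat.Agent.RED.PUR.GaussGen8 Fermat.Agent.RED.PUR.KtGauss8 Fermat.Agent.RED.PUR.G1Package8
  Fermat.Agent.RED.PUR.GaussBridge10 Fermat.Agent.RED.PUR.ChartGeneric22 Fermat.Agent.RED.ModelAsm4
  Fermat.Agent.ES.RED.FibreSurj17 Fermat.Agent.ES.V19.SpecialSpan17

variable (A : ValuationSubring Qbar) (K : IntermediateField ℚ Qbar)

/-- `k̄ = ResidueField A` as an algebra over `κ = ResidueField (A ∩ K)`. -/
@[reducible] def algResKA :
    Algebra (Res (AK A K)) (IsLocalRing.ResidueField ↥A) := (resMap A K).toAlgebra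

theorem algebraMap_resKA :
    @algebraMap (Res (AK A K)) (IsLocalRing.ResidueField ↥A) _ _ (algResKA A K) = resMap A K :=
  rfl

/-- `k̄ / κ` is algebraic. -/
theorem isAlgebraic_resKA {ℓ : ℕ} (hℓ : ℓ.Prime) (hA : A.LiesOverPrime ℓ) :
    @Algebra.IsAlgebraic (Res (AK A K)) (IsLocalRing.ResidueField ↥A) _ _ (algResKA A K) := by
  letI := algResKA A K
  refine ⟨fun c => ?_⟩
  obtain ⟨m, hm, hc⟩ := Fermat.Agent.ES.RED.LevelMax17.exists_pow_eq_self hℓ A hA c
  refine ⟨X ^ m - X, ?_, ?_⟩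
  · exact (monic_X_pow_sub (by rw [degree_X]; exact_mod_cast hm)).ne_zero
  · rw [map_sub, map_pow, aeval_X, hc, sub_self]

/-- `k̄ / κ` is separable (`κ` is finite). -/
theorem isSeparable_resKA [FiniteDimensional ℚ K] {ℓ : ℕ} (hℓ : ℓ.Prime)
    (hA : A.LiesOverPrime ℓ) :
    @Algebra.IsSeparable (Res (AK A K)) (IsLocalRing.ResidueField ↥A) _ _ (algResKA A K) := by
  letI := algResKA A K
  haveI : Finite (Res (AK A K)) := finite_residueField_AK A K hℓ.ne_zero hA
  haveI := isAlgebraic_resKA A K hℓ hA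
  exact Algebra.IsAlgebraic.isSeparable_of_perfectField

section Level

variable {A K}
variable {M : ℕ} [NeZero M] [FiniteDimensional ℚ K] (ℓ : ℕ) [Fact ℓ.Prime]
  (hA : A.LiesOverPrime ℓ) (hℓM : ¬ ℓ ∣ M)
  [IsDiscreteValuationRing ↥(AK A K)] {ϖ : ↥(AK A K)} (hϖ : Irreducible ϖ)
  (tK : ↥(FK M K)) (htK : (tK : LaurentSeries K) ∈ gaussRing (AK A K))
  (htr : Transcendental (Res (AK A K)) (gaussRed (AK A K) ⟨(tK : LaurentSeries K), htK⟩))
  {n : ℕ} (hn : relfinrank (Kt (AK A K) ⟨(tK : LaurentSeries K), htK⟩) (FK M K) ≠ 0)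
  (hdeg : DegLe (AK A K) (FK M K) ⟨(tK : LaurentSeries K), htK⟩ n)
  (hirr : Irr (AK A K) (FK M K) ⟨(tK : LaurentSeries K), htK⟩ n)

include hA hℓM in
/-- `k̄·F̃_M = k̄(Φ T)` for `T` the generators of `κ·F̃_M`. -/
theorem fullC_eq_adjoin_image :
    modularFunctionFieldFullC (IsLocalRing.ResidueField ↥A) M =
      adjoin (IsLocalRing.ResidueField ↥A)
        (coeffMap (resMap A K) '' divisorExpansionsC (Res (AK A K)) M) := by
  rw [Fermat.Agent.RED.PUR.DegBaseChange25.image_divisorExpansionsC]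
  rfl

include hA hℓM hϖ htr hn hdeg hirr in
/-- **`B̃₀ ⊂ k̄ · red (B₀_K)`.** -/
theorem exists_sum_level0 (hsm : SmoothChart (AK A K) (FK M K) ϖ tK)
    {y : LaurentSeries (IsLocalRing.ResidueField ↥A)}
    (hy : y ∈ modularFunctionFieldFullC (IsLocalRing.ResidueField ↥A) M)
    (hint : IsIntegral ↥(Algebra.adjoin (IsLocalRing.ResidueField ↥A)
      {coeffMap (resMap A K) (gaussRed (AK A K) ⟨(tK : LaurentSeries K), htK⟩)}) y) :
    ∃ (m : ℕ) (ω : Fin m → IsLocalRing.ResidueField ↥A) (b : Fin m → ↥(chart ↥(AK A K) tK)),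
      y = ∑ j, algebraMap (IsLocalRing.ResidueField ↥A)
          (LaurentSeries (IsLocalRing.ResidueField ↥A)) (ω j) *
        coeffMap (resMap A K) (chartRed hϖ (FK_le_fracField A K M) tK htK (b j)) := by
  have hℓ : ℓ.Prime := Fact.out
  letI := algResKA A K
  haveI := isSeparable_resKA A K hℓ hA
  haveI : IsAlgClosed (IsLocalRing.ResidueField ↥A) :=
    Fermat.Agent.ES.KRON.KronInst10.isAlgClosed_residueField A
  have hT : resField (AK A K) (FK M K) =
      adjoin (Res (AK A K)) (divisorExpansionsC (Res (AK A K)) M) :=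
    Fermat.Agent.ES.RED.GaussUnit25.resField_FK_eq A K ℓ hA M hℓM
  rw [fullC_eq_adjoin_image ℓ hA hℓM (K := K)] at hy
  exact exists_sum_chartRed hϖ (FK_le_fracField A K M) tK htK htr hn hdeg hirr
    (divisorExpansionsC (Res (AK A K)) M) hT hsm hy hint

include hA hℓM hϖ htr hn hdeg hirr in
/-- **`B̃₁ ⊂ k̄ · red (B₁_K)`.** -/
theorem exists_sum_level1 (hsm : SmoothChart (AK A K) (FK M K) ϖ tK⁻¹)
    {y : LaurentSeries (IsLocalRing.ResidueField ↥A)}
    (hy : y ∈ modularFunctionFieldFullC (IsLocalRing.ResidueField ↥A) M)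
    (hint : IsIntegral ↥(Algebra.adjoin (IsLocalRing.ResidueField ↥A)
      {(coeffMap (resMap A K) (gaussRed (AK A K) ⟨(tK : LaurentSeries K), htK⟩))⁻¹}) y) :
    ∃ (m : ℕ) (ω : Fin m → IsLocalRing.ResidueField ↥A)
      (b : Fin m → ↥(chart ↥(AK A K) tK⁻¹)),
      y = ∑ j, algebraMap (IsLocalRing.ResidueField ↥A)
          (LaurentSeries (IsLocalRing.ResidueField ↥A)) (ω j) *
        coeffMap (resMap A K) (chartRed hϖ (FK_le_fracField A K M) tK⁻¹
          (tinv_mem_gaussRing tK htK htr) (b j)) := by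
  have hℓ : ℓ.Prime := Fact.out
  letI := algResKA A K
  haveI := isSeparable_resKA A K hℓ hA
  haveI : IsAlgClosed (IsLocalRing.ResidueField ↥A) :=
    Fermat.Agent.ES.KRON.KronInst10.isAlgClosed_residueField A
  have hT : resField (AK A K) (FK M K) =
      adjoin (Res (AK A K)) (divisorExpansionsC (Res (AK A K)) M) :=
    Fermat.Agent.ES.RED.GaussUnit25.resField_FK_eq A K ℓ hA M hℓM
  rw [fullC_eq_adjoin_image ℓ hA hℓM (K := K)] at hy
  exact exists_sum_chartRed_inv hϖ (FK_le_fracField A K M) tK htK htr hn hdeg hirr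
    (divisorExpansionsC (Res (AK A K)) M) hT hsm hy hint

include hA hℓM in
/-- the reductions of the level-`K` chart lie in `k̄·F̃_M`. -/
theorem coeffMap_chartRed_mem_fullC (b : ↥(chart ↥(AK A K) tK)) :
    coeffMap (resMap A K) (chartRed hϖ (FK_le_fracField A K M) tK htK b) ∈
      modularFunctionFieldFullC (IsLocalRing.ResidueField ↥A) M := by
  letI := algResKA A K
  have hT : resField (AK A K) (FK M K) =
      adjoin (Res (AK A K)) (divisorExpansionsC (Res (AK A K)) M) :=
    Fermat.Agent.ES.RED.GaussUnit25.resField_FK_eq A K ℓ hA M hℓM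
  rw [fullC_eq_adjoin_image ℓ hA hℓM (K := K)]
  exact coeffMap_chartRed_mem hϖ (FK_le_fracField A K M) tK htK
    (divisorExpansionsC (Res (AK A K)) M) hT b

/-- the reductions of the level-`K` chart are integral over `k̄[t̃]`. -/
theorem isIntegral_coeffMap_chartRed_level (b : ↥(chart ↥(AK A K) tK)) :
    IsIntegral ↥(Algebra.adjoin (IsLocalRing.ResidueField ↥A)
      {coeffMap (resMap A K) (gaussRed (AK A K) ⟨(tK : LaurentSeries K), htK⟩)})
      (coeffMap (resMap A K) (chartRed hϖ (FK_le_fracField A K M) tK htK b)) := by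
  letI := algResKA A K
  exact isIntegral_coeffMap_chartRed hϖ (FK_le_fracField A K M) tK htK b

end Level

end Fermat.Agent.ES.V19.SpecialSpanInst17
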