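/-
Programme V (S19), chapter B1 (genus of the special fibre; route of ruling 5) — helper17.
**(I3) `SurjProp` of `CechIface12`, at a level `K` carrying the Gauss package.**

`A ≤ ℚ̄` over `ℓ ∤ M`, `K ⊂ ℚ̄` a number field, `R = A ∩ K` a DVR (uniformiser `ϖ`),
`t_K : K·F_M` with `A ∩ K`-integral `q`-expansions of `t_K` and `t_K⁻¹` (`hT`, `hTi`), the
`G1Package8` data `htr/hn/hdeg/hirr`, and `tt : F̃ = k̄·F̃_M` with
`(tt : k̄((q))) = coeffMap ρ (gaussRed t_K)` (`ρ = resMap A K`).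

* `bc_mem_intF`, `coe_redF_bc` : a chart element `b` of level `K` has an `A`-integral expansion and
  `redF (bc b) = coeffMap ρ (chartRed b)`;
* `smul_mem_intF`, `redF_smul` : `redF (a • f) = res a · redF f`;
* **`surj0`**, **`surj1`** : `B̃₀(t̃) ⊆ redF (M₀)`, `B̃₀(t̃⁻¹) ⊆ redF (M₁ 0)`, given that `Reg` implies
  integrality over `k̄[t̃]`, resp. `k̄[t̃⁻¹]` (helper13's `reg_iff_isIntegral_sep`) and that the chart
  is smooth along the special fibre;  **`surjProp`** : `CechIface12.SurjProp`.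
-/
import Mathlib
import Fermat.Agent.ES.V19.CechIface12
import Fermat.Agent.ES.V19.SpecialSpanInst17
import Fermat.Agent.ES.RED.IntegralQExp1

set_option autoImplicit false
set_option linter.unusedSectionVars false
set_option linter.style.haveILetI false

noncomputable section

open HahnSeries ModularCurve Polynomial IntermediateField AlgebraicCurve

namespace Fermat.Agent.ES.V19.SurjProp17

open Fermat.Agent.RED.Interface4 Fermat.Agent.RED.DESC Fermat.Agent.RED.DESC.NumberFieldDVR27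
  Fermat.Agent.RED.DESC.PlaceExtend27
open Fermat.Agent.RED.PUR.GaussGen8 Fermat.Agent.RED.PUR.KtGauss8 Fermat.Agent.RED.PUR.G1Package8
  Fermat.Agent.RED.PUR.GaussBridge10 Fermat.Agent.RED.PUR.ChartGeneric22 Fermat.Agent.RED.ModelAsm4
  Fermat.Agent.ES.RED.FibreSurj17 Fermat.Agent.ES.RED.ChartIntegralA1
  Fermat.Agent.ES.V19.CechIface12 Fermat.Agent.ES.V19.SpecialSpanInst17

variable {A : ValuationSubring Qbar} {K : IntermediateField ℚ Qbar}
variable {M : ℕ} [NeZero M] [FiniteDimensional ℚ K] (ℓ : ℕ) [Fact ℓ.Prime]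
  (hA : A.LiesOverPrime ℓ) (hℓM : ¬ ℓ ∣ M)
  [IsDiscreteValuationRing ↥(AK A K)] {ϖ : ↥(AK A K)} (hϖ : Irreducible ϖ)

/-! ### scalars -/

theorem smul_eq_mul (a : ↥A) (f : ↥(Fbar M)) :
    a • f = algebraMap Qbar ↥(Fbar M) (a : Qbar) * f := rfl

theorem smul_mem_intF (a : ↥A) {f : ↥(Fbar M)} (hf : f ∈ intF A M) : a • f ∈ intF A M := by
  rw [smul_eq_mul]
  exact (intF A M).mul_mem (algebraMap_mem_intF A M a) hf

theorem redF_smul (a : ↥A) {f : ↥(Fbar M)} (hf : f ∈ intF A M) :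
    redF A M ℓ hA hℓM ⟨a • f, smul_mem_intF a hf⟩ =
      algebraMap (kA A) ↥(modularFunctionFieldFullC (kA A) M) (IsLocalRing.residue ↥A a) *
        redF A M ℓ hA hℓM ⟨f, hf⟩ := by
  rw [← redF_algebraMap A M ℓ hA hℓM a, ← map_mul]
  congr 1

/-! ### chart elements of level `K` -/

section Chart

variable (s : ↥(FK M K)) (hs : (s : LaurentSeries K) ∈ gaussRing (AK A K))
  (hsT : ∃ T : LaurentSeries ↥(AK A K), embK (AK A K) T = (s : LaurentSeries K))

include hsT in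
/-- a chart element of level `K` has an `A`-integral `q`-expansion. -/
theorem bc_mem_intF (b : ↥(chart ↥(AK A K) s)) :
    baseChangeHom M K (b : ↥(FK M K)) ∈ intF A M := by
  obtain ⟨Y₀, hY₀⟩ := Fermat.Agent.ES.RED.IntegralQExp1.exists_embK_of_mem_chart (AK A K)
    (FK M K) (FK_le_fracField A K M) hsT b.2
  refine ⟨coeffMap (incl A K) Y₀, ?_⟩
  rw [Fermat.Agent.ES.RED.GaussUnit25.coeffMap_subtype_incl, hY₀]
  rfl

include hsT in
/-- **`redF (bc b) = coeffMap ρ (chartRed b)`.** -/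
theorem coe_redF_bc (b : ↥(chart ↥(AK A K) s)) :
    ((redF A M ℓ hA hℓM ⟨baseChangeHom M K (b : ↥(FK M K)), bc_mem_intF s hsT b⟩ :
      ↥(modularFunctionFieldFullC (kA A) M)) : LaurentSeries (kA A)) =
      coeffMap (resMap A K) (chartRed hϖ (FK_le_fracField A K M) s hs b) := by
  obtain ⟨Y₀, hY₀⟩ := Fermat.Agent.ES.RED.IntegralQExp1.exists_embK_of_mem_chart (AK A K)
    (FK M K) (FK_le_fracField A K M) hsT b.2
  have h1 : coeffMap A.subtype (coeffMap (incl A K) Y₀) =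
      ((baseChangeHom M K (b : ↥(FK M K)) : ↥(Fbar M)) : LaurentSeries Qbar) := by
    rw [Fermat.Agent.ES.RED.GaussUnit25.coeffMap_subtype_incl, hY₀]
    rfl
  rw [coe_redF_eq_of ℓ hA hℓM (y := ⟨baseChangeHom M K (b : ↥(FK M K)), bc_mem_intF s hsT b⟩) h1,
    Fermat.Agent.ES.RED.GaussUnit25.coeffMap_residue_incl]
  congr 1
  have h3 : chartRed hϖ (FK_le_fracField A K M) s hs b =
      gaussRed (AK A K) ⟨embK (AK A K) Y₀, embK_mem (AK A K) Y₀⟩ := by
    rw [chartRed_apply]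
    congr 1
    exact Subtype.ext hY₀.symm
  rw [h3, gaussRed_embK]

include hA hℓM hϖ hsT in
/-- finite `k̄`-combinations of reductions of chart elements are reductions of elements of the
`A`-span of the chart. -/
theorem exists_lift_sum {m : ℕ} (ω : Fin m → kA A) (b : Fin m → ↥(chart ↥(AK A K) s))
    (fb : ↥(modularFunctionFieldFullC (kA A) M))
    (h : (fb : LaurentSeries (kA A)) = ∑ j, algebraMap (kA A) (LaurentSeries (kA A)) (ω j) *
      coeffMap (resMap A K) (chartRed hϖ (FK_le_fracField A K M) s hs (b j))) :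
    ∃ f ∈ spanA A M K (chart ↥(AK A K) s : Set ↥(FK M K)), ∃ hf : f ∈ intF A M,
      redF A M ℓ hA hℓM ⟨f, hf⟩ = fb := by
  classical
  have hlift : ∀ j, ∃ a : ↥A, IsLocalRing.residue ↥A a = ω j := fun j =>
    IsLocalRing.residue_surjective (ω j)
  choose a ha using hlift
  have hmem : ∀ j, a j • baseChangeHom M K ((b j : ↥(chart ↥(AK A K) s)) : ↥(FK M K)) ∈
      intF A M := fun j => smul_mem_intF (a j) (bc_mem_intF s hsT (b j))
  have hsum : ∑ j, a j • baseChangeHom M K ((b j : ↥(chart ↥(AK A K) s)) : ↥(FK M K)) ∈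
      intF A M := (intF A M).sum_mem fun j _ => hmem j
  refine ⟨∑ j, a j • baseChangeHom M K ((b j : ↥(chart ↥(AK A K) s)) : ↥(FK M K)), ?_, hsum, ?_⟩
  · refine Submodule.sum_mem _ fun j _ => Submodule.smul_mem _ _ (Submodule.subset_span ?_)
    exact ⟨(b j : ↥(FK M K)), (b j).2, rfl⟩
  · have h1 : (⟨∑ j, a j • baseChangeHom M K ((b j : ↥(chart ↥(AK A K) s)) : ↥(FK M K)), hsum⟩ :
        ↥(intF A M)) = ∑ j, (⟨a j • baseChangeHom M K ((b j : ↥(chart ↥(AK A K) s)) : ↥(FK M K)),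
          hmem j⟩ : ↥(intF A M)) := by
      apply Subtype.ext
      rw [AddSubmonoidClass.coe_finsetSum]
    rw [h1, map_sum]
    apply Subtype.ext
    rw [h, AddSubmonoidClass.coe_finsetSum]
    refine Finset.sum_congr rfl fun j _ => ?_
    rw [redF_smul ℓ hA hℓM (a j) (bc_mem_intF s hsT (b j)), MulMemClass.coe_mul,
      coe_redF_bc ℓ hA hℓM hϖ s hs hsT (b j), ha j]
    rfl

end Chart

/-! ### (I3) -/

section Surj

variable (tK : ↥(FK M K)) (htK : (tK : LaurentSeries K) ∈ gaussRing (AK A K))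
  (htr : Transcendental (Res (AK A K)) (gaussRed (AK A K) ⟨(tK : LaurentSeries K), htK⟩))
  {n : ℕ} (hn : relfinrank (Kt (AK A K) ⟨(tK : LaurentSeries K), htK⟩) (FK M K) ≠ 0)
  (hdeg : DegLe (AK A K) (FK M K) ⟨(tK : LaurentSeries K), htK⟩ n)
  (hirr : Irr (AK A K) (FK M K) ⟨(tK : LaurentSeries K), htK⟩ n)
  (hT : ∃ T : LaurentSeries ↥(AK A K), embK (AK A K) T = (tK : LaurentSeries K))
  (hTi : ∃ T : LaurentSeries ↥(AK A K), embK (AK A K) T = ((tK⁻¹ : ↥(FK M K)) : LaurentSeries K))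
  (tt : ↥(modularFunctionFieldFullC (kA A) M))
  (htt : (tt : LaurentSeries (kA A)) =
    coeffMap (resMap A K) (gaussRed (AK A K) ⟨(tK : LaurentSeries K), htK⟩))

/-- integrality in `F̃` and in `k̄((q))`. -/
theorem isIntegral_coe {u fb : ↥(modularFunctionFieldFullC (kA A) M)}
    (h : IsIntegral ↥(Algebra.adjoin (kA A) {u}) fb) :
    IsIntegral ↥(Algebra.adjoin (kA A) {(u : LaurentSeries (kA A))})
      (fb : LaurentSeries (kA A)) := by
  have hmem : ∀ z : ↥(Algebra.adjoin (kA A) {u}),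
      ((z : ↥(modularFunctionFieldFullC (kA A) M)) : LaurentSeries (kA A)) ∈
        Algebra.adjoin (kA A) {(u : LaurentSeries (kA A))} := by
    rintro ⟨z, hz⟩
    induction hz using Algebra.adjoin_induction with
    | mem z hz =>
        rw [Set.mem_singleton_iff] at hz
        subst hz
        exact Algebra.self_mem_adjoin_singleton (kA A) _
    | algebraMap c => exact Subalgebra.algebraMap_mem _ c
    | add z w _ _ hz hw => exact add_mem hz hw
    | mul z w _ _ hz hw => exact mul_mem hz hw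
  let φ : ↥(Algebra.adjoin (kA A) {u}) →+*
      ↥(Algebra.adjoin (kA A) {(u : LaurentSeries (kA A))}) :=
    { toFun := fun z => ⟨_, hmem z⟩
      map_one' := rfl
      map_mul' := fun _ _ => rfl
      map_zero' := rfl
      map_add' := fun _ _ => rfl }
  exact IsIntegral.map_of_comp_eq
    (T := ↥(Algebra.adjoin (kA A) {(u : LaurentSeries (kA A))})) (U := LaurentSeries (kA A)) φ
    (algebraMap ↥(modularFunctionFieldFullC (kA A) M) (LaurentSeries (kA A))) (by ext; rfl) h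

include hA hℓM hϖ htr hn hdeg hirr hT htt in
/-- **(I3), chart `t`**: `B̃₀(t̃) ⊆ redF (M₀)`. -/
theorem surj0 (hsm : SmoothChart (AK A K) (FK M K) ϖ tK)
    (hreg : ∀ fb : ↥(modularFunctionFieldFullC (kA A) M), Reg (kA A) tt fb →
      IsIntegral ↥(Algebra.adjoin (kA A) {tt}) fb)
    (fb : ↥(modularFunctionFieldFullC (kA A) M)) (hfb : Reg (kA A) tt fb) :
    ∃ f ∈ M0 A M K tK, ∃ hf : f ∈ intF A M, redF A M ℓ hA hℓM ⟨f, hf⟩ = fb := by
  have h1 := isIntegral_coe (hreg fb hfb)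
  rw [htt] at h1
  obtain ⟨m, ω, b, hsum⟩ := exists_sum_level0 ℓ hA hℓM hϖ tK htK htr hn hdeg hirr hsm fb.2 h1
  exact exists_lift_sum ℓ hA hℓM hϖ tK htK hT ω b fb hsum

include hA hℓM hϖ htr hn hdeg hirr hTi htt in
/-- **(I3), chart `t⁻¹`**: `B̃₀(t̃⁻¹) ⊆ redF (M₁ 0)`. -/
theorem surj1 (hsm : SmoothChart (AK A K) (FK M K) ϖ tK⁻¹)
    (hreg : ∀ fb : ↥(modularFunctionFieldFullC (kA A) M), Reg (kA A) tt⁻¹ fb →
      IsIntegral ↥(Algebra.adjoin (kA A) {tt⁻¹}) fb)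
    (fb : ↥(modularFunctionFieldFullC (kA A) M)) (hfb : Reg (kA A) tt⁻¹ fb) :
    ∃ f ∈ M1 A M K tK 0, ∃ hf : f ∈ intF A M, redF A M ℓ hA hℓM ⟨f, hf⟩ = fb := by
  have h1 := isIntegral_coe (hreg fb hfb)
  have h2 : ((tt⁻¹ : ↥(modularFunctionFieldFullC (kA A) M)) : LaurentSeries (kA A)) =
      (coeffMap (resMap A K) (gaussRed (AK A K) ⟨(tK : LaurentSeries K), htK⟩))⁻¹ := by
    rw [← htt]
    rfl
  rw [h2] at h1
  obtain ⟨m, ω, b, hsum⟩ := exists_sum_level1 ℓ hA hℓM hϖ tK htK htr hn hdeg hirr hsm fb.2 h1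
  obtain ⟨f, hf, hfi, hred⟩ := exists_lift_sum ℓ hA hℓM hϖ tK⁻¹
    (tinv_mem_gaussRing tK htK htr) hTi ω b fb hsum
  refine ⟨f, ?_, hfi, hred⟩
  have hset : {f : ↥(FK M K) | tK⁻¹ ^ 0 * f ∈ chart ↥(AK A K) tK⁻¹} =
      (chart ↥(AK A K) tK⁻¹ : Set ↥(FK M K)) := by
    ext g
    simp only [Set.mem_ofPred_eq, pow_zero, one_mul, SetLike.mem_coe]
  show f ∈ spanA A M K {f : ↥(FK M K) | tK⁻¹ ^ 0 * f ∈ chart ↥(AK A K) tK⁻¹}
  rw [hset]
  exact hf

include hA hℓM hϖ htr hn hdeg hirr hT hTi htt in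
/-- **(I3) `CechIface12.SurjProp`.** -/
theorem surjProp (hsm0 : SmoothChart (AK A K) (FK M K) ϖ tK)
    (hsm1 : SmoothChart (AK A K) (FK M K) ϖ tK⁻¹)
    (hreg0 : ∀ fb : ↥(modularFunctionFieldFullC (kA A) M), Reg (kA A) tt fb →
      IsIntegral ↥(Algebra.adjoin (kA A) {tt}) fb)
    (hreg1 : ∀ fb : ↥(modularFunctionFieldFullC (kA A) M), Reg (kA A) tt⁻¹ fb →
      IsIntegral ↥(Algebra.adjoin (kA A) {tt⁻¹}) fb) :
    SurjProp A M K tK ℓ hA hℓM tt :=
  ⟨surj0 ℓ hA hℓM hϖ tK htK htr hn hdeg hirr hT tt htt hsm0 hreg0,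
    surj1 ℓ hA hℓM hϖ tK htK htr hn hdeg hirr hTi tt htt hsm1 hreg1⟩

end Surj

end Fermat.Agent.ES.V19.SurjProp17
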