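/-
Programme V (S19), chapters B3/B4' glue (helper9): **any expansion satisfying Taylor's formula with remainder agrees
with the Laurent expansion `ExpandPlace9.expandF` at a place of degree one.**

`K F` fields, `v : Place K F` of degree one (`ResK v`), `t` a uniformiser at `v`.  Let `R` be a commutative ring with a
ring homomorphism `ρ : R →+* K` (e.g. `A ⊂ Q̄`), `C` a ring with a ring homomorphism `ι : C →+* F` landing in the
valuation ring of `v` (e.g. the local ring `CQ ⊂ F` of the model on a residue disc), `c₀ : R → C` the constants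
(`ι (c₀ r) = algebraMap K F (ρ r)`), `τ : C` with `ι τ = t`, and `T : C → PowerSeries R` ANY function satisfying
Taylor's formula with remainder

  `∀ n c, ∃ b : C, c = ∑_{i < n} c₀ (coeff i (T c)) * τ ^ i + τ ^ n * b`

(for `TaylorSec3.taylor` this is `TaylorSec3.sub_trunc`).  Then `expandF (ι c) = ofPowerSeries (map ρ (T c))`
(`expandF_eq_of_taylor_formula`), coefficientwise `coeff_expandF_eq_of_taylor_formula`.
-/
import Mathlib
import Fermat.Agent.ES.V19.ExpandPlace9

set_option autoImplicit false

open AlgebraicCurve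

noncomputable section

namespace Fermat.Agent.ES.V19.TaylorAgree9

open Fermat.Agent.X0.FF Fermat.Agent.ES.V19.TaylorAbs9 Fermat.Agent.ES.V19.ExpandPlace9

variable {K F : Type*} [Field K] [Field F] [Algebra K F] {v : Place K F} (hres : ResK v) {t : F}
  (ht : v.ord t = 1)
  {R C : Type*} [CommRing R] [CommRing C] (ρ : R →+* K) (ι : C →+* F)
  (hι : ∀ c : C, ι c ∈ v.toValuationSubring) (c₀ : R → C)
  (hc₀ : ∀ r : R, ι (c₀ r) = algebraMap K F (ρ r)) {τ : C} (hτ : ι τ = t)
  (T : C → PowerSeries R)
  (hT : ∀ (n : ℕ) (c : C), ∃ b : C,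
    c = ∑ i ∈ Finset.range n, c₀ (PowerSeries.coeff i (T c)) * τ ^ i + τ ^ n * b)

include hc₀ hτ hT in
/-- coefficientwise agreement on the valuation ring. -/
theorem coeff_expandO_eq_of_taylor_formula (c : C) (i : ℕ) :
    PowerSeries.coeff i (expandO hres ht ⟨ι c, hι c⟩) = ρ (PowerSeries.coeff i (T c)) := by
  obtain ⟨b, hb⟩ := hT (i + 1) c
  -- the polynomial with the coefficients of `T c`
  set p : Polynomial K := ∑ j ∈ Finset.range (i + 1),
    Polynomial.monomial j (ρ (PowerSeries.coeff j (T c))) with hp
  have e : (⟨ι c, hι c⟩ : ↥v.toValuationSubring)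
      = Polynomial.aeval (tO ht) p + (tO ht) ^ (i + 1) * ⟨ι b, hι b⟩ := by
    apply Subtype.ext
    have h1 : ι c = ∑ j ∈ Finset.range (i + 1), algebraMap K F (ρ (PowerSeries.coeff j (T c))) * t ^ j
        + t ^ (i + 1) * ι b := by
      conv_lhs => rw [hb]
      rw [map_add, map_sum, map_mul, map_pow, hτ]
      congr 1
      apply Finset.sum_congr rfl
      intro j _
      rw [map_mul, map_pow, hτ, hc₀]
    have h2 : v.toValuationSubring.subtype (Polynomial.aeval (tO ht) p)
        = ∑ j ∈ Finset.range (i + 1), algebraMap K F (ρ (PowerSeries.coeff j (T c))) * t ^ j := by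
      rw [hp, map_sum, map_sum]
      apply Finset.sum_congr rfl
      intro j _
      rw [Polynomial.aeval_monomial, map_mul, map_pow]
      show ((algebraMap K ↥v.toValuationSubring (ρ (PowerSeries.coeff j (T c))) : ↥v.toValuationSubring) : F)
        * ((tO ht : ↥v.toValuationSubring) : F) ^ j = _
      rw [v.coe_algebraMap, coe_tO]
    show ι c = v.toValuationSubring.subtype (Polynomial.aeval (tO ht) p)
      + ((tO ht : ↥v.toValuationSubring) : F) ^ (i + 1) * ι b
    rw [h2, coe_tO]
    exact h1
  have h3 := coeff_expand_of_eq (isUnif hres ht) e (Nat.lt_succ_self i)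
  have h4 : p.coeff i = ρ (PowerSeries.coeff i (T c)) := by
    rw [hp, Polynomial.finsetSum_coeff]
    simp only [Polynomial.coeff_monomial]
    rw [Finset.sum_eq_single i]
    · rw [if_pos rfl]
    · intro j _ hji
      rw [if_neg hji]
    · intro h
      exact absurd (Finset.mem_range.mpr (Nat.lt_succ_self i)) h
  rw [← h4]
  exact h3

include hι hc₀ hτ hT in
/-- **Agreement**: the Laurent expansion of `ι c` at `v` is the power series `T c`, with coefficients mapped to
`K`. -/
theorem expandF_eq_of_taylor_formula (c : C) :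
    expandF hres ht (ι c) = HahnSeries.ofPowerSeries ℤ K (PowerSeries.map ρ (T c)) := by
  rw [expandF_of_mem hres ht (hι c)]
  congr 1
  ext i
  rw [coeff_expandO_eq_of_taylor_formula hres ht ρ ι hι c₀ hc₀ hτ T hT c i, PowerSeries.coeff_map]

include hι hc₀ hτ hT in
/-- coefficientwise form. -/
theorem coeff_expandF_eq_of_taylor_formula (c : C) (m : ℤ) :
    (expandF hres ht (ι c)).coeff m = if m < 0 then 0 else ρ (PowerSeries.coeff m.natAbs (T c)) := by
  rw [expandF_eq_of_taylor_formula hres ht ρ ι hι c₀ hc₀ hτ T hT c, PowerSeries.coeff_coe]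
  split_ifs
  · rfl
  · rw [PowerSeries.coeff_map]

end Fermat.Agent.ES.V19.TaylorAgree9

end
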