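/-
Programme V (S19 by hand, route `S19_ROUTE23.md`), chapter TOP, file `TopLevel19` (helper19).

The order-level literal (E3) and the passage from the auxiliary level to level `N`:

* `Tors N ℓ k` : the literal `↥(Submodule.torsionBy ℤ (JZero N) ((ℓ : ℤ) ^ k))` of S19, with the
  Galois action inherited from `JZero N` (`coe_smul_tors` is `rfl`) and `finite_tors`;
* `HasGaloisOrder ℓ N k` : there is a `ℤ_(ℓ)`-subalgebra `H ⊆ (Tors N ℓ k → ℚ̄)` which is an
  equivariant Hopf order in the sense of `OrderHyp4.IsEquivOrder`;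
* `torsPullback h : Tors N ℓ k →+ Tors M ℓ k` for `N ∣ M` (restriction of `π^* = levelPullback h`),
  equivariant, and injective for `M = auxLevel ℓ N`;
* `isEquivOrder_of_isHopfOrder`, `hasGaloisOrder_of_isHopfOrder` : the converse of
  `HopfOrderBridge2.isHopfOrder_of_isEquivOrder` (helper2's bundle for the action `σ • x` gives
  helper4's bundle), so that the funnel may end in either vocabulary;
* `hasGaloisOrder_of_auxLevel` : `HasGaloisOrder ℓ (auxLevel ℓ N) k → HasGaloisOrder ℓ N k`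
  (`OrderSub4.isEquivOrder_subOrder`);
* `exit_of_hasGaloisOrder` : `HasGaloisOrder ℓ N k` gives the literal conclusion of S19 at level `N`
  (`HopfOrderBridge2.exists_hopfAlgebra_of_isEquivOrder`);
* `exit_of_auxLevel` : the two combined.
-/
import Mathlib
import Fermat.Prelude.Def_ModularCurve_ArithmeticGalois
import Fermat.Prelude.Def_GaloisRep_Flat
import Fermat.Agent.ES.RED.PullbackInj12
import Fermat.Agent.ES.KUM.FiniteTorsion15
import Fermat.Agent.ES.V19.OrderSub4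
import Fermat.Agent.ES.V19.HopfOrderBridge2

set_option autoImplicit false

noncomputable section

namespace Fermat.Agent.ES.V19.TopLevel19

open ModularCurve
open Fermat.Agent.ES.V19.OrderHyp4 Fermat.Agent.ES.V19.OrderSub4
open Fermat.Agent.ES.HECKE.LevelPullback12 Fermat.Agent.ES.RED.PullbackInj12
open Fermat.Agent.RED.Interface4 (auxLevel dvd_auxLevel)

local notation "Ω" => AlgebraicClosure ℚ
local notation "GQ" => (AlgebraicClosure ℚ ≃ₐ[ℚ] AlgebraicClosure ℚ)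

/-- `J₀(N)[ℓ^k]`, the literal of S19. -/
abbrev Tors (N ℓ k : ℕ) : Type := ↥(Submodule.torsionBy ℤ (JZero N) ((ℓ : ℤ) ^ k))

section Action

variable {N ℓ k : ℕ}

theorem smul_mem_tors (σ : GQ) {x : JZero N}
    (hx : x ∈ Submodule.torsionBy ℤ (JZero N) ((ℓ : ℤ) ^ k)) :
    σ • x ∈ Submodule.torsionBy ℤ (JZero N) ((ℓ : ℤ) ^ k) := by
  rw [Submodule.mem_torsionBy_iff] at hx ⊢
  rw [smul_comm, hx, smul_zero]

instance instSMulTors19 : SMul GQ (Tors N ℓ k) :=
  ⟨fun σ x => ⟨σ • (x : JZero N), smul_mem_tors σ x.2⟩⟩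

@[simp] theorem coe_smul_tors (σ : GQ) (x : Tors N ℓ k) :
    ((σ • x : Tors N ℓ k) : JZero N) = σ • (x : JZero N) := rfl

instance instDistribMulActionTors19 : DistribMulAction GQ (Tors N ℓ k) where
  one_smul _ := Subtype.ext (one_smul _ _)
  mul_smul _ _ _ := Subtype.ext (mul_smul _ _ _)
  smul_zero _ := Subtype.ext (smul_zero _)
  smul_add _ _ _ := Subtype.ext (smul_add _ _ _)

theorem mem_tors_iff (x : JZero N) :
    x ∈ Submodule.torsionBy ℤ (JZero N) ((ℓ : ℤ) ^ k) ↔ (ℓ ^ k) • x = 0 := by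
  rw [Submodule.mem_torsionBy_iff, ← Nat.cast_pow, natCast_zsmul]

end Action

/-- `J₀(N)[ℓ^k]` is finite. -/
theorem finite_tors (N ℓ k : ℕ) [NeZero N] (hℓ : ℓ ≠ 0) : Finite (Tors N ℓ k) := by
  have : NeZero (ℓ ^ k) := ⟨pow_ne_zero k hℓ⟩
  have h := Fermat.Agent.ES.KUM.FiniteTorsion15.finite_setOf_nsmul_eq_zero N (ℓ ^ k)
  have hset : ((Submodule.torsionBy ℤ (JZero N) ((ℓ : ℤ) ^ k) : Submodule ℤ (JZero N)) :
      Set (JZero N)) = {y : JZero N | (ℓ ^ k) • y = 0} := by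
    ext x
    exact mem_tors_iff x
  have h2 : ((Submodule.torsionBy ℤ (JZero N) ((ℓ : ℤ) ^ k) : Submodule ℤ (JZero N)) :
      Set (JZero N)).Finite := by
    rw [hset]
    exact h
  exact h2.to_subtype

/-- **(E3) the order-level statement at level `N`**: `J₀(N)[ℓ^k]` carries a `Gal(ℚ̄/ℚ)`-equivariant
Hopf order over `ℤ_(ℓ)`. -/
def HasGaloisOrder (ℓ N k : ℕ) : Prop :=
  ∃ H : Subalgebra ↥(GaloisRep.ratLocalizedAt ℓ) (Tors N ℓ k → Ω), IsEquivOrder GQ H

/-- helper2's bundle `HopfOrderStr2.IsHopfOrder` for the action `σ • x` gives helper4's bundle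
`OrderHyp4.IsEquivOrder` (converse of `HopfOrderBridge2.isHopfOrder_of_isEquivOrder`). -/
theorem isEquivOrder_of_isHopfOrder {R : Type} [CommRing R] [Algebra R ℚ] {M : Type}
    [AddCommGroup M] [DistribMulAction GQ M] {H : Subalgebra R (M → Ω)}
    (hH : Fermat.Agent.ES.V19.HopfOrderStr2.IsHopfOrder (fun (σ : GQ) (x : M) => σ • x) H) :
    IsEquivOrder GQ H where
  finite := Module.Finite.iff_fg.mpr hH.fg
  equiv h hh σ x := hH.equivariant h hh σ x
  sep := hH.separates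
  comul := hH.comul_mem
  antipode := hH.antipode_mem

theorem hasGaloisOrder_of_isHopfOrder {ℓ N k : ℕ}
    {H : Subalgebra ↥(GaloisRep.ratLocalizedAt ℓ) (Tors N ℓ k → Ω)}
    (hH : Fermat.Agent.ES.V19.HopfOrderStr2.IsHopfOrder
      (fun (σ : GQ) (x : Tors N ℓ k) => σ • x) H) : HasGaloisOrder ℓ N k :=
  ⟨H, isEquivOrder_of_isHopfOrder hH⟩

section Pullback

variable {N M : ℕ} [NeZero N] [NeZero M] {ℓ k : ℕ}

theorem levelPullback_mem_tors (h : N ∣ M) {x : JZero N}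
    (hx : x ∈ Submodule.torsionBy ℤ (JZero N) ((ℓ : ℤ) ^ k)) :
    levelPullback h x ∈ Submodule.torsionBy ℤ (JZero M) ((ℓ : ℤ) ^ k) := by
  rw [Submodule.mem_torsionBy_iff] at hx ⊢
  rw [← map_zsmul, hx, map_zero]

/-- `π^*` on `ℓ^k`-torsion. -/
def torsPullback (h : N ∣ M) : Tors N ℓ k →+ Tors M ℓ k where
  toFun x := ⟨levelPullback h (x : JZero N), levelPullback_mem_tors h x.2⟩
  map_zero' := Subtype.ext (map_zero _)
  map_add' _ _ := Subtype.ext (map_add _ _ _)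

@[simp] theorem coe_torsPullback (h : N ∣ M) (x : Tors N ℓ k) :
    ((torsPullback h x : Tors M ℓ k) : JZero M) = levelPullback h (x : JZero N) := rfl

theorem torsPullback_smul (h : N ∣ M) (σ : GQ) (x : Tors N ℓ k) :
    torsPullback h (σ • x) = σ • torsPullback h x :=
  Subtype.ext (levelPullback_smul h σ (x : JZero N))

end Pullback

section Aux

variable (ℓ N k : ℕ) [NeZero N]

theorem neZero_auxLevel19 : NeZero (auxLevel ℓ N) :=
  Fermat.Agent.RED.LVL.LevelDegree17.neZero_auxLevel ℓ N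

/-- `π^* : J₀(N)[ℓ^k] → J₀(auxLevel ℓ N)[ℓ^k]` is injective. -/
theorem torsPullback_auxLevel_injective (hℓ : ℓ ≠ 0) :
    haveI := neZero_auxLevel19 ℓ N
    Function.Injective (torsPullback (ℓ := ℓ) (k := k) (dvd_auxLevel ℓ N)) := by
  have := neZero_auxLevel19 ℓ N
  rw [injective_iff_map_eq_zero]
  intro x hx
  apply Subtype.ext
  refine levelPullback_auxLevel_eq_zero ℓ N (ℓ ^ k) (pow_pos (Nat.pos_of_ne_zero hℓ) k)
    (x : JZero N) ((mem_tors_iff _).1 x.2) ?_
  exact congrArg Subtype.val hx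

/-- **level `auxLevel ℓ N` ⇒ level `N`** for the order-level statement. -/
theorem hasGaloisOrder_of_auxLevel (hℓ : ℓ ≠ 0) (h : HasGaloisOrder ℓ (auxLevel ℓ N) k) :
    HasGaloisOrder ℓ N k := by
  have := neZero_auxLevel19 ℓ N
  obtain ⟨H, hH⟩ := h
  exact ⟨subOrder H (torsPullback (ℓ := ℓ) (k := k) (dvd_auxLevel ℓ N)),
    isEquivOrder_subOrder hH (torsPullback (dvd_auxLevel ℓ N))
      (torsPullback_auxLevel_injective ℓ N k hℓ) (torsPullback_smul (dvd_auxLevel ℓ N))⟩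

end Aux

/-- **exit**: the order-level statement gives the literal conclusion of S19. -/
theorem exit_of_hasGaloisOrder (N : ℕ) [NeZero N] (ℓ : ℕ) [Fact ℓ.Prime] (k : ℕ)
    (h : HasGaloisOrder ℓ N k) :
    ∃ (H : Type) (_ : CommRing H) (_ : HopfAlgebra (GaloisRep.ratLocalizedAt ℓ) H),
      Module.Finite (GaloisRep.ratLocalizedAt ℓ) H ∧ Module.Flat (GaloisRep.ratLocalizedAt ℓ) H ∧
      Coalgebra.IsCocomm (GaloisRep.ratLocalizedAt ℓ) H ∧
      ∃ e : WithConv (H →ₐ[GaloisRep.ratLocalizedAt ℓ] AlgebraicClosure ℚ) ≃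
          ↥(Submodule.torsionBy ℤ (JZero N) ((ℓ : ℤ) ^ k)),
        (∀ f g, e (f * g) = e f + e g) ∧
        ∀ (σ : AlgebraicClosure ℚ ≃ₐ[ℚ] AlgebraicClosure ℚ)
          (f g : WithConv (H →ₐ[GaloisRep.ratLocalizedAt ℓ] AlgebraicClosure ℚ)),
          (∀ h : H, g h = σ (f h)) → ((e g : JZero N)) = σ • (e f : JZero N) := by
  have : Finite (Tors N ℓ k) := finite_tors N ℓ k (Fact.out : ℓ.Prime).ne_zero
  obtain ⟨H, hH⟩ := h
  obtain ⟨H', i1, i2, hfin, hflat, hco, e, hadd, hgal⟩ :=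
    Fermat.Agent.ES.V19.HopfOrderBridge2.exists_hopfAlgebra_of_isEquivOrder ℓ hH
  exact ⟨H', i1, i2, hfin, hflat, hco, e, hadd,
    fun σ f g hfg => congrArg Subtype.val (hgal σ f g hfg)⟩

/-- **TOP**: the order-level statement at the auxiliary level gives the literal conclusion of S19 at
level `N`. -/
theorem exit_of_auxLevel (N : ℕ) [NeZero N] (ℓ : ℕ) [Fact ℓ.Prime] (k : ℕ)
    (h : HasGaloisOrder ℓ (auxLevel ℓ N) k) :
    ∃ (H : Type) (_ : CommRing H) (_ : HopfAlgebra (GaloisRep.ratLocalizedAt ℓ) H),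
      Module.Finite (GaloisRep.ratLocalizedAt ℓ) H ∧ Module.Flat (GaloisRep.ratLocalizedAt ℓ) H ∧
      Coalgebra.IsCocomm (GaloisRep.ratLocalizedAt ℓ) H ∧
      ∃ e : WithConv (H →ₐ[GaloisRep.ratLocalizedAt ℓ] AlgebraicClosure ℚ) ≃
          ↥(Submodule.torsionBy ℤ (JZero N) ((ℓ : ℤ) ^ k)),
        (∀ f g, e (f * g) = e f + e g) ∧
        ∀ (σ : AlgebraicClosure ℚ ≃ₐ[ℚ] AlgebraicClosure ℚ)
          (f g : WithConv (H →ₐ[GaloisRep.ratLocalizedAt ℓ] AlgebraicClosure ℚ)),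
          (∀ h : H, g h = σ (f h)) → ((e g : JZero N)) = σ • (e f : JZero N) :=
  exit_of_hasGaloisOrder N ℓ k
    (hasGaloisOrder_of_auxLevel ℓ N k (Fact.out : ℓ.Prime).ne_zero h)

end Fermat.Agent.ES.V19.TopLevel19
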