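/-
Programme V (S19), chapter TOP, helper26: **the level-independent bottom of TOP**.

For every level `p`, `M := ↥(Submodule.torsionBy ℤ (JZero p) n)`:

* `smul_mem_torsionBy`, `torsionAction p n : DistribMulAction G_ℚ M` (restriction of the Prelude's action on `JZero p`;
  a `def`, to be used with `letI`), `coe_smul`;
* `finite_torsionBy`   : `M` is finite for `n = ℓ ^ k` (main `KUM/FiniteTorsion15`);
* `hcont_torsionBy`    : every point of `M` is fixed by `Gal(ℚ̄/K)` for some number field `K` (main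
  `GAL/OpenStab12.hasLevel_pic0`), in the shape consumed by `DescentFinal26` / `DescentSpan26` / `EquivBasis4`;
* `s19_of_isHopfOrder` : a Hopf order (helper2's `IsHopfOrder`) for `M = J₀(p)[ℓ^k]` gives the conclusion of the frozen
  S19 at level `p`, verbatim.
-/
import Mathlib
import Fermat.Prelude.Def_ModularCurve_ArithmeticGalois
import Fermat.Prelude.Def_GaloisRep_Flat
import Fermat.Agent.ES.KUM.FiniteTorsion15
import Fermat.Agent.ES.GAL.OpenStab12
import Fermat.Agent.ES.V19.HopfOrderPts2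

set_option autoImplicit false
set_option linter.style.haveILetI false
set_option linter.unusedSectionVars false

namespace Fermat.Agent.ES.V19.TopTorsion26

open ModularCurve Fermat.Agent.ES.V19.HopfOrderStr2

local notation "Qbar" => AlgebraicClosure ℚ
local notation "GQ" => (AlgebraicClosure ℚ ≃ₐ[ℚ] AlgebraicClosure ℚ)

noncomputable section

variable (p : ℕ) (n : ℤ)

/-- The torsion submodule is stable under the Galois action. -/
theorem smul_mem_torsionBy (σ : GQ) {y : JZero p} (hy : y ∈ Submodule.torsionBy ℤ (JZero p) n) :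
    σ • y ∈ Submodule.torsionBy ℤ (JZero p) n := by
  rw [Submodule.mem_torsionBy_iff] at hy ⊢
  rw [smul_comm, hy, smul_zero]

/-- The Galois action on `J₀(p)[n]`, restricted from `J₀(p)`. -/
@[reducible] def torsionAction : DistribMulAction GQ ↥(Submodule.torsionBy ℤ (JZero p) n) where
  smul σ x := ⟨σ • (x : JZero p), smul_mem_torsionBy p n σ x.2⟩
  one_smul x := Subtype.ext (one_smul GQ (x : JZero p))
  mul_smul σ τ x := Subtype.ext (mul_smul σ τ (x : JZero p))
  smul_zero σ := Subtype.ext (smul_zero σ)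
  smul_add σ x y := Subtype.ext (smul_add σ (x : JZero p) (y : JZero p))

theorem coe_smul (σ : GQ) (x : ↥(Submodule.torsionBy ℤ (JZero p) n)) :
    letI := torsionAction p n
    ((σ • x : ↥(Submodule.torsionBy ℤ (JZero p) n)) : JZero p) = σ • (x : JZero p) := rfl

/-- `J₀(p)[ℓ^k]` is finite. -/
theorem finite_torsionBy [NeZero p] (ℓ : ℕ) [Fact ℓ.Prime] (k : ℕ) :
    Finite ↥(Submodule.torsionBy ℤ (JZero p) ((ℓ : ℤ) ^ k)) := by
  haveI : NeZero (ℓ ^ k) := ⟨pow_ne_zero k (Fact.out : ℓ.Prime).ne_zero⟩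
  have hfin := Fermat.Agent.ES.KUM.FiniteTorsion15.finite_setOf_nsmul_eq_zero p (ℓ ^ k)
  have hset : ((Submodule.torsionBy ℤ (JZero p) ((ℓ : ℤ) ^ k) : Submodule ℤ (JZero p)) :
      Set (JZero p)) = {y : JZero p | (ℓ ^ k) • y = 0} := by
    ext y
    rw [SetLike.mem_coe, Submodule.mem_torsionBy_iff]
    show _ ↔ (ℓ ^ k) • y = 0
    have h1 : ((ℓ : ℤ) ^ k) = ((ℓ ^ k : ℕ) : ℤ) := by push_cast; rfl
    rw [h1, natCast_zsmul]
  have : Finite ((Submodule.torsionBy ℤ (JZero p) ((ℓ : ℤ) ^ k) : Submodule ℤ (JZero p)) :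
      Set (JZero p)) := by
    rw [hset]
    exact hfin.to_subtype
  exact this

/-- Every point of `J₀(p)[n]` is fixed by `Gal(ℚ̄/K)` for a number field `K`. -/
theorem hcont_torsionBy [NeZero p] :
    letI := torsionAction p n
    ∀ x : ↥(Submodule.torsionBy ℤ (JZero p) n), ∃ K : IntermediateField ℚ Qbar,
      FiniteDimensional ℚ K ∧ ∀ σ ∈ K.fixingSubgroup, σ • x = x := by
  letI := torsionAction p n
  intro x
  obtain ⟨K, hK, hfix⟩ := Fermat.Agent.ES.GAL.OpenStab12.hasLevel_pic0 p (x : JZero p)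
  refine ⟨K, hK, fun σ hσ => Subtype.ext ?_⟩
  exact hfix σ ((IntermediateField.mem_fixingSubgroup_iff K σ).1 hσ)

/-- **Bottom of TOP**: a Hopf order for `J₀(p)[ℓ^k]` gives the conclusion of the frozen S19 at level `p`. -/
theorem s19_of_isHopfOrder [NeZero p] (ℓ : ℕ) [Fact ℓ.Prime] (k : ℕ)
    (H : Subalgebra ↥(GaloisRep.ratLocalizedAt ℓ)
      (↥(Submodule.torsionBy ℤ (JZero p) ((ℓ : ℤ) ^ k)) → Qbar))
    (hH : letI := torsionAction p ((ℓ : ℤ) ^ k)
      IsHopfOrder (fun (σ : GQ) (x : ↥(Submodule.torsionBy ℤ (JZero p) ((ℓ : ℤ) ^ k))) => σ • x) H) :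
    ∃ (H₀ : Type) (_ : CommRing H₀) (_ : HopfAlgebra (GaloisRep.ratLocalizedAt ℓ) H₀),
      Module.Finite (GaloisRep.ratLocalizedAt ℓ) H₀ ∧ Module.Flat (GaloisRep.ratLocalizedAt ℓ) H₀ ∧
      Coalgebra.IsCocomm (GaloisRep.ratLocalizedAt ℓ) H₀ ∧
      ∃ e : WithConv (H₀ →ₐ[GaloisRep.ratLocalizedAt ℓ] AlgebraicClosure ℚ) ≃
          ↥(Submodule.torsionBy ℤ (JZero p) ((ℓ : ℤ) ^ k)),
        (∀ f g, e (f * g) = e f + e g) ∧
        ∀ (σ : AlgebraicClosure ℚ ≃ₐ[ℚ] AlgebraicClosure ℚ)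
          (f g : WithConv (H₀ →ₐ[GaloisRep.ratLocalizedAt ℓ] AlgebraicClosure ℚ)),
          (∀ h : H₀, g h = σ (f h)) → ((e g : JZero p)) = σ • (e f : JZero p) := by
  letI := torsionAction p ((ℓ : ℤ) ^ k)
  haveI := finite_torsionBy p ℓ k
  obtain ⟨H₀, i1, i2, h1, h2, h3, e, he1, he2⟩ := HopfOrderPts2.exists_hopfAlgebra_Zl ℓ hH
  exact ⟨H₀, i1, i2, h1, h2, h3, e, he1, fun σ f g hfg =>
    congrArg Subtype.val (he2 σ f g hfg)⟩

end

end Fermat.Agent.ES.V19.TopTorsion26
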