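/-
Programme V (S19 by hand, route `S19_ROUTE23.md`), chapter TOP, join step J10, file `TopInst19`
(helper19): **the formal funnel instantiated at `J₀(M')[ℓ^k] ⊂ J₀(M')`, and the reduction of the
frozen S19 to ONE geometric hypothesis at the auxiliary level.**

* `torsIncl M' ℓ k : Tors M' ℓ k →+ JZero M'` (the inclusion), injective and equivariant;
* `hcont_tors` : every point of `Tors M' ℓ k` is fixed by `Gal(ℚ̄/K)` for a number field `K`
  (helper26's `TopTorsion26.hcont_torsionBy`, for the instance of `TopLevel19`);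
* `HasXiChart ℓ M' k` : the geometric input of the funnel at level `M'`, as one `Prop`:
  a valuation ring `A` of `ℚ̄` over `ℓ`, `f > 0`, a subgroup `J1 ⊂ J₀(M')` stable under the
  decomposition group, with `Γ_f` acting trivially on `J₀(M')[ℓ^k]` modulo `J1`, one chart
  `Ξ` (`Assemble11.XiData`) and base points `P` (`Assemble11.BaseData`) rational over `O_f`;
* `hasGaloisOrder_of_hasXiChart` : `HasXiChart ℓ M' k → HasGaloisOrder ℓ M' k`
  (`FunnelAsm20.isHopfOrder_of_xi`);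
* `s19_of_hasXiChart` : if `HasXiChart ℓ (auxLevel ℓ N) k` holds for all `N`, `ℓ ∤ N`, `k`, then the
  conclusion of the frozen S19 holds (`TopLevel19.exit_of_auxLevel`).
-/
import Mathlib
import Fermat.Agent.ES.V19.TopLevel19
import Fermat.Agent.ES.V19.TopTorsion26
import Fermat.Agent.ES.V19.FunnelAsm20

set_option autoImplicit false

noncomputable section

namespace Fermat.Agent.ES.V19.TopInst19

open ModularCurve
open Fermat.Agent.ES.V19.TopLevel19 Fermat.Agent.ES.V19.Assemble11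
  Fermat.Agent.ES.V19.GammaF16 Fermat.Agent.ES.V19.TraceDescent26
open Fermat.Agent.RED.Interface4 (auxLevel)

local notation "Ω" => AlgebraicClosure ℚ
local notation "GQ" => (AlgebraicClosure ℚ ≃ₐ[ℚ] AlgebraicClosure ℚ)

/-- The inclusion `J₀(M')[ℓ^k] → J₀(M')`. -/
def torsIncl (M' ℓ k : ℕ) : Tors M' ℓ k →+ JZero M' :=
  (Submodule.torsionBy ℤ (JZero M') ((ℓ : ℤ) ^ k)).subtype.toAddMonoidHom

@[simp] theorem torsIncl_apply (M' ℓ k : ℕ) (x : Tors M' ℓ k) :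
    torsIncl M' ℓ k x = (x : JZero M') := rfl

theorem torsIncl_injective (M' ℓ k : ℕ) : Function.Injective (torsIncl M' ℓ k) :=
  Subtype.val_injective

theorem torsIncl_smul (M' ℓ k : ℕ) (σ : GQ) (x : Tors M' ℓ k) :
    torsIncl M' ℓ k (σ • x) = σ • torsIncl M' ℓ k x := rfl

/-- Every point of `J₀(M')[ℓ^k]` is fixed by `Gal(ℚ̄/K)` for some number field `K`. -/
theorem hcont_tors (M' ℓ k : ℕ) [NeZero M'] :
    ∀ x : Tors M' ℓ k, ∃ K : IntermediateField ℚ Ω,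
      FiniteDimensional ℚ K ∧ ∀ σ ∈ K.fixingSubgroup, σ • x = x :=
  Fermat.Agent.ES.V19.TopTorsion26.hcont_torsionBy M' ((ℓ : ℤ) ^ k)

/-- **The geometric input of the funnel at level `M'`** (what the chapters B and the join steps
J1–J8 deliver), as one proposition. -/
def HasXiChart (ℓ M' k : ℕ) : Prop :=
  ∃ (A : ValuationSubring Ω) (_ : A.LiesOverPrime ℓ) (f : ℕ) (_ : 0 < f)
    (J1 : AddSubgroup (JZero M'))
    (_ : ∀ τ ∈ A.decompositionSubgroup ℚ, ∀ y ∈ J1, τ • y ∈ J1)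
    (_ : ∀ σ ∈ gammaF A ℓ f, ∀ x : Tors M' ℓ k, σ • x - x ∈ J1.comap (torsIncl M' ℓ k))
    (g : ℕ) (Ξ : JZero M' → Fin g → Ω)
    (_ : XiData A.toSubring J1 Ξ ↥(fixRing A (gammaF A ℓ f)) ↥(gammaF A ℓ f))
    (P : Tors M' ℓ k → JZero M'),
    BaseData J1 (torsIncl M' ℓ k) P ↥(gammaF A ℓ f)

/-- **J9 at `J₀(M')[ℓ^k]`**: the funnel gives the order-level statement at level `M'`. -/
theorem hasGaloisOrder_of_hasXiChart (ℓ : ℕ) [Fact ℓ.Prime] (M' k : ℕ) [NeZero M']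
    (h : HasXiChart ℓ M' k) : HasGaloisOrder ℓ M' k := by
  obtain ⟨A, hA, f, hf, J1, hJ1, htriv, g, Ξ, hΞ, P, hP⟩ := h
  have : Finite (Tors M' ℓ k) := finite_tors M' ℓ k (Fact.out : ℓ.Prime).ne_zero
  exact hasGaloisOrder_of_isHopfOrder
    (Fermat.Agent.ES.V19.FunnelAsm20.isHopfOrder_of_xi hA hf (hcont_tors M' ℓ k) hJ1
      (torsIncl M' ℓ k) (torsIncl_injective M' ℓ k) (torsIncl_smul M' ℓ k) htriv hΞ hP)

/-- **J10**: one chart at the auxiliary level gives the order-level statement at level `N`. -/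
theorem hasGaloisOrder_of_hasXiChart_auxLevel (ℓ : ℕ) [Fact ℓ.Prime] (N k : ℕ) [NeZero N]
    (h : HasXiChart ℓ (auxLevel ℓ N) k) : HasGaloisOrder ℓ N k := by
  have := neZero_auxLevel19 ℓ N
  exact hasGaloisOrder_of_auxLevel ℓ N k (Fact.out : ℓ.Prime).ne_zero
    (hasGaloisOrder_of_hasXiChart ℓ (auxLevel ℓ N) k h)

/-- **S19 from the geometric input at the auxiliary level.** -/
theorem s19_of_hasXiChart
    (hgeo : ∀ (N ℓ k : ℕ) [NeZero N] [Fact ℓ.Prime], ¬ ℓ ∣ N → HasXiChart ℓ (auxLevel ℓ N) k)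
    (p : ℕ) [NeZero p] (ℓ : ℕ) [Fact ℓ.Prime] (hℓp : ¬ ℓ ∣ p) (k : ℕ) :
    ∃ (H : Type) (_ : CommRing H) (_ : HopfAlgebra (GaloisRep.ratLocalizedAt ℓ) H),
      Module.Finite (GaloisRep.ratLocalizedAt ℓ) H ∧ Module.Flat (GaloisRep.ratLocalizedAt ℓ) H ∧
      Coalgebra.IsCocomm (GaloisRep.ratLocalizedAt ℓ) H ∧
      ∃ e : WithConv (H →ₐ[GaloisRep.ratLocalizedAt ℓ] AlgebraicClosure ℚ) ≃
          ↥(Submodule.torsionBy ℤ (JZero p) ((ℓ : ℤ) ^ k)),
        (∀ f g, e (f * g) = e f + e g) ∧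
        ∀ (σ : AlgebraicClosure ℚ ≃ₐ[ℚ] AlgebraicClosure ℚ)
          (f g : WithConv (H →ₐ[GaloisRep.ratLocalizedAt ℓ] AlgebraicClosure ℚ)),
          (∀ h : H, g h = σ (f h)) → ((e g : JZero p)) = σ • (e f : JZero p) :=
  exit_of_hasGaloisOrder p ℓ k
    (hasGaloisOrder_of_hasXiChart_auxLevel ℓ p k (hgeo p ℓ k hℓp))

end Fermat.Agent.ES.V19.TopInst19
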