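/-
Programme V (S19), chapter (B5), helper29: **the function `h` of (Ξc)** (geometric half), in
helper15's vocabulary (`SupTrick15.RedCtx`, `GaussFrac15.IsRedOf`).

* `exists_unit_of_mapDomain_eq_zero` : a principal divisor `D` of `F / K` with `r_* D = 0` is the
  divisor of a Gauss unit `h` with reduction `1`  [scale `h₀ = c · u`; (r1) for the Gauss unit `u`
  gives `div ū = r_* D = 0`, so `ū` is a constant `κ ≠ 0` of the special fibre; lift `κ⁻¹` to `A`].
* `sum_sub_mem_principal` : representatives of `y`, `y'`, `y + y'` differ by a principal divisor.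
* `exists_h_add` : for points `P_i, P'_i, P''_i` in the discs of the `Q̄_i` with
  `[ΣP - E₀] = y`, `[ΣP' - E₀] = y'`, `[ΣP'' - E₀] = y + y'`:
  `∃ h ≠ 0, IsRedOf G red h 1 ∧ ∀ v, v.ord h = (ΣP + ΣP' - ΣP'' - E₀) v`.
* `exists_h_neg` : the same for `y' = -y`, `P'' = Q` (so `div h = ΣP + ΣP' - 2 E₀`).
-/
import Mathlib
import Fermat.Agent.ES.V19.SupTrick15
import Fermat.Agent.ES.V19.XiIface29

set_option autoImplicit false

noncomputable section

namespace Fermat.Agent.ES.V19.XiAddH29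

open scoped BigOperators
open AlgebraicCurve Fermat.Agent.X0.FF Fermat.Agent.RR.LSpace Fermat.Agent.ES.V19.OnePlaceRep9
  Fermat.Agent.ES.V19.GaussFrac15 Fermat.Agent.ES.V19.SupTrick15 Fermat.Agent.ES.V19.XiIface29

variable {K F k Ft : Type*} [Field K] [Field F] [Algebra K F] [Field k] [Field Ft] [Algebra k Ft]
variable {A : ValuationSubring K} {π : ↥A →+* k} {G : Subring F} {red : ↥G →+* Ft}
  {r : Place K F → Place k Ft}

/-- **A principal divisor with trivial reduction is the divisor of a Gauss unit reducing to `1`.** -/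
theorem exists_unit_of_mapDomain_eq_zero (C : RedCtx A π G red r) (HL : LHyp K F)
    (HLt : LHyp k Ft) (hπ : Function.Surjective π) (D : Divisor K F)
    (hD : D ∈ Divisor.principal (K := K) (F := F))
    (hr : ∀ Q : Place k Ft, Finsupp.mapDomain r D Q = 0) :
    ∃ h : F, h ≠ 0 ∧ IsRedOf G red h 1 ∧ ∀ v : Place K F, D v = v.ord h := by
  obtain ⟨h₀, h₀ne, hDh⟩ := hD
  obtain ⟨c, hc0, hu⟩ := C.scale h₀ h₀ne
  set u : F := (algebraMap K F c)⁻¹ * h₀ with hu_def
  have hcF : algebraMap K F c ≠ 0 := by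
    rw [Ne, map_eq_zero_iff _ (algebraMap K F).injective]
    exact hc0
  have hordu : ∀ v : Place K F, v.ord u = v.ord h₀ := fun v => by
    rw [hu_def, v.ord_mul (inv_ne_zero hcF) h₀ne, Place.ord_inv, ffp_ord_algebraMap]
    ring
  obtain ⟨φ, hφ0, hφ⟩ := hu.exists_isRedOf
  have hordφ : ∀ Q : Place k Ft, Q.ord φ = 0 := fun Q => by
    rw [← r1_isRedOf C HL u φ hφ hφ0 D (fun P => by rw [hDh P, hordu P]) Q]
    exact hr Q
  obtain ⟨κ, hκ⟩ := eq_algebraMap_of_forall_ord_nonneg HLt (f := φ) fun Q => by rw [hordφ Q]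
  have hκ0 : κ ≠ 0 := by
    intro h0
    apply hφ0
    rw [hκ, h0, map_zero]
  obtain ⟨a, ha⟩ := hπ κ⁻¹
  have ha0 : (a : K) ≠ 0 := by
    intro h0
    have : a = 0 := Subtype.ext h0
    rw [this, map_zero] at ha
    exact inv_ne_zero hκ0 ha.symm
  have haF : algebraMap K F (a : K) ≠ 0 := by
    rw [Ne, map_eq_zero_iff _ (algebraMap K F).injective]
    exact ha0
  refine ⟨algebraMap K F (a : K) * u, mul_ne_zero haF hu.ne_zero, ?_, fun v => ?_⟩
  · have h1 := (C.isRedOf_const a).mul hφ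
    have h2 : algebraMap k Ft (π a) * φ = 1 := by
      rw [ha, hκ, ← map_mul, inv_mul_cancel₀ hκ0, map_one]
    rwa [h2] at h1
  · rw [v.ord_mul haF hu.ne_zero, ffp_ord_algebraMap, zero_add, hordu v, hDh v]

/-- representatives of `y`, `y'` and `y + y'` differ by a principal divisor. -/
theorem sum_sub_mem_principal {y y' : Pic0 K F} {D₁ D₂ D₃ : Divisor K F} (h₁ : IsRep y D₁)
    (h₂ : IsRep y' D₂) (h₃ : IsRep (y + y') D₃) :
    D₁ + D₂ - D₃ ∈ Divisor.principal (K := K) (F := F) := by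
  obtain ⟨hd₁, rfl⟩ := h₁
  obtain ⟨hd₂, rfl⟩ := h₂
  obtain ⟨hd₃, h⟩ := h₃
  rw [← Pic0.mk_add] at h
  have h' := QuotientAddGroup.eq.mp h
  rw [AddSubgroup.mem_addSubgroupOf] at h'
  have h'' : -D₃ + (D₁ + D₂) ∈ Divisor.principal (K := K) (F := F) := h'
  have e : D₁ + D₂ - D₃ = -D₃ + (D₁ + D₂) := by abel
  rw [e]
  exact h''

/-- `r_*` of a reduced divisor of points in the discs of the `Q̄_i` is `Ē₀`. -/
theorem mapDomain_redDiv_eq {g : ℕ} {χ : Chart K F k Ft g} {P : Fin g → Place K F}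
    (hP : ∀ i, r (P i) = χ.Qbar i) : Finsupp.mapDomain r (redDiv P) = χ.E0bar := by
  rw [redDiv, Finsupp.mapDomain_finsetSum]
  unfold Chart.E0bar redDiv
  exact Finset.sum_congr rfl fun i _ => by rw [Finsupp.mapDomain_single, hP i]

/-- **(Ξc), geometric half: the function `h` for `y + y'`.** -/
theorem exists_h_add (C : RedCtx A π G red r) (HL : LHyp K F) (HLt : LHyp k Ft)
    (hπ : Function.Surjective π) {g : ℕ} {χ : Chart K F k Ft g} (hχ : ChartHyp A r χ)
    {y y' : Pic0 K F} {P P' P'' : Fin g → Place K F} (hP : ∀ i, r (P i) = χ.Qbar i)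
    (hP' : ∀ i, r (P' i) = χ.Qbar i) (hP'' : ∀ i, r (P'' i) = χ.Qbar i)
    (hy : IsRep y (redDiv P - χ.E0)) (hy' : IsRep y' (redDiv P' - χ.E0))
    (hy'' : IsRep (y + y') (redDiv P'' - χ.E0)) :
    ∃ h : F, h ≠ 0 ∧ IsRedOf G red h 1 ∧
      ∀ v : Place K F, v.ord h = (redDiv P + redDiv P' - redDiv P'' - χ.E0) v := by
  have hprin := sum_sub_mem_principal hy hy' hy''
  have e : redDiv P - χ.E0 + (redDiv P' - χ.E0) - (redDiv P'' - χ.E0)
      = redDiv P + redDiv P' - redDiv P'' - χ.E0 := by abel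
  rw [e] at hprin
  have hE0 : Finsupp.mapDomain r χ.E0 = χ.E0bar := mapDomain_redDiv_eq hχ.centre_red
  have hr0 : ∀ Q : Place k Ft,
      Finsupp.mapDomain r (redDiv P + redDiv P' - redDiv P'' - χ.E0) Q = 0 := fun Q => by
    rw [Finsupp.mapDomain_sub, Finsupp.mapDomain_sub, Finsupp.mapDomain_add,
      mapDomain_redDiv_eq hP, mapDomain_redDiv_eq hP', mapDomain_redDiv_eq hP'', hE0]
    simp
  obtain ⟨h, hh0, hred, hord⟩ := exists_unit_of_mapDomain_eq_zero C HL HLt hπ _ hprin hr0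
  exact ⟨h, hh0, hred, fun v => (hord v).symm⟩

/-- **(Ξc), geometric half: the function `h` for `-y`** (`P'' = Q`, `div h = ΣP + ΣP' - 2E₀`). -/
theorem exists_h_neg (C : RedCtx A π G red r) (HL : LHyp K F) (HLt : LHyp k Ft)
    (hπ : Function.Surjective π) {g : ℕ} {χ : Chart K F k Ft g} (hχ : ChartHyp A r χ)
    {y : Pic0 K F} {P P' : Fin g → Place K F} (hP : ∀ i, r (P i) = χ.Qbar i)
    (hP' : ∀ i, r (P' i) = χ.Qbar i)
    (hy : IsRep y (redDiv P - χ.E0)) (hy' : IsRep (-y) (redDiv P' - χ.E0)) :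
    ∃ h : F, h ≠ 0 ∧ IsRedOf G red h 1 ∧
      ∀ v : Place K F, v.ord h = (redDiv P + redDiv P' - χ.E0 - χ.E0) v := by
  have h0 : IsRep (y + -y) (redDiv χ.Q - χ.E0) := by
    have e : redDiv χ.Q - χ.E0 = 0 := sub_self _
    rw [e, add_neg_cancel]
    exact ⟨AddSubgroup.zero_mem _, rfl⟩
  obtain ⟨h, hh0, hred, hord⟩ :=
    exists_h_add C HL HLt hπ hχ hP hP' hχ.centre_red hy hy' h0
  refine ⟨h, hh0, hred, fun v => ?_⟩
  rw [hord v]
  rfl

end Fermat.Agent.ES.V19.XiAddH29
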