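/-
Programme V (S19), chapter (B5), helper29: **the glue** from the relational literals of `XiIface29`
(`XiA`, `XiAUnique`, `XiB`, `XiC`) to THE EXIT `XiData A.toSubring J1 (xi r χ) R G`.

* `isXi_xi`       : `IsXi r χ y (xi r χ y)` as soon as `y` has coordinates;
* `xi_eq`         : `IsXi r χ y s → xi r χ y = s` (uniqueness of the coordinates);
* `xiData_of`     : `XiA ∧ XiAUnique ∧ XiB ∧ J1Spec ∧ XiC ⇒ XiData` (finite-`S` uniformity of `add`,
  `neg` = the maximum of the pointwise truncation levels).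
-/
import Mathlib
import Fermat.Agent.ES.V19.XiIface29

set_option autoImplicit false

noncomputable section

namespace Fermat.Agent.ES.V19.XiMain29

open scoped BigOperators
open AlgebraicCurve Fermat.Agent.RR.LSpace Fermat.Agent.ES.V19.OnePlaceRep9
  Fermat.Agent.ES.V19.XiIface29

variable {K F k Ft : Type*} [Field K] [Field F] [Algebra K F] [Field k] [Field Ft] [Algebra k Ft]
variable {A : ValuationSubring K} {r : Place K F → Place k Ft} {g : ℕ} {χ : Chart K F k Ft g}

/-- the chart value is a system of coordinates as soon as there is one. -/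
theorem isXi_xi {y : Pic0 K F} (h : ∃ s, IsXi r χ y s) : IsXi r χ y (xi r χ y) := by
  unfold xi
  rw [dif_pos h]
  exact h.choose_spec

/-- uniqueness of the coordinates, in terms of `xi`. -/
theorem xi_eq (hU : XiAUnique r χ) {y : Pic0 K F} {s : Fin g → K} (h : IsXi r χ y s) :
    xi r χ y = s := by
  obtain ⟨P, hP, hs, hrep⟩ := h
  exact (hU y s P hP hs hrep).2 _ (isXi_xi ⟨s, P, hP, hs, hrep⟩)

theorem nonunits_mem {s : K} (hs : s ∈ A.nonunits) : s ∈ A.toSubring :=
  A.nonunits_subset hs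

/-- **(B5), the exit**: the chart `xi r χ` satisfies `XiData`. -/
theorem xiData_of {J1 : AddSubgroup (Pic0 K F)} {R G : Type*} [CommRing R] [Algebra R K]
    [Group G] [MulSemiringAction G K] [DistribMulAction G (Pic0 K F)]
    {Fgl : ℕ → Fin g → MvPolynomial (Fin g ⊕ Fin g) R}
    {Inv : ℕ → Fin g → MvPolynomial (Fin g) R}
    (hA : XiA A r χ) (hU : XiAUnique r χ) (hB : XiB r χ G) (hJ : J1Spec r J1)
    (hC : XiC A.toSubring J1 (xi r χ) R Fgl Inv) :
    XiData A.toSubring J1 (xi r χ) R G := by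
  classical
  have hspec : ∀ y ∈ J1, IsXi r χ y (xi r χ y) := fun y hy => by
    obtain ⟨s, hs, -⟩ := hA y ((hJ y).mp hy)
    exact isXi_xi ⟨s, hs⟩
  refine ⟨?_, ?_, ?_, ?_, ?_⟩
  · intro y hy i
    obtain ⟨s, hs, hsm⟩ := hA y ((hJ y).mp hy)
    rw [xi_eq hU hs]
    exact nonunits_mem (hsm i)
  · intro y hy y' hy' hyy'
    have h1 := hspec y hy
    have h2 := hspec y' hy'
    rw [← hyy'] at h2
    exact hB.2.1 y y' _ h1 h2
  · intro σ y hy i
    have h1 := hB.2.2.2 σ y _ (hspec y hy)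
    rw [xi_eq hU h1]
  · intro d hd S
    -- the truncation level for a pair of points
    let N₀ : Pic0 K F × Pic0 K F → ℕ := fun p =>
      if h : p.1 ∈ J1 ∧ p.2 ∈ J1 then (hC.1 p.1 h.1 p.2 h.2 d hd).choose else 0
    refine ⟨Fgl ((S ×ˢ S).sup N₀), fun y hy y' hy' hyJ hyJ' i => ?_⟩
    have hle : N₀ (y, y') ≤ (S ×ˢ S).sup N₀ :=
      Finset.le_sup (f := N₀) (Finset.mem_product.mpr ⟨hy, hy'⟩)
    have hN : N₀ (y, y') = (hC.1 y hyJ y' hyJ' d hd).choose := by
      show (if h : y ∈ J1 ∧ y' ∈ J1 then (hC.1 y h.1 y' h.2 d hd).choose else 0) = _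
      rw [dif_pos ⟨hyJ, hyJ'⟩]
    rw [hN] at hle
    exact (hC.1 y hyJ y' hyJ' d hd).choose_spec _ hle i
  · intro d hd S
    let N₀ : Pic0 K F → ℕ := fun y =>
      if h : y ∈ J1 then (hC.2 y h d hd).choose else 0
    refine ⟨Inv (S.sup N₀), fun y hy hyJ i => ?_⟩
    have hle : N₀ y ≤ S.sup N₀ := Finset.le_sup (f := N₀) hy
    have hN : N₀ y = (hC.2 y hyJ d hd).choose := by
      show (if h : y ∈ J1 then (hC.2 y h d hd).choose else 0) = _
      rw [dif_pos hyJ]
    rw [hN] at hle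
    exact (hC.2 y hyJ d hd).choose_spec _ hle i

end Fermat.Agent.ES.V19.XiMain29
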