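/-
helper7 — Programme V (S19), chapter B5, group G3: **(Ξc) in the literal of `XiIface29`**.

`xiC_of_ctx` : for the chart `χ := XiChartOf5.chartOf T Qb c hDa`, from
* `H : XiBridge7.DiscCtx T G red Qb c tay`  (J1 + J2 + Taylor rules + rank one),
* `pkg : ∀ d s'', … → XiBridge7.ExpPkg T G red Qb c Sys tay d s''`  ((Le) at the instance, J6),
* `XiA`, `XiAUnique`, `J1Spec`, `ChartHyp` (helper5 / helper29) and `LHyp` on both fibres,
the pointwise exit **`XiIface29.XiC A.toSubring J1 (xi T.r χ) R (F Sys) (G Sys)`** for every coefficient ring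
`R` (`= ↥O_f`) with compatible algebra structures on `A` and `L`.

Proof: coordinates of `y`, `y'`, `y + y'` (resp. `-y`) from `XiA`; the function `h` from helper29's
`XiAddH29.exists_h_add / exists_h_neg`; then `XiBridge7.add_congr_of_chart / neg_congr_of_chart`;
finally push the congruence from `↥A` to `L`.
-/
import Mathlib
import Fermat.Agent.ES.V19.XiBridge7
import Fermat.Agent.ES.V19.XiIface29
import Fermat.Agent.ES.V19.XiMain29
import Fermat.Agent.ES.V19.XiAddH29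
import Fermat.Agent.ES.V19.XiChartOf5

set_option autoImplicit false

noncomputable section

open AlgebraicCurve

namespace Fermat.Agent.ES.V19.XiCGlue7

open scoped BigOperators
open Fermat.Agent.X0.FF Fermat.Agent.RR.LSpace Fermat.Agent.ES.RED.Contract8
  Fermat.Agent.ES.RED.TwoCharts8
  Fermat.Agent.ES.V19.DiscIface3 Fermat.Agent.ES.V19.GaussFrac15 Fermat.Agent.ES.V19.SupTrick15
  Fermat.Agent.ES.V19.XiInj5 Fermat.Agent.ES.V19.XiAdd7 Fermat.Agent.ES.V19.XiBridge7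
  Fermat.Agent.ES.V19.OnePlaceRep9 Fermat.Agent.ES.V19.XiIface29 Fermat.Agent.ES.V19.XiMain29
  Fermat.Agent.ES.V19.XiAddH29 Fermat.Agent.ES.V19.XiChartOf5
  Fermat.Agent.ES.V19.LaurentMap19 Fermat.Agent.ES.V19.FGLUniv19

universe u

variable {L : Type u} [Field L] [IsAlgClosed L] {A : ValuationSubring L}
variable {F : Type*} [Field F] [Algebra L F] {x : F} {hx : IsGen L x}
variable {Ft : Type*} [Field Ft] [Algebra (kA A) Ft]
variable {g : ℕ} {T : TwoCharts A hx Ft} {Qb : Fin g → Place (kA A) Ft} {c : Fin g → ↥A}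

/-- Coordinates in `𝔪_A` of a class, as elements of `↥A`, with the points carrying them. -/
theorem exists_lift_coords (hDa : ∀ i, Da T (Qb i) (c i)) {y : Pic0 L F} {s : Fin g → L}
    (hXi : IsXi T.r (chartOf T Qb c hDa) y s) (hsm : ∀ i, s i ∈ A.nonunits) :
    ∃ sA : Fin g → ↥A, (∀ i, ((sA i : ↥A) : L) = s i) ∧
      (∀ i, sA i ∈ IsLocalRing.maximalIdeal ↥A) ∧ ∃ P : Fin g → Place L F,
        (∀ i, T.r (P i) = Qb i ∧ 0 < (P i).ord (tauSub T (c i) (sA i))) ∧
        IsRep y (redDiv P - (chartOf T Qb c hDa).E0) := by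
  obtain ⟨P, hP, hs, hrep⟩ := hXi
  have hlift : ∀ i, ∃ a : ↥A, (a : L) = s i ∧ a ∈ IsLocalRing.maximalIdeal ↥A := fun i => by
    obtain ⟨ha, hm⟩ := ValuationSubring.mem_nonunits_iff_exists_mem_maximalIdeal.mp (hsm i)
    exact ⟨⟨s i, ha⟩, rfl, hm⟩
  choose sA hsA hsAm using hlift
  refine ⟨sA, hsA, hsAm, P, fun i => ⟨hP i, ?_⟩, hrep⟩
  have h1 := hs i
  rw [chartOf_t, ← hsA i, tauSub_zero_sub] at h1
  exact h1

section Coe

variable {R : Type*} [CommRing R] [Algebra R ↥A] [Algebra R L]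

omit [IsAlgClosed L] in
/-- `aeval` commutes with the inclusion `↥A → L`. -/
theorem coe_aeval (hcomp : ∀ r : R, ((algebraMap R ↥A r : ↥A) : L) = algebraMap R L r)
    {ι : Type*} (v : ι → ↥A) (p : MvPolynomial ι R) :
    ((MvPolynomial.aeval v p : ↥A) : L) = MvPolynomial.aeval (fun k => ((v k : ↥A) : L)) p := by
  have h1 := MvPolynomial.map_aeval v A.subtype p
  have h2 : A.subtype.comp (algebraMap R ↥A) = algebraMap R L := RingHom.ext hcomp
  rw [h2] at h1
  exact h1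

end Coe

section Main

variable {G : Subring F} {red : ↥G →+* Ft} {tay : ∀ i, ↥(CQ T (Qb i)) →+* PowerSeries ↥A}
variable {R : Type u} [CommRing R] [Algebra R ↥A] [Algebra R L]

/-- **(Ξc) in the literal of `XiIface29`** (see the file header). -/
theorem xiC_of_ctx (H : DiscCtx T G red Qb c tay) (HL : LHyp L F) (HLt : LHyp (kA A) Ft)
    (hχ : ChartHyp A T.r (chartOf T Qb c H.da))
    (hA : XiA A T.r (chartOf T Qb c H.da)) (hU : XiAUnique T.r (chartOf T Qb c H.da))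
    {J1 : AddSubgroup (Pic0 L F)} (hJ : J1Spec T.r J1)
    (hcomp : ∀ r : R, ((algebraMap R ↥A r : ↥A) : L) = algebraMap R L r)
    (Sys : NFSystem R g)
    (pkg : ∀ (d : ↥A) (s'' : Fin g → ↥A), d ≠ 0 → d ∈ IsLocalRing.maximalIdeal ↥A →
      (∀ i, s'' i ∈ IsLocalRing.maximalIdeal ↥A) → ExpPkg T G red Qb c Sys tay d s'')
    (hBR : ∀ (d : ↥A) (x : Lam g (Rd d)), (∀ i, ∀ m : ℤ, m < 0 → (x i).coeff m = 0) →
      x ∈ Sys.BR (Rd d)) :
    XiC A.toSubring J1 (xi T.r (chartOf T Qb c H.da)) R (FGLUniv19.F Sys) (FGLUniv19.G Sys) := by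
  have hres : Function.Surjective (resA A) := IsLocalRing.residue_surjective
  have hQ₀ : ∀ i, T.r (centre T Qb c H.da i) = Qb i ∧
      0 < (centre T Qb c H.da i).ord (tauSub T (c i) 0) := fun i =>
    ⟨r_centre T Qb c H.da i, by rw [ord_centre]; exact one_pos⟩
  have hdne : ∀ d : R, algebraMap R L d ≠ 0 → algebraMap R ↥A d ≠ 0 := by
    intro d hd h0
    apply hd
    rw [← hcomp, h0]
    rfl
  refine ⟨?_, ?_⟩
  · -- addition
    intro y hy y' hy' d hd
    obtain ⟨s, hXi, hsm⟩ := hA y ((hJ y).mp hy)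
    obtain ⟨s', hXi', hsm'⟩ := hA y' ((hJ y').mp hy')
    obtain ⟨s'', hXi'', hsm''⟩ := hA (y + y') ((hJ (y + y')).mp (J1.add_mem hy hy'))
    obtain ⟨sA, hsA, hsAm, P, hP, hrep⟩ := exists_lift_coords H.da hXi hsm
    obtain ⟨sA', hsA', hsAm', P', hP', hrep'⟩ := exists_lift_coords H.da hXi' hsm'
    obtain ⟨sA'', hsA'', hsAm'', P'', hP'', hrep''⟩ := exists_lift_coords H.da hXi'' hsm''
    obtain ⟨h, -, hh, hdiv⟩ := exists_h_add H.ctx HL HLt hres hχ (fun i => (hP i).1)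
      (fun i => (hP' i).1) (fun i => (hP'' i).1) hrep hrep' hrep''
    obtain ⟨N₀, hN₀⟩ := add_congr_of_chart (Sys := Sys) H hsAm hsAm' hsAm'' hP hP' hP'' hQ₀ hh
      hdiv (hdne d hd) (fun hdm => pkg _ sA'' (hdne d hd) hdm hsAm'') (hBR _)
    refine ⟨N₀, fun N hN i => ?_⟩
    obtain ⟨a, ha⟩ := hN₀ N hN i
    refine ⟨(a : L), a.2, ?_⟩
    rw [xi_eq hU hXi, xi_eq hU hXi', xi_eq hU hXi'']
    have e1 : Sum.elim s s' = fun k => ((Sum.elim sA sA' k : ↥A) : L) := by
      funext k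
      rcases k with k | k
      · exact (hsA k).symm
      · exact (hsA' k).symm
    rw [e1, ← coe_aeval hcomp, ← hsA'' i, ← hcomp d]
    have := congrArg (Subtype.val) ha
    exact this
  · -- inverse
    intro y hy d hd
    obtain ⟨s, hXi, hsm⟩ := hA y ((hJ y).mp hy)
    obtain ⟨t, hXi', hsm'⟩ := hA (-y) ((hJ (-y)).mp (J1.neg_mem hy))
    obtain ⟨sA, hsA, hsAm, P, hP, hrep⟩ := exists_lift_coords H.da hXi hsm
    obtain ⟨tA, htA, htAm, P', hP', hrep'⟩ := exists_lift_coords H.da hXi' hsm'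
    obtain ⟨h, -, hh, hdiv⟩ := exists_h_neg H.ctx HL HLt hres hχ (fun i => (hP i).1)
      (fun i => (hP' i).1) hrep hrep'
    obtain ⟨N₀, hN₀⟩ := neg_congr_of_chart (Sys := Sys) H hsAm htAm hP hP' hQ₀ hh hdiv
      (hdne d hd) (fun hdm => pkg _ (fun _ => 0) (hdne d hd) hdm fun _ => Ideal.zero_mem _)
      (hBR _)
    refine ⟨N₀, fun N hN i => ?_⟩
    obtain ⟨a, ha⟩ := hN₀ N hN i
    refine ⟨(a : L), a.2, ?_⟩
    rw [xi_eq hU hXi, xi_eq hU hXi']
    have e1 : s = fun k => ((sA k : ↥A) : L) := by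
      funext k
      exact (hsA k).symm
    rw [e1, ← coe_aeval hcomp, ← htA i, ← hcomp d]
    have := congrArg (Subtype.val) ha
    exact this

end Main

end Fermat.Agent.ES.V19.XiCGlue7
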