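/-
helper5 — Programme V (S19), chapter B5, group G3: **composition check**
`XiCGlue7.xiC_of_ctx` ∘ `ExpPkgOfDens5.expPkgAt`.

For the chart `χ := XiChartOf5.chartOf T Qb c H.da`: from helper7's geometric context
`H : DiscCtx T G red Qb c tay`, helper28's density data `Bs : DensBase G₀ red₀ T.r (resA A) D` with
the compatibility bundle `hC : ExpPkgOfDens5.Compat G red Bs Qb c tay`, and the chart literals
`ChartHyp`, `XiA`, `XiAUnique`, `J1Spec`, the exit

  `XiIface29.XiC A.toSubring J1 (xi T.r χ) R (F (nfSystem D)) (G (nfSystem D))`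

for `D : BasisData R g`, `R` any coefficient ring (`= ↥O_f`) with compatible algebra structures on
`↥A` and `L`.  The `pkg` and `hBR` arguments of `xiC_of_ctx` are discharged by (Le).
-/
import Mathlib
import Fermat.Agent.ES.V19.XiCGlue7
import Fermat.Agent.ES.V19.ExpPkgOfDens5

set_option autoImplicit false

noncomputable section

open AlgebraicCurve

namespace Fermat.Agent.ES.V19.XiCOfDens5

open Fermat.Agent.X0.FF Fermat.Agent.RR.LSpace Fermat.Agent.ES.RED.Contract8
  Fermat.Agent.ES.RED.TwoCharts8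
  Fermat.Agent.ES.V19.DiscIface3 Fermat.Agent.ES.V19.XiBridge7
  Fermat.Agent.ES.V19.XiIface29 Fermat.Agent.ES.V19.XiMain29 Fermat.Agent.ES.V19.XiChartOf5
  Fermat.Agent.ES.V19.DensityInst28 Fermat.Agent.ES.V19.NormalFormBasis14
  Fermat.Agent.ES.V19.NFSystemOfBasis14 Fermat.Agent.ES.V19.ExpPkgOfDens5

universe u

variable {L : Type u} [Field L] [IsAlgClosed L] {A : ValuationSubring L}
variable {F : Type*} [Field F] [Algebra L F] {x : F} {hx : IsGen L x}
variable {Ft : Type*} [Field Ft] [Algebra (kA A) Ft]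
variable {g : ℕ} {T : TwoCharts A hx Ft} {Qb : Fin g → Place (kA A) Ft} {c : Fin g → ↥A}
variable {G : Subring F} {red : ↥G →+* Ft} {G₀ : Subring F} {red₀ : ↥G₀ →+* Ft}
  {tay : ∀ i, ↥(CQ T (Qb i)) →+* PowerSeries ↥A}
variable {R : Type u} [CommRing R] [Algebra R ↥A] [Algebra R L] {D : BasisData R g}

/-- **(Ξc) from the geometric context and the density data.** -/
theorem xiC_of_dens (H : DiscCtx T G red Qb c tay)
    (Bs : DensBase (A := A) G₀ red₀ T.r (resA A) D) (hC : Compat G red Bs Qb c tay)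
    (HL : LHyp L F) (HLt : LHyp (kA A) Ft)
    (hχ : ChartHyp A T.r (chartOf T Qb c H.da))
    (hA : XiA A T.r (chartOf T Qb c H.da)) (hU : XiAUnique T.r (chartOf T Qb c H.da))
    {J1 : AddSubgroup (Pic0 L F)} (hJ : J1Spec T.r J1)
    (hcomp : ∀ r : R, ((algebraMap R ↥A r : ↥A) : L) = algebraMap R L r) :
    XiC A.toSubring J1 (xi T.r (chartOf T Qb c H.da)) R
      (FGLUniv19.F (nfSystem D)) (FGLUniv19.G (nfSystem D)) :=
  XiCGlue7.xiC_of_ctx H HL HLt hχ hA hU hJ hcomp (nfSystem D)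
    (fun _ _ hd0 _ hs'' => expPkgAt Bs H hC hd0 hs'') (fun d => hBR_nfSystem D d)

end Fermat.Agent.ES.V19.XiCOfDens5
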