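/-
Programme V (S19), group G3, join (helper9): **(Ξc) on main's two-chart model from G4's output** — helper7's geometric
context `XiBridge7.DiscCtx` at `tay i := (ExpBaChart25.zeroPt … i).taylorQ hxt`, and the composition
`XiCOfDens5.xiC_of_dens` ∘ `DensBaseInst9.densBase`/`compat`.

Setting = `BasisDisc9`/`DensBaseInst9` (abstract `T : TwoCharts A hx Ft`, `(G, red) := (gaussInt T.S0.B T.S0.red, rho …)`,
`C : RedCtx A (resA A) G red T.r`).

* `discCtx` : `DiscCtx T G red Qb c tay` from `C`, injectivity, GOOD, (Da), (Db), the derived API of B3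
  (`ord_nonneg_of_mem_CQ`, `taylorQ_tau_sub`, `taylorQ_constCQ`) and the archimedean property `arch` of `A`
  (a NAMED input: `ArchVal14` at `Qbar`);
* **`xiC_disc`** : `XiC A.toSubring J1 (xi T.r χ) ↥O (F (nfSystem D)) (G (nfSystem D))` for `χ := chartOf T Qb c hDa`,
  from the output `(B, D, (3), (5))` of G4, the chart literals `ChartHyp`, `XiA`, `XiAUnique`, `J1Spec` and an auxiliary GOOD
  point `(Qs, cs)` with its zero point `Zs`.
-/
import Mathlib
import Fermat.Agent.ES.V19.DensBaseInst9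
import Fermat.Agent.ES.V19.XiCOfDens5

set_option autoImplicit false

open AlgebraicCurve

noncomputable section

namespace Fermat.Agent.ES.V19.XiCDisc9

open Fermat.Agent.X0.FF Fermat.Agent.RR Fermat.Agent.RR.LSpace
  Fermat.Agent.ES.RED.Contract8 Fermat.Agent.ES.RED.TwoCharts8
  Fermat.Agent.ES.V19.OnePlaceRep9 Fermat.Agent.ES.V19.BasisQbar9
  Fermat.Agent.ES.V19.GaussFrac15 Fermat.Agent.ES.V19.GaussFracIdem15 Fermat.Agent.ES.V19.SupTrick15
  Fermat.Agent.ES.V19.BasisData9 Fermat.Agent.ES.V19.BasisDisc9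
  Fermat.Agent.ES.V19.DiscIface3 Fermat.Agent.ES.V19.DiscLocal3 Fermat.Agent.ES.V19.DiscTaylor3
  Fermat.Agent.ES.V19.XiChartOf5 Fermat.Agent.ES.V19.NormalFormBasis14
  Fermat.Agent.ES.V19.ExpBaChart25 Fermat.Agent.ES.V19.DensityInst28 Fermat.Agent.ES.V19.LocExpInst10
  Fermat.Agent.ES.V19.ExpPkgOfDens5 Fermat.Agent.ES.V19.DensBaseInst9
  Fermat.Agent.ES.V19.XiBridge7 Fermat.Agent.ES.V19.XiIface29 Fermat.Agent.ES.V19.XiMain29
  Fermat.Agent.ES.V19.NFSystemOfBasis14 Fermat.Agent.ES.V19.XiCOfDens5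
open Fermat.Agent.ES.V19.LaurentMap19 (Lam mapLam)

universe u

variable {L : Type u} [Field L] [IsAlgClosed L] {A : ValuationSubring L}
variable {F : Type*} [Field F] [Algebra L F] {x : F} {hx : IsGen L x}
variable {Ft : Type*} [Field Ft] [Algebra (kA A) Ft]
variable [IsAlgClosed (kA A)] {xt : Ft} (hxt : IsGen (kA A) xt)
variable (T : TwoCharts A hx Ft)
variable (C : RedCtx A (resA A) (gaussInt T.S0.B T.S0.red) (rho T.S0.B T.S0.red) T.r)
  (HL : LHyp L F) (HLt : LHyp (kA A) Ft)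
variable (Qb : Fin (genusFF L F) → Place (kA A) Ft) (c : Fin (genusFF L F) → ↥A)
  (hDa : ∀ i, Da T (Qb i) (c i)) (hgood : ∀ i, Good T (Qb i) (c i))
  (hDb : ∀ i, Db T (gaussInt T.S0.B T.S0.red) (Qb i)) (hDd : ∀ i, Dd T (Qb i) (c i))
  (hinj : Function.Injective Qb)
  (arch : ∀ π : ↥A, π ∈ IsLocalRing.maximalIdeal ↥A → π ≠ 0 → ∀ d : ↥A, d ≠ 0 →
    ∃ N : ℕ, d ∣ π ^ N)

include C hDb hinj arch in
/-- **helper7's geometric context** at `tay i := (zeroPt … i).taylorQ hxt`. -/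
theorem discCtx :
    DiscCtx T (gaussInt T.S0.B T.S0.red) (rho T.S0.B T.S0.red) Qb c
      (fun i => (zeroPt T Qb c hgood hDa hDd i).taylorQ hxt) where
  ctx := C
  hBG := fun b => (isRedOf_gaussInt_iff _ _).mpr (isRedOf_of_mem b)
  inj := hinj
  good := hgood
  da := hDa
  db := fun i => db_gaussInt (hDb i)
  reg := fun i _ hf P hP => ord_nonneg_of_mem_CQ hxt T (Qb i) P hP ((hDa i).1 P hP) hf
  arch := arch
  tay_sub := fun i s _ => by
    have h := (zeroPt T Qb c hgood hDa hDd i).taylorQ_tau_sub hxt s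
    have e : (⟨tauSub T (c i) s, XiBridge7.tauSub_mem_CQ T (Qb i) (c i) s⟩ : ↥(CQ T (Qb i))) =
        ofB T (Qb i) (tauB T (c i) - T.S0.const s) := Subtype.ext (tauSub_eq T (c i) s)
    rw [e]
    exact h
  tay_const := fun i a => (zeroPt T Qb c hgood hDa hDd i).taylorQ_constCQ hxt a

variable (hl : Module.finrank (kA A) (riemannRochSpace (redDiv Qb)) = 1)
  (Qs : Place (kA A) Ft) {cs : ↥A} (Zs : ZeroPt T Qs cs) (hDas : Da T Qs cs)
  (hDbs : Db T (gaussInt T.S0.B T.S0.red) Qs) (hQs : ∀ i, Qb i ≠ Qs)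
  {Ps : Place L F} (B : BBData HL (ord_centre T Qb c hDa) (Q := centre T Qb c hDa) Ps)
  {O : Subring L} [Algebra ↥O ↥A] (D : BasisData ↥O (genusFF L F))
  (h3 : ∀ i n, IsGI (gaussInt T.S0.B T.S0.red) (rho T.S0.B T.S0.red) (B.bb i n))
  (h5 : ∀ i n l, ∃ (m : ℕ) (h : B.bb i n * ((tauB T (c l) : ↥T.S0.B) : F) ^ m ∈ CQ T (Qb l)),
    HahnSeries.ofPowerSeries ℤ ↥A ((zeroPt T Qb c hgood hDa hDd l).taylorQ hxt ⟨_, h⟩) =
      mapLam (algebraMap ↥O ↥A) (D.bb i n) l * (HahnSeries.single (1 : ℤ) (1 : ↥A)) ^ m)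

include hxt C HL HLt hgood hDb hDd hinj arch hl Zs hDas hDbs hQs B h3 h5 in
/-- **(Ξc) on main's two-chart model from G4's output.** -/
theorem xiC_disc
    (hχ : ChartHyp A T.r (chartOf T Qb c hDa))
    (hA : XiA A T.r (chartOf T Qb c hDa)) (hU : XiAUnique T.r (chartOf T Qb c hDa))
    {J1 : AddSubgroup (Pic0 L F)} (hJ : J1Spec T.r J1)
    (hcomp : ∀ r : ↥O, ((algebraMap ↥O ↥A r : ↥A) : L) = algebraMap ↥O L r) :
    XiC A.toSubring J1 (xi T.r (chartOf T Qb c hDa)) ↥O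
      (Fermat.Agent.ES.V19.FGLUniv19.F (nfSystem D)) (Fermat.Agent.ES.V19.FGLUniv19.G (nfSystem D)) :=
  xiC_of_dens (discCtx hxt T C Qb c hDa hgood hDb hDd hinj arch)
    (densBase hxt T C HL HLt Qb c hDa hgood hDb hDd hinj hl Qs Zs hDas hDbs hQs B D h3 h5)
    (compat hxt T C HL HLt Qb c hDa hgood hDb hDd hinj hl Qs Zs hDas hDbs hQs B D h3 h5)
    HL HLt hχ hA hU hJ hcomp

end Fermat.Agent.ES.V19.XiCDisc9

end
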