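/-
Programme V (S19), FINAL JOIN, group G3 (helper9): **(H-XiC) = helper29's `XiInst29.HXiC` (v2, level-existential) AT
MAIN'S OBJECTS**, directly from G4 (`BasisExpLevel25.exists_basisData_bbExp_level`) and the composed chain
`XiCDisc9.xiC_disc` (= `XiCOfDens5.xiC_of_dens` ∘ `DensBaseInst9.densBase`/`compat` ∘ `XiCDisc9.discCtx`).

Setting = `XiInst29` (`T : TwoCharts A hx F̃_M`, `hr`, `hgen`, `hℓ`, `hA`) + `BasisLevel9` (`hℓM`, `h0 h1`, `hxt`, `HLt`,
`hRt`).  NAMED INPUTS: `hDisc : DiscExit T (gaussInt T.S0.B T.S0.red) (rho …)` (J2: `DiscExitInst3.discExit_main`),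
`H : RedHyp T.r g` (`XiRedHyp5`), `HLt`/`hRt` (`LHypFt13`).  Discharged inside: J1 (`RedCtxInst15.redCtx_gaussInt`),
rank one (`ArchVal14.exists_dvd_pow`), `ChartHyp` (`XiChartOf5.chartHyp`), `XiA`/`XiAUnique` (`XiLit5`), `J1Spec`
(`ChartDataInst21.j1Spec`), the zero point at the auxiliary place (`DiscTaylor3.nonempty_zeroPt`).
The level `f₁` is the level `f₀` of G4; `Fgl := FGLUniv19.F (nfSystem D)`, `Inv := FGLUniv19.G (nfSystem D)`.
-/
import Mathlib
import Fermat.Agent.ES.V19.XiInst29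
import Fermat.Agent.ES.V19.ArchVal14
import Fermat.Agent.ES.V19.XiCDisc9

set_option autoImplicit false
set_option linter.unusedSectionVars false
set_option synthInstance.maxHeartbeats 400000
set_option maxHeartbeats 1000000

noncomputable section

open AlgebraicCurve ModularCurve

namespace Fermat.Agent.ES.V19.XiCInst9

open Fermat.Agent.X0 Fermat.Agent.X0.FF Fermat.Agent.RR.LSpace Fermat.Agent.ES.RED.Contract8
  Fermat.Agent.ES.RED.TwoCharts8 Fermat.Agent.ES.RED.GaloisRed21 Fermat.Agent.ES.RED.GaloisInst21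
  Fermat.Agent.ES.KRON.FrobPlace13 Fermat.Agent.ES.V19.GammaF16 Fermat.Agent.ES.V19.DiscIface3
  Fermat.Agent.ES.V19.DiscTaylor3
  Fermat.Agent.ES.V19.OnePlaceRep9 Fermat.Agent.ES.V19.XiIface29 Fermat.Agent.ES.V19.XiChartOf5
  Fermat.Agent.ES.V19.XiChartTeich5 Fermat.Agent.ES.V19.XiEqvInst29 Fermat.Agent.ES.V19.XiLevel29
  Fermat.Agent.ES.V19.TraceDescent26 Fermat.Agent.ES.V19.RedKer21
  Fermat.Agent.ES.V19.GaussFrac15 Fermat.Agent.ES.V19.NormalFormBasis14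
  Fermat.Agent.ES.V19.NFSystemOfBasis14 Fermat.Agent.ES.V19.BasisExpLevel25
  Fermat.Agent.ES.V19.XiCDisc9

attribute [local instance 5000] HahnSeries.powerSeriesAlgebra SubalgebraClass.toAlgebra

/-- `A` as an algebra over `fixRing A Γ` (a plain definition, used as a LOCAL instance below). -/
@[reducible] def algFix (A : ValuationSubring (AlgebraicClosure ℚ))
    (Γ : Subgroup (AlgebraicClosure ℚ ≃ₐ[ℚ] AlgebraicClosure ℚ)) : Algebra ↥(fixRing A Γ) ↥A :=
  (Subring.inclusion (S := fixRing A Γ) (T := A.toSubring) (fixRing_le A Γ)).toAlgebra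

attribute [local instance] algFix

variable {A : ValuationSubring (AlgebraicClosure ℚ)} {M : ℕ} [NeZero M]
  {x : ↥(laurentBaseChange (AlgebraicClosure ℚ) (modularFunctionFieldFull M))}
  {hx : IsGen (AlgebraicClosure ℚ) x}
  (T : TwoCharts A hx ↥(modularFunctionFieldFullC (kA A) M))
  (hr : IsPlaceReductionAlong A (IsLocalRing.residue ↥A) M T.r)
  (hgen : PrincipalGeneratedByIntegral A (IsLocalRing.residue ↥A) M)
  {ℓ : ℕ} (hℓ : ℓ.Prime) (hA : A.LiesOverPrime ℓ) (hℓM : ¬ ℓ ∣ M)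
  [IsAlgClosed (kA A)] {xt : ↥(modularFunctionFieldFullC (kA A) M)} (hxt : IsGen (kA A) xt)
  (h0 : CoeffChart (F₀ := modularFunctionFieldFull M) T.S0)
  (h1 : CoeffChart (F₀ := modularFunctionFieldFull M) T.S1)

include hℓM hxt h0 h1 in
/-- **(H-XiC) at main's objects** (helper29's v2 literal, `g := genusFF Q̄ F`). -/
theorem hXiC
    (HLt : LHyp (kA A) ↥(modularFunctionFieldFullC (kA A) M))
    (hRt : ∃ γ : ℤ, ∀ D : Divisor (kA A) ↥(modularFunctionFieldFullC (kA A) M),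
      Divisor.degree D + 1 - γ ≤ (Module.finrank (kA A) (riemannRochSpace D) : ℤ))
    (hDisc : DiscExit T (gaussInt T.S0.B T.S0.red) (rho T.S0.B T.S0.red))
    (H : RedHyp T.r (genusFF (AlgebraicClosure ℚ)
      ↥(laurentBaseChange (AlgebraicClosure ℚ) (modularFunctionFieldFull M)))) :
    Fermat.Agent.ES.V19.XiInst29.HXiC T hr hgen hℓ hA
      (genusFF (AlgebraicClosure ℚ)
        ↥(laurentBaseChange (AlgebraicClosure ℚ) (modularFunctionFieldFull M))) := by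
  intro Qbar y Qs ys hgood hDa hinj hl hgoods hDas hne
  have : Fact ℓ.Prime := ⟨hℓ⟩
  have hDb : ∀ i, Db T (gaussInt T.S0.B T.S0.red) (Qbar i) := fun i =>
    (hDisc (Qbar i) _ (hgood i)).2.1
  have hDd : ∀ i, Dd T (Qbar i) (teichA hℓ hA (y i)) := fun i =>
    (hDisc (Qbar i) _ (hgood i)).2.2.2
  obtain ⟨Ps, hPsQ, -, f₀, hf₀, Hlev⟩ := exists_basisData_bbExp_level hℓ hℓM hA T hr h0 h1 hxt
    HLt hRt Qbar y hDa hinj hgood hDb hDd hl Qs ys hDas hne
  refine ⟨f₀, hf₀, fun f hf _ _ _ _ => ?_⟩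
  obtain ⟨-, -, B, D, -, -, e3, -, e5⟩ := Hlev f hf
  have Hχ : ChartHyp A T.r (chartOf T Qbar (fun i => teichA hℓ hA (y i)) hDa) :=
    chartHyp T Qbar _ hDa hinj hl Ps fun i h => hne i (by rw [← hPsQ, h])
  obtain ⟨Zs⟩ := nonempty_zeroPt T Qs (teichA hℓ hA ys) hgoods hDas (hDisc Qs _ hgoods).2.2.2
  refine ⟨FGLUniv19.F (nfSystem D), FGLUniv19.G (nfSystem D), ?_⟩
  exact xiC_disc hxt T (RedCtxInst15.redCtx_gaussInt ℓ hℓM A hA T hr h0)
    (RedCtxInst15.lHyp_bar hx) HLt Qbar (fun i => teichA hℓ hA (y i)) hDa hgood hDb hDd hinj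
    (fun π hπ _ d hd => Fermat.Agent.ES.V19.ArchVal14.exists_dvd_pow hℓ hA hπ hd)
    hl Qs Zs hDas (hDisc Qs _ hgoods).2.1 (fun i => (hne i).symm) B D e3 e5 Hχ
    (Fermat.Agent.ES.V19.XiLit5.xiA H Hχ) (Fermat.Agent.ES.V19.XiLit5.xiAUnique H Hχ)
    (Fermat.Agent.ES.V19.ChartDataInst21.j1Spec T hr hgen) (fun _ => rfl)

end Fermat.Agent.ES.V19.XiCInst9

end
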