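/-
Programme V (S19 by hand, route `S19_ROUTE23.md`, SPINE v1), JOIN step J7/J8, helper23:
the two field-identical structures `XiIface29.XiData` (exit of (B5), produced by `XiMain29`) and
`Assemble11.XiData` (input of the formal funnel `Assemble11` / `ChartConj11` / `FunnelAsm20` /
`FunnelTop20`) are DISTINCT Lean structures.  This file is the 5-field bridge in both directions.
-/
import Mathlib
import Fermat.Agent.ES.V19.XiIface29
import Fermat.Agent.ES.V19.Assemble11

set_option autoImplicit false

namespace Fermat.Agent.ES.V19.XiDataBridge23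

variable {Ω J : Type*} [Field Ω] [AddCommGroup J] {A : Subring Ω} {J1 : AddSubgroup J}
  {g : ℕ} {Ξ : J → Fin g → Ω} {R : Type*} {G : Type*} [CommRing R] [Algebra R Ω] [Group G]
  [MulSemiringAction G Ω] [DistribMulAction G J]

/-- The exit of (B5) in the vocabulary of the formal funnel. -/
theorem assemble_of_iface (h : XiIface29.XiData A J1 Ξ R G) : Assemble11.XiData A J1 Ξ R G :=
  ⟨h.val, h.inj, h.eqv, h.add, h.neg⟩

/-- The converse. -/
theorem iface_of_assemble (h : Assemble11.XiData A J1 Ξ R G) : XiIface29.XiData A J1 Ξ R G :=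
  ⟨h.val, h.inj, h.eqv, h.add, h.neg⟩

/-- The two structures are equivalent. -/
theorem iface_iff_assemble : XiIface29.XiData A J1 Ξ R G ↔ Assemble11.XiData A J1 Ξ R G :=
  ⟨assemble_of_iface, iface_of_assemble⟩

end Fermat.Agent.ES.V19.XiDataBridge23
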