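/-
Programme V (S19), chapter (B5), helper29: **(Ξb), equivariance** of the chart, by uniqueness.

For `σ : G` acting through the semilinear automorphism `ρ σ` which fixes the coordinates `t_i` and
preserves the discs of the `Q̄_i` (`EqvHyp`):
* `smul_centre`  : `ρ σ • Q_i = Q_i` (the centre is THE zero of `t_i` in the disc, helper10's (Z3));
* `smul_redDiv`  : `g • redDiv P = redDiv (g • P ·)`;
* `isXi_smul`    : `IsXi r χ y s → IsXi r χ (σ • y) (σ • s ·)`  — the fourth clause of `XiB`.
-/
import Mathlib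
import Fermat.Agent.ES.V19.XiIface29

set_option autoImplicit false

noncomputable section

namespace Fermat.Agent.ES.V19.XiEqv29

open scoped BigOperators
open AlgebraicCurve Fermat.Agent.RR.LSpace Fermat.Agent.ES.V19.OnePlaceRep9
  Fermat.Agent.ES.V19.XiIface29

variable {K F k Ft : Type*} [Field K] [Field F] [Algebra K F] [Field k] [Field Ft] [Algebra k Ft]
variable {A : ValuationSubring K} {r : Place K F → Place k Ft} {g : ℕ} {χ : Chart K F k Ft g}

/-- a semilinear automorphism moves a reduced divisor pointwise. -/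
theorem smul_redDiv (τ : SemilinearAut K F) {n : ℕ} (P : Fin n → Place K F) :
    τ • redDiv P = redDiv (fun i => τ • P i) := by
  unfold redDiv
  rw [Finset.smul_sum]
  exact Finset.sum_congr rfl fun i _ => SemilinearAut.smul_single τ (P i) 1

/-- the coordinate `t_i - s` is moved to `t_i - σ s`. -/
theorem smul_coord {G : Type*} [Group G] [MulSemiringAction G K] [DistribMulAction G (Pic0 K F)]
    {ρ : G →* SemilinearAut K F} (hG : EqvHyp r χ G ρ) (σ : G) (i : Fin g) (s : K) :
    ρ σ • (χ.t i - algebraMap K F s) = χ.t i - algebraMap K F (σ • s) := by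
  rw [smul_sub, hG.smul_t σ i, SemilinearAut.smul_algebraMap, hG.smul_base σ s]

/-- the order of the moved coordinate at the moved place. -/
theorem ord_smul_coord {G : Type*} [Group G] [MulSemiringAction G K]
    [DistribMulAction G (Pic0 K F)] {ρ : G →* SemilinearAut K F} (hG : EqvHyp r χ G ρ) (σ : G)
    (i : Fin g) (s : K) (P : Place K F) :
    (ρ σ • P).ord (χ.t i - algebraMap K F (σ • s)) = P.ord (χ.t i - algebraMap K F s) := by
  rw [← smul_coord hG σ i s]
  exact SemilinearAut.ord_smul (ρ σ) P _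

/-- **(Z3)** the centres are fixed. -/
theorem smul_centre {G : Type*} [Group G] [MulSemiringAction G K] [DistribMulAction G (Pic0 K F)]
    {ρ : G →* SemilinearAut K F} (hχ : ChartHyp A r χ) (hG : EqvHyp r χ G ρ) (σ : G)
    (i : Fin g) : ρ σ • χ.Q i = χ.Q i := by
  obtain ⟨P₀, -, huniq⟩ := hχ.val_unique i 0 A.nonunits.zero_mem
  have h0 : ∀ P : Place K F, r P = χ.Qbar i → 0 < P.ord (χ.t i) → P = P₀ := fun P h1 h2 =>
    huniq P ⟨h1, by rw [map_zero, sub_zero]; exact h2⟩
  have hQ : χ.Q i = P₀ := h0 _ (hχ.centre_red i) (hχ.centre_zero i)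
  have hσQ : ρ σ • χ.Q i = P₀ := by
    refine h0 _ (hG.smul_disc σ i _ (hχ.centre_red i)) ?_
    have h := ord_smul_coord hG σ i 0 (χ.Q i)
    rw [smul_zero, map_zero, sub_zero] at h
    rw [h]
    exact hχ.centre_zero i
  rw [hσQ, hQ]

/-- `E₀` is fixed. -/
theorem smul_E0 {G : Type*} [Group G] [MulSemiringAction G K] [DistribMulAction G (Pic0 K F)]
    {ρ : G →* SemilinearAut K F} (hχ : ChartHyp A r χ) (hG : EqvHyp r χ G ρ) (σ : G) :
    ρ σ • χ.E0 = χ.E0 := by
  unfold Chart.E0
  rw [smul_redDiv]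
  exact congrArg redDiv (funext fun i => smul_centre hχ hG σ i)

/-- a representative of `y` is moved to a representative of `σ • y`. -/
theorem isRep_smul {G : Type*} [Group G] [MulSemiringAction G K] [DistribMulAction G (Pic0 K F)]
    {ρ : G →* SemilinearAut K F} (hG : EqvHyp r χ G ρ) (σ : G) {y : Pic0 K F} {D : Divisor K F}
    (h : IsRep y D) : IsRep (σ • y) (ρ σ • D) := by
  obtain ⟨hD, rfl⟩ := h
  refine ⟨SemilinearAut.smul_mem_degZero (ρ σ) hD, ?_⟩
  rw [hG.smul_pic σ, SemilinearAut.pic0_smul_mk]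
  rfl

/-- **(Ξb), equivariance, relational form.** -/
theorem isXi_smul {G : Type*} [Group G] [MulSemiringAction G K] [DistribMulAction G (Pic0 K F)]
    {ρ : G →* SemilinearAut K F} (hχ : ChartHyp A r χ) (hG : EqvHyp r χ G ρ) (σ : G)
    {y : Pic0 K F} {s : Fin g → K} (h : IsXi r χ y s) :
    IsXi r χ (σ • y) (fun i => σ • s i) := by
  obtain ⟨P, hP, hs, hrep⟩ := h
  refine ⟨fun i => ρ σ • P i, fun i => hG.smul_disc σ i _ (hP i), fun i => ?_, ?_⟩
  · rw [ord_smul_coord hG σ i (s i) (P i)]
    exact hs i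
  · have h1 := isRep_smul hG σ hrep
    rwa [smul_sub, smul_redDiv, smul_E0 hχ hG σ] at h1

end Fermat.Agent.ES.V19.XiEqv29
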