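/-
Programme V (S19), chapter B5 (helper5): **PROOFS of helper29's exit literals (Ξa) and (Ξb) [first three
clauses]** of `XiIface29`, from `XiExist5`.

Inputs: `H : RedHyp r g`, `Hχ : ChartHyp A r χ` (helper29's interface), and the sup-trick hypothesis
`hlD : ∀ P, (∀ i, r (P i) = χ.Qbar i) → L(P_1 + … + P_g) = K` (helper15's `SupTrick15.const_of_mem_L`).

* `const_eq_of_ord_pos`          : two constants which are values of `t` at the same place are equal;
* `eq_algebraMap_of_finrank_eq_one` : `l(D) = 1`, `D ≥ 0` ⇒ `L(D)` consists of constants;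
* `xiA`          : **`XiA A r χ`**;
* `xiAUnique`    : **`XiAUnique r χ`**;
* `isXi_zero`, `isXi_inj`, `inJ1_of_isXi` : the first three clauses of `XiB`;
* `isXi_xi`, `xi_eq_of_isXi`, `xi_mem_nonunits`, `xi_mem`, `xi_zero`, `xi_inj` : the same for the function
  `xi r χ` (`XiData.val`, `XiData.inj`);
* `xi_val`, `xi_injOn` : `XiData.val` / `XiData.inj` for a subgroup `J1` with `J1Spec r J1`.
-/
import Mathlib
import Fermat.Agent.ES.V19.XiIface29
import Fermat.Agent.ES.V19.XiPic5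

set_option autoImplicit false

open AlgebraicCurve

noncomputable section

namespace Fermat.Agent.ES.V19.XiRel5

open Fermat.Agent.X0.FF Fermat.Agent.RR.LSpace Fermat.Agent.ES.V19.OnePlaceRep9
  Fermat.Agent.ES.V19.XiExist5 Fermat.Agent.ES.V19.XiPic5 Fermat.Agent.ES.V19.XiIface29

variable {K F k Ft : Type*} [Field K] [Field F] [Algebra K F] [Field k] [Field Ft] [Algebra k Ft]

/-! ### Two generalities -/

/-- two constants `a`, `b` such that `t - a` and `t - b` vanish at the same place are equal. -/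
theorem const_eq_of_ord_pos (v : Place K F) (t : F) {a b : K}
    (ha : 0 < v.ord (t - algebraMap K F a)) (hb : 0 < v.ord (t - algebraMap K F b)) : a = b := by
  by_contra hne
  have hab : algebraMap K F (a - b) ≠ 0 :=
    (_root_.map_ne_zero (algebraMap K F)).mpr (sub_ne_zero.mpr hne)
  have e : (t - algebraMap K F b) + -(t - algebraMap K F a) = algebraMap K F (a - b) := by
    rw [map_sub]
    ring
  have h1 : (1 : ℤ) ≤ v.ord (algebraMap K F (a - b)) := by
    rw [← e]
    apply ffp_le_ord_add v (by omega) (by rw [ffp_ord_neg]; omega)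
    rw [e]
    exact hab
  rw [ffp_ord_algebraMap] at h1
  omega

/-- if `l(D) = 1` and `D ≥ 0` then `L(D)` consists of constants. -/
theorem eq_algebraMap_of_finrank_eq_one {D : Divisor k Ft} (hD : 0 ≤ D)
    (h1 : Module.finrank k (riemannRochSpace D) = 1) (h : Ft) (hh : h ∈ riemannRochSpace D) :
    ∃ c : k, h = algebraMap k Ft c := by
  have hone : (1 : Ft) ∈ riemannRochSpace D := by
    rw [mem_L_iff one_ne_zero]
    intro v
    rw [Place.ord_one]
    have := hD v
    simp only [Finsupp.coe_zero, Pi.zero_apply] at this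
    omega
  have hne : (⟨1, hone⟩ : ↥(riemannRochSpace D)) ≠ 0 := by
    intro h0
    exact one_ne_zero (congrArg Subtype.val h0)
  obtain ⟨c, hc⟩ := (finrank_eq_one_iff_of_nonzero' _ hne).mp h1 ⟨h, hh⟩
  refine ⟨c, ?_⟩
  have := congrArg Subtype.val hc
  rw [Algebra.algebraMap_eq_smul_one]
  exact this.symm

/-- two representatives of the same class differ by a principal divisor. -/
theorem sub_mem_principal_of_isRep {y : Pic0 K F} {D D' : Divisor K F} (h : IsRep y D)
    (h' : IsRep y D') : D - D' ∈ Divisor.principal (K := K) (F := F) := by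
  obtain ⟨hD, e⟩ := h
  obtain ⟨hD', e'⟩ := h'
  exact (mk_eq_mk_iff ⟨D, hD⟩ ⟨D', hD'⟩).mp (e.trans e'.symm)

/-- representatives of `Pic0.mk D₀`. -/
theorem isRep_mk_iff (D₀ : Divisor.degZero (K := K) (F := F)) {D : Divisor K F}
    (hD : D ∈ Divisor.degZero (K := K) (F := F)) :
    IsRep (Pic0.mk D₀) D ↔
      D - (D₀ : Divisor K F) ∈ Divisor.principal (K := K) (F := F) := by
  constructor
  · rintro ⟨h, e⟩
    exact (mk_eq_mk_iff ⟨D, h⟩ D₀).mp e
  · intro h
    exact ⟨hD, (mk_eq_mk_iff ⟨D, hD⟩ D₀).mpr h⟩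

/-! ### The literals -/

section Lit

variable {A : ValuationSubring K} {r : Place K F → Place k Ft} {g : ℕ} {χ : Chart K F k Ft g}
  (H : RedHyp r g) (Hχ : ChartHyp A r χ)
  (hlD : ∀ P : Fin g → Place K F, (∀ i, r (P i) = χ.Qbar i) →
    ∀ f : F, f ∈ riemannRochSpace (redDiv P) → ∃ c : K, f = algebraMap K F c)

include Hχ in
/-- `L(Ē₀) = k`. -/
theorem lE (h : Ft) (hh : h ∈ riemannRochSpace (redDiv χ.Qbar)) :
    ∃ c : k, h = algebraMap k Ft c :=
  eq_algebraMap_of_finrank_eq_one (redDiv_nonneg χ.Qbar) Hχ.l_E0bar h hh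

include H in
/-- the class of points in the discs, minus `E₀`, as a representative. -/
theorem isRep_cls (P : Fin g → Place K F) : IsRep (cls H.lhyp P χ.Q) (redDiv P - χ.E0) :=
  ⟨sub_redDiv_mem_degZero H.lhyp P χ.Q, rfl⟩

include H Hχ hlD in
/-- **(Ξa), existence.** -/
theorem xiA : XiA A r χ := by
  rintro y ⟨D₀, rfl, hD₀⟩
  have hdeg : Divisor.degree (D₀ : Divisor K F) = 0 := Divisor.mem_degZero.mp D₀.2
  obtain ⟨P, ⟨hP, hPp⟩, -⟩ := existsUnique_points H.lhyp r H.riemann hlD H.principal Hχ.inj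
    (lE Hχ) Hχ.centre_red hdeg hD₀
  choose s hs using fun i => Hχ.val_mem i (P i) (hP i)
  refine ⟨s, ⟨P, hP, fun i => (hs i).2, ?_⟩, fun i => (hs i).1⟩
  exact (isRep_mk_iff D₀ (sub_redDiv_mem_degZero H.lhyp P χ.Q)).mpr hPp

include hlD in
/-- an effective divisor of the class of `redDiv P - E₀` (with `P i ∈ disc (Q̄_i)`) is `redDiv P`. -/
theorem eq_redDiv_of_isRep {y : Pic0 K F} {P : Fin g → Place K F}
    (hP : ∀ i, r (P i) = χ.Qbar i) (hrep : IsRep y (redDiv P - χ.E0)) {D : Divisor K F}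
    (hD : 0 ≤ D) (hrepD : IsRep y (D - χ.E0)) : D = redDiv P := by
  apply eq_of_sub_mem_principal r hlD hP hD
  have h := sub_mem_principal_of_isRep hrepD hrep
  have e : D - χ.E0 - (redDiv P - χ.E0) = D - redDiv P := by abel
  rw [e] at h
  exact h

include Hχ hlD in
/-- **(Ξa), uniqueness.** -/
theorem xiAUnique : XiAUnique r χ := by
  intro y s P hP hs hrep
  refine ⟨fun D hD hrepD => eq_redDiv_of_isRep hlD hP hrep hD hrepD, ?_⟩
  rintro s' ⟨P', hP', hs', hrep'⟩
  have e1 : redDiv P' = redDiv P := eq_redDiv_of_isRep hlD hP hrep (redDiv_nonneg P') hrep'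
  have e2 : P' = P := eq_of_redDiv_eq r Hχ.inj hP' hP e1
  subst e2
  funext i
  exact const_eq_of_ord_pos (P' i) (χ.t i) (hs' i) (hs i)

include H Hχ in
/-- **(Ξb), first clause: `Ξ 0 = 0`.** -/
theorem isXi_zero : IsXi r χ 0 0 := by
  refine ⟨χ.Q, Hχ.centre_red, fun i => ?_, ?_⟩
  · rw [Pi.zero_apply, map_zero, sub_zero]
    exact Hχ.centre_zero i
  · have h := isRep_cls (χ := χ) H χ.Q
    rwa [cls_self] at h

include Hχ in
/-- a coordinate of a point of the disc lies in `𝔪_A`. -/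
theorem mem_nonunits_of_ord_pos {i : Fin g} {P : Place K F} (hP : r P = χ.Qbar i) {s : K}
    (hs : 0 < P.ord (χ.t i - algebraMap K F s)) : s ∈ A.nonunits := by
  obtain ⟨s₀, hs₀, h₀⟩ := Hχ.val_mem i P hP
  rw [const_eq_of_ord_pos P (χ.t i) hs h₀]
  exact hs₀

include Hχ in
/-- **(Ξb), second clause: injectivity.** -/
theorem isXi_inj {y y' : Pic0 K F} {s : Fin g → K} (h : IsXi r χ y s) (h' : IsXi r χ y' s) :
    y = y' := by
  obtain ⟨P, hP, hs, hD, e⟩ := h
  obtain ⟨P', hP', hs', hD', e'⟩ := h'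
  have hPP' : P = P' := by
    funext i
    obtain ⟨P₀, _, huniq⟩ := Hχ.val_unique i (s i) (mem_nonunits_of_ord_pos Hχ (hP i) (hs i))
    rw [huniq (P i) ⟨hP i, hs i⟩, huniq (P' i) ⟨hP' i, hs' i⟩]
  subst hPP'
  rw [← e, ← e']

include Hχ in
/-- **(Ξb), third clause: classes with coordinates lie in `J¹`.** -/
theorem inJ1_of_isXi {y : Pic0 K F} {s : Fin g → K} (h : IsXi r χ y s) : InJ1 r y := by
  obtain ⟨P, hP, _, hD, e⟩ := h
  refine ⟨⟨redDiv P - χ.E0, hD⟩, e, ?_⟩
  show Finsupp.mapDomain r (redDiv P - redDiv χ.Q) ∈ _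
  rw [Finsupp.mapDomain_sub, mapDomain_redDiv, mapDomain_redDiv, funext hP,
    funext Hχ.centre_red, sub_self]
  exact AddSubgroup.zero_mem _

/-! ### The function `xi` -/

include Hχ hlD in
/-- the coordinates are unique. -/
theorem isXi_unique {y : Pic0 K F} {s s' : Fin g → K} (h : IsXi r χ y s) (h' : IsXi r χ y s') :
    s' = s := by
  obtain ⟨P, hP, hs, hrep⟩ := h
  exact (xiAUnique Hχ hlD y s P hP hs hrep).2 s' h'

include Hχ hlD in
theorem xi_eq_of_isXi {y : Pic0 K F} {s : Fin g → K} (h : IsXi r χ y s) : xi r χ y = s := by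
  have hex : ∃ s, IsXi r χ y s := ⟨s, h⟩
  have e : xi r χ y = hex.choose := dif_pos hex
  rw [e]
  exact isXi_unique Hχ hlD h hex.choose_spec

include H Hχ hlD in
theorem isXi_xi {y : Pic0 K F} (hy : InJ1 r y) : IsXi r χ y (xi r χ y) := by
  obtain ⟨s, hs, _⟩ := xiA H Hχ hlD y hy
  rw [xi_eq_of_isXi Hχ hlD hs]
  exact hs

include H Hχ hlD in
/-- on `J¹` the chart takes its values in `𝔪_A`. -/
theorem xi_mem_nonunits {y : Pic0 K F} (hy : InJ1 r y) (i : Fin g) : xi r χ y i ∈ A.nonunits := by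
  obtain ⟨s, hs, hs'⟩ := xiA H Hχ hlD y hy
  rw [xi_eq_of_isXi Hχ hlD hs]
  exact hs' i

include H Hχ hlD in
/-- the chart takes its values in `A`. -/
theorem xi_mem (y : Pic0 K F) (i : Fin g) : xi r χ y i ∈ A := by
  by_cases hex : ∃ s, IsXi r χ y s
  · obtain ⟨s, hs⟩ := hex
    exact A.nonunits_subset (xi_mem_nonunits H Hχ hlD (inJ1_of_isXi Hχ hs) i)
  · have e : xi r χ y = 0 := dif_neg hex
    rw [e]
    exact A.zero_mem

include H Hχ hlD in
theorem xi_zero : xi r χ (0 : Pic0 K F) = 0 :=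
  xi_eq_of_isXi Hχ hlD (isXi_zero H Hχ)

include H Hχ hlD in
/-- the chart is injective on `J¹`. -/
theorem xi_inj {y y' : Pic0 K F} (hy : InJ1 r y) (hy' : InJ1 r y') (h : xi r χ y = xi r χ y') :
    y = y' := by
  have h1 := isXi_xi H Hχ hlD hy
  have h2 := isXi_xi H Hχ hlD hy'
  rw [← h] at h2
  exact isXi_inj Hχ h1 h2

include H Hχ hlD in
/-- **`XiData.val`** for a subgroup `J1` with `J1Spec r J1`. -/
theorem xi_val (J1 : AddSubgroup (Pic0 K F)) :
    ∀ y ∈ J1, ∀ i, xi r χ y i ∈ A.toSubring := fun y _ i => xi_mem H Hχ hlD y i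

include H Hχ hlD in
/-- **`XiData.inj`** for a subgroup `J1` with `J1Spec r J1`. -/
theorem xi_injOn {J1 : AddSubgroup (Pic0 K F)} (hJ1 : J1Spec r J1) :
    ∀ y ∈ J1, ∀ y' ∈ J1, xi r χ y = xi r χ y' → y = y' := fun y hy y' hy' h =>
  xi_inj H Hχ hlD ((hJ1 y).mp hy) ((hJ1 y').mp hy') h

end Lit

end Fermat.Agent.ES.V19.XiRel5
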