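/-
Programme V (S19), chapter (B5), helper29: **`l(P_1 + … + P_g) = 1` for every family of points
`P_i` in the discs of the `Q̄_i`**, from the inputs of `XiIface29` alone (`RedHyp.principal`,
`ChartHyp.l_E0bar`, `ChartHyp.aux`) — this is helper5's hypothesis `hlD` of `XiExist5`.

Proof (no norm, no scaling): `f ∈ L(D)`, `D = redDiv P`, is regular at the auxiliary place `P⋆`
(outside the discs); if `f` is not the constant `c = f(P⋆)`, put `h := f - c ≠ 0`; then
`E := div h + D ≥ 0` and `r_* div h = div φ` for some `φ ≠ 0` (`RedHyp.principal`), so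
`div φ + Ē₀ = r_* E ≥ 0`, `φ ∈ L(Ē₀) = k`, `div φ = 0`, `r_* E = Ē₀`; but `E(P⋆) > 0` forces
`(r_* E)(r P⋆) > 0 = Ē₀(r P⋆)`.
-/
import Mathlib
import Fermat.Agent.ES.V19.XiIface29

set_option autoImplicit false

noncomputable section

namespace Fermat.Agent.ES.V19.XiUniq29

open scoped BigOperators
open AlgebraicCurve Fermat.Agent.X0.FF Fermat.Agent.RR.LSpace Fermat.Agent.ES.V19.OnePlaceRep9
  Fermat.Agent.ES.V19.XiIface29

variable {K F k Ft : Type*} [Field K] [Field F] [Algebra K F] [Field k] [Field Ft] [Algebra k Ft]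

/-- the coefficient of `r P₀` in `r_* E` is at least `E P₀` for an effective `E`. -/
theorem le_mapDomain_apply (r : Place K F → Place k Ft) {E : Divisor K F} (hE : 0 ≤ E)
    (P₀ : Place K F) : E P₀ ≤ Finsupp.mapDomain r E (r P₀) := by
  classical
  rw [Finsupp.mapDomain, Finsupp.sum, Finsupp.finsetSum_apply]
  simp only [Finsupp.single_apply]
  have hnn : ∀ P ∈ E.support, (0 : ℤ) ≤ if r P = r P₀ then E P else 0 := fun P _ => by
    split_ifs
    · exact hE P
    · exact le_rfl
  by_cases hP : P₀ ∈ E.support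
  · have h1 := Finset.single_le_sum (f := fun P => if r P = r P₀ then E P else 0) hnn hP
    simpa using h1
  · have h0 : E P₀ = 0 := by simpa [Finsupp.mem_support_iff] using hP
    rw [h0]
    exact Finset.sum_nonneg hnn

/-- `r_*` of an effective divisor is effective. -/
theorem mapDomain_nonneg29 (r : Place K F → Place k Ft) {E : Divisor K F} (hE : 0 ≤ E) :
    0 ≤ Finsupp.mapDomain r E := by
  classical
  intro Q
  rw [Finsupp.mapDomain, Finsupp.sum, Finsupp.finsetSum_apply]
  simp only [Finsupp.single_apply]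
  refine Finset.sum_nonneg fun P _ => ?_
  split_ifs
  · exact hE P
  · exact le_rfl

/-- `r_* (P_1 + … + P_n) = r P_1 + … + r P_n`. -/
theorem mapDomain_redDiv29 (r : Place K F → Place k Ft) {n : ℕ} (P : Fin n → Place K F) :
    Finsupp.mapDomain r (redDiv P) = redDiv (fun i => r (P i)) := by
  rw [redDiv, redDiv, Finsupp.mapDomain_finsetSum]
  exact Finset.sum_congr rfl fun i _ => Finsupp.mapDomain_single

/-- if `l(D) = 1` and `D ≥ 0` then `L(D)` consists of constants. -/
theorem const_of_finrank_eq_one {D : Divisor k Ft} (hD : 0 ≤ D)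
    (h1 : Module.finrank k (riemannRochSpace D) = 1) {φ : Ft} (hφ : φ ∈ riemannRochSpace D) :
    ∃ c : k, φ = algebraMap k Ft c := by
  have hone : (1 : Ft) ∈ riemannRochSpace D := by
    rw [mem_riemannRochSpace_iff]
    intro v
    right
    have h0 : v.ord (1 : Ft) = 0 := by
      have := ffp_ord_algebraMap v (1 : k)
      rwa [map_one] at this
    have := hD v
    simp only [Finsupp.coe_zero, Pi.zero_apply] at this
    omega
  have hne : (⟨1, hone⟩ : riemannRochSpace D) ≠ 0 := by
    intro h
    exact one_ne_zero (congrArg Subtype.val h)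
  obtain ⟨c, hc⟩ := (finrank_eq_one_iff_of_nonzero' (⟨1, hone⟩ : riemannRochSpace D) hne).mp h1
    ⟨φ, hφ⟩
  refine ⟨c, ?_⟩
  have := congrArg Subtype.val hc
  simp only [Submodule.coe_smul] at this
  rw [← this, Algebra.smul_def, mul_one]

variable {A : ValuationSubring K} {r : Place K F → Place k Ft} {g : ℕ} {χ : Chart K F k Ft g}

/-- **`hlD`**: for points `P_i` in the discs of the `Q̄_i`, `L(P_1 + … + P_g)` consists of
constants. -/
theorem const_of_mem_L_redDiv (hr : RedHyp r g) (hχ : ChartHyp A r χ) (P : Fin g → Place K F)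
    (hP : ∀ i, r (P i) = χ.Qbar i) (f : F) (hf : f ∈ riemannRochSpace (redDiv P)) :
    ∃ c : K, f = algebraMap K F c := by
  have HL := hr.lhyp
  obtain ⟨Ps, hPs⟩ := hχ.aux
  have hDPs : redDiv P Ps = 0 :=
    redDiv_apply_of_not_mem fun i h => hPs i (by rw [← h]; exact hP i)
  -- `f` is regular at `P⋆`
  have hfPs : f ∈ Ps.toValuationSubring := by
    rcases mem_riemannRochSpace_iff.mp hf Ps with h | h
    · rw [h]
      exact Ps.toValuationSubring.zero_mem
    · apply ffp_mem_of_ord_nonneg
      rw [hDPs] at h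
      simpa using h
  obtain ⟨c, hc | hc⟩ := HL.residue Ps f hfPs
  · exact ⟨c, hc⟩
  exfalso
  set h : F := f - algebraMap K F c with hh
  have hconst : algebraMap K F c ∈ riemannRochSpace (redDiv P) := by
    rw [mem_riemannRochSpace_iff]
    intro v
    right
    rw [ffp_ord_algebraMap]
    have := redDiv_nonneg P v
    simp only [Finsupp.coe_zero, Pi.zero_apply] at this
    omega
  have hhE : h ∈ riemannRochSpace (redDiv P) := Submodule.sub_mem _ hf hconst
  have hh0 : h ≠ 0 := by
    intro h0
    rw [h0, Place.ord_zero] at hc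
    exact lt_irrefl _ hc
  -- the effective divisor `E = div h + D`
  set E : Divisor K F := divOf HL hh0 + redDiv P with hE
  have hEnn : 0 ≤ E := by
    intro v
    have := (mem_L_iff hh0).mp hhE v
    rw [hE, Finsupp.add_apply, divOf_apply]
    simp only [Finsupp.coe_zero, Pi.zero_apply]
    omega
  -- reduce `div h`
  have hprin : divOf HL hh0 ∈ Divisor.principal (K := K) (F := F) :=
    ⟨h, hh0, fun v => divOf_apply HL hh0 v⟩
  obtain ⟨φ, hφ0, hφ⟩ := hr.principal _ hprin
  have hrE : Finsupp.mapDomain r E = Finsupp.mapDomain r (divOf HL hh0) + χ.E0bar := by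
    rw [hE, Finsupp.mapDomain_add, mapDomain_redDiv29]
    have : (fun i => r (P i)) = χ.Qbar := funext hP
    rw [this]
    rfl
  have hrEnn := mapDomain_nonneg29 r hEnn
  have hφL : φ ∈ riemannRochSpace χ.E0bar := by
    rw [mem_L_iff hφ0]
    intro Q
    have h1 := hrEnn Q
    rw [hrE, Finsupp.add_apply, hφ Q] at h1
    simp only [Finsupp.coe_zero, Pi.zero_apply] at h1
    omega
  obtain ⟨κ, hκ⟩ := const_of_finrank_eq_one (redDiv_nonneg χ.Qbar) hχ.l_E0bar hφL
  -- evaluate at `r P⋆`
  have h2 := le_mapDomain_apply r hEnn Ps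
  have h3 : χ.E0bar (r Ps) = 0 := redDiv_apply_of_not_mem fun i h => hPs i h.symm
  have h4 : E Ps = Ps.ord h := by
    rw [hE, Finsupp.add_apply, divOf_apply, hDPs, add_zero]
  have h5 : Finsupp.mapDomain r E (r Ps) = 0 := by
    rw [hrE, Finsupp.add_apply, hφ (r Ps), hκ, ffp_ord_algebraMap, h3, add_zero]
  rw [h4, h5] at h2
  omega

end Fermat.Agent.ES.V19.XiUniq29
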