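/-
Programme V (S19), chapter B5 (helper5): **helper29's literals `XiA`, `XiAUnique`, `XiB` of `XiIface29`,
HYPOTHESIS-FREE** (from `RedHyp`, `ChartHyp`, `EqvHyp` alone) — the three inputs `hA hU hB` of
`XiMain29.xiData_of`.

* `hlD`        : the sup-trick hypothesis of `XiRel5` (helper29's `XiUniq29.const_of_mem_L_redDiv`);
* `xiA`        : `XiA A r χ`;
* `xiAUnique`  : `XiAUnique r χ`;
* `xiB`        : `XiB r χ G` (clauses 1–3: `XiRel5`; clause 4: helper29's `XiEqv29.isXi_smul`);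
* `xiData_of_xiC` : **`XiC ⇒ XiData A.toSubring J1 (xi r χ) R G`**, for `J1` with `J1Spec r J1`.
-/
import Mathlib
import Fermat.Agent.ES.V19.XiRel5
import Fermat.Agent.ES.V19.XiUniq29
import Fermat.Agent.ES.V19.XiEqv29
import Fermat.Agent.ES.V19.XiMain29

set_option autoImplicit false

open AlgebraicCurve

noncomputable section

namespace Fermat.Agent.ES.V19.XiLit5

open Fermat.Agent.ES.V19.OnePlaceRep9 Fermat.Agent.ES.V19.XiIface29

variable {K F k Ft : Type*} [Field K] [Field F] [Algebra K F] [Field k] [Field Ft] [Algebra k Ft]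
variable {A : ValuationSubring K} {r : Place K F → Place k Ft} {g : ℕ} {χ : Chart K F k Ft g}

/-- the sup-trick hypothesis of `XiRel5`. -/
theorem hlD (H : RedHyp r g) (Hχ : ChartHyp A r χ) (P : Fin g → Place K F)
    (hP : ∀ i, r (P i) = χ.Qbar i) (f : F) (hf : f ∈ riemannRochSpace (redDiv P)) :
    ∃ c : K, f = algebraMap K F c :=
  XiUniq29.const_of_mem_L_redDiv H Hχ P hP f hf

/-- **(Ξa), existence.** -/
theorem xiA (H : RedHyp r g) (Hχ : ChartHyp A r χ) : XiA A r χ :=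
  XiRel5.xiA H Hχ (hlD H Hχ)

/-- **(Ξa), uniqueness.** -/
theorem xiAUnique (H : RedHyp r g) (Hχ : ChartHyp A r χ) : XiAUnique r χ :=
  XiRel5.xiAUnique Hχ (hlD H Hχ)

/-- **(Ξb).** -/
theorem xiB (H : RedHyp r g) (Hχ : ChartHyp A r χ) {G : Type*} [Group G]
    [MulSemiringAction G K] [DistribMulAction G (Pic0 K F)] {ρ : G →* SemilinearAut K F}
    (hG : EqvHyp r χ G ρ) : XiB r χ G :=
  ⟨XiRel5.isXi_zero H Hχ, fun _ _ _ h h' => XiRel5.isXi_inj Hχ h h',
    fun _ _ h => XiRel5.inJ1_of_isXi Hχ h, fun σ _ _ h => XiEqv29.isXi_smul Hχ hG σ h⟩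

/-- **(B5), the exit from (Ξc)**: `XiC ⇒ XiData`. -/
theorem xiData_of_xiC (H : RedHyp r g) (Hχ : ChartHyp A r χ) {G : Type*} [Group G]
    [MulSemiringAction G K] [DistribMulAction G (Pic0 K F)] {ρ : G →* SemilinearAut K F}
    (hG : EqvHyp r χ G ρ) {J1 : AddSubgroup (Pic0 K F)} (hJ : J1Spec r J1)
    {R : Type*} [CommRing R] [Algebra R K]
    {Fgl : ℕ → Fin g → MvPolynomial (Fin g ⊕ Fin g) R}
    {Inv : ℕ → Fin g → MvPolynomial (Fin g) R}
    (hC : XiC A.toSubring J1 (xi r χ) R Fgl Inv) :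
    XiData A.toSubring J1 (xi r χ) R G :=
  XiMain29.xiData_of (xiA H Hχ) (xiAUnique H Hχ) (xiB H Hχ hG) hJ hC

end Fermat.Agent.ES.V19.XiLit5
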