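/-
Programme V (S19), FINAL JOIN step (G2), helper29: **(H-Xi), the exit of chapter (B5) at the
instance**, from the named chapter exits.

Setting = helper21's `RedKer21` block (`T : TwoCharts A hx F̃_M`, `hr`, `hgen`, coefficientwise
charts `h0 h1`); `J¹ := RedKer21.J1 T hr hgen`.

DISCHARGED INSIDE: the points (J3 `Points23.exists_good_points`, Teichmüller centres), (Da)
(`DiscDa10.da_all`), the chart and `ChartHyp` (J4 `XiChartOf5`), the level `f₀` and `EqvHyp`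
(J7 `XiLevel29.exists_eqvHyp`), `J1Spec` (`ChartDataInst21.j1Spec`), `XiA`/`XiAUnique`/`XiB`
and the glue (`XiLit5.xiData_of_xiC`), the bridge to `Assemble11.XiData` (`XiDataBridge23`).

NAMED HYPOTHESES LEFT:
* `HLt`, `hRt`, `Infinite (Place …)` : curve theory of the special fibre (`LHypFt13`, `NonSpecial9`);
* `hbad` : (L3) the BAD places are finitely many (`GoodInst11`);
* `hg : g ≤ genusFF k̄ F̃` and `H : RedHyp T.r g` : (B1) `g := genusFF Q̄ F ≤ g̃` + char-0 RR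
  (`XiRedHyp5.redHyp_of_isPlaceReductionAlong`);
* **`HXiC`** : (Ξc) for every GOOD chart datum, at every level `f` divisible by a level `f₁`
  chosen by (G3) at which `Γ_f` fixes it (G3: J5 + J6), polynomials existentially quantified.

* `exists_xiData`   : `∃ f₀ > 0, ∃ Ξ, XiIface29.XiData A.toSubring J¹ Ξ ↥O_{f₀} ↥Γ_{f₀}`;
* `exists_assemble` : the same with `Assemble11.XiData` (the `hxi` of `FunnelData11`/`HgeoAsm21`).
-/
import Mathlib
import Fermat.Agent.ES.V19.XiLevel29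
import Fermat.Agent.ES.V19.XiLit5
import Fermat.Agent.ES.V19.Points23
import Fermat.Agent.ES.V19.DiscDa10
import Fermat.Agent.ES.V19.ChartDataInst21
import Fermat.Agent.ES.V19.XiDataBridge23

set_option autoImplicit false
set_option linter.unusedSectionVars false
set_option synthInstance.maxHeartbeats 400000
set_option maxHeartbeats 1000000

noncomputable section

open AlgebraicCurve ModularCurve

namespace Fermat.Agent.ES.V19.XiInst29

open Fermat.Agent.X0.FF Fermat.Agent.RR.LSpace Fermat.Agent.ES.RED.Contract8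
  Fermat.Agent.ES.RED.TwoCharts8 Fermat.Agent.ES.RED.GaloisRed21 Fermat.Agent.ES.RED.GaloisInst21
  Fermat.Agent.ES.KRON.FrobPlace13 Fermat.Agent.ES.V19.GammaF16 Fermat.Agent.ES.V19.DiscIface3
  Fermat.Agent.ES.V19.OnePlaceRep9 Fermat.Agent.ES.V19.XiIface29 Fermat.Agent.ES.V19.XiChartOf5
  Fermat.Agent.ES.V19.XiChartTeich5 Fermat.Agent.ES.V19.XiEqvInst29 Fermat.Agent.ES.V19.XiLevel29
  Fermat.Agent.ES.V19.TraceDescent26 Fermat.Agent.ES.V19.RedKer21

attribute [local instance 5000] HahnSeries.powerSeriesAlgebra SubalgebraClass.toAlgebra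

local notation "Qb" => AlgebraicClosure ℚ
local notation "GQ" => (AlgebraicClosure ℚ ≃ₐ[ℚ] AlgebraicClosure ℚ)

variable {A : ValuationSubring Qb} {M : ℕ} [NeZero M]
  {x : ↥(laurentBaseChange Qb (modularFunctionFieldFull M))} {hx : IsGen Qb x}
  (T : TwoCharts A hx ↥(modularFunctionFieldFullC (kA A) M))
  (hr : IsPlaceReductionAlong A (IsLocalRing.residue ↥A) M T.r)
  (hgen : PrincipalGeneratedByIntegral A (IsLocalRing.residue ↥A) M)
  {ℓ : ℕ} (hℓ : ℓ.Prime) (hA : A.LiesOverPrime ℓ)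

/-- **(H-XiC)**: (Ξc) for every GOOD chart datum with Teichmüller centres, at every level `f`
divisible by a level `f₁` CHOSEN BY (G3) (the level of its basis data) at which `Γ_f` fixes the
chart data and the auxiliary point; the polynomials are existentially quantified (G3 takes
`FGLUniv19.F Sys`, `FGLUniv19.G Sys` for its own normal-form system). -/
def HXiC (g : ℕ) : Prop :=
  ∀ (Qbar : Fin g → Place (kA A) ↥(modularFunctionFieldFullC (kA A) M)) (y : Fin g → kA A)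
    (Qs : Place (kA A) ↥(modularFunctionFieldFullC (kA A) M)) (ys : kA A)
    (_ : ∀ i, Good T (Qbar i) (teichA hℓ hA (y i)))
    (hDa : ∀ i, Da T (Qbar i) (teichA hℓ hA (y i))),
    Function.Injective Qbar →
    Module.finrank (kA A) (riemannRochSpace (redDiv Qbar)) = 1 →
    Good T Qs (teichA hℓ hA ys) → Da T Qs (teichA hℓ hA ys) → (∀ i, Qs ≠ Qbar i) →
    ∃ f₁ : ℕ, 0 < f₁ ∧ ∀ f : ℕ, f₁ ∣ f → 0 < f →
      EqvHyp T.r (chartOf T Qbar (fun i => teichA hℓ hA (y i)) hDa) ↥(gammaF A ℓ f)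
        (rho (A := A) (M := M) ℓ f) →
      (∀ σ ∈ gammaF A ℓ f, σ ((teichA hℓ hA ys : ↥A) : Qb) = (teichA hℓ hA ys : ↥A)) →
      (∀ (σ : GQ) (hσ : σ ∈ gammaF A ℓ f),
        coeffSemi (kA A) M (psiRes A ⟨σ, gammaF_le_decomposition f hσ⟩) • Qs = Qs) →
      ∃ (Fgl : ℕ → Fin g → MvPolynomial (Fin g ⊕ Fin g) ↥(fixRing A (gammaF A ℓ f)))
        (Inv : ℕ → Fin g → MvPolynomial (Fin g) ↥(fixRing A (gammaF A ℓ f))),
        XiC A.toSubring (J1 T hr hgen)
          (xi T.r (chartOf T Qbar (fun i => teichA hℓ hA (y i)) hDa))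
          ↥(fixRing A (gammaF A ℓ f)) Fgl Inv

variable [IsAlgClosed (kA A)] {xt : ↥(modularFunctionFieldFullC (kA A) M)}
  (hxt : IsGen (kA A) xt)
  (h0 : CoeffChart (F₀ := modularFunctionFieldFull M) T.S0)
  (h1 : CoeffChart (F₀ := modularFunctionFieldFull M) T.S1)

include hxt h0 h1 in
/-- **(H-Xi), `XiIface29` vocabulary.** -/
theorem exists_xiData
    (HLt : LHyp (kA A) ↥(modularFunctionFieldFullC (kA A) M))
    (hRt : ∃ γ : ℤ, ∀ D : Divisor (kA A) ↥(modularFunctionFieldFullC (kA A) M),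
      Divisor.degree D + 1 - γ ≤ (Module.finrank (kA A) (riemannRochSpace D) : ℤ))
    [Infinite (Place (kA A) ↥(modularFunctionFieldFullC (kA A) M))]
    (hbad : {Q : Place (kA A) ↥(modularFunctionFieldFullC (kA A) M) |
      ¬ ∃ c : ↥A, Good T Q c}.Finite)
    {g : ℕ} (hg : g ≤ genusFF (kA A) ↥(modularFunctionFieldFullC (kA A) M))
    (H : RedHyp T.r g) (hXiC : HXiC T hr hgen hℓ hA g) :
    ∃ f₀ : ℕ, 0 < f₀ ∧ ∃ Ξ : JZero M → Fin g → Qb,
      XiIface29.XiData A.toSubring (J1 T hr hgen) Ξ ↥(fixRing A (gammaF A ℓ f₀))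
        ↥(gammaF A ℓ f₀) := by
  obtain ⟨Qbar, y, Qs, ys, hinj, hgood, hl, hgoods, hne⟩ :=
    Fermat.Agent.ES.V19.Points23.exists_good_points T HLt hRt hbad (teichA hℓ hA)
      (resA_teichA hℓ hA) hg
  have hDaAll := Fermat.Agent.ES.V19.DiscDa10.da_all T hxt hr h0
  have hDa : ∀ i, Da T (Qbar i) (teichA hℓ hA (y i)) := fun i => hDaAll _ _ (hgood i)
  have hDas : Da T Qs (teichA hℓ hA ys) := hDaAll _ _ hgoods
  obtain ⟨Ps, hPs⟩ := exists_place_of_da T hDas
  have Hχ : ChartHyp A T.r (chartOf T Qbar (fun i => teichA hℓ hA (y i)) hDa) :=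
    chartHyp T Qbar _ hDa hinj hl Ps fun i h => hne i (by rw [← hPs, h])
  obtain ⟨f₀, hf₀, Hf⟩ := exists_eqvHyp hℓ hA T hxt h0 h1 HLt hRt Qbar y hDa
    (fun _ : Unit => Qs) (fun _ => ys)
  obtain ⟨f₁, hf₁, hC1⟩ := hXiC Qbar y Qs ys hgood hDa hinj hl hgoods hDas hne
  obtain ⟨hG, hcs, hQs⟩ := Hf (f₀ * f₁) (dvd_mul_right f₀ f₁)
  obtain ⟨Fgl, Inv, hC⟩ := hC1 (f₀ * f₁) (dvd_mul_left f₁ f₀) (Nat.mul_pos hf₀ hf₁) hG
    (fun σ hσ => hcs σ hσ ()) (fun σ hσ => hQs σ hσ ())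
  exact ⟨f₀ * f₁, Nat.mul_pos hf₀ hf₁, _, Fermat.Agent.ES.V19.XiLit5.xiData_of_xiC H Hχ hG
    (Fermat.Agent.ES.V19.ChartDataInst21.j1Spec T hr hgen) hC⟩

include hxt h0 h1 in
/-- **(H-Xi), `Assemble11` vocabulary** (the `hxi` of `FunnelData11.exists_funnel_data`). -/
theorem exists_assemble
    (HLt : LHyp (kA A) ↥(modularFunctionFieldFullC (kA A) M))
    (hRt : ∃ γ : ℤ, ∀ D : Divisor (kA A) ↥(modularFunctionFieldFullC (kA A) M),
      Divisor.degree D + 1 - γ ≤ (Module.finrank (kA A) (riemannRochSpace D) : ℤ))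
    [Infinite (Place (kA A) ↥(modularFunctionFieldFullC (kA A) M))]
    (hbad : {Q : Place (kA A) ↥(modularFunctionFieldFullC (kA A) M) |
      ¬ ∃ c : ↥A, Good T Q c}.Finite)
    {g : ℕ} (hg : g ≤ genusFF (kA A) ↥(modularFunctionFieldFullC (kA A) M))
    (H : RedHyp T.r g) (hXiC : HXiC T hr hgen hℓ hA g) :
    ∃ f₀ : ℕ, 0 < f₀ ∧ ∃ Ξ : JZero M → Fin g → Qb,
      Fermat.Agent.ES.V19.Assemble11.XiData A.toSubring (J1 T hr hgen) Ξ
        ↥(fixRing A (gammaF A ℓ f₀)) ↥(gammaF A ℓ f₀) := by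
  obtain ⟨f₀, hf₀, Ξ, hΞ⟩ := exists_xiData T hr hgen hℓ hA hxt h0 h1 HLt hRt hbad hg H hXiC
  exact ⟨f₀, hf₀, Ξ, Fermat.Agent.ES.V19.XiDataBridge23.assemble_of_iface hΞ⟩

end Fermat.Agent.ES.V19.XiInst29
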