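/-
Programme V (S19), join step J4 (helper5): **helper29's `XiIface29.RedHyp r g` from main**.

* `exists_ne_zero_mem_L` : char-0 Riemann–Roch on main (`RR.RRMain.riemann_roch`): in a function field `F / K`
  with generator (`IsGen K x`), `K` algebraically closed of characteristic zero, `genusFF K F ≤ g ≤ deg D`
  ⇒ `L(D) ≠ 0`;
* `redHyp` : `RedHyp r g` for any `r` whose push-forward preserves principal divisors;
* `redHyp_of_isPlaceReductionAlong` : the Prelude form — `r` a place reduction
  (`ModularCurve.IsPlaceReductionAlong A π N r`) with `PrincipalGeneratedByIntegral A π N`.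
-/
import Mathlib
import Fermat.Prelude.Def_ModularCurve_ReductionModL
import Fermat.Agent.RR.RRMain
import Fermat.Agent.RR.LHypGen
import Fermat.Agent.ES.V19.XiIface29

set_option autoImplicit false

open AlgebraicCurve

noncomputable section

namespace Fermat.Agent.ES.V19.XiRedHyp5

open Fermat.Agent.X0.FF Fermat.Agent.RR.LSpace Fermat.Agent.ES.V19.XiIface29

section RR

variable {K F : Type*} [Field K] [Field F] [Algebra K F] [IsAlgClosed K] [CharZero K] {x : F}
  [HasCanonicalDivisor (K := K) (F := F)]

/-- **Riemann–Roch, existence form**: a divisor of degree at least `g ≥ genus` has a nonzero section. -/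
theorem exists_ne_zero_mem_L (hx : IsGen K x) {g : ℕ} (hg : genusFF K F ≤ g) (D : Divisor K F)
    (hD : (g : ℤ) ≤ Divisor.degree D) : ∃ f : F, f ≠ 0 ∧ f ∈ riemannRochSpace D := by
  have hω := D_ne_zero hx
  have hW := fun v => canonicalDivisorOf_apply (K := K) (F := F) hω v
  have h := Fermat.Agent.RR.RRMain.riemann_roch hx hω hW D
  have hfin : FiniteDimensional K (riemannRochSpace D) :=
    Fermat.Agent.RR.RRMain.finiteDimensional_L hx D
  have hpos : 0 < Module.finrank K (riemannRochSpace D) := by
    have h1 : (0 : ℤ) ≤ Module.finrank K (riemannRochSpace (canonicalDivisorOf hω - D)) :=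
      Int.natCast_nonneg _
    have hg' : (genusFF K F : ℤ) ≤ g := by exact_mod_cast hg
    omega
  obtain ⟨⟨f, hf⟩, hne⟩ := Module.finrank_pos_iff_exists_ne_zero.mp hpos
  exact ⟨f, fun h0 => hne (Subtype.ext h0), hf⟩

variable {k Ft : Type*} [Field k] [Field Ft] [Algebra k Ft]

/-- `RedHyp r g` from main, for any `r` whose push-forward preserves principal divisors. -/
theorem redHyp (hx : IsGen K x) (r : Place K F → Place k Ft)
    (hprin : ∀ D : Divisor K F, D ∈ Divisor.principal (K := K) (F := F) →
      Finsupp.mapDomain r D ∈ Divisor.principal (K := k) (F := Ft))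
    {g : ℕ} (hg : genusFF K F ≤ g) : RedHyp r g where
  lhyp := Fermat.Agent.RR.LHypGen.lHyp_of_isGen hx
  riemann := exists_ne_zero_mem_L hx hg
  principal := hprin

end RR

section Prelude

open ModularCurve HahnSeries

variable {L : Type*} [Field L] [Algebra ℚ L] [IsAlgClosed L] [CharZero L]
  {A : ValuationSubring L} {k : Type*} [Field k] {π : ↥A →+* k} {N : ℕ}
  {r : Place L ↥(laurentBaseChange L (modularFunctionFieldFull N)) →
    Place k ↥(modularFunctionFieldFullC k N)}
  {x : ↥(laurentBaseChange L (modularFunctionFieldFull N))}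
  [HasCanonicalDivisor (K := L) (F := ↥(laurentBaseChange L (modularFunctionFieldFull N)))]

/-- `RedHyp r g` for a place reduction of the Prelude. -/
theorem redHyp_of_isPlaceReductionAlong (hx : IsGen L x) (hr : IsPlaceReductionAlong A π N r)
    (hgen : PrincipalGeneratedByIntegral A π N) {g : ℕ}
    (hg : genusFF L ↥(laurentBaseChange L (modularFunctionFieldFull N)) ≤ g) : RedHyp r g :=
  redHyp hx r (fun _ hD => hr.mapDomain_mem_principal hgen hD) hg

end Prelude

end Fermat.Agent.ES.V19.XiRedHyp5
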