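/-
Programme V (S19), FINAL JOIN step (G2), final section, helper29: **`HgeoAsm21.XiInput` — the ONE
remaining input of the frozen S19 — from the two open chapter exits**, at helper3's instance names
(`InstNames3.TV`, `hrV`, `hgenV`, `hS0V`, `hS1V`, `inputs0V`):

* `GenusSF12.GenusLe` : (B1) `genusFF Q̄ F ≤ genusFF k̄ F̃`;
* `XiCInput`          : (G3) `XiInst29.HXiC` at the instance with `g := genusFF Q̄ F`
                        ((Ξc) for every GOOD chart datum and every level fixing it).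

Discharged here: `RedHyp` (`XiRedHyp5.redHyp_of_isPlaceReductionAlong` with main's
`HasCanDivInst.hasCanonicalDivisor'`), `LHyp`/Riemann on the special fibre (`LHypFt13`), the
finiteness of the BAD places and `Infinite (Place …)` (`GoodInst11`, `GoodCofinite16`), and
everything `XiInst29.exists_assemble` discharges.

* `xiInput_of`  : `GenusLe → XiCInput → HgeoAsm21.XiInput`;
* `s19_of`      : the conclusion of the frozen S19 from `GenusLe` and `XiCInput`.
-/
import Mathlib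
import Fermat.Agent.X0.HasCanDivInst
import Fermat.Agent.ES.V19.XiInst29
import Fermat.Agent.ES.V19.XiRedHyp5
import Fermat.Agent.ES.V19.GenusSF12
import Fermat.Agent.ES.V19.HgeoAsm21

set_option autoImplicit false
set_option linter.unusedSectionVars false
set_option synthInstance.maxHeartbeats 400000
set_option maxHeartbeats 1000000

noncomputable section

open AlgebraicCurve ModularCurve IntermediateField

namespace Fermat.Agent.ES.V19.XiInstV29

open Fermat.Agent.X0 Fermat.Agent.X0.FF Fermat.Agent.RED.Interface4 Fermat.Agent.RED.BASE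
  Fermat.Agent.RED.BASE.Hauptmodul12
  Fermat.Agent.ES.RED Fermat.Agent.ES.RED.Contract8 Fermat.Agent.ES.RED.TwoCharts8
  Fermat.Agent.ES.RED.GaloisInst21
  Fermat.Agent.ES.V19.InstNames3 Fermat.Agent.ES.V19.RedKer21
  Fermat.Agent.ES.V19.GammaF16 Fermat.Agent.ES.V19.TraceDescent26
  Fermat.Agent.ES.V19.XiIface29 Fermat.Agent.ES.V19.XiInst29 Fermat.Agent.ES.V19.HgeoAsm21

local notation "Qb" => AlgebraicClosure ℚ

attribute [local instance 5000] HahnSeries.powerSeriesAlgebra SubalgebraClass.toAlgebra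

/-- **(G3), exit literal at the instance**: `XiInst29.HXiC` for `T := InstNames3.TV …` and
`g := genusFF Q̄ F`. -/
def XiCInput : Prop :=
  ∀ (n e M : ℕ) [NeZero n] [NeZero M] (ℓ : ℕ) [Fact ℓ.Prime] (hℓM : ¬ ℓ ∣ M)
    (hb : BaseHyp n e) (hnM : n ∣ M) (A : ValuationSubring Qb) (hA : A.LiesOverPrime ℓ),
    HXiC (TV n e M ℓ hℓM hb hnM A hA) (hrV n e M ℓ hℓM hb hnM A hA) (hgenV M ℓ hℓM A hA)
      (Fact.out : ℓ.Prime) hA (genusFF Qb ↥(modularFunctionFieldBar M))

/-- **(G2)**: the one remaining input of S19 from (B1) and (G3). -/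
theorem xiInput_of (hB1 : Fermat.Agent.ES.V19.GenusSF12.GenusLe) (hG3 : XiCInput) : XiInput := by
  intro n e M _ _ ℓ _ hℓM hb hnM A hA
  have hℓ : ℓ.Prime := Fact.out
  have hS0 := hS0V n e M ℓ hℓM hb hnM A hA
  have hS1 := hS1V n e M ℓ hℓM hb hnM A hA
  have hin := inputs0V n e M ℓ hℓM hb hnM A hA
  have hr := hrV n e M ℓ hℓM hb hnM A hA
  have hg := hgenV M ℓ hℓM A hA
  have : IsAlgClosed (kA A) := isAlgClosed_kA A
  have HL := Fermat.Agent.ES.V19.LHypFt13.lHyp_Ft n e M ℓ hℓM (tMem_of_dvd hb hnM)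
    (tGenBase' hb) A hA hr
  have hR := Fermat.Agent.ES.V19.LHypFt13.riemann_inequality_Ft n e M ℓ hℓM
    (tMem_of_dvd hb hnM) (tGenBase' hb) A hA hr
  have : Infinite (Place (kA A) ↥(modularFunctionFieldFullC (kA A) M)) :=
    Fermat.Agent.ES.V19.GoodCofinite16.infinite_place hin.gent hin.sep
  have hbad := Fermat.Agent.ES.V19.GoodInst11.finite_not_good (TV n e M ℓ hℓM hb hnM A hA)
    hin.gent hin.sep
  have hgen := hB1 n e hb M hnM ℓ hℓ hℓM A hA
  have : HasCanonicalDivisor (K := Qb) (F := ↥(modularFunctionFieldBar M)) :=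
    Fermat.Agent.X0.HasCanDivInst.hasCanonicalDivisor' M
  have H : RedHyp (TV n e M ℓ hℓM hb hnM A hA).r
      (genusFF Qb ↥(modularFunctionFieldBar M)) :=
    Fermat.Agent.ES.V19.XiRedHyp5.redHyp_of_isPlaceReductionAlong (hxV n e M hb hnM) hr hg le_rfl
  obtain ⟨f₀, hf₀, Ξ, hΞ⟩ := exists_assemble (TV n e M ℓ hℓM hb hnM A hA) hr hg hℓ hA
    hin.gent hS0 hS1 HL hR hbad hgen H (hG3 n e M ℓ hℓM hb hnM A hA)
  exact ⟨_, f₀, hf₀, Ξ, hΞ⟩

/-- **the conclusion of the frozen S19 from (B1) and (G3).** -/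
theorem s19_of (hB1 : Fermat.Agent.ES.V19.GenusSF12.GenusLe) (hG3 : XiCInput)
    (p : ℕ) [NeZero p] (ℓ : ℕ) [Fact ℓ.Prime] (hℓp : ¬ ℓ ∣ p) (k : ℕ) :
    ∃ (H : Type) (_ : CommRing H) (_ : HopfAlgebra (GaloisRep.ratLocalizedAt ℓ) H),
      Module.Finite (GaloisRep.ratLocalizedAt ℓ) H ∧ Module.Flat (GaloisRep.ratLocalizedAt ℓ) H ∧
      Coalgebra.IsCocomm (GaloisRep.ratLocalizedAt ℓ) H ∧
      ∃ e : WithConv (H →ₐ[GaloisRep.ratLocalizedAt ℓ] AlgebraicClosure ℚ) ≃
          ↥(Submodule.torsionBy ℤ (JZero p) ((ℓ : ℤ) ^ k)),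
        (∀ f g, e (f * g) = e f + e g) ∧
        ∀ (σ : AlgebraicClosure ℚ ≃ₐ[ℚ] AlgebraicClosure ℚ)
          (f g : WithConv (H →ₐ[GaloisRep.ratLocalizedAt ℓ] AlgebraicClosure ℚ)),
          (∀ h : H, g h = σ (f h)) → ((e g : JZero p)) = σ • (e f : JZero p) :=
  s19_of_xi (xiInput_of hB1 hG3) p ℓ hℓp k

end Fermat.Agent.ES.V19.XiInstV29
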