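/-
Programme V (S19), FINAL JOIN, group G3 (helper9): **helper29's exit literal `XiInstV29.XiCInput` of G3 — PROVED**, at
helper3's instance names (`InstNames3.TV`, `hrV`, `hgenV`, `hS0V`, `hS1V`, `inputs0V`, `hxV`).

`xiCInput : XiInstV29.XiCInput` is `XiCInst9.hXiC` at `T := TV …` with
`hDisc := DiscExitInst3.discExitV …` (J2), `H := XiRedHyp5.redHyp_of_isPlaceReductionAlong …` (char-0 Riemann–Roch),
`HLt`/`hRt := LHypFt13.lHyp_Ft`/`riemann_inequality_Ft` (special fibre), `hxt := (inputs0V …).gent`.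
Consequently (`s19_of_genusLe`) the conclusion of the frozen S19 follows from (B1) `GenusSF12.GenusLe` alone.
-/
import Mathlib
import Fermat.Agent.ES.V19.XiInstV29
import Fermat.Agent.ES.V19.DiscExitInst3
import Fermat.Agent.ES.V19.XiCInst9

set_option autoImplicit false
set_option linter.unusedSectionVars false
set_option synthInstance.maxHeartbeats 400000
set_option maxHeartbeats 1000000

noncomputable section

open AlgebraicCurve ModularCurve IntermediateField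

namespace Fermat.Agent.ES.V19.XiCInputV9

open Fermat.Agent.X0 Fermat.Agent.X0.FF Fermat.Agent.RED.Interface4 Fermat.Agent.RED.BASE
  Fermat.Agent.RED.BASE.Hauptmodul12
  Fermat.Agent.ES.RED Fermat.Agent.ES.RED.Contract8 Fermat.Agent.ES.RED.TwoCharts8
  Fermat.Agent.ES.RED.GaloisInst21
  Fermat.Agent.ES.V19.InstNames3 Fermat.Agent.ES.V19.RedKer21
  Fermat.Agent.ES.V19.GammaF16 Fermat.Agent.ES.V19.TraceDescent26
  Fermat.Agent.ES.V19.XiIface29 Fermat.Agent.ES.V19.XiInst29 Fermat.Agent.ES.V19.HgeoAsm21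
  Fermat.Agent.ES.V19.XiInstV29

attribute [local instance 5000] HahnSeries.powerSeriesAlgebra SubalgebraClass.toAlgebra

/-- **(G3) at the instance: helper29's exit literal.** -/
theorem xiCInput : XiCInput := by
  intro n e M _ _ ℓ _ hℓM hb hnM A hA
  have hℓ : ℓ.Prime := Fact.out
  have hS0 := hS0V n e M ℓ hℓM hb hnM A hA
  have hS1 := hS1V n e M ℓ hℓM hb hnM A hA
  have hin := inputs0V n e M ℓ hℓM hb hnM A hA
  have hr := hrV n e M ℓ hℓM hb hnM A hA
  have hg := hgenV M ℓ hℓM A hA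
  have : IsAlgClosed (kA A) := isAlgClosed_kA A
  have HL := Fermat.Agent.ES.V19.LHypFt13.lHyp_Ft n e M ℓ hℓM (tMem_of_dvd hb hnM)
    (tGenBase' hb) A hA hr
  have hR := Fermat.Agent.ES.V19.LHypFt13.riemann_inequality_Ft n e M ℓ hℓM
    (tMem_of_dvd hb hnM) (tGenBase' hb) A hA hr
  have : HasCanonicalDivisor (K := AlgebraicClosure ℚ) (F := ↥(modularFunctionFieldBar M)) :=
    Fermat.Agent.X0.HasCanDivInst.hasCanonicalDivisor' M
  have H : RedHyp (TV n e M ℓ hℓM hb hnM A hA).r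
      (genusFF (AlgebraicClosure ℚ) ↥(modularFunctionFieldBar M)) :=
    Fermat.Agent.ES.V19.XiRedHyp5.redHyp_of_isPlaceReductionAlong (hxV n e M hb hnM) hr hg le_rfl
  exact Fermat.Agent.ES.V19.XiCInst9.hXiC (TV n e M ℓ hℓM hb hnM A hA) hr hg hℓ hA hℓM hin.gent
    hS0 hS1 HL hR (Fermat.Agent.ES.V19.DiscExitInst3.discExitV n e M ℓ hℓM hb hnM A hA) H

/-- **the conclusion of the frozen S19 from (B1) alone.** -/
theorem s19_of_genusLe (hB1 : Fermat.Agent.ES.V19.GenusSF12.GenusLe)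
    (p : ℕ) [NeZero p] (ℓ : ℕ) [Fact ℓ.Prime] (hℓp : ¬ ℓ ∣ p) (k : ℕ) :
    ∃ (H : Type) (_ : CommRing H) (_ : HopfAlgebra (GaloisRep.ratLocalizedAt ℓ) H),
      Module.Finite (GaloisRep.ratLocalizedAt ℓ) H ∧ Module.Flat (GaloisRep.ratLocalizedAt ℓ) H ∧
      Coalgebra.IsCocomm (GaloisRep.ratLocalizedAt ℓ) H ∧
      ∃ e : WithConv (H →ₐ[GaloisRep.ratLocalizedAt ℓ] AlgebraicClosure ℚ) ≃
          ↥(Submodule.torsionBy ℤ (JZero p) ((ℓ : ℤ) ^ k)),
        (∀ f g, e (f * g) = e f + e g) ∧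
        ∀ (σ : AlgebraicClosure ℚ ≃ₐ[ℚ] AlgebraicClosure ℚ)
          (f g : WithConv (H →ₐ[GaloisRep.ratLocalizedAt ℓ] AlgebraicClosure ℚ)),
          (∀ h : H, g h = σ (f h)) → ((e g : JZero p)) = σ • (e f : JZero p) :=
  s19_of hB1 xiCInput p ℓ hℓp k

end Fermat.Agent.ES.V19.XiCInputV9

end
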