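/-
Programme V (S19), join step J4 "CHART" (helper5): **the chart with Teichmüller centres** (RULING 2).

`A` a valuation subring of `ℚ̄` over `ℓ`, `T : TwoCharts A hx Ft` a two-chart model over `A` (main's
`TwoCharts8` at `L = ℚ̄`), and the exit literal `DiscIface3.DiscExit T G gred` of (B3).

Input (join step J3): `g` DISTINCT places `Qb i` of the special fibre with `l(Qb_1 + … + Qb_g) = 1`, which
are GOOD in the sense that `t̃ - y i` has a simple zero at `Qb i` for some `y i ∈ k̄` (the value `t̃(Qb i)`),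
and one more GOOD place `Qs` different from all the `Qb i`.

* `teichA hℓ hA y : A` : the Teichmüller lift of `y ∈ k̄` as an element of `A` (`Teich16.teich`);
  `resA_teichA`, `teichA_mem_fixRing` (`Γ_f`-invariance when `y ∈ 𝔽_{ℓ^f}`);
* `good_teichA` : `Good T Q (teichA y)` from `ord_Q (t̃ - y) = 1`;
* `exists_chart` : **J4** — there is a chart `χ` with `χ.Qbar = Qb`, coordinates
  `χ.t i = t - teich (y i)` (`= tauSub T (teichA (y i)) 0`), centres `χ.Q i` = the zero of `χ.t i` in the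
  disc of `Qb i`, and `XiIface29.ChartHyp A T.r χ`.
-/
import Mathlib
import Fermat.Agent.ES.V19.XiChartOf5
import Fermat.Agent.ES.V19.Teich16

set_option autoImplicit false

open AlgebraicCurve

noncomputable section

namespace Fermat.Agent.ES.V19.XiChartTeich5

open Fermat.Agent.X0.FF Fermat.Agent.ES.RED.Contract8 Fermat.Agent.ES.RED.TwoCharts8
  Fermat.Agent.ES.V19.OnePlaceRep9 Fermat.Agent.ES.V19.DiscIface3 Fermat.Agent.ES.V19.XiIface29
  Fermat.Agent.ES.V19.XiChartOf5 Fermat.Agent.ES.V19.Teich16 Fermat.Agent.ES.V19.GammaF16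
  Fermat.Agent.ES.V19.TraceDescent26

variable {A : ValuationSubring (AlgebraicClosure ℚ)} {ℓ : ℕ} (hℓ : ℓ.Prime)
  (hA : A.LiesOverPrime ℓ)

/-- the Teichmüller lift as an element of `A`. -/
def teichA (y : kA A) : ↥A := ⟨teich hℓ hA y, teich_mem hℓ hA y⟩

@[simp] theorem coe_teichA (y : kA A) :
    ((teichA hℓ hA y : ↥A) : AlgebraicClosure ℚ) = teich hℓ hA y := rfl

theorem resA_teichA (y : kA A) : resA A (teichA hℓ hA y) = y := residue_teich hℓ hA y

/-- the Teichmüller lift of an element of `𝔽_{ℓ^f}` is `Γ_f`-invariant. -/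
theorem teichA_mem_fixRing {y : kA A} {f : ℕ} (hf : 0 < f) (hy : y ^ (ℓ ^ f) = y) :
    ((teichA hℓ hA y : ↥A) : AlgebraicClosure ℚ) ∈ fixRing A (gammaF A ℓ f) :=
  teich_mem_fixRing hℓ hA hf hy

variable {F : Type*} [Field F] [Algebra (AlgebraicClosure ℚ) F] {x : F}
  {hx : IsGen (AlgebraicClosure ℚ) x} {Ft : Type*} [Field Ft] [Algebra (kA A) Ft]
  (T : TwoCharts A hx Ft)

/-- a place at which `t̃ - y` has a simple zero is GOOD with the Teichmüller centre of `y`. -/
theorem good_teichA (Q : Place (kA A) Ft) (y : kA A)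
    (h : Q.ord (T.S0.red T.S0.sB - algebraMap (kA A) Ft y) = 1) :
    Good T Q (teichA hℓ hA y) :=
  good_of_ord T Q _ y (resA_teichA hℓ hA y) h

/-- **J4: the chart with Teichmüller centres.** -/
theorem exists_chart (G : Subring F) (gred : ↥G →+* Ft) (hDisc : DiscExit T G gred) {g : ℕ}
    (Qb : Fin g → Place (kA A) Ft) (hinj : Function.Injective Qb)
    (hl : Module.finrank (kA A) (riemannRochSpace (redDiv Qb)) = 1)
    (y : Fin g → kA A)
    (hy : ∀ i, (Qb i).ord (T.S0.red T.S0.sB - algebraMap (kA A) Ft (y i)) = 1)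
    (Qs : Place (kA A) Ft) (ys : kA A)
    (hys : Qs.ord (T.S0.red T.S0.sB - algebraMap (kA A) Ft ys) = 1)
    (hQs : ∀ i, Qs ≠ Qb i) :
    ∃ χ : Chart (AlgebraicClosure ℚ) F (kA A) Ft g, χ.Qbar = Qb ∧
      (∀ i, χ.t i = tauSub T (teichA hℓ hA (y i)) 0) ∧
      (∀ i, Da T (Qb i) (teichA hℓ hA (y i))) ∧ ChartHyp A T.r χ := by
  have hDa : ∀ i, Da T (Qb i) (teichA hℓ hA (y i)) := fun i =>
    (hDisc (Qb i) (teichA hℓ hA (y i)) (good_teichA hℓ hA T (Qb i) (y i) (hy i))).1
  have hDas : Da T Qs (teichA hℓ hA ys) :=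
    (hDisc Qs (teichA hℓ hA ys) (good_teichA hℓ hA T Qs ys hys)).1
  obtain ⟨Ps, hPs⟩ := exists_place_of_da T hDas
  refine ⟨chartOf T Qb (fun i => teichA hℓ hA (y i)) hDa, rfl, fun i => rfl, hDa,
    chartHyp T Qb _ hDa hinj hl Ps fun i h => hQs i ?_⟩
  rw [← hPs, h]

end Fermat.Agent.ES.V19.XiChartTeich5
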