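/-
Programme V (S19), chapter B5, brick (Ξa), ABSTRACT PART (helper5):
**the unique effective divisor `D_y = P_1 + … + P_g` in the class `y + E₀`, one point in each residue disc**.

Setting: two function fields `F / K` (generic fibre) and `Ft / k` (special fibre) with the Prelude's places,
`HL : LSpace.LHyp K F`, a map on places `r : Place K F → Place k Ft` and `g` DISTINCT places
`Qb : Fin g → Place k Ft` of the special fibre (`Ē₀ = redDiv Qb`, helper9's `OnePlaceRep9.redDiv`).

Hypotheses (each is a literal of another chapter, see the route):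
* `hriem` (char-0 RR on main): `g ≤ deg D ⇒ L(D) ≠ 0`;
* `hprin` ((r1) + `PrincipalGeneratedByIntegral`, Prelude `IsPlaceReductionAlong.mapDomain_mem_principal`):
  `r_*` maps principal divisors to principal divisors;
* `hlE` ((B2) `l(Ē₀) = 1`): every element of `L(Ē₀)` is a constant;
* `hlD` ((La)/(Lb), sup trick): for every `P : Fin g → Place K F` with `r (P i) = Qb i`, every element of
  `L(P_1 + … + P_g)` is a constant.

Results, for `Q : Fin g → Place K F` with `r (Q i) = Qb i` (`E₀ = redDiv Q`) and a divisor `D₀` of degree `0`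
with `r_* D₀` principal (i.e. `[D₀] ∈ J¹ = ker red`):
* `mapDomain_eq_redDiv` : an effective `D` with `D - E₀ - D₀` principal has `r_* D = Ē₀`;
* `exists_eq_redDiv`    : an effective `D` with `r_* D = Ē₀` is `redDiv P` with `r (P i) = Qb i`;
* `exists_effective`    : there is an effective `D` with `D - E₀ - D₀` principal (RR);
* `effective_unique`    : it is unique;
* `existsUnique_points` : **(Ξa)** `∃! P : Fin g → Place K F, (∀ i, r (P i) = Qb i) ∧ redDiv P - E₀ - D₀` principal;
* `eq_redDiv_points`    : every effective `D` in the class is `redDiv P` for that `P`;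
* `points_zero`         : for `D₀ = 0` the points are the `Q i`.
-/
import Mathlib
import Fermat.Prelude.Def_AlgebraicCurve_Repartitions
import Fermat.Agent.RR.LSpace
import Fermat.Agent.ES.V19.OnePlaceRep9
import Fermat.Agent.ES.V19.DiscZero10

set_option autoImplicit false

open AlgebraicCurve

noncomputable section

namespace Fermat.Agent.ES.V19.XiExist5

open Fermat.Agent.X0.FF Fermat.Agent.RR.LSpace Fermat.Agent.ES.V19.OnePlaceRep9
  Fermat.Agent.ES.V19.DiscZero10

variable {K F k Ft : Type*} [Field K] [Field F] [Algebra K F] [Field k] [Field Ft] [Algebra k Ft]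

/-! ### Generalities on `r_*` -/

/-- `r_*` of an effective divisor is effective. -/
theorem mapDomain_nonneg (r : Place K F → Place k Ft) {D : Divisor K F} (hD : 0 ≤ D) :
    0 ≤ Finsupp.mapDomain r D := by
  intro Q
  rw [mapDomain_apply_eq_sum]
  exact Finset.sum_nonneg fun P _ => hD P

/-- `r_* (P_1 + … + P_n) = r P_1 + … + r P_n`. -/
theorem mapDomain_redDiv (r : Place K F → Place k Ft) {n : ℕ} (P : Fin n → Place K F) :
    Finsupp.mapDomain r (redDiv P) = redDiv (fun i => r (P i)) := by
  rw [redDiv, redDiv, Finsupp.mapDomain_finsetSum]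
  exact Finset.sum_congr rfl fun i _ => Finsupp.mapDomain_single

/-- a reduced divisor does not vanish exactly at its points. -/
theorem exists_eq_of_redDiv_ne_zero {n : ℕ} {P : Fin n → Place K F} {v : Place K F}
    (hv : redDiv P v ≠ 0) : ∃ i, P i = v := by
  by_contra h
  push Not at h
  exact hv (redDiv_apply_of_not_mem h)

/-- the points of a reduced divisor of distinct points lying over distinct places are determined by it. -/
theorem eq_of_redDiv_eq (r : Place K F → Place k Ft) {n : ℕ} {Qb : Fin n → Place k Ft}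
    (hQb : Function.Injective Qb) {P P' : Fin n → Place K F} (hP : ∀ i, r (P i) = Qb i)
    (hP' : ∀ i, r (P' i) = Qb i) (h : redDiv P = redDiv P') : P = P' := by
  have hinj' : Function.Injective P' := fun i j hij => hQb (by rw [← hP' i, ← hP' j, hij])
  funext i
  have h1 : redDiv P (P' i) ≠ 0 := by
    rw [h, redDiv_apply_self hinj' i]
    exact one_ne_zero
  obtain ⟨j, hj⟩ := exists_eq_of_redDiv_ne_zero h1
  have hji : j = i := hQb (by rw [← hP j, hj, hP' i])
  rw [← hji, hj, hji]

/-! ### The reduction of an effective divisor of the class -/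

section Reduction

variable (r : Place K F → Place k Ft)
  (hprin : ∀ D ∈ Divisor.principal (K := K) (F := F),
    Finsupp.mapDomain r D ∈ Divisor.principal (K := k) (F := Ft))
  {g : ℕ} {Qb : Fin g → Place k Ft}
  (hlE : ∀ h : Ft, h ∈ riemannRochSpace (redDiv Qb) → ∃ c : k, h = algebraMap k Ft c)

include hprin hlE in
/-- an effective divisor `D` with `D - E₀ - D₀` principal, `[D₀] ∈ ker red`, reduces to `Ē₀`. -/
theorem mapDomain_eq_redDiv {Q : Fin g → Place K F} (hQ : ∀ i, r (Q i) = Qb i)
    {D₀ D : Divisor K F}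
    (hD₀ : Finsupp.mapDomain r D₀ ∈ Divisor.principal (K := k) (F := Ft))
    (hD : 0 ≤ D) (hDp : D - redDiv Q - D₀ ∈ Divisor.principal (K := K) (F := F)) :
    Finsupp.mapDomain r D = redDiv Qb := by
  have h1 := AddSubgroup.add_mem _ (hprin _ hDp) hD₀
  rw [Finsupp.mapDomain_sub, Finsupp.mapDomain_sub, sub_add_cancel, mapDomain_redDiv] at h1
  have hQ' : (fun i => r (Q i)) = Qb := funext hQ
  rw [hQ'] at h1
  obtain ⟨h, hh0, hh⟩ := h1
  have hnn := mapDomain_nonneg r hD
  have hmem : h ∈ riemannRochSpace (redDiv Qb) := by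
    rw [mem_L_iff hh0]
    intro v
    have h2 := hh v
    rw [Finsupp.sub_apply] at h2
    have h3 : (0 : ℤ) ≤ Finsupp.mapDomain r D v := hnn v
    omega
  obtain ⟨c, hc⟩ := hlE h hmem
  ext v
  have h2 := hh v
  rw [Finsupp.sub_apply, hc, ffp_ord_algebraMap] at h2
  omega

end Reduction

/-! ### The shape of an effective divisor reducing to `Ē₀` -/

/-- an effective divisor reducing to the reduced divisor `Ē₀` of distinct points is reduced, with exactly one
point in each disc. -/
theorem exists_eq_redDiv (r : Place K F → Place k Ft) {g : ℕ} {Qb : Fin g → Place k Ft}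
    (hQb : Function.Injective Qb) {D : Divisor K F} (hD : 0 ≤ D)
    (hr : Finsupp.mapDomain r D = redDiv Qb) :
    ∃ P : Fin g → Place K F, (∀ i, r (P i) = Qb i) ∧ D = redDiv P := by
  classical
  have hnn : ∀ (Q : Place k Ft) (P : Place K F), r P = Q → 0 ≤ D P := fun _ P _ => hD P
  have h1 : ∀ i, Finsupp.mapDomain r D (Qb i) = 1 := fun i => by
    rw [hr, redDiv_apply_self hQb i]
  have hex : ∀ i, ∃ P, r P = Qb i ∧ 0 < D P := fun i =>
    (existsUnique_pos_of_mapDomain_eq_one r D (Qb i) (h1 i) (hnn _)).exists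
  choose P hP using hex
  have hPr : ∀ i, r (P i) = Qb i := fun i => (hP i).1
  have hPinj : Function.Injective P := fun i j hij => hQb (by rw [← hPr i, ← hPr j, hij])
  refine ⟨P, hPr, ?_⟩
  ext v
  by_cases hv : ∃ i, P i = v
  · obtain ⟨i, rfl⟩ := hv
    rw [redDiv_apply_self hPinj i]
    exact eq_one_of_mapDomain_eq_one r D (Qb i) (h1 i) (hnn _) (hPr i) (hP i).2
  · push Not at hv
    rw [redDiv_apply_of_not_mem hv]
    by_contra hne
    have hpos : 0 < D v := lt_of_le_of_ne (hD v) (Ne.symm hne)
    -- `r v` is one of the `Qb i`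
    have h2 : Finsupp.mapDomain r D (r v) ≠ 0 := by
      rw [mapDomain_apply_eq_sum]
      have hmem : v ∈ D.support.filter (fun P => r P = r v) := by
        rw [Finset.mem_filter, Finsupp.mem_support_iff]
        exact ⟨hne, rfl⟩
      have hle : D v ≤ ∑ P ∈ D.support.filter (fun P => r P = r v), D P :=
        Finset.single_le_sum (f := fun P => D P) (fun P _ => hD P) hmem
      omega
    rw [hr] at h2
    obtain ⟨i, hi⟩ := exists_eq_of_redDiv_ne_zero h2
    obtain ⟨P₀, _, huniq⟩ := existsUnique_pos_of_mapDomain_eq_one r D (Qb i) (h1 i) (hnn _)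
    have e1 : v = P₀ := huniq v ⟨hi.symm, hpos⟩
    have e2 : P i = P₀ := huniq (P i) (hP i)
    exact hv i (e2.trans e1.symm)

/-! ### Existence and uniqueness -/

section Main

variable (HL : LHyp K F) (r : Place K F → Place k Ft) {g : ℕ}
  (hriem : ∀ D : Divisor K F, (g : ℤ) ≤ Divisor.degree D →
    ∃ f : F, f ≠ 0 ∧ f ∈ riemannRochSpace D)

include HL hriem in
/-- RR: the class `[D₀] + E₀` (degree `g`) contains an effective divisor. -/
theorem exists_effective (Q : Fin g → Place K F) {D₀ : Divisor K F}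
    (hdeg : Divisor.degree D₀ = 0) :
    ∃ D : Divisor K F, 0 ≤ D ∧ D - redDiv Q - D₀ ∈ Divisor.principal (K := K) (F := F) := by
  have hd : (g : ℤ) ≤ Divisor.degree (D₀ + redDiv Q) := by
    rw [map_add, hdeg, degree_redDiv HL, zero_add]
  obtain ⟨f, hf0, hf⟩ := hriem _ hd
  refine ⟨divOf HL hf0 + (D₀ + redDiv Q), ?_, ?_⟩
  · intro v
    have h1 := (mem_L_iff hf0).mp hf v
    rw [Finsupp.add_apply, divOf_apply]
    show (0 : ℤ) ≤ _
    omega
  · have e : divOf HL hf0 + (D₀ + redDiv Q) - redDiv Q - D₀ = divOf HL hf0 := by abel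
    rw [e]
    exact ⟨f, hf0, fun v => divOf_apply HL hf0 v⟩

variable {Qb : Fin g → Place k Ft}
  (hlD : ∀ P : Fin g → Place K F, (∀ i, r (P i) = Qb i) →
    ∀ f : F, f ∈ riemannRochSpace (redDiv P) → ∃ c : K, f = algebraMap K F c)

include hlD in
/-- two effective divisors of the class, one of which is `redDiv P` with `r (P i) = Qb i`, are equal. -/
theorem eq_of_sub_mem_principal {P : Fin g → Place K F} (hP : ∀ i, r (P i) = Qb i)
    {D : Divisor K F} (hD : 0 ≤ D)
    (h : D - redDiv P ∈ Divisor.principal (K := K) (F := F)) : D = redDiv P := by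
  obtain ⟨f, hf0, hf⟩ := h
  have hmem : f ∈ riemannRochSpace (redDiv P) := by
    rw [mem_L_iff hf0]
    intro v
    have h2 := hf v
    rw [Finsupp.sub_apply] at h2
    have h3 : (0 : ℤ) ≤ D v := hD v
    omega
  obtain ⟨c, hc⟩ := hlD P hP f hmem
  ext v
  have h2 := hf v
  rw [Finsupp.sub_apply, hc, ffp_ord_algebraMap] at h2
  omega

variable (hprin : ∀ D ∈ Divisor.principal (K := K) (F := F),
    Finsupp.mapDomain r D ∈ Divisor.principal (K := k) (F := Ft))
  (hQb : Function.Injective Qb)
  (hlE : ∀ h : Ft, h ∈ riemannRochSpace (redDiv Qb) → ∃ c : k, h = algebraMap k Ft c)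

include hprin hQb hlE in
/-- every effective divisor of the class is `redDiv P` with one point in each disc. -/
theorem exists_points_of_effective {Q : Fin g → Place K F} (hQ : ∀ i, r (Q i) = Qb i)
    {D₀ D : Divisor K F}
    (hD₀ : Finsupp.mapDomain r D₀ ∈ Divisor.principal (K := k) (F := Ft))
    (hD : 0 ≤ D) (hDp : D - redDiv Q - D₀ ∈ Divisor.principal (K := K) (F := F)) :
    ∃ P : Fin g → Place K F, (∀ i, r (P i) = Qb i) ∧ D = redDiv P :=
  exists_eq_redDiv r hQb hD (mapDomain_eq_redDiv r hprin hlE hQ hD₀ hD hDp)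

include hlD hprin hQb hlE in
/-- uniqueness of the effective divisor of the class. -/
theorem effective_unique {Q : Fin g → Place K F} (hQ : ∀ i, r (Q i) = Qb i)
    {D₀ D D' : Divisor K F}
    (hD₀ : Finsupp.mapDomain r D₀ ∈ Divisor.principal (K := k) (F := Ft))
    (hD : 0 ≤ D) (hDp : D - redDiv Q - D₀ ∈ Divisor.principal (K := K) (F := F))
    (hD' : 0 ≤ D') (hDp' : D' - redDiv Q - D₀ ∈ Divisor.principal (K := K) (F := F)) :
    D = D' := by
  obtain ⟨P', hP', rfl⟩ := exists_points_of_effective r hprin hQb hlE hQ hD₀ hD' hDp'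
  apply eq_of_sub_mem_principal r hlD hP' hD
  have e : D - redDiv P' = (D - redDiv Q - D₀) - (redDiv P' - redDiv Q - D₀) := by abel
  rw [e]
  exact AddSubgroup.sub_mem _ hDp hDp'

include HL hriem hlD hprin hQb hlE in
/-- **(Ξa)**: for `[D₀] ∈ J¹` there is exactly one family of points `P i ∈ disc (Qb i)` with
`P_1 + … + P_g - E₀ ∼ D₀`. -/
theorem existsUnique_points {Q : Fin g → Place K F} (hQ : ∀ i, r (Q i) = Qb i)
    {D₀ : Divisor K F} (hdeg : Divisor.degree D₀ = 0)
    (hD₀ : Finsupp.mapDomain r D₀ ∈ Divisor.principal (K := k) (F := Ft)) :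
    ∃! P : Fin g → Place K F, (∀ i, r (P i) = Qb i) ∧
      redDiv P - redDiv Q - D₀ ∈ Divisor.principal (K := K) (F := F) := by
  obtain ⟨D, hD, hDp⟩ := exists_effective HL hriem Q hdeg
  obtain ⟨P, hP, rfl⟩ := exists_points_of_effective r hprin hQb hlE hQ hD₀ hD hDp
  refine ⟨P, ⟨hP, hDp⟩, ?_⟩
  rintro P' ⟨hP', hDp'⟩
  exact eq_of_redDiv_eq r hQb hP' hP
    (effective_unique r hlD hprin hQb hlE hQ hD₀ (redDiv_nonneg P') hDp' hD hDp)

include hlD hprin hQb hlE in
/-- every effective divisor of the class is `redDiv P` for the points `P` of `existsUnique_points`. -/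
theorem eq_redDiv_points {Q : Fin g → Place K F} (hQ : ∀ i, r (Q i) = Qb i)
    {D₀ D : Divisor K F}
    (hD₀ : Finsupp.mapDomain r D₀ ∈ Divisor.principal (K := k) (F := Ft))
    (hD : 0 ≤ D) (hDp : D - redDiv Q - D₀ ∈ Divisor.principal (K := K) (F := F))
    {P : Fin g → Place K F} (_hP : ∀ i, r (P i) = Qb i)
    (hPp : redDiv P - redDiv Q - D₀ ∈ Divisor.principal (K := K) (F := F)) :
    D = redDiv P :=
  effective_unique r hlD hprin hQb hlE hQ hD₀ hD hDp (redDiv_nonneg P) hPp

include hlD hprin hQb hlE in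
/-- **(Ξb), `Ξ 0 = 0`**: the points of the zero class are the `Q i`. -/
theorem points_zero {Q : Fin g → Place K F} (hQ : ∀ i, r (Q i) = Qb i)
    {P : Fin g → Place K F} (hP : ∀ i, r (P i) = Qb i)
    (hPp : redDiv P - redDiv Q - 0 ∈ Divisor.principal (K := K) (F := F)) : P = Q := by
  have h0 : Finsupp.mapDomain r (0 : Divisor K F) ∈ Divisor.principal (K := k) (F := Ft) := by
    rw [Finsupp.mapDomain_zero]
    exact AddSubgroup.zero_mem _
  have hQp : redDiv Q - redDiv Q - 0 ∈ Divisor.principal (K := K) (F := F) := by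
    rw [sub_self, sub_zero]
    exact AddSubgroup.zero_mem _
  exact eq_of_redDiv_eq r hQb hP hQ
    (effective_unique r hlD hprin hQb hlE hQ h0 (redDiv_nonneg P) hPp (redDiv_nonneg Q) hQp)

end Main

end Fermat.Agent.ES.V19.XiExist5
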