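/-
Programme V (S19), join step (J7), helper29: **the level `f₀` of the chart data**, and `EqvHyp` for
all `Γ_f`, `f₀ ∣ f`.

For finitely many places `Q_j` of the special fibre `F̃_M` and residues `y_j ∈ k̄`:
* `exists_level` : `∃ f₀ > 0, ∀ f, f₀ ∣ f →` every `σ ∈ Γ_f` fixes the Teichmüller lifts
  `teichA y_j` and its residual action fixes the places `Q_j`
  (`PlaceStabInst29.exists_gammaF_fixes_places`, `Teich16.teich_mem_fixRing`, `gammaF_anti`);
* `exists_eqvHyp` : for helper5's Teichmüller chart `chartOf T Qb (teichA ∘ y) hDa`: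
  `∃ f₀ > 0, ∀ f, f₀ ∣ f → EqvHyp T.r χ ↥(gammaF A ℓ f) (rho ℓ f)`; the same `f₀` also fixes an
  auxiliary family of places and residues (the place `Q̄_⋆` of (B4′)).
-/
import Mathlib
import Fermat.Agent.ES.V19.XiEqvInst29
import Fermat.Agent.ES.V19.PlaceStabInst29
import Fermat.Agent.ES.V19.XiChartTeich5

set_option autoImplicit false
set_option linter.unusedSectionVars false
set_option synthInstance.maxHeartbeats 400000
set_option maxHeartbeats 1000000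

noncomputable section

open AlgebraicCurve ModularCurve

namespace Fermat.Agent.ES.V19.XiLevel29

open Fermat.Agent.X0.FF Fermat.Agent.RR.LSpace Fermat.Agent.ES.RED.Contract8
  Fermat.Agent.ES.RED.TwoCharts8 Fermat.Agent.ES.RED.GaloisRed21 Fermat.Agent.ES.RED.GaloisInst21
  Fermat.Agent.ES.KRON.FrobPlace13 Fermat.Agent.ES.V19.GammaF16 Fermat.Agent.ES.V19.DiscIface3
  Fermat.Agent.ES.V19.XiIface29 Fermat.Agent.ES.V19.XiChartOf5 Fermat.Agent.ES.V19.XiChartTeich5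
  Fermat.Agent.ES.V19.XiEqvInst29 Fermat.Agent.ES.V19.PlaceStab29
  Fermat.Agent.ES.V19.PlaceStabInst29 Fermat.Agent.ES.V19.TraceDescent26

attribute [local instance 5000] HahnSeries.powerSeriesAlgebra SubalgebraClass.toAlgebra

local notation "Qb" => AlgebraicClosure ℚ
local notation "GQ" => (AlgebraicClosure ℚ ≃ₐ[ℚ] AlgebraicClosure ℚ)

variable {A : ValuationSubring Qb} {ℓ : ℕ} (hℓ : ℓ.Prime) (hA : A.LiesOverPrime ℓ)
  (M : ℕ) [NeZero M]

/-- **The level of finitely many places and residues.** -/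
theorem exists_level
    (HL : LHyp (kA A) ↥(modularFunctionFieldFullC (kA A) M))
    (hR : ∃ γ : ℤ, ∀ D : Divisor (kA A) ↥(modularFunctionFieldFullC (kA A) M),
      Divisor.degree D + 1 - γ ≤ (Module.finrank (kA A) (riemannRochSpace D) : ℤ))
    {ι : Type*} [Finite ι] (Q : ι → Place (kA A) ↥(modularFunctionFieldFullC (kA A) M))
    (y : ι → kA A) :
    ∃ f₀ : ℕ, 0 < f₀ ∧ ∀ f : ℕ, f₀ ∣ f →
      (∀ σ ∈ gammaF A ℓ f, ∀ j, σ ((teichA hℓ hA (y j) : ↥A) : Qb) = (teichA hℓ hA (y j) : ↥A)) ∧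
      ∀ (σ : GQ) (hσ : σ ∈ gammaF A ℓ f) (j : ι),
        coeffSemi (kA A) M (psiRes A ⟨σ, gammaF_le_decomposition f hσ⟩) • Q j = Q j := by
  classical
  have := Fintype.ofFinite ι
  obtain ⟨f₁, hf₁, hQ⟩ := exists_gammaF_fixes_places (ℓ := ℓ) M hℓ hA HL hR Q
  choose fy hfy hy using fun j => Fermat.Agent.ES.V19.Teich16.exists_pow_card_eq hℓ hA (y j)
  refine ⟨f₁ * ∏ j, fy j, Nat.mul_pos hf₁ (Finset.prod_pos fun j _ => hfy j), fun f hf => ?_⟩
  have h1 : f₁ ∣ f := (dvd_mul_right _ _).trans hf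
  have h2 : ∀ j, fy j ∣ f := fun j =>
    ((Finset.dvd_prod_of_mem fy (Finset.mem_univ j)).trans (dvd_mul_left _ _)).trans hf
  refine ⟨fun σ hσ j => ?_, fun σ hσ j => ?_⟩
  · have hmem := teichA_mem_fixRing hℓ hA (hfy j) (hy j)
    exact hmem.2 σ (gammaF_anti (h2 j) hσ)
  · exact hQ σ (gammaF_anti h1 hσ) j

variable {M}
variable {x : ↥(laurentBaseChange Qb (modularFunctionFieldFull M))} {hx : IsGen Qb x}
  (T : TwoCharts A hx ↥(modularFunctionFieldFullC (kA A) M))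
  [IsAlgClosed (kA A)] {xt : ↥(modularFunctionFieldFullC (kA A) M)}
  (hxt : IsGen (kA A) xt)
  (h0 : CoeffChart (F₀ := modularFunctionFieldFull M) T.S0)
  (h1 : CoeffChart (F₀ := modularFunctionFieldFull M) T.S1)

include hxt h0 h1 in
/-- **(J7)** `EqvHyp` for the Teichmüller chart and all `Γ_f`, `f₀ ∣ f`; the same level fixes an
auxiliary finite family of places and residues. -/
theorem exists_eqvHyp
    (HL : LHyp (kA A) ↥(modularFunctionFieldFullC (kA A) M))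
    (hR : ∃ γ : ℤ, ∀ D : Divisor (kA A) ↥(modularFunctionFieldFullC (kA A) M),
      Divisor.degree D + 1 - γ ≤ (Module.finrank (kA A) (riemannRochSpace D) : ℤ))
    {g : ℕ} (Qbar : Fin g → Place (kA A) ↥(modularFunctionFieldFullC (kA A) M))
    (y : Fin g → kA A) (hDa : ∀ i, Da T (Qbar i) (teichA hℓ hA (y i)))
    {ι : Type*} [Finite ι] (Q' : ι → Place (kA A) ↥(modularFunctionFieldFullC (kA A) M))
    (y' : ι → kA A) :
    ∃ f₀ : ℕ, 0 < f₀ ∧ ∀ f : ℕ, f₀ ∣ f →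
      EqvHyp T.r (chartOf T Qbar (fun i => teichA hℓ hA (y i)) hDa) ↥(gammaF A ℓ f)
          (rho (A := A) (M := M) ℓ f) ∧
        (∀ σ ∈ gammaF A ℓ f, ∀ j,
          σ ((teichA hℓ hA (y' j) : ↥A) : Qb) = (teichA hℓ hA (y' j) : ↥A)) ∧
        ∀ (σ : GQ) (hσ : σ ∈ gammaF A ℓ f) (j : ι),
          coeffSemi (kA A) M (psiRes A ⟨σ, gammaF_le_decomposition f hσ⟩) • Q' j = Q' j := by
  obtain ⟨f₁, hf₁, H₁⟩ := exists_level hℓ hA M HL hR Qbar y
  obtain ⟨f₂, hf₂, H₂⟩ := exists_level hℓ hA M HL hR Q' y'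
  refine ⟨f₁ * f₂, Nat.mul_pos hf₁ hf₂, fun f hf => ?_⟩
  obtain ⟨hc, hQ⟩ := H₁ f ((dvd_mul_right _ _).trans hf)
  obtain ⟨hc', hQ'⟩ := H₂ f ((dvd_mul_left _ _).trans hf)
  exact ⟨eqvHyp T hxt h0 h1 Qbar _ hDa hc hQ, hc', hQ'⟩

end Fermat.Agent.ES.V19.XiLevel29
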