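/-
Programme V (S19), chapter B5, brick (Ξa) at the level of `Pic⁰` (helper5):
**the points `pts y : Fin g → Place K F` of a class `y` of the kernel of reduction `J1`**.

Abstract setting of `XiExist5` (`r : Place K F → Place k Ft`, `Qb : Fin g → Place k Ft` distinct places of the
special fibre, `Q : Fin g → Place K F` with `r (Q i) = Qb i`, `E₀ = redDiv Q`), bundled as `ChartCtx`, plus a
subgroup `J1 ≤ Pic0 K F` with the single property
`mem_J1 : Pic0.mk D ∈ J1 ↔ r_* D` is principal (for the kernel of `ModularCurve.reductionPic0Along r hr hgen`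
this is `QuotientAddGroup.eq_zero_iff`).

* `cls HL P Q : Pic0 K F`        : the class of `redDiv P - redDiv Q`;
* `mk_eq_mk_iff`                 : `Pic0.mk D = Pic0.mk D' ↔ D - D'` principal;
* `cls_mem`                      : `cls P Q ∈ J1` when `r (P i) = Qb i`;
* `existsUnique_pts`             : **(Ξa)** `∀ y ∈ J1, ∃! P, (∀ i, r (P i) = Qb i) ∧ cls P Q = y`;
* `pts C hy`, `r_pts`, `cls_pts` : the points of `y`;
* `pts_eq` (R1)                  : recognition: `r (P i) = Qb i`, `cls P Q = y` ⇒ `pts y = P`;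
* `pts_zero`                     : `pts 0 = Q`;
* `pts_inj`                      : `pts y = pts y' → y = y'`;
* `eq_redDiv_pts`                : every effective `D` with `[D - E₀] = y` is `redDiv (pts y)`;
* `add_principal` (R2)           : `redDiv (pts y) + redDiv (pts y') - redDiv (pts (y + y')) - E₀` is principal;
* `neg_principal` (R2')          : `redDiv (pts y) + redDiv (pts (-y)) - E₀ - E₀` is principal.
-/
import Mathlib
import Fermat.Agent.ES.V19.XiExist5

set_option autoImplicit false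

open AlgebraicCurve

noncomputable section

namespace Fermat.Agent.ES.V19.XiPic5

open Fermat.Agent.X0.FF Fermat.Agent.RR.LSpace Fermat.Agent.ES.V19.OnePlaceRep9
  Fermat.Agent.ES.V19.XiExist5

variable {K F k Ft : Type*} [Field K] [Field F] [Algebra K F] [Field k] [Field Ft] [Algebra k Ft]

/-- The context of one chart (see the file header): all the inputs of `XiExist5` and the description of the
kernel of reduction `J1`. -/
structure ChartCtx (r : Place K F → Place k Ft) {g : ℕ} (Qb : Fin g → Place k Ft)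
    (Q : Fin g → Place K F) (J1 : AddSubgroup (Pic0 K F)) : Prop where
  HL : LHyp K F
  riem : ∀ D : Divisor K F, (g : ℤ) ≤ Divisor.degree D → ∃ f : F, f ≠ 0 ∧ f ∈ riemannRochSpace D
  prin : ∀ D ∈ Divisor.principal (K := K) (F := F),
    Finsupp.mapDomain r D ∈ Divisor.principal (K := k) (F := Ft)
  Qb_inj : Function.Injective Qb
  lE : ∀ h : Ft, h ∈ riemannRochSpace (redDiv Qb) → ∃ c : k, h = algebraMap k Ft c
  lD : ∀ P : Fin g → Place K F, (∀ i, r (P i) = Qb i) →
    ∀ f : F, f ∈ riemannRochSpace (redDiv P) → ∃ c : K, f = algebraMap K F c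
  hQ : ∀ i, r (Q i) = Qb i
  mem_J1 : ∀ D : Divisor.degZero (K := K) (F := F),
    Pic0.mk D ∈ J1 ↔
      Finsupp.mapDomain r (D : Divisor K F) ∈ Divisor.principal (K := k) (F := Ft)

/-! ### Classes -/

/-- `Pic0.mk D = Pic0.mk D'` iff `D - D'` is principal. -/
theorem mk_eq_mk_iff (D D' : Divisor.degZero (K := K) (F := F)) :
    Pic0.mk D = Pic0.mk D' ↔
      (D : Divisor K F) - (D' : Divisor K F) ∈ Divisor.principal (K := K) (F := F) := by
  show (QuotientAddGroup.mk D : Pic0 K F) = QuotientAddGroup.mk D' ↔ _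
  rw [eq_comm, QuotientAddGroup.eq, AddSubgroup.mem_addSubgroupOf]
  have e : ((-D' + D : Divisor.degZero (K := K) (F := F)) : Divisor K F) =
      (D : Divisor K F) - (D' : Divisor K F) := by
    rw [AddSubgroup.coe_add, AddSubgroup.coe_neg]
    abel
  rw [e]

theorem sub_redDiv_mem_degZero (HL : LHyp K F) {g : ℕ} (P Q : Fin g → Place K F) :
    redDiv P - redDiv Q ∈ Divisor.degZero (K := K) (F := F) := by
  rw [Divisor.mem_degZero, map_sub, degree_redDiv HL, degree_redDiv HL, sub_self]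

/-- the class of `P_1 + … + P_g - E₀`. -/
def cls (HL : LHyp K F) {g : ℕ} (P Q : Fin g → Place K F) : Pic0 K F :=
  Pic0.mk ⟨redDiv P - redDiv Q, sub_redDiv_mem_degZero HL P Q⟩

theorem cls_self (HL : LHyp K F) {g : ℕ} (Q : Fin g → Place K F) : cls HL Q Q = 0 := by
  have e : (⟨redDiv Q - redDiv Q, sub_redDiv_mem_degZero HL Q Q⟩ :
      Divisor.degZero (K := K) (F := F)) = 0 := Subtype.ext (sub_self _)
  rw [cls, e, Pic0.mk_zero]

/-- `cls P Q = Pic0.mk D₀` iff `redDiv P - redDiv Q - D₀` is principal. -/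
theorem cls_eq_mk_iff (HL : LHyp K F) {g : ℕ} (P Q : Fin g → Place K F)
    (D₀ : Divisor.degZero (K := K) (F := F)) :
    cls HL P Q = Pic0.mk D₀ ↔
      redDiv P - redDiv Q - (D₀ : Divisor K F) ∈ Divisor.principal (K := K) (F := F) :=
  mk_eq_mk_iff _ _

section Ctx

variable {r : Place K F → Place k Ft} {g : ℕ} {Qb : Fin g → Place k Ft}
  {Q : Fin g → Place K F} {J1 : AddSubgroup (Pic0 K F)} (C : ChartCtx r Qb Q J1)

include C

/-- the class of a family of points, one in each disc, lies in the kernel of reduction. -/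
theorem cls_mem {P : Fin g → Place K F} (hP : ∀ i, r (P i) = Qb i) : cls C.HL P Q ∈ J1 := by
  rw [cls, C.mem_J1]
  show Finsupp.mapDomain r (redDiv P - redDiv Q) ∈ _
  rw [Finsupp.mapDomain_sub, mapDomain_redDiv, mapDomain_redDiv, funext hP, funext C.hQ, sub_self]
  exact AddSubgroup.zero_mem _

/-- **(Ξa) on `Pic⁰`**: a class of `J1` is `[P_1 + … + P_g - E₀]` for exactly one family of points
`P i ∈ disc (Qb i)`. -/
theorem existsUnique_pts {y : Pic0 K F} (hy : y ∈ J1) :
    ∃! P : Fin g → Place K F, (∀ i, r (P i) = Qb i) ∧ cls C.HL P Q = y := by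
  obtain ⟨D₀, rfl⟩ := Pic0.mk_surjective y
  have hdeg : Divisor.degree (D₀ : Divisor K F) = 0 := Divisor.mem_degZero.mp D₀.2
  have hD₀ := (C.mem_J1 D₀).mp hy
  obtain ⟨P, ⟨hP, hPp⟩, huniq⟩ :=
    existsUnique_points C.HL r C.riem C.lD C.prin C.Qb_inj C.lE C.hQ hdeg hD₀
  refine ⟨P, ⟨hP, (cls_eq_mk_iff C.HL P Q D₀).mpr hPp⟩, ?_⟩
  rintro P' ⟨hP', hc⟩
  exact huniq P' ⟨hP', (cls_eq_mk_iff C.HL P' Q D₀).mp hc⟩

/-- the points of a class `y ∈ J1`. -/
def pts {y : Pic0 K F} (hy : y ∈ J1) : Fin g → Place K F := (existsUnique_pts C hy).choose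

theorem r_pts {y : Pic0 K F} (hy : y ∈ J1) (i : Fin g) : r (pts C hy i) = Qb i :=
  (existsUnique_pts C hy).choose_spec.1.1 i

theorem cls_pts {y : Pic0 K F} (hy : y ∈ J1) : cls C.HL (pts C hy) Q = y :=
  (existsUnique_pts C hy).choose_spec.1.2

/-- **(R1) recognition of the points.** -/
theorem pts_eq {y : Pic0 K F} (hy : y ∈ J1) {P : Fin g → Place K F}
    (hP : ∀ i, r (P i) = Qb i) (hc : cls C.HL P Q = y) : pts C hy = P :=
  ((existsUnique_pts C hy).choose_spec.2 P ⟨hP, hc⟩).symm

theorem pts_congr {y y' : Pic0 K F} (hy : y ∈ J1) (hy' : y' ∈ J1) (h : y = y') :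
    pts C hy = pts C hy' := by
  subst h
  rfl

/-- `pts 0 = Q`. -/
theorem pts_zero (h0 : (0 : Pic0 K F) ∈ J1) : pts C h0 = Q :=
  pts_eq C h0 C.hQ (cls_self C.HL Q)

/-- the points determine the class. -/
theorem pts_inj {y y' : Pic0 K F} (hy : y ∈ J1) (hy' : y' ∈ J1) (h : pts C hy = pts C hy') :
    y = y' := by
  rw [← cls_pts C hy, ← cls_pts C hy', h]

/-- every effective divisor `D` with `[D - E₀] = y` is `redDiv (pts y)`. -/
theorem eq_redDiv_pts {y : Pic0 K F} (hy : y ∈ J1) {D : Divisor K F} (hD : 0 ≤ D)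
    (D₀ : Divisor.degZero (K := K) (F := F)) (hD₀ : Pic0.mk D₀ = y)
    (hDp : D - redDiv Q - (D₀ : Divisor K F) ∈ Divisor.principal (K := K) (F := F)) :
    D = redDiv (pts C hy) := by
  subst hD₀
  have h1 := (C.mem_J1 D₀).mp hy
  exact eq_redDiv_points r C.lD C.prin C.Qb_inj C.lE C.hQ h1 hD hDp (r_pts C hy)
    ((cls_eq_mk_iff C.HL _ Q D₀).mp (cls_pts C hy))

/-- `cls` is the class of the divisor: for `P`, `P'`, `P''`,
`cls P + cls P' - cls P'' = 0` iff `redDiv P + redDiv P' - redDiv P'' - E₀` is principal. -/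
theorem cls_add_sub_eq_zero_iff (P P' P'' : Fin g → Place K F) :
    cls C.HL P Q + cls C.HL P' Q - cls C.HL P'' Q = 0 ↔
      redDiv P + redDiv P' - redDiv P'' - redDiv Q ∈
        Divisor.principal (K := K) (F := F) := by
  rw [sub_eq_zero, cls, cls, cls, ← Pic0.mk_add, mk_eq_mk_iff]
  have e : ((⟨redDiv P - redDiv Q, sub_redDiv_mem_degZero C.HL P Q⟩ +
      ⟨redDiv P' - redDiv Q, sub_redDiv_mem_degZero C.HL P' Q⟩ :
        Divisor.degZero (K := K) (F := F)) : Divisor K F) -
      ((⟨redDiv P'' - redDiv Q, sub_redDiv_mem_degZero C.HL P'' Q⟩ :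
        Divisor.degZero (K := K) (F := F)) : Divisor K F) =
      redDiv P + redDiv P' - redDiv P'' - redDiv Q := by
    rw [AddSubgroup.coe_add]
    show redDiv P - redDiv Q + (redDiv P' - redDiv Q) - (redDiv P'' - redDiv Q) = _
    abel
  rw [e]

/-- **(R2)**: the function `h` of (Ξc): `D_y + D_{y'} - D_{y+y'} - E₀` is principal. -/
theorem add_principal {y y' : Pic0 K F} (hy : y ∈ J1) (hy' : y' ∈ J1) (hyy' : y + y' ∈ J1) :
    redDiv (pts C hy) + redDiv (pts C hy') - redDiv (pts C hyy') - redDiv Q ∈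
      Divisor.principal (K := K) (F := F) := by
  rw [← cls_add_sub_eq_zero_iff C, cls_pts C hy, cls_pts C hy', cls_pts C hyy', sub_self]

/-- **(R2')**: `D_y + D_{-y} - E₀ - E₀` is principal. -/
theorem neg_principal {y : Pic0 K F} (hy : y ∈ J1) (hny : -y ∈ J1) :
    redDiv (pts C hy) + redDiv (pts C hny) - redDiv Q - redDiv Q ∈
      Divisor.principal (K := K) (F := F) := by
  have h := (cls_add_sub_eq_zero_iff C (pts C hy) (pts C hny) Q).mp (by
    rw [cls_pts C hy, cls_pts C hny, cls_self C.HL Q, add_neg_cancel, sub_zero])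
  exact h

end Ctx

end Fermat.Agent.ES.V19.XiPic5
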